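import Mathlib

/-!
# Ideles of a number field, algebraically (P-CFT, Global layer, route R3 of the blueprint)

For a field `L` of characteristic zero (in practice a number field) and a rational prime `q` we put
`LocAlg L q := ℚ_[q] ⊗[ℚ] L` (a finite etale `ℚ_q`-algebra, the product of the completions of `L`
at the primes over `q`) and `ArchAlg L := ℝ ⊗[ℚ] L`.  The idele group of `L` is the restricted
product of the unit groups of these algebras with respect to the unit groups of the integral
subalgebras `locInt L q` (the `ℤ_q`-span of the ring of integers).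

Every ring automorphism of `L` acts through the second tensor factor, so a group acting on `L` by
ring automorphisms acts on the ideles without any completion functoriality.
-/

open scoped TensorProduct NumberField

noncomputable section

namespace Fermat.Agent.Lib.CFT.Global

/-- The natural number underlying a rational prime.  We use this wrapper instead of the coercion
`Nat.Primes → ℕ` so that the dependent types below stay type-correct at every transparency. -/
def pv (q : Nat.Primes) : ℕ := q.1

lemma pv_eq (q : Nat.Primes) : pv q = (q : ℕ) := rfl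

lemma pv_prime (q : Nat.Primes) : (pv q).Prime := q.2

/-- A rational prime, as an element of `Nat.Primes`, is prime. -/
instance primesFact (q : Nat.Primes) : Fact (pv q).Prime := ⟨q.2⟩

section Algebras

variable (L : Type) [Field L] [CharZero L]

/-- The `q`-adic algebra `ℚ_q ⊗ L` of a field `L` of characteristic zero. -/
abbrev LocAlg (q : Nat.Primes) : Type := ℚ_[pv q] ⊗[ℚ] L

/-- The archimedean algebra `ℝ ⊗ L`. -/
abbrev ArchAlg : Type := ℝ ⊗[ℚ] L

variable {L}
variable {L' L'' : Type} [Field L'] [CharZero L'] [Field L''] [CharZero L'']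

/-- Functoriality of `LocAlg` in the field. -/
def locMap (f : L →+* L') (q : Nat.Primes) : LocAlg L q →ₐ[ℚ_[pv q]] LocAlg L' q :=
  Algebra.TensorProduct.map (AlgHom.id ℚ_[pv q] ℚ_[pv q]) f.toRatAlgHom

/-- Functoriality of `ArchAlg` in the field. -/
def archMap (f : L →+* L') : ArchAlg L →ₐ[ℝ] ArchAlg L' :=
  Algebra.TensorProduct.map (AlgHom.id ℝ ℝ) f.toRatAlgHom

@[simp] lemma locMap_tmul (f : L →+* L') (q : Nat.Primes) (a : ℚ_[pv q]) (x : L) :
    locMap f q (a ⊗ₜ x) = a ⊗ₜ f x := by
  simp [locMap]

@[simp] lemma archMap_tmul (f : L →+* L') (a : ℝ) (x : L) :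
    archMap f (a ⊗ₜ x) = a ⊗ₜ f x := by
  simp [archMap]

lemma locMap_id (q : Nat.Primes) (x : LocAlg L q) : locMap (RingHom.id L) q x = x := by
  induction x using TensorProduct.induction_on with
  | zero => simp
  | tmul a x => simp
  | add x y hx hy => simp [hx, hy]

lemma archMap_id (x : ArchAlg L) : archMap (RingHom.id L) x = x := by
  induction x using TensorProduct.induction_on with
  | zero => simp
  | tmul a x => simp
  | add x y hx hy => simp [hx, hy]

lemma locMap_comp (f : L →+* L') (g : L' →+* L'') (q : Nat.Primes) (x : LocAlg L q) :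
    locMap (g.comp f) q x = locMap g q (locMap f q x) := by
  induction x using TensorProduct.induction_on with
  | zero => simp
  | tmul a x => simp
  | add x y hx hy => simp [hx, hy]

lemma archMap_comp (f : L →+* L') (g : L' →+* L'') (x : ArchAlg L) :
    archMap (g.comp f) x = archMap g (archMap f x) := by
  induction x using TensorProduct.induction_on with
  | zero => simp
  | tmul a x => simp
  | add x y hx hy => simp [hx, hy]

end Algebras

section Action

variable (L : Type) [Field L] [CharZero L]
variable (G : Type) [Group G] [MulSemiringAction G L]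

/-- A group acting on `L` by ring automorphisms acts on `ℚ_q ⊗ L` through the second factor. -/
instance locAlgAction (q : Nat.Primes) : MulSemiringAction G (LocAlg L q) where
  smul g x := locMap (MulSemiringAction.toRingHom G L g) q x
  one_smul x := by
    change locMap (MulSemiringAction.toRingHom G L 1) q x = x
    have : MulSemiringAction.toRingHom G L 1 = RingHom.id L := by ext; simp
    rw [this, locMap_id]
  mul_smul g h x := by
    change locMap (MulSemiringAction.toRingHom G L (g * h)) q x =
      locMap (MulSemiringAction.toRingHom G L g) q (locMap (MulSemiringAction.toRingHom G L h) q x)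
    rw [← locMap_comp]
    congr 1
    ext y; simp [mul_smul]
  smul_zero g := map_zero _
  smul_add g := map_add _
  smul_one g := map_one _
  smul_mul g := map_mul _

/-- A group acting on `L` by ring automorphisms acts on `ℝ ⊗ L` through the second factor. -/
instance archAlgAction : MulSemiringAction G (ArchAlg L) where
  smul g x := archMap (MulSemiringAction.toRingHom G L g) x
  one_smul x := by
    change archMap (MulSemiringAction.toRingHom G L 1) x = x
    have : MulSemiringAction.toRingHom G L 1 = RingHom.id L := by ext; simp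
    rw [this, archMap_id]
  mul_smul g h x := by
    change archMap (MulSemiringAction.toRingHom G L (g * h)) x =
      archMap (MulSemiringAction.toRingHom G L g) (archMap (MulSemiringAction.toRingHom G L h) x)
    rw [← archMap_comp]
    congr 1
    ext y; simp [mul_smul]
  smul_zero g := map_zero _
  smul_add g := map_add _
  smul_one g := map_one _
  smul_mul g := map_mul _

variable {L G}

lemma smul_locAlg_def (q : Nat.Primes) (g : G) (x : LocAlg L q) :
    g • x = locMap (MulSemiringAction.toRingHom G L g) q x := rfl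

lemma smul_archAlg_def (g : G) (x : ArchAlg L) :
    g • x = archMap (MulSemiringAction.toRingHom G L g) x := rfl

@[simp] lemma smul_tmul_locAlg (q : Nat.Primes) (g : G) (a : ℚ_[pv q]) (x : L) :
    g • (a ⊗ₜ[ℚ] x : LocAlg L q) = a ⊗ₜ (g • x) := by
  rw [smul_locAlg_def]; simp

@[simp] lemma smul_tmul_archAlg (g : G) (a : ℝ) (x : L) :
    g • (a ⊗ₜ[ℚ] x : ArchAlg L) = a ⊗ₜ (g • x) := by
  rw [smul_archAlg_def]; simp

/-- The action on the unit groups. -/
instance locAlgUnitsAction (q : Nat.Primes) : MulDistribMulAction G (LocAlg L q)ˣ :=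
  Units.mulDistribMulActionRight

/-- The action on the unit groups. -/
instance archAlgUnitsAction : MulDistribMulAction G (ArchAlg L)ˣ :=
  Units.mulDistribMulActionRight

@[simp] lemma val_smul_locAlgUnits (q : Nat.Primes) (g : G) (u : (LocAlg L q)ˣ) :
    ((g • u : (LocAlg L q)ˣ) : LocAlg L q) = g • (u : LocAlg L q) := rfl

@[simp] lemma val_smul_archAlgUnits (g : G) (u : (ArchAlg L)ˣ) :
    ((g • u : (ArchAlg L)ˣ) : ArchAlg L) = g • (u : ArchAlg L) := rfl

end Action

section Integral

variable (L : Type) [Field L] [NumberField L]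

/-- The integral subalgebra of `ℚ_q ⊗ L`: the `ℤ_q`-subalgebra generated by `1 ⊗ 𝓞 L`
(it is the maximal order, i.e. the product of the valuation rings of the completions). -/
def locInt (q : Nat.Primes) : Subalgebra ℤ_[pv q] (LocAlg L q) :=
  Algebra.adjoin ℤ_[pv q] (Set.range fun x : 𝓞 L => (1 : ℚ_[pv q]) ⊗ₜ[ℚ] (x : L))

lemma one_tmul_mem_locInt (q : Nat.Primes) (x : 𝓞 L) :
    ((1 : ℚ_[pv q]) ⊗ₜ[ℚ] (x : L) : LocAlg L q) ∈ locInt L q :=
  Algebra.subset_adjoin ⟨x, rfl⟩

lemma tmul_mem_locInt (q : Nat.Primes) (a : ℤ_[pv q]) (x : 𝓞 L) :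
    ((a : ℚ_[pv q]) ⊗ₜ[ℚ] (x : L) : LocAlg L q) ∈ locInt L q := by
  have h : ((a : ℚ_[pv q]) ⊗ₜ[ℚ] (x : L) : LocAlg L q) =
      a • ((1 : ℚ_[pv q]) ⊗ₜ[ℚ] (x : L) : LocAlg L q) := by
    rw [Algebra.smul_def, Algebra.TensorProduct.algebraMap_apply]
    simp [Algebra.TensorProduct.tmul_mul_tmul]
  rw [h]
  exact Subalgebra.smul_mem _ (one_tmul_mem_locInt L q x) a

/-- The integral units: units of `ℚ_q ⊗ L` which, together with their inverse, lie in the
integral subalgebra. -/
def locIntUnits (q : Nat.Primes) : Subgroup (LocAlg L q)ˣ where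
  carrier := {u | (u : LocAlg L q) ∈ locInt L q ∧ ((u⁻¹ : (LocAlg L q)ˣ) : LocAlg L q) ∈ locInt L q}
  mul_mem' := by
    rintro a b ⟨ha, ha'⟩ ⟨hb, hb'⟩
    refine ⟨?_, ?_⟩
    · simpa using mul_mem ha hb
    · simpa [mul_inv_rev] using mul_mem hb' ha'
  one_mem' := by simp [one_mem]
  inv_mem' := by
    rintro a ⟨ha, ha'⟩
    exact ⟨ha', by simpa using ha⟩

lemma mem_locIntUnits (q : Nat.Primes) (u : (LocAlg L q)ˣ) :
    u ∈ locIntUnits L q ↔ (u : LocAlg L q) ∈ locInt L q ∧
      ((u⁻¹ : (LocAlg L q)ˣ) : LocAlg L q) ∈ locInt L q := Iff.rfl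

/-- The image of a nonzero element of `L` in `(ℚ_q ⊗ L)ˣ`. -/
def locUnit (q : Nat.Primes) : Lˣ →* (LocAlg L q)ˣ :=
  Units.map ((Algebra.TensorProduct.includeRight : L →ₐ[ℚ] LocAlg L q) : L →* LocAlg L q)

@[simp] lemma val_locUnit (q : Nat.Primes) (x : Lˣ) :
    ((locUnit L q x : (LocAlg L q)ˣ) : LocAlg L q) = (1 : ℚ_[pv q]) ⊗ₜ[ℚ] (x : L) := rfl

/-- The image of a nonzero element of `L` in `(ℝ ⊗ L)ˣ`. -/
def archUnit : Lˣ →* (ArchAlg L)ˣ :=
  Units.map ((Algebra.TensorProduct.includeRight : L →ₐ[ℚ] ArchAlg L) : L →* ArchAlg L)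

@[simp] lemma val_archUnit (x : Lˣ) :
    ((archUnit L x : (ArchAlg L)ˣ) : ArchAlg L) = (1 : ℝ) ⊗ₜ[ℚ] (x : L) := rfl

/-- The inverse of a nonzero algebraic integer is integral at every prime not dividing the norm
of the ideal it generates. -/
lemma locUnit_inv_mem_locInt_of_integer (q : Nat.Primes) (x : Lˣ) (a : 𝓞 L) (ha : (a : L) = x)
    (hq : ¬ (q : ℕ) ∣ Ideal.absNorm (Ideal.span {a})) :
    ((locUnit L q x)⁻¹ : (LocAlg L q)ˣ).1 ∈ locInt L q := by
  set N : ℕ := Ideal.absNorm (Ideal.span {a}) with hN
  have hmem : ((N : ℤ) : 𝓞 L) ∈ Ideal.span {a} := by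
    have := Ideal.absNorm_mem (Ideal.span {a})
    simpa [hN] using this
  obtain ⟨a', ha'⟩ := Ideal.mem_span_singleton'.1 hmem
  have hunit : IsUnit ((N : ℤ_[pv q])) := by
    rw [PadicInt.isUnit_iff, PadicInt.norm_natCast_eq_one_iff]
    exact (Nat.Prime.coprime_iff_not_dvd q.2).2 hq
  obtain ⟨u, hu⟩ := hunit
  have hinv : ((locUnit L q x : (LocAlg L q)ˣ) : LocAlg L q) *
      (((u⁻¹ : ℤ_[pv q]ˣ) : ℤ_[pv q]) : ℚ_[pv q]) ⊗ₜ[ℚ] ((a' : 𝓞 L) : L) = 1 := by
    rw [val_locUnit, Algebra.TensorProduct.tmul_mul_tmul, one_mul]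
    have h1 : (x : L) * ((a' : 𝓞 L) : L) = ((N : ℚ) : L) := by
      rw [← ha, mul_comm]
      have := congrArg (fun z : 𝓞 L => (z : L)) ha'
      simpa using this
    rw [h1]
    have h2 : (((u⁻¹ : ℤ_[pv q]ˣ) : ℤ_[pv q]) : ℚ_[pv q]) ⊗ₜ[ℚ] ((N : ℚ) : L) =
        ((N : ℚ) • (((u⁻¹ : ℤ_[pv q]ˣ) : ℤ_[pv q]) : ℚ_[pv q])) ⊗ₜ[ℚ] (1 : L) := by
      rw [TensorProduct.smul_tmul]
      congr 1
      simp [Algebra.smul_def]
    rw [h2]
    have h3 : (N : ℚ) • (((u⁻¹ : ℤ_[pv q]ˣ) : ℤ_[pv q]) : ℚ_[pv q]) = 1 := by
      have : ((u : ℤ_[pv q]) : ℚ_[pv q]) *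
          (((u⁻¹ : ℤ_[pv q]ˣ) : ℤ_[pv q]) : ℚ_[pv q]) = 1 := by
        rw [← PadicInt.coe_mul]; simp
      rw [hu] at this
      simpa [Algebra.smul_def] using this
    rw [h3]
    rfl
  have : ((locUnit L q x)⁻¹ : (LocAlg L q)ˣ).1 =
      (((u⁻¹ : ℤ_[pv q]ˣ) : ℤ_[pv q]) : ℚ_[pv q]) ⊗ₜ[ℚ] ((a' : 𝓞 L) : L) :=
    (Units.inv_eq_of_mul_eq_one_right hinv)
  rw [this]
  exact tmul_mem_locInt L q _ a'

/-- A nonzero algebraic integer is an integral unit at every prime not dividing the norm of
the ideal it generates. -/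
lemma locUnit_mem_locIntUnits_of_integer (q : Nat.Primes) (x : Lˣ) (a : 𝓞 L) (ha : (a : L) = x)
    (hq : ¬ (q : ℕ) ∣ Ideal.absNorm (Ideal.span {a})) :
    locUnit L q x ∈ locIntUnits L q := by
  refine ⟨?_, locUnit_inv_mem_locInt_of_integer L q x a ha hq⟩
  rw [val_locUnit, ← ha]
  exact one_tmul_mem_locInt L q a

/-- Every nonzero element of `L` is an integral unit at almost all primes. -/
lemma finite_setOf_locUnit_not_mem (x : Lˣ) :
    {q : Nat.Primes | locUnit L q x ∉ locIntUnits L q}.Finite := by
  obtain ⟨a, b, hb, hab⟩ : ∃ a b : 𝓞 L, b ≠ 0 ∧ (x : L) = (a : L) / (b : L) := by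
    obtain ⟨⟨a, b⟩, h⟩ := IsLocalization.surj (nonZeroDivisors (𝓞 L)) (x : L)
    refine ⟨a, b, nonZeroDivisors.ne_zero b.2, ?_⟩
    have hb0 : ((b : 𝓞 L) : L) ≠ 0 := by
      simp
    rw [eq_div_iff hb0]
    simpa using h
  have hb0 : ((b : 𝓞 L) : L) ≠ 0 := by simpa using hb
  have ha0 : ((a : 𝓞 L) : L) ≠ 0 := by
    intro h0
    rw [h0, zero_div] at hab
    exact x.ne_zero hab
  have ha' : a ≠ 0 := by rintro rfl; simp at ha0
  set ua : Lˣ := Units.mk0 _ ha0
  set ub : Lˣ := Units.mk0 _ hb0
  have hx : x = ua * ub⁻¹ := by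
    ext; simp [ua, ub, hab, div_eq_mul_inv]
  set Na := Ideal.absNorm (Ideal.span {a})
  set Nb := Ideal.absNorm (Ideal.span {b})
  have hNa : Na ≠ 0 := by
    simp [Na, ha']
  have hNb : Nb ≠ 0 := by
    simp [Nb, hb]
  have hfin : {q : Nat.Primes | (q : ℕ) ∣ Na * Nb}.Finite := by
    have : {q : Nat.Primes | (q : ℕ) ∣ Na * Nb} ⊆
        (fun q : Nat.Primes => (q : ℕ)) ⁻¹' ((Na * Nb).divisors : Set ℕ) := by
      intro q hq
      simp only [Set.mem_preimage, Finset.mem_coe, Nat.mem_divisors]
      exact ⟨hq, mul_ne_zero hNa hNb⟩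
    exact Set.Finite.subset (Set.Finite.preimage (Nat.Primes.coe_nat_injective.injOn)
      (Finset.finite_toSet _)) this
  refine hfin.subset ?_
  intro q hq
  by_contra hdiv
  apply hq
  have h1 : ¬ (q : ℕ) ∣ Na := fun h => hdiv (Dvd.dvd.mul_right h _)
  have h2 : ¬ (q : ℕ) ∣ Nb := fun h => hdiv (Dvd.dvd.mul_left h _)
  rw [hx, map_mul, map_inv]
  exact mul_mem (locUnit_mem_locIntUnits_of_integer L q ua a rfl h1)
    (inv_mem (locUnit_mem_locIntUnits_of_integer L q ub b rfl h2))

/-- The unrestricted product of the local unit groups. -/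
abbrev IdeleProd : Type := (∀ q : Nat.Primes, (LocAlg L q)ˣ) × (ArchAlg L)ˣ

/-- The idele group, as a subgroup of the unrestricted product. -/
def ideleSubgroup : Subgroup (IdeleProd L) where
  carrier := {x | {q : Nat.Primes | x.1 q ∉ locIntUnits L q}.Finite}
  mul_mem' := by
    intro a b ha hb
    refine (ha.union hb).subset ?_
    intro q hq
    by_contra h
    simp only [Set.mem_union, not_or] at h
    exact hq (mul_mem (not_not.1 h.1) (not_not.1 h.2))
  one_mem' := by
    have : {q : Nat.Primes | (1 : IdeleProd L).1 q ∉ locIntUnits L q} = ∅ := by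
      ext q; simp [one_mem]
    change {q : Nat.Primes | (1 : IdeleProd L).1 q ∉ locIntUnits L q}.Finite
    rw [this]
    exact Set.finite_empty
  inv_mem' := by
    intro a ha
    refine ha.subset ?_
    intro q hq h
    exact hq (by simpa using inv_mem h)

/-- The idele group of the number field `L`. -/
abbrev Idele : Type := ↥(ideleSubgroup L)

lemma mem_ideleSubgroup (x : IdeleProd L) :
    x ∈ ideleSubgroup L ↔ {q : Nat.Primes | x.1 q ∉ locIntUnits L q}.Finite := Iff.rfl

/-- The diagonal embedding of `Lˣ` into the ideles. -/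
def principal : Lˣ →* Idele L where
  toFun x := ⟨(fun q => locUnit L q x, archUnit L x), finite_setOf_locUnit_not_mem L x⟩
  map_one' := by
    ext : 1
    simp only [map_one]
    rfl
  map_mul' x y := by
    ext : 1
    simp only [map_mul]
    rfl

@[simp] lemma principal_fst (x : Lˣ) (q : Nat.Primes) :
    (principal L x : IdeleProd L).1 q = locUnit L q x := rfl

@[simp] lemma principal_snd (x : Lˣ) : (principal L x : IdeleProd L).2 = archUnit L x := rfl

/-- The idele class group. -/
abbrev IdeleClass : Type := Idele L ⧸ (principal L).range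

end Integral

section IdeleAction

variable (L : Type) [Field L] [NumberField L]
variable (G : Type) [Group G] [MulSemiringAction G L]

lemma smul_mem_locInt (q : Nat.Primes) (g : G) {x : LocAlg L q} (hx : x ∈ locInt L q) :
    g • x ∈ locInt L q := by
  let φ : LocAlg L q →ₐ[ℤ_[pv q]] LocAlg L q :=
    (locMap (MulSemiringAction.toRingHom G L g) q).restrictScalars ℤ_[pv q]
  have hφ : ∀ y, φ y = g • y := fun y => rfl
  have hmap : (locInt L q).map φ ≤ locInt L q := by
    rw [locInt, AlgHom.map_adjoin]
    apply Algebra.adjoin_mono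
    rintro _ ⟨_, ⟨y, rfl⟩, rfl⟩
    have hint : IsIntegral ℤ (g • (y : L)) :=
      map_isIntegral_int (MulSemiringAction.toRingHom G L g) y.2
    refine ⟨⟨g • (y : L), hint⟩, ?_⟩
    simp only [hφ, smul_tmul_locAlg]
    rfl
  rw [← hφ]
  exact hmap ⟨x, hx, rfl⟩

lemma smul_mem_locIntUnits (q : Nat.Primes) (g : G) {u : (LocAlg L q)ˣ}
    (hu : u ∈ locIntUnits L q) : g • u ∈ locIntUnits L q := by
  refine ⟨smul_mem_locInt L G q g hu.1, ?_⟩
  have : ((g • u)⁻¹ : (LocAlg L q)ˣ) = g • u⁻¹ := by
    rw [smul_inv']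
  rw [this]
  exact smul_mem_locInt L G q g hu.2

lemma smul_mem_locIntUnits_iff (q : Nat.Primes) (g : G) {u : (LocAlg L q)ˣ} :
    g • u ∈ locIntUnits L q ↔ u ∈ locIntUnits L q := by
  refine ⟨fun h => ?_, smul_mem_locIntUnits L G q g⟩
  have := smul_mem_locIntUnits L G q g⁻¹ h
  simpa using this

/-- The action on the unrestricted product. -/
instance ideleProdAction : MulDistribMulAction G (IdeleProd L) where
  smul g x := (fun q => g • x.1 q, g • x.2)
  one_smul x := by
    ext : 1
    · funext q; exact one_smul G (x.1 q)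
    · exact one_smul G x.2
  mul_smul g h x := by
    ext : 1
    · funext q; exact mul_smul g h (x.1 q)
    · exact mul_smul g h x.2
  smul_mul g x y := by
    ext : 1
    · funext q; exact smul_mul' g (x.1 q) (y.1 q)
    · exact smul_mul' g x.2 y.2
  smul_one g := by
    ext : 1
    · funext q; exact smul_one g
    · exact smul_one g

@[simp] lemma smul_ideleProd_fst (g : G) (x : IdeleProd L) (q : Nat.Primes) :
    (g • x).1 q = g • x.1 q := rfl

@[simp] lemma smul_ideleProd_snd (g : G) (x : IdeleProd L) : (g • x).2 = g • x.2 := rfl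

lemma smul_mem_ideleSubgroup (g : G) {x : IdeleProd L} (hx : x ∈ ideleSubgroup L) :
    g • x ∈ ideleSubgroup L := by
  refine Set.Finite.subset hx ?_
  intro q hq h
  exact hq ((smul_mem_locIntUnits_iff L G q g).2 h)

/-- The action of `G` on the ideles of `L`. -/
instance ideleAction : MulDistribMulAction G (Idele L) where
  smul g x := ⟨g • (x : IdeleProd L), smul_mem_ideleSubgroup L G g x.2⟩
  one_smul x := Subtype.ext (one_smul G (x : IdeleProd L))
  mul_smul g h x := Subtype.ext (mul_smul g h (x : IdeleProd L))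
  smul_mul g x y := Subtype.ext (smul_mul' g (x : IdeleProd L) (y : IdeleProd L))
  smul_one g := Subtype.ext (smul_one g)

@[simp] lemma coe_smul_idele (g : G) (x : Idele L) :
    ((g • x : Idele L) : IdeleProd L) = g • (x : IdeleProd L) := rfl

/-- The action of `G` on `Lˣ` (scoped; for `G = L ≃ₐ[K] L` it is definitionally the Mathlib one). -/
scoped instance fieldUnitsAction : MulDistribMulAction G Lˣ := Units.mulDistribMulActionRight

/-- The diagonal embedding is equivariant. -/
lemma principal_smul (g : G) (x : Lˣ) : principal L (g • x) = g • principal L x := by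
  apply Subtype.ext
  ext : 1
  · funext q
    apply Units.ext
    simp
  · apply Units.ext
    simp

lemma smul_mem_range_principal (g : G) {x : Idele L} (hx : x ∈ (principal L).range) :
    g • x ∈ (principal L).range := by
  obtain ⟨y, rfl⟩ := hx
  exact ⟨g • y, principal_smul L G g y⟩

/-- The action of `G` on the idele class group. -/
instance ideleClassAction : MulDistribMulAction G (IdeleClass L) where
  smul g := QuotientGroup.map (principal L).range (principal L).range
    (MulDistribMulAction.toMonoidHom (Idele L) g)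
    (fun x hx => smul_mem_range_principal L G g hx)
  one_smul x := by
    induction x using QuotientGroup.induction_on with
    | H x =>
      change (QuotientGroup.mk ((1 : G) • x) : IdeleClass L) = QuotientGroup.mk x
      rw [one_smul]
  mul_smul g h x := by
    induction x using QuotientGroup.induction_on with
    | H x =>
      change (QuotientGroup.mk ((g * h) • x) : IdeleClass L) = QuotientGroup.mk (g • h • x)
      rw [mul_smul]
  smul_mul g x y := map_mul _ x y
  smul_one g := map_one _

lemma smul_mk_ideleClass (g : G) (x : Idele L) :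
    g • (QuotientGroup.mk x : IdeleClass L) = QuotientGroup.mk (g • x) := rfl

/-- The ideles as a `ℤ`-linear representation. -/
abbrev ideleRep : Rep ℤ G := Rep.ofMulDistribMulAction G (Idele L)

/-- The idele classes as a `ℤ`-linear representation. -/
abbrev ideleClassRep : Rep ℤ G := Rep.ofMulDistribMulAction G (IdeleClass L)

/-- The multiplicative group as a `ℤ`-linear representation. -/
abbrev unitsRep : Rep ℤ G := Rep.ofMulDistribMulAction G Lˣ

end IdeleAction

end Fermat.Agent.Lib.CFT.Global
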