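import Mathlib
import Fermat.Agent.Lib.CFT.Global.Ideles
import Fermat.Agent.Lib.CFT.Coh.InfRes

/-!
# The short exact sequence `1 → Lˣ → J_L → C_L → 1` of `G`-modules

For a number field `L` with a group `G` acting by ring automorphisms we package the
principal embedding and the class map as morphisms of `Rep ℤ G`, prove that they form a short
exact sequence, and deduce the "Hasse principle" for `H²`: if `H¹(G, C_L) = 0`, then
`H²(G, Lˣ) → H²(G, J_L)` is injective.
-/

namespace Fermat.Agent.Lib.CFT.Global

open CategoryTheory CategoryTheory.Limits

section General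

variable {G : Type} [Group G]

/-- A `G`-equivariant monoid homomorphism between commutative groups with distributive
`G`-actions, as a morphism of `Rep ℤ G`. -/
noncomputable def repHomOfMulEquivariant {M N : Type} [CommGroup M] [CommGroup N]
    [MulDistribMulAction G M] [MulDistribMulAction G N] (f : M →* N)
    (hf : ∀ (g : G) (m : M), f (g • m) = g • f m) :
    Rep.ofMulDistribMulAction G M ⟶ Rep.ofMulDistribMulAction G N :=
  Rep.ofHom ⟨(MonoidHom.toAdditive f).toIntLinearMap, fun g => by
    ext m
    exact congrArg Additive.ofMul (hf g m.toMul)⟩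

@[simp] lemma repHomOfMulEquivariant_apply {M N : Type} [CommGroup M] [CommGroup N]
    [MulDistribMulAction G M] [MulDistribMulAction G N] (f : M →* N)
    (hf : ∀ (g : G) (m : M), f (g • m) = g • f m) (m : Additive M) :
    (repHomOfMulEquivariant f hf).hom m = Additive.ofMul (f m.toMul) := rfl

end General

section SES

variable (L : Type) [Field L] [NumberField L]
variable (G : Type) [Group G] [MulSemiringAction G L]

/-- The principal embedding `Lˣ → J_L` as a morphism of `Rep ℤ G`. -/
noncomputable def principalRepHom : unitsRep L G ⟶ ideleRep L G :=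
  repHomOfMulEquivariant (principal L) (fun g x => principal_smul L G g x)

/-- The class map `J_L → C_L` as a morphism of `Rep ℤ G`. -/
noncomputable def classRepHom : ideleRep L G ⟶ ideleClassRep L G :=
  repHomOfMulEquivariant (QuotientGroup.mk' (principal L).range)
    (fun g x => (smul_mk_ideleClass L G g x).symm)

/-- The diagonal embedding is injective. -/
lemma principal_injective' : Function.Injective (principal L) := by
  intro x y h
  have h2 : archUnit L x = archUnit L y := by
    have := congrArg (fun z : Idele L => (z : IdeleProd L).2) h
    simpa using this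
  have h3 : ((1 : ℝ) ⊗ₜ[ℚ] (x : L) : ArchAlg L) = (1 : ℝ) ⊗ₜ[ℚ] (y : L) := by
    have := congrArg (fun u : (ArchAlg L)ˣ => (u : ArchAlg L)) h2
    simpa using this
  have hinj : Function.Injective
      (Algebra.TensorProduct.includeRight : L →ₐ[ℚ] ArchAlg L) :=
    Algebra.TensorProduct.includeRight_injective (algebraMap ℚ ℝ).injective
  exact Units.ext (hinj h3)

/-- The short complex `Lˣ → J_L → C_L` of `G`-modules. -/
noncomputable def ideleShortComplex : ShortComplex (Rep ℤ G) where
  X₁ := unitsRep L G
  X₂ := ideleRep L G
  X₃ := ideleClassRep L G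
  f := principalRepHom L G
  g := classRepHom L G
  zero := by
    ext x
    change Additive.ofMul ((QuotientGroup.mk' (principal L).range) (principal L x.toMul)) = 0
    rw [← ofMul_one]
    congr 1
    exact (QuotientGroup.eq_one_iff _).2 ⟨x.toMul, rfl⟩

lemma ideleShortComplex_shortExact : (ideleShortComplex L G).ShortExact := by
  refine Coh.InfRes.shortExact_of ?_ ?_ ?_
  · intro x y h
    have h' : principal L x.toMul = principal L y.toMul := congrArg Additive.toMul h
    exact congrArg Additive.ofMul (principal_injective' L h')
  · intro c
    obtain ⟨x, hx⟩ := QuotientGroup.mk'_surjective (principal L).range c.toMul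
    exact ⟨Additive.ofMul x, congrArg Additive.ofMul hx⟩
  · intro x hx
    have h' : (QuotientGroup.mk' (principal L).range) x.toMul = 1 := congrArg Additive.toMul hx
    obtain ⟨a, ha⟩ := (QuotientGroup.eq_one_iff _).1 h'
    exact ⟨Additive.ofMul a, congrArg Additive.ofMul ha⟩

open groupCohomology in
/-- **Hasse principle for `H²`**: if `H¹(G, C_L) = 0` then `H²(G, Lˣ) → H²(G, J_L)` is
injective. -/
theorem hasse_principle_H2 (h1 : IsZero (groupCohomology (ideleClassRep L G) 1)) :
    Function.Injective
      ((groupCohomology.functor ℤ G 2).map (principalRepHom L G)) := by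
  have hX := ideleShortComplex_shortExact L G
  have hex := mapShortComplex₁_exact hX (i := 1) (j := 2) rfl
  have hmono : Mono (mapShortComplex₁ hX (i := 1) (j := 2) rfl).g :=
    hex.mono_g (h1.eq_of_src _ _)
  exact (ModuleCat.mono_iff_injective _).1 hmono

open groupCohomology in
/-- Exactness of `H²(G, Lˣ) → H²(G, J_L) → H²(G, C_L)` in elementwise form. -/
theorem exists_of_map_classRepHom_eq_zero
    (x : groupCohomology (ideleRep L G) 2)
    (hx : (groupCohomology.functor ℤ G 2).map (classRepHom L G) x = 0) :
    ∃ y : groupCohomology (unitsRep L G) 2,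
      (groupCohomology.functor ℤ G 2).map (principalRepHom L G) y = x := by
  have hX := ideleShortComplex_shortExact L G
  have hex := mapShortComplex₂_exact hX 2
  rw [ShortComplex.moduleCat_exact_iff] at hex
  exact hex x hx

open groupCohomology in
/-- The composite `H²(G, Lˣ) → H²(G, J_L) → H²(G, C_L)` is zero. -/
theorem map_classRepHom_map_principalRepHom
    (y : groupCohomology (unitsRep L G) 2) :
    (groupCohomology.functor ℤ G 2).map (classRepHom L G)
      ((groupCohomology.functor ℤ G 2).map (principalRepHom L G) y) = 0 := by
  have h : (groupCohomology.functor ℤ G 2).map (principalRepHom L G) ≫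
      (groupCohomology.functor ℤ G 2).map (classRepHom L G) = 0 := by
    rw [← Functor.map_comp]
    have : principalRepHom L G ≫ classRepHom L G = 0 := (ideleShortComplex L G).zero
    rw [this, Functor.map_zero]
  have h2 := ConcreteCategory.congr_hom h y
  rw [ConcreteCategory.comp_apply] at h2
  exact h2

open groupCohomology in
/-- If `H³(G, Lˣ) = 0` (e.g. `G` cyclic, by periodicity and Hilbert 90), then
`H²(G, J_L) → H²(G, C_L)` is surjective. -/
theorem surjective_H2_classRepHom_of_isZero_H3
    (h3 : IsZero (groupCohomology (unitsRep L G) 3)) :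
    Function.Surjective ((groupCohomology.functor ℤ G 2).map (classRepHom L G)) := by
  have hX := ideleShortComplex_shortExact L G
  have hex := mapShortComplex₃_exact hX (i := 2) (j := 3) rfl
  have hepi : Epi (mapShortComplex₃ hX (i := 2) (j := 3) rfl).f :=
    hex.epi_f (h3.eq_of_tgt _ _)
  exact (ModuleCat.epi_iff_surjective _).1 hepi

end SES

end Fermat.Agent.Lib.CFT.Global
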