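import Mathlib

/-!
# Transport between the action form and the Galois form of `Hⁿ(-, Fˣ)` (P-CFT)

For a finite group `D` acting on a field `F` with `[IsGaloisGroup D E F]` (Mathlib's predicate:
faithful action with fixed field `E`), the representation `Rep.ofMulDistribMulAction D Fˣ`
(action form; this is what comes out of the semi-local Shapiro lemma for ideles) and
`Rep.ofAlgebraAutOnUnits E F` (Galois form; this is what the local theory is stated for) have the
same cohomology: `unitsCohomologyIso D E F n`, with explicit `hom`/`inv` as `groupCohomology.map`s
along `galEquiv D E F : D ≃* Gal(F/E)`.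

`isGaloisGroup_fixedPoints`: a finite group acting faithfully and `K₀`-linearly on `F` is a Galois
group of `F` over `FixedPoints.intermediateField D : IntermediateField K₀ F`.
-/

set_option autoImplicit false

open CategoryTheory Rep groupCohomology

namespace Fermat.Agent.Lib.CFT.Global.LocalFieldAt

section Transport

attribute [local instance] Units.mulDistribMulActionRight

variable (D E F : Type) [Group D] [Finite D] [Field E] [Field F] [Algebra E F]
  [MulSemiringAction D F] [IsGaloisGroup D E F]

/-- The canonical isomorphism from an abstract Galois group `D` of `F / E` to `Gal(F/E)`. -/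
noncomputable abbrev galEquiv : D ≃* Gal(F/E) := IsGaloisGroup.mulEquivAlgEquiv D E F

lemma galEquiv_apply (d : D) (x : F) : galEquiv D E F d x = d • x := rfl

lemma galEquiv_smul_units (d : D) (u : Fˣ) : galEquiv D E F d • u = d • u :=
  Units.ext rfl

omit [Finite D] in
lemma finrank_eq_card : Module.finrank E F = Nat.card D :=
  (IsGaloisGroup.card_eq_finrank D E F).symm

/-- **Transport from the action form to the Galois form**: `Hⁿ(D, Fˣ) ≅ Hⁿ(Gal(F/E), Fˣ)` for an
abstract Galois group `D` of `F / E`.  The map `hom` is `groupCohomology.map (galEquiv D E F).symm`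
(of the identity on `Fˣ`), the inverse is `groupCohomology.map (galEquiv D E F)`. -/
noncomputable def unitsCohomologyIso (n : ℕ) :
    groupCohomology (Rep.ofMulDistribMulAction D Fˣ) n ≅
      groupCohomology (Rep.ofAlgebraAutOnUnits E F) n :=
  groupCohomology.mapIso (galEquiv D E F) (LinearEquiv.refl ℤ (Additive Fˣ))
    (fun g => by
      ext u
      exact (congrArg Additive.ofMul (galEquiv_smul_units D E F g (Additive.toMul u))).symm) n

lemma unitsCohomologyIso_hom (n : ℕ) :
    (unitsCohomologyIso D E F n).hom =
      groupCohomology.map (galEquiv D E F).symm.toMonoidHom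
        (Rep.ofHom (ρ := (res (galEquiv D E F).symm.toMonoidHom
            (Rep.ofMulDistribMulAction D Fˣ)).ρ)
          (σ := (Rep.ofAlgebraAutOnUnits E F).ρ)
          ⟨LinearMap.id, fun h => by
            ext u
            have := galEquiv_smul_units D E F ((galEquiv D E F).symm h) (Additive.toMul u)
            rw [MulEquiv.apply_symm_apply] at this
            exact congrArg Additive.ofMul this.symm⟩) n := rfl

lemma unitsCohomologyIso_inv (n : ℕ) :
    (unitsCohomologyIso D E F n).inv =
      groupCohomology.map (galEquiv D E F).toMonoidHom
        (Rep.ofHom (ρ := (res (galEquiv D E F).toMonoidHom (Rep.ofAlgebraAutOnUnits E F)).ρ)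
          (σ := (Rep.ofMulDistribMulAction D Fˣ).ρ)
          ⟨LinearMap.id, fun g => by
            ext u
            exact congrArg Additive.ofMul (galEquiv_smul_units D E F g (Additive.toMul u))⟩) n :=
  rfl

/-- The action form and the Galois form of `Fˣ` are isomorphic representations of `D`
(the isomorphism is the identity on the underlying group). -/
noncomputable def unitsRepIso :
    Rep.ofMulDistribMulAction D Fˣ ≅
      res (galEquiv D E F).toMonoidHom (Rep.ofAlgebraAutOnUnits E F) :=
  Rep.mkIso (Representation.Equiv.mk (LinearEquiv.refl ℤ (Additive Fˣ)) (fun g => by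
    ext u
    exact (congrArg Additive.ofMul (galEquiv_smul_units D E F g (Additive.toMul u))).symm))

end Transport

section FixedField

variable (D K₀ F : Type) [Group D] [Field K₀] [Field F] [Algebra K₀ F]
  [MulSemiringAction D F] [SMulCommClass D K₀ F] [FaithfulSMul D F]

/-- A finite group acting faithfully and `K₀`-linearly on a field `F` is a Galois group of `F`
over its fixed field, viewed as an intermediate field of `F / K₀`. -/
instance isGaloisGroup_fixedPoints :
    IsGaloisGroup D (FixedPoints.intermediateField D : IntermediateField K₀ F) F where
  faithful := inferInstance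
  commutes := ⟨fun d a x => by
    rw [Algebra.smul_def, Algebra.smul_def, smul_mul']
    congr 1
    exact a.2 d⟩
  isInvariant := ⟨fun x hx => ⟨⟨x, hx⟩, rfl⟩⟩

end FixedField

end Fermat.Agent.Lib.CFT.Global.LocalFieldAt
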