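import Fermat.Agent.Lib.CFT.Global.EtaleAlgShapiro

/-!
# Hilbert 90 and vanishing criteria for the units of a `G`-algebra

* `isMulCoboundary₁_of_isZero_H1`, `isZero_H1_of_forall_isMulCoboundary₁`: bridge between
  `H¹(G, M) = 0` and "every multiplicative `1`-cocycle is a coboundary";
* `isMulCoboundary₁_of_faithful`: Noether's form of Hilbert 90 for a finite group acting
  faithfully on a field (transported from Mathlib's statement for `Gal(L/K)`);
* `faithfulSMul_residue_of_field`: decomposition groups act faithfully on residue fields when `E`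
  contains a field with a faithful compatible `G`-action (e.g. `L → ℚ_q ⊗ L`);
* `isZero_groupCohomology_units_of_forall`, `isZero_groupCohomology_subUnits_of_forall`: local
  vanishing implies semi-local vanishing (from the explicit semi-local Shapiro lemma);
* `isZero_H1_units`, `isMulCoboundary₁_units`: Hilbert 90 for a finite product of fields.
-/

set_option autoImplicit false

open CategoryTheory Rep groupCohomology

namespace Fermat.Agent.Lib.CFT.Global.EtaleAlg

section Bridge

variable {G M : Type} [Group G] [CommGroup M] [MulDistribMulAction G M]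

/-- If `H¹(G, M) = 0` then every multiplicative `1`-cocycle is a coboundary. -/
theorem isMulCoboundary₁_of_isZero_H1
    (h : Limits.IsZero (groupCohomology (Rep.ofMulDistribMulAction G M) 1))
    {f : G → M} (hf : IsMulCocycle₁ f) : IsMulCoboundary₁ f := by
  have h0 : H1π (Rep.ofMulDistribMulAction G M) (cocyclesOfIsMulCocycle₁ hf) = 0 := by
    have := ModuleCat.isZero_iff_subsingleton.1 h
    exact Subsingleton.elim _ _
  have h1 := (H1π_eq_zero_iff (cocyclesOfIsMulCocycle₁ hf)).1 h0
  exact isMulCoboundary₁_of_mem_coboundaries₁ _ h1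

/-- If every multiplicative `1`-cocycle is a coboundary then `H¹(G, M) = 0`. -/
theorem isZero_H1_of_forall_isMulCoboundary₁
    (h : ∀ f : G → M, IsMulCocycle₁ f → IsMulCoboundary₁ f) :
    Limits.IsZero (groupCohomology (Rep.ofMulDistribMulAction G M) 1) := by
  rw [ModuleCat.isZero_iff_subsingleton]
  refine ⟨fun a b => ?_⟩
  have key : ∀ a : H1 (Rep.ofMulDistribMulAction G M), a = 0 := fun a =>
    H1_induction_on a fun x => (H1π_eq_zero_iff _).2 <| by
      refine (coboundariesOfIsMulCoboundary₁ ?_).2
      exact h _ (isMulCocycle₁_of_mem_cocycles₁ _ x.2)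
  rw [key a, key b]

end Bridge

section Hilbert90

attribute [local instance] Units.mulDistribMulActionRight

variable {H F : Type} [Group H] [Finite H] [Field F] [MulSemiringAction H F] [FaithfulSMul H F]

/-- **Hilbert's Theorem 90 (Noether's form) for a finite group acting faithfully on a field**:
every `1`-cocycle with values in `Fˣ` is a coboundary. -/
theorem isMulCoboundary₁_of_faithful (f : H → Fˣ) (hf : IsMulCocycle₁ f) :
    IsMulCoboundary₁ f := by
  let e : H ≃* (F ≃ₐ[FixedPoints.subfield H F] F) := FixedPoints.toAlgAutMulEquiv H F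
  have he : ∀ (h : H) (x : F), e h x = h • x := fun h x => rfl
  have hcoc : IsMulCocycle₁ (fun σ : F ≃ₐ[FixedPoints.subfield H F] F => f (e.symm σ)) := by
    intro σ τ
    show f (e.symm (σ * τ)) = σ • f (e.symm τ) * f (e.symm σ)
    rw [map_mul, hf]
    congr 1
    apply Units.ext
    rw [AlgEquiv.smul_units_def, Units.coe_map, Units.coe_smul]
    show e.symm σ • ((f (e.symm τ) : Fˣ) : F) = σ ((f (e.symm τ) : Fˣ) : F)
    rw [← he, MulEquiv.apply_symm_apply]
  obtain ⟨β, hβ⟩ := isMulCoboundary₁_of_isMulCocycle₁_of_aut_to_units _ hcoc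
  refine ⟨β, fun h => ?_⟩
  have := hβ (e h)
  simp only [MulEquiv.symm_apply_apply] at this
  rw [← this]
  congr 1

end Hilbert90

section UnitsVanishing

open scoped Pointwise

attribute [local instance] Units.mulDistribMulActionRight

variable (G : Type) {E : Type} [Group G] [CommRing E] [MulSemiringAction G E]

/-- If `E` contains (the image of) a field `L` on which `G` acts faithfully and compatibly, then
every decomposition group acts faithfully on its residue field. -/
theorem faithfulSMul_residue_of_field {L : Type} [Field L] [MulSemiringAction G L]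
    [FaithfulSMul G L] (j : L →+* E) (hj : ∀ (g : G) (x : L), j (g • x) = g • j x)
    (m : MaximalSpectrum E) : FaithfulSMul (MulAction.stabilizer G m) (E ⧸ m.asIdeal) := by
  refine ⟨fun {s₁ s₂} h => ?_⟩
  have : Nontrivial (E ⧸ m.asIdeal) := Ideal.Quotient.nontrivial_iff.2 m.isMaximal.ne_top
  have hinj : Function.Injective ((Ideal.Quotient.mk m.asIdeal).comp j) :=
    RingHom.injective _
  apply Subtype.ext
  apply eq_of_smul_eq_smul (α := L)
  intro x
  apply hinj
  have h1 := h (Ideal.Quotient.mk m.asIdeal (j x))
  rw [stab_smul_mk, stab_smul_mk, ← hj, ← hj] at h1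
  exact h1

variable [IsArtinianRing E] [IsReduced E] {ι : Type} [Fintype ι] [DecidableEq ι]
  (r : ι → MaximalSpectrum E) [∀ i, (MulAction.stabilizer G (r i)).FiniteIndex]
  (hcov : ∀ m : MaximalSpectrum E, ∃ i, ∃ g : G, g • m = r i)
  (hsep : ∀ i j (g : G), g • r i = r j → i = j)

include hcov hsep in
/-- Vanishing of `Hⁿ(G, Eˣ)` follows from the vanishing of the local `Hⁿ(G_{r i}, (E ⧸ r i)ˣ)`. -/
theorem isZero_groupCohomology_units_of_forall (n : ℕ)
    (h : ∀ i, Limits.IsZero (groupCohomology
      (Rep.ofMulDistribMulAction (MulAction.stabilizer G (r i)) (E ⧸ (r i).asIdeal)ˣ) n)) :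
    Limits.IsZero (groupCohomology (Rep.ofMulDistribMulAction G Eˣ) n) := by
  rw [ModuleCat.isZero_iff_subsingleton]
  have hs : ∀ i, Subsingleton (groupCohomology
      (Rep.ofMulDistribMulAction (MulAction.stabilizer G (r i)) (E ⧸ (r i).asIdeal)ˣ) n) :=
    fun i => ModuleCat.isZero_iff_subsingleton.1 (h i)
  exact (bijective_unitsProj G r hcov hsep n).1.subsingleton

include hcov hsep in
/-- **Hilbert 90 for a finite product of fields**: if every decomposition group acts faithfully
on its residue field then `H¹(G, Eˣ) = 0`. -/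
theorem isZero_H1_units [Finite G]
    (hfaith : ∀ i, FaithfulSMul (MulAction.stabilizer G (r i)) (E ⧸ (r i).asIdeal)) :
    Limits.IsZero (groupCohomology (Rep.ofMulDistribMulAction G Eˣ) 1) := by
  refine isZero_groupCohomology_units_of_forall G r hcov hsep 1 fun i => ?_
  have := (r i).isMaximal
  let _ : Field (E ⧸ (r i).asIdeal) := Ideal.Quotient.field (r i).asIdeal
  have := hfaith i
  exact isZero_H1_of_forall_isMulCoboundary₁ fun f hf => isMulCoboundary₁_of_faithful f hf

include hcov hsep in
/-- Hilbert 90 for a finite product of fields, in terms of cocycles. -/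
theorem isMulCoboundary₁_units [Finite G]
    (hfaith : ∀ i, FaithfulSMul (MulAction.stabilizer G (r i)) (E ⧸ (r i).asIdeal))
    (f : G → Eˣ) (hf : IsMulCocycle₁ f) : IsMulCoboundary₁ f :=
  isMulCoboundary₁_of_isZero_H1 (isZero_H1_units G r hcov hsep hfaith) hf

end UnitsVanishing

section SubUnitsVanishing

open scoped Pointwise

attribute [local instance] Units.mulDistribMulActionRight

variable (G : Type) {E : Type} [Group G] [CommRing E] [MulSemiringAction G E]
  [IsArtinianRing E] [IsReduced E] {ι : Type} [Fintype ι] [DecidableEq ι]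
  (r : ι → MaximalSpectrum E) [∀ i, (MulAction.stabilizer G (r i)).FiniteIndex]
  (W : ∀ i, Submodule ℤ (Additive (E ⧸ (r i).asIdeal)ˣ))
  (hW : ∀ i (s : MulAction.stabilizer G (r i)), W i ≤ (W i).comap
    (Representation.ofMulDistribMulAction (MulAction.stabilizer G (r i)) (E ⧸ (r i).asIdeal)ˣ s))
  (hcov : ∀ m : MaximalSpectrum E, ∃ i, ∃ g : G, g • m = r i)
  (hsep : ∀ i j (g : G), g • r i = r j → i = j)

include hcov hsep in
/-- Vanishing of `Hⁿ` of the stable unit subgroup cut out by `W` follows from the vanishing of
the local `Hⁿ(G_{r i}, W i)`. -/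
theorem isZero_groupCohomology_subUnits_of_forall (n : ℕ)
    (h : ∀ i, Limits.IsZero (groupCohomology (subUnitsLocalRep G r W hW i) n)) :
    Limits.IsZero (groupCohomology (subUnitsRep G r W) n) := by
  rw [ModuleCat.isZero_iff_subsingleton]
  have hs : ∀ i, Subsingleton (groupCohomology (subUnitsLocalRep G r W hW i) n) :=
    fun i => ModuleCat.isZero_iff_subsingleton.1 (h i)
  exact (bijective_subUnitsProj G r W hW hcov hsep n).1.subsingleton

end SubUnitsVanishing

end Fermat.Agent.Lib.CFT.Global.EtaleAlg
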