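import Mathlib
import Fermat.Agent.Lib.CFT.Global.Ideles
import Fermat.Agent.Lib.CFT.HerbrandMul

/-!
# The first inequality of global class field theory (assembly)

`L` a number field, `G` a finite cyclic group acting on `L` (in the application
`G = Gal(L/K)`), `s` a generator.  We set up

* `FirstIneq.sIdeles L S`: the `S`-ideles `J_{L,S}` for a set `S` of rational primes
  (integral units at all `q ∉ S`), a `G`-stable subgroup of `Idele L`;
* `FirstIneq.sUnits L S`: the `S`-units `principal⁻¹ J_{L,S}`, a `G`-stable subgroup of `Lˣ`;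
* the exact sequence `1 → sUnits L S → sIdeles L S → IdeleClass L`, which is right exact as
  soon as `Lˣ · J_{L,S} = J_L` (`FirstIneq.Covers L S`);
* `FirstIneq.herbrandCycMul_ideleClass_of_cover`: `h(C_L) = h(J_{L,S}) / h(O_{L,S}ˣ)`;
* `FirstIneq.herbrandCycMul_ideleClass_eq`: if `h(J_{L,S}) = P` and `h(O_{L,S}ˣ) = P / n`
  then `h(C_L) = n`;
* `FirstIneq.le_hIndexMul_of_herbrandCycMul_eq`: the first inequality
  `n ≤ [C_L^G : N C_L]`, and `[C_L^G : N C_L] = n * |H¹|` in index form.
-/

open scoped TensorProduct NumberField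

namespace Fermat.Agent.Lib.CFT.Global

namespace FirstIneq

open Fermat.Agent.Lib.CFT.Herbrand

section Defs

variable (L : Type) [Field L] [NumberField L]

/-- The `S`-ideles of `L`, for a set `S` of rational primes: ideles which are integral units at
all primes `q ∉ S`. -/
def sIdeles (S : Set Nat.Primes) : Subgroup (Idele L) where
  carrier := {x | ∀ q, q ∉ S → (x : IdeleProd L).1 q ∈ locIntUnits L q}
  mul_mem' := by
    intro a b ha hb q hq
    exact mul_mem (ha q hq) (hb q hq)
  one_mem' := by
    intro q _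
    exact one_mem _
  inv_mem' := by
    intro a ha q hq
    exact inv_mem (ha q hq)

lemma mem_sIdeles (S : Set Nat.Primes) (x : Idele L) :
    x ∈ sIdeles L S ↔ ∀ q, q ∉ S → (x : IdeleProd L).1 q ∈ locIntUnits L q := Iff.rfl

lemma sIdeles_mono {S T : Set Nat.Primes} (h : S ⊆ T) : sIdeles L S ≤ sIdeles L T :=
  fun _ hx q hq => hx q (fun hqS => hq (h hqS))

/-- Every idele is an `S`-idele for some finite `S`. -/
lemma exists_finite_mem_sIdeles (x : Idele L) :
    ∃ S : Set Nat.Primes, S.Finite ∧ x ∈ sIdeles L S :=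
  ⟨_, x.2, fun _ hq => not_not.1 hq⟩

/-- The `S`-units of `L`: elements of `Lˣ` which are integral units at all `q ∉ S`. -/
noncomputable def sUnits (S : Set Nat.Primes) : Subgroup Lˣ := (sIdeles L S).comap (principal L)

lemma mem_sUnits (S : Set Nat.Primes) (x : Lˣ) :
    x ∈ sUnits L S ↔ ∀ q, q ∉ S → locUnit L q x ∈ locIntUnits L q := Iff.rfl

lemma sUnits_mono {S T : Set Nat.Primes} (h : S ⊆ T) : sUnits L S ≤ sUnits L T :=
  Subgroup.comap_mono (sIdeles_mono L h)

/-- `Lˣ · J_{L,S} = J_L`. -/
def Covers (S : Set Nat.Primes) : Prop := (principal L).range ⊔ sIdeles L S = ⊤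

lemma Covers.mono {S T : Set Nat.Primes} (h : S ⊆ T) (hS : Covers L S) : Covers L T := by
  unfold Covers at *
  exact top_le_iff.1 (hS ▸ sup_le_sup_left (sIdeles_mono L h) _)

lemma covers_iff (S : Set Nat.Primes) :
    Covers L S ↔ ∀ x : Idele L, ∃ a : Lˣ, x * (principal L a)⁻¹ ∈ sIdeles L S := by
  unfold Covers
  constructor
  · intro h x
    have hx : x ∈ (principal L).range ⊔ sIdeles L S := h ▸ Subgroup.mem_top x
    obtain ⟨y, ⟨a, rfl⟩, z, hz, rfl⟩ := Subgroup.mem_sup.1 hx
    exact ⟨a, by simpa [mul_comm] using hz⟩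
  · intro h
    rw [eq_top_iff]
    intro x _
    obtain ⟨a, ha⟩ := h x
    have : x = principal L a * (x * (principal L a)⁻¹) := by
      rw [mul_comm x, mul_inv_cancel_left]
    rw [this]
    exact Subgroup.mul_mem_sup ⟨a, rfl⟩ ha

/-- The diagonal embedding is injective. -/
lemma principal_injective : Function.Injective (principal L) := by
  intro x y h
  have h2 : archUnit L x = archUnit L y := by
    have := congrArg (fun z : Idele L => (z : IdeleProd L).2) h
    simpa using this
  have h3 : ((1 : ℝ) ⊗ₜ[ℚ] (x : L) : ArchAlg L) = (1 : ℝ) ⊗ₜ[ℚ] (y : L) := by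
    have := congrArg (fun u : (ArchAlg L)ˣ => (u : ArchAlg L)) h2
    simpa using this
  have hinj : Function.Injective
      (Algebra.TensorProduct.includeRight : L →ₐ[ℚ] ArchAlg L) :=
    Algebra.TensorProduct.includeRight_injective (algebraMap ℚ ℝ).injective
  exact Units.ext (hinj h3)

end Defs

section Action

variable (L : Type) [Field L] [NumberField L]
variable (G : Type) [Group G] [MulSemiringAction G L]

lemma smul_mem_sIdeles (S : Set Nat.Primes) (g : G) {x : Idele L} (hx : x ∈ sIdeles L S) :
    g • x ∈ sIdeles L S := by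
  intro q hq
  have := hx q hq
  simpa using smul_mem_locIntUnits L G q g this

lemma smul_mem_sUnits (S : Set Nat.Primes) (g : G) {x : Lˣ} (hx : x ∈ sUnits L S) :
    g • x ∈ sUnits L S := by
  change principal L (g • x) ∈ sIdeles L S
  rw [principal_smul]
  exact smul_mem_sIdeles L G S g hx

/-- The action of `G` on the `S`-ideles. -/
noncomputable instance sIdelesAction (S : Set Nat.Primes) : MulDistribMulAction G (sIdeles L S) where
  smul g x := ⟨g • (x : Idele L), smul_mem_sIdeles L G S g x.2⟩
  one_smul x := Subtype.ext (one_smul G (x : Idele L))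
  mul_smul g h x := Subtype.ext (mul_smul g h (x : Idele L))
  smul_mul g x y := Subtype.ext (smul_mul' g (x : Idele L) (y : Idele L))
  smul_one g := Subtype.ext (smul_one g)

@[simp] lemma coe_smul_sIdeles (S : Set Nat.Primes) (g : G) (x : sIdeles L S) :
    ((g • x : sIdeles L S) : Idele L) = g • (x : Idele L) := rfl

/-- The action of `G` on the `S`-units. -/
noncomputable instance sUnitsAction (S : Set Nat.Primes) : MulDistribMulAction G (sUnits L S) where
  smul g x := ⟨g • (x : Lˣ), smul_mem_sUnits L G S g x.2⟩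
  one_smul x := Subtype.ext (one_smul G (x : Lˣ))
  mul_smul g h x := Subtype.ext (mul_smul g h (x : Lˣ))
  smul_mul g x y := Subtype.ext (smul_mul' g (x : Lˣ) (y : Lˣ))
  smul_one g := Subtype.ext (smul_one g)

@[simp] lemma coe_smul_sUnits (S : Set Nat.Primes) (g : G) (x : sUnits L S) :
    ((g • x : sUnits L S) : Lˣ) = g • (x : Lˣ) := rfl

end Action

section Exact

variable (L : Type) [Field L] [NumberField L]

/-- The inclusion of the `S`-units into the `S`-ideles. -/
noncomputable def sUnitsToSIdeles (S : Set Nat.Primes) : sUnits L S →* sIdeles L S where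
  toFun x := ⟨principal L (x : Lˣ), x.2⟩
  map_one' := Subtype.ext (map_one _)
  map_mul' _ _ := Subtype.ext (map_mul _ _ _)

@[simp] lemma coe_sUnitsToSIdeles (S : Set Nat.Primes) (x : sUnits L S) :
    (sUnitsToSIdeles L S x : Idele L) = principal L (x : Lˣ) := rfl

/-- The map from the `S`-ideles to the idele class group. -/
noncomputable def sIdelesToClass (S : Set Nat.Primes) : sIdeles L S →* IdeleClass L :=
  (QuotientGroup.mk' (principal L).range).comp (sIdeles L S).subtype

@[simp] lemma sIdelesToClass_apply (S : Set Nat.Primes) (x : sIdeles L S) :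
    sIdelesToClass L S x = (QuotientGroup.mk (x : Idele L) : IdeleClass L) := rfl

lemma sUnitsToSIdeles_injective (S : Set Nat.Primes) :
    Function.Injective (sUnitsToSIdeles L S) := by
  intro x y h
  apply Subtype.ext
  apply principal_injective L
  exact congrArg (fun z : sIdeles L S => (z : Idele L)) h

lemma range_sUnitsToSIdeles (S : Set Nat.Primes) :
    (sUnitsToSIdeles L S).range = (sIdelesToClass L S).ker := by
  ext x
  rw [MonoidHom.mem_ker, sIdelesToClass_apply, QuotientGroup.eq_one_iff]
  constructor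
  · rintro ⟨y, rfl⟩
    exact ⟨(y : Lˣ), rfl⟩
  · rintro ⟨a, ha⟩
    have hmem : a ∈ sUnits L S := by
      change principal L a ∈ sIdeles L S
      rw [ha]
      exact x.2
    exact ⟨⟨a, hmem⟩, Subtype.ext ha⟩

lemma sIdelesToClass_surjective {S : Set Nat.Primes} (hS : Covers L S) :
    Function.Surjective (sIdelesToClass L S) := by
  intro c
  induction c using QuotientGroup.induction_on with
  | H x =>
    obtain ⟨a, ha⟩ := (covers_iff L S).1 hS x
    refine ⟨⟨_, ha⟩, ?_⟩
    rw [sIdelesToClass_apply]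
    change (QuotientGroup.mk (x * (principal L a)⁻¹) : IdeleClass L) = QuotientGroup.mk x
    rw [QuotientGroup.eq]
    refine ⟨a, ?_⟩
    simp

variable (G : Type) [Group G] [MulSemiringAction G L]

lemma sUnitsToSIdeles_smul (S : Set Nat.Primes) (g : G) (x : sUnits L S) :
    sUnitsToSIdeles L S (g • x) = g • sUnitsToSIdeles L S x :=
  Subtype.ext (principal_smul L G g (x : Lˣ))

lemma sIdelesToClass_smul (S : Set Nat.Primes) (g : G) (x : sIdeles L S) :
    sIdelesToClass L S (g • x) = g • sIdelesToClass L S x := rfl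

end Exact

section Numerics

variable {G : Type*} [Group G] [Fintype G] {M : Type*} [CommGroup M] [MulDistribMulAction G M]

/-- If the Herbrand quotient of `M` is the natural number `n`, then
`[M^G : N M] = n * [ker N : (s - 1) M]`. -/
theorem hIndexMul_eq_mul_of_herbrandCycMul_eq {s : G} {n : ℕ} (hfin : CycFinMul G M s)
    (h : herbrandCycMul G M s = n) :
    hIndexMul (subOneMul G M s) (normMul G M) =
      n * hIndexMul (normMul G M) (subOneMul G M s) := by
  unfold herbrandCycMul herbrandMul at h
  have h2 : ((hIndexMul (normMul G M) (subOneMul G M s) : ℕ) : ℚ) ≠ 0 := by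
    exact_mod_cast hfin.2
  rw [div_eq_iff h2] at h
  exact_mod_cast h

/-- The abstract first inequality: if the Herbrand quotient of `M` is `n` then
`n ≤ [M^G : N M]`. -/
theorem le_hIndexMul_of_herbrandCycMul_eq {s : G} {n : ℕ} (hfin : CycFinMul G M s)
    (h : herbrandCycMul G M s = n) :
    n ≤ hIndexMul (subOneMul G M s) (normMul G M) := by
  rw [hIndexMul_eq_mul_of_herbrandCycMul_eq hfin h]
  exact Nat.le_mul_of_pos_right n (Nat.pos_of_ne_zero hfin.2)

/-- If the Herbrand quotient of `M` is `n` then `n ∣ [M^G : N M]`. -/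
theorem dvd_hIndexMul_of_herbrandCycMul_eq {s : G} {n : ℕ} (hfin : CycFinMul G M s)
    (h : herbrandCycMul G M s = n) :
    n ∣ hIndexMul (subOneMul G M s) (normMul G M) :=
  ⟨_, hIndexMul_eq_mul_of_herbrandCycMul_eq hfin h⟩

theorem herbrandCycMul_ne_zero {s : G} (hfin : CycFinMul G M s) : herbrandCycMul G M s ≠ 0 := by
  unfold herbrandCycMul herbrandMul
  have h1 : ((hIndexMul (subOneMul G M s) (normMul G M) : ℕ) : ℚ) ≠ 0 := by
    exact_mod_cast hfin.1
  have h2 : ((hIndexMul (normMul G M) (subOneMul G M s) : ℕ) : ℚ) ≠ 0 := by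
    exact_mod_cast hfin.2
  exact div_ne_zero h1 h2

end Numerics



section Assembly

variable (L : Type) [Field L] [NumberField L]
variable (G : Type) [Group G] [Fintype G] [MulSemiringAction G L]

/-- `h(C_L) = h(J_{L,S}) / h(O_{L,S}ˣ)` as soon as `Lˣ J_{L,S} = J_L`. -/
theorem herbrandCycMul_ideleClass_of_cover (s : G) {S : Set Nat.Primes} (hS : Covers L S)
    (hJ : CycFinMul G (sIdeles L S) s) (hE : CycFinMul G (sUnits L S) s) :
    CycFinMul G (IdeleClass L) s ∧
      herbrandCycMul G (IdeleClass L) s =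
        herbrandCycMul G (sIdeles L S) s / herbrandCycMul G (sUnits L S) s := by
  obtain ⟨-, h2, -, h4⟩ := @herbrandCycMul_of_exact G _ _ (sUnits L S) _ _ (sIdeles L S)
    (IdeleClass L) _ _ _ _ s (sUnitsToSIdeles L S) (sIdelesToClass L S)
    (sUnitsToSIdeles_injective L S) (sIdelesToClass_surjective L hS)
    (range_sUnitsToSIdeles L S) (sUnitsToSIdeles_smul L G S) (sIdelesToClass_smul L G S)
  have hC := h2 ⟨hE, hJ⟩
  refine ⟨hC, ?_⟩
  rw [h4 hE hC, mul_div_cancel_left₀ _ (herbrandCycMul_ne_zero hE)]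

/-- The numerical assembly: if `h(J_{L,S}) = P` and `h(O_{L,S}ˣ) = P / n` then `h(C_L) = n`. -/
theorem herbrandCycMul_ideleClass_eq (s : G) {S : Set Nat.Primes} (hS : Covers L S)
    (n : ℕ) (P : ℚ) (hJ : CycFinMul G (sIdeles L S) s)
    (hJ' : herbrandCycMul G (sIdeles L S) s = P)
    (hE : CycFinMul G (sUnits L S) s) (hE' : herbrandCycMul G (sUnits L S) s = P / n) :
    CycFinMul G (IdeleClass L) s ∧ herbrandCycMul G (IdeleClass L) s = n := by
  obtain ⟨hC, h⟩ := herbrandCycMul_ideleClass_of_cover L G s hS hJ hE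
  refine ⟨hC, ?_⟩
  have hP : P ≠ 0 := hJ' ▸ herbrandCycMul_ne_zero hJ
  have hPn : P / n ≠ 0 := hE' ▸ herbrandCycMul_ne_zero hE
  have hn : (n : ℚ) ≠ 0 := fun h0 => hPn (by rw [h0, div_zero])
  rw [h, hJ', hE']
  field_simp

end Assembly

end FirstIneq

end Fermat.Agent.Lib.CFT.Global
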