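/-
P-CFT work package Global/SUnits (task 156): Dirichlet's S-unit theorem for number fields.

For a number field `K` and a finite set `S` of primes of `𝓞 K`:
* `SUnit K S`              : the group of `S`-units (Mathlib `Set.unit`), a subgroup of `Kˣ`;
* `Idx K S`                : the index type `InfinitePlace K ⊕ S` of the places in `S_∞ ∪ S`;
* `logS K S`               : the logarithmic map `Additive (SUnit K S) →+ (Idx K S → ℝ)`;
* `sum_logS`               : product formula (coordinates sum to zero);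
* `logS_eq_zero_iff`, `finite_ker_logS` : the kernel is the (finite) torsion subgroup;
* `sUnitLattice K S`       : the image, a discrete subgroup (`instDiscreteTopology_sUnitLattice`);
* `span_sUnitLattice`      : it spans the trace-zero hyperplane `traceZero (Idx K S)`;
* `finrank_sUnitLattice`   : its rank is `r₁ + r₂ + |S| - 1`.
-/
import Mathlib.NumberTheory.NumberField.ProductFormula
import Mathlib.NumberTheory.NumberField.Units.DirichletTheorem
import Mathlib.RingTheory.DedekindDomain.SInteger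
import Mathlib.RingTheory.DedekindDomain.SelmerGroup
import Mathlib.NumberTheory.NumberField.ClassNumber

set_option autoImplicit false

namespace Fermat.Agent.Lib.CFT.Global.SUnits

open NumberField IsDedekindDomain

variable {K : Type*} [Field K] [NumberField K]

/-- The additive `v`-adic valuation of a nonzero element. -/
noncomputable def ordAt (v : HeightOneSpectrum (𝓞 K)) (x : Kˣ) : ℤ :=
  -Multiplicative.toAdd (v.valuationOfNeZero x)

theorem ordAt_mul (v : HeightOneSpectrum (𝓞 K)) (x y : Kˣ) :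
    ordAt v (x * y) = ordAt v x + ordAt v y := by
  simp only [ordAt, map_mul, toAdd_mul]; ring

@[simp] theorem ordAt_one (v : HeightOneSpectrum (𝓞 K)) : ordAt v (1 : Kˣ) = 0 := by
  simp [ordAt]

theorem ordAt_inv (v : HeightOneSpectrum (𝓞 K)) (x : Kˣ) : ordAt v x⁻¹ = -ordAt v x := by
  simp [ordAt, map_inv]

theorem valuation_eq_exp_neg_ordAt (v : HeightOneSpectrum (𝓞 K)) (x : Kˣ) :
    v.valuation K (x : K) = WithZero.exp (-ordAt v x) := by
  rw [← HeightOneSpectrum.valuationOfNeZero_eq, ordAt, neg_neg]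
  rfl

theorem valuation_eq_one_iff_ordAt (v : HeightOneSpectrum (𝓞 K)) (x : Kˣ) :
    v.valuation K (x : K) = 1 ↔ ordAt v x = 0 := by
  rw [valuation_eq_exp_neg_ordAt, ← WithZero.exp_zero, WithZero.exp_inj, neg_eq_zero]

theorem valuation_le_one_iff_ordAt (v : HeightOneSpectrum (𝓞 K)) (x : Kˣ) :
    v.valuation K (x : K) ≤ 1 ↔ 0 ≤ ordAt v x := by
  rw [valuation_eq_exp_neg_ordAt, ← WithZero.exp_zero, WithZero.exp_le_exp]
  omega

theorem finitePlace_mk_apply_eq (v : HeightOneSpectrum (𝓞 K)) (x : Kˣ) :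
    FinitePlace.mk v (x : K) = ((Ideal.absNorm v.asIdeal : ℕ) : ℝ) ^ (-ordAt v x) := by
  rw [FinitePlace.mk_apply, FinitePlace.norm_embedding']
  have h0 : v.valuation K (x : K) ≠ 0 := by simp
  rw [WithZeroMulInt.toNNReal_neg_apply _ h0]
  have : WithZero.unzero h0 = v.valuationOfNeZero x := by
    rw [← WithZero.coe_inj, WithZero.coe_unzero, HeightOneSpectrum.valuationOfNeZero_eq]
  rw [this, ordAt, neg_neg]
  simp

theorem one_lt_absNorm_real (v : HeightOneSpectrum (𝓞 K)) :
    (1 : ℝ) < ((Ideal.absNorm v.asIdeal : ℕ) : ℝ) := by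
  exact_mod_cast NumberField.HeightOneSpectrum.one_lt_absNorm v

theorem log_absNorm_pos (v : HeightOneSpectrum (𝓞 K)) :
    0 < Real.log ((Ideal.absNorm v.asIdeal : ℕ) : ℝ) :=
  Real.log_pos (one_lt_absNorm_real v)

theorem log_finitePlace_mk (v : HeightOneSpectrum (𝓞 K)) (x : Kˣ) :
    Real.log (FinitePlace.mk v (x : K)) =
      -(ordAt v x : ℝ) * Real.log ((Ideal.absNorm v.asIdeal : ℕ) : ℝ) := by
  rw [finitePlace_mk_apply_eq, Real.log_zpow]
  push_cast
  ring

/-! ### S-units and the logarithmic map -/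

variable (K) in
/-- The group of `S`-units of the number field `K`, as a subgroup of `Kˣ`. -/
noncomputable abbrev SUnit (S : Finset (HeightOneSpectrum (𝓞 K))) : Subgroup Kˣ :=
  (S : Set (HeightOneSpectrum (𝓞 K))).unit K

theorem mem_sUnit_iff {S : Finset (HeightOneSpectrum (𝓞 K))} {x : Kˣ} :
    x ∈ SUnit K S ↔ ∀ v, v ∉ S → ordAt v x = 0 := by
  have h : x ∈ SUnit K S ↔ ∀ v, v ∉ (S : Set (HeightOneSpectrum (𝓞 K))) →
      v.valuation K (x : K) = 1 := Iff.rfl
  rw [h]
  exact forall_congr' fun v => by rw [valuation_eq_one_iff_ordAt, Finset.mem_coe]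

variable (K) in
/-- The index set of the places in `S ∪ S_∞`. -/
abbrev Idx (S : Finset (HeightOneSpectrum (𝓞 K))) : Type _ := InfinitePlace K ⊕ S

variable (K) in
/-- The logarithmic map on `S`-units: `u ↦ (log ‖u‖_v)_{v ∈ S_∞ ∪ S}` with normalised absolute
values. -/
noncomputable def logS (S : Finset (HeightOneSpectrum (𝓞 K))) :
    Additive (SUnit K S) →+ (Idx K S → ℝ) where
  toFun u := Sum.elim (fun w => (w.mult : ℝ) * Real.log (w ((u.toMul : Kˣ) : K)))
      (fun v => Real.log (FinitePlace.mk v.1 ((u.toMul : Kˣ) : K)))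
  map_zero' := by
    ext i; cases i <;> simp
  map_add' u u' := by
    ext i
    cases i with
    | inl w =>
      simp only [toMul_add, Subgroup.coe_mul, Units.val_mul, map_mul, Sum.elim_inl, Pi.add_apply]
      rw [Real.log_mul, mul_add] <;> simp
    | inr v =>
      simp only [toMul_add, Subgroup.coe_mul, Units.val_mul, map_mul, Sum.elim_inr, Pi.add_apply]
      rw [Real.log_mul] <;> simp


@[simp] theorem logS_inl (S : Finset (HeightOneSpectrum (𝓞 K))) (u : SUnit K S)
    (w : InfinitePlace K) :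
    logS K S (Additive.ofMul u) (Sum.inl w) = (w.mult : ℝ) * Real.log (w ((u : Kˣ) : K)) := rfl

@[simp] theorem logS_inr (S : Finset (HeightOneSpectrum (𝓞 K))) (u : SUnit K S) (v : S) :
    logS K S (Additive.ofMul u) (Sum.inr v) = Real.log (FinitePlace.mk v.1 ((u : Kˣ) : K)) := rfl

theorem logS_inr_eq (S : Finset (HeightOneSpectrum (𝓞 K))) (u : SUnit K S) (v : S) :
    logS K S (Additive.ofMul u) (Sum.inr v) =
      -(ordAt v.1 (u : Kˣ) : ℝ) * Real.log ((Ideal.absNorm v.1.asIdeal : ℕ) : ℝ) := by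
  rw [logS_inr, log_finitePlace_mk]

theorem finitePlace_mk_eq_one_of_notMem {S : Finset (HeightOneSpectrum (𝓞 K))} (u : SUnit K S)
    {v : HeightOneSpectrum (𝓞 K)} (hv : v ∉ S) : FinitePlace.mk v ((u : Kˣ) : K) = 1 := by
  rw [finitePlace_mk_apply_eq, mem_sUnit_iff.mp u.2 v hv]
  simp

/-- Product formula for `S`-units: the coordinates of `logS` sum to zero. -/
theorem sum_logS (S : Finset (HeightOneSpectrum (𝓞 K))) (u : Additive (SUnit K S)) :
    ∑ i, logS K S u i = 0 := by
  obtain ⟨u, rfl⟩ := Additive.ofMul.surjective u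
  have hx : ((u : Kˣ) : K) ≠ 0 := Units.ne_zero _
  have h := NumberField.prod_abs_eq_one hx
  have h1 : ∏ᶠ w : FinitePlace K, w ((u : Kˣ) : K) =
      ∏ v : S, FinitePlace.mk v.1 ((u : Kˣ) : K) := by
    rw [← finprod_comp_equiv FinitePlace.equivHeightOneSpectrum.symm]
    rw [finprod_eq_prod_of_mulSupport_subset (s := S)]
    · rw [← Finset.prod_coe_sort]
      rfl
    · intro v hv
      by_contra hvS
      apply hv
      have := finitePlace_mk_eq_one_of_notMem u (v := v) (by simpa using hvS)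
      simpa [FinitePlace.equivHeightOneSpectrum_symm_apply, FinitePlace.mk_apply] using this
  rw [h1] at h
  have h2 := congrArg Real.log h
  rw [Real.log_one, Real.log_mul, Real.log_prod, Real.log_prod] at h2
  · rw [Fintype.sum_sum_type]
    simpa [Real.log_pow] using h2
  · intro v _
    exact (FinitePlace.pos_iff.mpr hx).ne'
  · intro w _
    exact pow_ne_zero _ ((InfinitePlace.pos_iff.mpr hx).ne')
  · exact Finset.prod_ne_zero_iff.mpr fun w _ => pow_ne_zero _ ((InfinitePlace.pos_iff.mpr hx).ne')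
  · exact Finset.prod_ne_zero_iff.mpr fun v _ => (FinitePlace.pos_iff.mpr hx).ne'


theorem isIntegral_of_forall_ordAt_nonneg {x : Kˣ} (h : ∀ v : HeightOneSpectrum (𝓞 K), 0 ≤ ordAt v x) :
    IsIntegral ℤ (x : K) := by
  obtain ⟨y, hy⟩ := HeightOneSpectrum.mem_integers_of_valuation_le_one K (x : K)
    (fun v => (valuation_le_one_iff_ordAt v x).mpr (h v))
  rw [← hy]
  exact y.isIntegral_coe

omit [NumberField K] in
theorem mult_mul_log_eq_zero_iff (w : InfinitePlace K) {x : K} (hx : x ≠ 0) :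
    (w.mult : ℝ) * Real.log (w x) = 0 ↔ w x = 1 := by
  have hpos : 0 < w x := InfinitePlace.pos_iff.mpr hx
  rw [mul_eq_zero, or_iff_right (by exact_mod_cast InfinitePlace.mult_ne_zero),
    Real.log_eq_zero]
  constructor
  · rintro (h | h | h)
    · exact absurd h hpos.ne'
    · exact h
    · linarith
  · intro h; exact Or.inr (Or.inl h)

theorem ordAt_eq_zero_of_logS_inr_eq_zero {S : Finset (HeightOneSpectrum (𝓞 K))} (u : SUnit K S)
    (v : S) (h : logS K S (Additive.ofMul u) (Sum.inr v) = 0) : ordAt v.1 (u : Kˣ) = 0 := by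
  rw [logS_inr_eq, mul_eq_zero, neg_eq_zero] at h
  rcases h with h | h
  · exact_mod_cast h
  · exact absurd h (log_absNorm_pos v.1).ne'

/-- The kernel of `logS` consists of the elements of finite order (roots of unity). -/
theorem logS_eq_zero_iff {S : Finset (HeightOneSpectrum (𝓞 K))} (u : SUnit K S) :
    logS K S (Additive.ofMul u) = 0 ↔ IsOfFinOrder u := by
  constructor
  · intro h
    have hx : ((u : Kˣ) : K) ≠ 0 := Units.ne_zero _
    have hord : ∀ v : HeightOneSpectrum (𝓞 K), ordAt v (u : Kˣ) = 0 := by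
      intro v
      by_cases hv : v ∈ S
      · exact ordAt_eq_zero_of_logS_inr_eq_zero u ⟨v, hv⟩ (congrFun h _)
      · exact mem_sUnit_iff.mp u.2 v hv
    have hint : IsIntegral ℤ ((u : Kˣ) : K) :=
      isIntegral_of_forall_ordAt_nonneg fun v => (hord v).ge
    have hw : ∀ φ : K →+* ℂ, ‖φ ((u : Kˣ) : K)‖ = 1 := by
      intro φ
      have := congrFun h (Sum.inl (InfinitePlace.mk φ))
      rw [logS_inl, Pi.zero_apply, mult_mul_log_eq_zero_iff _ hx, InfinitePlace.apply] at this
      exact this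
    obtain ⟨n, hn, hpow⟩ := NumberField.Embeddings.pow_eq_one_of_norm_eq_one K ℂ hint hw
    rw [isOfFinOrder_iff_pow_eq_one]
    refine ⟨n, hn, ?_⟩
    ext
    simpa using hpow
  · intro h
    obtain ⟨n, hn, hpow⟩ := isOfFinOrder_iff_pow_eq_one.mp h
    have h1 : (n : ℤ) • logS K S (Additive.ofMul u) = 0 := by
      rw [← map_zsmul, natCast_zsmul, ← ofMul_pow, hpow, ofMul_one, map_zero]
    have hn' : (n : ℝ) ≠ 0 := by exact_mod_cast hn.ne'
    ext i
    have := congrFun h1 i
    simp only [Pi.smul_apply, Pi.zero_apply, zsmul_eq_mul, Int.cast_natCast] at this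
    rcases mul_eq_zero.mp this with h | h
    · exact absurd h hn'
    · simpa using h


/-- The valuation of a nonzero algebraic integer is nonnegative. -/
theorem ordAt_mk0_nonneg (v : HeightOneSpectrum (𝓞 K)) {a : 𝓞 K} (ha : (a : K) ≠ 0) :
    0 ≤ ordAt v (Units.mk0 (a : K) ha) := by
  rw [← valuation_le_one_iff_ordAt]
  exact v.valuation_le_one a

theorem ordAt_mk0_pos (v : HeightOneSpectrum (𝓞 K)) {a : 𝓞 K} (ha : (a : K) ≠ 0)
    (hav : a ∈ v.asIdeal) : 0 < ordAt v (Units.mk0 (a : K) ha) := by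
  have h := (v.valuation_lt_one_iff_mem (K := K) a).mpr hav
  have h2 := valuation_eq_exp_neg_ordAt v (Units.mk0 (a : K) ha)
  rw [Units.val_mk0] at h2
  rw [h2, ← WithZero.exp_zero, WithZero.exp_lt_exp] at h
  omega

theorem ordAt_pow (v : HeightOneSpectrum (𝓞 K)) (x : Kˣ) (n : ℕ) :
    ordAt v (x ^ n) = n * ordAt v x := by
  induction n with
  | zero => simp
  | succ n ih => rw [pow_succ, ordAt_mul, ih]; push_cast; ring

theorem ordAt_prod {ι : Type*} (v : HeightOneSpectrum (𝓞 K)) (s : Finset ι) (f : ι → Kˣ) :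
    ordAt v (∏ i ∈ s, f i) = ∑ i ∈ s, ordAt v (f i) := by
  classical
  induction s using Finset.induction_on with
  | empty => simp
  | insert a s ha ih => rw [Finset.prod_insert ha, Finset.sum_insert ha, ordAt_mul, ih]


/-- The absolute norm of the prime `v`, as a unit of `K`. -/
noncomputable def normUnit (v : HeightOneSpectrum (𝓞 K)) : Kˣ :=
  Units.mk0 (((Ideal.absNorm v.asIdeal : ℕ) : 𝓞 K) : K) (by
    have := NumberField.HeightOneSpectrum.one_lt_absNorm v
    rw [Ne, RingOfIntegers.coe_eq_zero_iff, Nat.cast_eq_zero]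
    omega)

theorem normUnit_val (v : HeightOneSpectrum (𝓞 K)) :
    ((normUnit v : Kˣ) : K) = ((Ideal.absNorm v.asIdeal : ℕ) : K) := by
  simp [normUnit]

theorem ordAt_normUnit_nonneg (v v' : HeightOneSpectrum (𝓞 K)) : 0 ≤ ordAt v' (normUnit v) :=
  ordAt_mk0_nonneg v' _

theorem ordAt_normUnit_pos (v : HeightOneSpectrum (𝓞 K)) : 0 < ordAt v (normUnit v) :=
  ordAt_mk0_pos v _ (Ideal.absNorm_mem v.asIdeal)

theorem abs_ordAt_le_of_abs_logS_le {S : Finset (HeightOneSpectrum (𝓞 K))} (u : SUnit K S)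
    (v : S) {r : ℝ} (h : |logS K S (Additive.ofMul u) (Sum.inr v)| ≤ r) :
    |(ordAt v.1 (u : Kˣ) : ℝ)| ≤ r / Real.log 2 := by
  rw [logS_inr_eq, abs_mul, abs_neg] at h
  have hlog2 : 0 < Real.log 2 := Real.log_pos (by norm_num)
  have h2 : Real.log 2 ≤ |Real.log ((Ideal.absNorm v.1.asIdeal : ℕ) : ℝ)| := by
    rw [abs_of_pos (log_absNorm_pos v.1)]
    apply Real.log_le_log (by norm_num)
    have := NumberField.HeightOneSpectrum.one_lt_absNorm v.1
    exact_mod_cast this
  rw [le_div_iff₀ hlog2]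
  calc |(ordAt v.1 (u : Kˣ) : ℝ)| * Real.log 2
      ≤ |(ordAt v.1 (u : Kˣ) : ℝ)| * |Real.log ((Ideal.absNorm v.1.asIdeal : ℕ) : ℝ)| :=
        mul_le_mul_of_nonneg_left h2 (abs_nonneg _)
    _ ≤ r := h

theorem place_le_exp_of_abs_logS_le {S : Finset (HeightOneSpectrum (𝓞 K))} (u : SUnit K S)
    (w : InfinitePlace K) {r : ℝ} (h : |logS K S (Additive.ofMul u) (Sum.inl w)| ≤ r) :
    w ((u : Kˣ) : K) ≤ Real.exp r := by
  have hx : ((u : Kˣ) : K) ≠ 0 := Units.ne_zero _
  have hpos : 0 < w ((u : Kˣ) : K) := InfinitePlace.pos_iff.mpr hx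
  rw [logS_inl, abs_mul] at h
  have hm : (1 : ℝ) ≤ |(w.mult : ℝ)| := by
    rw [abs_of_nonneg (by positivity)]
    exact_mod_cast InfinitePlace.one_le_mult
  have h3 : |Real.log (w ((u : Kˣ) : K))| ≤ r := by
    calc |Real.log (w ((u : Kˣ) : K))| = 1 * |Real.log (w ((u : Kˣ) : K))| := (one_mul _).symm
      _ ≤ |(w.mult : ℝ)| * |Real.log (w ((u : Kˣ) : K))| :=
        mul_le_mul_of_nonneg_right hm (abs_nonneg _)
      _ ≤ r := h
  rw [← Real.log_le_iff_le_exp hpos]
  exact (le_abs_self _).trans h3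

/-- Only finitely many `S`-units have all logarithmic coordinates bounded by `r`. -/
theorem finite_setOf_abs_logS_le (S : Finset (HeightOneSpectrum (𝓞 K))) (r : ℝ) :
    {u : SUnit K S | ∀ i, |logS K S (Additive.ofMul u) i| ≤ r}.Finite := by
  classical
  set M : ℕ := ⌈r / Real.log 2⌉₊ with hM
  set N : Kˣ := ∏ v ∈ S, normUnit v ^ M with hN
  have hNint : ∀ v : HeightOneSpectrum (𝓞 K), 0 ≤ ordAt v N := by
    intro v
    rw [hN, ordAt_prod]
    refine Finset.sum_nonneg fun v' _ => ?_
    rw [ordAt_pow]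
    exact mul_nonneg (by positivity) (ordAt_normUnit_nonneg v' v)
  have hNS : ∀ v ∈ S, (M : ℤ) ≤ ordAt v N := by
    intro v hv
    rw [hN, ordAt_prod, ← Finset.add_sum_erase S _ hv, ordAt_pow]
    have h1 : (M : ℤ) ≤ M * ordAt v (normUnit v) := by
      have := ordAt_normUnit_pos v
      nlinarith
    have h2 : 0 ≤ ∑ x ∈ S.erase v, ordAt v (normUnit x ^ M) := by
      refine Finset.sum_nonneg fun v' _ => ?_
      rw [ordAt_pow]
      exact mul_nonneg (by positivity) (ordAt_normUnit_nonneg v' v)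
    omega
  -- the bound for the archimedean absolute values of `N * u`
  let C : ℝ := (Finset.univ.sup' Finset.univ_nonempty
      (fun φ : K →+* ℂ => ‖φ ((N : Kˣ) : K)‖)) * Real.exp r
  have hfin := NumberField.Embeddings.finite_of_norm_le K ℂ C
  refine Set.Finite.of_finite_image (f := fun u : SUnit K S => ((N : Kˣ) : K) * ((u : Kˣ) : K))
    (hfin.subset ?_) ?_
  · rintro _ ⟨u, hu, rfl⟩
    refine ⟨?_, fun φ => ?_⟩
    · have : ((N : Kˣ) : K) * ((u : Kˣ) : K) = ((N * (u : Kˣ) : Kˣ) : K) := by simp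
      show IsIntegral ℤ (((N : Kˣ) : K) * ((u : Kˣ) : K))
      rw [this]
      apply isIntegral_of_forall_ordAt_nonneg
      intro v
      rw [ordAt_mul]
      by_cases hv : v ∈ S
      · have h1 := abs_ordAt_le_of_abs_logS_le u ⟨v, hv⟩ (hu (Sum.inr ⟨v, hv⟩))
        have h2 : -(ordAt v (u : Kˣ) : ℝ) ≤ M := by
          calc -(ordAt v (u : Kˣ) : ℝ) ≤ |(ordAt v (u : Kˣ) : ℝ)| := neg_le_abs _
            _ ≤ r / Real.log 2 := h1
            _ ≤ M := Nat.le_ceil _
        have h3 : -(ordAt v (u : Kˣ)) ≤ (M : ℤ) := by exact_mod_cast h2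
        have := hNS v hv
        omega
      · rw [mem_sUnit_iff.mp u.2 v hv, add_zero]
        exact hNint v
    · show ‖φ (((N : Kˣ) : K) * ((u : Kˣ) : K))‖ ≤ C
      rw [map_mul, norm_mul]
      have h1 : ‖φ ((N : Kˣ) : K)‖ ≤ Finset.univ.sup' Finset.univ_nonempty
          (fun φ : K →+* ℂ => ‖φ ((N : Kˣ) : K)‖) :=
        Finset.le_sup' (fun φ : K →+* ℂ => ‖φ ((N : Kˣ) : K)‖) (Finset.mem_univ φ)
      have h2 : ‖φ ((u : Kˣ) : K)‖ ≤ Real.exp r := by
        have := place_le_exp_of_abs_logS_le u (InfinitePlace.mk φ) (hu (Sum.inl _))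
        rwa [InfinitePlace.apply] at this
      exact mul_le_mul h1 h2 (norm_nonneg _) ((norm_nonneg _).trans h1)
  · intro u _ u' _ h
    have hN0 : ((N : Kˣ) : K) ≠ 0 := Units.ne_zero _
    have := mul_left_cancel₀ hN0 h
    exact Subtype.ext (Units.ext this)


/-- The kernel of `logS` is finite. -/
theorem finite_ker_logS (S : Finset (HeightOneSpectrum (𝓞 K))) : Finite (logS K S).ker := by
  have h := finite_setOf_abs_logS_le S 0
  have : Finite {u : SUnit K S | ∀ i, |logS K S (Additive.ofMul u) i| ≤ 0} := h.to_subtype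
  refine Finite.of_injective
    (β := {u : SUnit K S | ∀ i, |logS K S (Additive.ofMul u) i| ≤ 0})
    (fun u => ⟨Additive.toMul u.1, fun i => by
      have : logS K S u.1 = 0 := u.2
      simp only [ofMul_toMul, this, Pi.zero_apply, abs_zero, le_refl]⟩) ?_
  intro u u' h
  simp only [Subtype.mk.injEq] at h
  exact Subtype.ext (Additive.toMul.injective h)

variable (K) in
/-- The image of the `S`-units under the logarithmic map. -/
noncomputable def sUnitLattice (S : Finset (HeightOneSpectrum (𝓞 K))) :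
    Submodule ℤ (Idx K S → ℝ) :=
  Submodule.map (logS K S).toIntLinearMap ⊤

theorem mem_sUnitLattice_iff {S : Finset (HeightOneSpectrum (𝓞 K))} {f : Idx K S → ℝ} :
    f ∈ sUnitLattice K S ↔ ∃ u : SUnit K S, logS K S (Additive.ofMul u) = f := by
  simp only [sUnitLattice, Submodule.mem_map, Submodule.mem_top, true_and,
    AddMonoidHom.coe_toIntLinearMap]
  constructor
  · rintro ⟨u, rfl⟩; exact ⟨Additive.toMul u, rfl⟩
  · rintro ⟨u, rfl⟩; exact ⟨Additive.ofMul u, rfl⟩

theorem sUnitLattice_inter_ball_finite (S : Finset (HeightOneSpectrum (𝓞 K))) (r : ℝ) :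
    ((sUnitLattice K S : Set (Idx K S → ℝ)) ∩ Metric.closedBall 0 r).Finite := by
  refine ((finite_setOf_abs_logS_le S r).image
    (fun u => logS K S (Additive.ofMul u))).subset ?_
  rintro f ⟨hf, hr⟩
  obtain ⟨u, rfl⟩ := mem_sUnitLattice_iff.mp hf
  refine ⟨u, fun i => ?_, rfl⟩
  rw [mem_closedBall_zero_iff] at hr
  exact (norm_le_pi_norm _ i).trans hr

instance instDiscreteTopology_sUnitLattice (S : Finset (HeightOneSpectrum (𝓞 K))) :
    DiscreteTopology (sUnitLattice K S) := by
  refine discreteTopology_of_isOpen_singleton_zero ?_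
  refine isOpen_singleton_of_finite_mem_nhds 0 (s := Metric.closedBall 0 1) ?_ ?_
  · exact Metric.closedBall_mem_nhds _ (by simp)
  · refine Set.Finite.of_finite_image ?_ (Set.injOn_of_injective Subtype.val_injective)
    refine (sUnitLattice_inter_ball_finite S 1).subset ?_
    rintro _ ⟨x, hx, rfl⟩
    exact ⟨x.2, hx⟩


theorem ordAt_mk0_eq_zero (v : HeightOneSpectrum (𝓞 K)) {a : 𝓞 K} (ha : (a : K) ≠ 0)
    (hav : a ∉ v.asIdeal) : ordAt v (Units.mk0 (a : K) ha) = 0 := by
  have h1 := ordAt_mk0_nonneg v ha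
  have h := (v.valuation_lt_one_iff_mem (K := K) a).not.mpr hav
  have h2 := valuation_eq_exp_neg_ordAt v (Units.mk0 (a : K) ha)
  rw [Units.val_mk0] at h2
  rw [h2, ← WithZero.exp_zero, WithZero.exp_lt_exp] at h
  omega

/-- For every prime `v` there is an element of `Kˣ` whose divisor is a positive multiple of `v`
(finiteness of the class group). -/
theorem exists_ordAt_pos_and_eq_zero (v : HeightOneSpectrum (𝓞 K)) :
    ∃ a : Kˣ, 0 < ordAt v a ∧ ∀ v' : HeightOneSpectrum (𝓞 K), v' ≠ v → ordAt v' a = 0 := by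
  classical
  have hI : v.asIdeal ∈ nonZeroDivisors (Ideal (𝓞 K)) :=
    mem_nonZeroDivisors_iff_ne_zero.mpr v.ne_bot
  set h := Fintype.card (ClassGroup (𝓞 K)) with hh
  have hpos : 0 < h := Fintype.card_pos
  have h1 : ClassGroup.mk0 (⟨v.asIdeal, hI⟩ ^ h) = 1 := by
    rw [map_pow, hh, pow_card_eq_one]
  rw [ClassGroup.mk0_eq_one_iff] at h1
  obtain ⟨a, ha⟩ := h1.principal
  have ha' : v.asIdeal ^ h = Ideal.span {a} := by
    simpa using ha
  have ha0 : a ≠ 0 := by
    rintro rfl
    have : v.asIdeal ^ h = ⊥ := by simpa using ha'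
    exact v.ne_bot (pow_eq_zero_iff hpos.ne' |>.mp this)
  have haK : (a : K) ≠ 0 := RingOfIntegers.coe_ne_zero_iff.mpr ha0
  have hamem : a ∈ v.asIdeal := by
    have : a ∈ v.asIdeal ^ h := by rw [ha']; exact Ideal.mem_span_singleton_self a
    exact Ideal.pow_le_self hpos.ne' this
  refine ⟨Units.mk0 (a : K) haK, ordAt_mk0_pos v haK hamem, fun v' hv' => ?_⟩
  apply ordAt_mk0_eq_zero
  intro hav'
  have h2 : v.asIdeal ^ h ≤ v'.asIdeal := by
    rw [ha', Ideal.span_singleton_le_iff_mem]; exact hav'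
  have h3 : v.asIdeal ≤ v'.asIdeal := v'.isPrime.le_of_pow_le h2
  have h4 : v.asIdeal = v'.asIdeal := (v.isMaximal.eq_of_le v'.isPrime.ne_top h3)
  exact hv' (HeightOneSpectrum.ext h4.symm)


theorem ordAt_units_map (v : HeightOneSpectrum (𝓞 K)) (u : (𝓞 K)ˣ) :
    ordAt v (Units.map (algebraMap (𝓞 K) K : 𝓞 K →* K) u) = 0 := by
  rw [ordAt, HeightOneSpectrum.valuation_of_unit_eq]
  simp

variable (K) in
/-- Units of the ring of integers are `S`-units. -/
noncomputable def unitToSUnit (S : Finset (HeightOneSpectrum (𝓞 K))) : (𝓞 K)ˣ →* SUnit K S where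
  toFun u := ⟨Units.map (algebraMap (𝓞 K) K : 𝓞 K →* K) u,
    mem_sUnit_iff.mpr fun v _ => ordAt_units_map v u⟩
  map_one' := by ext; simp
  map_mul' u u' := by ext; simp

@[simp] theorem unitToSUnit_val (S : Finset (HeightOneSpectrum (𝓞 K))) (u : (𝓞 K)ˣ) :
    (((unitToSUnit K S u : SUnit K S) : Kˣ) : K) = ((u : 𝓞 K) : K) := rfl

theorem logS_unitToSUnit_inr (S : Finset (HeightOneSpectrum (𝓞 K))) (u : (𝓞 K)ˣ) (v : S) :
    logS K S (Additive.ofMul (unitToSUnit K S u)) (Sum.inr v) = 0 := by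
  rw [logS_inr_eq]
  have : ordAt v.1 ((unitToSUnit K S u : SUnit K S) : Kˣ) = 0 := ordAt_units_map v.1 u
  rw [this]; simp

/-- The hyperplane of vectors with coordinate sum zero. -/
def traceZero (ι : Type*) [Fintype ι] : Submodule ℝ (ι → ℝ) where
  carrier := {f | ∑ i, f i = 0}
  add_mem' {f g} hf hg := by
    simp only [Set.mem_ofPred_eq, Pi.add_apply, Finset.sum_add_distrib] at *
    rw [hf, hg, add_zero]
  zero_mem' := by simp
  smul_mem' c f hf := by
    simp only [Set.mem_ofPred_eq, Pi.smul_apply, smul_eq_mul, ← Finset.mul_sum] at *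
    rw [hf, mul_zero]

theorem mem_traceZero {ι : Type*} [Fintype ι] {f : ι → ℝ} : f ∈ traceZero ι ↔ ∑ i, f i = 0 :=
  Iff.rfl

theorem sUnitLattice_le_traceZero (S : Finset (HeightOneSpectrum (𝓞 K))) :
    Submodule.span ℝ (sUnitLattice K S : Set (Idx K S → ℝ)) ≤ traceZero (Idx K S) := by
  rw [Submodule.span_le]
  intro f hf
  obtain ⟨u, rfl⟩ := mem_sUnitLattice_iff.mp hf
  exact sum_logS S _

open NumberField.Units NumberField.Units.dirichletUnitTheorem in
/-- Vectors of trace zero supported on the infinite places are in the real span of the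
logarithms of units (Dirichlet's unit theorem). -/
theorem mem_span_of_traceZero_of_inr_eq_zero (S : Finset (HeightOneSpectrum (𝓞 K)))
    {f : Idx K S → ℝ} (hf : f ∈ traceZero (Idx K S)) (hf0 : ∀ v : S, f (Sum.inr v) = 0) :
    f ∈ Submodule.span ℝ (sUnitLattice K S : Set (Idx K S → ℝ)) := by
  classical
  -- restriction to the coordinates `w ≠ w₀`
  let ρ : (Idx K S → ℝ) →ₗ[ℝ] logSpace K :=
    LinearMap.funLeft ℝ ℝ (fun w : {w : InfinitePlace K // w ≠ w₀} => Sum.inl w.1)
  let T : Set (Idx K S → ℝ) :=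
    Set.range (fun u : (𝓞 K)ˣ => logS K S (Additive.ofMul (unitToSUnit K S u)))
  have hT : T ⊆ (sUnitLattice K S : Set (Idx K S → ℝ)) := by
    rintro _ ⟨u, rfl⟩
    exact mem_sUnitLattice_iff.mpr ⟨_, rfl⟩
  have hρT : ρ '' T = (unitLattice K : Set (logSpace K)) := by
    ext g
    constructor
    · rintro ⟨_, ⟨u, rfl⟩, rfl⟩
      refine ⟨Additive.ofMul u, trivial, ?_⟩
      ext w
      simp [ρ, LinearMap.funLeft]
    · rintro ⟨u, -, rfl⟩
      obtain ⟨u, rfl⟩ := Additive.ofMul.surjective u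
      refine ⟨_, ⟨u, rfl⟩, ?_⟩
      ext w
      simp [ρ, LinearMap.funLeft]
  have hmap : Submodule.map ρ (Submodule.span ℝ T) = ⊤ := by
    rw [Submodule.map_span, hρT, unitLattice_span_eq_top]
  obtain ⟨f', hf', hff'⟩ : ∃ f' ∈ Submodule.span ℝ T, ρ f' = ρ f := by
    have : ρ f ∈ Submodule.map ρ (Submodule.span ℝ T) := by rw [hmap]; trivial
    exact this
  -- `f'` has the same shape as `f`
  let W : Submodule ℝ (Idx K S → ℝ) :=
    traceZero (Idx K S) ⊓ ⨅ v : S, LinearMap.ker (LinearMap.proj (R := ℝ) (Sum.inr v : Idx K S))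
  have hTW : T ⊆ W := by
    rintro _ ⟨u, rfl⟩
    refine ⟨sum_logS S _, ?_⟩
    simp only [Submodule.coe_iInf, Set.mem_iInter, SetLike.mem_coe, LinearMap.mem_ker,
      LinearMap.proj_apply]
    exact fun v => logS_unitToSUnit_inr S u v
  have hf'W : f' ∈ W := (Submodule.span_le.mpr hTW) hf'
  have hfW : f ∈ W := by
    refine ⟨hf, ?_⟩
    simp only [Submodule.coe_iInf, Set.mem_iInter, SetLike.mem_coe, LinearMap.mem_ker,
      LinearMap.proj_apply]
    exact hf0
  have hd : f - f' ∈ W := W.sub_mem hfW hf'W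
  have hdz : f - f' = 0 := by
    obtain ⟨hd1, hd2⟩ := hd
    simp only [Submodule.coe_iInf, Set.mem_iInter, SetLike.mem_coe, LinearMap.mem_ker,
      LinearMap.proj_apply] at hd2
    have hd3 : ∀ w : InfinitePlace K, w ≠ w₀ → (f - f') (Sum.inl w) = 0 := by
      intro w hw
      have := congrFun hff' ⟨w, hw⟩
      simp only [ρ, LinearMap.funLeft_apply] at this
      simp [this]
    have hd4 : (f - f') (Sum.inl w₀) = 0 := by
      have h := mem_traceZero.mp hd1
      rw [Fintype.sum_sum_type, Finset.sum_eq_zero (fun v _ => hd2 v), add_zero,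
        Fintype.sum_eq_single w₀ (fun w hw => hd3 w hw)] at h
      exact h
    ext i
    rcases i with w | v
    · by_cases hw : w = w₀
      · rw [hw]; exact hd4
      · exact hd3 w hw
    · exact hd2 v
  have : f = f' := sub_eq_zero.mp hdz
  rw [this]
  exact Submodule.span_mono hT hf'


/-- For `v ∈ S` there is an `S`-unit whose divisor is a positive multiple of `v`. -/
theorem exists_sUnit_ordAt_pos (S : Finset (HeightOneSpectrum (𝓞 K))) (v : S) :
    ∃ a : SUnit K S, 0 < ordAt v.1 (a : Kˣ) ∧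
      ∀ v' : HeightOneSpectrum (𝓞 K), v' ≠ v.1 → ordAt v' (a : Kˣ) = 0 := by
  obtain ⟨a, ha, ha'⟩ := exists_ordAt_pos_and_eq_zero v.1
  refine ⟨⟨a, mem_sUnit_iff.mpr fun v' hv' => ha' v' ?_⟩, ha, ha'⟩
  rintro rfl
  exact hv' v.2

/-- **Dirichlet's `S`-unit theorem**, spanning part: the logarithms of the `S`-units span the
trace-zero hyperplane of `ℝ^(S_∞ ∪ S)`. -/
theorem span_sUnitLattice (S : Finset (HeightOneSpectrum (𝓞 K))) :
    Submodule.span ℝ (sUnitLattice K S : Set (Idx K S → ℝ)) = traceZero (Idx K S) := by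
  classical
  refine le_antisymm (sUnitLattice_le_traceZero S) ?_
  intro f hf
  choose a ha ha' using exists_sUnit_ordAt_pos S
  let b : S → (Idx K S → ℝ) := fun v => logS K S (Additive.ofMul (a v))
  have hb_mem : ∀ v, b v ∈ Submodule.span ℝ (sUnitLattice K S : Set (Idx K S → ℝ)) :=
    fun v => Submodule.subset_span (mem_sUnitLattice_iff.mpr ⟨a v, rfl⟩)
  have hb_ne : ∀ v : S, b v (Sum.inr v) ≠ 0 := by
    intro v
    simp only [b, logS_inr_eq]
    have h1 : (ordAt v.1 (a v : Kˣ) : ℝ) ≠ 0 := by exact_mod_cast (ha v).ne'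
    exact mul_ne_zero (neg_ne_zero.mpr h1) (log_absNorm_pos v.1).ne'
  have hb_zero : ∀ v v' : S, v' ≠ v → b v (Sum.inr v') = 0 := by
    intro v v' hvv'
    simp only [b, logS_inr_eq]
    rw [ha' v v'.1 (fun h => hvv' (Subtype.ext h))]
    simp
  let c : S → ℝ := fun v => f (Sum.inr v) / b v (Sum.inr v)
  let g : Idx K S → ℝ := ∑ v, c v • b v
  have hg_mem : g ∈ Submodule.span ℝ (sUnitLattice K S : Set (Idx K S → ℝ)) :=
    Submodule.sum_mem _ fun v _ => Submodule.smul_mem _ _ (hb_mem v)
  have hg_inr : ∀ v : S, g (Sum.inr v) = f (Sum.inr v) := by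
    intro v
    simp only [g, Finset.sum_apply, Pi.smul_apply, smul_eq_mul]
    rw [Finset.sum_eq_single v]
    · simp only [c]
      field_simp [hb_ne v]
    · intro v' _ hv'
      rw [hb_zero v' v (Ne.symm hv'), mul_zero]
    · intro h; exact absurd (Finset.mem_univ v) h
  have hfg : f - g ∈ Submodule.span ℝ (sUnitLattice K S : Set (Idx K S → ℝ)) := by
    apply mem_span_of_traceZero_of_inr_eq_zero
    · exact (traceZero (Idx K S)).sub_mem hf (sUnitLattice_le_traceZero S hg_mem)
    · intro v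
      simp [hg_inr v]
  have : f = (f - g) + g := by abel
  rw [this]
  exact Submodule.add_mem _ hfg hg_mem


open Module in
theorem finrank_traceZero (ι : Type*) [Fintype ι] [Nonempty ι] :
    finrank ℝ (traceZero ι) = Fintype.card ι - 1 := by
  classical
  let φ : (ι → ℝ) →ₗ[ℝ] ℝ := ∑ i, LinearMap.proj i
  have hφ : ∀ f, φ f = ∑ i, f i := fun f => by simp [φ]
  have hker : traceZero ι = LinearMap.ker φ := by
    ext f; rw [LinearMap.mem_ker, hφ]; rfl
  have hsurj : Function.Surjective φ := by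
    intro c
    obtain ⟨i₀⟩ := ‹Nonempty ι›
    refine ⟨Pi.single i₀ c, ?_⟩
    rw [hφ, Finset.sum_pi_single']
    simp
  have h := LinearMap.finrank_range_add_finrank_ker φ
  rw [LinearMap.range_eq_top.mpr hsurj, finrank_top, Module.finrank_self,
    Module.finrank_fintype_fun_eq_card] at h
  rw [hker]
  omega

open Module in
/-- **Dirichlet's `S`-unit theorem**, rank part. -/
theorem finrank_sUnitLattice (S : Finset (HeightOneSpectrum (𝓞 K))) :
    finrank ℤ (sUnitLattice K S) = Fintype.card (InfinitePlace K) + S.card - 1 := by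
  classical
  have h1 := Real.finrank_eq_int_finrank_of_discrete
    (s := (sUnitLattice K S : Set (Idx K S → ℝ)))
    (by rw [Submodule.span_eq]; infer_instance)
  rw [Set.finrank, Set.finrank, Submodule.span_eq, span_sUnitLattice, finrank_traceZero] at h1
  rw [← h1, Fintype.card_sum, Fintype.card_coe]


/-! ### Equivariance under automorphisms of `K` -/

/-- The permutation of the primes of `𝓞 K` induced by a field automorphism `σ`: `v ↦ σ(v)`. -/
noncomputable def primeMap (σ : K ≃+* K) :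
    HeightOneSpectrum (𝓞 K) ≃ HeightOneSpectrum (𝓞 K) :=
  HeightOneSpectrum.equivOfRingEquiv (RingOfIntegers.mapRingEquiv σ)

omit [NumberField K] in
theorem mem_primeMap_iff (σ : K ≃+* K) (v : HeightOneSpectrum (𝓞 K)) (a : 𝓞 K) :
    a ∈ (primeMap σ v).asIdeal ↔ RingOfIntegers.mapRingEquiv σ.symm a ∈ v.asIdeal :=
  Iff.rfl

omit [NumberField K] in
theorem map_mem_primeMap_iff (σ : K ≃+* K) (v : HeightOneSpectrum (𝓞 K)) (a : 𝓞 K) :
    RingOfIntegers.mapRingEquiv σ a ∈ (primeMap σ v).asIdeal ↔ a ∈ v.asIdeal := by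
  rw [mem_primeMap_iff]
  have : RingOfIntegers.mapRingEquiv σ.symm (RingOfIntegers.mapRingEquiv σ a) = a := by
    ext; simp
  rw [this]

omit [NumberField K] in
theorem map_mem_primeMap_pow_iff (σ : K ≃+* K) (v : HeightOneSpectrum (𝓞 K)) (a : 𝓞 K) (n : ℕ) :
    RingOfIntegers.mapRingEquiv σ a ∈ (primeMap σ v).asIdeal ^ n ↔ a ∈ v.asIdeal ^ n := by
  have h : (primeMap σ v).asIdeal = v.asIdeal.map (RingOfIntegers.mapRingEquiv σ) := by
    ext a
    rw [mem_primeMap_iff, Ideal.mem_map_of_equiv]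
    constructor
    · intro h
      exact ⟨_, h, by ext; simp⟩
    · rintro ⟨b, hb, rfl⟩
      have : RingOfIntegers.mapRingEquiv σ.symm (RingOfIntegers.mapRingEquiv σ b) = b := by
        ext; simp
      rwa [this]
  rw [h, ← Ideal.map_pow, Ideal.mem_map_of_equiv]
  constructor
  · rintro ⟨b, hb, hba⟩
    have := (RingOfIntegers.mapRingEquiv σ).injective hba
    rwa [← this]
  · intro h; exact ⟨a, h, rfl⟩


theorem natCast_le_ordAt_mk0_iff (v : HeightOneSpectrum (𝓞 K)) {a : 𝓞 K} (ha : (a : K) ≠ 0)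
    (n : ℕ) : (n : ℤ) ≤ ordAt v (Units.mk0 (a : K) ha) ↔ a ∈ v.asIdeal ^ n := by
  rw [← HeightOneSpectrum.intValuation_le_pow_iff_mem, ← HeightOneSpectrum.valuation_of_algebraMap (K := K)]
  have h2 := valuation_eq_exp_neg_ordAt v (Units.mk0 (a : K) ha)
  rw [Units.val_mk0] at h2
  rw [h2, WithZero.exp_le_exp]
  omega

theorem ordAt_primeMap_mk0 (σ : K ≃+* K) (v : HeightOneSpectrum (𝓞 K)) {a : 𝓞 K}
    (ha : (a : K) ≠ 0) (ha' : ((RingOfIntegers.mapRingEquiv σ a : 𝓞 K) : K) ≠ 0) :
    ordAt (primeMap σ v) (Units.mk0 ((RingOfIntegers.mapRingEquiv σ a : 𝓞 K) : K) ha') =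
      ordAt v (Units.mk0 (a : K) ha) := by
  have h1 := ordAt_mk0_nonneg v ha
  have h2 := ordAt_mk0_nonneg (primeMap σ v) ha'
  have key : ∀ n : ℕ, (n : ℤ) ≤ ordAt (primeMap σ v)
      (Units.mk0 ((RingOfIntegers.mapRingEquiv σ a : 𝓞 K) : K) ha') ↔
      (n : ℤ) ≤ ordAt v (Units.mk0 (a : K) ha) := by
    intro n
    rw [natCast_le_ordAt_mk0_iff, natCast_le_ordAt_mk0_iff, map_mem_primeMap_pow_iff]
  obtain ⟨m, hm⟩ := Int.eq_ofNat_of_zero_le h1
  obtain ⟨m', hm'⟩ := Int.eq_ofNat_of_zero_le h2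
  rw [hm, hm'] at key ⊢
  have a1 := (key m').mp le_rfl
  have a2 := (key m).mpr le_rfl
  omega

/-- The automorphism of `Kˣ` induced by a field automorphism. -/
noncomputable def unitsMap (σ : K ≃+* K) : Kˣ ≃* Kˣ := Units.mapEquiv σ.toMulEquiv

omit [NumberField K] in
@[simp] theorem unitsMap_val (σ : K ≃+* K) (x : Kˣ) : ((unitsMap σ x : Kˣ) : K) = σ (x : K) := rfl

/-- Equivariance of the valuations: `ord_{σ v}(σ x) = ord_v(x)`. -/
theorem ordAt_primeMap_unitsMap (σ : K ≃+* K) (v : HeightOneSpectrum (𝓞 K)) (x : Kˣ) :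
    ordAt (primeMap σ v) (unitsMap σ x) = ordAt v x := by
  obtain ⟨a, b, hb, hab⟩ := IsFractionRing.div_surjective (A := 𝓞 K) (x : K)
  have hb0 : (b : K) ≠ 0 := by
    have := nonZeroDivisors.ne_zero hb
    exact RingOfIntegers.coe_ne_zero_iff.mpr this
  have ha0 : (a : K) ≠ 0 := by
    intro h
    have : (x : K) = 0 := by rw [← hab]; simp [h]
    exact x.ne_zero this
  have hσa : ((RingOfIntegers.mapRingEquiv σ a : 𝓞 K) : K) ≠ 0 := by
    simpa using ha0
  have hσb : ((RingOfIntegers.mapRingEquiv σ b : 𝓞 K) : K) ≠ 0 := by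
    simpa using hb0
  have hx : x = Units.mk0 (a : K) ha0 * (Units.mk0 (b : K) hb0)⁻¹ := by
    ext
    simp only [Units.val_mul, Units.val_mk0, Units.val_inv_eq_inv_val]
    rw [← hab, div_eq_mul_inv]
  have hσx : unitsMap σ x = Units.mk0 _ hσa * (Units.mk0 _ hσb)⁻¹ := by
    ext
    rw [unitsMap_val, hx]
    simp only [Units.val_mul, Units.val_mk0, Units.val_inv_eq_inv_val, map_mul, map_inv₀]
    rfl
  rw [hσx, ordAt_mul, ordAt_inv, ordAt_primeMap_mk0 σ v ha0, ordAt_primeMap_mk0 σ v hb0, hx,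
    ordAt_mul, ordAt_inv]


omit [NumberField K] in
theorem primeMap_asIdeal (σ : K ≃+* K) (v : HeightOneSpectrum (𝓞 K)) :
    (primeMap σ v).asIdeal = v.asIdeal.map (RingOfIntegers.mapRingEquiv σ) := by
  ext a
  rw [mem_primeMap_iff, Ideal.mem_map_of_equiv]
  constructor
  · intro h
    exact ⟨_, h, by ext; simp⟩
  · rintro ⟨b, hb, rfl⟩
    have : RingOfIntegers.mapRingEquiv σ.symm (RingOfIntegers.mapRingEquiv σ b) = b := by
      ext; simp
    rwa [this]

theorem absNorm_primeMap (σ : K ≃+* K) (v : HeightOneSpectrum (𝓞 K)) :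
    Ideal.absNorm (primeMap σ v).asIdeal = Ideal.absNorm v.asIdeal := by
  rw [Ideal.absNorm_apply, Submodule.cardQuot_apply, Ideal.absNorm_apply,
    Submodule.cardQuot_apply]
  exact Nat.card_congr (Ideal.quotientEquiv _ _ (RingOfIntegers.mapRingEquiv σ)
    (primeMap_asIdeal σ v)).symm.toEquiv

/-- The permutation of the infinite places induced by a field automorphism `σ`: `w ↦ w ∘ σ⁻¹`. -/
noncomputable def infMap (σ : K ≃+* K) : InfinitePlace K ≃ InfinitePlace K where
  toFun w := w.comap σ.symm.toRingHom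
  invFun w := w.comap σ.toRingHom
  left_inv w := by
    ext x
    simp [InfinitePlace.comap_apply]
  right_inv w := by
    ext x
    simp [InfinitePlace.comap_apply]

omit [NumberField K] in
@[simp] theorem infMap_apply (σ : K ≃+* K) (w : InfinitePlace K) (x : K) :
    (infMap σ w) x = w (σ.symm x) := rfl

omit [NumberField K] in
theorem infMap_apply_map (σ : K ≃+* K) (w : InfinitePlace K) (x : K) :
    (infMap σ w) (σ x) = w x := by simp

omit [NumberField K] in
theorem mult_infMap (σ : K ≃+* K) (w : InfinitePlace K) : (infMap σ w).mult = w.mult := by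
  have : (infMap σ w).IsReal ↔ w.IsReal := InfinitePlace.isReal_comap_iff (f := σ.symm)
  unfold InfinitePlace.mult
  by_cases h : w.IsReal
  · rw [if_pos h, if_pos (this.mpr h)]
  · rw [if_neg h, if_neg (fun h' => h (this.mp h'))]


/-- The finite set of primes `S` is stable under the automorphism `σ`. -/
def IsStable (σ : K ≃+* K) (S : Finset (HeightOneSpectrum (𝓞 K))) : Prop :=
  ∀ v, primeMap σ v ∈ S ↔ v ∈ S

omit [NumberField K] in
theorem isStable_of_forall_mem {σ : K ≃+* K} {S : Finset (HeightOneSpectrum (𝓞 K))}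
    (h : ∀ v ∈ S, primeMap σ v ∈ S) : IsStable σ S := by
  intro v
  refine ⟨fun hv => ?_, h v⟩
  let f : S → S := fun v => ⟨primeMap σ v.1, h v.1 v.2⟩
  have hf : Function.Injective f := by
    intro a b hab
    have := congrArg Subtype.val hab
    exact Subtype.ext ((primeMap σ).injective this)
  obtain ⟨v', hv'⟩ := (Finite.injective_iff_surjective.mp hf) ⟨primeMap σ v, hv⟩
  have := congrArg Subtype.val hv'
  have h2 : v'.1 = v := (primeMap σ).injective this
  rw [← h2]; exact v'.2

omit [NumberField K] in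
theorem primeMap_symm (σ : K ≃+* K) : primeMap σ.symm = (primeMap σ).symm := by
  ext v a
  rw [mem_primeMap_iff]
  show _ ↔ a ∈ ((primeMap σ).symm v).asIdeal
  have h : a ∈ ((primeMap σ).symm v).asIdeal ↔
      RingOfIntegers.mapRingEquiv σ a ∈ (primeMap σ ((primeMap σ).symm v)).asIdeal :=
    (map_mem_primeMap_iff σ _ a).symm
  rw [h, Equiv.apply_symm_apply]
  rfl

omit [NumberField K] in
theorem IsStable.symm {σ : K ≃+* K} {S : Finset (HeightOneSpectrum (𝓞 K))} (h : IsStable σ S) :
    IsStable σ.symm S := by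
  intro v
  rw [primeMap_symm, ← h ((primeMap σ).symm v), Equiv.apply_symm_apply]

theorem unitsMap_mem_sUnit_iff {σ : K ≃+* K} {S : Finset (HeightOneSpectrum (𝓞 K))}
    (hS : IsStable σ S) (x : Kˣ) : unitsMap σ x ∈ SUnit K S ↔ x ∈ SUnit K S := by
  rw [mem_sUnit_iff, mem_sUnit_iff]
  constructor
  · intro h v hv
    rw [← ordAt_primeMap_unitsMap σ v x]
    exact h _ (fun h' => hv ((hS v).mp h'))
  · intro h v hv
    have := ordAt_primeMap_unitsMap σ ((primeMap σ).symm v) x
    rw [Equiv.apply_symm_apply] at this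
    rw [this]
    apply h
    intro h'
    apply hv
    have := (hS ((primeMap σ).symm v)).mpr h'
    rwa [Equiv.apply_symm_apply] at this

/-- The automorphism of the group of `S`-units induced by an automorphism `σ` of `K`
stabilising `S`. -/
noncomputable def sUnitMap (σ : K ≃+* K) (S : Finset (HeightOneSpectrum (𝓞 K)))
    (hS : IsStable σ S) : SUnit K S ≃* SUnit K S where
  toFun u := ⟨unitsMap σ u, (unitsMap_mem_sUnit_iff hS _).mpr u.2⟩
  invFun u := ⟨unitsMap σ.symm u, (unitsMap_mem_sUnit_iff hS.symm _).mpr u.2⟩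
  left_inv u := by ext; simp
  right_inv u := by ext; simp
  map_mul' u u' := by ext; simp

@[simp] theorem sUnitMap_val (σ : K ≃+* K) (S : Finset (HeightOneSpectrum (𝓞 K)))
    (hS : IsStable σ S) (u : SUnit K S) :
    (((sUnitMap σ S hS u : SUnit K S) : Kˣ) : K) = σ ((u : Kˣ) : K) := rfl

/-- The permutation of the index set `S_∞ ∪ S` induced by `σ`. -/
noncomputable def idxMap (σ : K ≃+* K) (S : Finset (HeightOneSpectrum (𝓞 K)))
    (hS : IsStable σ S) : Idx K S ≃ Idx K S :=
  Equiv.sumCongr (infMap σ) ((primeMap σ).subtypeEquiv (fun v => (hS v).symm))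

/-- Equivariance of the logarithmic map. -/
theorem logS_sUnitMap (σ : K ≃+* K) (S : Finset (HeightOneSpectrum (𝓞 K)))
    (hS : IsStable σ S) (u : SUnit K S) (i : Idx K S) :
    logS K S (Additive.ofMul (sUnitMap σ S hS u)) (idxMap σ S hS i) =
      logS K S (Additive.ofMul u) i := by
  rcases i with w | v
  · show logS K S (Additive.ofMul (sUnitMap σ S hS u)) (Sum.inl (infMap σ w)) = _
    rw [logS_inl, logS_inl, mult_infMap, sUnitMap_val, infMap_apply_map]
  · show logS K S (Additive.ofMul (sUnitMap σ S hS u))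
      (Sum.inr ⟨primeMap σ v.1, (hS v.1).mpr v.2⟩) = _
    rw [logS_inr_eq, logS_inr_eq]
    have h1 : ordAt (primeMap σ v.1) ((sUnitMap σ S hS u : SUnit K S) : Kˣ) =
        ordAt v.1 (u : Kˣ) := ordAt_primeMap_unitsMap σ v.1 u
    simp only [h1, absNorm_primeMap]


omit [NumberField K] in
theorem primeMap_refl : primeMap (RingEquiv.refl K) = Equiv.refl _ := by
  ext v a
  rw [mem_primeMap_iff]
  rfl

omit [NumberField K] in
theorem primeMap_trans (σ τ : K ≃+* K) (v : HeightOneSpectrum (𝓞 K)) :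
    primeMap (σ.trans τ) v = primeMap τ (primeMap σ v) := by
  ext a
  rw [mem_primeMap_iff, mem_primeMap_iff, mem_primeMap_iff]
  rfl

omit [NumberField K] in
theorem infMap_refl : infMap (RingEquiv.refl K) = Equiv.refl _ := by
  ext w x
  rfl

omit [NumberField K] in
theorem infMap_trans (σ τ : K ≃+* K) (w : InfinitePlace K) :
    infMap (σ.trans τ) w = infMap τ (infMap σ w) := by
  ext x
  rfl

section GroupAction

variable {G : Type*} [Group G] [MulSemiringAction G K]

omit [NumberField K] in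
theorem toRingEquiv_one : MulSemiringAction.toRingEquiv G K 1 = RingEquiv.refl K := by
  ext x; simp

omit [NumberField K] in
theorem toRingEquiv_mul (g h : G) : MulSemiringAction.toRingEquiv G K (g * h) =
    (MulSemiringAction.toRingEquiv G K h).trans (MulSemiringAction.toRingEquiv G K g) := by
  ext x; simp

variable (G) in
/-- The finite set of primes `S` is stable under the action of the group `G` on `K`. -/
def IsStableUnder (S : Finset (HeightOneSpectrum (𝓞 K))) : Prop :=
  ∀ g : G, IsStable (MulSemiringAction.toRingEquiv G K g) S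

variable (S : Finset (HeightOneSpectrum (𝓞 K))) (hS : IsStableUnder G S)

/-- The action of `G` on the set of places `S_∞ ∪ S`. (A definition, not an instance.) -/
@[reducible] noncomputable def idxMulAction : MulAction G (Idx K S) where
  smul g i := idxMap (MulSemiringAction.toRingEquiv G K g) S (hS g) i
  one_smul i := by
    show idxMap (MulSemiringAction.toRingEquiv G K 1) S (hS 1) i = i
    rcases i with w | v
    · show Sum.inl (infMap (MulSemiringAction.toRingEquiv G K 1) w) = Sum.inl w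
      rw [toRingEquiv_one, infMap_refl]; rfl
    · show Sum.inr (⟨primeMap (MulSemiringAction.toRingEquiv G K 1) v.1, _⟩ : S) = Sum.inr v
      congr 1
      apply Subtype.ext
      show primeMap (MulSemiringAction.toRingEquiv G K 1) v.1 = v.1
      rw [toRingEquiv_one, primeMap_refl]; rfl
  mul_smul g h i := by
    show idxMap (MulSemiringAction.toRingEquiv G K (g * h)) S (hS (g * h)) i =
      idxMap (MulSemiringAction.toRingEquiv G K g) S (hS g)
        (idxMap (MulSemiringAction.toRingEquiv G K h) S (hS h) i)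
    rcases i with w | v
    · show Sum.inl (infMap (MulSemiringAction.toRingEquiv G K (g * h)) w) =
        Sum.inl (infMap (MulSemiringAction.toRingEquiv G K g)
          (infMap (MulSemiringAction.toRingEquiv G K h) w))
      rw [toRingEquiv_mul, infMap_trans]
    · show Sum.inr (⟨primeMap (MulSemiringAction.toRingEquiv G K (g * h)) v.1, _⟩ : S) =
        Sum.inr (⟨primeMap (MulSemiringAction.toRingEquiv G K g)
          (primeMap (MulSemiringAction.toRingEquiv G K h) v.1), _⟩ : S)
      congr 1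
      apply Subtype.ext
      show primeMap (MulSemiringAction.toRingEquiv G K (g * h)) v.1 = _
      rw [toRingEquiv_mul, primeMap_trans]

/-- The action of `G` on the group of `S`-units. (A definition, not an instance.) -/
@[reducible] noncomputable def sUnitMulDistribMulAction : MulDistribMulAction G (SUnit K S) where
  smul g u := sUnitMap (MulSemiringAction.toRingEquiv G K g) S (hS g) u
  one_smul u := by
    ext
    show (((sUnitMap (MulSemiringAction.toRingEquiv G K 1) S (hS 1) u : SUnit K S) : Kˣ) : K) = _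
    simp
  mul_smul g h u := by
    ext
    show (((sUnitMap (MulSemiringAction.toRingEquiv G K (g * h)) S (hS (g * h)) u :
      SUnit K S) : Kˣ) : K) = (((sUnitMap (MulSemiringAction.toRingEquiv G K g) S (hS g)
        (sUnitMap (MulSemiringAction.toRingEquiv G K h) S (hS h) u) : SUnit K S) : Kˣ) : K)
    simp
  smul_mul g u u' := map_mul (sUnitMap (MulSemiringAction.toRingEquiv G K g) S (hS g)) u u'
  smul_one g := map_one (sUnitMap (MulSemiringAction.toRingEquiv G K g) S (hS g))

theorem smul_sUnit_val (g : G) (u : SUnit K S) :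
    letI := sUnitMulDistribMulAction S hS
    (((g • u : SUnit K S) : Kˣ) : K) = g • ((u : Kˣ) : K) := rfl

/-- `G`-equivariance of the logarithmic map on `S`-units. -/
theorem logS_smul (g : G) (u : SUnit K S) (i : Idx K S) :
    letI := sUnitMulDistribMulAction S hS
    letI := idxMulAction S hS
    logS K S (Additive.ofMul (g • u)) (g • i) = logS K S (Additive.ofMul u) i :=
  logS_sUnitMap (MulSemiringAction.toRingEquiv G K g) S (hS g) u i

end GroupAction

end Fermat.Agent.Lib.CFT.Global.SUnits
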