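import Mathlib
import Fermat.Agent.Lib.CFT.Global.Ideles
import Fermat.Agent.Lib.CFT.Global.SUnits
import Fermat.Agent.Lib.CFT.Global.FirstIneq

/-!
# Integral units of `ℚ_q ⊗ L` versus valuations at the primes above `q`

For a number field `L`, a rational prime `q` and `x : Lˣ` we show
`locUnit L q x ∈ locIntUnits L q ↔ ∀ v ∣ q, v.valuation L x = 1`
(`FirstIneq.locUnit_mem_locIntUnits_iff`).  Consequently the `S`-units of
`Global/FirstIneq.lean` (defined through the semi-local algebras) coincide with the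
`S'`-units of `Global/SUnits.lean`, where `S'` is the set of primes of `𝓞 L` above `S`
(`FirstIneq.sUnits_eq_sUnit`), equivariantly (`FirstIneq.sUnitsEquiv_smul`), so that the Herbrand
quotients agree (`FirstIneq.herbrandCycMul_sUnits_eq`).
-/

open scoped TensorProduct NumberField

namespace Fermat.Agent.Lib.CFT.Global

namespace FirstIneq

open IsDedekindDomain NumberField Fermat.Agent.Lib.CFT.Herbrand

section Padic

variable (p : ℕ) [Fact p.Prime]

/-- A rational number is a `p`-adic integer iff `p` does not divide its denominator. -/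
theorem norm_ratCast_le_one_iff (r : ℚ) : ‖(r : ℚ_[p])‖ ≤ 1 ↔ ¬ p ∣ r.den := by
  refine ⟨fun h hd => ?_, fun h => Padic.norm_rat_le_one h⟩
  have hp : p.Prime := Fact.out
  have hnum : ¬ (p : ℤ) ∣ r.num := by
    intro hn
    have h1 : p ∣ r.num.natAbs := Int.natCast_dvd.1 hn
    have h2 : p ∣ Nat.gcd r.num.natAbs r.den := Nat.dvd_gcd h1 hd
    rw [r.reduced] at h2
    exact hp.one_lt.ne' (Nat.dvd_one.1 h2)
  have hr : (r : ℚ_[p]) * (r.den : ℚ_[p]) = (r.num : ℚ_[p]) := by
    have : (r * r.den : ℚ) = r.num := Rat.mul_den_eq_num r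
    exact_mod_cast congrArg (fun t : ℚ => (t : ℚ_[p])) this
  have h1 : ‖(r.num : ℚ_[p])‖ = 1 := by
    have := Padic.norm_int_le_one (p := p) r.num
    rcases this.lt_or_eq with hlt | heq
    · exact absurd (Padic.norm_intCast_lt_one_iff.1 hlt) hnum
    · exact heq
  have h2 : ‖(r.den : ℚ_[p])‖ < 1 := Padic.norm_natCast_lt_one_iff.2 hd
  have h3 : ‖(r : ℚ_[p])‖ * ‖(r.den : ℚ_[p])‖ = 1 := by
    rw [← norm_mul, hr, h1]
  have h4 : ‖(r : ℚ_[p])‖ * ‖(r.den : ℚ_[p])‖ < 1 := by
    calc ‖(r : ℚ_[p])‖ * ‖(r.den : ℚ_[p])‖ ≤ 1 * ‖(r.den : ℚ_[p])‖ :=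
          mul_le_mul_of_nonneg_right h (norm_nonneg _)
      _ < 1 := by rwa [one_mul]
  exact absurd h3 h4.ne

end Padic

section Coord

variable (L : Type) [Field L] [NumberField L] (q : Nat.Primes)

/-- The `ℚ_q`-basis of `ℚ_q ⊗ L` induced by an integral basis of `L`. -/
noncomputable def locBasis :
    Module.Basis (Module.Free.ChooseBasisIndex ℤ (𝓞 L)) ℚ_[pv q] (LocAlg L q) :=
  Algebra.TensorProduct.basis ℚ_[pv q] (integralBasis L)

lemma locBasis_repr_tmul (a : ℚ_[pv q]) (x : L) (i : Module.Free.ChooseBasisIndex ℤ (𝓞 L)) :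
    (locBasis L q).repr (a ⊗ₜ[ℚ] x) i = a * (((integralBasis L).repr x i : ℚ) : ℚ_[pv q]) := by
  unfold locBasis
  rw [Algebra.TensorProduct.basis_repr_tmul]
  simp

/-- The integral subalgebra is the `ℤ_q`-span of `1 ⊗ 𝓞 L`. -/
lemma locInt_toSubmodule :
    Subalgebra.toSubmodule (locInt L q) =
      Submodule.span ℤ_[pv q] (Set.range fun x : 𝓞 L => ((1 : ℚ_[pv q]) ⊗ₜ[ℚ] (x : L) : LocAlg L q)) := by
  unfold locInt
  rw [Algebra.adjoin_eq_span]
  congr 1
  have : (Set.range fun x : 𝓞 L => ((1 : ℚ_[pv q]) ⊗ₜ[ℚ] (x : L) : LocAlg L q)) =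
      ((MonoidHom.mrange
        (((Algebra.TensorProduct.includeRight : L →ₐ[ℚ] LocAlg L q) : L →* LocAlg L q).comp
          ((algebraMap (𝓞 L) L : 𝓞 L →* L))) : Submonoid (LocAlg L q)) : Set (LocAlg L q)) := by
    ext y
    simp
  rw [this, Submonoid.closure_eq]

/-- Elements of the integral subalgebra have `q`-integral coordinates in an integral basis. -/
lemma norm_locBasis_repr_le_one {y : LocAlg L q} (hy : y ∈ locInt L q)
    (i : Module.Free.ChooseBasisIndex ℤ (𝓞 L)) : ‖(locBasis L q).repr y i‖ ≤ 1 := by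
  have hy' : y ∈ Subalgebra.toSubmodule (locInt L q) := hy
  rw [locInt_toSubmodule] at hy'
  refine Submodule.span_induction (p := fun y _ => ‖(locBasis L q).repr y i‖ ≤ 1)
    ?_ ?_ ?_ ?_ hy'
  · rintro _ ⟨a, rfl⟩
    rw [locBasis_repr_tmul, one_mul]
    have : (integralBasis L).repr (a : L) i =
        (algebraMap ℤ ℚ) ((RingOfIntegers.basis L).repr a i) := integralBasis_repr_apply L a i
    rw [this]
    have h2 : (((algebraMap ℤ ℚ) ((RingOfIntegers.basis L).repr a i) : ℚ) : ℚ_[pv q]) =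
        (((RingOfIntegers.basis L).repr a i : ℤ) : ℚ_[pv q]) := by
      simp
    rw [h2]
    exact Padic.norm_int_le_one _
  · simp
  · intro y z _ _ hy hz
    rw [map_add, Finsupp.add_apply]
    exact (Padic.nonarchimedean _ _).trans (max_le hy hz)
  · intro r y _ hy
    have : r • y = (r : ℚ_[pv q]) • y := by
      rw [Algebra.smul_def, Algebra.smul_def]
      rfl
    rw [this, map_smul, Finsupp.smul_apply, smul_eq_mul, norm_mul]
    calc ‖(r : ℚ_[pv q])‖ * ‖(locBasis L q).repr y i‖ ≤ 1 * 1 :=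
          mul_le_mul (PadicInt.norm_le_one r) hy (norm_nonneg _) zero_le_one
      _ = 1 := one_mul 1

end Coord

section Denominators

variable (L : Type) [Field L] [NumberField L]

/-- The product of the denominators of the coordinates of `x` in an integral basis. -/
noncomputable def coordDen (x : L) : ℕ := ∏ i, ((integralBasis L).repr x i).den

lemma coordDen_ne_zero (x : L) : coordDen L x ≠ 0 := by
  unfold coordDen
  exact Finset.prod_ne_zero_iff.2 fun i _ => Rat.den_nz _

/-- `coordDen L x * x` is an algebraic integer. -/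
lemma coordDen_mul_mem (x : L) : ∃ a : 𝓞 L, (a : L) = (coordDen L x : L) * x := by
  have hmem : (coordDen L x : L) * x ∈ Submodule.span ℤ (Set.range (integralBasis L)) := by
    have hx : (coordDen L x : L) * x =
        ∑ i, ((coordDen L x : ℚ) * (integralBasis L).repr x i) • integralBasis L i := by
      have h0 := (integralBasis L).sum_repr x
      calc (coordDen L x : L) * x
          = (coordDen L x : L) * ∑ i, (integralBasis L).repr x i • integralBasis L i := by
            rw [h0]
        _ = _ := by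
            rw [Finset.mul_sum]
            refine Finset.sum_congr rfl fun i _ => ?_
            rw [mul_smul, Algebra.smul_def (coordDen L x : ℚ)]
            simp
    rw [hx]
    refine Submodule.sum_mem _ fun i _ => ?_
    have hdvd : ((integralBasis L).repr x i).den ∣ coordDen L x :=
      Finset.dvd_prod_of_mem _ (Finset.mem_univ i)
    obtain ⟨k, hk⟩ := hdvd
    have hint : (coordDen L x : ℚ) * (integralBasis L).repr x i =
        ((k * ((integralBasis L).repr x i).num : ℤ) : ℚ) := by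
      rw [hk]
      push_cast
      have := Rat.mul_den_eq_num ((integralBasis L).repr x i)
      rw [← this]
      ring
    rw [hint, Int.cast_smul_eq_zsmul]
    exact Submodule.smul_mem _ _ (Submodule.subset_span ⟨i, rfl⟩)
  obtain ⟨a, ha⟩ := mem_span_integralBasis L |>.1 hmem
  exact ⟨a, ha⟩

end Denominators

section Val

variable (L : Type) [Field L] [NumberField L]

lemma valuation_natCast_le_one (v : HeightOneSpectrum (𝓞 L)) (m : ℕ) :
    v.valuation L (m : L) ≤ 1 := by
  have := v.valuation_le_one (K := L) (m : 𝓞 L)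
  simpa using this

/-- A natural number prime to `q` is a unit at every prime above `q`. -/
lemma valuation_natCast_eq_one_of_not_dvd (v : HeightOneSpectrum (𝓞 L)) (q : Nat.Primes)
    (hv : ((q : ℕ) : 𝓞 L) ∈ v.asIdeal) (m : ℕ) (hm : ¬ (q : ℕ) ∣ m) :
    v.valuation L (m : L) = 1 := by
  have h1 : (m : 𝓞 L) ∉ v.asIdeal := by
    intro hmem
    have hcop : IsCoprime ((q : ℕ) : ℤ) (m : ℤ) :=
      Nat.isCoprime_iff_coprime.2 ((Nat.Prime.coprime_iff_not_dvd q.2).2 hm)
    obtain ⟨a, b, hab⟩ := hcop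
    have : (1 : 𝓞 L) ∈ v.asIdeal := by
      have h2 : ((a : 𝓞 L)) * ((q : ℕ) : 𝓞 L) + (b : 𝓞 L) * (m : 𝓞 L) = 1 := by
        have := congrArg (fun t : ℤ => (t : 𝓞 L)) hab
        push_cast at this
        exact this
      rw [← h2]
      exact add_mem (Ideal.mul_mem_left _ _ hv) (Ideal.mul_mem_left _ _ hmem)
    exact v.isPrime.ne_top ((Ideal.eq_top_iff_one _).2 this)
  have := (HeightOneSpectrum.valuation_eq_one_iff_notMem (K := L) (v := v) (r := (m : 𝓞 L))).2 h1
  simpa using this

/-- The prime `q` is a unit at every prime not above `q`. -/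
lemma valuation_prime_eq_one_of_notMem (v : HeightOneSpectrum (𝓞 L)) (q : Nat.Primes)
    (hv : ((q : ℕ) : 𝓞 L) ∉ v.asIdeal) :
    v.valuation L ((q : ℕ) : L) = 1 := by
  have := (HeightOneSpectrum.valuation_eq_one_iff_notMem (K := L) (v := v)
    (r := ((q : ℕ) : 𝓞 L))).2 hv
  simpa using this

end Val

section Val2

variable (L : Type) [Field L] [NumberField L]

/-- If `x` is integral at all primes above `q`, some multiple `m * x` with `q ∤ m` is an
algebraic integer. -/
lemma exists_nat_mul_mem_of_valuation_le_one (q : Nat.Primes) (x : L)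
    (hx : ∀ v : HeightOneSpectrum (𝓞 L), ((q : ℕ) : 𝓞 L) ∈ v.asIdeal → v.valuation L x ≤ 1) :
    ∃ m : ℕ, ¬ (q : ℕ) ∣ m ∧ ∃ a : 𝓞 L, (a : L) = (m : L) * x := by
  obtain ⟨z, hz⟩ := coordDen_mul_mem L x
  obtain ⟨k, m, hm, hN⟩ := Nat.exists_eq_pow_mul_and_not_dvd (coordDen_ne_zero L x) (q : ℕ)
    q.2.ne_one
  refine ⟨m, hm, ?_⟩
  have hq0 : ((q : ℕ) : L) ≠ 0 := by
    exact_mod_cast q.2.ne_zero
  have hmem : (m : L) * x ∈ (algebraMap (𝓞 L) L).range := by
    apply HeightOneSpectrum.mem_integers_of_valuation_le_one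
    intro v
    by_cases hv : ((q : ℕ) : 𝓞 L) ∈ v.asIdeal
    · rw [map_mul]
      exact mul_le_one' (valuation_natCast_le_one L v m) (hx v hv)
    · have h1 : (m : L) * x = (z : L) / ((q : ℕ) : L) ^ k := by
        rw [hz, hN]
        push_cast
        field_simp
      rw [h1, map_div₀, map_pow, valuation_prime_eq_one_of_notMem L v q hv, one_pow, div_one]
      exact v.valuation_le_one z
  obtain ⟨a, ha⟩ := hmem
  exact ⟨a, ha⟩

end Val2

section Main

variable (L : Type) [Field L] [NumberField L]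

/-- An element of `L` integral at all primes above `q` lies in the integral subalgebra of
`ℚ_q ⊗ L`. -/
lemma one_tmul_mem_locInt_of_valuation_le_one (q : Nat.Primes) (x : L)
    (hx : ∀ v : HeightOneSpectrum (𝓞 L), ((q : ℕ) : 𝓞 L) ∈ v.asIdeal → v.valuation L x ≤ 1) :
    ((1 : ℚ_[pv q]) ⊗ₜ[ℚ] x : LocAlg L q) ∈ locInt L q := by
  obtain ⟨m, hm, a, ha⟩ := exists_nat_mul_mem_of_valuation_le_one L q x hx
  have hunit : IsUnit ((m : ℤ_[pv q])) := by
    rw [PadicInt.isUnit_iff, PadicInt.norm_natCast_eq_one_iff]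
    exact (Nat.Prime.coprime_iff_not_dvd q.2).2 hm
  obtain ⟨u, hu⟩ := hunit
  have hm0 : (m : ℚ) ≠ 0 := by
    intro h0
    have : m = 0 := by exact_mod_cast h0
    exact hm (this ▸ dvd_zero _)
  have key : ((1 : ℚ_[pv q]) ⊗ₜ[ℚ] x : LocAlg L q) =
      (((u⁻¹ : ℤ_[pv q]ˣ) : ℤ_[pv q]) : ℚ_[pv q]) ⊗ₜ[ℚ] ((a : 𝓞 L) : L) := by
    have h1 : ((a : 𝓞 L) : L) = (m : ℚ) • x := by
      rw [ha, Algebra.smul_def]
      simp
    rw [h1, ← TensorProduct.smul_tmul]
    congr 1
    have : ((u : ℤ_[pv q]) : ℚ_[pv q]) *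
        (((u⁻¹ : ℤ_[pv q]ˣ) : ℤ_[pv q]) : ℚ_[pv q]) = 1 := by
      rw [← PadicInt.coe_mul]; simp
    rw [hu] at this
    rw [Algebra.smul_def]
    simpa using this.symm
  rw [key]
  exact tmul_mem_locInt L q _ a

/-- Conversely, elements of `L` in the integral subalgebra of `ℚ_q ⊗ L` are integral at all
primes above `q`. -/
lemma valuation_le_one_of_one_tmul_mem_locInt (q : Nat.Primes) (x : L)
    (hx : ((1 : ℚ_[pv q]) ⊗ₜ[ℚ] x : LocAlg L q) ∈ locInt L q)
    (v : HeightOneSpectrum (𝓞 L)) (hv : ((q : ℕ) : 𝓞 L) ∈ v.asIdeal) :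
    v.valuation L x ≤ 1 := by
  have hden : ¬ (q : ℕ) ∣ coordDen L x := by
    unfold coordDen
    rw [Prime.dvd_finsetProd_iff (Nat.Prime.prime q.2)]
    rintro ⟨i, -, hi⟩
    have h1 := norm_locBasis_repr_le_one L q hx i
    rw [locBasis_repr_tmul, one_mul] at h1
    exact (norm_ratCast_le_one_iff (pv q) _).1 h1 hi
  obtain ⟨a, ha⟩ := coordDen_mul_mem L x
  have h1 : v.valuation L ((coordDen L x : L) * x) ≤ 1 := by
    rw [← ha]
    exact v.valuation_le_one a
  rw [map_mul, valuation_natCast_eq_one_of_not_dvd L v q hv _ hden, one_mul] at h1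
  exact h1

/-- **Integral units versus valuations**: `x : Lˣ` is an integral unit of `ℚ_q ⊗ L` iff it is
a unit at every prime of `𝓞 L` above `q`. -/
theorem locUnit_mem_locIntUnits_iff (q : Nat.Primes) (x : Lˣ) :
    locUnit L q x ∈ locIntUnits L q ↔
      ∀ v : HeightOneSpectrum (𝓞 L), ((q : ℕ) : 𝓞 L) ∈ v.asIdeal →
        v.valuation L (x : L) = 1 := by
  have hinv : (((locUnit L q x)⁻¹ : (LocAlg L q)ˣ) : LocAlg L q) =
      (1 : ℚ_[pv q]) ⊗ₜ[ℚ] ((x⁻¹ : Lˣ) : L) := by
    rw [← map_inv, val_locUnit]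
  rw [mem_locIntUnits, hinv, val_locUnit]
  constructor
  · rintro ⟨h1, h2⟩ v hv
    have a1 := valuation_le_one_of_one_tmul_mem_locInt L q _ h1 v hv
    have a2 := valuation_le_one_of_one_tmul_mem_locInt L q _ h2 v hv
    rw [Units.val_inv_eq_inv_val, map_inv₀] at a2
    have hne : v.valuation L (x : L) ≠ 0 := by simp
    exact le_antisymm a1 ((inv_le_one₀ (zero_lt_iff.2 hne)).1 a2)
  · intro h
    refine ⟨one_tmul_mem_locInt_of_valuation_le_one L q _ fun v hv => (h v hv).le,
      one_tmul_mem_locInt_of_valuation_le_one L q _ fun v hv => ?_⟩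
    rw [Units.val_inv_eq_inv_val, map_inv₀, h v hv, inv_one]

end Main

section PrimesAbove

variable (L : Type) [Field L] [NumberField L]

/-- Every prime of `𝓞 L` lies above a rational prime. -/
lemma exists_prime_mem (v : HeightOneSpectrum (𝓞 L)) :
    ∃ q : Nat.Primes, ((q : ℕ) : 𝓞 L) ∈ v.asIdeal := by
  have key : ∀ n : ℕ, n ≠ 0 → (n : 𝓞 L) ∈ v.asIdeal →
      ∃ q : Nat.Primes, ((q : ℕ) : 𝓞 L) ∈ v.asIdeal := by
    intro n
    induction n using Nat.recOnMul with
    | zero => intro h; exact absurd rfl h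
    | one =>
      intro _ h1
      exfalso
      apply v.isPrime.ne_top
      rw [Ideal.eq_top_iff_one]
      simpa using h1
    | prime p hp => intro _ h; exact ⟨⟨p, hp⟩, h⟩
    | mul a b iha ihb =>
      intro hab h
      have ha : a ≠ 0 := fun h0 => hab (by rw [h0, zero_mul])
      have hb : b ≠ 0 := fun h0 => hab (by rw [h0, mul_zero])
      rw [Nat.cast_mul] at h
      rcases v.isPrime.mem_or_mem h with h1 | h1
      · exact iha ha h1
      · exact ihb hb h1
  refine key (Ideal.absNorm v.asIdeal) ?_ (Ideal.absNorm_mem v.asIdeal)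
  rw [Ne, Ideal.absNorm_eq_zero_iff]
  exact v.ne_bot

omit [NumberField L] in
/-- The rational prime below a prime of `𝓞 L` is unique. -/
lemma prime_mem_unique (v : HeightOneSpectrum (𝓞 L)) {q q' : Nat.Primes}
    (hq : ((q : ℕ) : 𝓞 L) ∈ v.asIdeal) (hq' : ((q' : ℕ) : 𝓞 L) ∈ v.asIdeal) : q = q' := by
  by_contra hne
  have hcop : IsCoprime ((q : ℕ) : ℤ) ((q' : ℕ) : ℤ) := by
    rw [Nat.isCoprime_iff_coprime, Nat.coprime_primes q.2 q'.2]
    exact fun h => hne (Subtype.ext h)
  obtain ⟨a, b, hab⟩ := hcop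
  apply v.isPrime.ne_top
  rw [Ideal.eq_top_iff_one]
  have h2 : ((a : 𝓞 L)) * ((q : ℕ) : 𝓞 L) + (b : 𝓞 L) * ((q' : ℕ) : 𝓞 L) = 1 := by
    have := congrArg (fun t : ℤ => (t : 𝓞 L)) hab
    push_cast at this
    exact this
  rw [← h2]
  exact add_mem (Ideal.mul_mem_left _ _ hq) (Ideal.mul_mem_left _ _ hq')

lemma finite_setOf_prime_mem (q : Nat.Primes) :
    {v : HeightOneSpectrum (𝓞 L) | ((q : ℕ) : 𝓞 L) ∈ v.asIdeal}.Finite := by
  have hne : Ideal.span {((q : ℕ) : 𝓞 L)} ≠ ⊥ := by
    rw [Ne, Ideal.span_singleton_eq_bot]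
    exact_mod_cast q.2.ne_zero
  refine (Ideal.finite_factors hne).subset ?_
  intro v hv
  rw [Set.mem_ofPred_eq, Ideal.dvd_span_singleton]
  exact hv

/-- The finite set of primes of `𝓞 L` above a finite set `S` of rational primes. -/
noncomputable def primesAbove (S : Finset Nat.Primes) : Finset (HeightOneSpectrum (𝓞 L)) :=
  (Set.Finite.biUnion S.finite_toSet (fun q _ => finite_setOf_prime_mem L q)).toFinset

lemma mem_primesAbove {S : Finset Nat.Primes} {v : HeightOneSpectrum (𝓞 L)} :
    v ∈ primesAbove L S ↔ ∃ q ∈ S, ((q : ℕ) : 𝓞 L) ∈ v.asIdeal := by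
  unfold primesAbove
  rw [Set.Finite.mem_toFinset]
  simp

lemma mem_primesAbove_iff_of_mem {S : Finset Nat.Primes} {v : HeightOneSpectrum (𝓞 L)}
    {q : Nat.Primes} (hq : ((q : ℕ) : 𝓞 L) ∈ v.asIdeal) : v ∈ primesAbove L S ↔ q ∈ S := by
  rw [mem_primesAbove]
  constructor
  · rintro ⟨q', hq'S, hq'⟩
    rwa [prime_mem_unique L v hq hq']
  · intro h
    exact ⟨q, h, hq⟩

/-- **Comparison of the two notions of `S`-units.** -/
theorem sUnits_eq_sUnit (S : Finset Nat.Primes) :
    sUnits L (S : Set Nat.Primes) = SUnits.SUnit L (primesAbove L S) := by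
  ext x
  have h : x ∈ SUnits.SUnit L (primesAbove L S) ↔
      ∀ v, v ∉ ((primesAbove L S : Finset _) : Set (HeightOneSpectrum (𝓞 L))) →
      v.valuation L (x : L) = 1 := Iff.rfl
  rw [h, mem_sUnits]
  simp_rw [locUnit_mem_locIntUnits_iff]
  constructor
  · intro hx v hv
    obtain ⟨q, hq⟩ := exists_prime_mem L v
    refine hx q ?_ v hq
    intro hqS
    apply hv
    rw [Finset.mem_coe, mem_primesAbove_iff_of_mem L hq]
    exact hqS
  · intro hx q hq v hv
    apply hx v
    rw [Finset.mem_coe, mem_primesAbove_iff_of_mem L hv]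
    exact hq

end PrimesAbove

section Congr

variable {G : Type*} [Group G] [Fintype G] {M M' : Type*} [CommGroup M] [CommGroup M']
  [MulDistribMulAction G M] [MulDistribMulAction G M']

/-- The Herbrand quotient is invariant under equivariant isomorphisms. -/
theorem herbrandCycMul_congr (e : M ≃* M') (he : ∀ (g : G) (m : M), e (g • m) = g • e m)
    (s : G) :
    (CycFinMul G M s ↔ CycFinMul G M' s) ∧ herbrandCycMul G M s = herbrandCycMul G M' s := by
  have hker : Finite (e : M →* M').ker := by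
    have : (e : M →* M').ker = ⊥ := (MonoidHom.ker_eq_bot_iff _).2 e.injective
    rw [this]
    infer_instance
  have hrange : (e : M →* M').range.index ≠ 0 := by
    have : (e : M →* M').range = ⊤ := MonoidHom.range_eq_top.2 e.surjective
    rw [this, Subgroup.index_top]
    exact one_ne_zero
  exact herbrandMul_eq_of_finite_ker_coker (e : M →* M')
    (subOneMul_normMul s) (normMul_subOneMul s) (subOneMul_normMul s) (normMul_subOneMul s)
    (fun a => by simp [he]) (fun a => by simp [he]) hrange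

end Congr

section Stable

variable (L : Type) [Field L] [NumberField L]
variable (G : Type) [Group G] [MulSemiringAction G L]

lemma isStableUnder_primesAbove (S : Finset Nat.Primes) :
    SUnits.IsStableUnder G (primesAbove L S) := by
  intro g v
  rw [mem_primesAbove, mem_primesAbove]
  refine exists_congr fun q => and_congr_right fun _ => ?_
  rw [SUnits.mem_primeMap_iff, map_natCast]

/-- The identification of the two groups of `S`-units. -/
noncomputable def sUnitsEquiv (S : Finset Nat.Primes) :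
    sUnits L (S : Set Nat.Primes) ≃* SUnits.SUnit L (primesAbove L S) :=
  MulEquiv.subgroupCongr (sUnits_eq_sUnit L S)

@[simp] lemma coe_sUnitsEquiv (S : Finset Nat.Primes) (x : sUnits L (S : Set Nat.Primes)) :
    ((sUnitsEquiv L S x : SUnits.SUnit L (primesAbove L S)) : Lˣ) = (x : Lˣ) := rfl

lemma sUnitsEquiv_smul (S : Finset Nat.Primes) (g : G) (x : sUnits L (S : Set Nat.Primes)) :
    letI := SUnits.sUnitMulDistribMulAction (G := G) (primesAbove L S)
      (isStableUnder_primesAbove L G S)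
    sUnitsEquiv L S (g • x) = g • sUnitsEquiv L S x := by
  letI := SUnits.sUnitMulDistribMulAction (G := G) (primesAbove L S)
    (isStableUnder_primesAbove L G S)
  apply Subtype.ext
  apply Units.ext
  rfl

/-- Transfer of the Herbrand quotient between the two groups of `S`-units. -/
theorem herbrandCycMul_sUnits_eq [Fintype G] (S : Finset Nat.Primes) (s : G) :
    letI := SUnits.sUnitMulDistribMulAction (G := G) (primesAbove L S)
      (isStableUnder_primesAbove L G S)
    (CycFinMul G (sUnits L (S : Set Nat.Primes)) s ↔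
        CycFinMul G (SUnits.SUnit L (primesAbove L S)) s) ∧
      herbrandCycMul G (sUnits L (S : Set Nat.Primes)) s =
        herbrandCycMul G (SUnits.SUnit L (primesAbove L S)) s := by
  letI := SUnits.sUnitMulDistribMulAction (G := G) (primesAbove L S)
    (isStableUnder_primesAbove L G S)
  exact herbrandCycMul_congr (sUnitsEquiv L S) (sUnitsEquiv_smul L G S) s

end Stable

end FirstIneq

end Fermat.Agent.Lib.CFT.Global
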