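/-
P-CFT work package Global/SUnits (task 156), second file: class-generating sets of primes and
finite generation of the group of `S`-units.

* `IsClassGenerating S` : every divisor is principal away from `S`
  (the input for `J_K = Kˣ · J_{K,S}`); monotone in `S`;
* `exists_isClassGenerating`, `exists_isClassGenerating_isStableUnder` : such `S` exist above any
  given finite set (and can be taken stable under a finite group of automorphisms);
* `instModuleFinite_sUnit`, `sUnit_fg`, `finrank_sUnit` : the group of `S`-units is finitely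
  generated of rank `r₁ + r₂ + |S| - 1`.
-/
import Fermat.Agent.Lib.CFT.Global.SUnits
import Mathlib.LinearAlgebra.Dimension.Torsion.Finite

set_option autoImplicit false

namespace Fermat.Agent.Lib.CFT.Global.SUnits

open NumberField IsDedekindDomain

variable {K : Type*} [Field K] [NumberField K]

/-- The valuation of a nonzero algebraic integer is the multiplicity of `v` in the ideal it
generates. -/
theorem ordAt_mk0_eq_multiplicity (v : HeightOneSpectrum (𝓞 K)) {a : 𝓞 K} (ha : (a : K) ≠ 0) :
    ordAt v (Units.mk0 (a : K) ha) = (multiplicity v.asIdeal (Ideal.span {a}) : ℤ) := by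
  have ha0 : a ≠ 0 := RingOfIntegers.coe_ne_zero_iff.mp ha
  have h1 := v.intValuation_eq_exp_neg_multiplicity ha0
  have h2 := valuation_eq_exp_neg_ordAt v (Units.mk0 (a : K) ha)
  rw [Units.val_mk0, HeightOneSpectrum.valuation_of_algebraMap, h1, WithZero.exp_inj] at h2
  omega

theorem ordAt_zpow (v : HeightOneSpectrum (𝓞 K)) (x : Kˣ) (m : ℤ) :
    ordAt v (x ^ m) = m * ordAt v x := by
  cases m with
  | ofNat n => simpa using ordAt_pow v x n
  | negSucc n =>
    rw [zpow_negSucc, ordAt_inv, ordAt_pow]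
    push_cast
    rw [Int.negSucc_eq]
    ring

/-- The finite set of primes `S` is large enough that every divisor is principal away from
`S`. Equivalently `J_K = Kˣ · J_{K,S}`. -/
def IsClassGenerating (S : Finset (HeightOneSpectrum (𝓞 K))) : Prop :=
  ∀ n : HeightOneSpectrum (𝓞 K) →₀ ℤ, ∃ x : Kˣ, ∀ v, v ∉ S → ordAt v x = n v

theorem IsClassGenerating.mono {S S' : Finset (HeightOneSpectrum (𝓞 K))} (h : S ⊆ S')
    (hS : IsClassGenerating S) : IsClassGenerating S' := by
  intro n
  obtain ⟨x, hx⟩ := hS n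
  exact ⟨x, fun v hv => hx v (fun hv' => hv (h hv'))⟩

/-- Criterion: it suffices to realise every single prime. -/
theorem isClassGenerating_of_single {S : Finset (HeightOneSpectrum (𝓞 K))}
    (h : ∀ v₀ : HeightOneSpectrum (𝓞 K), v₀ ∉ S → ∃ x : Kˣ, ordAt v₀ x = 1 ∧
      ∀ v, v ∉ S → v ≠ v₀ → ordAt v x = 0) : IsClassGenerating S := by
  classical
  intro n
  induction n using Finsupp.induction_linear with
  | zero => exact ⟨1, fun v _ => by simp⟩
  | add f g hf hg =>
    obtain ⟨x, hx⟩ := hf
    obtain ⟨y, hy⟩ := hg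
    exact ⟨x * y, fun v hv => by rw [ordAt_mul, hx v hv, hy v hv, Finsupp.add_apply]⟩
  | single v₀ m =>
    by_cases hv₀ : v₀ ∈ S
    · refine ⟨1, fun v hv => ?_⟩
      have : v ≠ v₀ := fun h => hv (h ▸ hv₀)
      rw [ordAt_one, Finsupp.single_apply, if_neg (Ne.symm this)]
    · obtain ⟨x, hx1, hx0⟩ := h v₀ hv₀
      refine ⟨x ^ m, fun v hv => ?_⟩
      rw [ordAt_zpow, Finsupp.single_apply]
      by_cases hvv : v₀ = v
      · rw [if_pos hvv, ← hvv, hx1, mul_one]
      · rw [if_neg hvv, hx0 v hv (Ne.symm hvv), mul_zero]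


theorem multiplicity_asIdeal_of_ne {v v' : HeightOneSpectrum (𝓞 K)} (h : v ≠ v') :
    multiplicity v.asIdeal v'.asIdeal = 0 := by
  rw [multiplicity_eq_zero]
  intro hdvd
  have h1 : v'.asIdeal ≤ v.asIdeal := Ideal.le_of_dvd hdvd
  have h2 : v'.asIdeal = v.asIdeal := v'.isMaximal.eq_of_le v.isPrime.ne_top h1
  exact h (HeightOneSpectrum.ext h2.symm)

/-- Every finite set of primes is contained in a finite set `S` which is class-generating. -/
theorem exists_isClassGenerating (S₀ : Finset (HeightOneSpectrum (𝓞 K))) :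
    ∃ S : Finset (HeightOneSpectrum (𝓞 K)), S₀ ⊆ S ∧ IsClassGenerating S := by
  classical
  choose rep hrep using (ClassGroup.mk0_surjective (R := 𝓞 K))
  have hne : ∀ c, ((rep c : Ideal (𝓞 K))) ≠ 0 := fun c => nonZeroDivisors.coe_ne_zero _
  let F : ClassGroup (𝓞 K) → Finset (HeightOneSpectrum (𝓞 K)) :=
    fun c => (Ideal.finite_factors (hne c)).toFinset
  let S : Finset (HeightOneSpectrum (𝓞 K)) := S₀ ∪ Finset.univ.biUnion F
  refine ⟨S, Finset.subset_union_left, isClassGenerating_of_single ?_⟩
  intro v₀ hv₀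
  have hv₀I : v₀.asIdeal ∈ nonZeroDivisors (Ideal (𝓞 K)) :=
    mem_nonZeroDivisors_iff_ne_zero.mpr v₀.ne_bot
  set c := ClassGroup.mk0 ⟨v₀.asIdeal, hv₀I⟩ with hc
  set J : Ideal (𝓞 K) := ((rep c : (nonZeroDivisors (Ideal (𝓞 K)))) : Ideal (𝓞 K)) with hJ
  have hJ0 : J ≠ 0 := hne c
  -- primes outside `S` do not divide `J`
  have hnd : ∀ v, v ∉ S → ¬ v.asIdeal ∣ J := by
    intro v hv hdvd
    apply hv
    refine Finset.mem_union_right _ (Finset.mem_biUnion.mpr ⟨c, Finset.mem_univ _, ?_⟩)
    simp only [F, Set.Finite.mem_toFinset]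
    exact hdvd
  obtain ⟨a, b, ha, hb, hab⟩ := ClassGroup.mk0_eq_mk0_iff.mp ((hrep c).symm ▸ hc ▸ rfl :
    ClassGroup.mk0 ⟨v₀.asIdeal, hv₀I⟩ = ClassGroup.mk0 (rep c))
  have haK : (a : K) ≠ 0 := RingOfIntegers.coe_ne_zero_iff.mpr ha
  have hbK : (b : K) ≠ 0 := RingOfIntegers.coe_ne_zero_iff.mpr hb
  have hspa : Ideal.span {a} ≠ (0 : Ideal (𝓞 K)) := by simpa using ha
  have hspb : Ideal.span {b} ≠ (0 : Ideal (𝓞 K)) := by simpa using hb
  have key : ∀ v : HeightOneSpectrum (𝓞 K), v ∉ S →
      ordAt v (Units.mk0 (a : K) haK) + (multiplicity v.asIdeal v₀.asIdeal : ℤ) =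
        ordAt v (Units.mk0 (b : K) hbK) := by
    intro v hv
    have h1 : multiplicity v.asIdeal (Ideal.span {a} * v₀.asIdeal) =
        multiplicity v.asIdeal (Ideal.span {a}) + multiplicity v.asIdeal v₀.asIdeal :=
      multiplicity_mul v.prime
        (FiniteMultiplicity.of_prime_left v.prime (mul_ne_zero hspa v₀.ne_bot))
    have h2 : multiplicity v.asIdeal (Ideal.span {b} * J) =
        multiplicity v.asIdeal (Ideal.span {b}) + multiplicity v.asIdeal J :=
      multiplicity_mul v.prime
        (FiniteMultiplicity.of_prime_left v.prime (mul_ne_zero hspb hJ0))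
    have h3 : multiplicity v.asIdeal J = 0 := multiplicity_eq_zero.mpr (hnd v hv)
    have hab' : Ideal.span {a} * v₀.asIdeal = Ideal.span {b} * J := hab
    rw [hab', h2, h3, add_zero] at h1
    rw [ordAt_mk0_eq_multiplicity, ordAt_mk0_eq_multiplicity]
    omega
  refine ⟨Units.mk0 (b : K) hbK * (Units.mk0 (a : K) haK)⁻¹, ?_, ?_⟩
  · have := key v₀ hv₀
    rw [multiplicity_self] at this
    rw [ordAt_mul, ordAt_inv]
    push_cast at this
    omega
  · intro v hv hvv₀
    have := key v hv
    rw [multiplicity_asIdeal_of_ne hvv₀] at this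
    rw [ordAt_mul, ordAt_inv]
    push_cast at this
    omega


/-- Every finite set of primes is contained in a finite `G`-stable class-generating set
(`G` a finite group acting on `K`). -/
theorem exists_isClassGenerating_isStableUnder {G : Type*} [Group G] [Finite G]
    [MulSemiringAction G K] (S₀ : Finset (HeightOneSpectrum (𝓞 K))) :
    ∃ S : Finset (HeightOneSpectrum (𝓞 K)), S₀ ⊆ S ∧ IsStableUnder G S ∧ IsClassGenerating S := by
  classical
  obtain ⟨S₁, h01, hS₁⟩ := exists_isClassGenerating S₀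
  have : Fintype G := Fintype.ofFinite G
  let S : Finset (HeightOneSpectrum (𝓞 K)) :=
    Finset.univ.biUnion fun g : G => S₁.image (primeMap (MulSemiringAction.toRingEquiv G K g))
  have h1S : S₁ ⊆ S := by
    intro v hv
    refine Finset.mem_biUnion.mpr ⟨1, Finset.mem_univ _, Finset.mem_image.mpr ⟨v, hv, ?_⟩⟩
    rw [toRingEquiv_one, primeMap_refl]; rfl
  refine ⟨S, h01.trans h1S, fun g => isStable_of_forall_mem ?_, hS₁.mono h1S⟩
  intro v hv
  obtain ⟨h, -, hv'⟩ := Finset.mem_biUnion.mp hv
  obtain ⟨v', hv'S, rfl⟩ := Finset.mem_image.mp hv'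
  refine Finset.mem_biUnion.mpr ⟨g * h, Finset.mem_univ _, Finset.mem_image.mpr ⟨v', hv'S, ?_⟩⟩
  rw [toRingEquiv_mul, primeMap_trans]


/-- The group of `S`-units is finitely generated (as a `ℤ`-module). -/
instance instModuleFinite_sUnit (S : Finset (HeightOneSpectrum (𝓞 K))) :
    Module.Finite ℤ (Additive (SUnit K S)) := by
  rw [Module.finite_def]
  refine Submodule.fg_of_fg_map_of_fg_inf_ker (logS K S).toIntLinearMap ?_ ?_
  · have : Submodule.map (logS K S).toIntLinearMap ⊤ = sUnitLattice K S := rfl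
    rw [this, ← Module.Finite.iff_fg]
    infer_instance
  · rw [inf_of_le_right le_top, AddMonoidHom.coe_toIntLinearMap_ker, Submodule.fg_iff_addSubgroup_fg,
      AddSubgroup.toIntSubmodule_toAddSubgroup, ← AddGroup.fg_iff_addSubgroup_fg]
    have : Finite (logS K S).ker := finite_ker_logS S
    exact AddGroup.fg_of_finite

theorem sUnit_fg (S : Finset (HeightOneSpectrum (𝓞 K))) : Group.FG (SUnit K S) := by
  rw [Group.fg_iff_monoid_fg, Monoid.fg_iff_add_fg, ← AddGroup.fg_iff_addMonoid_fg, ← Module.Finite.iff_addGroup_fg]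
  infer_instance

open Module in
/-- **Dirichlet's `S`-unit theorem**: the rank of the group of `S`-units is
`r₁ + r₂ + |S| - 1`. -/
theorem finrank_sUnit (S : Finset (HeightOneSpectrum (𝓞 K))) :
    finrank ℤ (Additive (SUnit K S)) = Fintype.card (InfinitePlace K) + S.card - 1 := by
  rw [← finrank_sUnitLattice]
  have h := (LinearMap.ker (logS K S).toIntLinearMap).finrank_quotient_add_finrank
  rw [LinearEquiv.finrank_eq (logS K S).toIntLinearMap.quotKerEquivRange] at h
  have hr : LinearMap.range (logS K S).toIntLinearMap = sUnitLattice K S := by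
    rw [← Submodule.map_top]; rfl
  have hk : finrank ℤ (LinearMap.ker (logS K S).toIntLinearMap) = 0 := by
    have : Finite (logS K S).ker := finite_ker_logS S
    have : Finite (LinearMap.ker (logS K S).toIntLinearMap) := by
      rw [AddMonoidHom.coe_toIntLinearMap_ker]
      exact this
    apply Module.IsTorsion.finrank_eq_zero
    intro x
    have hc : (Nat.card (LinearMap.ker (logS K S).toIntLinearMap) : ℤ) ≠ 0 := by
      exact_mod_cast Nat.card_pos.ne'
    refine ⟨⟨(Nat.card (LinearMap.ker (logS K S).toIntLinearMap) : ℤ),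
      mem_nonZeroDivisors_of_ne_zero hc⟩, ?_⟩
    show (Nat.card (LinearMap.ker (logS K S).toIntLinearMap) : ℤ) • x = 0
    rw [natCast_zsmul]
    exact card_nsmul_eq_zero'
  rw [hr, hk, add_zero] at h
  exact h.symm

end Fermat.Agent.Lib.CFT.Global.SUnits
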