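import Mathlib
import Fermat.Agent.Lib.CFT.Global.Ideles

/-!
# Weak approximation for the algebraic ideles (P-CFT, Global layer)

* `exists_rat_approx`: simultaneous approximation in `ℚ_q` (finitely many `q`) and `ℝ` by a
  rational number.
* `exists_approx`: the same for `ℚ_q ⊗ L` and `ℝ ⊗ L`, by an element of `L`.
* `exists_principal_approx`: every idele can be multiplied by a principal idele so that finitely
  many components are congruent to `1` modulo a prescribed power and the archimedean component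
  lies in a prescribed neighbourhood of `1` (neighbourhoods are taken in the coordinates
  `archCoord`).
* `exists_principal_approx_pos`, `exists_principal_approx_modulus`: the forms with positivity at
  the archimedean component.
-/

open scoped TensorProduct NumberField

noncomputable section

namespace Fermat.Agent.Lib.CFT.Global.WeakApprox

open Fermat.Agent.Lib.CFT.Global

/-- Approximation of a `p`-adic number by a rational number with denominator a power of `p`. -/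
lemma exists_nat_div_pow_approx (p : ℕ) [Fact p.Prime] (z : ℚ_[p]) (N : ℕ) :
    ∃ n k : ℕ, ‖z - ((n : ℚ) / (p : ℚ) ^ k : ℚ)‖ ≤ (p : ℝ) ^ (-(N : ℤ)) := by
  have hp1 : (1 : ℝ) < p := by exact_mod_cast (Fact.out : p.Prime).one_lt
  have hp0 : (0 : ℝ) < p := by linarith
  obtain ⟨k, hk⟩ := pow_unbounded_of_one_lt ‖z‖ hp1
  have hw : ‖(p : ℚ_[p]) ^ k * z‖ ≤ 1 := by
    rw [norm_mul, Padic.norm_p_pow, zpow_neg, zpow_natCast]
    rw [inv_mul_le_iff₀ (by positivity)]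
    simpa using hk.le
  set w : ℤ_[p] := ⟨(p : ℚ_[p]) ^ k * z, hw⟩ with hwdef
  have happr := PadicInt.appr_spec (N + k) w
  rw [← PadicInt.norm_le_pow_iff_mem_span_pow] at happr
  refine ⟨w.appr (N + k), k, ?_⟩
  have hpk : ((p : ℚ_[p]) ^ k) ≠ 0 := by
    apply pow_ne_zero
    exact_mod_cast (Fact.out : p.Prime).ne_zero
  have h1 : z - ((( w.appr (N + k) : ℕ) : ℚ) / (p : ℚ) ^ k : ℚ) =
      ((p : ℚ_[p]) ^ k)⁻¹ * (((w - (w.appr (N + k) : ℤ_[p]) : ℤ_[p]) : ℚ_[p])) := by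
    push_cast
    rw [hwdef]
    field_simp
  rw [h1, norm_mul, norm_inv, Padic.norm_p_pow]
  have h2 : ‖(((w - (w.appr (N + k) : ℤ_[p]) : ℤ_[p]) : ℚ_[p]))‖ ≤ (p : ℝ) ^ (-((N + k : ℕ) : ℤ)) := by
    rw [← PadicInt.norm_def]
    exact happr
  calc ((p : ℝ) ^ (-(k : ℤ)))⁻¹ * ‖(((w - (w.appr (N + k) : ℤ_[p]) : ℤ_[p]) : ℚ_[p]))‖
      ≤ ((p : ℝ) ^ (-(k : ℤ)))⁻¹ * (p : ℝ) ^ (-((N + k : ℕ) : ℤ)) := by
        apply mul_le_mul_of_nonneg_left h2
        positivity
    _ = (p : ℝ) ^ (-(N : ℤ)) := by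
        rw [← zpow_neg, ← zpow_add₀ hp0.ne']
        congr 1
        push_cast
        ring

/-- A rational number `n / ℓ ^ k` is a `q`-adic integer for every prime `q ≠ ℓ`. -/
lemma norm_int_div_pow_le_one (q ℓ : ℕ) [Fact q.Prime] (hℓ : ℓ.Prime) (hne : q ≠ ℓ) (n : ℤ)
    (k : ℕ) : ‖(((n : ℚ) / (ℓ : ℚ) ^ k : ℚ) : ℚ_[q])‖ ≤ 1 := by
  push_cast
  rw [norm_div, norm_pow]
  have h1 : ‖(ℓ : ℚ_[q])‖ = 1 := by
    rw [Padic.norm_natCast_eq_one_iff]
    exact (Nat.coprime_primes (Fact.out : q.Prime) hℓ).2 hne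
  rw [h1, one_pow, div_one]
  exact Padic.norm_int_le_one n

/-- The product of the `N`-th powers of the primes in `Q`. -/
def modulus (Q : Finset Nat.Primes) (N : ℕ) : ℕ := ∏ q ∈ Q, (pv q) ^ N

lemma modulus_pos (Q : Finset Nat.Primes) (N : ℕ) : 0 < modulus Q N :=
  Finset.prod_pos fun q _ => pow_pos (pv_prime q).pos N

lemma norm_modulus_le (Q : Finset Nat.Primes) (N : ℕ) (q : Nat.Primes) (hq : q ∈ Q) :
    ‖((modulus Q N : ℕ) : ℚ_[pv q])‖ ≤ (pv q : ℝ) ^ (-(N : ℤ)) := by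
  rw [modulus, ← Finset.mul_prod_erase Q _ hq]
  push_cast
  rw [norm_mul, Padic.norm_p_pow]
  have h : ‖(∏ x ∈ Q.erase q, ((pv x : ℕ) : ℚ_[pv q]) ^ N)‖ ≤ 1 := by
    have := Padic.norm_int_le_one (p := pv q) ((∏ x ∈ Q.erase q, (pv x) ^ N : ℕ) : ℤ)
    simpa using this
  calc (pv q : ℝ) ^ (-(N : ℤ)) * ‖(∏ x ∈ Q.erase q, ((pv x : ℕ) : ℚ_[pv q]) ^ N)‖
      ≤ (pv q : ℝ) ^ (-(N : ℤ)) * 1 := by
        apply mul_le_mul_of_nonneg_left h
        positivity
    _ = _ := mul_one _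

lemma norm_modulus_le_one (Q : Finset Nat.Primes) (N : ℕ) (p : ℕ) [Fact p.Prime] :
    ‖((modulus Q N : ℕ) : ℚ_[p])‖ ≤ 1 := by
  have := Padic.norm_int_le_one (p := p) ((modulus Q N : ℕ) : ℤ)
  simpa using this

lemma norm_add_modulus_mul_sub_le (Q : Finset Nat.Primes) (N : ℕ) (q : Nat.Primes) (hq : q ∈ Q)
    (t s : ℚ) (y : ℚ_[pv q]) (ht : ‖(t : ℚ_[pv q]) - y‖ ≤ (pv q : ℝ) ^ (-(N : ℤ)))
    (hs : ‖(s : ℚ_[pv q])‖ ≤ 1) :
    ‖((t + (modulus Q N : ℕ) * s : ℚ) : ℚ_[pv q]) - y‖ ≤ (pv q : ℝ) ^ (-(N : ℤ)) := by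
  have h1 : ((t + (modulus Q N : ℕ) * s : ℚ) : ℚ_[pv q]) - y =
      ((t : ℚ_[pv q]) - y) + ((modulus Q N : ℕ) : ℚ_[pv q]) * (s : ℚ_[pv q]) := by
    push_cast; ring
  rw [h1]
  refine (Padic.nonarchimedean _ _).trans (max_le ht ?_)
  rw [norm_mul]
  calc ‖((modulus Q N : ℕ) : ℚ_[pv q])‖ * ‖(s : ℚ_[pv q])‖
      ≤ (pv q : ℝ) ^ (-(N : ℤ)) * 1 :=
        mul_le_mul (norm_modulus_le Q N q hq) hs (norm_nonneg _) (by positivity)
    _ = _ := mul_one _

lemma pv_injective : Function.Injective pv := fun _ _ h => Subtype.ext h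

/-- Simultaneous approximation at finitely many primes by a rational number. -/
lemma exists_rat_padic_approx (Q : Finset Nat.Primes) (N : ℕ) (y : ∀ q : Nat.Primes, ℚ_[pv q]) :
    ∃ t : ℚ, ∀ q ∈ Q, ‖(t : ℚ_[pv q]) - y q‖ ≤ (pv q : ℝ) ^ (-(N : ℤ)) := by
  classical
  induction Q using Finset.induction_on with
  | empty => exact ⟨0, by simp⟩
  | insert p Q hp ih =>
    obtain ⟨t, ht⟩ := ih
    have hM0 : ((modulus Q N : ℕ) : ℚ_[pv p]) ≠ 0 := by
      exact_mod_cast (modulus_pos Q N).ne'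
    obtain ⟨n, k, hnk⟩ := exists_nat_div_pow_approx (pv p)
      ((y p - (t : ℚ_[pv p])) / ((modulus Q N : ℕ) : ℚ_[pv p])) N
    refine ⟨t + (modulus Q N : ℕ) * ((n : ℚ) / (pv p : ℚ) ^ k), ?_⟩
    intro q hq
    rcases Finset.mem_insert.1 hq with rfl | hq
    · have h1 : ((t + (modulus Q N : ℕ) * ((n : ℚ) / (pv q : ℚ) ^ k) : ℚ) : ℚ_[pv q]) - y q =
          ((modulus Q N : ℕ) : ℚ_[pv q]) *
            ((((n : ℚ) / (pv q : ℚ) ^ k : ℚ) : ℚ_[pv q]) -
              (y q - (t : ℚ_[pv q])) / ((modulus Q N : ℕ) : ℚ_[pv q])) := by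
        push_cast
        field_simp
        ring
      rw [h1, norm_mul, norm_sub_rev]
      calc ‖((modulus Q N : ℕ) : ℚ_[pv q])‖ * _ ≤ 1 * (pv q : ℝ) ^ (-(N : ℤ)) :=
            mul_le_mul (norm_modulus_le_one Q N (pv q)) hnk (norm_nonneg _) zero_le_one
        _ = _ := one_mul _
    · apply norm_add_modulus_mul_sub_le Q N q hq _ _ _ (ht q hq)
      have hne : pv q ≠ pv p := fun h => hp (pv_injective h ▸ hq)
      have := norm_int_div_pow_le_one (pv q) (pv p) (pv_prime p) hne (n : ℤ) k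
      simpa using this

/-- Weak approximation for `ℚ`: simultaneous approximation at finitely many primes and at the
real place. -/
theorem exists_rat_approx (Q : Finset Nat.Primes) (N : ℕ) (y : ∀ q : Nat.Primes, ℚ_[pv q])
    (r ε : ℝ) (hε : 0 < ε) :
    ∃ t : ℚ, (∀ q ∈ Q, ‖(t : ℚ_[pv q]) - y q‖ ≤ (pv q : ℝ) ^ (-(N : ℤ))) ∧
      |(t : ℝ) - r| < ε := by
  classical
  obtain ⟨t, ht⟩ := exists_rat_padic_approx Q N y
  obtain ⟨ℓ, hℓ⟩ := Infinite.exists_notMem_finset Q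
  set M : ℕ := modulus Q N with hM
  have hMpos : (0 : ℝ) < M := by exact_mod_cast modulus_pos Q N
  have hℓ1 : (1 : ℝ) < (pv ℓ : ℝ) := by exact_mod_cast (pv_prime ℓ).one_lt
  obtain ⟨k, hk⟩ := pow_unbounded_of_one_lt (M / ε) hℓ1
  have hℓk : (0 : ℝ) < (pv ℓ : ℝ) ^ k := by positivity
  set c : ℝ := (pv ℓ : ℝ) ^ k * ((r - t) / M) with hc
  set n : ℤ := ⌊c⌋ with hn
  refine ⟨t + (M : ℕ) * ((n : ℚ) / (pv ℓ : ℚ) ^ k), ?_, ?_⟩
  · intro q hq
    apply norm_add_modulus_mul_sub_le Q N q hq _ _ _ (ht q hq)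
    have hne : pv q ≠ pv ℓ := fun h => hℓ (pv_injective h ▸ hq)
    exact norm_int_div_pow_le_one (pv q) (pv ℓ) (pv_prime ℓ) hne n k
  · have h1 : ((t + (M : ℕ) * ((n : ℚ) / (pv ℓ : ℚ) ^ k) : ℚ) : ℝ) - r =
        (M : ℝ) / (pv ℓ : ℝ) ^ k * ((n : ℝ) - c) := by
      push_cast
      rw [hc]
      field_simp
      ring
    rw [h1, abs_mul, abs_of_pos (by positivity)]
    have h2 : |(n : ℝ) - c| ≤ 1 := by
      rw [abs_sub_comm, abs_le]
      constructor
      · have := Int.floor_le c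
        linarith
      · have := Int.lt_floor_add_one c
        linarith
    have h3 : (M : ℝ) / (pv ℓ : ℝ) ^ k < ε := by
      rw [div_lt_iff₀ hℓk]
      rw [div_lt_iff₀ hε] at hk
      linarith
    calc (M : ℝ) / (pv ℓ : ℝ) ^ k * |(n : ℝ) - c| ≤ (M : ℝ) / (pv ℓ : ℝ) ^ k * 1 := by
          apply mul_le_mul_of_nonneg_left h2
          positivity
      _ < ε := by rwa [mul_one]

section Tensor

variable (L : Type) [Field L] [NumberField L]

/-- The index type of the integral basis. -/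
abbrev Idx : Type := Module.Free.ChooseBasisIndex ℤ (𝓞 L)

/-- The basis `1 ⊗ e i` of `ℚ_q ⊗ L`, for `e` the integral basis. -/
def locBasis (q : Nat.Primes) : Module.Basis (Idx L) ℚ_[pv q] (LocAlg L q) :=
  Algebra.TensorProduct.basis ℚ_[pv q] (NumberField.integralBasis L)

/-- The basis `1 ⊗ e i` of `ℝ ⊗ L`, for `e` the integral basis. -/
def archBasis : Module.Basis (Idx L) ℝ (ArchAlg L) :=
  Algebra.TensorProduct.basis ℝ (NumberField.integralBasis L)

lemma locBasis_apply (q : Nat.Primes) (i : Idx L) :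
    locBasis L q i = (1 : ℚ_[pv q]) ⊗ₜ[ℚ] (NumberField.integralBasis L i) := by
  simp [locBasis]

lemma archBasis_apply (i : Idx L) :
    archBasis L i = (1 : ℝ) ⊗ₜ[ℚ] (NumberField.integralBasis L i) := by
  simp [archBasis]

lemma sum_repr_tmul_loc (q : Nat.Primes) (y : LocAlg L q) :
    ∑ i, ((locBasis L q).repr y i) ⊗ₜ[ℚ] (NumberField.integralBasis L i) = y := by
  conv_rhs => rw [← (locBasis L q).sum_repr y]
  refine Finset.sum_congr rfl fun i _ => ?_
  rw [locBasis_apply, TensorProduct.smul_tmul', smul_eq_mul, mul_one]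

lemma sum_repr_tmul_arch (y : ArchAlg L) :
    ∑ i, ((archBasis L).repr y i) ⊗ₜ[ℚ] (NumberField.integralBasis L i) = y := by
  conv_rhs => rw [← (archBasis L).sum_repr y]
  refine Finset.sum_congr rfl fun i _ => ?_
  rw [archBasis_apply, TensorProduct.smul_tmul', smul_eq_mul, mul_one]

lemma one_tmul_sum_smul {A : Type} [CommRing A] [Algebra ℚ A] (t : Idx L → ℚ) :
    ((1 : A) ⊗ₜ[ℚ] (∑ i, t i • NumberField.integralBasis L i) : A ⊗[ℚ] L) =
      ∑ i, (algebraMap ℚ A (t i)) ⊗ₜ[ℚ] (NumberField.integralBasis L i) := by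
  rw [TensorProduct.tmul_sum]
  refine Finset.sum_congr rfl fun i _ => ?_
  rw [TensorProduct.tmul_smul, TensorProduct.smul_tmul', Algebra.smul_def, mul_one]

lemma natCast_pow_mul_tmul (q : Nat.Primes) (N : ℕ) (c : ℚ_[pv q]) (x : L) :
    (((pv q : ℕ) : LocAlg L q) ^ N) * (c ⊗ₜ[ℚ] x) = (((pv q : ℕ) : ℚ_[pv q]) ^ N * c) ⊗ₜ[ℚ] x := by
  have h : (((pv q : ℕ) : LocAlg L q) ^ N) =
      algebraMap ℚ_[pv q] (LocAlg L q) (((pv q : ℕ) : ℚ_[pv q]) ^ N) := by
    rw [map_pow, map_natCast]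
  rw [h, Algebra.TensorProduct.algebraMap_apply, Algebra.TensorProduct.tmul_mul_tmul, one_mul]
  rfl

lemma sum_padicInt_tmul_mem_locInt (q : Nat.Primes) (z : Idx L → ℤ_[pv q]) :
    ∑ i, ((z i : ℚ_[pv q]) ⊗ₜ[ℚ] (NumberField.integralBasis L i) : LocAlg L q) ∈ locInt L q := by
  refine Subalgebra.sum_mem _ fun i _ => ?_
  rw [NumberField.integralBasis_apply]
  exact tmul_mem_locInt L q (z i) _

/-- A `q`-adic number of norm at most `q ^ (-N)` is `q ^ N` times a `q`-adic integer. -/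
lemma exists_padicInt_eq_pow_mul (p : ℕ) [Fact p.Prime] (N : ℕ) (c : ℚ_[p])
    (hc : ‖c‖ ≤ (p : ℝ) ^ (-(N : ℤ))) : ∃ z : ℤ_[p], c = (p : ℚ_[p]) ^ N * (z : ℚ_[p]) := by
  have hp0 : (0 : ℝ) < p := by exact_mod_cast (Fact.out : p.Prime).pos
  have hpN : ((p : ℚ_[p]) ^ N) ≠ 0 := by
    apply pow_ne_zero
    exact_mod_cast (Fact.out : p.Prime).ne_zero
  have hz : ‖c / (p : ℚ_[p]) ^ N‖ ≤ 1 := by
    rw [norm_div, Padic.norm_p_pow, div_le_one (by positivity)]
    exact hc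
  refine ⟨⟨c / (p : ℚ_[p]) ^ N, hz⟩, ?_⟩
  change c = (p : ℚ_[p]) ^ N * (c / (p : ℚ_[p]) ^ N)
  rw [mul_div_cancel₀ _ hpN]

/-- Every element of `ℚ_q ⊗ L` becomes integral after multiplication by a power of `q`. -/
lemma exists_pow_mul_mem_locInt (q : Nat.Primes) (y : LocAlg L q) :
    ∃ k : ℕ, ((pv q : ℕ) : LocAlg L q) ^ k * y ∈ locInt L q := by
  have hp1 : (1 : ℝ) < (pv q : ℝ) := by exact_mod_cast (pv_prime q).one_lt
  have hp0 : (0 : ℝ) < (pv q : ℝ) := by linarith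
  have hex : ∀ i : Idx L, ∃ k : ℕ, ‖(locBasis L q).repr y i‖ ≤ (pv q : ℝ) ^ k := fun i => by
    obtain ⟨k, hk⟩ := pow_unbounded_of_one_lt ‖(locBasis L q).repr y i‖ hp1
    exact ⟨k, hk.le⟩
  choose k hk using hex
  set K : ℕ := Finset.univ.sup k with hK
  have hle : ∀ i, ‖((pv q : ℕ) : ℚ_[pv q]) ^ K * (locBasis L q).repr y i‖ ≤ 1 := fun i => by
    rw [norm_mul, Padic.norm_p_pow, zpow_neg, zpow_natCast, inv_mul_le_iff₀ (by positivity),
      mul_one]
    refine (hk i).trans ?_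
    exact pow_le_pow_right₀ hp1.le (Finset.le_sup (f := k) (Finset.mem_univ i))
  refine ⟨K, ?_⟩
  rw [← sum_repr_tmul_loc L q y, Finset.mul_sum]
  set z : Idx L → ℤ_[pv q] := fun i => ⟨_, hle i⟩ with hzdef
  have hz : ∀ i, ((z i : ℤ_[pv q]) : ℚ_[pv q]) =
      ((pv q : ℕ) : ℚ_[pv q]) ^ K * (locBasis L q).repr y i := fun i => rfl
  have hsum : ∑ i, ((pv q : ℕ) : LocAlg L q) ^ K *
      (((locBasis L q).repr y i) ⊗ₜ[ℚ] (NumberField.integralBasis L i)) =
      ∑ i, (((z i : ℤ_[pv q]) : ℚ_[pv q]) ⊗ₜ[ℚ] (NumberField.integralBasis L i)) := by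
    refine Finset.sum_congr rfl fun i _ => ?_
    rw [natCast_pow_mul_tmul, hz]
  rw [hsum]
  exact sum_padicInt_tmul_mem_locInt L q z

/-- Weak approximation in tensor form: simultaneous approximation of elements of `ℚ_q ⊗ L`
(for finitely many `q`) and of `ℝ ⊗ L` by an element of `L`. -/
theorem exists_approx (Q : Finset Nat.Primes) (N : ℕ) (y : ∀ q : Nat.Primes, LocAlg L q)
    (yinf : ArchAlg L) (ε : ℝ) (hε : 0 < ε) :
    ∃ x : L, (∀ q ∈ Q, ∃ z ∈ locInt L q,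
        ((1 : ℚ_[pv q]) ⊗ₜ[ℚ] x : LocAlg L q) - y q = ((pv q : ℕ) : LocAlg L q) ^ N * z) ∧
      ∃ d : Idx L → ℝ, (∀ i, |d i| < ε) ∧
        ((1 : ℝ) ⊗ₜ[ℚ] x : ArchAlg L) - yinf =
          ∑ i, (d i) ⊗ₜ[ℚ] (NumberField.integralBasis L i) := by
  classical
  have hex : ∀ i : Idx L, ∃ t : ℚ,
      (∀ q ∈ Q, ‖(t : ℚ_[pv q]) - (locBasis L q).repr (y q) i‖ ≤ (pv q : ℝ) ^ (-(N : ℤ))) ∧
        |(t : ℝ) - (archBasis L).repr yinf i| < ε := fun i =>
    exists_rat_approx Q N (fun q => (locBasis L q).repr (y q) i) _ ε hε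
  choose t ht ht' using hex
  refine ⟨∑ i, t i • NumberField.integralBasis L i, ?_, ?_⟩
  · intro q hq
    have hz : ∀ i, ∃ z : ℤ_[pv q], (t i : ℚ_[pv q]) - (locBasis L q).repr (y q) i =
        ((pv q : ℕ) : ℚ_[pv q]) ^ N * (z : ℚ_[pv q]) := fun i =>
      exists_padicInt_eq_pow_mul (pv q) N _ (ht i q hq)
    choose z hz using hz
    refine ⟨_, sum_padicInt_tmul_mem_locInt L q z, ?_⟩
    rw [one_tmul_sum_smul]
    conv_lhs => rw [← sum_repr_tmul_loc L q (y q)]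
    rw [← Finset.sum_sub_distrib, Finset.mul_sum]
    refine Finset.sum_congr rfl fun i _ => ?_
    rw [natCast_pow_mul_tmul, ← hz i, TensorProduct.sub_tmul]
    simp
  · refine ⟨fun i => (t i : ℝ) - (archBasis L).repr yinf i, ht', ?_⟩
    rw [one_tmul_sum_smul]
    conv_lhs => rw [← sum_repr_tmul_arch L yinf]
    rw [← Finset.sum_sub_distrib]
    refine Finset.sum_congr rfl fun i _ => ?_
    rw [TensorProduct.sub_tmul]
    simp

end Tensor

section IdeleLevel

variable (L : Type) [Field L] [NumberField L]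

/-- Coordinates on `ℝ ⊗ L` with respect to the basis `1 ⊗ e i`. -/
def archCoord : (Idx L → ℝ) ≃ₗ[ℝ] ArchAlg L := (archBasis L).equivFun.symm

lemma archCoord_apply (d : Idx L → ℝ) :
    archCoord L d = ∑ i, (d i) ⊗ₜ[ℚ] (NumberField.integralBasis L i) := by
  rw [archCoord, Module.Basis.equivFun_symm_apply]
  refine Finset.sum_congr rfl fun i _ => ?_
  rw [archBasis_apply, TensorProduct.smul_tmul', smul_eq_mul, mul_one]

lemma archAlg_nontrivial : Nontrivial (ArchAlg L) := by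
  have : Nonempty (Idx L) := (NumberField.integralBasis L).index_nonempty
  obtain ⟨i⟩ := this
  exact nontrivial_of_ne _ _ ((archBasis L).ne_zero i)

/-- The affine map `d ↦ 1 + (∑ d i ⊗ e i) * u` is continuous in coordinates. -/
lemma continuous_coord_one_add_mul (u : ArchAlg L) :
    Continuous fun d : Idx L → ℝ => (archCoord L).symm (1 + archCoord L d * u) := by
  have h : (fun d : Idx L → ℝ => (archCoord L).symm (1 + archCoord L d * u)) =
      fun d => (archCoord L).symm 1 +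
        ((archCoord L).symm.toLinearMap ∘ₗ (LinearMap.mulRight ℝ u) ∘ₗ
          (archCoord L).toLinearMap) d := by
    funext d
    simp [map_add]
  rw [h]
  exact continuous_const.add (LinearMap.continuous_of_finiteDimensional _)

lemma natCast_pow_mem_locInt (q : Nat.Primes) (n k : ℕ) :
    ((n : ℕ) : LocAlg L q) ^ k ∈ locInt L q :=
  pow_mem (natCast_mem _ n) k

/-- Weak approximation for ideles: every idele can be multiplied by a principal idele so that
the components at finitely many primes become congruent to `1` modulo a prescribed power and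
the archimedean component lies in a prescribed neighbourhood of `1`. -/
theorem exists_principal_approx (b : Idele L) (Q : Finset Nat.Primes) (N : ℕ)
    (U : Set (ArchAlg L)) (hU : IsOpen (archCoord L ⁻¹' U)) (h1 : (1 : ArchAlg L) ∈ U) :
    ∃ x : Lˣ, (∀ q ∈ Q, ∃ z ∈ locInt L q,
        ((((principal L x)⁻¹ * b : Idele L) : IdeleProd L).1 q : LocAlg L q) - 1 =
          ((pv q : ℕ) : LocAlg L q) ^ N * z) ∧
      ((((principal L x)⁻¹ * b : Idele L) : IdeleProd L).2 : ArchAlg L) ∈ U := by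
  classical
  set u : ∀ q : Nat.Primes, (LocAlg L q)ˣ := fun q => (b : IdeleProd L).1 q with hu
  set uinf : (ArchAlg L)ˣ := (b : IdeleProd L).2 with huinf
  -- denominators
  have hk : ∀ q : Nat.Primes, ∃ k : ℕ, ((pv q : ℕ) : LocAlg L q) ^ k * (u q : LocAlg L q) ∈
      locInt L q := fun q => exists_pow_mul_mem_locInt L q _
  choose k hk using hk
  set K : ℕ := Q.sup k with hK
  have hkK : ∀ q ∈ Q, ((pv q : ℕ) : LocAlg L q) ^ K * (u q : LocAlg L q) ∈ locInt L q := by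
    intro q hq
    have hle : k q ≤ K := Finset.le_sup hq
    obtain ⟨j, hj⟩ := Nat.exists_eq_add_of_le hle
    rw [hj, add_comm, pow_add, mul_assoc]
    exact mul_mem (natCast_pow_mem_locInt L q _ _) (hk q)
  -- the open condition
  set U' : Set (ArchAlg L) := U ∩ {a | a ≠ 0} with hU'
  have hU'open : IsOpen (archCoord L ⁻¹' U') := by
    rw [hU', Set.preimage_inter]
    refine hU.inter ?_
    have : (archCoord L ⁻¹' {a | a ≠ 0}) = {0}ᶜ := by
      ext d
      simp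
    rw [this]
    exact isOpen_compl_singleton
  have hnt : Nontrivial (ArchAlg L) := archAlg_nontrivial L
  have h1' : (1 : ArchAlg L) ∈ U' := ⟨h1, one_ne_zero⟩
  set V : Set (Idx L → ℝ) :=
    (fun d : Idx L → ℝ => (archCoord L).symm (1 + archCoord L d * (uinf : ArchAlg L))) ⁻¹'
      (archCoord L ⁻¹' U') with hV
  have hVopen : IsOpen V := hU'open.preimage (continuous_coord_one_add_mul L _)
  have h0V : (0 : Idx L → ℝ) ∈ V := by
    simp only [hV, Set.mem_preimage, map_zero, zero_mul, add_zero, LinearEquiv.apply_symm_apply]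
    exact h1'
  obtain ⟨ε, hε, hball⟩ := Metric.isOpen_iff.1 hVopen 0 h0V
  obtain ⟨y, hy, d, hd, hyd⟩ := exists_approx L Q (N + K)
    (fun q => ((u q)⁻¹ : (LocAlg L q)ˣ)) ((uinf⁻¹ : (ArchAlg L)ˣ) : ArchAlg L) ε hε
  have hdV : d ∈ V := by
    apply hball
    rw [Metric.mem_ball, dist_zero_right, pi_norm_lt_iff hε]
    intro i
    rw [Real.norm_eq_abs]
    exact hd i
  have harch : ((1 : ℝ) ⊗ₜ[ℚ] y : ArchAlg L) * (uinf : ArchAlg L) ∈ U' := by
    have h2 : 1 + archCoord L d * (uinf : ArchAlg L) ∈ U' := by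
      simpa [hV] using hdV
    have h3 : 1 + archCoord L d * (uinf : ArchAlg L) =
        ((1 : ℝ) ⊗ₜ[ℚ] y : ArchAlg L) * (uinf : ArchAlg L) := by
      rw [archCoord_apply, ← hyd, sub_mul, Units.inv_mul]
      ring
    rwa [h3] at h2
  have hy0 : y ≠ 0 := by
    rintro rfl
    apply harch.2
    simp
  refine ⟨(Units.mk0 y hy0)⁻¹, ?_, ?_⟩
  · intro q hq
    obtain ⟨z, hz, hzq⟩ := hy q hq
    refine ⟨z * (((pv q : ℕ) : LocAlg L q) ^ K * (u q : LocAlg L q)),
      mul_mem hz (hkK q hq), ?_⟩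
    rw [map_inv, inv_inv]
    have hval : ((((principal L (Units.mk0 y hy0)) * b : Idele L) : IdeleProd L).1 q :
        LocAlg L q) = ((1 : ℚ_[pv q]) ⊗ₜ[ℚ] y : LocAlg L q) * (u q : LocAlg L q) := rfl
    rw [hval]
    have h4 : ((1 : ℚ_[pv q]) ⊗ₜ[ℚ] y : LocAlg L q) * (u q : LocAlg L q) - 1 =
        (((1 : ℚ_[pv q]) ⊗ₜ[ℚ] y : LocAlg L q) - (((u q)⁻¹ : (LocAlg L q)ˣ) : LocAlg L q)) *
          (u q : LocAlg L q) := by
      rw [sub_mul, Units.inv_mul]
    rw [h4, hzq, pow_add]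
    ring
  · rw [map_inv, inv_inv]
    exact harch.1

end IdeleLevel

section Positivity

variable (L : Type) [Field L] [NumberField L]

lemma isOpen_preimage_norm_pos :
    IsOpen (archCoord L ⁻¹' {a : ArchAlg L | 0 < Algebra.norm ℝ a}) := by
  classical
  have hcont : Continuous fun d : Idx L → ℝ => Algebra.norm ℝ (archCoord L d) := by
    have h : (fun d : Idx L → ℝ => Algebra.norm ℝ (archCoord L d)) =
        fun d => Matrix.det (((Algebra.leftMulMatrix (archBasis L)).toLinearMap ∘ₗ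
          (archCoord L).toLinearMap) d) := by
      funext d
      rw [Algebra.norm_eq_matrix_det (archBasis L)]
      rfl
    rw [h]
    exact (LinearMap.continuous_of_finiteDimensional _).matrix_det
  exact isOpen_lt continuous_const hcont

lemma isOpen_preimage_algHom_pos (ψ : ArchAlg L →ₐ[ℝ] ℝ) :
    IsOpen (archCoord L ⁻¹' {a : ArchAlg L | 0 < ψ a}) := by
  have hcont : Continuous fun d : Idx L → ℝ => ψ (archCoord L d) :=
    LinearMap.continuous_of_finiteDimensional (ψ.toLinearMap ∘ₗ (archCoord L).toLinearMap)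
  exact isOpen_lt continuous_const hcont

/-- The set of totally positive elements of positive norm is open in coordinates. -/
lemma isOpen_preimage_pos :
    IsOpen (archCoord L ⁻¹' {a : ArchAlg L | 0 < Algebra.norm ℝ a ∧
      ∀ ψ : ArchAlg L →ₐ[ℝ] ℝ, 0 < ψ a}) := by
  have h : {a : ArchAlg L | 0 < Algebra.norm ℝ a ∧ ∀ ψ : ArchAlg L →ₐ[ℝ] ℝ, 0 < ψ a} =
      {a : ArchAlg L | 0 < Algebra.norm ℝ a} ∩ ⋂ ψ : ArchAlg L →ₐ[ℝ] ℝ, {a | 0 < ψ a} := by
    ext a
    simp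
  rw [h, Set.preimage_inter, Set.preimage_iInter]
  exact (isOpen_preimage_norm_pos L).inter
    (isOpen_iInter_of_finite fun ψ => isOpen_preimage_algHom_pos L ψ)

/-- Weak approximation for ideles with positivity at the archimedean component. -/
theorem exists_principal_approx_pos (b : Idele L) (Q : Finset Nat.Primes) (N : ℕ) :
    ∃ x : Lˣ, (∀ q ∈ Q, ∃ z ∈ locInt L q,
        ((((principal L x)⁻¹ * b : Idele L) : IdeleProd L).1 q : LocAlg L q) - 1 =
          ((pv q : ℕ) : LocAlg L q) ^ N * z) ∧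
      0 < Algebra.norm ℝ ((((principal L x)⁻¹ * b : Idele L) : IdeleProd L).2 : ArchAlg L) ∧
      ∀ ψ : ArchAlg L →ₐ[ℝ] ℝ,
        0 < ψ ((((principal L x)⁻¹ * b : Idele L) : IdeleProd L).2 : ArchAlg L) := by
  obtain ⟨x, hx, hx'⟩ := exists_principal_approx L b Q N _ (isOpen_preimage_pos L)
    (by simp)
  exact ⟨x, hx, hx'.1, hx'.2⟩

/-- `q ^ m` is a multiple of `m` in `ℤ_q`. -/
lemma exists_padicInt_pow_eq_mul (p : ℕ) [Fact p.Prime] (m : ℕ) (hm : m ≠ 0) :
    ∃ w : ℤ_[p], (p : ℚ_[p]) ^ m = (m : ℚ_[p]) * (w : ℚ_[p]) := by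
  have hp1 : 1 < p := (Fact.out : p.Prime).one_lt
  have hm0 : (m : ℚ_[p]) ≠ 0 := by exact_mod_cast hm
  have hndvd : ¬ ((p : ℤ) ^ m ∣ (m : ℤ)) := by
    intro h
    have h1 : p ^ m ∣ m := by exact_mod_cast h
    have h2 := Nat.le_of_dvd (Nat.pos_of_ne_zero hm) h1
    exact absurd h2 (not_le.2 (Nat.lt_pow_self hp1))
  have hnorm : (p : ℝ) ^ (-(m : ℤ)) < ‖(m : ℚ_[p])‖ := by
    by_contra hle
    rw [not_lt] at hle
    apply hndvd
    have := (Padic.norm_int_le_pow_iff_dvd (p := p) (m : ℤ) m).1 (by simpa using hle)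
    exact_mod_cast this
  have hw : ‖(p : ℚ_[p]) ^ m / (m : ℚ_[p])‖ ≤ 1 := by
    rw [norm_div, Padic.norm_p_pow, div_le_one (norm_pos_iff.2 hm0)]
    exact hnorm.le
  refine ⟨⟨_, hw⟩, ?_⟩
  change (p : ℚ_[p]) ^ m = (m : ℚ_[p]) * ((p : ℚ_[p]) ^ m / (m : ℚ_[p]))
  rw [mul_div_cancel₀ _ hm0]

lemma finite_setOf_dvd (m : ℕ) (hm : m ≠ 0) : {q : Nat.Primes | (q : ℕ) ∣ m}.Finite := by
  have : {q : Nat.Primes | (q : ℕ) ∣ m} ⊆
      (fun q : Nat.Primes => (q : ℕ)) ⁻¹' ((m.divisors : Finset ℕ) : Set ℕ) := by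
    intro q hq
    simp only [Set.mem_preimage, Finset.mem_coe, Nat.mem_divisors]
    exact ⟨hq, hm⟩
  exact Set.Finite.subset (Set.Finite.preimage (Nat.Primes.coe_nat_injective.injOn)
    (Finset.finite_toSet _)) this

/-- Weak approximation for ideles, in the form used by the cyclotomic Artin map: every idele is,
modulo a principal idele, congruent to `1` modulo `m` at the primes dividing `m` and totally
positive with positive norm at the archimedean component. -/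
theorem exists_principal_approx_modulus (b : Idele L) (m : ℕ) [NeZero m] :
    ∃ x : Lˣ, (∀ q : Nat.Primes, (q : ℕ) ∣ m → ∃ z ∈ locInt L q,
        ((((principal L x)⁻¹ * b : Idele L) : IdeleProd L).1 q : LocAlg L q) - 1 =
          (m : LocAlg L q) * z) ∧
      0 < Algebra.norm ℝ ((((principal L x)⁻¹ * b : Idele L) : IdeleProd L).2 : ArchAlg L) ∧
      ∀ ψ : ArchAlg L →ₐ[ℝ] ℝ,
        0 < ψ ((((principal L x)⁻¹ * b : Idele L) : IdeleProd L).2 : ArchAlg L) := by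
  have hm : m ≠ 0 := NeZero.ne m
  obtain ⟨x, hx, hx'⟩ := exists_principal_approx_pos L b (finite_setOf_dvd m hm).toFinset m
  refine ⟨x, ?_, hx'⟩
  intro q hq
  obtain ⟨z, hz, hzq⟩ := hx q ((Set.Finite.mem_toFinset _).2 hq)
  obtain ⟨w, hw⟩ := exists_padicInt_pow_eq_mul (pv q) m hm
  refine ⟨((w : ℚ_[pv q]) ⊗ₜ[ℚ] (1 : L) : LocAlg L q) * z, mul_mem ?_ hz, ?_⟩
  · have := tmul_mem_locInt L q w (1 : 𝓞 L)
    simpa using this
  · rw [hzq, ← mul_assoc]
    congr 1
    have h1 : (((pv q : ℕ) : LocAlg L q) ^ m) =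
        algebraMap ℚ_[pv q] (LocAlg L q) (((pv q : ℕ) : ℚ_[pv q]) ^ m) := by
      rw [map_pow, map_natCast]
    have h2 : ((w : ℚ_[pv q]) ⊗ₜ[ℚ] (1 : L) : LocAlg L q) =
        algebraMap ℚ_[pv q] (LocAlg L q) (w : ℚ_[pv q]) := by
      rw [Algebra.TensorProduct.algebraMap_apply]
      rfl
    rw [h1, h2, hw, map_mul, map_natCast]

end Positivity

end Fermat.Agent.Lib.CFT.Global.WeakApprox
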