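/-
helper40.  P-CFT, Global layer: `J_L = Lˣ · J_{L,S}` for suitable finite sets `S` of rational
primes (input (I1) of the first inequality, `FirstIneq.Covers`).

* `locInt_fg`, `locInt_moduleFinite`: the integral subalgebra of `ℚ_q ⊗ L` is a finite
  `ℤ_q`-module;
* `mem_locIntUnits_of_sub_one`: a unit congruent to `1` modulo `q` is an integral unit;
* `covers_of_isClassGenerating`: `Covers L S` as soon as the primes of `𝓞 L` above `S` are
  class-generating in the sense of `SUnits.IsClassGenerating`;
* `exists_covers`: such finite `S` exist, containing any given finite set.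

The proof combines weak approximation (`WeakApprox.exists_principal_approx`), the comparison of
integral units with valuations for principal ideles (`FirstIneq.locUnit_mem_locIntUnits_iff`) and
the finiteness of the class group (`SUnits.exists_isClassGenerating`).
-/
import Mathlib
import Fermat.Agent.Lib.CFT.Global.Ideles
import Fermat.Agent.Lib.CFT.Global.WeakApprox
import Fermat.Agent.Lib.CFT.Global.FirstIneqUnits
import Fermat.Agent.Lib.CFT.Global.SUnitsClass

open scoped TensorProduct NumberField

noncomputable section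

namespace Fermat.Agent.Lib.CFT.Global.IdeleCovers

open Fermat.Agent.Lib.CFT.Global IsDedekindDomain NumberField

variable (L : Type) [Field L] [NumberField L]

/-- The integral subalgebra is a finitely generated `ℤ_q`-module. -/
lemma locInt_fg (q : Nat.Primes) : (Subalgebra.toSubmodule (locInt L q)).FG := by
  classical
  refine ⟨Finset.univ.image fun i : WeakApprox.Idx L =>
    ((1 : ℚ_[pv q]) ⊗ₜ[ℚ] (NumberField.integralBasis L i) : LocAlg L q), ?_⟩
  apply le_antisymm
  · rw [Submodule.span_le]
    intro y hy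
    simp only [Finset.coe_image, Finset.coe_univ, Set.image_univ, Set.mem_range] at hy
    obtain ⟨i, rfl⟩ := hy
    rw [NumberField.integralBasis_apply]
    exact one_tmul_mem_locInt L q _
  · intro y hy
    have hy' : y ∈ locInt L q := hy
    have hc : ∀ i, ‖(FirstIneq.locBasis L q).repr y i‖ ≤ 1 :=
      FirstIneq.norm_locBasis_repr_le_one L q hy'
    set c : WeakApprox.Idx L → ℤ_[pv q] := fun i => ⟨_, hc i⟩ with hcdef
    have hcval : ∀ i, ((c i : ℤ_[pv q]) : ℚ_[pv q]) = (WeakApprox.locBasis L q).repr y i :=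
      fun i => rfl
    have hsum := WeakApprox.sum_repr_tmul_loc L q y
    rw [← hsum]
    refine Submodule.sum_mem _ fun i _ => ?_
    have h1 : (((WeakApprox.locBasis L q).repr y i) ⊗ₜ[ℚ] (NumberField.integralBasis L i) :
        LocAlg L q) = (c i) •
          ((1 : ℚ_[pv q]) ⊗ₜ[ℚ] (NumberField.integralBasis L i) : LocAlg L q) := by
      rw [Algebra.smul_def]
      change _ = algebraMap ℚ_[pv q] (LocAlg L q) ((c i : ℤ_[pv q]) : ℚ_[pv q]) * _
      rw [Algebra.TensorProduct.algebraMap_apply, Algebra.TensorProduct.tmul_mul_tmul, one_mul,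
        hcval]
      simp only [Algebra.algebraMap_self, RingHom.id_apply, mul_one]
    rw [h1]
    refine Submodule.smul_mem _ _ (Submodule.subset_span ?_)
    simp

lemma locInt_moduleFinite (q : Nat.Primes) : Module.Finite ℤ_[pv q] (locInt L q) :=
  Module.Finite.iff_fg.2 (locInt_fg L q)


/-- The prime `q` lies in every maximal ideal of the integral subalgebra. -/
lemma natCast_mem_of_isMaximal (q : Nat.Primes) (M : Ideal (locInt L q)) [hM : M.IsMaximal] :
    ((pv q : ℕ) : locInt L q) ∈ M := by
  have hfin : Module.Finite ℤ_[pv q] (locInt L q) := locInt_moduleFinite L q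
  have hint : Algebra.IsIntegral ℤ_[pv q] (locInt L q) := Algebra.IsIntegral.of_finite _ _
  have h1 : (M.comap (algebraMap ℤ_[pv q] (locInt L q))).IsMaximal :=
    Ideal.isMaximal_comap_of_isIntegral_of_isMaximal M
  have h2 := IsLocalRing.eq_maximalIdeal h1
  have h3 : ((pv q : ℕ) : ℤ_[pv q]) ∈ M.comap (algebraMap ℤ_[pv q] (locInt L q)) := by
    rw [h2, PadicInt.maximalIdeal_eq_span_p]
    exact Ideal.subset_span rfl
  rw [Ideal.mem_comap, map_natCast] at h3
  exact h3

/-- A unit of `ℚ_q ⊗ L` congruent to `1` modulo `q` times the integral subalgebra is an integral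
unit. -/
lemma mem_locIntUnits_of_sub_one (q : Nat.Primes) (u : (LocAlg L q)ˣ) (N : ℕ) (hN : N ≠ 0)
    (z : LocAlg L q) (hz : z ∈ locInt L q)
    (h : (u : LocAlg L q) - 1 = ((pv q : ℕ) : LocAlg L q) ^ N * z) : u ∈ locIntUnits L q := by
  have hu : (u : LocAlg L q) = 1 + ((pv q : ℕ) : LocAlg L q) ^ N * z := by
    rw [← h]; ring
  have hmem : (u : LocAlg L q) ∈ locInt L q := by
    rw [hu]
    exact add_mem (one_mem _) (mul_mem (pow_mem (natCast_mem _ _) N) hz)
  set u' : locInt L q := ⟨u, hmem⟩ with hu'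
  have hunit : IsUnit u' := by
    by_contra hnu
    obtain ⟨M, hM, huM⟩ := exists_max_ideal_of_mem_nonunits hnu
    have hq : ((pv q : ℕ) : locInt L q) ∈ M := natCast_mem_of_isMaximal L q M
    have hu'' : u' = 1 + ((pv q : ℕ) : locInt L q) ^ N * ⟨z, hz⟩ := by
      apply Subtype.ext
      simp only [hu', Subalgebra.coe_add, Subalgebra.coe_one, Subalgebra.coe_mul,
        Subalgebra.coe_pow]
      exact hu
    have h1 : (1 : locInt L q) ∈ M := by
      have h2 : ((pv q : ℕ) : locInt L q) ^ N * ⟨z, hz⟩ ∈ M :=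
        M.mul_mem_right _ (M.pow_mem_of_mem hq N (Nat.pos_of_ne_zero hN))
      have h3 : (1 : locInt L q) = u' - ((pv q : ℕ) : locInt L q) ^ N * ⟨z, hz⟩ := by
        rw [hu'']; ring
      rw [h3]
      exact M.sub_mem huM h2
    exact hM.ne_top ((Ideal.eq_top_iff_one M).2 h1)
  obtain ⟨w, hw⟩ := hunit.exists_right_inv
  have hw' : (u : LocAlg L q) * (w : LocAlg L q) = 1 := by
    have := congrArg (fun t : locInt L q => (t : LocAlg L q)) hw
    simpa [hu'] using this
  refine ⟨hmem, ?_⟩
  have : ((u⁻¹ : (LocAlg L q)ˣ) : LocAlg L q) = (w : LocAlg L q) :=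
    Units.inv_eq_of_mul_eq_one_right hw'
  rw [this]
  exact w.2


lemma finite_setOf_ordAt_ne_zero (y : Lˣ) :
    {v : HeightOneSpectrum (𝓞 L) | SUnits.ordAt v y ≠ 0}.Finite := by
  have h1 := HeightOneSpectrum.Support.finite (𝓞 L) (y : L)
  have h2 := HeightOneSpectrum.Support.finite (𝓞 L) ((y⁻¹ : Lˣ) : L)
  refine (h1.union h2).subset ?_
  intro v hv
  rw [Set.mem_ofPred_eq] at hv
  by_contra hnot
  simp only [Set.mem_union, HeightOneSpectrum.Support, Set.mem_ofPred_eq, not_or, not_lt] at hnot
  apply hv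
  rw [← SUnits.valuation_eq_one_iff_ordAt]
  refine le_antisymm hnot.1 ?_
  have := hnot.2
  rw [Units.val_inv_eq_inv_val, map_inv₀] at this
  have hne : v.valuation L (y : L) ≠ 0 := by simp
  exact (inv_le_one₀ (zero_lt_iff.2 hne)).1 this

/-- If the primes above `S` generate the class group then `Lˣ · J_{L,S} = J_L`. -/
theorem covers_of_isClassGenerating (S : Finset Nat.Primes)
    (hS : SUnits.IsClassGenerating (FirstIneq.primesAbove L S)) :
    FirstIneq.Covers L (S : Set Nat.Primes) := by
  classical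
  rw [FirstIneq.covers_iff]
  intro x
  have hT : {q : Nat.Primes | (x : IdeleProd L).1 q ∉ locIntUnits L q}.Finite := x.2
  set T : Finset Nat.Primes := hT.toFinset with hTdef
  have hmemT : ∀ q, q ∈ T ↔ (x : IdeleProd L).1 q ∉ locIntUnits L q := fun q => by
    rw [hTdef, Set.Finite.mem_toFinset]; rfl
  obtain ⟨y, hy, -⟩ := WeakApprox.exists_principal_approx L x T 1 Set.univ isOpen_univ
    (Set.mem_univ _)
  have hx'T : ∀ q ∈ T, (locUnit L q y)⁻¹ * (x : IdeleProd L).1 q ∈ locIntUnits L q := by
    intro q hq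
    obtain ⟨z, hz, hzq⟩ := hy q hq
    exact mem_locIntUnits_of_sub_one L q _ 1 one_ne_zero z hz hzq
  -- the divisor to be made principal away from `S`
  have hfin : (Function.support fun v : HeightOneSpectrum (𝓞 L) =>
      if v ∈ FirstIneq.primesAbove L T then (0 : ℤ) else - SUnits.ordAt v y).Finite := by
    refine (finite_setOf_ordAt_ne_zero L y).subset ?_
    intro v hv
    rw [Function.mem_support] at hv
    rw [Set.mem_ofPred_eq]
    intro h0
    apply hv
    split_ifs
    · rfl
    · rw [h0, neg_zero]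
  set n : HeightOneSpectrum (𝓞 L) →₀ ℤ := Finsupp.ofSupportFinite _ hfin with hn
  have hnv : ∀ v, n v = if v ∈ FirstIneq.primesAbove L T then (0 : ℤ) else - SUnits.ordAt v y :=
    fun v => rfl
  obtain ⟨a, ha⟩ := hS n
  refine ⟨y * a, ?_⟩
  intro q hqS
  have hqS' : q ∉ S := fun h => hqS (Finset.mem_coe.2 h)
  have hcomp : ((x * (principal L (y * a))⁻¹ : Idele L) : IdeleProd L).1 q =
      (x : IdeleProd L).1 q * (locUnit L q (y * a))⁻¹ := rfl
  rw [hcomp]
  by_cases hqT : q ∈ T
  · have h1 : (x : IdeleProd L).1 q * (locUnit L q (y * a))⁻¹ =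
        ((locUnit L q y)⁻¹ * (x : IdeleProd L).1 q) * (locUnit L q a)⁻¹ := by
      rw [map_mul, mul_inv]
      exact (mul_comm _ _).trans (by rw [mul_assoc, mul_comm _ ((locUnit L q) a)⁻¹, ← mul_assoc,
        mul_comm ((locUnit L q) a)⁻¹, mul_assoc, mul_assoc]; congr 1; exact mul_comm _ _)
    rw [h1]
    refine mul_mem (hx'T q hqT) (inv_mem ?_)
    rw [FirstIneq.locUnit_mem_locIntUnits_iff]
    intro v hv
    rw [SUnits.valuation_eq_one_iff_ordAt]
    have hvS : v ∉ FirstIneq.primesAbove L S := by
      rw [FirstIneq.mem_primesAbove_iff_of_mem L hv]; exact hqS'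
    have hvT : v ∈ FirstIneq.primesAbove L T := by
      rw [FirstIneq.mem_primesAbove_iff_of_mem L hv]; exact hqT
    rw [ha v hvS, hnv, if_pos hvT]
  · have hxq : (x : IdeleProd L).1 q ∈ locIntUnits L q := by
      by_contra h
      exact hqT ((hmemT q).2 h)
    refine mul_mem hxq (inv_mem ?_)
    rw [FirstIneq.locUnit_mem_locIntUnits_iff]
    intro v hv
    rw [SUnits.valuation_eq_one_iff_ordAt]
    have hvS : v ∉ FirstIneq.primesAbove L S := by
      rw [FirstIneq.mem_primesAbove_iff_of_mem L hv]; exact hqS'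
    have hvT : v ∉ FirstIneq.primesAbove L T := by
      rw [FirstIneq.mem_primesAbove_iff_of_mem L hv]; exact hqT
    rw [SUnits.ordAt_mul, ha v hvS, hnv, if_neg hvT]
    ring

/-- The rational primes below a finite set of primes of `𝓞 L`. -/
lemma exists_subset_primesAbove (S' : Finset (HeightOneSpectrum (𝓞 L))) :
    ∃ S : Finset Nat.Primes, S' ⊆ FirstIneq.primesAbove L S := by
  classical
  choose qOf hqOf using FirstIneq.exists_prime_mem L
  refine ⟨S'.image qOf, fun v hv => ?_⟩
  rw [FirstIneq.mem_primesAbove]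
  exact ⟨qOf v, Finset.mem_image_of_mem _ hv, hqOf v⟩

/-- **`J_L = Lˣ · J_{L,S}` for a suitable finite set `S` of rational primes**, containing any given
finite set. -/
theorem exists_covers (S₁ : Finset Nat.Primes) :
    ∃ S : Finset Nat.Primes, S₁ ⊆ S ∧ FirstIneq.Covers L (S : Set Nat.Primes) := by
  classical
  obtain ⟨S', -, hS'⟩ := SUnits.exists_isClassGenerating (K := L) ∅
  obtain ⟨S, hS⟩ := exists_subset_primesAbove L S'
  refine ⟨S₁ ∪ S, Finset.subset_union_left, ?_⟩
  have h1 : FirstIneq.Covers L (S : Set Nat.Primes) :=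
    covers_of_isClassGenerating L S (hS'.mono hS)
  exact FirstIneq.Covers.mono L (Finset.coe_subset.2 Finset.subset_union_right) h1

end Fermat.Agent.Lib.CFT.Global.IdeleCovers
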