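/-
helper70 (P-CFT, WP Global/ArtinCyclotomic, part Q: the rational side).

* `zhatRes m : (∏_q ℤ_q) →+* ZMod m` (residue map), characterised by `zhatRes_eq_intCast_iff`;
* `fsPow g : Multiplicative (Nat.Primes →₀ ℤ) →* G`, `(k_q) ↦ ∏ g_q ^ k_q`;
* `QIdele` : the ideles of `ℚ` (restricted product of `ℚ_qˣ` and `ℝˣ`), `qValFinsupp`, `qContent`,
  `qUnit`, `qPrincipal`;
* `qOmega m : QIdele →* (ZMod m)ˣ` : the cyclotomic character of the idele class group of `ℚ`,
  trivial on principal ideles (`qOmega_qPrincipal`), with the explicit formula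
  `qOmega_eq_fsPow` on ideles which are `≡ 1 mod m` at the primes dividing `m` and positive.
-/
import Mathlib
import Fermat.Agent.Lib.CFT.Global.Ideles

set_option autoImplicit false
set_option linter.unusedSectionVars false

namespace Fermat.Agent.Lib.CFT.Global.ArtinCyc

open Fermat.Agent.Lib.CFT.Global

/-! ### The residue map `∏_q ℤ_q → ℤ/m` -/

section Residue

/-- In `ℤ_q`, divisibility by a natural number `m ≠ 0` is divisibility by the `q`-part of `m`. -/
theorem natCast_dvd_iff (q : Nat.Primes) {m : ℕ} (hm : m ≠ 0) (x : ℤ_[pv q]) :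
    (m : ℤ_[pv q]) ∣ x ↔ ((pv q : ℤ_[pv q]) ^ (m.factorization (pv q))) ∣ x := by
  obtain ⟨m', hm', hcop⟩ : ∃ m' : ℕ, m = (pv q) ^ (m.factorization (pv q)) * m' ∧
      (pv q).Coprime m' := by
    refine ⟨m / (pv q) ^ (m.factorization (pv q)),
      (Nat.mul_div_cancel' (Nat.ordProj_dvd m (pv q))).symm, ?_⟩
    exact Nat.coprime_ordCompl (pv_prime q) hm
  have hu : IsUnit (m' : ℤ_[pv q]) := by
    rw [PadicInt.isUnit_iff, PadicInt.norm_natCast_eq_one_iff]
    exact hcop
  have hcast : (m : ℤ_[pv q]) = (pv q : ℤ_[pv q]) ^ (m.factorization (pv q)) * (m' : ℤ_[pv q]) := by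
    conv_lhs => rw [hm']
    push_cast
    rfl
  rw [hcast]
  exact hu.mul_right_dvd

/-- The integer `c` represents the family `u` of `q`-adic integers modulo `m`. -/
def IsResidue (m : ℕ) (u : ∀ q : Nat.Primes, ℤ_[pv q]) (c : ℤ) : Prop :=
  ∀ q : Nat.Primes, (m : ℤ_[pv q]) ∣ (c : ℤ_[pv q]) - u q

theorem IsResidue.add {m : ℕ} {u v : ∀ q : Nat.Primes, ℤ_[pv q]} {c d : ℤ}
    (hu : IsResidue m u c) (hv : IsResidue m v d) : IsResidue m (u + v) (c + d) := by
  intro q
  have := dvd_add (hu q) (hv q)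
  convert this using 1
  push_cast
  simp only [Pi.add_apply]
  ring

theorem IsResidue.mul {m : ℕ} {u v : ∀ q : Nat.Primes, ℤ_[pv q]} {c d : ℤ}
    (hu : IsResidue m u c) (hv : IsResidue m v d) : IsResidue m (u * v) (c * d) := by
  intro q
  have := dvd_add ((hv q).mul_left (c : ℤ_[pv q])) ((hu q).mul_right (v q))
  convert this using 1
  push_cast
  simp only [Pi.mul_apply]
  ring

theorem isResidue_one (m : ℕ) : IsResidue m 1 1 := by
  intro q; simp

theorem isResidue_zero (m : ℕ) : IsResidue m 0 0 := by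
  intro q; simp

theorem isResidue_intCast (m : ℕ) (c : ℤ) : IsResidue m (fun _ => (c : ℤ_[pv _])) c := by
  intro q; simp

/-- Two representatives of the same family are congruent modulo `m`. -/
theorem IsResidue.unique {m : ℕ} (hm : m ≠ 0) {u : ∀ q : Nat.Primes, ℤ_[pv q]} {c d : ℤ}
    (hc : IsResidue m u c) (hd : IsResidue m u d) : (m : ℤ) ∣ c - d := by
  have key : ∀ q : Nat.Primes, ((pv q : ℤ) ^ (m.factorization (pv q))) ∣ c - d := by
    intro q
    have h1 := dvd_sub (hc q) (hd q)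
    have h2 : (c : ℤ_[pv q]) - u q - ((d : ℤ_[pv q]) - u q) = ((c - d : ℤ) : ℤ_[pv q]) := by
      push_cast; ring
    rw [h2, natCast_dvd_iff q hm, PadicInt.pow_p_dvd_int_iff] at h1
    exact_mod_cast h1
  by_cases h0 : c - d = 0
  · rw [h0]; exact dvd_zero _
  have h1 : m ∣ (c - d).natAbs := by
    rw [← Nat.factorization_le_iff_dvd hm (Int.natAbs_ne_zero.2 h0)]
    intro p
    by_cases hp : p.Prime
    · have := key ⟨p, hp⟩
      rw [← Int.natAbs_dvd_natAbs, Int.natAbs_pow, Int.natAbs_natCast] at this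
      exact (hp.pow_dvd_iff_le_factorization (Int.natAbs_ne_zero.2 h0)).1 this
    · simp [Nat.factorization_eq_zero_of_not_prime _ hp]
  exact Int.natCast_dvd.2 h1

/-- Every family has a representative. -/
theorem exists_isResidue {m : ℕ} (hm : m ≠ 0) (u : ∀ q : Nat.Primes, ℤ_[pv q]) :
    ∃ c : ℤ, IsResidue m u c := by
  classical
  let a0 : Nat.Primes → ℕ := fun q => PadicInt.appr (u q) (m.factorization (pv q))
  let a : ℕ → ℕ := fun p => if hp : p.Prime then a0 ⟨p, hp⟩ else 0
  let s : ℕ → ℕ := fun p => p ^ (m.factorization p)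
  have hs : ∀ p ∈ m.primeFactors, s p ≠ 0 := fun p hp =>
    pow_ne_zero _ (Nat.prime_of_mem_primeFactors hp).ne_zero
  have pp : Set.Pairwise (m.primeFactors : Set ℕ) (Function.onFun Nat.Coprime s) := by
    intro p hp p' hp' hne
    exact Nat.Coprime.pow _ _ ((Nat.coprime_primes (Nat.prime_of_mem_primeFactors hp)
      (Nat.prime_of_mem_primeFactors hp')).2 hne)
  obtain ⟨c, hc⟩ := Nat.chineseRemainderOfFinset a s m.primeFactors hs pp
  refine ⟨(c : ℤ), fun q => ?_⟩
  rw [natCast_dvd_iff q hm]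
  by_cases hq : pv q ∣ m
  · have hmem : pv q ∈ m.primeFactors := Nat.mem_primeFactors.2 ⟨pv_prime q, hq, hm⟩
    have h1 := hc (pv q) hmem
    have ha : a (pv q) = PadicInt.appr (u q) (m.factorization (pv q)) := by
      simp only [a, dif_pos (pv_prime q)]
      rfl
    have h2 : ((pv q : ℤ_[pv q]) ^ (m.factorization (pv q))) ∣
        ((c : ℤ) : ℤ_[pv q]) - ((a (pv q) : ℕ) : ℤ_[pv q]) := by
      have h3 : ((pv q ^ (m.factorization (pv q)) : ℕ) : ℤ) ∣ (c : ℤ) - (a (pv q) : ℤ) :=
        (Nat.modEq_iff_dvd.1 h1.symm)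
      obtain ⟨k, hk⟩ := h3
      refine ⟨(k : ℤ_[pv q]), ?_⟩
      have := congrArg (fun z : ℤ => (z : ℤ_[pv q])) hk
      push_cast at this ⊢
      exact this
    have h4 : ((pv q : ℤ_[pv q]) ^ (m.factorization (pv q))) ∣
        ((a (pv q) : ℕ) : ℤ_[pv q]) - u q := by
      rw [ha]
      have := PadicInt.appr_spec (m.factorization (pv q)) (u q)
      rw [Ideal.mem_span_singleton] at this
      have h5 := (dvd_neg.2 this)
      rwa [neg_sub] at h5
    have := dvd_add h2 h4
    convert this using 1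
    ring
  · have : m.factorization (pv q) = 0 := Nat.factorization_eq_zero_of_not_dvd hq
    rw [this, pow_zero]
    exact one_dvd _

/-- The residue map `∏_q ℤ_q → ℤ/m`. -/
noncomputable def zhatRes (m : ℕ) [NeZero m] : (∀ q : Nat.Primes, ℤ_[pv q]) →+* ZMod m where
  toFun u := ((Classical.choose (exists_isResidue (NeZero.ne m) u) : ℤ) : ZMod m)
  map_one' := by
    have h := Classical.choose_spec (exists_isResidue (NeZero.ne m) (1 : ∀ q : Nat.Primes, ℤ_[pv q]))
    have := (h.unique (NeZero.ne m) (isResidue_one m))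
    rw [← Int.cast_one (R := ZMod m), ZMod.intCast_eq_intCast_iff_dvd_sub]
    rw [← dvd_neg, neg_sub] at this
    exact this
  map_zero' := by
    have h := Classical.choose_spec (exists_isResidue (NeZero.ne m) (0 : ∀ q : Nat.Primes, ℤ_[pv q]))
    have := (h.unique (NeZero.ne m) (isResidue_zero m))
    rw [← Int.cast_zero (R := ZMod m), ZMod.intCast_eq_intCast_iff_dvd_sub]
    rw [← dvd_neg, neg_sub] at this
    exact this
  map_add' u v := by
    have hu := Classical.choose_spec (exists_isResidue (NeZero.ne m) u)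
    have hv := Classical.choose_spec (exists_isResidue (NeZero.ne m) v)
    have huv := Classical.choose_spec (exists_isResidue (NeZero.ne m) (u + v))
    have := (huv.unique (NeZero.ne m) (hu.add hv))
    rw [← Int.cast_add, ZMod.intCast_eq_intCast_iff_dvd_sub]
    rw [← dvd_neg, neg_sub] at this
    exact this
  map_mul' u v := by
    have hu := Classical.choose_spec (exists_isResidue (NeZero.ne m) u)
    have hv := Classical.choose_spec (exists_isResidue (NeZero.ne m) v)
    have huv := Classical.choose_spec (exists_isResidue (NeZero.ne m) (u * v))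
    have := (huv.unique (NeZero.ne m) (hu.mul hv))
    rw [← Int.cast_mul, ZMod.intCast_eq_intCast_iff_dvd_sub]
    rw [← dvd_neg, neg_sub] at this
    exact this

theorem zhatRes_eq_of_isResidue (m : ℕ) [NeZero m] {u : ∀ q : Nat.Primes, ℤ_[pv q]} {c : ℤ}
    (h : IsResidue m u c) : zhatRes m u = (c : ZMod m) := by
  have hu := Classical.choose_spec (exists_isResidue (NeZero.ne m) u)
  have := (hu.unique (NeZero.ne m) h)
  show ((Classical.choose (exists_isResidue (NeZero.ne m) u) : ℤ) : ZMod m) = (c : ZMod m)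
  rw [ZMod.intCast_eq_intCast_iff_dvd_sub]
  rw [← dvd_neg, neg_sub] at this
  exact this

theorem zhatRes_eq_intCast_iff (m : ℕ) [NeZero m] (u : ∀ q : Nat.Primes, ℤ_[pv q]) (c : ℤ) :
    zhatRes m u = (c : ZMod m) ↔ IsResidue m u c := by
  refine ⟨fun h => ?_, zhatRes_eq_of_isResidue m⟩
  have hu := Classical.choose_spec (exists_isResidue (NeZero.ne m) u)
  set c₀ := Classical.choose (exists_isResidue (NeZero.ne m) u)
  have h' : ((c₀ : ℤ) : ZMod m) = (c : ZMod m) := h
  rw [ZMod.intCast_eq_intCast_iff_dvd_sub] at h'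
  intro q
  obtain ⟨k, hk⟩ := h'
  have h2 : (c : ℤ_[pv q]) - u q = ((c₀ : ℤ_[pv q]) - u q) + (m : ℤ_[pv q]) * (k : ℤ_[pv q]) := by
    have := congrArg (fun z : ℤ => (z : ℤ_[pv q])) hk
    push_cast at this
    linear_combination this
  rw [h2]
  exact dvd_add (hu q) (dvd_mul_right _ _)

end Residue

section FsPow

variable {G : Type*} [CommGroup G]

/-- The homomorphism `(k_q)_q ↦ ∏_q g_q ^ k_q` on finitely supported integer vectors. -/
noncomputable def fsPow (g : Nat.Primes → G) : Multiplicative (Nat.Primes →₀ ℤ) →* G where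
  toFun f := (Multiplicative.toAdd f).prod fun q e => g q ^ e
  map_one' := by simp
  map_mul' f f' := by
    rw [toAdd_mul]
    exact Finsupp.prod_add_index' (fun a => zpow_zero _) (fun a b₁ b₂ => zpow_add _ _ _)

theorem fsPow_apply (g : Nat.Primes → G) (f : Multiplicative (Nat.Primes →₀ ℤ)) :
    fsPow g f = (Multiplicative.toAdd f).prod fun q e => g q ^ e := rfl

@[simp] theorem fsPow_single (g : Nat.Primes → G) (q : Nat.Primes) (e : ℤ) :
    fsPow g (Multiplicative.ofAdd (Finsupp.single q e)) = g q ^ e := by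
  rw [fsPow_apply, toAdd_ofAdd, Finsupp.prod_single_index (zpow_zero _)]

/-- Two homomorphisms on exponent vectors agree if they agree on the basis vectors. -/
theorem fs_hom_ext {φ ψ : Multiplicative (Nat.Primes →₀ ℤ) →* G}
    (h : ∀ q : Nat.Primes, φ (Multiplicative.ofAdd (Finsupp.single q 1)) =
      ψ (Multiplicative.ofAdd (Finsupp.single q 1))) : φ = ψ := by
  refine MonoidHom.ext fun f => ?_
  obtain ⟨f, rfl⟩ := Multiplicative.ofAdd.surjective f
  induction f using Finsupp.induction_linear with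
  | zero => simp
  | add f f' hf hf' => rw [ofAdd_add, map_mul, map_mul, hf, hf']
  | single q e =>
    have : Finsupp.single q e = e • Finsupp.single q (1 : ℤ) := by
      rw [Finsupp.smul_single, smul_eq_mul, mul_one]
    rw [this, ofAdd_zsmul, map_zpow, map_zpow, h q]

theorem fsPow_mem {H : Subgroup G} {g : Nat.Primes → G} {f : Multiplicative (Nat.Primes →₀ ℤ)}
    (h : ∀ q : Nat.Primes, (Multiplicative.toAdd f) q ≠ 0 → g q ^ ((Multiplicative.toAdd f) q) ∈ H) :
    fsPow g f ∈ H := by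
  rw [fsPow_apply]
  exact Subgroup.prod_mem _ fun q hq => h q (Finsupp.mem_support_iff.1 hq)

/-- Evaluation of an exponent vector at a prime, as a homomorphism. -/
noncomputable def fsEval (q : Nat.Primes) : Multiplicative (Nat.Primes →₀ ℤ) →* Multiplicative ℤ :=
  AddMonoidHom.toMultiplicative (Finsupp.applyAddHom q)

@[simp] theorem fsEval_apply (q : Nat.Primes) (f : Multiplicative (Nat.Primes →₀ ℤ)) :
    fsEval q f = Multiplicative.ofAdd ((Multiplicative.toAdd f) q) := rfl

end FsPow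

section QIdele

theorem rat_eq_one_of_padicValRat_eq_zero {r : ℚ} (hr : 0 < r)
    (h : ∀ q : Nat.Primes, padicValRat (pv q) r = 0) : r = 1 := by
  have hnum : 0 < r.num := Rat.num_pos.2 hr
  have hcop := r.reduced
  have hden : r.den = 1 := by
    by_contra hne
    obtain ⟨p, hp, hpd⟩ := Nat.exists_prime_and_dvd hne
    have h1 := h ⟨p, hp⟩
    rw [padicValRat_def] at h1
    have h2 : ¬ p ∣ r.num.natAbs := by
      intro h3
      have := Nat.Coprime.eq_one_of_dvd (hcop.coprime_dvd_left h3) hpd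
      exact hp.one_lt.ne' this
    have h3 : padicValInt p r.num = 0 := by
      rw [padicValInt]
      exact padicValNat.eq_zero_of_not_dvd h2
    have h4 : 1 ≤ padicValNat p r.den := by
      have := Fact.mk hp
      exact one_le_padicValNat_of_dvd r.den_ne_zero hpd
    change padicValInt p r.num - (padicValNat p r.den : ℤ) = 0 at h1
    rw [h3] at h1
    omega
  have hnum1 : r.num.natAbs = 1 := by
    by_contra hne
    obtain ⟨p, hp, hpd⟩ := Nat.exists_prime_and_dvd hne
    have h1 := h ⟨p, hp⟩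
    rw [padicValRat_def] at h1
    change padicValInt p r.num - (padicValNat p r.den : ℤ) = 0 at h1
    rw [hden] at h1
    have h4 : 1 ≤ padicValNat p r.num.natAbs := by
      have := Fact.mk hp
      exact one_le_padicValNat_of_dvd (Int.natAbs_ne_zero.2 hnum.ne') hpd
    rw [padicValInt] at h1
    simp only [padicValNat_one_right, Nat.cast_zero, sub_zero] at h1
    omega
  have : r.num = 1 := by omega
  rw [← Rat.num_div_den r, this, hden]
  simp



/-- The `q`-adic valuation as a homomorphism on `ℚ_qˣ`. -/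
noncomputable def qVal (q : Nat.Primes) : ℚ_[pv q]ˣ →* Multiplicative ℤ where
  toFun u := Multiplicative.ofAdd (u : ℚ_[pv q]).valuation
  map_one' := by simp [Padic.valuation_one]
  map_mul' u v := by
    rw [Units.val_mul, Padic.valuation_mul u.ne_zero v.ne_zero, ofAdd_add]

theorem qVal_apply (q : Nat.Primes) (u : ℚ_[pv q]ˣ) :
    qVal q u = Multiplicative.ofAdd (u : ℚ_[pv q]).valuation := rfl

theorem norm_eq_one_iff_valuation_eq_zero (q : Nat.Primes) {u : ℚ_[pv q]} (hu : u ≠ 0) :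
    ‖u‖ = 1 ↔ u.valuation = 0 := by
  rw [Padic.norm_eq_zpow_neg_valuation hu]
  have h1 : (1 : ℝ) < (pv q : ℝ) := by exact_mod_cast (pv_prime q).one_lt
  rw [zpow_eq_one_iff_right₀ (by linarith) (ne_of_gt h1), neg_eq_zero]

theorem qVal_eq_one_iff (q : Nat.Primes) (u : ℚ_[pv q]ˣ) :
    qVal q u = 1 ↔ ‖(u : ℚ_[pv q])‖ = 1 := by
  rw [norm_eq_one_iff_valuation_eq_zero q u.ne_zero, qVal_apply]
  exact Iff.rfl

/-- The unrestricted product `∏_q ℚ_qˣ × ℝˣ`. -/
abbrev QIdeleProd : Type := (∀ q : Nat.Primes, ℚ_[pv q]ˣ) × ℝˣ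

/-- The ideles of `ℚ` inside the unrestricted product. -/
def qIdeleSubgroup : Subgroup QIdeleProd where
  carrier := {x | {q : Nat.Primes | qVal q (x.1 q) ≠ 1}.Finite}
  mul_mem' := by
    intro a b ha hb
    refine (ha.union hb).subset ?_
    intro q hq
    by_contra h
    simp only [Set.mem_union, Set.mem_ofPred_eq, not_or, not_not] at h
    apply hq
    show qVal q (a.1 q * b.1 q) = 1
    rw [map_mul, h.1, h.2, one_mul]
  one_mem' := by
    have : {q : Nat.Primes | qVal q ((1 : QIdeleProd).1 q) ≠ 1} = ∅ := by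
      ext q; simp
    show {q : Nat.Primes | qVal q ((1 : QIdeleProd).1 q) ≠ 1}.Finite
    rw [this]
    exact Set.finite_empty
  inv_mem' := by
    intro a ha
    refine ha.subset ?_
    intro q hq h
    apply hq
    show qVal q ((a.1 q)⁻¹) = 1
    rw [map_inv, h, inv_one]

/-- The idele group of `ℚ`. -/
abbrev QIdele : Type := ↥qIdeleSubgroup

/-- The vector of valuations of a rational idele. -/
noncomputable def qValFinsupp : QIdele →* Multiplicative (Nat.Primes →₀ ℤ) where
  toFun x := Multiplicative.ofAdd (Finsupp.ofSupportFinite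
    (fun q => Multiplicative.toAdd (qVal q (x.1.1 q))) x.2)
  map_one' := by
    apply Multiplicative.toAdd.injective
    ext q
    simp [Finsupp.ofSupportFinite_coe]
  map_mul' x y := by
    apply Multiplicative.toAdd.injective
    ext q
    show Multiplicative.toAdd (qVal q (x.1.1 q * y.1.1 q)) =
      Multiplicative.toAdd (qVal q (x.1.1 q)) + Multiplicative.toAdd (qVal q (y.1.1 q))
    rw [map_mul, toAdd_mul]

@[simp] theorem qValFinsupp_apply (x : QIdele) (q : Nat.Primes) :
    Multiplicative.toAdd (qValFinsupp x) q = ((x.1.1 q : ℚ_[pv q]ˣ) : ℚ_[pv q]).valuation := rfl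


/-- The sign of a nonzero real number. -/
noncomputable def realSign : ℝˣ →* ℤˣ where
  toFun u := if 0 < (u : ℝ) then 1 else -1
  map_one' := by simp
  map_mul' a b := by
    rcases lt_or_gt_of_ne a.ne_zero with ha | ha <;> rcases lt_or_gt_of_ne b.ne_zero with hb | hb
    · have h : 0 < (a : ℝ) * (b : ℝ) := mul_pos_of_neg_of_neg ha hb
      simp [h, not_lt.2 ha.le, not_lt.2 hb.le]
    · have h : ¬ 0 < (a : ℝ) * (b : ℝ) := not_lt.2 (mul_neg_of_neg_of_pos ha hb).le
      simp [h, not_lt.2 ha.le, hb]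
    · have h : ¬ 0 < (a : ℝ) * (b : ℝ) := not_lt.2 (mul_neg_of_pos_of_neg ha hb).le
      simp [h, not_lt.2 hb.le, ha]
    · have h : 0 < (a : ℝ) * (b : ℝ) := mul_pos ha hb
      simp [h, ha, hb]

theorem realSign_of_pos {u : ℝˣ} (h : 0 < (u : ℝ)) : realSign u = 1 := by
  simp [realSign, h]

/-- A rational prime as a unit of `ℚ`. -/
noncomputable def primeUnit (q : Nat.Primes) : ℚˣ :=
  Units.mk0 (pv q : ℚ) (Nat.cast_ne_zero.2 (pv_prime q).ne_zero)

@[simp] theorem val_primeUnit (q : Nat.Primes) : ((primeUnit q : ℚˣ) : ℚ) = (pv q : ℚ) := rfl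

/-- The embedding `ℚˣ → ℚ_qˣ`. -/
noncomputable def ratToPadic (q : Nat.Primes) : ℚˣ →* ℚ_[pv q]ˣ :=
  Units.map ((Rat.castHom ℚ_[pv q] : ℚ →+* ℚ_[pv q]) : ℚ →* ℚ_[pv q])

@[simp] theorem val_ratToPadic (q : Nat.Primes) (r : ℚˣ) :
    ((ratToPadic q r : ℚ_[pv q]ˣ) : ℚ_[pv q]) = ((r : ℚ) : ℚ_[pv q]) := rfl

/-- The embedding `ℚˣ → ℝˣ`. -/
noncomputable def ratToReal : ℚˣ →* ℝˣ :=
  Units.map ((Rat.castHom ℝ : ℚ →+* ℝ) : ℚ →* ℝ)

@[simp] theorem val_ratToReal (r : ℚˣ) : ((ratToReal r : ℝˣ) : ℝ) = ((r : ℚ) : ℝ) := rfl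

/-- The embedding `ℤˣ → ℚˣ`. -/
noncomputable def intUnitsToRat : ℤˣ →* ℚˣ :=
  Units.map ((Int.castRingHom ℚ : ℤ →+* ℚ) : ℤ →* ℚ)

theorem qVal_ratToPadic_fsPow (q : Nat.Primes) :
    ((qVal q).comp (ratToPadic q)).comp (fsPow primeUnit) = fsEval q := by
  apply fs_hom_ext
  intro q'
  simp only [MonoidHom.comp_apply, fsPow_single, zpow_one, fsEval_apply, toAdd_ofAdd]
  rw [qVal_apply]
  congr 1
  rw [val_ratToPadic, val_primeUnit, Rat.cast_natCast, Padic.valuation_natCast,
    Finsupp.single_apply]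
  by_cases h : q' = q
  · subst h
    simp
  · rw [if_neg h]
    have : pv q ≠ pv q' := fun h' => h (Subtype.ext h'.symm)
    have := padicValNat_primes (p := pv q) (q := pv q') this
    exact_mod_cast this

theorem qVal_ratToPadic_intUnits (q : Nat.Primes) (s : ℤˣ) :
    qVal q (ratToPadic q (intUnitsToRat s)) = 1 := by
  rw [qVal_eq_one_iff]
  rcases Int.units_eq_one_or s with rfl | rfl
  · simp
  · simp [intUnitsToRat]

/-- The rational content `sign(x_∞) ∏_q q^{v_q(x_q)}` of a rational idele. -/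
noncomputable def qContent : QIdele →* ℚˣ :=
  (intUnitsToRat.comp (realSign.comp ((MonoidHom.snd _ _).comp qIdeleSubgroup.subtype))) *
    ((fsPow primeUnit).comp qValFinsupp)

theorem qContent_apply (x : QIdele) :
    qContent x = intUnitsToRat (realSign x.1.2) * fsPow primeUnit (qValFinsupp x) := rfl

theorem qVal_ratToPadic_qContent (q : Nat.Primes) (x : QIdele) :
    qVal q (ratToPadic q (qContent x)) = qVal q (x.1.1 q) := by
  rw [qContent_apply, map_mul, map_mul, qVal_ratToPadic_intUnits, one_mul]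
  have := DFunLike.congr_fun (qVal_ratToPadic_fsPow q) (qValFinsupp x)
  simp only [MonoidHom.comp_apply] at this
  rw [this, fsEval_apply, qValFinsupp_apply]
  rfl

/-- A homomorphism to `ℚ_qˣ` with values of norm one factors through `ℤ_qˣ`. -/
noncomputable def unitsOfNormOne {G : Type*} [Group G] (q : Nat.Primes) (φ : G →* ℚ_[pv q]ˣ)
    (h : ∀ g, ‖((φ g : ℚ_[pv q]ˣ) : ℚ_[pv q])‖ = 1) : G →* ℤ_[pv q]ˣ where
  toFun g := PadicInt.mkUnits (h g)
  map_one' := by
    apply Units.ext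
    apply Subtype.ext
    show ((φ 1 : ℚ_[pv q]ˣ) : ℚ_[pv q]) = 1
    rw [map_one]; rfl
  map_mul' a b := by
    apply Units.ext
    apply Subtype.ext
    show ((φ (a * b) : ℚ_[pv q]ˣ) : ℚ_[pv q]) = (φ a : ℚ_[pv q]) * (φ b : ℚ_[pv q])
    rw [map_mul]; rfl

@[simp] theorem coe_unitsOfNormOne {G : Type*} [Group G] (q : Nat.Primes) (φ : G →* ℚ_[pv q]ˣ)
    (h : ∀ g, ‖((φ g : ℚ_[pv q]ˣ) : ℚ_[pv q])‖ = 1) (g : G) :
    (((unitsOfNormOne q φ h g : ℤ_[pv q]ˣ) : ℤ_[pv q]) : ℚ_[pv q]) = (φ g : ℚ_[pv q]) := rfl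

/-- The `q`-component of a rational idele. -/
noncomputable def qComp (q : Nat.Primes) : QIdele →* ℚ_[pv q]ˣ :=
  (Pi.evalMonoidHom _ q).comp ((MonoidHom.fst _ _).comp qIdeleSubgroup.subtype)

@[simp] theorem qComp_apply (q : Nat.Primes) (x : QIdele) : qComp q x = x.1.1 q := rfl

/-- The `q`-component divided by the rational content (a homomorphism to `ℚ_qˣ`). -/
noncomputable def qUnitHom (q : Nat.Primes) : QIdele →* ℚ_[pv q]ˣ :=
  qComp q * ((ratToPadic q).comp qContent)⁻¹

theorem qUnitHom_apply (q : Nat.Primes) (x : QIdele) :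
    qUnitHom q x = x.1.1 q * (ratToPadic q (qContent x))⁻¹ := rfl

theorem norm_qUnitHom (q : Nat.Primes) (x : QIdele) :
    ‖((qUnitHom q x : ℚ_[pv q]ˣ) : ℚ_[pv q])‖ = 1 := by
  rw [← qVal_eq_one_iff, qUnitHom_apply, map_mul, map_inv, qVal_ratToPadic_qContent,
    mul_inv_cancel]

/-- The `q`-adic unit part of a rational idele. -/
noncomputable def qUnitAt (q : Nat.Primes) : QIdele →* ℤ_[pv q]ˣ :=
  unitsOfNormOne q (qUnitHom q) (norm_qUnitHom q)

/-- The unit part of a rational idele, in `(∏_q ℤ_q)ˣ`. -/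
noncomputable def qUnit : QIdele →* (∀ q : Nat.Primes, ℤ_[pv q])ˣ :=
  (MulEquiv.piUnits (M := fun q : Nat.Primes => ℤ_[pv q])).symm.toMonoidHom.comp
    (MonoidHom.pi qUnitAt)

theorem qUnit_apply (x : QIdele) (q : Nat.Primes) :
    ((qUnit x : (∀ q : Nat.Primes, ℤ_[pv q])ˣ) : ∀ q : Nat.Primes, ℤ_[pv q]) q =
      (qUnitAt q x : ℤ_[pv q]) := rfl

/-- The cyclotomic character of the idele class group of `ℚ`, modulo `m`. -/
noncomputable def qOmega (m : ℕ) [NeZero m] : QIdele →* (ZMod m)ˣ :=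
  ((Units.map ((zhatRes m : (∀ q : Nat.Primes, ℤ_[pv q]) →+* ZMod m) :
    (∀ q : Nat.Primes, ℤ_[pv q]) →* ZMod m)).comp qUnit)⁻¹

theorem qOmega_apply (m : ℕ) [NeZero m] (x : QIdele) :
    qOmega m x = (Units.map ((zhatRes m : (∀ q : Nat.Primes, ℤ_[pv q]) →+* ZMod m) :
    (∀ q : Nat.Primes, ℤ_[pv q]) →* ZMod m) (qUnit x))⁻¹ := rfl

end QIdele

/-! ### Principal ideles -/

section QPrincipal

theorem qVal_ratToPadic (q : Nat.Primes) (r : ℚˣ) :
    qVal q (ratToPadic q r) = Multiplicative.ofAdd (padicValRat (pv q) (r : ℚ)) := by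
  rw [qVal_apply, val_ratToPadic, Padic.valuation_ratCast]

theorem finite_setOf_qVal_ratToPadic_ne_one (r : ℚˣ) :
    {q : Nat.Primes | qVal q (ratToPadic q r) ≠ 1}.Finite := by
  have hnum : (r : ℚ).num.natAbs ≠ 0 := Int.natAbs_ne_zero.2 (Rat.num_ne_zero.2 r.ne_zero)
  have hfin : {q : Nat.Primes | (q : ℕ) ∣ (r : ℚ).num.natAbs * (r : ℚ).den}.Finite := by
    have : {q : Nat.Primes | (q : ℕ) ∣ (r : ℚ).num.natAbs * (r : ℚ).den} ⊆
        (fun q : Nat.Primes => (q : ℕ)) ⁻¹'
          (((r : ℚ).num.natAbs * (r : ℚ).den).divisors : Set ℕ) := by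
      intro q hq
      simp only [Set.mem_preimage, Finset.mem_coe, Nat.mem_divisors]
      exact ⟨hq, mul_ne_zero hnum (r : ℚ).den_ne_zero⟩
    exact Set.Finite.subset (Set.Finite.preimage (Nat.Primes.coe_nat_injective.injOn)
      (Finset.finite_toSet _)) this
  refine hfin.subset ?_
  intro q hq
  by_contra hdiv
  apply hq
  rw [qVal_ratToPadic, padicValRat_def]
  have h1 : ¬ (pv q) ∣ (r : ℚ).num.natAbs := fun h => hdiv (Dvd.dvd.mul_right h _)
  have h2 : ¬ (pv q) ∣ (r : ℚ).den := fun h => hdiv (Dvd.dvd.mul_left h _)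
  rw [padicValInt, padicValNat.eq_zero_of_not_dvd h1, padicValNat.eq_zero_of_not_dvd h2]
  rfl

/-- The diagonal embedding of `ℚˣ` into the rational ideles. -/
noncomputable def qPrincipal : ℚˣ →* QIdele where
  toFun r := ⟨(fun q => ratToPadic q r, ratToReal r), finite_setOf_qVal_ratToPadic_ne_one r⟩
  map_one' := by
    ext : 1
    simp only [map_one]
    rfl
  map_mul' x y := by
    ext : 1
    simp only [map_mul]
    rfl

@[simp] theorem qPrincipal_fst (r : ℚˣ) (q : Nat.Primes) :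
    (qPrincipal r : QIdeleProd).1 q = ratToPadic q r := rfl

@[simp] theorem qPrincipal_snd (r : ℚˣ) : (qPrincipal r : QIdeleProd).2 = ratToReal r := rfl

theorem fsPow_primeUnit_pos (f : Multiplicative (Nat.Primes →₀ ℤ)) :
    (0 : ℚ) < ((fsPow primeUnit f : ℚˣ) : ℚ) := by
  rw [← Units.mem_posSubgroup]
  apply fsPow_mem
  intro q _
  apply Subgroup.zpow_mem
  rw [Units.mem_posSubgroup, val_primeUnit]
  exact_mod_cast (pv_prime q).pos

theorem qContent_qPrincipal (r : ℚˣ) : qContent (qPrincipal r) = r := by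
  set c := qContent (qPrincipal r) with hc
  have hval : ∀ q : Nat.Primes, qVal q (ratToPadic q (r * c⁻¹)) = 1 := by
    intro q
    rw [map_mul, map_mul, map_inv, map_inv, hc, qVal_ratToPadic_qContent, qPrincipal_fst,
      mul_inv_cancel]
  have hpos : (0 : ℚ) < ((r * c⁻¹ : ℚˣ) : ℚ) := by
    rw [hc, qContent_apply, qPrincipal_snd]
    have h1 := fsPow_primeUnit_pos (qValFinsupp (qPrincipal r))
    set t := fsPow primeUnit (qValFinsupp (qPrincipal r)) with ht
    rcases lt_or_gt_of_ne r.ne_zero with hr | hr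
    · have hs : realSign (ratToReal r) = -1 := by
        have : ¬ (0 : ℝ) < ((ratToReal r : ℝˣ) : ℝ) := by
          rw [val_ratToReal]; exact not_lt.2 (by exact_mod_cast hr.le)
        show (if (0 : ℝ) < ((ratToReal r : ℝˣ) : ℝ) then (1 : ℤˣ) else -1) = -1
        rw [if_neg this]
      rw [hs]
      have h2 : ((intUnitsToRat (-1) : ℚˣ) : ℚ) = -1 := by simp [intUnitsToRat]
      rw [Units.val_mul, Units.val_inv_eq_inv_val, Units.val_mul, h2]
      have : (r : ℚ) * (-1 * (t : ℚ))⁻¹ = (-(r : ℚ)) * (t : ℚ)⁻¹ := by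
        field_simp
      rw [this]
      exact mul_pos (by linarith) (inv_pos.2 h1)
    · have hs : realSign (ratToReal r) = 1 := by
        apply realSign_of_pos
        rw [val_ratToReal]; exact_mod_cast hr
      rw [hs, map_one, one_mul, Units.val_mul, Units.val_inv_eq_inv_val]
      exact mul_pos hr (inv_pos.2 h1)
  have h1 : ((r * c⁻¹ : ℚˣ) : ℚ) = 1 := by
    apply rat_eq_one_of_padicValRat_eq_zero hpos
    intro q
    have := hval q
    rw [qVal_ratToPadic] at this
    exact this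
  have h2 : r * c⁻¹ = 1 := Units.ext h1
  exact (mul_inv_eq_one.1 h2).symm

theorem qUnitAt_qPrincipal (q : Nat.Primes) (r : ℚˣ) : qUnitAt q (qPrincipal r) = 1 := by
  apply Units.ext
  apply Subtype.ext
  show ((qUnitHom q (qPrincipal r) : ℚ_[pv q]ˣ) : ℚ_[pv q]) = 1
  rw [qUnitHom_apply, qContent_qPrincipal, qPrincipal_fst, mul_inv_cancel]
  rfl

theorem qUnit_qPrincipal (r : ℚˣ) : qUnit (qPrincipal r) = 1 := by
  apply Units.ext
  funext q
  rw [qUnit_apply, qUnitAt_qPrincipal]
  rfl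

/-- The cyclotomic character is trivial on principal ideles. -/
theorem qOmega_qPrincipal (m : ℕ) [NeZero m] (r : ℚˣ) : qOmega m (qPrincipal r) = 1 := by
  rw [qOmega_apply, qUnit_qPrincipal, map_one, inv_one]

end QPrincipal

/-! ### The explicit formula -/

section Explicit

variable (m : ℕ) [NeZero m]

/-- The residue of a prime modulo `m` as a unit (by convention `1` if the prime divides `m`). -/
noncomputable def primeRes (q : Nat.Primes) : (ZMod m)ˣ :=
  if h : (pv q).Coprime m then ZMod.unitOfCoprime (pv q) h else 1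

theorem primeRes_of_dvd {q : Nat.Primes} (h : pv q ∣ m) : primeRes m q = 1 := by
  rw [primeRes, dif_neg]
  rw [(pv_prime q).coprime_iff_not_dvd]
  exact not_not.2 h

theorem primeRes_of_not_dvd {q : Nat.Primes} (h : ¬ pv q ∣ m) :
    ((primeRes m q : (ZMod m)ˣ) : ZMod m) = (pv q : ZMod m) := by
  rw [primeRes, dif_pos ((pv_prime q).coprime_iff_not_dvd.2 h)]
  rfl

/-- Forget the exponents at the primes dividing `m`. -/
noncomputable def awayPart :
    Multiplicative (Nat.Primes →₀ ℤ) →* Multiplicative (Nat.Primes →₀ ℤ) := by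
  classical
  exact AddMonoidHom.toMultiplicative (Finsupp.filterAddHom (fun q : Nat.Primes => ¬ pv q ∣ m))

theorem toAdd_awayPart (f : Multiplicative (Nat.Primes →₀ ℤ)) (q : Nat.Primes) :
    Multiplicative.toAdd (awayPart m f) q = if pv q ∣ m then 0 else Multiplicative.toAdd f q := by
  classical
  show (Finsupp.filter (fun q : Nat.Primes => ¬ pv q ∣ m) (Multiplicative.toAdd f)) q = _
  rw [Finsupp.filter_apply]
  by_cases h : pv q ∣ m
  · rw [if_pos h, if_neg (not_not.2 h)]
  · rw [if_neg h, if_pos h]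

theorem awayPart_eq_self {f : Multiplicative (Nat.Primes →₀ ℤ)}
    (h : ∀ q : Nat.Primes, pv q ∣ m → Multiplicative.toAdd f q = 0) : awayPart m f = f := by
  apply Multiplicative.toAdd.injective
  ext q
  rw [toAdd_awayPart]
  by_cases hq : pv q ∣ m
  · rw [if_pos hq, h q hq]
  · rw [if_neg hq]

theorem norm_ratToPadic_fsPow_awayPart {q : Nat.Primes} (h : pv q ∣ m)
    (f : Multiplicative (Nat.Primes →₀ ℤ)) :
    ‖((((ratToPadic q).comp ((fsPow primeUnit).comp (awayPart m))) f : ℚ_[pv q]ˣ) : ℚ_[pv q])‖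
      = 1 := by
  rw [← qVal_eq_one_iff]
  have := DFunLike.congr_fun (qVal_ratToPadic_fsPow q) (awayPart m f)
  simp only [MonoidHom.comp_apply] at this ⊢
  rw [this, fsEval_apply, toAdd_awayPart, if_pos h]
  rfl

/-- The image of an exponent vector prime to `m` in `ℤ_qˣ`, for `q ∣ m` (and `1` for `q ∤ m`). -/
noncomputable def awayHom (q : Nat.Primes) : Multiplicative (Nat.Primes →₀ ℤ) →* ℤ_[pv q]ˣ :=
  if h : pv q ∣ m then
    unitsOfNormOne q ((ratToPadic q).comp ((fsPow primeUnit).comp (awayPart m)))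
      (norm_ratToPadic_fsPow_awayPart m h)
  else 1

theorem coe_awayHom_of_dvd {q : Nat.Primes} (h : pv q ∣ m)
    (f : Multiplicative (Nat.Primes →₀ ℤ)) :
    (((awayHom m q f : ℤ_[pv q]ˣ) : ℤ_[pv q]) : ℚ_[pv q]) =
      (((fsPow primeUnit (awayPart m f) : ℚˣ) : ℚ) : ℚ_[pv q]) := by
  rw [awayHom, dif_pos h]
  rfl

theorem awayHom_of_not_dvd {q : Nat.Primes} (h : ¬ pv q ∣ m)
    (f : Multiplicative (Nat.Primes →₀ ℤ)) : awayHom m q f = 1 := by
  rw [awayHom, dif_neg h]
  rfl

/-- The diagonal image in `(∏_q ℤ_q)ˣ` of the rational number attached to the prime-to-`m` part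
of an exponent vector (at the primes dividing `m`; `1` elsewhere). -/
noncomputable def awayUnits : Multiplicative (Nat.Primes →₀ ℤ) →* (∀ q : Nat.Primes, ℤ_[pv q])ˣ :=
  (MulEquiv.piUnits (M := fun q : Nat.Primes => ℤ_[pv q])).symm.toMonoidHom.comp
    (MonoidHom.pi (awayHom m))

theorem awayUnits_apply (f : Multiplicative (Nat.Primes →₀ ℤ)) (q : Nat.Primes) :
    ((awayUnits m f : (∀ q : Nat.Primes, ℤ_[pv q])ˣ) : ∀ q : Nat.Primes, ℤ_[pv q]) q =
      (awayHom m q f : ℤ_[pv q]) := rfl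

theorem natCast_isUnit_of_not_dvd {q : Nat.Primes} (h : ¬ pv q ∣ m) :
    IsUnit (m : ℤ_[pv q]) := by
  rw [PadicInt.isUnit_iff, PadicInt.norm_natCast_eq_one_iff]
  exact (pv_prime q).coprime_iff_not_dvd.2 h

theorem zhatRes_awayUnits :
    (Units.map ((zhatRes m : (∀ q : Nat.Primes, ℤ_[pv q]) →+* ZMod m) :
      (∀ q : Nat.Primes, ℤ_[pv q]) →* ZMod m)).comp (awayUnits m) = fsPow (primeRes m) := by
  apply fs_hom_ext
  intro q'
  rw [fsPow_single, zpow_one, MonoidHom.comp_apply]
  apply Units.ext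
  rw [Units.coe_map]
  show zhatRes m ((awayUnits m (Multiplicative.ofAdd (Finsupp.single q' 1)) :
      (∀ q : Nat.Primes, ℤ_[pv q])ˣ) : ∀ q : Nat.Primes, ℤ_[pv q]) = _
  by_cases hq' : pv q' ∣ m
  · rw [primeRes_of_dvd m hq']
    have h1 : awayPart m (Multiplicative.ofAdd (Finsupp.single q' 1)) = 1 := by
      apply Multiplicative.toAdd.injective
      ext q
      rw [toAdd_awayPart, toAdd_ofAdd, Finsupp.single_apply]
      by_cases h : pv q ∣ m
      · rw [if_pos h]; rfl
      · rw [if_neg h]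
        have : q' ≠ q := by rintro rfl; exact h hq'
        rw [if_neg this]; rfl
    have h2 : ((awayUnits m (Multiplicative.ofAdd (Finsupp.single q' 1)) :
        (∀ q : Nat.Primes, ℤ_[pv q])ˣ) : ∀ q : Nat.Primes, ℤ_[pv q]) = 1 := by
      funext q
      rw [awayUnits_apply]
      by_cases h : pv q ∣ m
      · apply Subtype.ext
        rw [coe_awayHom_of_dvd m h, h1, map_one]
        simp
      · rw [awayHom_of_not_dvd m h]; rfl
    rw [h2, map_one]
    rfl
  · rw [primeRes_of_not_dvd m hq']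
    have h1 : awayPart m (Multiplicative.ofAdd (Finsupp.single q' 1)) =
        Multiplicative.ofAdd (Finsupp.single q' 1) := by
      apply awayPart_eq_self
      intro q hq
      rw [toAdd_ofAdd, Finsupp.single_apply, if_neg]
      rintro rfl; exact hq' hq
    have h2 : zhatRes m ((awayUnits m (Multiplicative.ofAdd (Finsupp.single q' 1)) :
        (∀ q : Nat.Primes, ℤ_[pv q])ˣ) : ∀ q : Nat.Primes, ℤ_[pv q]) = (((pv q' : ℕ) : ℤ) : ZMod m) := by
      apply zhatRes_eq_of_isResidue
      intro q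
      rw [awayUnits_apply]
      by_cases h : pv q ∣ m
      · have : ((awayHom m q (Multiplicative.ofAdd (Finsupp.single q' 1)) : ℤ_[pv q]ˣ) :
            ℤ_[pv q]) = (((pv q' : ℕ) : ℤ) : ℤ_[pv q]) := by
          apply Subtype.ext
          rw [coe_awayHom_of_dvd m h, h1, fsPow_single, zpow_one, val_primeUnit]
          simp
        rw [this, sub_self]
        exact dvd_zero _
      · exact (natCast_isUnit_of_not_dvd m h).dvd
    rw [h2]
    simp


theorem padicInt_dvd_of_norm_le {q : Nat.Primes} {a y : ℤ_[pv q]} (ha : a ≠ 0)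
    (h : ‖y‖ ≤ ‖a‖) : a ∣ y := by
  have ha' : (a : ℚ_[pv q]) ≠ 0 := by
    intro h0; apply ha; exact Subtype.ext h0
  have hn : ‖(y : ℚ_[pv q]) / (a : ℚ_[pv q])‖ ≤ 1 := by
    rw [norm_div]
    have hpos : 0 < ‖(a : ℚ_[pv q])‖ := norm_pos_iff.2 ha'
    rw [div_le_one hpos]
    exact h
  obtain ⟨z, hz⟩ : ∃ z : ℤ_[pv q], (z : ℚ_[pv q]) = (y : ℚ_[pv q]) / (a : ℚ_[pv q]) :=
    ⟨⟨_, hn⟩, rfl⟩
  refine ⟨z, ?_⟩
  apply PadicInt.ext
  rw [PadicInt.coe_mul, hz]
  field_simp

/-- **Explicit formula.** On a rational idele which is positive at infinity and congruent to `1`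
modulo `m` at the primes dividing `m`, the cyclotomic character is the class of the content,
i.e. `∏_{q ∤ m} (q mod m)^{v_q(x_q)}`. -/
theorem qOmega_eq_fsPow (x : QIdele) (hpos : 0 < ((x.1.2 : ℝˣ) : ℝ))
    (hx : ∀ q : Nat.Primes, pv q ∣ m →
      ‖((x.1.1 q : ℚ_[pv q]ˣ) : ℚ_[pv q]) - 1‖ ≤ ‖(m : ℚ_[pv q])‖) :
    qOmega m x = fsPow (primeRes m) (qValFinsupp x) := by
  have hm0 : m ≠ 0 := NeZero.ne m
  -- the components at the primes dividing `m` are units
  have hval : ∀ q : Nat.Primes, pv q ∣ m → Multiplicative.toAdd (qValFinsupp x) q = 0 := by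
    intro q hq
    rw [qValFinsupp_apply, ← norm_eq_one_iff_valuation_eq_zero q (Units.ne_zero _)]
    have h1 : ‖(m : ℚ_[pv q])‖ < 1 := by
      rw [Padic.norm_natCast_lt_one_iff]; exact hq
    have h2 : ‖((x.1.1 q : ℚ_[pv q]ˣ) : ℚ_[pv q]) - 1‖ < ‖(1 : ℚ_[pv q])‖ := by
      rw [norm_one]; exact lt_of_le_of_lt (hx q hq) h1
    rw [Padic.norm_eq_of_norm_sub_lt_right h2, norm_one]
  have haway : awayPart m (qValFinsupp x) = qValFinsupp x := awayPart_eq_self m hval
  have hres : zhatRes m (((qUnit x : (∀ q : Nat.Primes, ℤ_[pv q])ˣ) :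
      ∀ q : Nat.Primes, ℤ_[pv q]) * ((awayUnits m (qValFinsupp x) :
      (∀ q : Nat.Primes, ℤ_[pv q])ˣ) : ∀ q : Nat.Primes, ℤ_[pv q])) = ((1 : ℤ) : ZMod m) := by
    apply zhatRes_eq_of_isResidue
    intro q
    by_cases hq : pv q ∣ m
    · have hmq : (m : ℤ_[pv q]) ≠ 0 := by exact_mod_cast hm0
      apply padicInt_dvd_of_norm_le hmq
      rw [PadicInt.norm_def, PadicInt.norm_def]
      have h1 : (((m : ℤ_[pv q]) : ℤ_[pv q]) : ℚ_[pv q]) = (m : ℚ_[pv q]) := by simp
      rw [h1, ← norm_neg]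
      refine le_of_eq_of_le ?_ (hx q hq)
      congr 1
      rw [Pi.mul_apply, qUnit_apply, awayUnits_apply]
      push_cast
      rw [coe_awayHom_of_dvd m hq, haway]
      show -(1 - ((qUnitHom q x : ℚ_[pv q]ˣ) : ℚ_[pv q]) * _) = _
      rw [qUnitHom_apply, qContent_apply, realSign_of_pos hpos, map_one, one_mul]
      rw [Units.val_mul, Units.val_inv_eq_inv_val, val_ratToPadic]
      have hne : (((fsPow primeUnit (qValFinsupp x) : ℚˣ) : ℚ) : ℚ_[pv q]) ≠ 0 := by
        simp
      field_simp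
      ring
    · exact (natCast_isUnit_of_not_dvd m hq).dvd
  rw [map_mul] at hres
  have h3 : Units.map ((zhatRes m : (∀ q : Nat.Primes, ℤ_[pv q]) →+* ZMod m) :
      (∀ q : Nat.Primes, ℤ_[pv q]) →* ZMod m) (qUnit x) *
      Units.map ((zhatRes m : (∀ q : Nat.Primes, ℤ_[pv q]) →+* ZMod m) :
      (∀ q : Nat.Primes, ℤ_[pv q]) →* ZMod m) (awayUnits m (qValFinsupp x)) = 1 := by
    apply Units.ext
    rw [Units.val_mul, Units.coe_map, Units.coe_map]
    simpa using hres
  rw [qOmega_apply, ← zhatRes_awayUnits, MonoidHom.comp_apply]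
  exact inv_eq_of_mul_eq_one_right h3

end Explicit

end Fermat.Agent.Lib.CFT.Global.ArtinCyc
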