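/-
helper70 (P-CFT, WP Global/ArtinCyclotomic, part 1: local norms and the cyclotomic character).

For a number field `K` (in `Type`), with the ideles of `Global/Ideles`:
* `locBasis K q`, `mem_locInt_iff` : `locInt K q` is the `ℤ_q`-lattice spanned by an integral basis;
* `locNorm K q : (ℚ_q ⊗ K)ˣ →* ℚ_qˣ`, `archNorm K : (ℝ ⊗ K)ˣ →* ℝˣ`, `locNorm_locUnit`,
  `norm_norm_eq_one_of_mem_locIntUnits`, `norm_norm_one_add_smul_sub_one_le`;
* `ideleNormQ K : Idele K →* QIdele`, `ideleNormQ_principal`;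
* `omega K m : Idele K →* (ZMod m)ˣ` := `qOmega m ∘ ideleNormQ K`, the cyclotomic character
  (= Artin map of `K(ζ_m)/K` under `Gal ⊆ (ℤ/m)ˣ`), with `omega_principal`, `omegaClass`,
  `omega_smul` (invariance under automorphisms), `omega_comp_norm` (base change / transitivity).
-/
import Mathlib
import Fermat.Agent.Lib.CFT.Global.ArtinCyclotomicQ
set_option autoImplicit false
set_option linter.unusedSectionVars false

open scoped TensorProduct NumberField

namespace Fermat.Agent.Lib.CFT.Global.ArtinCyc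

open Fermat.Agent.Lib.CFT.Global Module

/-- The norm of `1 ⊗ x` in a base change is the image of the norm of `x`. -/
theorem norm_one_tmul {R A B : Type*} [CommRing R] [CommRing A] [Algebra R A] [Ring B]
    [Algebra R B] [Module.Free R B] [Module.Finite R B] (x : B) :
    Algebra.norm A ((1 : A) ⊗ₜ[R] x) = algebraMap R A (Algebra.norm R x) := by
  rw [Algebra.norm_apply, Algebra.norm_apply, ← Algebra.baseChange_lmul, LinearMap.det_baseChange]

section LocBasis

variable (K : Type) [Field K] [NumberField K] (q : Nat.Primes)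

/-- The `ℚ_q`-basis of `ℚ_q ⊗ K` given by an integral basis of `K`. -/
noncomputable def locBasis :
    Basis (Free.ChooseBasisIndex ℤ (𝓞 K)) ℚ_[pv q] (LocAlg K q) :=
  Algebra.TensorProduct.basis ℚ_[pv q] (NumberField.integralBasis K)

theorem locBasis_apply (i : Free.ChooseBasisIndex ℤ (𝓞 K)) :
    locBasis K q i = (1 : ℚ_[pv q]) ⊗ₜ[ℚ] ((NumberField.RingOfIntegers.basis K i : 𝓞 K) : K) := by
  rw [locBasis, Algebra.TensorProduct.basis_apply, NumberField.integralBasis_apply]

/-- The `ℤ_q`-lattice spanned by the integral basis. -/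
noncomputable def locLattice : Submodule ℤ_[pv q] (LocAlg K q) :=
  Submodule.span ℤ_[pv q] (Set.range (locBasis K q))

theorem padicInt_smul_eq (c : ℤ_[pv q]) (x : LocAlg K q) : c • x = (c : ℚ_[pv q]) • x := by
  rw [← PadicInt.algebraMap_apply, algebraMap_smul]

theorem one_tmul_mem_locLattice (a : 𝓞 K) :
    ((1 : ℚ_[pv q]) ⊗ₜ[ℚ] (a : K) : LocAlg K q) ∈ locLattice K q := by
  have h := (NumberField.RingOfIntegers.basis K).sum_repr a
  have h2 : (a : K) = ∑ i, ((NumberField.RingOfIntegers.basis K).repr a i) •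
      ((NumberField.RingOfIntegers.basis K i : 𝓞 K) : K) := by
    have h' := congrArg (algebraMap (𝓞 K) K) h
    rw [map_sum] at h'
    rw [NumberField.RingOfIntegers.coe_eq_algebraMap, ← h']
    refine Finset.sum_congr rfl fun i _ => ?_
    rw [map_zsmul]
  rw [h2, TensorProduct.tmul_sum]
  refine Submodule.sum_mem _ fun i _ => ?_
  have h3 : ((1 : ℚ_[pv q]) ⊗ₜ[ℚ] (((NumberField.RingOfIntegers.basis K).repr a i) •
      ((NumberField.RingOfIntegers.basis K i : 𝓞 K) : K)) : LocAlg K q) =
      (((NumberField.RingOfIntegers.basis K).repr a i : ℤ) : ℤ_[pv q]) • locBasis K q i := by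
    rw [Int.cast_smul_eq_zsmul, locBasis_apply, TensorProduct.tmul_smul]
  rw [h3]
  exact Submodule.smul_mem _ _ (Submodule.subset_span ⟨i, rfl⟩)

theorem locLattice_mul_mem {x y : LocAlg K q} (hx : x ∈ locLattice K q)
    (hy : y ∈ locLattice K q) : x * y ∈ locLattice K q := by
  have hle : locLattice K q * locLattice K q ≤ locLattice K q := by
    rw [locLattice, Submodule.span_mul_span, Submodule.span_le]
    rintro _ ⟨_, ⟨i, rfl⟩, _, ⟨j, rfl⟩, rfl⟩
    show locBasis K q i * locBasis K q j ∈ Submodule.span ℤ_[pv q] (Set.range (locBasis K q))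
    rw [locBasis_apply, locBasis_apply, Algebra.TensorProduct.tmul_mul_tmul, one_mul]
    have := one_tmul_mem_locLattice K q
      (NumberField.RingOfIntegers.basis K i * NumberField.RingOfIntegers.basis K j)
    rw [NumberField.RingOfIntegers.coe_eq_algebraMap, map_mul] at this
    exact this
  exact hle (Submodule.mul_mem_mul hx hy)

theorem locInt_toSubmodule :
    Subalgebra.toSubmodule (locInt K q) = locLattice K q := by
  apply le_antisymm
  · intro x hx
    rw [Subalgebra.mem_toSubmodule, locInt] at hx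
    induction hx using Algebra.adjoin_induction with
    | mem x hx =>
      obtain ⟨a, rfl⟩ := hx
      exact one_tmul_mem_locLattice K q a
    | algebraMap c =>
      rw [Algebra.algebraMap_eq_smul_one]
      refine Submodule.smul_mem _ _ ?_
      have := one_tmul_mem_locLattice K q 1
      simpa [Algebra.TensorProduct.one_def] using this
    | add x y _ _ hx hy => exact Submodule.add_mem _ hx hy
    | mul x y _ _ hx hy => exact locLattice_mul_mem K q hx hy
  · rw [locLattice, Submodule.span_le]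
    rintro _ ⟨i, rfl⟩
    rw [SetLike.mem_coe, Subalgebra.mem_toSubmodule, locBasis_apply]
    exact one_tmul_mem_locInt K q _

theorem mem_locInt_iff_mem_locLattice (x : LocAlg K q) :
    x ∈ locInt K q ↔ x ∈ locLattice K q := by
  rw [← locInt_toSubmodule, Subalgebra.mem_toSubmodule]

theorem mem_locLattice_iff (x : LocAlg K q) :
    x ∈ locLattice K q ↔ ∀ i, ‖(locBasis K q).repr x i‖ ≤ 1 := by
  constructor
  · intro hx
    rw [locLattice, Submodule.mem_span_range_iff_exists_fun] at hx
    obtain ⟨c, rfl⟩ := hx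
    intro i
    have : ∑ j, c j • locBasis K q j = ∑ j, (c j : ℚ_[pv q]) • locBasis K q j :=
      Finset.sum_congr rfl fun j _ => padicInt_smul_eq K q _ _
    rw [this, Basis.repr_sum_self]
    exact (c i).2
  · intro h
    rw [← (locBasis K q).sum_repr x]
    refine Submodule.sum_mem _ fun i _ => ?_
    obtain ⟨z, hz⟩ : ∃ z : ℤ_[pv q], (z : ℚ_[pv q]) = (locBasis K q).repr x i := ⟨⟨_, h i⟩, rfl⟩
    rw [← hz, ← padicInt_smul_eq]
    exact Submodule.smul_mem _ _ (Submodule.subset_span ⟨i, rfl⟩)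

theorem mem_locInt_iff (x : LocAlg K q) :
    x ∈ locInt K q ↔ ∀ i, ‖(locBasis K q).repr x i‖ ≤ 1 := by
  rw [mem_locInt_iff_mem_locLattice, mem_locLattice_iff]


theorem locBasis_mem_locInt (i : Free.ChooseBasisIndex ℤ (𝓞 K)) :
    locBasis K q i ∈ locInt K q := by
  rw [locBasis_apply]
  exact one_tmul_mem_locInt K q _

/-- Multiplication by an element of `locInt` has an integral matrix in the integral basis. -/
theorem exists_matrix_of_mem_locInt {x : LocAlg K q} (hx : x ∈ locInt K q) :
    ∃ M : Matrix (Free.ChooseBasisIndex ℤ (𝓞 K)) (Free.ChooseBasisIndex ℤ (𝓞 K)) ℤ_[pv q],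
      Algebra.leftMulMatrix (locBasis K q) x = M.map (PadicInt.Coe.ringHom) := by
  have h : ∀ i j, ‖Algebra.leftMulMatrix (locBasis K q) x i j‖ ≤ 1 := by
    intro i j
    rw [Algebra.leftMulMatrix_eq_repr_mul]
    exact (mem_locInt_iff K q _).1 (mul_mem hx (locBasis_mem_locInt K q j)) i
  refine ⟨fun i j => (⟨_, h i j⟩ : ℤ_[pv q]), ?_⟩
  ext i j
  rfl

theorem exists_matrix_norm_of_mem_locInt {x : LocAlg K q} (hx : x ∈ locInt K q) :
    ∃ M : Matrix (Free.ChooseBasisIndex ℤ (𝓞 K)) (Free.ChooseBasisIndex ℤ (𝓞 K)) ℤ_[pv q],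
      Algebra.leftMulMatrix (locBasis K q) x = M.map (PadicInt.Coe.ringHom) ∧
      Algebra.norm ℚ_[pv q] x = ((M.det : ℤ_[pv q]) : ℚ_[pv q]) := by
  obtain ⟨M, hM⟩ := exists_matrix_of_mem_locInt K q hx
  refine ⟨M, hM, ?_⟩
  rw [Algebra.norm_eq_matrix_det (locBasis K q), hM, ← RingHom.mapMatrix_apply,
    ← RingHom.map_det]
  rfl

/-- The norm of an element of `locInt` is a `q`-adic integer. -/
theorem norm_norm_le_one_of_mem_locInt {x : LocAlg K q} (hx : x ∈ locInt K q) :
    ‖Algebra.norm ℚ_[pv q] x‖ ≤ 1 := by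
  obtain ⟨M, -, hM⟩ := exists_matrix_norm_of_mem_locInt K q hx
  rw [hM]
  exact (M.det).2

/-- The norm of an integral unit is a `q`-adic unit. -/
theorem norm_norm_eq_one_of_mem_locIntUnits {u : (LocAlg K q)ˣ} (hu : u ∈ locIntUnits K q) :
    ‖Algebra.norm ℚ_[pv q] (u : LocAlg K q)‖ = 1 := by
  have h1 := norm_norm_le_one_of_mem_locInt K q hu.1
  have h2 := norm_norm_le_one_of_mem_locInt K q hu.2
  have h3 : ‖Algebra.norm ℚ_[pv q] (u : LocAlg K q)‖ *
      ‖Algebra.norm ℚ_[pv q] ((u⁻¹ : (LocAlg K q)ˣ) : LocAlg K q)‖ = 1 := by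
    rw [← norm_mul, ← map_mul, Units.mul_inv, map_one, norm_one]
  refine le_antisymm h1 ?_
  calc (1 : ℝ) = ‖Algebra.norm ℚ_[pv q] (u : LocAlg K q)‖ *
      ‖Algebra.norm ℚ_[pv q] ((u⁻¹ : (LocAlg K q)ˣ) : LocAlg K q)‖ := h3.symm
    _ ≤ ‖Algebra.norm ℚ_[pv q] (u : LocAlg K q)‖ * 1 :=
        mul_le_mul_of_nonneg_left h2 (norm_nonneg _)
    _ = _ := mul_one _

/-- The norm of `1 + a x`, `x` integral, is congruent to `1` modulo `a`. -/
theorem norm_norm_one_add_smul_sub_one_le (a : ℤ_[pv q]) {x : LocAlg K q}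
    (hx : x ∈ locInt K q) :
    ‖Algebra.norm ℚ_[pv q] (1 + a • x) - 1‖ ≤ ‖a‖ := by
  obtain ⟨M, hM⟩ := exists_matrix_of_mem_locInt K q hx
  have h1 : Algebra.leftMulMatrix (locBasis K q) (1 + a • x) =
      (1 + a • M).map (PadicInt.Coe.ringHom) := by
    rw [padicInt_smul_eq, map_add, map_one, map_smul, hM]
    ext i j
    simp only [Matrix.add_apply, Matrix.smul_apply, Matrix.map_apply, Matrix.one_apply, smul_eq_mul,
      map_add, map_mul]
    congr 1
    split_ifs <;> simp
  rw [Algebra.norm_eq_matrix_det (locBasis K q), h1, ← RingHom.mapMatrix_apply,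
    ← RingHom.map_det, Matrix.det_one_add_smul]
  set t := M.trace
  set r := (Polynomial.eval a (Matrix.det (1 + (Polynomial.X : Polynomial ℤ_[pv q]) •
    M.map Polynomial.C)).divX.divX)
  have h2 : (1 + t * a + r * a ^ 2 : ℤ_[pv q]) = 1 + a * (t + r * a) := by ring
  rw [h2, map_add, map_one, add_sub_cancel_left]
  show ‖((a * (t + r * a) : ℤ_[pv q]) : ℚ_[pv q])‖ ≤ ‖a‖
  rw [← PadicInt.norm_def, norm_mul]
  calc ‖a‖ * ‖t + r * a‖ ≤ ‖a‖ * 1 := mul_le_mul_of_nonneg_left (PadicInt.norm_le_one _)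
        (norm_nonneg _)
    _ = ‖a‖ := mul_one _

end LocBasis

section Omega

variable (K : Type) [Field K] [NumberField K]

/-- The local norm `(ℚ_q ⊗ K)ˣ → ℚ_qˣ`. -/
noncomputable def locNorm (q : Nat.Primes) : (LocAlg K q)ˣ →* ℚ_[pv q]ˣ :=
  Units.map (Algebra.norm ℚ_[pv q] : LocAlg K q →* ℚ_[pv q])

/-- The archimedean norm `(ℝ ⊗ K)ˣ → ℝˣ`. -/
noncomputable def archNorm : (ArchAlg K)ˣ →* ℝˣ :=
  Units.map (Algebra.norm ℝ : ArchAlg K →* ℝ)

@[simp] theorem val_locNorm (q : Nat.Primes) (u : (LocAlg K q)ˣ) :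
    ((locNorm K q u : ℚ_[pv q]ˣ) : ℚ_[pv q]) = Algebra.norm ℚ_[pv q] (u : LocAlg K q) := rfl

@[simp] theorem val_archNorm (u : (ArchAlg K)ˣ) :
    ((archNorm K u : ℝˣ) : ℝ) = Algebra.norm ℝ (u : ArchAlg K) := rfl

/-- The norm `Kˣ → ℚˣ`. -/
noncomputable def fieldNorm : Kˣ →* ℚˣ := Units.map (Algebra.norm ℚ : K →* ℚ)

@[simp] theorem val_fieldNorm (x : Kˣ) : ((fieldNorm K x : ℚˣ) : ℚ) = Algebra.norm ℚ (x : K) := rfl

theorem locNorm_locUnit (q : Nat.Primes) (x : Kˣ) :
    locNorm K q (locUnit K q x) = ratToPadic q (fieldNorm K x) := by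
  apply Units.ext
  rw [val_locNorm, val_locUnit, norm_one_tmul, val_ratToPadic, val_fieldNorm, eq_ratCast]

theorem archNorm_archUnit (x : Kˣ) :
    archNorm K (archUnit K x) = ratToReal (fieldNorm K x) := by
  apply Units.ext
  rw [val_archNorm, val_archUnit, norm_one_tmul, val_ratToReal, val_fieldNorm, eq_ratCast]

theorem qVal_locNorm_of_mem_locIntUnits (q : Nat.Primes) {u : (LocAlg K q)ˣ}
    (hu : u ∈ locIntUnits K q) : qVal q (locNorm K q u) = 1 := by
  rw [qVal_eq_one_iff, val_locNorm]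
  exact norm_norm_eq_one_of_mem_locIntUnits K q hu

/-- The idele norm from `K` to `ℚ`. -/
noncomputable def ideleNormQ : Idele K →* QIdele where
  toFun a := ⟨(fun q => locNorm K q (a.1.1 q), archNorm K a.1.2), by
    refine Set.Finite.subset a.2 ?_
    intro q hq h
    exact hq (qVal_locNorm_of_mem_locIntUnits K q h)⟩
  map_one' := by
    apply Subtype.ext
    ext : 1
    · funext q
      show locNorm K q 1 = 1
      rw [map_one]
    · show archNorm K 1 = 1
      rw [map_one]
  map_mul' a b := by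
    apply Subtype.ext
    ext : 1
    · funext q
      show locNorm K q (a.1.1 q * b.1.1 q) = locNorm K q (a.1.1 q) * locNorm K q (b.1.1 q)
      rw [map_mul]
    · show archNorm K (a.1.2 * b.1.2) = archNorm K a.1.2 * archNorm K b.1.2
      rw [map_mul]

@[simp] theorem ideleNormQ_fst (a : Idele K) (q : Nat.Primes) :
    (ideleNormQ K a : QIdeleProd).1 q = locNorm K q (a.1.1 q) := rfl

@[simp] theorem ideleNormQ_snd (a : Idele K) :
    (ideleNormQ K a : QIdeleProd).2 = archNorm K a.1.2 := rfl

theorem ideleNormQ_principal (x : Kˣ) :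
    ideleNormQ K (principal K x) = qPrincipal (fieldNorm K x) := by
  apply Subtype.ext
  ext : 1
  · funext q
    rw [ideleNormQ_fst, qPrincipal_fst, principal_fst, locNorm_locUnit]
  · rw [ideleNormQ_snd, qPrincipal_snd, principal_snd, archNorm_archUnit]

variable (m : ℕ) [NeZero m]

/-- **The cyclotomic character of the idele group of `K`** with values in `(ℤ/m)ˣ`: the cyclotomic
character of `ℚ` composed with the idele norm. Under `Gal(K(ζ_m)/K) ⊆ (ℤ/m)ˣ` this is the Artin
map of `K(ζ_m)/K`. -/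
noncomputable def omega : Idele K →* (ZMod m)ˣ := (qOmega m).comp (ideleNormQ K)

theorem omega_apply (a : Idele K) : omega K m a = qOmega m (ideleNormQ K a) := rfl

/-- The cyclotomic character is trivial on principal ideles. -/
theorem omega_principal (x : Kˣ) : omega K m (principal K x) = 1 := by
  rw [omega_apply, ideleNormQ_principal, qOmega_qPrincipal]

/-- The cyclotomic character on the idele class group. -/
noncomputable def omegaClass : IdeleClass K →* (ZMod m)ˣ :=
  QuotientGroup.lift (principal K).range (omega K m) (by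
    rintro _ ⟨x, rfl⟩
    exact omega_principal K m x)

@[simp] theorem omegaClass_mk (a : Idele K) :
    omegaClass K m (QuotientGroup.mk a) = omega K m a := rfl

section Action

variable (G : Type) [Group G] [MulSemiringAction G K]

theorem norm_smul_locAlg (q : Nat.Primes) (g : G) (x : LocAlg K q) :
    Algebra.norm ℚ_[pv q] (g • x) = Algebra.norm ℚ_[pv q] x := by
  let e : LocAlg K q ≃ₐ[ℚ_[pv q]] LocAlg K q :=
    AlgEquiv.ofAlgHom (locMap (MulSemiringAction.toRingHom G K g) q)
      (locMap (MulSemiringAction.toRingHom G K g⁻¹) q)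
      (AlgHom.ext fun x => smul_inv_smul g x) (AlgHom.ext fun x => inv_smul_smul g x)
  exact Algebra.norm_eq_of_algEquiv e x

theorem norm_smul_archAlg (g : G) (x : ArchAlg K) :
    Algebra.norm ℝ (g • x) = Algebra.norm ℝ x := by
  let e : ArchAlg K ≃ₐ[ℝ] ArchAlg K :=
    AlgEquiv.ofAlgHom (archMap (MulSemiringAction.toRingHom G K g))
      (archMap (MulSemiringAction.toRingHom G K g⁻¹))
      (AlgHom.ext fun x => smul_inv_smul g x) (AlgHom.ext fun x => inv_smul_smul g x)
  exact Algebra.norm_eq_of_algEquiv e x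

theorem locNorm_smul (q : Nat.Primes) (g : G) (u : (LocAlg K q)ˣ) :
    locNorm K q (g • u) = locNorm K q u := by
  apply Units.ext
  rw [val_locNorm, val_locNorm, val_smul_locAlgUnits, norm_smul_locAlg]

theorem archNorm_smul (g : G) (u : (ArchAlg K)ˣ) : archNorm K (g • u) = archNorm K u := by
  apply Units.ext
  rw [val_archNorm, val_archNorm, val_smul_archAlgUnits, norm_smul_archAlg]

theorem ideleNormQ_smul (g : G) (a : Idele K) : ideleNormQ K (g • a) = ideleNormQ K a := by
  apply Subtype.ext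
  ext : 1
  · funext q
    rw [ideleNormQ_fst, ideleNormQ_fst, coe_smul_idele, smul_ideleProd_fst, locNorm_smul]
  · rw [ideleNormQ_snd, ideleNormQ_snd, coe_smul_idele, smul_ideleProd_snd, archNorm_smul]

/-- The cyclotomic character is invariant under automorphisms of `K`. -/
theorem omega_smul (g : G) (a : Idele K) : omega K m (g • a) = omega K m a := by
  rw [omega_apply, omega_apply, ideleNormQ_smul]

end Action

/-- Compatibility with any idele norm map which is compatible with the local norms to `ℚ_q`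
and `ℝ` (base change / transitivity). -/
theorem omega_comp_norm {L : Type} [Field L] [NumberField L] (N : Idele L →* Idele K)
    (hN : ∀ (b : Idele L) (q : Nat.Primes), locNorm K q ((N b).1.1 q) = locNorm L q (b.1.1 q))
    (hN' : ∀ b : Idele L, archNorm K (N b).1.2 = archNorm L b.1.2) (b : Idele L) :
    omega K m (N b) = omega L m b := by
  rw [omega_apply, omega_apply]
  congr 1
  apply Subtype.ext
  ext : 1
  · funext q
    rw [ideleNormQ_fst, ideleNormQ_fst, hN]
  · rw [ideleNormQ_snd, ideleNormQ_snd, hN']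

end Omega

end Fermat.Agent.Lib.CFT.Global.ArtinCyc
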