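import Fermat.Agent.Lib.CFT.Global.TensorExt

/-!
# Base change `F ⊗[ℚ] K → F ⊗[ℚ] L`, part 2: towers, Galois extensions (helper96, P-CFT WP 207)

* scalar towers `F → F ⊗ K → F ⊗ L` and `F ⊗ K → F ⊗ L → F ⊗ M`;
* automorphisms of `L / K` act on `F ⊗ L` by `F ⊗ K`-algebra automorphisms and preserve norms;
* for Galois `L / K`: the norm is the product of the conjugates, and the invariants of `F ⊗ L`
  are exactly the image of `F ⊗ K`.
-/

open scoped TensorProduct

noncomputable section

namespace Fermat.Agent.Lib.CFT.Global.TensorExt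

variable (F : Type) [CommRing F] [Algebra ℚ F]
variable {K L M : Type} [Field K] [CharZero K] [Field L] [CharZero L] [Field M] [CharZero M]

attribute [local instance] tAlgebra

section Towers

variable [Algebra K L]

instance instTowerBase : IsScalarTower F (F ⊗[ℚ] K) (F ⊗[ℚ] L) :=
  IsScalarTower.of_algebraMap_eq (fun x => by
    rw [algebraMap_eq_tmap, Algebra.TensorProduct.algebraMap_apply,
      Algebra.TensorProduct.algebraMap_apply, tmap_tmul, map_one])

variable [Algebra L M] [Algebra K M] [IsScalarTower K L M]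

instance instTower : IsScalarTower (F ⊗[ℚ] K) (F ⊗[ℚ] L) (F ⊗[ℚ] M) :=
  IsScalarTower.of_algebraMap_eq (fun x => by
    rw [algebraMap_eq_tmap, algebraMap_eq_tmap, algebraMap_eq_tmap, ← tmap_comp,
      ← IsScalarTower.algebraMap_eq])

end Towers

section Aut

variable [Algebra K L]

/-- An automorphism of `L / K` acts on `F ⊗ L` as an `F ⊗ K`-algebra automorphism. -/
def tAut (g : L ≃ₐ[K] L) : (F ⊗[ℚ] L) ≃ₐ[F ⊗[ℚ] K] (F ⊗[ℚ] L) :=
  AlgEquiv.ofAlgHom
    { (tmap F (g : L →+* L)).toRingHom with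
      commutes' := fun c => by
        change tmap F (g : L →+* L) (tmap F (algebraMap K L) c) = tmap F (algebraMap K L) c
        rw [← tmap_comp]
        congr 1
        ext x
        simp }
    { (tmap F ((g.symm : L ≃ₐ[K] L) : L →+* L)).toRingHom with
      commutes' := fun c => by
        change tmap F ((g.symm : L ≃ₐ[K] L) : L →+* L) (tmap F (algebraMap K L) c) =
          tmap F (algebraMap K L) c
        rw [← tmap_comp]
        congr 1
        ext x
        simp }
    (by
      ext y
      change tmap F (g : L →+* L) (tmap F ((g.symm : L ≃ₐ[K] L) : L →+* L) y) = y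
      rw [← tmap_comp]
      have : ((g : L →+* L)).comp ((g.symm : L ≃ₐ[K] L) : L →+* L) = RingHom.id L := by
        ext x; simp
      rw [this, tmap_id])
    (by
      ext y
      change tmap F ((g.symm : L ≃ₐ[K] L) : L →+* L) (tmap F (g : L →+* L) y) = y
      rw [← tmap_comp]
      have : (((g.symm : L ≃ₐ[K] L) : L →+* L)).comp (g : L →+* L) = RingHom.id L := by
        ext x; simp
      rw [this, tmap_id])

@[simp] lemma tAut_apply (g : L ≃ₐ[K] L) (y : F ⊗[ℚ] L) : tAut F g y = tmap F (g : L →+* L) y := rfl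

/-- Conjugate elements have the same norm. -/
lemma norm_tmap_algEquiv (g : L ≃ₐ[K] L) (y : F ⊗[ℚ] L) :
    Algebra.norm (F ⊗[ℚ] K) (tmap F (g : L →+* L) y) = Algebra.norm (F ⊗[ℚ] K) y := by
  rw [← tAut_apply, Algebra.norm_eq_of_algEquiv]

end Aut

section Galois

variable [Algebra K L] [FiniteDimensional K L]

variable {ι : Type} [Fintype ι] [DecidableEq ι]

/-- The generic multiplication matrix `∑ Xᵢ • M(bᵢ)`. -/
def genMatrix (b : Module.Basis ι K L) : Matrix ι ι (MvPolynomial ι K) :=
  ∑ i : ι, (MvPolynomial.X i : MvPolynomial ι K) •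
    (Algebra.leftMulMatrix b (b i)).map (MvPolynomial.C : K →+* MvPolynomial ι K)

/-- The generic norm polynomial. -/
def genNorm (b : Module.Basis ι K L) : MvPolynomial ι K := (genMatrix b).det

/-- The generic product of conjugates. -/
def genProd (b : Module.Basis ι K L) : MvPolynomial ι L :=
  ∏ g : L ≃ₐ[K] L, ∑ i : ι, (MvPolynomial.X i : MvPolynomial ι L) * MvPolynomial.C (g (b i))

lemma leftMulMatrix_sum_smul {R S : Type} [CommRing R] [CommRing S] [Algebra R S]
    (b : Module.Basis ι R S) (c : ι → R) :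
    Algebra.leftMulMatrix b (∑ i, c i • b i) = ∑ i, c i • Algebra.leftMulMatrix b (b i) := by
  rw [map_sum]
  refine Finset.sum_congr rfl (fun i _ => ?_)
  rw [map_smul]

omit [CharZero K] [CharZero L] [FiniteDimensional K L] in
/-- Specialising the generic norm polynomial along a ring homomorphism. -/
lemma eval₂_genNorm (b : Module.Basis ι K L) {R : Type} [CommRing R] (φ : K →+* R)
    (a : ι → R) :
    MvPolynomial.eval₂Hom φ a (genNorm b) =
      (∑ i : ι, a i • (Algebra.leftMulMatrix b (b i)).map φ).det := by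
  rw [genNorm, RingHom.map_det]
  congr 1
  rw [genMatrix, map_sum]
  refine Finset.sum_congr rfl (fun i _ => ?_)
  ext j k
  simp [Matrix.map_apply, Matrix.smul_apply]

omit [CharZero K] [CharZero L] [FiniteDimensional K L] in
lemma eval_genNorm (b : Module.Basis ι K L) (c : ι → K) :
    MvPolynomial.eval c (genNorm b) = Algebra.norm K (∑ i, c i • b i) := by
  rw [Algebra.norm_eq_matrix_det b, leftMulMatrix_sum_smul]
  have := eval₂_genNorm b (RingHom.id K) c
  simpa using this

/-- The generic norm polynomial is the product of its generic conjugates. -/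
lemma map_genNorm [IsGalois K L] (b : Module.Basis ι K L) :
    MvPolynomial.map (algebraMap K L) (genNorm b) = genProd b := by
  refine MvPolynomial.funext_set (fun _ : ι => Set.range (algebraMap K L))
    (fun _ => Set.infinite_range_of_injective (algebraMap K L).injective) ?_
  intro x hx
  have hx' : ∀ i, ∃ c : K, algebraMap K L c = x i := fun i => hx i (Set.mem_univ i)
  choose c hc using hx'
  have hxc : x = fun i => algebraMap K L (c i) := funext (fun i => (hc i).symm)
  rw [MvPolynomial.eval_map, hxc]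
  have h1 : MvPolynomial.eval₂ (algebraMap K L) (fun i => algebraMap K L (c i)) (genNorm b) =
      algebraMap K L (MvPolynomial.eval c (genNorm b)) := by
    rw [MvPolynomial.eval₂_comp]
    rfl
  rw [h1, eval_genNorm, Algebra.norm_eq_prod_automorphisms, genProd, map_prod]
  refine Finset.prod_congr rfl (fun g _ => ?_)
  rw [map_sum, map_sum]
  refine Finset.sum_congr rfl (fun i _ => ?_)
  rw [Algebra.smul_def, map_mul, AlgEquiv.commutes]
  simp

omit [FiniteDimensional K L] in
/-- Expansion of an element of `F ⊗ L` in the basis `1 ⊗ bᵢ`. -/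
lemma sum_repr_tBasis (b : Module.Basis ι K L) (y : F ⊗[ℚ] L) :
    y = ∑ i, tmap F (algebraMap K L) ((tBasis F b).repr y i) * ((1 : F) ⊗ₜ[ℚ] b i) := by
  conv_lhs => rw [← (tBasis F b).sum_repr y]
  refine Finset.sum_congr rfl (fun i _ => ?_)
  rw [tsmul_def, tBasis_apply]

/-- For a Galois extension `L / K` the norm from `F ⊗ L` to `F ⊗ K` is the product of the
conjugates. -/
theorem tmap_norm_eq_prod [IsGalois K L] (y : F ⊗[ℚ] L) :
    tmap F (algebraMap K L) (Algebra.norm (F ⊗[ℚ] K) y) =
      ∏ g : L ≃ₐ[K] L, tmap F (g : L →+* L) y := by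
  classical
  set b := Module.finBasis K L with hb
  set a : Fin (Module.finrank K L) → F ⊗[ℚ] K := fun i => (tBasis F b).repr y i with ha
  have hy : y = ∑ i, a i • tBasis F b i := ((tBasis F b).sum_repr y).symm
  -- the norm as a specialisation of the generic norm
  have hnorm : Algebra.norm (F ⊗[ℚ] K) y =
      MvPolynomial.eval₂Hom
        ((Algebra.TensorProduct.includeRight : K →ₐ[ℚ] F ⊗[ℚ] K) : K →+* F ⊗[ℚ] K) a
        (genNorm b) := by
    rw [eval₂_genNorm, Algebra.norm_eq_matrix_det (tBasis F b)]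
    congr 1
    conv_lhs => rw [hy]
    rw [leftMulMatrix_sum_smul]
    refine Finset.sum_congr rfl (fun i _ => ?_)
    rw [tBasis_apply, leftMulMatrix_tBasis_one_tmul]
    rfl
  rw [hnorm]
  refine (MvPolynomial.map_eval₂Hom
    ((Algebra.TensorProduct.includeRight : K →ₐ[ℚ] F ⊗[ℚ] K) : K →+* F ⊗[ℚ] K) a
    ((tmap F (algebraMap K L)) : F ⊗[ℚ] K →+* F ⊗[ℚ] L) (genNorm b)).trans ?_
  have hcomp : ((tmap F (algebraMap K L)).toRingHom).comp
      ((Algebra.TensorProduct.includeRight : K →ₐ[ℚ] F ⊗[ℚ] K) : K →+* F ⊗[ℚ] K) =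
      (((Algebra.TensorProduct.includeRight : L →ₐ[ℚ] F ⊗[ℚ] L) : L →+* F ⊗[ℚ] L)).comp
        (algebraMap K L) := by
    ext x
    simp
  have h2 : MvPolynomial.eval₂Hom
      (((tmap F (algebraMap K L)) : F ⊗[ℚ] K →+* F ⊗[ℚ] L).comp
        ((Algebra.TensorProduct.includeRight : K →ₐ[ℚ] F ⊗[ℚ] K) : K →+* F ⊗[ℚ] K))
      (fun i => (tmap F (algebraMap K L) : F ⊗[ℚ] K →+* F ⊗[ℚ] L) (a i)) (genNorm b) =
      MvPolynomial.eval₂Hom
        ((Algebra.TensorProduct.includeRight : L →ₐ[ℚ] F ⊗[ℚ] L) : L →+* F ⊗[ℚ] L)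
        (fun i => tmap F (algebraMap K L) (a i)) (genProd b) := by
    rw [← map_genNorm b, MvPolynomial.eval₂Hom_map_hom]
    congr 1
  rw [h2, genProd, map_prod]
  refine Finset.prod_congr rfl (fun g _ => ?_)
  conv_rhs => rw [sum_repr_tBasis F b y]
  rw [map_sum, map_sum]
  refine Finset.sum_congr rfl (fun i _ => ?_)
  rw [map_mul, map_mul, ← tmap_comp]
  have hg : ((g : L →+* L)).comp (algebraMap K L) = algebraMap K L := by
    ext x; simp
  rw [hg]
  simp [ha]

end Galois

section Invariants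

variable [Algebra K L] [FiniteDimensional K L]

/-- The trace `id ⊗ Tr : F ⊗ L → F ⊗ K`. -/
def ttrace : F ⊗[ℚ] L →ₗ[F] F ⊗[ℚ] K :=
  TensorProduct.AlgebraTensorModule.map (LinearMap.id : F →ₗ[F] F)
    ((Algebra.trace K L).restrictScalars ℚ)

omit [FiniteDimensional K L] in
@[simp] lemma ttrace_tmul (a : F) (x : L) :
    ttrace F (a ⊗ₜ[ℚ] x : F ⊗[ℚ] L) = a ⊗ₜ[ℚ] (Algebra.trace K L x) := by
  simp [ttrace]

lemma tmap_ttrace [IsGalois K L] (y : F ⊗[ℚ] L) :
    tmap F (algebraMap K L) (ttrace F y) = ∑ g : L ≃ₐ[K] L, tmap F (g : L →+* L) y := by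
  induction y using TensorProduct.induction_on with
  | zero => simp
  | tmul a x =>
    rw [ttrace_tmul, tmap_tmul, trace_eq_sum_automorphisms, TensorProduct.tmul_sum]
    simp
  | add y y' hy hy' =>
    rw [map_add, map_add, hy, hy', ← Finset.sum_add_distrib]
    simp

/-- For a Galois extension `L / K`, an element of `F ⊗ L` fixed by all automorphisms comes from
`F ⊗ K`. -/
theorem exists_tmap_eq_of_fixed [IsGalois K L] (y : F ⊗[ℚ] L)
    (hy : ∀ g : L ≃ₐ[K] L, tmap F (g : L →+* L) y = y) :
    ∃ c : F ⊗[ℚ] K, tmap F (algebraMap K L) c = y := by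
  have hsum : tmap F (algebraMap K L) (ttrace F y) =
      (Fintype.card (L ≃ₐ[K] L) : ℚ) • y := by
    rw [tmap_ttrace]
    simp [hy, Finset.sum_const, Nat.cast_smul_eq_nsmul]
  have hcard : (Fintype.card (L ≃ₐ[K] L) : ℚ) ≠ 0 := by
    exact_mod_cast Fintype.card_ne_zero
  refine ⟨((Fintype.card (L ≃ₐ[K] L) : ℚ)⁻¹) • ttrace F y, ?_⟩
  rw [map_rat_smul, hsum, smul_smul, inv_mul_cancel₀ hcard, one_smul]

end Invariants

end Fermat.Agent.Lib.CFT.Global.TensorExt
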