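import Fermat.Agent.Lib.CFT.Global.IdeleMap
import Fermat.Agent.Lib.CFT.Global.TensorExt2

/-!
# The idele norm (helper96, P-CFT WP 207, part 2)

For an extension `L / K` of number fields, `LocAlg L q = ℚ_q ⊗ L` is a finite free algebra over
`LocAlg K q = ℚ_q ⊗ K`; the idele norm `ideleNorm K L : Idele L →* Idele K` is componentwise the
algebra norm.  It maps integral units to integral units at almost all primes.
-/

open scoped TensorProduct NumberField

noncomputable section

namespace Fermat.Agent.Lib.CFT.Global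

open TensorExt

attribute [local instance] TensorExt.tAlgebra

section Span

variable (L : Type) [Field L] [NumberField L]

/-- The integral subalgebra is the `ℤ_q`-span of `1 ⊗ 𝓞 L`. -/
lemma locInt_eq_span (q : Nat.Primes) :
    Subalgebra.toSubmodule (locInt L q) =
      Submodule.span ℤ_[pv q] (Set.range fun x : 𝓞 L => ((1 : ℚ_[pv q]) ⊗ₜ[ℚ] (x : L) : LocAlg L q)) := by
  rw [locInt, Algebra.adjoin_eq_span]
  congr 1
  let φ : 𝓞 L →* LocAlg L q :=
    ((Algebra.TensorProduct.includeRight : L →ₐ[ℚ] LocAlg L q) : L →* LocAlg L q).comp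
      ((algebraMap (𝓞 L) L : 𝓞 L →+* L) : 𝓞 L →* L)
  have hφ : Set.range (fun x : 𝓞 L => ((1 : ℚ_[pv q]) ⊗ₜ[ℚ] (x : L) : LocAlg L q)) =
      (MonoidHom.mrange φ : Set (LocAlg L q)) := by
    ext z
    simp only [Set.mem_range, MonoidHom.coe_mrange]
    rfl
  rw [hφ, Submonoid.closure_eq]

/-- `1 ⊗ k` is integral at `q` as soon as some multiple `m * k` with `q ∤ m` is an algebraic
integer. -/
lemma one_tmul_mem_locInt_of_mul_integral (q : Nat.Primes) (m : ℕ) (hq : ¬ (q : ℕ) ∣ m) (k : L)
    (hk : IsIntegral ℤ ((m : L) * k)) :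
    ((1 : ℚ_[pv q]) ⊗ₜ[ℚ] k : LocAlg L q) ∈ locInt L q := by
  have hunit : IsUnit ((m : ℤ_[pv q])) := by
    rw [PadicInt.isUnit_iff, PadicInt.norm_natCast_eq_one_iff]
    exact (Nat.Prime.coprime_iff_not_dvd q.2).2 hq
  obtain ⟨u, hu⟩ := hunit
  have h3 : (m : ℚ) • (((u⁻¹ : ℤ_[pv q]ˣ) : ℤ_[pv q]) : ℚ_[pv q]) = 1 := by
    have : ((u : ℤ_[pv q]) : ℚ_[pv q]) *
        (((u⁻¹ : ℤ_[pv q]ˣ) : ℤ_[pv q]) : ℚ_[pv q]) = 1 := by
      rw [← PadicInt.coe_mul]; simp
    rw [hu] at this
    simpa [Algebra.smul_def] using this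
  have h : ((1 : ℚ_[pv q]) ⊗ₜ[ℚ] k : LocAlg L q) =
      (((u⁻¹ : ℤ_[pv q]ˣ) : ℤ_[pv q]) : ℚ_[pv q]) ⊗ₜ[ℚ] ((m : L) * k) := by
    have h2 : ((m : L) * k) = (m : ℚ) • k := by
      rw [Algebra.smul_def]; simp
    rw [h2, ← TensorProduct.smul_tmul, h3]
  rw [h]
  exact tmul_mem_locInt L q _ ⟨(m : L) * k, hk⟩

end Span

variable (K L : Type) [Field K] [NumberField K] [Field L] [NumberField L] [Algebra K L]

/-- Coordinates of algebraic integers of `L` in a `K`-basis have bounded denominators. -/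
lemma exists_nat_mul_repr_integral {ι : Type} [Fintype ι] (b : Module.Basis ι K L) :
    ∃ m : ℕ, m ≠ 0 ∧ ∀ (x : 𝓞 L) (i : ι), IsIntegral ℤ ((m : K) * b.repr (x : L) i) := by
  classical
  let ω := NumberField.RingOfIntegers.basis L
  let s : Finset K := Finset.univ.image
    (fun p : Module.Free.ChooseBasisIndex ℤ (𝓞 L) × ι => b.repr ((ω p.1 : 𝓞 L) : L) p.2)
  have : Algebra.IsAlgebraic ℤ ℚ := IsLocalization.isAlgebraic ℚ (nonZeroDivisors ℤ)
  have : Algebra.IsAlgebraic ℤ K := Algebra.IsAlgebraic.trans ℤ ℚ K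
  obtain ⟨y, hy, hint⟩ := Algebra.IsAlgebraic.exists_integral_multiples ℤ s
  refine ⟨y.natAbs, Int.natAbs_ne_zero.2 hy, ?_⟩
  have hbase : ∀ j i, IsIntegral ℤ ((y.natAbs : K) * b.repr ((ω j : 𝓞 L) : L) i) := by
    intro j i
    have h1 : IsIntegral ℤ (y • b.repr ((ω j : 𝓞 L) : L) i) :=
      hint _ (Finset.mem_image.2 ⟨(j, i), Finset.mem_univ _, rfl⟩)
    rcases Int.natAbs_eq y with h | h
    · have : ((y.natAbs : K) * b.repr ((ω j : 𝓞 L) : L) i) = y • b.repr ((ω j : 𝓞 L) : L) i := by
        rw [zsmul_eq_mul]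
        congr 1
        conv_rhs => rw [h]
        simp
      rw [this]; exact h1
    · have : ((y.natAbs : K) * b.repr ((ω j : 𝓞 L) : L) i) =
          -(y • b.repr ((ω j : 𝓞 L) : L) i) := by
        rw [zsmul_eq_mul, ← neg_mul]
        congr 1
        conv_rhs => rw [h]
        simp
      rw [this]; exact h1.neg
  intro x i
  have hx : (x : L) = ∑ j, (ω.repr x j) • ((ω j : 𝓞 L) : L) := by
    conv_lhs => rw [← ω.sum_repr x]
    simp
  rw [hx, map_sum, Finsupp.coe_finsetSum, Finset.sum_apply, Finset.mul_sum]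
  refine IsIntegral.sum _ (fun j _ => ?_)
  have : (y.natAbs : K) * (b.repr ((ω.repr x j) • ((ω j : 𝓞 L) : L))) i =
      (ω.repr x j) • ((y.natAbs : K) * b.repr ((ω j : 𝓞 L) : L) i) := by
    rw [map_zsmul, Finsupp.smul_apply, zsmul_eq_mul, zsmul_eq_mul]
    ring
  rw [this]
  exact (hbase j i).smul _

/-- A subalgebra is closed under determinants. -/
lemma det_mem_subalgebra {R A : Type*} [CommRing R] [CommRing A] [Algebra R A] (S : Subalgebra R A)
    {n : Type*} [Fintype n] [DecidableEq n] (N : Matrix n n A) (h : ∀ i j, N i j ∈ S) :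
    N.det ∈ S := by
  have hN : N = (S.val : S →+* A).mapMatrix (Matrix.of fun i j => (⟨N i j, h i j⟩ : S)) := by
    ext i j; rfl
  rw [hN, ← RingHom.map_det]
  exact Subtype.property _

/-- At almost all primes the local norm maps the integral subalgebra of `LocAlg L q` into the one
of `LocAlg K q`. -/
theorem finite_setOf_not_norm_mem_locInt :
    {q : Nat.Primes | ¬ ∀ u ∈ locInt L q, Algebra.norm (LocAlg K q) u ∈ locInt K q}.Finite := by
  classical
  obtain ⟨s, b, hb⟩ := FiniteDimensional.exists_is_basis_integral (𝓞 K) K L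
  have hbint : ∀ i, IsIntegral ℤ (b i) := fun i => isIntegral_trans _ (hb i)
  obtain ⟨m, hm0, hm⟩ := exists_nat_mul_repr_integral K L b
  have hfin : {q : Nat.Primes | (q : ℕ) ∣ m}.Finite := by
    have : {q : Nat.Primes | (q : ℕ) ∣ m} ⊆
        (fun q : Nat.Primes => (q : ℕ)) ⁻¹' ((m).divisors : Set ℕ) := by
      intro q hq
      simp only [Set.mem_preimage, Finset.mem_coe, Nat.mem_divisors]
      exact ⟨hq, hm0⟩
    exact Set.Finite.subset (Set.Finite.preimage (Nat.Primes.coe_nat_injective.injOn)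
      (Finset.finite_toSet _)) this
  refine hfin.subset ?_
  intro q hq
  by_contra hdiv
  apply hq
  have hdiv' : ¬ (q : ℕ) ∣ m := hdiv
  -- coordinates of integral elements are integral
  have hcoord : ∀ i, ∀ y ∈ locInt L q, (tBasis ℚ_[pv q] b).repr y i ∈ locInt K q := by
    intro i
    let φ : LocAlg L q →ₗ[ℤ_[pv q]] LocAlg K q :=
      ((LinearMap.proj i : (s → LocAlg K q) →ₗ[ℚ_[pv q]] LocAlg K q).comp
        (tEquivFunAux ℚ_[pv q] b).toLinearMap).restrictScalars ℤ_[pv q]
    have hφ : ∀ y, φ y = (tBasis ℚ_[pv q] b).repr y i := by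
      intro y
      simp [φ, tBasis, tEquivFun]
    have hle : Subalgebra.toSubmodule (locInt L q) ≤
        (Subalgebra.toSubmodule (locInt K q)).comap φ := by
      rw [locInt_eq_span]
      refine Submodule.span_le.2 ?_
      rintro _ ⟨x, rfl⟩
      change φ _ ∈ locInt K q
      rw [hφ, tBasis_repr_tmul]
      exact one_tmul_mem_locInt_of_mul_integral K q m hdiv' _ (hm x i)
    intro y hy
    rw [← hφ]
    exact hle hy
  intro u hu
  rw [Algebra.norm_eq_matrix_det (tBasis ℚ_[pv q] b)]
  refine det_mem_subalgebra (locInt K q) _ (fun i j => ?_)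
  rw [Algebra.leftMulMatrix_eq_repr_mul]
  refine hcoord i _ (mul_mem hu ?_)
  rw [tBasis_apply]
  exact one_tmul_mem_locInt L q ⟨b j, hbint j⟩

/-- The local relative norm on unit groups. -/
def locRelNorm (q : Nat.Primes) : (LocAlg L q)ˣ →* (LocAlg K q)ˣ :=
  Units.map (Algebra.norm (LocAlg K q))

/-- The archimedean relative norm on unit groups. -/
def archRelNorm : (ArchAlg L)ˣ →* (ArchAlg K)ˣ :=
  Units.map (Algebra.norm (ArchAlg K))

@[simp] lemma val_locRelNorm (q : Nat.Primes) (u : (LocAlg L q)ˣ) :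
    ((locRelNorm K L q u : (LocAlg K q)ˣ) : LocAlg K q) =
      Algebra.norm (LocAlg K q) (u : LocAlg L q) := rfl

@[simp] lemma val_archRelNorm (u : (ArchAlg L)ˣ) :
    ((archRelNorm K L u : (ArchAlg K)ˣ) : ArchAlg K) =
      Algebra.norm (ArchAlg K) (u : ArchAlg L) := rfl

/-- At almost all primes the local norm maps integral units to integral units. -/
theorem finite_setOf_not_locRelNorm_mem :
    {q : Nat.Primes | ¬ ∀ u ∈ locIntUnits L q, locRelNorm K L q u ∈ locIntUnits K q}.Finite := by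
  refine (finite_setOf_not_norm_mem_locInt K L).subset ?_
  intro q hq h
  apply hq
  intro u hu
  refine ⟨h _ hu.1, ?_⟩
  rw [← map_inv]
  exact h _ hu.2

/-- The idele norm. -/
def ideleNorm : Idele L →* Idele K where
  toFun b := ⟨(fun q => locRelNorm K L q ((b : IdeleProd L).1 q),
      archRelNorm K L (b : IdeleProd L).2), by
    refine ((finite_setOf_not_locRelNorm_mem K L).union b.2).subset ?_
    intro q hq
    by_contra h
    simp only [Set.mem_union, Set.mem_ofPred_eq, not_or, not_not] at h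
    exact hq (h.1 _ h.2)⟩
  map_one' := by
    apply Subtype.ext
    ext : 1
    · funext q; exact map_one _
    · exact map_one _
  map_mul' a b := by
    apply Subtype.ext
    ext : 1
    · funext q; exact map_mul _ _ _
    · exact map_mul _ _ _

lemma ideleNorm_fst (b : Idele L) (q : Nat.Primes) :
    (ideleNorm K L b : IdeleProd K).1 q = locRelNorm K L q ((b : IdeleProd L).1 q) := rfl

lemma ideleNorm_snd (b : Idele L) :
    (ideleNorm K L b : IdeleProd K).2 = archRelNorm K L (b : IdeleProd L).2 := rfl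

/-- The idele norm extends the field norm. -/
lemma ideleNorm_principal (x : Lˣ) :
    ideleNorm K L (principal L x) = principal K (Units.map (Algebra.norm K : L →* K) x) := by
  apply Subtype.ext
  ext : 1
  · funext q
    apply Units.ext
    change Algebra.norm (LocAlg K q) ((1 : ℚ_[pv q]) ⊗ₜ[ℚ] (x : L) : LocAlg L q) = _
    rw [norm_one_tmul]
    rfl
  · apply Units.ext
    change Algebra.norm (ArchAlg K) ((1 : ℝ) ⊗ₜ[ℚ] (x : L) : ArchAlg L) = _
    rw [norm_one_tmul]
    rfl

/-- The norm of an idele of `K` is its `[L : K]`-th power. -/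
lemma ideleNorm_ideleMap (a : Idele K) :
    ideleNorm K L (ideleMap (algebraMap K L) a) = a ^ Module.finrank K L := by
  apply Subtype.ext
  ext : 1
  · funext q
    apply Units.ext
    change Algebra.norm (LocAlg K q) (locMap (algebraMap K L) q _) = _
    rw [locMap_eq_tmap, norm_tmap]
    simp
  · apply Units.ext
    change Algebra.norm (ArchAlg K) (archMap (algebraMap K L) _) = _
    rw [archMap_eq_tmap, norm_tmap]
    simp

/-- Compatibility with the norms down to `ℚ_q`. -/
lemma norm_locRelNorm (q : Nat.Primes) (u : (LocAlg L q)ˣ) :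
    Algebra.norm ℚ_[pv q] ((locRelNorm K L q u : (LocAlg K q)ˣ) : LocAlg K q) =
      Algebra.norm ℚ_[pv q] (u : LocAlg L q) := by
  rw [val_locRelNorm, Algebra.norm_norm]

/-- Compatibility with the norms down to `ℝ`. -/
lemma norm_archRelNorm (u : (ArchAlg L)ˣ) :
    Algebra.norm ℝ ((archRelNorm K L u : (ArchAlg K)ˣ) : ArchAlg K) =
      Algebra.norm ℝ (u : ArchAlg L) := by
  rw [val_archRelNorm, Algebra.norm_norm]

/-- The idele norm is invariant under the Galois group. -/
lemma ideleNorm_smul (g : L ≃ₐ[K] L) (b : Idele L) : ideleNorm K L (g • b) = ideleNorm K L b := by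
  apply Subtype.ext
  ext : 1
  · funext q
    apply Units.ext
    change Algebra.norm (LocAlg K q) (tmap ℚ_[pv q] (g : L →+* L) _) = Algebra.norm (LocAlg K q) _
    rw [norm_tmap_algEquiv]
  · apply Units.ext
    change Algebra.norm (ArchAlg K) (tmap ℝ (g : L →+* L) _) = Algebra.norm (ArchAlg K) _
    rw [norm_tmap_algEquiv]

/-- For a Galois extension, the norm (viewed in `L`) is the product of the conjugates. -/
theorem ideleMap_ideleNorm [IsGalois K L] (b : Idele L) :
    ideleMap (algebraMap K L) (ideleNorm K L b) = ∏ g : L ≃ₐ[K] L, g • b := by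
  apply Subtype.ext
  ext : 1
  · funext q
    apply Units.ext
    have h1 : (((∏ g : L ≃ₐ[K] L, g • b : Idele L) : IdeleProd L).1 q : LocAlg L q) =
        ∏ g : L ≃ₐ[K] L, tmap ℚ_[pv q] (g : L →+* L) ((b : IdeleProd L).1 q : LocAlg L q) := by
      rw [Subgroup.val_finsetProd, Prod.fst_prod, Finset.prod_apply, Units.coe_prod]
      rfl
    rw [h1, ← tmap_norm_eq_prod]
    rfl
  · apply Units.ext
    have h1 : (((∏ g : L ≃ₐ[K] L, g • b : Idele L) : IdeleProd L).2 : ArchAlg L) =
        ∏ g : L ≃ₐ[K] L, tmap ℝ (g : L →+* L) ((b : IdeleProd L).2 : ArchAlg L) := by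
      rw [Subgroup.val_finsetProd, Prod.snd_prod, Units.coe_prod]
      rfl
    rw [h1, ← tmap_norm_eq_prod]
    rfl

/-- Transitivity of the idele norm. -/
theorem ideleNorm_trans (M : Type) [Field M] [NumberField M] [Algebra L M] [Algebra K M]
    [IsScalarTower K L M] (c : Idele M) :
    ideleNorm K L (ideleNorm L M c) = ideleNorm K M c := by
  apply Subtype.ext
  ext : 1
  · funext q
    apply Units.ext
    change Algebra.norm (LocAlg K q) (Algebra.norm (LocAlg L q) _) = Algebra.norm (LocAlg K q) _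
    rw [Algebra.norm_norm]
  · apply Units.ext
    change Algebra.norm (ArchAlg K) (Algebra.norm (ArchAlg L) _) = Algebra.norm (ArchAlg K) _
    rw [Algebra.norm_norm]

/-- The norm on idele class groups. -/
def ideleClassNorm : IdeleClass L →* IdeleClass K :=
  QuotientGroup.map (principal L).range (principal K).range (ideleNorm K L) (by
    rintro _ ⟨x, rfl⟩
    exact ⟨Units.map (Algebra.norm K : L →* K) x, (ideleNorm_principal K L x).symm⟩)

@[simp] lemma ideleClassNorm_mk (b : Idele L) :
    ideleClassNorm K L (QuotientGroup.mk b : IdeleClass L) =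
      QuotientGroup.mk (ideleNorm K L b) := rfl

end Fermat.Agent.Lib.CFT.Global
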