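import Fermat.Agent.Lib.CFT.Global.EtaleAlgOrbits

/-!
# Units of a `G`-algebra: direct sum decomposition in `Rep ℤ G` and cohomology

Complements `EtaleAlgOrbits`: the concrete product representation `piRep` is identified with the
categorical biproduct in `Rep k G`, so that for a finite product of fields `E` permuted by `G`
(with orbit representatives `r i`) we get

* `unitsIsoBiproduct : Eˣ ≅ ⨁ i, Coind_{G_{r i}}^G (E ⧸ r i)ˣ` in `Rep ℤ G`, with explicit
  projections `unitsIsoBiproduct_hom_π`;
* `groupCohomologyUnitsIsoBiproduct : Hⁿ(G, Eˣ) ≅ ⨁ i, Hⁿ(G_{r i}, (E ⧸ r i)ˣ)`;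
* the same for decomposition-group-stable unit subgroups (`subUnits...`);
* the orbit-quotient system of representatives `orbitRep` with its two properties.
-/

set_option autoImplicit false

namespace Fermat.Agent.Lib.CFT.Global.EtaleAlg

open CategoryTheory CategoryTheory.Limits

section Biproduct

universe u v w

variable {k : Type u} {G : Type v} [CommRing k] [Monoid G] {ι : Type} [Fintype ι] [DecidableEq ι]
  (A : ι → Rep.{w} k G)

/-- The product of a finite family of objects of `Rep k G`, realised on the Pi type. -/
noncomputable abbrev piRepObj : Rep.{w} k G := Rep.of (piRep fun i => (A i).ρ)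

omit [Fintype ι] [DecidableEq ι] in
lemma piRepObj_ρ_apply (g : G) (v : ∀ i, (A i).V) (i : ι) :
    (piRepObj A).ρ g v i = (A i).ρ g (v i) := rfl

omit [Fintype ι] in
/-- The projection from the product representation, as an intertwining map. -/
def piRepProj (i : ι) : (piRep fun i => (A i).ρ).IntertwiningMap (A i).ρ :=
  ⟨LinearMap.proj i, fun g => by ext v; simp⟩

omit [Fintype ι] in
/-- The inclusion into the product representation, as an intertwining map. -/
def piRepSingle (i : ι) : (A i).ρ.IntertwiningMap (piRep fun i => (A i).ρ) :=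
  ⟨LinearMap.single k (fun i => (A i).V) i, fun g => by
    ext v j
    by_cases h : j = i
    · subst h; simp
    · simp [Pi.single_eq_of_ne h]⟩

omit [Fintype ι] in
/-- The product representation, as a bicone in `Rep k G`. -/
noncomputable def piRepBicone : Bicone A where
  pt := piRepObj A
  π i := Rep.ofHom (piRepProj A i)
  ι i := Rep.ofHom (piRepSingle A i)
  ι_π i j := by
    by_cases h : i = j
    · subst h
      simp only [dif_pos, eqToHom_refl]
      ext v
      simp [piRepProj, piRepSingle]
    · simp only [dif_neg h]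
      ext v
      simp [piRepProj, piRepSingle, Pi.single_eq_of_ne (Ne.symm h)]

lemma piRep_total :
    ∑ j : ι, (Rep.ofHom (piRepProj A j) ≫ Rep.ofHom (piRepSingle A j)) = 𝟙 (piRepObj A) := by
  refine Rep.hom_ext ?_
  rw [Rep.sum_hom]
  refine Representation.IntertwiningMap.ext ?_
  rw [Representation.IntertwiningMap.toLinearMap_sum]
  refine LinearMap.ext fun v => funext fun i => ?_
  rw [LinearMap.sum_apply, Finset.sum_apply]
  show ∑ j : ι, (Pi.single j (v j) : ∀ i, (A i).V) i = v i
  rw [Finset.sum_eq_single i]
  · simp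
  · intro j _ hj
    simp [Pi.single_eq_of_ne (Ne.symm hj)]
  · simp

lemma piRepBicone_total :
    ∑ j : ι, (piRepBicone A).π j ≫ (piRepBicone A).ι j = 𝟙 (piRepBicone A).pt :=
  piRep_total A

/-- The product representation is a biproduct in `Rep k G`. -/
noncomputable def piRepBicone_isBilimit : (piRepBicone A).IsBilimit :=
  isBilimitOfTotal _ (piRepBicone_total A)

/-- The concrete product representation is isomorphic to the categorical biproduct. -/
noncomputable def piRepIsoBiproduct [HasBiproduct A] : piRepObj A ≅ ⨁ A :=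
  biproduct.uniqueUpToIso _ (piRepBicone_isBilimit A)

@[simp]
lemma piRepIsoBiproduct_hom_π [HasBiproduct A] (i : ι) :
    (piRepIsoBiproduct A).hom ≫ biproduct.π A i = Rep.ofHom (piRepProj A i) := by
  simp [piRepIsoBiproduct, biproduct.uniqueUpToIso, piRepBicone]

@[simp]
lemma ι_piRepIsoBiproduct_inv [HasBiproduct A] (i : ι) :
    biproduct.ι A i ≫ (piRepIsoBiproduct A).inv = Rep.ofHom (piRepSingle A i) := by
  simp [piRepIsoBiproduct, biproduct.uniqueUpToIso, piRepBicone]

end Biproduct

section CohomologyAdditive

universe u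

variable (k G : Type u) [CommRing k] [Group G]

/-- The group cohomology functors are additive. -/
instance groupCohomologyFunctor_additive (n : ℕ) : (groupCohomology.functor k G n).Additive where
  map_add {A B f g} := by
    have h := (groupCohomology.cochainsFunctor k G).map_add (f := f) (g := g)
    simp only [groupCohomology.cochainsFunctor_map] at h
    simp only [groupCohomology.functor_map, groupCohomology.map, h]
    exact HomologicalComplex.homologyMap_add _ _ _

/-- The cardinality of a finite direct sum of modules. -/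
lemma card_biproduct_moduleCat {R : Type u} [Ring R] {ι : Type} [Finite ι]
    (f : ι → ModuleCat.{u} R) : Nat.card ((⨁ f : ModuleCat.{u} R)) = ∏ᶠ i, Nat.card (f i) := by
  classical
  have := Fintype.ofFinite ι
  rw [Nat.card_congr (ModuleCat.biproductIsoPi f).toLinearEquiv.toEquiv, finprod_eq_prod_of_fintype]
  exact Nat.card_pi

end CohomologyAdditive

section UnitsBiproduct

open scoped Pointwise

attribute [local instance] CategoryTheory.Abelian.hasFiniteBiproducts

attribute [local instance] Units.mulDistribMulActionRight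

variable (G : Type) {E : Type} [Group G] [CommRing E] [MulSemiringAction G E]
  {ι : Type} (r : ι → MaximalSpectrum E)

/-- The local factor `Coind_{G_{r i}}^G (E ⧸ r i)ˣ` of `Eˣ` at the representative `r i`. -/
noncomputable def unitsFactor (i : ι) : Rep ℤ G :=
  Rep.coind (MulAction.stabilizer G (r i)).subtype
    (Rep.ofMulDistribMulAction (MulAction.stabilizer G (r i)) (E ⧸ (r i).asIdeal)ˣ)

/-- The `i`-th component `u ↦ (g ↦ (g • u) mod r i)` of the decomposition of `Eˣ`, as a morphism
of `G`-representations. -/
noncomputable def unitsToFactor (i : ι) : Rep.ofMulDistribMulAction G Eˣ ⟶ unitsFactor G r i :=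
  Rep.ofHom ⟨toCoindLinear (Representation.ofMulDistribMulAction G Eˣ)
      (MulAction.stabilizer G (r i))
      (Representation.ofMulDistribMulAction (MulAction.stabilizer G (r i)) (E ⧸ (r i).asIdeal)ˣ)
      (redAdd (r i)) (redAdd_equivariant (r i)),
    toCoindLinear_comm _ _ _ _ _⟩

lemma unitsToFactor_apply (i : ι) (u : Additive Eˣ) (g : G) :
    ((unitsToFactor G r i).hom u).1 g = Additive.ofMul (redUnits (r i) (g • u.toMul)) := rfl

variable [IsArtinianRing E] [IsReduced E]
  (hcov : ∀ m : MaximalSpectrum E, ∃ i, ∃ g : G, g • m = r i)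
  (hsep : ∀ i j (g : G), g • r i = r j → i = j)

/-- `Eˣ` is the product of its local factors, as an isomorphism in `Rep ℤ G`. -/
noncomputable def unitsIsoPiRepObj :
    Rep.ofMulDistribMulAction G Eˣ ≅ piRepObj (unitsFactor G r) :=
  Rep.mkIso (unitsEquivPiCoind G r hcov hsep)

lemma unitsIsoPiRepObj_hom_apply (u : Additive Eˣ) (i : ι) (g : G) :
    ((unitsIsoPiRepObj G r hcov hsep).hom.hom u i).1 g =
      Additive.ofMul (redUnits (r i) (g • u.toMul)) := rfl

variable [Fintype ι] [DecidableEq ι]

/-- `Eˣ ≅ ⨁ i, Coind_{G_{r i}}^G (E ⧸ r i)ˣ` in `Rep ℤ G`, for a system `r` of representatives of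
the `G`-orbits on the maximal spectrum of `E`. -/
noncomputable def unitsIsoBiproduct :
    Rep.ofMulDistribMulAction G Eˣ ≅ ⨁ unitsFactor G r :=
  unitsIsoPiRepObj G r hcov hsep ≪≫ piRepIsoBiproduct (unitsFactor G r)

@[simp]
lemma unitsIsoBiproduct_hom_π (i : ι) :
    (unitsIsoBiproduct G r hcov hsep).hom ≫ biproduct.π (unitsFactor G r) i =
      unitsToFactor G r i := by
  rw [unitsIsoBiproduct, Iso.trans_hom, Category.assoc, piRepIsoBiproduct_hom_π]
  rfl

/-- **Semi-local Shapiro lemma**: `Hⁿ(G, Eˣ) ≅ ⨁ i, Hⁿ(G_{r i}, (E ⧸ r i)ˣ)`. -/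
noncomputable def groupCohomologyUnitsIsoBiproduct (n : ℕ) :
    groupCohomology (Rep.ofMulDistribMulAction G Eˣ) n ≅
      ⨁ fun i => groupCohomology
        (Rep.ofMulDistribMulAction (MulAction.stabilizer G (r i)) (E ⧸ (r i).asIdeal)ˣ) n :=
  (groupCohomology.functor ℤ G n).mapIso (unitsIsoBiproduct G r hcov hsep) ≪≫
    (groupCohomology.functor ℤ G n).mapBiproduct _ ≪≫
    biproduct.mapIso fun _ => groupCohomology.coindIso _ n

include hcov hsep in
/-- Cardinality form of the semi-local Shapiro lemma. -/
lemma card_groupCohomology_units (n : ℕ) :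
    Nat.card (groupCohomology (Rep.ofMulDistribMulAction G Eˣ) n) =
      ∏ i, Nat.card (groupCohomology
        (Rep.ofMulDistribMulAction (MulAction.stabilizer G (r i)) (E ⧸ (r i).asIdeal)ˣ) n) := by
  rw [Nat.card_congr (groupCohomologyUnitsIsoBiproduct G r hcov hsep n).toLinearEquiv.toEquiv,
    card_biproduct_moduleCat, finprod_eq_prod_of_fintype]

end UnitsBiproduct

section SubUnitsBiproduct

open scoped Pointwise

attribute [local instance] CategoryTheory.Abelian.hasFiniteBiproducts

attribute [local instance] Units.mulDistribMulActionRight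

variable (G : Type) {E : Type} [Group G] [CommRing E] [MulSemiringAction G E]
  {ι : Type} (r : ι → MaximalSpectrum E)
  (W : ∀ i, Submodule ℤ (Additive (E ⧸ (r i).asIdeal)ˣ))
  (hW : ∀ i (s : MulAction.stabilizer G (r i)), W i ≤ (W i).comap
    (Representation.ofMulDistribMulAction (MulAction.stabilizer G (r i)) (E ⧸ (r i).asIdeal)ˣ s))

/-- The `G`-module of units of `E` whose residues lie in the prescribed subgroups `W i`. -/
noncomputable def subUnitsRep : Rep ℤ G :=
  Rep.of ((Representation.ofMulDistribMulAction G Eˣ).subrepresentation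
    (unitsSubmodule (G := G) r W) (unitsSubmodule_le_comap r W))

/-- The `G_{r i}`-module `W i ≤ (E ⧸ r i)ˣ`. -/
noncomputable def subUnitsLocalRep (i : ι) : Rep ℤ (MulAction.stabilizer G (r i)) :=
  Rep.of ((Representation.ofMulDistribMulAction (MulAction.stabilizer G (r i))
    (E ⧸ (r i).asIdeal)ˣ).subrepresentation (W i) (hW i))

/-- The local factor `Coind_{G_{r i}}^G (W i)`. -/
noncomputable def subUnitsFactor (i : ι) : Rep ℤ G :=
  Rep.coind (MulAction.stabilizer G (r i)).subtype (subUnitsLocalRep G r W hW i)

variable [IsArtinianRing E] [IsReduced E]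
  (hcov : ∀ m : MaximalSpectrum E, ∃ i, ∃ g : G, g • m = r i)
  (hsep : ∀ i j (g : G), g • r i = r j → i = j)

/-- The stable unit subgroup cut out by `W` is the product of the coinduced modules. -/
noncomputable def subUnitsIsoPiRepObj :
    subUnitsRep G r W ≅ piRepObj (subUnitsFactor G r W hW) :=
  Rep.mkIso (subUnitsEquivPiCoind r W hW hcov hsep)

variable [Fintype ι] [DecidableEq ι]

/-- The stable unit subgroup cut out by `W` is the direct sum of the coinduced modules. -/
noncomputable def subUnitsIsoBiproduct :
    subUnitsRep G r W ≅ ⨁ subUnitsFactor G r W hW :=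
  subUnitsIsoPiRepObj G r W hW hcov hsep ≪≫ piRepIsoBiproduct (subUnitsFactor G r W hW)

/-- Semi-local Shapiro lemma for stable unit subgroups. -/
noncomputable def groupCohomologySubUnitsIsoBiproduct (n : ℕ) :
    groupCohomology (subUnitsRep G r W) n ≅
      ⨁ fun i => groupCohomology (subUnitsLocalRep G r W hW i) n :=
  (groupCohomology.functor ℤ G n).mapIso (subUnitsIsoBiproduct G r W hW hcov hsep) ≪≫
    (groupCohomology.functor ℤ G n).mapBiproduct _ ≪≫
    biproduct.mapIso fun _ => groupCohomology.coindIso _ n

include hcov hsep in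
/-- Cardinality form of the semi-local Shapiro lemma for stable unit subgroups. -/
lemma card_groupCohomology_subUnits (n : ℕ) :
    Nat.card (groupCohomology (subUnitsRep G r W) n) =
      ∏ i, Nat.card (groupCohomology (subUnitsLocalRep G r W hW i) n) := by
  rw [Nat.card_congr
      (groupCohomologySubUnitsIsoBiproduct G r W hW hcov hsep n).toLinearEquiv.toEquiv,
    card_biproduct_moduleCat, finprod_eq_prod_of_fintype]

end SubUnitsBiproduct

section OrbitQuotient

open scoped Pointwise

variable (G : Type*) (E : Type*) [Group G] [CommRing E] [MulSemiringAction G E]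

/-- The canonical system of representatives of the `G`-orbits on the maximal spectrum. -/
noncomputable def orbitRep :
    MulAction.orbitRel.Quotient G (MaximalSpectrum E) → MaximalSpectrum E :=
  Quotient.out

lemma orbitRep_cov (m : MaximalSpectrum E) : ∃ i, ∃ g : G, g • m = orbitRep G E i := by
  refine ⟨Quotient.mk'' m, ?_⟩
  have h : (Quotient.mk'' m : MulAction.orbitRel.Quotient G (MaximalSpectrum E)).out ∈
      MulAction.orbit G m := by
    rw [← MulAction.orbitRel_apply, ← Quotient.eq'']
    exact Quotient.out_eq' _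
  obtain ⟨g, hg⟩ := h
  exact ⟨g, hg⟩

lemma orbitRep_sep (i j : MulAction.orbitRel.Quotient G (MaximalSpectrum E)) (g : G)
    (h : g • orbitRep G E i = orbitRep G E j) : i = j := by
  rw [← Quotient.out_eq' i, ← Quotient.out_eq' j, Quotient.eq'', MulAction.orbitRel_apply]
  refine ⟨g⁻¹, ?_⟩
  show g⁻¹ • orbitRep G E j = orbitRep G E i
  rw [← h, inv_smul_smul]

instance finite_orbitQuotient [IsArtinianRing E] :
    Finite (MulAction.orbitRel.Quotient G (MaximalSpectrum E)) :=
  Quotient.finite _

end OrbitQuotient

end Fermat.Agent.Lib.CFT.Global.EtaleAlg
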