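import Mathlib

set_option autoImplicit false

namespace Fermat.Agent.Lib.CFT.Global.EtaleAlg

open scoped Pointwise

section Basic

variable {G E : Type*} [Group G] [CommRing E] [MulSemiringAction G E]

/-- The action of `G` on the maximal spectrum of `E` induced by a ring action on `E`. -/
@[reducible] def maxSpecMulAction : MulAction G (MaximalSpectrum E) where
  smul g m := ⟨g • m.asIdeal, by
    rw [Ideal.pointwise_smul_eq_comap]; exact Ideal.comap_isMaximal_of_equiv _⟩
  one_smul m := MaximalSpectrum.ext (one_smul G m.asIdeal)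
  mul_smul g h m := MaximalSpectrum.ext (mul_smul g h m.asIdeal)

scoped instance instMulActionMaxSpec : MulAction G (MaximalSpectrum E) := maxSpecMulAction

@[simp] lemma smul_asIdeal (g : G) (m : MaximalSpectrum E) :
    (g • m).asIdeal = g • m.asIdeal := rfl

lemma mem_smul_asIdeal_iff (g : G) (m : MaximalSpectrum E) (x : E) :
    x ∈ (g • m).asIdeal ↔ g⁻¹ • x ∈ m.asIdeal := by
  rw [smul_asIdeal, Ideal.mem_pointwise_smul_iff_inv_smul_mem]

lemma smul_mem_smul_asIdeal_iff (g : G) (m : MaximalSpectrum E) (x : E) :
    g • x ∈ (g • m).asIdeal ↔ x ∈ m.asIdeal := by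
  rw [mem_smul_asIdeal_iff, inv_smul_smul]

lemma mem_stabilizer_iff (g : G) (m : MaximalSpectrum E) :
    g ∈ MulAction.stabilizer G m ↔ g • m.asIdeal = m.asIdeal := by
  rw [MulAction.mem_stabilizer_iff, MaximalSpectrum.ext_iff, smul_asIdeal]

/-- For `g • m = m'`, the ring isomorphism `E ⧸ m ≃+* E ⧸ m'` induced by `g`. -/
noncomputable def quotEquivOfSMulEq (g : G) {m m' : MaximalSpectrum E} (h : g • m = m') :
    E ⧸ m.asIdeal ≃+* E ⧸ m'.asIdeal :=
  Ideal.quotientEquiv m.asIdeal m'.asIdeal (MulSemiringAction.toRingEquiv G E g) (by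
    rw [← h, smul_asIdeal]; rfl)

@[simp] lemma quotEquivOfSMulEq_mk (g : G) {m m' : MaximalSpectrum E} (h : g • m = m') (x : E) :
    quotEquivOfSMulEq g h (Ideal.Quotient.mk _ x) = Ideal.Quotient.mk _ (g • x) := rfl

/-- The stabiliser of a maximal ideal acts on the residue field by ring automorphisms. -/
noncomputable def stabToRingAut (m : MaximalSpectrum E) :
    MulAction.stabilizer G m →* RingAut (E ⧸ m.asIdeal) where
  toFun s := quotEquivOfSMulEq (s : G) (MulAction.mem_stabilizer_iff.mp s.2)
  map_one' := by
    ext x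
    obtain ⟨x, rfl⟩ := Ideal.Quotient.mk_surjective x
    simp
  map_mul' s t := by
    ext x
    obtain ⟨x, rfl⟩ := Ideal.Quotient.mk_surjective x
    simp only [RingAut.mul_apply, quotEquivOfSMulEq_mk, Subgroup.coe_mul, mul_smul]

/-- The action of the stabiliser (decomposition group) of `m` on the residue field `E ⧸ m`. -/
noncomputable scoped instance residueAction (m : MaximalSpectrum E) :
    MulSemiringAction (MulAction.stabilizer G m) (E ⧸ m.asIdeal) :=
  MulSemiringAction.compHom _ (stabToRingAut m)

@[simp] lemma stab_smul_mk (m : MaximalSpectrum E) (s : MulAction.stabilizer G m) (x : E) :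
    s • (Ideal.Quotient.mk m.asIdeal x) = Ideal.Quotient.mk m.asIdeal ((s : G) • x) := rfl

end Basic

section CoindRecognition

variable {k G V W : Type*} [CommRing k] [Group G] [AddCommGroup V] [Module k V]
  [AddCommGroup W] [Module k W] (ρ : Representation k G V) (S : Subgroup G)
  (σ : Representation k S W) (π : V →ₗ[k] W)

/-- The comparison map `V → Coind_S^G W`, `v ↦ (g ↦ π (g • v))`, attached to an `S`-equivariant
linear map `π : V → W`. -/
def toCoindLinear (hπ : ∀ (s : S) (v : V), π (ρ s v) = σ s (π v)) :
    V →ₗ[k] Representation.coindV S.subtype σ where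
  toFun v := ⟨fun g => π (ρ g v), fun s g => by
    simp only [Subgroup.coe_subtype, map_mul, Module.End.mul_apply]
    exact hπ s _⟩
  map_add' v w := by
    ext g
    simp
  map_smul' c v := by
    ext g
    simp

@[simp] lemma toCoindLinear_apply (hπ : ∀ (s : S) (v : V), π (ρ s v) = σ s (π v)) (v : V) (g : G) :
    (toCoindLinear ρ S σ π hπ v).1 g = π (ρ g v) := rfl

lemma toCoindLinear_comm (hπ : ∀ (s : S) (v : V), π (ρ s v) = σ s (π v)) (g : G) :
    toCoindLinear ρ S σ π hπ ∘ₗ ρ g =
      Representation.coind S.subtype σ g ∘ₗ toCoindLinear ρ S σ π hπ := by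
  ext v h
  show π (ρ h (ρ g v)) = π (ρ (h * g) v)
  rw [map_mul, Module.End.mul_apply]

/-- Recognition principle for coinduced representations: if the comparison map is bijective then
`ρ` is equivalent to `Coind_S^G σ`. -/
noncomputable def coindEquivOfBijective (hπ : ∀ (s : S) (v : V), π (ρ s v) = σ s (π v))
    (hbij : Function.Bijective (toCoindLinear ρ S σ π hπ)) :
    ρ.Equiv (Representation.coind S.subtype σ) :=
  Representation.Equiv.mk (LinearEquiv.ofBijective _ hbij) (toCoindLinear_comm ρ S σ π hπ)

@[simp] lemma coindEquivOfBijective_apply (hπ : ∀ (s : S) (v : V), π (ρ s v) = σ s (π v))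
    (hbij : Function.Bijective (toCoindLinear ρ S σ π hπ)) (v : V) (g : G) :
    ((coindEquivOfBijective ρ S σ π hπ hbij).toLinearEquiv v).1 g = π (ρ g v) := rfl

end CoindRecognition

section Units

open scoped Pointwise

attribute [local instance] Units.mulDistribMulActionRight

variable {G E : Type*} [Group G] [CommRing E] [MulSemiringAction G E]

/-- The induced action of the stabiliser of `m` on the units of the residue field. -/
noncomputable scoped instance residueUnitsAction (m : MaximalSpectrum E) :
    MulDistribMulAction (MulAction.stabilizer G m) (E ⧸ m.asIdeal)ˣ :=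
  Units.mulDistribMulActionRight

/-- Shortcut instance (instance search for this action is otherwise very slow). -/
noncomputable scoped instance (priority := high) residueUnitsSMul (m : MaximalSpectrum E) :
    SMul (MulAction.stabilizer G m) (E ⧸ m.asIdeal)ˣ :=
  (residueUnitsAction m).toSMul

/-- Reduction of units modulo a maximal ideal. -/
noncomputable def redUnits (m : MaximalSpectrum E) : Eˣ →* (E ⧸ m.asIdeal)ˣ :=
  Units.map (Ideal.Quotient.mk m.asIdeal : E →* E ⧸ m.asIdeal)

@[simp] lemma coe_redUnits (m : MaximalSpectrum E) (u : Eˣ) :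
    ((redUnits m u : (E ⧸ m.asIdeal)ˣ) : E ⧸ m.asIdeal) = Ideal.Quotient.mk m.asIdeal (u : E) :=
  rfl

lemma redUnits_stab_smul (m : MaximalSpectrum E) (s : MulAction.stabilizer G m) (u : Eˣ) :
    redUnits m ((s : G) • u) = s • redUnits m u := by
  ext
  rfl

lemma redUnits_eq_one_iff (m : MaximalSpectrum E) (u : Eˣ) :
    redUnits m u = 1 ↔ (u : E) - 1 ∈ m.asIdeal := by
  rw [Units.ext_iff, coe_redUnits, Units.val_one, ← map_one (Ideal.Quotient.mk m.asIdeal),
    Ideal.Quotient.eq]

/-- The `ℤ`-linear reduction map on (additive) units. -/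
noncomputable def redAdd (m : MaximalSpectrum E) :
    Additive Eˣ →ₗ[ℤ] Additive (E ⧸ m.asIdeal)ˣ :=
  (MonoidHom.toAdditive (redUnits m)).toIntLinearMap

@[simp] lemma redAdd_apply (m : MaximalSpectrum E) (u : Additive Eˣ) :
    redAdd m u = Additive.ofMul (redUnits m u.toMul) := rfl

lemma redAdd_equivariant (m : MaximalSpectrum E) (s : MulAction.stabilizer G m)
    (v : Additive Eˣ) :
    redAdd m (Representation.ofMulDistribMulAction G Eˣ (s : G) v) =
      Representation.ofMulDistribMulAction (MulAction.stabilizer G m) (E ⧸ m.asIdeal)ˣ s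
        (redAdd m v) := by
  simp only [redAdd_apply, Representation.ofMulDistribMulAction_apply_apply, toMul_ofMul]
  rw [redUnits_stab_smul]


variable [IsArtinianRing E] [IsReduced E]

omit [MulSemiringAction G E] in
/-- In a reduced Artinian ring an element lying in all maximal ideals is zero. -/
lemma eq_zero_of_forall_mem_maximal {x : E} (h : ∀ m : MaximalSpectrum E, x ∈ m.asIdeal) :
    x = 0 := by
  apply (IsArtinianRing.equivPi E).injective
  ext m
  rw [IsArtinianRing.equivPi_apply, map_zero, Pi.zero_apply]
  exact Ideal.Quotient.eq_zero_iff_mem.mpr (h m)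

omit [MulSemiringAction G E] [IsArtinianRing E] [IsReduced E] in
/-- An element which is nonzero modulo every maximal ideal is a unit. -/
lemma isUnit_of_forall_not_mem_maximal {x : E} (h : ∀ m : MaximalSpectrum E, x ∉ m.asIdeal) :
    IsUnit x := by
  by_contra hx
  obtain ⟨I, hI, hxI⟩ := exists_max_ideal_of_mem_nonunits (mem_nonunits_iff.mpr hx)
  exact h ⟨I, hI⟩ hxI

omit [MulSemiringAction G E] [IsReduced E] in
/-- Chinese remainder theorem over the maximal spectrum of an Artinian ring. -/
lemma exists_forall_sub_mem (x : MaximalSpectrum E → E) :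
    ∃ r : E, ∀ m : MaximalSpectrum E, r - x m ∈ m.asIdeal := by
  refine Ideal.exists_forall_sub_mem_ideal (I := fun m : MaximalSpectrum E => m.asIdeal) ?_ x
  intro m m' hne
  exact Ideal.isCoprime_of_isMaximal (fun h => hne (MaximalSpectrum.ext h))

variable [MulAction.IsPretransitive G (MaximalSpectrum E)]

/-- Injectivity of the comparison map `Eˣ → Coind (E ⧸ m)ˣ` (transitive case). -/
lemma eq_one_of_forall_redUnits_smul_eq_one (m : MaximalSpectrum E) (u : Eˣ)
    (h : ∀ g : G, redUnits m (g • u) = 1) : u = 1 := by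
  have key : (u : E) - 1 = 0 := by
    apply eq_zero_of_forall_mem_maximal
    intro m'
    obtain ⟨g, hg⟩ := MulAction.exists_smul_eq G m' m
    have h1 := (redUnits_eq_one_iff m (g • u)).mp (h g)
    rw [← hg, Units.coe_smul] at h1
    have h2 : g • ((u : E) - 1) ∈ (g • m').asIdeal := by
      rwa [smul_sub, smul_one]
    exact (smul_mem_smul_asIdeal_iff g m' _).mp h2
  exact Units.ext (sub_eq_zero.mp key)

omit [IsReduced E] in
/-- Surjectivity of the comparison map `Eˣ → Coind (E ⧸ m)ˣ` (transitive case): every
equivariant family of residues is realised by a global unit (Chinese remainder theorem). -/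
lemma exists_unit_redUnits_smul_eq (m : MaximalSpectrum E) (f : G → (E ⧸ m.asIdeal)ˣ)
    (hf : ∀ (s : MulAction.stabilizer G m) (g : G), f ((s : G) * g) = s • f g) :
    ∃ u : Eˣ, ∀ g : G, redUnits m (g • u) = f g := by
  classical
  choose γ hγ using fun m' : MaximalSpectrum E => MulAction.exists_smul_eq G m' m
  have hlift : ∀ m' : MaximalSpectrum E, ∃ e : E,
      Ideal.Quotient.mk m.asIdeal e = ((f (γ m') : (E ⧸ m.asIdeal)ˣ) : E ⧸ m.asIdeal) :=
    fun m' => Ideal.Quotient.mk_surjective _
  choose e he using hlift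
  obtain ⟨r, hr⟩ := exists_forall_sub_mem (fun m' => (γ m')⁻¹ • e m')
  have hr_unit : IsUnit r := by
    apply isUnit_of_forall_not_mem_maximal
    intro m' hmem
    have h1 : (γ m')⁻¹ • e m' ∈ m'.asIdeal := by
      have h0 := hr m'
      have := m'.asIdeal.sub_mem hmem h0
      simpa using this
    have h2 : e m' ∈ m.asIdeal := by
      rw [← hγ m']
      exact (mem_smul_asIdeal_iff _ _ _).mpr h1
    have h3 : ((f (γ m') : (E ⧸ m.asIdeal)ˣ) : E ⧸ m.asIdeal) = 0 := by
      rw [← he m']
      exact Ideal.Quotient.eq_zero_iff_mem.mpr h2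
    exact (f (γ m')).ne_zero h3
  obtain ⟨u, rfl⟩ := hr_unit
  refine ⟨u, fun g => ?_⟩
  have hs : g * (γ (g⁻¹ • m))⁻¹ ∈ MulAction.stabilizer G m := by
    rw [MulAction.mem_stabilizer_iff, mul_smul]
    have h1 : (γ (g⁻¹ • m))⁻¹ • m = g⁻¹ • m :=
      inv_smul_eq_iff.mpr (hγ (g⁻¹ • m)).symm
    rw [h1, smul_inv_smul]
  apply Units.ext
  rw [coe_redUnits, Units.coe_smul]
  have h1 : g • (u : E) - g • ((γ (g⁻¹ • m))⁻¹ • e (g⁻¹ • m)) ∈ m.asIdeal := by
    have h0 := hr (g⁻¹ • m)
    have h2 := (smul_mem_smul_asIdeal_iff g (g⁻¹ • m) _).mpr h0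
    rwa [smul_inv_smul, smul_sub] at h2
  rw [← Ideal.Quotient.eq] at h1
  rw [h1, smul_smul]
  have h3 := hf ⟨g * (γ (g⁻¹ • m))⁻¹, hs⟩ (γ (g⁻¹ • m))
  simp only [inv_mul_cancel_right] at h3
  rw [h3, Units.coe_smul, ← he (g⁻¹ • m), stab_smul_mk]

/-- The comparison map `Eˣ → Coind_{G_m}^G (E ⧸ m)ˣ` is bijective when `G` acts transitively on
the maximal spectrum of the reduced Artinian ring `E`. -/
lemma toCoindLinear_units_bijective (m : MaximalSpectrum E) :
    Function.Bijective (toCoindLinear (Representation.ofMulDistribMulAction G Eˣ)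
      (MulAction.stabilizer G m)
      (Representation.ofMulDistribMulAction (MulAction.stabilizer G m) (E ⧸ m.asIdeal)ˣ)
      (redAdd m) (redAdd_equivariant m)) := by
  constructor
  · rw [injective_iff_map_eq_zero]
    intro v hv
    have h : ∀ g : G, redUnits m (g • v.toMul) = 1 := by
      intro g
      have := congrArg (fun F => (F : Representation.coindV _ _).1 g) hv
      simpa using this
    have := eq_one_of_forall_redUnits_smul_eq_one m v.toMul h
    exact congrArg Additive.ofMul this
  · intro f
    obtain ⟨u, hu⟩ := exists_unit_redUnits_smul_eq m (fun g => (f.1 g).toMul) (fun s g => by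
      have := f.2 s g
      simp only [Subgroup.coe_subtype] at this
      rw [this]
      rfl)
    refine ⟨Additive.ofMul u, Subtype.ext (funext fun g => ?_)⟩
    simp only [toCoindLinear_apply, Representation.ofMulDistribMulAction_apply_apply, toMul_ofMul,
      redAdd_apply, hu]
    rfl

/-- **Units of a finite product of fields permuted transitively by `G`.**  As a representation of
`G`, the unit group `Eˣ` is coinduced from the units of the residue field `E ⧸ m` with its action
of the stabiliser (decomposition group) `G_m`. -/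
noncomputable def unitsEquivCoind (G : Type*) {E : Type*} [Group G] [CommRing E]
    [MulSemiringAction G E] [IsArtinianRing E] [IsReduced E]
    [MulAction.IsPretransitive G (MaximalSpectrum E)] (m : MaximalSpectrum E) :
    (Representation.ofMulDistribMulAction G Eˣ).Equiv
      (Representation.coind (MulAction.stabilizer G m).subtype
        (Representation.ofMulDistribMulAction (MulAction.stabilizer G m) (E ⧸ m.asIdeal)ˣ)) :=
  coindEquivOfBijective _ _ _ (redAdd m) (redAdd_equivariant m) (toCoindLinear_units_bijective m)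

@[simp] lemma unitsEquivCoind_apply (m : MaximalSpectrum E) (u : Additive Eˣ) (g : G) :
    ((unitsEquivCoind G m).toLinearEquiv u).1 g =
      Additive.ofMul (redUnits m (g • u.toMul)) := by
  rw [unitsEquivCoind, coindEquivOfBijective_apply]
  rfl

end Units

section RepIso

open scoped Pointwise

attribute [local instance] Units.mulDistribMulActionRight

variable (G : Type) {E : Type} [Group G] [CommRing E] [MulSemiringAction G E]
  [IsArtinianRing E] [IsReduced E] [MulAction.IsPretransitive G (MaximalSpectrum E)]

/-- `Eˣ ≅ Coind_{G_m}^G (E ⧸ m)ˣ` as an isomorphism in `Rep ℤ G`. -/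
noncomputable def unitsIsoCoind (m : MaximalSpectrum E) :
    Rep.ofMulDistribMulAction G Eˣ ≅
      Rep.coind (MulAction.stabilizer G m).subtype
        (Rep.ofMulDistribMulAction (MulAction.stabilizer G m) (E ⧸ m.asIdeal)ˣ) :=
  Rep.mkIso (unitsEquivCoind G m)

/-- **Shapiro's lemma for the units of a finite product of fields**: the cohomology of `G` with
values in `Eˣ` is the cohomology of the decomposition group `G_m` with values in `(E ⧸ m)ˣ`. -/
noncomputable def groupCohomologyUnitsIso (m : MaximalSpectrum E) (n : ℕ) :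
    groupCohomology (Rep.ofMulDistribMulAction G Eˣ) n ≅
      groupCohomology
        (Rep.ofMulDistribMulAction (MulAction.stabilizer G m) (E ⧸ m.asIdeal)ˣ) n :=
  (groupCohomology.functor ℤ G n).mapIso (unitsIsoCoind G m) ≪≫ groupCohomology.coindIso _ n

end RepIso

end Fermat.Agent.Lib.CFT.Global.EtaleAlg
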