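/-
P-CFT, Global/CohIdeles (task 203), generic bridge for stable unit subgroups (helper27).

* `SubTriv`, `SubHerbrand`: for a multiplicative `G`-module `M` and a `G`-stable subgroup `U`
  (given through the corresponding `ℤ`-submodule `N` of `Additive M`), vanishing of `H¹`/`H²` of
  the subrepresentation implies helper58's elementary conditions `H1TrivialOn`, `H2TrivialOn`,
  `HerbrandTrivialOn` (`Coh/RestrictedProd.lean`).
* `SubUnitsTriv`: the specialisation to helper75's `subUnitsRep G r W` / `unitsSubmodule r W` with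
  local vanishing hypotheses.
-/
import Mathlib
import Fermat.Agent.Lib.CFT.HerbrandRep
import Fermat.Agent.Lib.CFT.Global.EtaleAlgHilbert90
import Fermat.Agent.Lib.CFT.Coh.RestrictedProd

set_option autoImplicit false
set_option linter.unusedSectionVars false

namespace Fermat.Agent.Lib.CFT.Global.EtaleAlgSubUnitsTriv

open Fermat.Agent.Lib.CFT.Herbrand Fermat.Agent.Lib.CFT.Coh.RestrictedProd
open CategoryTheory groupCohomology

/-! ### From vanishing cohomology of a subrepresentation to the elementary conditions -/

section SubTriv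

variable {G : Type} [Group G] {M : Type} [CommGroup M] [MulDistribMulAction G M]
  (N : Submodule ℤ (Additive M))
  (hN : ∀ g : G, N ≤ N.comap (Representation.ofMulDistribMulAction G M g))
  (U : Subgroup M) (hUN : ∀ x : M, x ∈ U ↔ Additive.ofMul x ∈ N)

/-- The `G`-module `U`, as a subrepresentation of `Additive M`. -/
noncomputable abbrev subRepOf : Rep ℤ G :=
  Rep.of ((Representation.ofMulDistribMulAction G M).subrepresentation N hN)

theorem subRepOf_ρ_coe (g : G) (x : N) :
    (((subRepOf N hN).ρ g x : N) : Additive M) = Additive.ofMul (g • (x : Additive M).toMul) := rfl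

include hUN in
/-- If `H¹(G, U) = 0`, every `U`-valued `1`-cocycle is the coboundary of an element of `U`. -/
theorem h1TrivialOn_of_isZero (h : Limits.IsZero (groupCohomology (subRepOf N hN) 1)) :
    H1TrivialOn G U := by
  intro f hf hfU
  let f' : G → (subRepOf N hN) := fun g => ⟨Additive.ofMul (f g), (hUN _).1 (hfU g)⟩
  have hf' : f' ∈ cocycles₁ (subRepOf N hN) := by
    rw [mem_cocycles₁_iff]
    intro g k
    apply Subtype.ext
    exact congrArg Additive.ofMul (hf g k)
  have hsub : Subsingleton (groupCohomology (subRepOf N hN) 1) :=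
    ModuleCat.isZero_iff_subsingleton.1 h
  have h0 : H1π (subRepOf N hN) ⟨f', hf'⟩ = 0 := Subsingleton.elim _ _
  rw [H1π_eq_zero_iff] at h0
  obtain ⟨x, hx⟩ := h0
  refine ⟨(x : Additive M).toMul, (hUN _).2 x.2, fun g => ?_⟩
  have h1 := congrFun hx g
  have h2 := congrArg (fun y : N => (y : Additive M)) h1
  exact congrArg Additive.toMul h2

include hUN in
/-- If `H²(G, U) = 0`, every `U`-valued `2`-cocycle is the coboundary of a `U`-valued
`1`-cochain. -/
theorem h2TrivialOn_of_isZero (h : Limits.IsZero (groupCohomology (subRepOf N hN) 2)) :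
    H2TrivialOn G U := by
  intro f hf hfU
  let f' : G × G → (subRepOf N hN) :=
    fun g => ⟨Additive.ofMul (f g), (hUN _).1 (hfU g.1 g.2)⟩
  have hf' : f' ∈ cocycles₂ (subRepOf N hN) := by
    rw [mem_cocycles₂_iff]
    intro g k j
    apply Subtype.ext
    exact congrArg Additive.ofMul (hf g k j)
  have hsub : Subsingleton (groupCohomology (subRepOf N hN) 2) :=
    ModuleCat.isZero_iff_subsingleton.1 h
  have h0 : H2π (subRepOf N hN) ⟨f', hf'⟩ = 0 := Subsingleton.elim _ _
  rw [H2π_eq_zero_iff] at h0
  obtain ⟨x, hx⟩ := h0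
  refine ⟨fun g => ((x g : N) : Additive M).toMul, fun g => (hUN _).2 (x g).2, fun g k => ?_⟩
  have h1 := congrFun hx (g, k)
  have h2 := congrArg (fun y : N => (y : Additive M)) h1
  exact congrArg Additive.toMul h2

end SubTriv

section SubHerbrand

variable {G : Type} [Group G] [Fintype G] {M : Type} [CommGroup M] [MulDistribMulAction G M]
  (N : Submodule ℤ (Additive M))
  (hN : ∀ g : G, N ≤ N.comap (Representation.ofMulDistribMulAction G M g))
  (U : Subgroup M) (hUN : ∀ x : M, x ∈ U ↔ Additive.ofMul x ∈ N)

include hUN in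
/-- For a finite cyclic group `G = ⟨s⟩`: if `H¹(G, U) = H²(G, U) = 0` then `U^G = N U` and
`U[N] = (s - 1) U` (helper58's `HerbrandTrivialOn`). -/
theorem herbrandTrivialOn_of_isZero (s : G) (hs : ∀ x, x ∈ Subgroup.zpowers s)
    (h1 : Limits.IsZero (groupCohomology (subRepOf N hN) 1))
    (h2 : Limits.IsZero (groupCohomology (subRepOf N hN) 2)) :
    HerbrandTrivialOn G s U := by
  classical
  have hcyc : IsCyclic G := ⟨⟨s, hs⟩⟩
  let _ : CommGroup G := IsCyclic.commGroup
  have hc2 := card_groupCohomology_even (subRepOf N hN) s hs 2 (by decide)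
  have hc1 := card_groupCohomology_odd (subRepOf N hN) s hs 1 (by decide)
  have hs2 : Subsingleton (groupCohomology (subRepOf N hN) 2) :=
    ModuleCat.isZero_iff_subsingleton.1 h2
  have hs1 : Subsingleton (groupCohomology (subRepOf N hN) 1) :=
    ModuleCat.isZero_iff_subsingleton.1 h1
  rw [Nat.card_of_subsingleton (0 : groupCohomology (subRepOf N hN) 2)] at hc2
  rw [Nat.card_of_subsingleton (0 : groupCohomology (subRepOf N hN) 1)] at hc1
  have hle2 : (repSub (subRepOf N hN) s).ker ≤ (repNorm (subRepOf N hN)).range :=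
    AddSubgroup.relIndex_eq_one.mp hc2.symm
  have hle1 : (repNorm (subRepOf N hN)).ker ≤ (repSub (subRepOf N hN) s).range :=
    AddSubgroup.relIndex_eq_one.mp hc1.symm
  constructor
  · intro u hu hsu
    have hmem : (⟨Additive.ofMul u, (hUN u).1 hu⟩ : N) ∈ (repSub (subRepOf N hN) s).ker := by
      rw [AddMonoidHom.mem_ker, repSub_apply, sub_eq_zero]
      apply Subtype.ext
      exact congrArg Additive.ofMul hsu
    obtain ⟨v, hv⟩ := hle2 hmem
    refine ⟨(v : Additive M).toMul, (hUN _).2 v.2, ?_⟩
    have h3 := congrArg (fun y : N => (y : Additive M)) hv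
    rw [repNorm_apply] at h3
    simp only [AddSubmonoidClass.coe_finsetSum] at h3
    rw [normMul_apply]
    have h4 : (∑ x : G, Additive.ofMul (x • (v : Additive M).toMul) : Additive M) =
        Additive.ofMul u := h3
    rw [← ofMul_prod] at h4
    exact congrArg Additive.toMul h4
  · intro u hu hNu
    have hmem : (⟨Additive.ofMul u, (hUN u).1 hu⟩ : N) ∈ (repNorm (subRepOf N hN)).ker := by
      rw [AddMonoidHom.mem_ker, repNorm_apply]
      apply Subtype.ext
      simp only [AddSubmonoidClass.coe_finsetSum]
      have h4 : (∑ x : G, Additive.ofMul (x • u) : Additive M) = Additive.ofMul (1 : M) := by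
        rw [← ofMul_prod, ← normMul_apply, hNu]
      exact h4
    obtain ⟨v, hv⟩ := hle1 hmem
    refine ⟨(v : Additive M).toMul, (hUN _).2 v.2, ?_⟩
    have h3 := congrArg (fun y : N => (y : Additive M)) hv
    rw [repSub_apply] at h3
    exact congrArg Additive.toMul h3

end SubHerbrand

/-! ### Stable unit subgroups with locally trivial cohomology -/

section SubUnitsTriv

open EtaleAlg

attribute [local instance] Units.mulDistribMulActionRight

variable (G : Type) {E : Type} [Group G] [CommRing E] [MulSemiringAction G E]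
  [IsArtinianRing E] [IsReduced E] {ι : Type} [Fintype ι]
  (r : ι → MaximalSpectrum E)
  (W : ∀ i, Submodule ℤ (Additive (E ⧸ (r i).asIdeal)ˣ))
  (hW : ∀ i (s : MulAction.stabilizer G (r i)), W i ≤ (W i).comap
    (Representation.ofMulDistribMulAction (MulAction.stabilizer G (r i)) (E ⧸ (r i).asIdeal)ˣ s))
  (hcov : ∀ m : MaximalSpectrum E, ∃ i, ∃ g : G, g • m = r i)
  (hsep : ∀ i j (g : G), g • r i = r j → i = j)
  (U : Subgroup Eˣ) (hU : ∀ x : Eˣ, x ∈ U ↔ Additive.ofMul x ∈ unitsSubmodule (G := G) r W)

include hcov hsep hU in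
/-- If the local modules `W i` have trivial `H¹`, then the stable unit subgroup `U` cut out by
`W` satisfies `H1TrivialOn`. -/
theorem h1TrivialOn_subUnits [Finite G]
    (h : ∀ i, Limits.IsZero (groupCohomology (subUnitsLocalRep G r W hW i) 1)) :
    H1TrivialOn G U := by
  classical
  exact h1TrivialOn_of_isZero (unitsSubmodule (G := G) r W) (unitsSubmodule_le_comap r W) U hU
    (isZero_groupCohomology_subUnits_of_forall G r W hW hcov hsep 1 h)

include hcov hsep hU in
/-- If the local modules `W i` have trivial `H²`, then the stable unit subgroup `U` cut out by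
`W` satisfies `H2TrivialOn`. -/
theorem h2TrivialOn_subUnits [Finite G]
    (h : ∀ i, Limits.IsZero (groupCohomology (subUnitsLocalRep G r W hW i) 2)) :
    H2TrivialOn G U := by
  classical
  exact h2TrivialOn_of_isZero (unitsSubmodule (G := G) r W) (unitsSubmodule_le_comap r W) U hU
    (isZero_groupCohomology_subUnits_of_forall G r W hW hcov hsep 2 h)

include hcov hsep hU in
/-- If the local modules `W i` have trivial `H¹` and `H²` and `G = ⟨s⟩` is finite cyclic, then
the stable unit subgroup `U` cut out by `W` satisfies `HerbrandTrivialOn`. -/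
theorem herbrandTrivialOn_subUnits [Fintype G] (s : G) (hs : ∀ x, x ∈ Subgroup.zpowers s)
    (h1 : ∀ i, Limits.IsZero (groupCohomology (subUnitsLocalRep G r W hW i) 1))
    (h2 : ∀ i, Limits.IsZero (groupCohomology (subUnitsLocalRep G r W hW i) 2)) :
    HerbrandTrivialOn G s U := by
  classical
  exact herbrandTrivialOn_of_isZero (unitsSubmodule (G := G) r W) (unitsSubmodule_le_comap r W)
    U hU s hs
    (isZero_groupCohomology_subUnits_of_forall G r W hW hcov hsep 1 h1)
    (isZero_groupCohomology_subUnits_of_forall G r W hW hcov hsep 2 h2)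

end SubUnitsTriv

end Fermat.Agent.Lib.CFT.Global.EtaleAlgSubUnitsTriv
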