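import Fermat.Agent.Lib.CFT.Global.EtaleAlg

set_option autoImplicit false

namespace Fermat.Agent.Lib.CFT.Global.EtaleAlg

open scoped Pointwise

attribute [local instance] Units.mulDistribMulActionRight

section PiRep

variable {k G ι : Type*} [Semiring k] [Monoid G] {V : ι → Type*} [∀ i, AddCommMonoid (V i)]
  [∀ i, Module k (V i)]

/-- The product of a family of representations, acting componentwise on the Pi type. -/
def piRep (ρ : ∀ i, Representation k G (V i)) : Representation k G (∀ i, V i) where
  toFun g := LinearMap.pi fun i => (ρ i g) ∘ₗ LinearMap.proj i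
  map_one' := by
    ext v i
    simp
  map_mul' g h := by
    ext v i
    simp

@[simp] lemma piRep_apply (ρ : ∀ i, Representation k G (V i)) (g : G) (v : ∀ i, V i) (i : ι) :
    piRep ρ g v i = ρ i g (v i) := rfl

end PiRep

section PiCoindRecognition

variable {k G V ι : Type*} [CommRing k] [Group G] [AddCommGroup V] [Module k V]
  {W : ι → Type*} [∀ i, AddCommGroup (W i)] [∀ i, Module k (W i)]
  (ρ : Representation k G V) (S : ι → Subgroup G) (σ : ∀ i, Representation k (S i) (W i))
  (π : ∀ i, V →ₗ[k] W i)

/-- The comparison map `V → ∏ i, Coind_{S i}^G (W i)` attached to a family of equivariant linear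
maps `π i : V → W i`. -/
def toPiCoind (hπ : ∀ i (s : S i) (v : V), π i (ρ s v) = σ i s (π i v)) :
    V →ₗ[k] ∀ i, Representation.coindV (S i).subtype (σ i) :=
  LinearMap.pi fun i => toCoindLinear ρ (S i) (σ i) (π i) (hπ i)

@[simp] lemma toPiCoind_apply (hπ : ∀ i (s : S i) (v : V), π i (ρ s v) = σ i s (π i v))
    (v : V) (i : ι) (g : G) : (toPiCoind ρ S σ π hπ v i).1 g = π i (ρ g v) := rfl

lemma toPiCoind_comm (hπ : ∀ i (s : S i) (v : V), π i (ρ s v) = σ i s (π i v)) (g : G) :
    toPiCoind ρ S σ π hπ ∘ₗ ρ g =
      piRep (fun i => Representation.coind (S i).subtype (σ i)) g ∘ₗ toPiCoind ρ S σ π hπ := by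
  refine LinearMap.ext fun v => funext fun i => ?_
  exact LinearMap.congr_fun (toCoindLinear_comm ρ (S i) (σ i) (π i) (hπ i) g) v

/-- Recognition principle for products of coinduced representations. -/
noncomputable def piCoindEquivOfBijective
    (hπ : ∀ i (s : S i) (v : V), π i (ρ s v) = σ i s (π i v))
    (hbij : Function.Bijective (toPiCoind ρ S σ π hπ)) :
    ρ.Equiv (piRep fun i => Representation.coind (S i).subtype (σ i)) :=
  Representation.Equiv.mk (LinearEquiv.ofBijective _ hbij) (toPiCoind_comm ρ S σ π hπ)

@[simp] lemma piCoindEquivOfBijective_apply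
    (hπ : ∀ i (s : S i) (v : V), π i (ρ s v) = σ i s (π i v))
    (hbij : Function.Bijective (toPiCoind ρ S σ π hπ)) (v : V) (i : ι) (g : G) :
    ((piCoindEquivOfBijective ρ S σ π hπ hbij).toLinearEquiv v i).1 g = π i (ρ g v) := rfl

end PiCoindRecognition

section Orbits

variable {G E : Type*} [Group G] [CommRing E] [MulSemiringAction G E]
  [IsArtinianRing E] [IsReduced E] {ι : Type*} (r : ι → MaximalSpectrum E)

/-- Injectivity of the comparison map for a family of representatives meeting every orbit. -/
lemma eq_one_of_forall_forall_redUnits_smul_eq_one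
    (hcov : ∀ m : MaximalSpectrum E, ∃ i, ∃ g : G, g • m = r i) (u : Eˣ)
    (h : ∀ i (g : G), redUnits (r i) (g • u) = 1) : u = 1 := by
  have key : (u : E) - 1 = 0 := by
    apply eq_zero_of_forall_mem_maximal
    intro m'
    obtain ⟨i, g, hg⟩ := hcov m'
    have h1 := (redUnits_eq_one_iff (r i) (g • u)).mp (h i g)
    rw [← hg, Units.coe_smul] at h1
    have h2 : g • ((u : E) - 1) ∈ (g • m').asIdeal := by
      rwa [smul_sub, smul_one]
    exact (smul_mem_smul_asIdeal_iff g m' _).mp h2
  exact Units.ext (sub_eq_zero.mp key)

omit [IsReduced E] in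
/-- Surjectivity of the comparison map for a family of pairwise non-conjugate representatives
(Chinese remainder theorem). -/
lemma exists_unit_forall_redUnits_smul_eq
    (hsep : ∀ i j (g : G), g • r i = r j → i = j)
    (f : ∀ i, G → (E ⧸ (r i).asIdeal)ˣ)
    (hf : ∀ i (s : MulAction.stabilizer G (r i)) (g : G), f i ((s : G) * g) = s • f i g) :
    ∃ u : Eˣ, ∀ i (g : G), redUnits (r i) (g • u) = f i g := by
  classical
  -- for each maximal ideal choose a local target
  have hx : ∀ m : MaximalSpectrum E, ∃ x : E, x ∉ m.asIdeal ∧
      ∀ i (g : G), g • m = r i →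
        Ideal.Quotient.mk (r i).asIdeal (g • x) = ((f i g : (E ⧸ (r i).asIdeal)ˣ) : _) := by
    intro m
    by_cases hm : ∃ i, ∃ g : G, g • m = r i
    · obtain ⟨i, γ, hγ⟩ := hm
      obtain ⟨e, he⟩ := Ideal.Quotient.mk_surjective
        ((f i γ : (E ⧸ (r i).asIdeal)ˣ) : E ⧸ (r i).asIdeal)
      refine ⟨γ⁻¹ • e, ?_, ?_⟩
      · intro hmem
        have h2 : e ∈ (r i).asIdeal := by
          rw [← hγ]
          exact (mem_smul_asIdeal_iff _ _ _).mpr hmem
        have h3 : ((f i γ : (E ⧸ (r i).asIdeal)ˣ) : E ⧸ (r i).asIdeal) = 0 := by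
          rw [← he]
          exact Ideal.Quotient.eq_zero_iff_mem.mpr h2
        exact (f i γ).ne_zero h3
      · intro j g hg
        have hij : i = j := by
          refine hsep i j (g * γ⁻¹) ?_
          rw [mul_smul, ← hg]
          congr 1
          exact inv_smul_eq_iff.mpr hγ.symm
        subst hij
        have hs : g * γ⁻¹ ∈ MulAction.stabilizer G (r i) := by
          rw [MulAction.mem_stabilizer_iff, mul_smul]
          have h1 : γ⁻¹ • r i = m := inv_smul_eq_iff.mpr hγ.symm
          rw [h1, hg]
        rw [smul_smul]
        have h3 := hf i ⟨g * γ⁻¹, hs⟩ γ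
        simp only [inv_mul_cancel_right] at h3
        rw [h3, Units.coe_smul, ← he, stab_smul_mk]
    · refine ⟨1, ?_, ?_⟩
      · exact fun h1 => m.isMaximal.ne_top ((Ideal.eq_top_iff_one _).mpr h1)
      · intro i g hg
        exact absurd ⟨i, g, hg⟩ hm
  choose x hx1 hx2 using hx
  obtain ⟨c, hc⟩ := exists_forall_sub_mem x
  have hc_unit : IsUnit c := by
    apply isUnit_of_forall_not_mem_maximal
    intro m' hmem
    have h0 := hc m'
    have := m'.asIdeal.sub_mem hmem h0
    exact hx1 m' (by simpa using this)
  obtain ⟨u, rfl⟩ := hc_unit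
  refine ⟨u, fun i g => ?_⟩
  apply Units.ext
  rw [coe_redUnits, Units.coe_smul]
  have h1 : g • (u : E) - g • x (g⁻¹ • r i) ∈ (r i).asIdeal := by
    have h0 := hc (g⁻¹ • r i)
    have h2 := (smul_mem_smul_asIdeal_iff g (g⁻¹ • r i) _).mpr h0
    rwa [smul_inv_smul, smul_sub] at h2
  rw [← Ideal.Quotient.eq] at h1
  rw [h1]
  exact hx2 (g⁻¹ • r i) i g (smul_inv_smul g (r i))


/-- The comparison map `Eˣ → ∏ i, Coind (E ⧸ r i)ˣ` is bijective when `r` is a system of
representatives of the `G`-orbits on the maximal spectrum. -/
lemma toPiCoind_units_bijective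
    (hcov : ∀ m : MaximalSpectrum E, ∃ i, ∃ g : G, g • m = r i)
    (hsep : ∀ i j (g : G), g • r i = r j → i = j) :
    Function.Bijective (toPiCoind (Representation.ofMulDistribMulAction G Eˣ)
      (fun i => MulAction.stabilizer G (r i))
      (fun i => Representation.ofMulDistribMulAction (MulAction.stabilizer G (r i))
        (E ⧸ (r i).asIdeal)ˣ)
      (fun i => redAdd (r i)) (fun i => redAdd_equivariant (r i))) := by
  constructor
  · rw [injective_iff_map_eq_zero]
    intro v hv
    have h : ∀ i (g : G), redUnits (r i) (g • v.toMul) = 1 := by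
      intro i g
      have := congrArg (fun F => (F i).1 g) hv
      simpa using this
    have := eq_one_of_forall_forall_redUnits_smul_eq_one r hcov v.toMul h
    exact congrArg Additive.ofMul this
  · intro f
    obtain ⟨u, hu⟩ := exists_unit_forall_redUnits_smul_eq r hsep (fun i g => ((f i).1 g).toMul)
      (fun i s g => by
        have := (f i).2 s g
        simp only [Subgroup.coe_subtype] at this
        rw [this]
        rfl)
    refine ⟨Additive.ofMul u, funext fun i => Subtype.ext (funext fun g => ?_)⟩
    rw [toPiCoind_apply, Representation.ofMulDistribMulAction_apply_apply, toMul_ofMul,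
      redAdd_apply, toMul_ofMul, hu]
    rfl

/-- **Units of a finite product of fields permuted by `G`** (general case): for a system
`r : ι → MaximalSpectrum E` of representatives of the `G`-orbits on the maximal spectrum, the
`G`-module `Eˣ` is the product over `i` of the modules coinduced from `(E ⧸ r i)ˣ` with its action
of the decomposition group of `r i`. -/
noncomputable def unitsEquivPiCoind (G : Type*) {E : Type*} [Group G] [CommRing E]
    [MulSemiringAction G E] [IsArtinianRing E] [IsReduced E] {ι : Type*}
    (r : ι → MaximalSpectrum E)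
    (hcov : ∀ m : MaximalSpectrum E, ∃ i, ∃ g : G, g • m = r i)
    (hsep : ∀ i j (g : G), g • r i = r j → i = j) :
    (Representation.ofMulDistribMulAction G Eˣ).Equiv
      (piRep fun i => Representation.coind (MulAction.stabilizer G (r i)).subtype
        (Representation.ofMulDistribMulAction (MulAction.stabilizer G (r i))
          (E ⧸ (r i).asIdeal)ˣ)) :=
  piCoindEquivOfBijective _ _ _ _ _ (toPiCoind_units_bijective r hcov hsep)

@[simp] lemma unitsEquivPiCoind_apply
    (hcov : ∀ m : MaximalSpectrum E, ∃ i, ∃ g : G, g • m = r i)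
    (hsep : ∀ i j (g : G), g • r i = r j → i = j) (u : Additive Eˣ) (i : ι) (g : G) :
    ((unitsEquivPiCoind G r hcov hsep).toLinearEquiv u i).1 g =
      Additive.ofMul (redUnits (r i) (g • u.toMul)) := by
  rw [unitsEquivPiCoind, piCoindEquivOfBijective_apply]
  rfl

end Orbits

section SubUnits

variable {G E : Type*} [Group G] [CommRing E] [MulSemiringAction G E]
  {ι : Type*} (r : ι → MaximalSpectrum E)
  (W : ∀ i, Submodule ℤ (Additive (E ⧸ (r i).asIdeal)ˣ))

/-- The units of `E` all of whose conjugates reduce, modulo every `r i`, into the prescribed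
subgroup `W i` of `(E ⧸ r i)ˣ` (e.g. the local units of an order which is a product of local
orders). -/
def unitsSubmodule : Submodule ℤ (Additive Eˣ) where
  carrier := {u | ∀ i (g : G),
    redAdd (r i) (Representation.ofMulDistribMulAction G Eˣ g u) ∈ W i}
  add_mem' := by
    intro a b ha hb i g
    rw [map_add, map_add]
    exact (W i).add_mem (ha i g) (hb i g)
  zero_mem' := by
    intro i g
    rw [map_zero, map_zero]
    exact (W i).zero_mem
  smul_mem' := by
    intro c u hu i g
    rw [map_smul, map_smul]
    exact (W i).smul_mem c (hu i g)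

lemma mem_unitsSubmodule (u : Additive Eˣ) :
    u ∈ unitsSubmodule (G := G) r W ↔
      ∀ i (g : G), Additive.ofMul (redUnits (r i) (g • u.toMul)) ∈ W i := Iff.rfl

lemma unitsSubmodule_le_comap (g : G) :
    unitsSubmodule (G := G) r W ≤
      (unitsSubmodule (G := G) r W).comap (Representation.ofMulDistribMulAction G Eˣ g) := by
  intro u hu i h
  have := hu i (h * g)
  rwa [map_mul] at this

variable (hW : ∀ i (s : MulAction.stabilizer G (r i)), W i ≤ (W i).comap
    (Representation.ofMulDistribMulAction (MulAction.stabilizer G (r i)) (E ⧸ (r i).asIdeal)ˣ s))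

/-- Reduction modulo `r i` from the units with residues in `W` to `W i`. -/
noncomputable def redSub (i : ι) : unitsSubmodule (G := G) r W →ₗ[ℤ] W i :=
  LinearMap.codRestrict (W i) ((redAdd (r i)).comp (unitsSubmodule (G := G) r W).subtype)
    (fun u => by
      have := u.2 i 1
      rwa [map_one] at this)

lemma redSub_equivariant (i : ι) (s : MulAction.stabilizer G (r i))
    (u : unitsSubmodule (G := G) r W) :
    redSub r W i ((Representation.ofMulDistribMulAction G Eˣ).subrepresentation
        (unitsSubmodule (G := G) r W) (unitsSubmodule_le_comap r W) (s : G) u) =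
      (Representation.ofMulDistribMulAction (MulAction.stabilizer G (r i))
        (E ⧸ (r i).asIdeal)ˣ).subrepresentation (W i) (hW i) s (redSub r W i u) :=
  Subtype.ext (redAdd_equivariant (r i) s u.1)

variable [IsArtinianRing E] [IsReduced E]

lemma toPiCoind_subUnits_bijective
    (hcov : ∀ m : MaximalSpectrum E, ∃ i, ∃ g : G, g • m = r i)
    (hsep : ∀ i j (g : G), g • r i = r j → i = j) :
    Function.Bijective (toPiCoind (W := fun i => ↥(W i))
      ((Representation.ofMulDistribMulAction G Eˣ).subrepresentation
        (unitsSubmodule (G := G) r W) (unitsSubmodule_le_comap r W))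
      (fun i => MulAction.stabilizer G (r i))
      (fun i => (Representation.ofMulDistribMulAction (MulAction.stabilizer G (r i))
        (E ⧸ (r i).asIdeal)ˣ).subrepresentation (W i) (hW i))
      (fun i => redSub r W i) (fun i => redSub_equivariant r W hW i)) := by
  constructor
  · rw [injective_iff_map_eq_zero]
    intro v hv
    have h : ∀ i (g : G), redUnits (r i) (g • v.1.toMul) = 1 := by
      intro i g
      have h1 : redAdd (r i) (Representation.ofMulDistribMulAction G Eˣ g v.1) = 0 :=
        congrArg (fun F => ((F i).1 g).1) hv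
      exact h1
    have := eq_one_of_forall_forall_redUnits_smul_eq_one r hcov v.1.toMul h
    exact Subtype.ext (congrArg Additive.ofMul this)
  · intro f
    obtain ⟨u, hu⟩ := exists_unit_forall_redUnits_smul_eq r hsep
      (fun i g => ((f i).1 g).1.toMul)
      (fun i s g => by
        have := (f i).2 s g
        simp only [Subgroup.coe_subtype] at this
        rw [this]
        rfl)
    have hmem : Additive.ofMul u ∈ unitsSubmodule (G := G) r W := by
      intro i g
      have : redAdd (r i) (Representation.ofMulDistribMulAction G Eˣ g (Additive.ofMul u)) =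
          ((f i).1 g).1 := by
        rw [Representation.ofMulDistribMulAction_apply_apply, toMul_ofMul, redAdd_apply,
          toMul_ofMul, hu]
        rfl
      rw [this]
      exact ((f i).1 g).2
    refine ⟨⟨Additive.ofMul u, hmem⟩,
      funext fun i => Subtype.ext (funext fun g => Subtype.ext ?_)⟩
    show redAdd (r i) (Representation.ofMulDistribMulAction G Eˣ g (Additive.ofMul u)) = _
    rw [Representation.ofMulDistribMulAction_apply_apply, toMul_ofMul, redAdd_apply,
      toMul_ofMul, hu]
    rfl

/-- **Stable unit subgroups of a finite product of fields permuted by `G`**: the `G`-module of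
units whose residues lie in prescribed (decomposition-group stable) subgroups `W i ≤ (E ⧸ r i)ˣ`
is the product of the modules coinduced from the `W i`. -/
noncomputable def subUnitsEquivPiCoind
    (hcov : ∀ m : MaximalSpectrum E, ∃ i, ∃ g : G, g • m = r i)
    (hsep : ∀ i j (g : G), g • r i = r j → i = j) :
    ((Representation.ofMulDistribMulAction G Eˣ).subrepresentation
        (unitsSubmodule (G := G) r W) (unitsSubmodule_le_comap r W)).Equiv
      (piRep fun i => Representation.coind (MulAction.stabilizer G (r i)).subtype
        ((Representation.ofMulDistribMulAction (MulAction.stabilizer G (r i))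
          (E ⧸ (r i).asIdeal)ˣ).subrepresentation (W i) (hW i))) :=
  piCoindEquivOfBijective (W := fun i => ↥(W i)) _ _ _ _ _
    (toPiCoind_subUnits_bijective r W hW hcov hsep)

end SubUnits

end Fermat.Agent.Lib.CFT.Global.EtaleAlg
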