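/-
P-CFT, Global/Places part (5): the archimedean side.

For a number field `L` the real algebra `ArchAlg L = ℝ ⊗[ℚ] L` of `Global/Ideles.lean` is
identified with Mathlib's mixed space `ℝ^r₁ × ℂ^r₂`; its maximal ideals are the kernels of the
evaluation maps at the infinite places; ring homomorphisms of number fields act through
`archMap`; the decomposition group of an infinite place is the stabiliser of its maximal ideal
and acts on the residue field `ℂ` by complex conjugation.  The last section contains the local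
facts for `ℂ/ℝ`: norm index `2` and Hilbert 90.
-/
import Mathlib
import Fermat.Agent.Lib.CFT.Global.Ideles
import Fermat.Agent.Lib.CFT.Global.EtaleAlg

set_option autoImplicit false

open NumberField NumberField.InfinitePlace NumberField.mixedEmbedding TensorProduct
open Fermat.Agent.Lib.CFT.Global

namespace Fermat.Agent.Lib.CFT.Global.PlacesInfinite

section Iso

variable (L : Type) [Field L] [NumberField L]

/-! ### The comparison map `ℝ ⊗[ℚ] L → mixedSpace L` -/

/-- The `ℝ`-algebra map `ℝ ⊗[ℚ] L → ℝ^r₁ × ℂ^r₂`, `r ⊗ l ↦ r • mixedEmbedding l`. -/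
noncomputable def toMixed : ArchAlg L →ₐ[ℝ] mixedSpace L :=
  Algebra.TensorProduct.lift (Algebra.ofId ℝ (mixedSpace L)) (mixedEmbedding L).toRatAlgHom
    (fun _ _ => Commute.all _ _)

@[simp]
theorem toMixed_tmul (r : ℝ) (l : L) :
    toMixed L (r ⊗ₜ[ℚ] l) = r • mixedEmbedding L l := by
  rw [toMixed, Algebra.TensorProduct.lift_tmul]
  simp [Algebra.ofId_apply, Algebra.algebraMap_eq_smul_one]

theorem toMixed_one_tmul (l : L) : toMixed L (1 ⊗ₜ[ℚ] l) = mixedEmbedding L l := by
  simp

theorem toMixed_injective : Function.Injective (toMixed L) := by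
  rw [injective_iff_map_eq_zero]
  intro x hx
  obtain ⟨c, rfl⟩ := TensorProduct.eq_repr_basis_right (integralBasis L) x
  have h1 : toMixed L (c.sum fun i r => r ⊗ₜ[ℚ] integralBasis L i) =
      Finsupp.linearCombination ℝ (latticeBasis L) c := by
    rw [Finsupp.linearCombination_apply, map_finsuppSum]
    refine Finsupp.sum_congr fun i _ => ?_
    rw [toMixed_tmul, latticeBasis_apply]
  rw [h1] at hx
  have h2 := (linearIndependent_iff.mp (latticeBasis L).linearIndependent) c hx
  rw [h2]
  simp

theorem toMixed_surjective : Function.Surjective (toMixed L) := by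
  intro y
  have hy : y ∈ Submodule.span ℝ (Set.range (latticeBasis L)) := by
    rw [(latticeBasis L).span_eq]; trivial
  induction hy using Submodule.span_induction with
  | mem y hy =>
    obtain ⟨i, rfl⟩ := hy
    exact ⟨1 ⊗ₜ[ℚ] integralBasis L i, by rw [toMixed_one_tmul, latticeBasis_apply]⟩
  | zero => exact ⟨0, map_zero _⟩
  | add y z _ _ hy hz =>
    obtain ⟨a, rfl⟩ := hy
    obtain ⟨b, rfl⟩ := hz
    exact ⟨a + b, map_add _ _ _⟩
  | smul r y _ hy =>
    obtain ⟨a, rfl⟩ := hy
    exact ⟨r • a, map_smul _ _ _⟩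

/-- `ℝ ⊗[ℚ] L ≃ ℝ^r₁ × ℂ^r₂` as `ℝ`-algebras. -/
noncomputable def archEquivMixed : ArchAlg L ≃ₐ[ℝ] mixedSpace L :=
  AlgEquiv.ofBijective (toMixed L) ⟨toMixed_injective L, toMixed_surjective L⟩

@[simp]
theorem archEquivMixed_apply (x : ArchAlg L) : archEquivMixed L x = toMixed L x := rfl

theorem archEquivMixed_one_tmul (l : L) :
    archEquivMixed L (1 ⊗ₜ[ℚ] l) = mixedEmbedding L l := toMixed_one_tmul L l

theorem finrank_archAlg : Module.finrank ℝ (ArchAlg L) = Module.finrank ℚ L := by
  rw [(archEquivMixed L).toLinearEquiv.finrank_eq, mixedEmbedding.finrank]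

theorem isReduced_archAlg : IsReduced (ArchAlg L) :=
  isReduced_of_injective (toMixed L) (toMixed_injective L)

theorem isArtinianRing_archAlg : IsArtinianRing (ArchAlg L) :=
  haveI : Module.Finite ℝ (ArchAlg L) := Module.Finite.equiv (archEquivMixed L).toLinearEquiv.symm
  IsArtinianRing.of_finite ℝ _

/-- `L → ℝ ⊗[ℚ] L` is injective. -/
theorem one_tmul_injective :
    Function.Injective (fun l : L => ((1 : ℝ) ⊗ₜ[ℚ] l : ArchAlg L)) := by
  intro a b h
  apply mixedEmbedding_injective L
  have := congrArg (toMixed L) h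
  simpa using this

/-! ### Evaluation at a complex embedding / an infinite place -/

/-- Evaluation at a complex embedding `φ`: `r ⊗ l ↦ r * φ l`, an `ℝ`-algebra map to `ℂ`. -/
noncomputable def evalEmb (φ : L →+* ℂ) : ArchAlg L →ₐ[ℝ] ℂ :=
  Algebra.TensorProduct.lift (Algebra.ofId ℝ ℂ) φ.toRatAlgHom (fun _ _ => Commute.all _ _)

variable {L}

@[simp]
theorem evalEmb_tmul (φ : L →+* ℂ) (r : ℝ) (l : L) :
    evalEmb L φ (r ⊗ₜ[ℚ] l) = (r : ℂ) * φ l := by
  rw [evalEmb, Algebra.TensorProduct.lift_tmul]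
  simp [Algebra.ofId_apply]

/-- Two `ℝ`-algebra maps out of `ℝ ⊗[ℚ] L` agreeing on `1 ⊗ l` agree. -/
theorem algHom_ext_arch {A : Type*} [Semiring A] [Algebra ℝ A]
    {f g : ArchAlg L →ₐ[ℝ] A} (h : ∀ l : L, f (1 ⊗ₜ[ℚ] l) = g (1 ⊗ₜ[ℚ] l)) : f = g := by
  ext x
  induction x using TensorProduct.induction_on with
  | zero => simp
  | tmul r l =>
    have : (r ⊗ₜ[ℚ] l : ArchAlg L) = r • ((1 : ℝ) ⊗ₜ[ℚ] l) := by
      rw [TensorProduct.smul_tmul', smul_eq_mul, mul_one]
    rw [this, map_smul, map_smul, h]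
  | add x y hx hy => rw [map_add, map_add, hx, hy]

theorem evalEmb_conjugate (φ : L →+* ℂ) (x : ArchAlg L) :
    evalEmb L (ComplexEmbedding.conjugate φ) x = (starRingEnd ℂ) (evalEmb L φ x) := by
  induction x using TensorProduct.induction_on with
  | zero => simp
  | tmul r l => simp [ComplexEmbedding.conjugate_coe_eq]
  | add x y hx hy => rw [map_add, map_add, map_add, hx, hy]

theorem ker_evalEmb_conjugate (φ : L →+* ℂ) :
    RingHom.ker (evalEmb L (ComplexEmbedding.conjugate φ)) = RingHom.ker (evalEmb L φ) := by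
  ext x
  simp only [RingHom.mem_ker, evalEmb_conjugate]
  exact map_eq_zero_iff (starRingEnd ℂ) (RingHom.injective _)

theorem ker_evalEmb_eq_of_mk_eq {φ ψ : L →+* ℂ} (h : InfinitePlace.mk φ = InfinitePlace.mk ψ) :
    RingHom.ker (evalEmb L φ) = RingHom.ker (evalEmb L ψ) := by
  rcases InfinitePlace.mk_eq_iff.mp h with h | h
  · rw [h]
  · rw [← h, ker_evalEmb_conjugate]

variable (L)

/-- The maximal ideal of `ℝ ⊗[ℚ] L` attached to an infinite place. -/
noncomputable def maxIdeal (w : InfinitePlace L) : Ideal (ArchAlg L) :=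
  RingHom.ker (evalEmb L w.embedding)

variable {L}

theorem maxIdeal_mk (φ : L →+* ℂ) : maxIdeal L (InfinitePlace.mk φ) = RingHom.ker (evalEmb L φ) :=
  ker_evalEmb_eq_of_mk_eq (InfinitePlace.mk_embedding _)

theorem mem_maxIdeal_iff (w : InfinitePlace L) (x : ArchAlg L) :
    x ∈ maxIdeal L w ↔ evalEmb L w.embedding x = 0 := Iff.rfl

/-- Evaluation at a complex place is the corresponding coordinate of the mixed space. -/
theorem evalEmb_embedding_of_isComplex (w : InfinitePlace L) (hw : w.IsComplex) (x : ArchAlg L) :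
    evalEmb L w.embedding x = (toMixed L x).2 ⟨w, hw⟩ := by
  induction x using TensorProduct.induction_on with
  | zero => simp
  | tmul r l => simp
  | add x y hx hy => simp only [map_add, hx, hy, Prod.snd_add, Pi.add_apply]

/-- Evaluation at a real place is the corresponding coordinate of the mixed space. -/
theorem evalEmb_embedding_of_isReal (w : InfinitePlace L) (hw : w.IsReal) (x : ArchAlg L) :
    evalEmb L w.embedding x = ((toMixed L x).1 ⟨w, hw⟩ : ℂ) := by
  induction x using TensorProduct.induction_on with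
  | zero => simp
  | tmul r l => simp
  | add x y hx hy => simp only [map_add, hx, hy, Prod.fst_add, Pi.add_apply, Complex.ofReal_add]

/-! ### Real and complex evaluation maps, surjectivity, maximality -/

/-- Evaluation at a real place, with values in `ℝ`. -/
noncomputable def evalReal (w : InfinitePlace L) (hw : w.IsReal) : ArchAlg L →ₐ[ℝ] ℝ :=
  Algebra.TensorProduct.lift (AlgHom.id ℝ ℝ) (embedding_of_isReal hw).toRatAlgHom
    (fun _ _ => Commute.all _ _)

@[simp]
theorem evalReal_tmul (w : InfinitePlace L) (hw : w.IsReal) (r : ℝ) (l : L) :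
    evalReal w hw (r ⊗ₜ[ℚ] l) = r * embedding_of_isReal hw l := by
  rw [evalReal, Algebra.TensorProduct.lift_tmul]
  simp

theorem evalReal_eq_toMixed (w : InfinitePlace L) (hw : w.IsReal) (x : ArchAlg L) :
    evalReal w hw x = (toMixed L x).1 ⟨w, hw⟩ := by
  induction x using TensorProduct.induction_on with
  | zero => simp
  | tmul r l => simp
  | add x y hx hy => simp only [map_add, hx, hy, Prod.fst_add, Pi.add_apply]

theorem ofReal_evalReal (w : InfinitePlace L) (hw : w.IsReal) (x : ArchAlg L) :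
    ((evalReal w hw x : ℝ) : ℂ) = evalEmb L w.embedding x := by
  rw [evalReal_eq_toMixed, evalEmb_embedding_of_isReal w hw]

theorem maxIdeal_eq_ker_evalReal (w : InfinitePlace L) (hw : w.IsReal) :
    maxIdeal L w = RingHom.ker (evalReal w hw) := by
  ext x
  rw [mem_maxIdeal_iff, RingHom.mem_ker, ← ofReal_evalReal w hw, Complex.ofReal_eq_zero]

theorem evalReal_surjective (w : InfinitePlace L) (hw : w.IsReal) :
    Function.Surjective (evalReal w hw) := fun r => ⟨r ⊗ₜ[ℚ] 1, by simp⟩

theorem evalEmb_surjective_of_isComplex (w : InfinitePlace L) (hw : w.IsComplex) :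
    Function.Surjective (evalEmb L w.embedding) := by
  classical
  intro z
  obtain ⟨x, hx⟩ := toMixed_surjective L (0, Pi.single ⟨w, hw⟩ z)
  refine ⟨x, ?_⟩
  rw [evalEmb_embedding_of_isComplex w hw, hx]
  simp

theorem maxIdeal_isMaximal (w : InfinitePlace L) : (maxIdeal L w).IsMaximal := by
  rcases w.isReal_or_isComplex with hw | hw
  · rw [maxIdeal_eq_ker_evalReal w hw]
    exact RingHom.ker_isMaximal_of_surjective _ (evalReal_surjective w hw)
  · exact RingHom.ker_isMaximal_of_surjective _ (evalEmb_surjective_of_isComplex w hw)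

/-- the intersection of all `maxIdeal w` is zero -/
theorem eq_zero_of_forall_mem_maxIdeal {x : ArchAlg L} (h : ∀ w, x ∈ maxIdeal L w) : x = 0 := by
  apply toMixed_injective L
  rw [map_zero]
  refine Prod.ext (funext fun w => ?_) (funext fun w => ?_)
  · have := h w.1
    rw [maxIdeal_eq_ker_evalReal w.1 w.2, RingHom.mem_ker, evalReal_eq_toMixed] at this
    simpa using this
  · have := h w.1
    rw [mem_maxIdeal_iff, evalEmb_embedding_of_isComplex w.1 w.2] at this
    simpa using this

theorem maxIdeal_injective : Function.Injective (maxIdeal L) := by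
  classical
  intro w w' h
  by_contra hne
  -- an element vanishing at `w'` but not at `w`
  obtain ⟨x, hx⟩ : ∃ x : ArchAlg L, x ∈ maxIdeal L w' ∧ x ∉ maxIdeal L w := by
    rcases w.isReal_or_isComplex with hw | hw
    · obtain ⟨x, hx⟩ := toMixed_surjective L (Pi.single ⟨w, hw⟩ 1, 0)
      refine ⟨x, ?_, ?_⟩
      · rcases w'.isReal_or_isComplex with hw' | hw'
        · rw [maxIdeal_eq_ker_evalReal w' hw', RingHom.mem_ker, evalReal_eq_toMixed, hx]
          have : (⟨w', hw'⟩ : {w : InfinitePlace L // w.IsReal}) ≠ ⟨w, hw⟩ := by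
            intro h'; exact hne (Subtype.ext_iff.mp h').symm
          simp [this]
        · rw [mem_maxIdeal_iff, evalEmb_embedding_of_isComplex w' hw', hx]
          simp
      · rw [maxIdeal_eq_ker_evalReal w hw, RingHom.mem_ker, evalReal_eq_toMixed, hx]
        simp
    · obtain ⟨x, hx⟩ := toMixed_surjective L (0, Pi.single ⟨w, hw⟩ 1)
      refine ⟨x, ?_, ?_⟩
      · rcases w'.isReal_or_isComplex with hw' | hw'
        · rw [maxIdeal_eq_ker_evalReal w' hw', RingHom.mem_ker, evalReal_eq_toMixed, hx]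
          simp
        · rw [mem_maxIdeal_iff, evalEmb_embedding_of_isComplex w' hw', hx]
          have : (⟨w', hw'⟩ : {w : InfinitePlace L // w.IsComplex}) ≠ ⟨w, hw⟩ := by
            intro h'; exact hne (Subtype.ext_iff.mp h').symm
          simp [this]
      · rw [mem_maxIdeal_iff, evalEmb_embedding_of_isComplex w hw, hx]
        simp
  exact hx.2 (h ▸ hx.1)

/-- every prime ideal of `ℝ ⊗[ℚ] L` is one of the `maxIdeal w` -/
theorem exists_eq_maxIdeal_of_isPrime (P : Ideal (ArchAlg L)) [hP : P.IsPrime] :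
    ∃ w : InfinitePlace L, P = maxIdeal L w := by
  classical
  have h0 : (Finset.univ : Finset (InfinitePlace L)).inf (maxIdeal L) ≤ P := by
    intro x hx
    rw [Submodule.mem_finsetInf] at hx
    rw [eq_zero_of_forall_mem_maxIdeal fun w => hx w (Finset.mem_univ w)]
    exact P.zero_mem
  obtain ⟨w, -, hw⟩ := (Ideal.IsPrime.inf_le' hP).mp h0
  exact ⟨w, ((maxIdeal_isMaximal w).eq_of_le hP.ne_top hw).symm⟩

/-- `InfinitePlace L ≃ MaximalSpectrum (ℝ ⊗[ℚ] L)`. -/
noncomputable def placeEquivMaximalSpectrum : InfinitePlace L ≃ MaximalSpectrum (ArchAlg L) :=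
  Equiv.ofBijective (fun w => ⟨maxIdeal L w, maxIdeal_isMaximal w⟩)
    ⟨fun w w' h => maxIdeal_injective (congrArg MaximalSpectrum.asIdeal h), fun m => by
      have := m.isMaximal.isPrime
      obtain ⟨w, hw⟩ := exists_eq_maxIdeal_of_isPrime m.asIdeal
      exact ⟨w, MaximalSpectrum.ext hw.symm⟩⟩

@[simp]
theorem placeEquivMaximalSpectrum_asIdeal (w : InfinitePlace L) :
    (placeEquivMaximalSpectrum w).asIdeal = maxIdeal L w := rfl

/-- residue field at a real place -/
noncomputable def quotientEquivReal (w : InfinitePlace L) (hw : w.IsReal) :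
    (ArchAlg L ⧸ maxIdeal L w) ≃ₐ[ℝ] ℝ :=
  (Ideal.quotientEquivAlgOfEq ℝ (maxIdeal_eq_ker_evalReal w hw)).trans
    (Ideal.quotientKerAlgEquivOfSurjective (evalReal_surjective w hw))

/-- residue field at a complex place -/
noncomputable def quotientEquivComplex (w : InfinitePlace L) (hw : w.IsComplex) :
    (ArchAlg L ⧸ maxIdeal L w) ≃ₐ[ℝ] ℂ :=
  Ideal.quotientKerAlgEquivOfSurjective (evalEmb_surjective_of_isComplex w hw)

@[simp]
theorem quotientEquivReal_mk (w : InfinitePlace L) (hw : w.IsReal) (x : ArchAlg L) :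
    quotientEquivReal w hw (Ideal.Quotient.mk _ x) = evalReal w hw x := rfl

@[simp]
theorem quotientEquivComplex_mk (w : InfinitePlace L) (hw : w.IsComplex) (x : ArchAlg L) :
    quotientEquivComplex w hw (Ideal.Quotient.mk _ x) = evalEmb L w.embedding x := rfl

end Iso

section Functoriality

variable {K L : Type} [Field K] [NumberField K] [Field L] [NumberField L]

/-! ### Functoriality in the number field (through `archMap`) -/

theorem evalEmb_archMap (φ : L →+* ℂ) (f : K →+* L) (x : ArchAlg K) :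
    evalEmb L φ (archMap f x) = evalEmb K (φ.comp f) x := by
  have : (evalEmb L φ).comp (archMap f) = evalEmb K (φ.comp f) :=
    algHom_ext_arch fun l => by simp
  exact DFunLike.congr_fun this x

theorem archMap_injective (f : K →+* L) : Function.Injective (archMap f) := by
  rw [injective_iff_map_eq_zero]
  intro x hx
  refine eq_zero_of_forall_mem_maxIdeal fun v => ?_
  obtain ⟨w, rfl⟩ : ∃ w : InfinitePlace L, w.comap f = v := by
    let _ := f.toAlgebra
    exact InfinitePlace.comap_surjective v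
  rw [← InfinitePlace.mk_embedding w, InfinitePlace.comap_mk, maxIdeal_mk, RingHom.mem_ker,
    ← evalEmb_archMap, hx, map_zero]

/-- restriction of places = contraction of maximal ideals -/
theorem comap_maxIdeal (f : K →+* L) (w : InfinitePlace L) :
    (maxIdeal L w).comap (archMap f) = maxIdeal K (w.comap f) := by
  ext x
  rw [Ideal.mem_comap, mem_maxIdeal_iff, evalEmb_archMap]
  conv_rhs => rw [← InfinitePlace.mk_embedding w, InfinitePlace.comap_mk, maxIdeal_mk]
  rfl

/-! ### The action of automorphisms -/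

/-- The automorphism of `ℝ ⊗[ℚ] L` induced by a ring automorphism of `L`. -/
noncomputable def actEquiv (σ : L ≃+* L) : ArchAlg L ≃ₐ[ℝ] ArchAlg L :=
  AlgEquiv.ofAlgHom (archMap (σ : L →+* L)) (archMap (σ.symm : L →+* L))
    (by
      refine algHom_ext_arch fun l => ?_
      simp)
    (by
      refine algHom_ext_arch fun l => ?_
      simp)

@[simp]
theorem actEquiv_apply (σ : L ≃+* L) (x : ArchAlg L) :
    actEquiv σ x = archMap (σ : L →+* L) x := rfl

@[simp]
theorem actEquiv_symm_apply (σ : L ≃+* L) (x : ArchAlg L) :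
    (actEquiv σ).symm x = archMap (σ.symm : L →+* L) x := rfl

theorem actEquiv_tmul (σ : L ≃+* L) (r : ℝ) (l : L) :
    actEquiv σ (r ⊗ₜ[ℚ] l) = r ⊗ₜ[ℚ] σ l := by simp

theorem mem_map_actEquiv_iff (σ : L ≃+* L) (I : Ideal (ArchAlg L)) (x : ArchAlg L) :
    x ∈ I.map (actEquiv σ) ↔ (actEquiv σ).symm x ∈ I := by
  rw [Ideal.mem_map_of_equiv]
  constructor
  · rintro ⟨y, hy, rfl⟩
    rwa [AlgEquiv.symm_apply_apply]
  · intro h
    exact ⟨_, h, AlgEquiv.apply_symm_apply _ _⟩

variable {k : Type*} [Field k] [Algebra k L]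

/-- The action of `σ ∈ Gal(L/k)` moves the maximal ideal of `w` to that of `σ • w`. -/
theorem map_maxIdeal_smul (σ : Gal(L/k)) (w : InfinitePlace L) :
    (maxIdeal L w).map (actEquiv (σ : L ≃+* L)) = maxIdeal L (σ • w) := by
  ext x
  rw [mem_map_actEquiv_iff, mem_maxIdeal_iff]
  conv_rhs => rw [← InfinitePlace.mk_embedding w, InfinitePlace.smul_mk, maxIdeal_mk]
  rw [RingHom.mem_ker, actEquiv_symm_apply, evalEmb_archMap]
  rfl

theorem mem_maxIdeal_smul_iff (σ : Gal(L/k)) (w : InfinitePlace L) (x : ArchAlg L) :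
    x ∈ maxIdeal L (σ • w) ↔ (actEquiv (σ : L ≃+* L)).symm x ∈ maxIdeal L w := by
  rw [← map_maxIdeal_smul, mem_map_actEquiv_iff]

theorem actEquiv_mem_maxIdeal_smul_iff (σ : Gal(L/k)) (w : InfinitePlace L) (x : ArchAlg L) :
    actEquiv (σ : L ≃+* L) x ∈ maxIdeal L (σ • w) ↔ x ∈ maxIdeal L w := by
  rw [mem_maxIdeal_smul_iff, AlgEquiv.symm_apply_apply]

/-- `σ` stabilises the place `w` iff it stabilises the maximal ideal of `w`. -/
theorem smul_eq_iff_map_maxIdeal_eq (σ : Gal(L/k)) (w : InfinitePlace L) :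
    σ • w = w ↔ (maxIdeal L w).map (actEquiv (σ : L ≃+* L)) = maxIdeal L w := by
  rw [map_maxIdeal_smul]
  exact ⟨fun h => by rw [h], fun h => maxIdeal_injective h⟩

/-- If `σ` is the conjugation at the embedding `φ`, it acts on the residue field `ℂ` of `φ` as
complex conjugation. -/
theorem evalEmb_actEquiv_of_isConj {σ : Gal(L/k)} {φ : L →+* ℂ}
    (h : ComplexEmbedding.IsConj φ σ) (x : ArchAlg L) :
    evalEmb L φ (actEquiv (σ : L ≃+* L) x) = (starRingEnd ℂ) (evalEmb L φ x) := by
  have : φ.comp ((σ : L ≃+* L) : L →+* L) = ComplexEmbedding.conjugate φ := by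
    ext l
    exact h.eq l
  rw [actEquiv_apply, evalEmb_archMap, this, evalEmb_conjugate]

omit [NumberField L] in
/-- An element of the decomposition group of `w` is the identity or the conjugation at `w`. -/
theorem eq_one_or_isConj_of_smul_eq {σ : Gal(L/k)} {w : InfinitePlace L} (h : σ • w = w) :
    σ = 1 ∨ ComplexEmbedding.IsConj w.embedding σ := by
  have : σ ∈ MulAction.stabilizer Gal(L/k) (InfinitePlace.mk w.embedding) := by
    rw [InfinitePlace.mk_embedding]; exact h
  exact (InfinitePlace.mem_stabilizer_mk_iff _ _).mp this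

/-- Compatibility with the `MulSemiringAction` of `Global/Ideles.lean`: for the Galois group
acting on `L`, `σ • x = actEquiv σ x`. -/
theorem smul_eq_actEquiv (σ : Gal(L/k)) (x : ArchAlg L) :
    σ • x = actEquiv (σ : L ≃+* L) x := by
  rw [smul_archAlg_def, actEquiv_apply]
  rfl

end Functoriality

end Fermat.Agent.Lib.CFT.Global.PlacesInfinite

namespace Fermat.Agent.Lib.CFT.Global.PlacesInfinite

section EtaleAlgForm

open scoped Pointwise


variable {L : Type} [Field L] [NumberField L] {k : Type*} [Field k] [Algebra k L]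

/-- In the pointwise action on ideals (as used by `Global/EtaleAlg.lean`), `σ` moves the maximal
ideal of `w` to that of `σ • w`. -/
theorem smul_maxIdeal (σ : Gal(L/k)) (w : InfinitePlace L) :
    σ • maxIdeal L w = maxIdeal L (σ • w) := by
  rw [← map_maxIdeal_smul]
  rfl

open EtaleAlg in
/-- `placeEquivMaximalSpectrum` is equivariant for the action of `Gal(L/k)` on infinite places and
the action on the maximal spectrum of `Global/EtaleAlg.lean`. -/
theorem placeEquivMaximalSpectrum_smul (σ : Gal(L/k)) (w : InfinitePlace L) :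
    placeEquivMaximalSpectrum (σ • w) = σ • placeEquivMaximalSpectrum w := by
  apply MaximalSpectrum.ext
  rw [EtaleAlg.smul_asIdeal, placeEquivMaximalSpectrum_asIdeal, placeEquivMaximalSpectrum_asIdeal,
    smul_maxIdeal]

end EtaleAlgForm

end Fermat.Agent.Lib.CFT.Global.PlacesInfinite

namespace Fermat.Agent.Lib.CFT.Global.PlacesInfinite

/-! ### The local extension `ℂ/ℝ`: norm index and Hilbert 90 -/

open ComplexConjugate

/-- complex conjugation on `ℂˣ` -/
noncomputable def conjUnits : ℂˣ →* ℂˣ := Units.map (starRingEnd ℂ : ℂ →* ℂ)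

@[simp] theorem conjUnits_coe (z : ℂˣ) : (conjUnits z : ℂ) = conj (z : ℂ) := rfl

theorem conjUnits_conjUnits (z : ℂˣ) : conjUnits (conjUnits z) = z := by
  ext; simp

/-- the norm `z ↦ z * conj z` on `ℂˣ` -/
noncomputable def normUnits : ℂˣ →* ℂˣ := MonoidHom.id ℂˣ * conjUnits

@[simp] theorem normUnits_coe (z : ℂˣ) : (normUnits z : ℂ) = (z : ℂ) * conj (z : ℂ) := rfl

/-- `z ↦ z / conj z` on `ℂˣ` -/
noncomputable def divConjUnits : ℂˣ →* ℂˣ := MonoidHom.id ℂˣ / conjUnits

@[simp] theorem divConjUnits_coe (z : ℂˣ) :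
    (divConjUnits z : ℂ) = (z : ℂ) / conj (z : ℂ) := by
  simp [divConjUnits, div_eq_mul_inv]

/-- the units fixed by conjugation -/
noncomputable def fixedUnits : Subgroup ℂˣ := (divConjUnits).ker

theorem mem_fixedUnits_iff (z : ℂˣ) : z ∈ fixedUnits ↔ conj (z : ℂ) = z := by
  rw [fixedUnits, MonoidHom.mem_ker, Units.ext_iff, divConjUnits_coe, Units.val_one,
    div_eq_one_iff_eq (by simp)]
  exact eq_comm

theorem mem_fixedUnits_iff_exists_real (z : ℂˣ) : z ∈ fixedUnits ↔ ∃ r : ℝ, (r : ℂ) = z := by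
  rw [mem_fixedUnits_iff, Complex.conj_eq_iff_real]
  exact ⟨fun ⟨r, h⟩ => ⟨r, h.symm⟩, fun ⟨r, h⟩ => ⟨r, h.symm⟩⟩

theorem mem_range_normUnits_iff (z : ℂˣ) :
    z ∈ normUnits.range ↔ ∃ r : ℝ, 0 < r ∧ (r : ℂ) = z := by
  constructor
  · rintro ⟨u, rfl⟩
    refine ⟨Complex.normSq u, Complex.normSq_pos.mpr u.ne_zero, ?_⟩
    rw [normUnits_coe, Complex.mul_conj]
  · rintro ⟨r, hr, h⟩
    have hs : ((Real.sqrt r : ℝ) : ℂ) ≠ 0 := by
      simpa using (Real.sqrt_pos.mpr hr).ne'
    refine ⟨Units.mk0 _ hs, ?_⟩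
    ext
    rw [normUnits_coe, Units.val_mk0, Complex.conj_ofReal, ← h, ← Complex.ofReal_mul,
      Real.mul_self_sqrt hr.le]

theorem range_normUnits_le_fixedUnits : normUnits.range ≤ fixedUnits := by
  intro z hz
  obtain ⟨r, -, h⟩ := (mem_range_normUnits_iff z).mp hz
  exact (mem_fixedUnits_iff_exists_real z).mpr ⟨r, h⟩

/-- `[ℝˣ : N ℂˣ] = 2`. -/
theorem relIndex_range_normUnits : normUnits.range.relIndex fixedUnits = 2 := by
  rw [Subgroup.relIndex_eq_two_iff]
  refine ⟨-1, (mem_fixedUnits_iff_exists_real _).mpr ⟨-1, by simp⟩, fun b hb => ?_⟩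
  obtain ⟨r, hr⟩ := (mem_fixedUnits_iff_exists_real b).mp hb
  have hr0 : r ≠ 0 := by
    rintro rfl
    exact b.ne_zero (by rw [← hr]; simp)
  have h1 : b * (-1) ∈ normUnits.range ↔ r < 0 := by
    rw [mem_range_normUnits_iff]
    constructor
    · rintro ⟨s, hs, h⟩
      have : s = -r := by
        apply Complex.ofReal_injective
        rw [h, Units.val_mul, ← hr]; simp
      linarith
    · intro h
      exact ⟨-r, by linarith, by rw [Units.val_mul, ← hr]; simp⟩
  have h2 : b ∈ normUnits.range ↔ 0 < r := by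
    rw [mem_range_normUnits_iff]
    constructor
    · rintro ⟨s, hs, h⟩
      have : s = r := Complex.ofReal_injective (by rw [h, hr])
      linarith
    · intro h
      exact ⟨r, h, hr⟩
  rw [h1, h2]
  rcases lt_or_gt_of_ne hr0 with h | h
  · exact Or.inl ⟨h, not_lt.mpr h.le⟩
  · exact Or.inr ⟨h, not_lt.mpr h.le⟩

/-- Hilbert 90 for `ℂ/ℝ`: an element of norm `1` is of the form `u / conj u`. -/
theorem ker_normUnits_eq_range_divConjUnits : normUnits.ker = divConjUnits.range := by
  ext z
  rw [MonoidHom.mem_ker, MonoidHom.mem_range]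
  constructor
  · intro hz
    have hz' : (z : ℂ) * conj (z : ℂ) = 1 := by
      have := congrArg Units.val hz
      simpa using this
    by_cases h1 : (1 : ℂ) + z = 0
    · -- z = -1 = I / conj I
      refine ⟨Units.mk0 Complex.I Complex.I_ne_zero, ?_⟩
      ext
      rw [divConjUnits_coe, Units.val_mk0, Complex.conj_I]
      have : (z : ℂ) = -1 := by linear_combination h1
      rw [this, div_neg, div_self Complex.I_ne_zero]
    · refine ⟨Units.mk0 _ h1, ?_⟩
      ext
      rw [divConjUnits_coe, Units.val_mk0, map_add, map_one]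
      have h2 : (1 : ℂ) + conj (z : ℂ) ≠ 0 := by
        intro h
        apply h1
        have := congrArg conj h
        simpa using this
      rw [div_eq_iff h2]
      linear_combination -hz'
  · rintro ⟨u, rfl⟩
    ext
    rw [normUnits_coe, divConjUnits_coe, map_div₀, Complex.conj_conj, Units.val_one]
    have h1 : (u : ℂ) ≠ 0 := u.ne_zero
    have h2 : conj (u : ℂ) ≠ 0 := by simp
    field_simp


end Fermat.Agent.Lib.CFT.Global.PlacesInfinite
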