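/-
P-CFT, Global/CohIdeles: the archimedean factor `(ArchAlg L)ˣ = (ℝ ⊗[ℚ] L)ˣ` of the ideles as a
`G`-module, for a finite group `G` acting faithfully on the number field `L`.

* `placeMulAction`: the action of `G` on the infinite places, `g • w = w ∘ g⁻¹`;
* `placeEquivMaximalSpectrum_smul'`: the dictionary with maximal ideals is equivariant;
* `archUnitsEquivPiCoind`: `(ArchAlg L)ˣ` is the product over the `G`-orbits of infinite places of
  the modules coinduced from the residue unit groups with their decomposition-group action;
* local analysis: a decomposition group has order `1` or `2`, and in the second case it acts on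
  the residue field `ℂ` by complex conjugation; Herbrand indices `[Ĥ⁰] = |G_w|`, `[Ĥ⁻¹] = 1`.
-/
import Mathlib
import Fermat.Agent.Lib.CFT.Global.PlacesInfinite
import Fermat.Agent.Lib.CFT.Global.EtaleAlgOrbits
import Fermat.Agent.Lib.CFT.HerbrandMul

set_option autoImplicit false

open NumberField NumberField.InfinitePlace TensorProduct
open Fermat.Agent.Lib.CFT.Global Fermat.Agent.Lib.CFT.Global.PlacesInfinite
open Fermat.Agent.Lib.CFT.Herbrand
open scoped Pointwise ComplexConjugate

namespace Fermat.Agent.Lib.CFT.Global.CohIdelesArch

section RingEquiv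

variable {L : Type} [Field L] [NumberField L]

/-- A ring automorphism `σ` of `L` moves the maximal ideal of `w` to that of `w ∘ σ⁻¹`. -/
theorem map_maxIdeal_ringEquiv (σ : L ≃+* L) (w : InfinitePlace L) :
    (maxIdeal L w).map (actEquiv σ) = maxIdeal L (w.comap (σ.symm : L →+* L)) := by
  ext x
  rw [mem_map_actEquiv_iff, mem_maxIdeal_iff]
  conv_rhs => rw [← InfinitePlace.mk_embedding w, InfinitePlace.comap_mk, maxIdeal_mk]
  rw [RingHom.mem_ker, actEquiv_symm_apply, evalEmb_archMap]

end RingEquiv

section Action

variable (L : Type) [Field L] [NumberField L] (G : Type) [Group G] [MulSemiringAction G L]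

/-- The action of `G` on the infinite places of `L`: `g • w = w ∘ g⁻¹`.  (For `G = Gal(L/K)` this
is Mathlib's action; it is also `infMap` of `Global/SUnits.lean`.) -/
@[reducible] noncomputable def placeMulAction : MulAction G (InfinitePlace L) where
  smul g w := w.comap ((MulSemiringAction.toRingEquiv G L g).symm : L →+* L)
  one_smul w := by
    refine InfinitePlace.ext _ _ fun x => ?_
    change (w.comap ((MulSemiringAction.toRingEquiv G L 1).symm : L →+* L)) x = w x
    rw [InfinitePlace.comap_apply]
    congr 1
    have : MulSemiringAction.toRingEquiv G L 1 = RingEquiv.refl L := by ext y; simp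
    rw [this]
    rfl
  mul_smul g h w := by
    refine InfinitePlace.ext _ _ fun x => ?_
    change (w.comap ((MulSemiringAction.toRingEquiv G L (g * h)).symm : L →+* L)) x =
      ((w.comap ((MulSemiringAction.toRingEquiv G L h).symm : L →+* L)).comap
        ((MulSemiringAction.toRingEquiv G L g).symm : L →+* L)) x
    rw [InfinitePlace.comap_apply, InfinitePlace.comap_apply, InfinitePlace.comap_apply]
    congr 1
    change (MulSemiringAction.toRingEquiv G L (g * h)).symm x =
      (MulSemiringAction.toRingEquiv G L h).symm ((MulSemiringAction.toRingEquiv G L g).symm x)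
    rw [RingEquiv.symm_apply_eq]
    change x = (g * h) • _
    rw [mul_smul]
    change x = MulSemiringAction.toRingEquiv G L g (MulSemiringAction.toRingEquiv G L h
      ((MulSemiringAction.toRingEquiv G L h).symm ((MulSemiringAction.toRingEquiv G L g).symm x)))
    simp

noncomputable scoped instance instPlaceMulAction : MulAction G (InfinitePlace L) := placeMulAction L G

variable {L G}

omit [NumberField L] in
theorem place_smul_def (g : G) (w : InfinitePlace L) :
    g • w = w.comap ((MulSemiringAction.toRingEquiv G L g).symm : L →+* L) := rfl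

omit [NumberField L] in
theorem place_smul_apply (g : G) (w : InfinitePlace L) (x : L) : (g • w) x = w (g⁻¹ • x) := by
  rw [place_smul_def, InfinitePlace.comap_apply]
  rfl

/-- the action of `g` on `ArchAlg L` is `actEquiv` of the corresponding ring automorphism -/
theorem smul_eq_actEquiv' (g : G) (x : ArchAlg L) :
    g • x = actEquiv (MulSemiringAction.toRingEquiv G L g) x := by
  rw [smul_archAlg_def, actEquiv_apply]
  rfl

theorem smul_maxIdeal' (g : G) (w : InfinitePlace L) :
    g • maxIdeal L w = maxIdeal L (g • w) := by
  rw [place_smul_def, ← map_maxIdeal_ringEquiv]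
  rfl

open EtaleAlg in
/-- `placeEquivMaximalSpectrum` is `G`-equivariant. -/
theorem placeEquivMaximalSpectrum_smul' (g : G) (w : InfinitePlace L) :
    placeEquivMaximalSpectrum (g • w) = g • placeEquivMaximalSpectrum w := by
  apply MaximalSpectrum.ext
  rw [EtaleAlg.smul_asIdeal, placeEquivMaximalSpectrum_asIdeal, placeEquivMaximalSpectrum_asIdeal,
    smul_maxIdeal']

end Action

section Orbits

variable (L : Type) [Field L] [NumberField L] (G : Type) [Group G] [MulSemiringAction G L]

open EtaleAlg

attribute [local instance] Units.mulDistribMulActionRight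

/-- `ArchAlg L` is Artinian (scoped instance). -/
scoped instance instIsArtinianRingArchAlg : IsArtinianRing (ArchAlg L) := isArtinianRing_archAlg L

/-- `ArchAlg L` is reduced (scoped instance). -/
scoped instance instIsReducedArchAlg : IsReduced (ArchAlg L) := isReduced_archAlg L

/-- The index set: `G`-orbits of infinite places of `L` (for `G = Gal(L/K)` these are the infinite
places of `K`, `InfinitePlace.orbitRelEquiv`). -/
abbrev PlaceOrbit : Type := MulAction.orbitRel.Quotient G (InfinitePlace L)

/-- A chosen place in each orbit. -/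
noncomputable def orbitPlace (ω : PlaceOrbit L G) : InfinitePlace L := Quotient.out ω

/-- The corresponding maximal ideals, a system of representatives of the `G`-orbits on the maximal
spectrum of `ArchAlg L`. -/
noncomputable def orbitMax (ω : PlaceOrbit L G) : MaximalSpectrum (ArchAlg L) :=
  placeEquivMaximalSpectrum (orbitPlace L G ω)

variable {L G}

omit [NumberField L] in
theorem orbitPlace_mk (ω : PlaceOrbit L G) :
    (Quotient.mk'' (orbitPlace L G ω) : PlaceOrbit L G) = ω := Quotient.out_eq ω

omit [NumberField L] in
theorem exists_smul_eq_orbitPlace (w : InfinitePlace L) :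
    ∃ g : G, g • w = orbitPlace L G (Quotient.mk'' w) := by
  have h : (Quotient.mk'' (orbitPlace L G (Quotient.mk'' w)) : PlaceOrbit L G) = Quotient.mk'' w :=
    orbitPlace_mk _
  have h2 := Quotient.exact h
  change orbitPlace L G (Quotient.mk'' w) ∈ MulAction.orbit G w at h2
  obtain ⟨g, hg⟩ := h2
  exact ⟨g, hg⟩

theorem orbitMax_cover (m : MaximalSpectrum (ArchAlg L)) :
    ∃ ω : PlaceOrbit L G, ∃ g : G, g • m = orbitMax L G ω := by
  obtain ⟨w, rfl⟩ := (placeEquivMaximalSpectrum (L := L)).surjective m
  obtain ⟨g, hg⟩ := exists_smul_eq_orbitPlace (G := G) w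
  exact ⟨Quotient.mk'' w, g, by rw [orbitMax, ← hg, placeEquivMaximalSpectrum_smul']⟩

theorem orbitMax_separated (ω ω' : PlaceOrbit L G) (g : G)
    (h : g • orbitMax L G ω = orbitMax L G ω') : ω = ω' := by
  rw [orbitMax, orbitMax, ← placeEquivMaximalSpectrum_smul'] at h
  have h2 := (placeEquivMaximalSpectrum (L := L)).injective h
  rw [← orbitPlace_mk ω, ← orbitPlace_mk ω']
  apply Quotient.sound
  change orbitPlace L G ω ∈ MulAction.orbit G (orbitPlace L G ω')
  exact ⟨g⁻¹, by simp [← h2]⟩

/-- The unit group of the residue field at a maximal ideal (elaborated for a general commutative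
ring, so that instance paths agree with those of `Global/EtaleAlg.lean`). -/
abbrev ResUnits {E : Type*} [CommRing E] (m : MaximalSpectrum E) : Type _ := (E ⧸ m.asIdeal)ˣ

variable (L G)

/-- **The archimedean factor of the ideles as a `G`-module**: `(ℝ ⊗ L)ˣ` is the product over the
`G`-orbits `ω` of infinite places of the modules coinduced from `(ArchAlg L ⧸ 𝔪_w)ˣ`
(`w = orbitPlace ω`; the residue field is `ℝ` or `ℂ`) with its decomposition-group action. -/
noncomputable def archUnitsEquivPiCoind :
    (Representation.ofMulDistribMulAction G (ArchAlg L)ˣ).Equiv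
      (piRep fun ω : PlaceOrbit L G =>
        Representation.coind (MulAction.stabilizer G (orbitMax L G ω)).subtype
          (Representation.ofMulDistribMulAction (MulAction.stabilizer G (orbitMax L G ω))
            (ResUnits (orbitMax L G ω)))) :=
  unitsEquivPiCoind G (orbitMax L G) orbitMax_cover orbitMax_separated

theorem archUnitsEquivPiCoind_apply (u : Additive (ArchAlg L)ˣ) (ω : PlaceOrbit L G) (g : G) :
    ((archUnitsEquivPiCoind L G).toLinearEquiv u ω).1 g =
      Additive.ofMul (redUnits (orbitMax L G ω) (g • u.toMul)) :=
  unitsEquivPiCoind_apply (orbitMax L G) orbitMax_cover orbitMax_separated u ω g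

end Orbits

section Decomposition

open EtaleAlg

variable {L : Type} [Field L] [NumberField L] {G : Type} [Group G] [MulSemiringAction G L]

/-- `g` acts at the place `w` as complex conjugation: `w.embedding (g • x) = conj (w.embedding x)`.
-/
def IsConjAt (w : InfinitePlace L) (g : G) : Prop :=
  ∀ x : L, w.embedding (g • x) = conj (w.embedding x)

omit [NumberField L] in
theorem IsConjAt.comp_eq {w : InfinitePlace L} {g : G} (h : IsConjAt w g) :
    w.embedding.comp (MulSemiringAction.toRingHom G L g) =
      ComplexEmbedding.conjugate w.embedding := by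
  ext x
  exact h x

omit [NumberField L] in
theorem IsConjAt.inv_apply {w : InfinitePlace L} {g : G} (h : IsConjAt w g) (x : L) :
    w.embedding (g⁻¹ • x) = conj (w.embedding x) := by
  have := h (g⁻¹ • x)
  rw [smul_inv_smul] at this
  rw [this, Complex.conj_conj]

omit [NumberField L] in
theorem IsConjAt.smul_eq {w : InfinitePlace L} {g : G} (h : IsConjAt w g) : g • w = w := by
  conv_rhs => rw [← InfinitePlace.mk_embedding w, ← InfinitePlace.mk_conjugate_eq]
  conv_lhs => rw [place_smul_def, ← InfinitePlace.mk_embedding w, InfinitePlace.comap_mk]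
  congr 1
  ext x
  exact h.inv_apply x

variable [FaithfulSMul G L]

omit [NumberField L] in
theorem IsConjAt.unique {w : InfinitePlace L} {g h : G} (hg : IsConjAt w g) (hh : IsConjAt w h) :
    g = h := by
  apply eq_of_smul_eq_smul (α := L)
  intro x
  apply w.embedding.injective
  rw [hg x, hh x]

omit [NumberField L] in
/-- The decomposition group of `w`: `g • w = w` iff `g = 1` or `g` is the conjugation at `w`. -/
theorem smul_place_eq_iff (w : InfinitePlace L) (g : G) :
    g • w = w ↔ g = 1 ∨ IsConjAt w g := by
  constructor
  · intro h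
    rw [place_smul_def] at h
    conv_rhs at h => rw [← InfinitePlace.mk_embedding w]
    conv_lhs at h => rw [← InfinitePlace.mk_embedding w, InfinitePlace.comap_mk]
    rcases InfinitePlace.mk_eq_iff.mp h with h | h
    · left
      have h1 : ∀ x : L, g⁻¹ • x = x := by
        intro x
        apply w.embedding.injective
        exact RingHom.congr_fun h x
      have : g⁻¹ = 1 := eq_of_smul_eq_smul (α := L) (fun x => by rw [h1 x, one_smul])
      rwa [inv_eq_one] at this
    · right
      intro x
      have := RingHom.congr_fun h (g • x)
      simp only [ComplexEmbedding.conjugate_coe_eq, RingHom.coe_comp, Function.comp_apply] at this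
      have h2 : ((MulSemiringAction.toRingEquiv G L g).symm : L →+* L) (g • x) = x := by
        change g⁻¹ • g • x = x
        rw [inv_smul_smul]
      rw [h2] at this
      exact this.symm
  · rintro (rfl | h)
    · exact one_smul _ _
    · exact h.smul_eq

omit [FaithfulSMul G L] in
theorem mem_stabilizer_placeEquiv_iff (w : InfinitePlace L) (g : G) :
    g ∈ MulAction.stabilizer G (placeEquivMaximalSpectrum w) ↔ g • w = w := by
  rw [MulAction.mem_stabilizer_iff, ← placeEquivMaximalSpectrum_smul']
  exact ⟨fun h => (placeEquivMaximalSpectrum (L := L)).injective h, fun h => by rw [h]⟩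

theorem mem_stabilizer_placeEquiv_iff' (w : InfinitePlace L) (g : G) :
    g ∈ MulAction.stabilizer G (placeEquivMaximalSpectrum w) ↔ g = 1 ∨ IsConjAt w g := by
  rw [mem_stabilizer_placeEquiv_iff, smul_place_eq_iff]

omit [NumberField L] in
/-- a conjugation at a real place is trivial -/
theorem IsConjAt.eq_one_of_isReal {w : InfinitePlace L} {g : G} (h : IsConjAt w g)
    (hw : w.IsReal) : g = 1 := by
  apply eq_of_smul_eq_smul (α := L)
  intro x
  apply w.embedding.injective
  rw [h x, one_smul]
  have := (InfinitePlace.isReal_iff.mp hw)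
  exact RingHom.congr_fun (ComplexEmbedding.isReal_iff.mp this) x

/-- The decomposition group of an infinite place has at most two elements. -/
theorem card_stabilizer_placeEquiv_le_two (w : InfinitePlace L) :
    Nat.card (MulAction.stabilizer G (placeEquivMaximalSpectrum w)) ≤ 2 := by
  classical
  by_cases hex : ∃ c : G, IsConjAt w c
  · obtain ⟨c, hc⟩ := hex
    have hsub : ((MulAction.stabilizer G (placeEquivMaximalSpectrum w) : Subgroup G) : Set G) ⊆
        ({1, c} : Finset G) := by
      intro g hg
      rcases (mem_stabilizer_placeEquiv_iff' w g).mp hg with rfl | hg'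
      · simp
      · rw [hc.unique hg']; simp
    have hfin : ((MulAction.stabilizer G (placeEquivMaximalSpectrum w) : Subgroup G) : Set G).Finite :=
      (Finset.finite_toSet _).subset hsub
    calc Nat.card (MulAction.stabilizer G (placeEquivMaximalSpectrum w))
        = Nat.card ((MulAction.stabilizer G (placeEquivMaximalSpectrum w) : Subgroup G) : Set G) := rfl
      _ ≤ Nat.card (({1, c} : Finset G) : Set G) := Nat.card_mono (Finset.finite_toSet _) hsub
      _ = ({1, c} : Finset G).card := by simp
      _ ≤ 2 := Finset.card_le_two
  · have : MulAction.stabilizer G (placeEquivMaximalSpectrum w) = ⊥ := by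
      rw [eq_bot_iff]
      intro g hg
      rcases (mem_stabilizer_placeEquiv_iff' w g).mp hg with rfl | hg'
      · exact Subgroup.mem_bot.mpr rfl
      · exact (hex ⟨g, hg'⟩).elim
    rw [this]
    simp

end Decomposition

section HerbrandGeneral

/-- transport of `hIndexMul` along an isomorphism -/
theorem hIndexMul_congr {A B : Type*} [CommGroup A] [CommGroup B] {fA gA : A →* A}
    {fB gB : B →* B} (e : A ≃* B)
    (hf : ∀ a, e (fA a) = fB (e a)) (hg : ∀ a, e (gA a) = gB (e a)) :
    hIndexMul fA gA = hIndexMul fB gB := by
  rw [← hIndex_toAdditive, ← hIndex_toAdditive]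
  exact hIndex_congr (MulEquiv.toAdditive e) (fun a => congrArg Additive.ofMul (hf a.toMul))
    (fun a => congrArg Additive.ofMul (hg a.toMul))

/-- The Herbrand indices of a trivial group are `1`. -/
theorem hIndexMul_of_subsingleton (H : Type*) [Group H] [Fintype H] [Subsingleton H]
    (M : Type*) [CommGroup M] [MulDistribMulAction H M] (s : H) :
    hIndexMul (subOneMul H M s) (normMul H M) = 1 ∧
      hIndexMul (normMul H M) (subOneMul H M s) = 1 := by
  have hs : s = 1 := Subsingleton.elim _ _
  have h1 : subOneMul H M s = 1 := by
    ext m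
    simp [hs]
  have h2 : normMul H M = MonoidHom.id M := by
    ext m
    rw [normMul_apply]
    have : (Finset.univ : Finset H) = {1} := by
      ext x
      simp [Subsingleton.elim x 1]
    rw [this]
    simp
  unfold hIndexMul
  rw [h1, h2]
  constructor
  · have : (MonoidHom.id M).range = ⊤ := by
      rw [MonoidHom.range_eq_top]; exact fun m => ⟨m, rfl⟩
    rw [this, MonoidHom.ker_one]
    exact Subgroup.relIndex_self _
  · have h3 : (1 : M →* M).range = ⊥ := by
      rw [eq_bot_iff]
      rintro _ ⟨m, rfl⟩
      exact Subgroup.mem_bot.mpr rfl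
    have h4 : (MonoidHom.id M).ker = ⊥ := by
      rw [MonoidHom.ker_eq_bot_iff]; exact fun _ _ h => h
    rw [h3, h4]
    exact Subgroup.relIndex_self _

end HerbrandGeneral

section ComplexLocal

/-- `z ↦ conj z / z` on `ℂˣ` -/
noncomputable def conjDivUnits : ℂˣ →* ℂˣ := conjUnits / MonoidHom.id ℂˣ

theorem conjDivUnits_apply (z : ℂˣ) : conjDivUnits z = conjUnits z / z := rfl

theorem conjDivUnits_eq (z : ℂˣ) : conjDivUnits z = divConjUnits z⁻¹ := by
  rw [conjDivUnits_apply]
  ext
  simp [divConjUnits, div_eq_mul_inv, mul_comm]

theorem ker_conjDivUnits : conjDivUnits.ker = fixedUnits := by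
  ext z
  rw [MonoidHom.mem_ker, mem_fixedUnits_iff, conjDivUnits_apply, div_eq_one, Units.ext_iff]
  rfl

theorem range_conjDivUnits : conjDivUnits.range = divConjUnits.range := by
  ext z
  constructor
  · rintro ⟨u, rfl⟩
    exact ⟨u⁻¹, (conjDivUnits_eq u).symm⟩
  · rintro ⟨u, rfl⟩
    exact ⟨u⁻¹, by rw [conjDivUnits_eq, inv_inv]⟩

/-- `[Ĥ⁰(Gal(ℂ/ℝ), ℂˣ)] = 2` in Herbrand-index form. -/
theorem hIndexMul_conjDivUnits_normUnits : hIndexMul conjDivUnits normUnits = 2 := by
  unfold hIndexMul
  rw [ker_conjDivUnits]
  exact relIndex_range_normUnits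

/-- `[Ĥ⁻¹(Gal(ℂ/ℝ), ℂˣ)] = 1` in Herbrand-index form (Hilbert 90). -/
theorem hIndexMul_normUnits_conjDivUnits : hIndexMul normUnits conjDivUnits = 1 := by
  unfold hIndexMul
  rw [range_conjDivUnits, ker_normUnits_eq_range_divConjUnits]
  exact Subgroup.relIndex_self _

end ComplexLocal

section ResidueAction

open EtaleAlg

attribute [local instance] Units.mulDistribMulActionRight

variable {L : Type} [Field L] [NumberField L] {G : Type} [Group G] [MulSemiringAction G L]

/-- evaluation commutes with the action of a conjugation at `w` up to complex conjugation -/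
theorem evalEmb_smul_of_isConjAt {w : InfinitePlace L} {g : G} (h : IsConjAt w g)
    (x : ArchAlg L) : evalEmb L w.embedding (g • x) = conj (evalEmb L w.embedding x) := by
  rw [smul_archAlg_def, evalEmb_archMap, h.comp_eq, evalEmb_conjugate]

/-- The residue unit group at a complex place is `ℂˣ`. -/
noncomputable def resUnitsEquivComplex (w : InfinitePlace L) (hw : w.IsComplex) :
    ResUnits (placeEquivMaximalSpectrum w) ≃* ℂˣ :=
  Units.mapEquiv (quotientEquivComplex w hw).toMulEquiv

theorem resUnitsEquivComplex_redUnits (w : InfinitePlace L) (hw : w.IsComplex)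
    (u : (ArchAlg L)ˣ) :
    ((resUnitsEquivComplex w hw (redUnits (placeEquivMaximalSpectrum w) u) : ℂˣ) : ℂ) =
      evalEmb L w.embedding (u : ArchAlg L) := rfl

theorem resUnitsEquivComplex_coe (w : InfinitePlace L) (hw : w.IsComplex)
    (u : ResUnits (placeEquivMaximalSpectrum w)) (x : ArchAlg L)
    (hx : Ideal.Quotient.mk _ x = (u : ArchAlg L ⧸ (placeEquivMaximalSpectrum w).asIdeal)) :
    ((resUnitsEquivComplex w hw u : ℂˣ) : ℂ) = evalEmb L w.embedding x := by
  change quotientEquivComplex w hw (u : ArchAlg L ⧸ (placeEquivMaximalSpectrum w).asIdeal) = _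
  rw [← hx]
  rfl

/-- A conjugation at the complex place `w` acts on the residue units `ℂˣ` by conjugation. -/
theorem resUnitsEquivComplex_smul (w : InfinitePlace L) (hw : w.IsComplex)
    (s : MulAction.stabilizer G (placeEquivMaximalSpectrum w)) (hs : IsConjAt w (s : G))
    (u : ResUnits (placeEquivMaximalSpectrum w)) :
    resUnitsEquivComplex w hw (s • u) = conjUnits (resUnitsEquivComplex w hw u) := by
  obtain ⟨x, hx⟩ := Ideal.Quotient.mk_surjective
    (u : ArchAlg L ⧸ (placeEquivMaximalSpectrum w).asIdeal)
  ext
  rw [conjUnits_coe, resUnitsEquivComplex_coe w hw u x hx,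
    resUnitsEquivComplex_coe w hw (s • u) ((s : G) • x) ?_, evalEmb_smul_of_isConjAt hs]
  rw [← stab_smul_mk, hx]
  rfl

end ResidueAction

section LocalHerbrand

open EtaleAlg

attribute [local instance] Units.mulDistribMulActionRight

variable {L : Type} [Field L] [NumberField L] {G : Type} [Group G] [MulSemiringAction G L]

omit [NumberField L] in
theorem IsConjAt.ne_one_of_isComplex {w : InfinitePlace L} {g : G} (h : IsConjAt w g)
    (hw : w.IsComplex) : g ≠ 1 := by
  rintro rfl
  apply InfinitePlace.not_isReal_iff_isComplex.mpr hw
  rw [InfinitePlace.isReal_iff, ComplexEmbedding.isReal_iff]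
  ext x
  have := h x
  rw [one_smul] at this
  simp only [ComplexEmbedding.conjugate_coe_eq]
  exact this.symm

variable [FaithfulSMul G L]

/-- **Local Herbrand indices at a ramified infinite place.**  If the decomposition group `H` of the
complex place `w` contains the conjugation `c`, then for `M = (ArchAlg L ⧸ 𝔪_w)ˣ ≃ ℂˣ`:
`[M^H : N M] = 2` and `[ker N : (c - 1) M] = 1`. -/
theorem hIndexMul_of_isConjAt (w : InfinitePlace L) (hw : w.IsComplex)
    [Fintype (MulAction.stabilizer G (placeEquivMaximalSpectrum w))]
    (c : MulAction.stabilizer G (placeEquivMaximalSpectrum w)) (hc : IsConjAt w (c : G)) :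
    hIndexMul (subOneMul (MulAction.stabilizer G (placeEquivMaximalSpectrum w))
        (ResUnits (placeEquivMaximalSpectrum w)) c)
      (normMul (MulAction.stabilizer G (placeEquivMaximalSpectrum w))
        (ResUnits (placeEquivMaximalSpectrum w))) = 2 ∧
    hIndexMul (normMul (MulAction.stabilizer G (placeEquivMaximalSpectrum w))
        (ResUnits (placeEquivMaximalSpectrum w)))
      (subOneMul (MulAction.stabilizer G (placeEquivMaximalSpectrum w))
        (ResUnits (placeEquivMaximalSpectrum w)) c) = 1 := by
  classical
  have hc1 : c ≠ 1 := by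
    intro h
    exact hc.ne_one_of_isComplex hw (by rw [h]; rfl)
  have hall : ∀ h : MulAction.stabilizer G (placeEquivMaximalSpectrum w), h = 1 ∨ h = c := by
    intro h
    rcases (mem_stabilizer_placeEquiv_iff' w (h : G)).mp h.2 with h1 | h1
    · left; exact Subtype.ext h1
    · right; exact Subtype.ext (h1.unique hc)
  have huniv : (Finset.univ : Finset (MulAction.stabilizer G (placeEquivMaximalSpectrum w))) =
      {1, c} := by
    ext h
    simp only [Finset.mem_univ, Finset.mem_insert, Finset.mem_singleton, true_iff]
    exact hall h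
  have hsub : ∀ u, resUnitsEquivComplex w hw
      (subOneMul (MulAction.stabilizer G (placeEquivMaximalSpectrum w))
        (ResUnits (placeEquivMaximalSpectrum w)) c u) =
      conjDivUnits (resUnitsEquivComplex w hw u) := by
    intro u
    rw [subOneMul_apply, map_div, resUnitsEquivComplex_smul w hw c hc, conjDivUnits_apply]
  have hnorm : ∀ u, resUnitsEquivComplex w hw
      (normMul (MulAction.stabilizer G (placeEquivMaximalSpectrum w))
        (ResUnits (placeEquivMaximalSpectrum w)) u) =
      normUnits (resUnitsEquivComplex w hw u) := by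
    intro u
    have h1 : (1 : MulAction.stabilizer G (placeEquivMaximalSpectrum w)) • u = u :=
      (residueUnitsAction (placeEquivMaximalSpectrum w)).toMulAction.one_smul u
    rw [normMul_apply, huniv, Finset.prod_insert (by simpa using hc1.symm),
      Finset.prod_singleton, h1, map_mul, resUnitsEquivComplex_smul w hw c hc]
    rfl
  rw [hIndexMul_congr (resUnitsEquivComplex w hw) hsub hnorm,
    hIndexMul_congr (resUnitsEquivComplex w hw) hnorm hsub]
  exact ⟨hIndexMul_conjDivUnits_normUnits, hIndexMul_normUnits_conjDivUnits⟩

end LocalHerbrand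

section LocalHerbrand2

open EtaleAlg

attribute [local instance] Units.mulDistribMulActionRight

variable {L : Type} [Field L] [NumberField L] {G : Type} [Group G] [MulSemiringAction G L]
  [FaithfulSMul G L]

/-- **Local Herbrand indices at an infinite place**: for the decomposition group `H` of `w` with
generator `s`, acting on `M = (ArchAlg L ⧸ 𝔪_w)ˣ` (`= ℝˣ` or `ℂˣ`):
`[M^H : N M] = |H|` (`= 1` or `2`) and `[ker N : (s - 1) M] = 1`. -/
theorem hIndexMul_stabilizer (w : InfinitePlace L)
    [Fintype (MulAction.stabilizer G (placeEquivMaximalSpectrum w))]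
    (s : MulAction.stabilizer G (placeEquivMaximalSpectrum w))
    (hs : ∀ h : MulAction.stabilizer G (placeEquivMaximalSpectrum w), h ∈ Subgroup.zpowers s) :
    hIndexMul (subOneMul (MulAction.stabilizer G (placeEquivMaximalSpectrum w))
        (ResUnits (placeEquivMaximalSpectrum w)) s)
      (normMul (MulAction.stabilizer G (placeEquivMaximalSpectrum w))
        (ResUnits (placeEquivMaximalSpectrum w))) =
      Nat.card (MulAction.stabilizer G (placeEquivMaximalSpectrum w)) ∧
    hIndexMul (normMul (MulAction.stabilizer G (placeEquivMaximalSpectrum w))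
        (ResUnits (placeEquivMaximalSpectrum w)))
      (subOneMul (MulAction.stabilizer G (placeEquivMaximalSpectrum w))
        (ResUnits (placeEquivMaximalSpectrum w)) s) = 1 := by
  classical
  by_cases hs1 : s = 1
  · -- trivial decomposition group
    have hsub : Subsingleton (MulAction.stabilizer G (placeEquivMaximalSpectrum w)) := by
      refine ⟨fun a b => ?_⟩
      have ha := hs a
      have hb := hs b
      rw [hs1, Subgroup.zpowers_one_eq_bot, Subgroup.mem_bot] at ha hb
      rw [ha, hb]
    have hcard : Nat.card (MulAction.stabilizer G (placeEquivMaximalSpectrum w)) = 1 :=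
      Nat.card_unique
    rw [hcard]
    exact hIndexMul_of_subsingleton _ _ s
  · -- `s` is the conjugation at `w`
    have hsG : (s : G) ≠ 1 := fun h => hs1 (Subtype.ext h)
    have hconj : IsConjAt w (s : G) := by
      rcases (mem_stabilizer_placeEquiv_iff' w (s : G)).mp s.2 with h | h
      · exact (hsG h).elim
      · exact h
    have hw : w.IsComplex := by
      by_contra hw
      exact hsG (hconj.eq_one_of_isReal (InfinitePlace.not_isComplex_iff_isReal.mp hw))
    have hall : ∀ h : MulAction.stabilizer G (placeEquivMaximalSpectrum w), h = 1 ∨ h = s := by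
      intro h
      rcases (mem_stabilizer_placeEquiv_iff' w (h : G)).mp h.2 with h1 | h1
      · left; exact Subtype.ext h1
      · right; exact Subtype.ext (h1.unique hconj)
    have huniv : (Finset.univ : Finset (MulAction.stabilizer G (placeEquivMaximalSpectrum w))) =
        {1, s} := by
      ext h
      simp only [Finset.mem_univ, Finset.mem_insert, Finset.mem_singleton, true_iff]
      exact hall h
    have hcard : Nat.card (MulAction.stabilizer G (placeEquivMaximalSpectrum w)) = 2 := by
      rw [Nat.card_eq_fintype_card, ← Finset.card_univ, huniv,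
        Finset.card_pair (fun h => hs1 h.symm)]
    rw [hcard]
    exact hIndexMul_of_isConjAt w hw s hconj

/-- Herbrand-quotient form: `h(H, (ArchAlg L ⧸ 𝔪_w)ˣ) = |H|`, and both indices are finite. -/
theorem herbrandCycMul_stabilizer (w : InfinitePlace L)
    [Fintype (MulAction.stabilizer G (placeEquivMaximalSpectrum w))]
    (s : MulAction.stabilizer G (placeEquivMaximalSpectrum w))
    (hs : ∀ h : MulAction.stabilizer G (placeEquivMaximalSpectrum w), h ∈ Subgroup.zpowers s) :
    herbrandCycMul (MulAction.stabilizer G (placeEquivMaximalSpectrum w))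
        (ResUnits (placeEquivMaximalSpectrum w)) s =
      Nat.card (MulAction.stabilizer G (placeEquivMaximalSpectrum w)) ∧
    CycFinMul (MulAction.stabilizer G (placeEquivMaximalSpectrum w))
        (ResUnits (placeEquivMaximalSpectrum w)) s := by
  obtain ⟨h1, h2⟩ := hIndexMul_stabilizer w s hs
  constructor
  · unfold herbrandCycMul herbrandMul
    rw [h1, h2]
    simp
  · unfold CycFinMul IsFinMul
    rw [h1, h2]
    refine ⟨?_, one_ne_zero⟩
    have : 0 < Nat.card (MulAction.stabilizer G (placeEquivMaximalSpectrum w)) := Nat.card_pos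
    omega

end LocalHerbrand2

end Fermat.Agent.Lib.CFT.Global.CohIdelesArch
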