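import Mathlib
import Fermat.Agent.Lib.CFT.Coh.PermLattice

/-!
# Products over orbits of stabiliser orders

For a finite group `G` acting on a finite set `X` we study
`orbProd G X = ∏ ω : Orb G X, orbStab G ω` (helper58's `Coh/PermLattice` notation), the quantity
`∏_{v} n_v` of the first inequality.  The key is the representative-free identity
`orbProd G X ^ |G| = ∏ x : X, |Stab x| ^ |Stab x|` (`orbProd_pow_card`), from which invariance under
equivariant bijections (`orbProd_congr`) and multiplicativity over disjoint unions
(`orbProd_sum`, `orbProd_sigma`) follow at once.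
-/

namespace Fermat.Agent.Lib.CFT.Global.OrbitProd

open Fermat.Agent.Lib.CFT.Coh.PermLattice

variable {G : Type*} [Group G] [Fintype G]

/-- The product over the orbits of the orders of the stabilisers. -/
noncomputable def orbProd (G : Type*) [Group G] [Fintype G] (X : Type*) [MulAction G X]
    [Fintype X] : ℕ :=
  ∏ ω : Orb G X, orbStab G ω

section Basic

variable {X : Type*} [MulAction G X] [Fintype X]

theorem orbProd_pos : 0 < orbProd G X :=
  Finset.prod_pos fun _ _ => stabCard_pos _

open scoped Classical in
/-- The contribution of a single orbit. -/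
theorem orbStab_pow_card (ω : Orb G X) :
    orbStab G ω ^ Fintype.card G =
      ∏ x ∈ Finset.univ.filter (fun x : X => (Quotient.mk'' x : Orb G X) = ω),
        stabCard G x ^ stabCard G x := by
  set z : X := Quotient.out ω with hz
  have hzω : (Quotient.mk'' z : Orb G X) = ω := Quotient.out_eq' ω
  have h1 : orbStab G ω ^ Fintype.card G = ∏ g : G, stabCard G (g • z) := by
    rw [Finset.prod_congr rfl (fun g _ => stabCard_smul g z), Finset.prod_const,
      Finset.card_univ]
    rfl
  rw [h1, Finset.prod_comp (fun x => stabCard G x) (fun g : G => g • z)]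
  have himg : Finset.univ.image (fun g : G => g • z) =
      Finset.univ.filter (fun x : X => (Quotient.mk'' x : Orb G X) = ω) := by
    ext x
    simp only [Finset.mem_image, Finset.mem_univ, true_and, Finset.mem_filter]
    constructor
    · rintro ⟨g, rfl⟩
      rw [← hzω]
      exact Quotient.sound' ⟨g, rfl⟩
    · intro hx
      rw [← hzω] at hx
      obtain ⟨g, hg⟩ := Quotient.exact' hx
      exact ⟨g, hg⟩
  rw [himg]
  refine Finset.prod_congr rfl fun x hx => ?_
  rw [Finset.mem_filter] at hx
  have hxz : (Quotient.mk'' x : Orb G X) = Quotient.mk'' z := hx.2.trans hzω.symm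
  have := card_filter_smul_eq (G := G) x z
  rw [if_pos hxz] at this
  have h2 : (Finset.univ.filter (fun g : G => g • z = x)).card = stabCard G x := by
    rw [stabCard_eq_of_rel hxz]
    convert this
  congr 1

open scoped Classical in
/-- The representative-free characterisation of the orbit product. -/
theorem orbProd_pow_card :
    orbProd G X ^ Fintype.card G = ∏ x : X, stabCard G x ^ stabCard G x := by
  unfold orbProd
  rw [← Finset.prod_pow]
  rw [← Finset.prod_fiberwise Finset.univ (fun x : X => (Quotient.mk'' x : Orb G X))
    (fun x => stabCard G x ^ stabCard G x)]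
  exact Finset.prod_congr rfl fun ω _ => orbStab_pow_card ω

end Basic

section Transfer

variable {X Y : Type*} [MulAction G X] [MulAction G Y] [Fintype X] [Fintype Y]

theorem eq_of_pow_card_eq {a b : ℕ} (h : a ^ Fintype.card G = b ^ Fintype.card G) : a = b :=
  Nat.pow_left_injective Fintype.card_ne_zero h

omit [Fintype G] [Fintype X] [Fintype Y] in
/-- Stabilisers are preserved by equivariant injections. -/
theorem stabCard_map {f : X → Y} (hf : Function.Injective f)
    (hfG : ∀ (g : G) (x : X), f (g • x) = g • f x) (x : X) :
    stabCard G (f x) = stabCard G x := by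
  unfold stabCard
  have : MulAction.stabilizer G (f x) = MulAction.stabilizer G x := by
    ext g
    rw [MulAction.mem_stabilizer_iff, MulAction.mem_stabilizer_iff, ← hfG]
    exact hf.eq_iff
  rw [this]

/-- The orbit product is invariant under equivariant bijections. -/
theorem orbProd_congr (e : X ≃ Y) (he : ∀ (g : G) (x : X), e (g • x) = g • e x) :
    orbProd G X = orbProd G Y := by
  apply eq_of_pow_card_eq (G := G)
  rw [orbProd_pow_card, orbProd_pow_card]
  refine Fintype.prod_equiv e _ _ fun x => ?_
  rw [stabCard_map e.injective he]

/-- The orbit product of a disjoint union. -/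
theorem orbProd_sum : orbProd G (X ⊕ Y) = orbProd G X * orbProd G Y := by
  apply eq_of_pow_card_eq (G := G)
  rw [mul_pow, orbProd_pow_card, orbProd_pow_card, orbProd_pow_card, Fintype.prod_sum_type]
  congr 1
  · refine Finset.prod_congr rfl fun x _ => ?_
    rw [stabCard_map (f := (Sum.inl : X → X ⊕ Y)) Sum.inl_injective (fun _ _ => rfl)]
  · refine Finset.prod_congr rfl fun y _ => ?_
    rw [stabCard_map (f := (Sum.inr : Y → X ⊕ Y)) Sum.inr_injective (fun _ _ => rfl)]

/-- The orbit product of a finite disjoint union. -/
theorem orbProd_sigma {ι : Type*} [Fintype ι] (Z : ι → Type*) [∀ i, MulAction G (Z i)]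
    [∀ i, Fintype (Z i)] : orbProd G (Σ i, Z i) = ∏ i, orbProd G (Z i) := by
  apply eq_of_pow_card_eq (G := G)
  rw [← Finset.prod_pow, orbProd_pow_card, Fintype.prod_sigma]
  refine Finset.prod_congr rfl fun i _ => ?_
  rw [orbProd_pow_card]
  refine Finset.prod_congr rfl fun z _ => ?_
  rw [stabCard_map (f := (Sigma.mk i : Z i → Σ i, Z i)) sigma_mk_injective (fun _ _ => rfl)]

omit [Fintype X] in
/-- A single fixed point contributes `|G|`. -/
theorem orbProd_of_subsingleton [Subsingleton X] [Nonempty X] [Fintype X] :
    orbProd G X = Fintype.card G := by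
  apply eq_of_pow_card_eq (G := G)
  rw [orbProd_pow_card]
  obtain ⟨x⟩ := ‹Nonempty X›
  have hu : (Finset.univ : Finset X) = {x} := by
    ext y
    simp [Subsingleton.elim y x]
  rw [hu, Finset.prod_singleton]
  have : stabCard G x = Fintype.card G := by
    unfold stabCard
    have : MulAction.stabilizer G x = ⊤ := by
      ext g
      simp [MulAction.mem_stabilizer_iff, Subsingleton.elim (g • x) x]
    rw [this, ← Nat.card_eq_fintype_card]
    exact Nat.card_congr Subgroup.topEquiv.toEquiv
  rw [this]

end Transfer

end Fermat.Agent.Lib.CFT.Global.OrbitProd
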