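/-
P-CFT, Global/CohIdeles (task 203, archimedean factor, part 2; helper27).

Group cohomology of the archimedean factor `(ArchAlg L)ˣ = (ℝ ⊗[ℚ] L)ˣ` of the ideles of `L`
for a finite group `G` acting faithfully on the number field `L`:

* `card_groupCohomology_archUnits_even/odd`: `|Hⁿ(G, (ArchAlg L)ˣ)| = ∏_ω |G_ω|` (`n > 0` even),
  `= 1` (`n` odd), the product running over the `G`-orbits of infinite places of `L`;
* for cyclic `G = ⟨s⟩`: the Herbrand indices and the Herbrand quotient of `(ArchAlg L)ˣ`;
* explicit vanishing of `H¹`: every multiplicative `1`-cocycle `G → (ArchAlg L)ˣ` is a coboundary.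
-/
import Mathlib
import Fermat.Agent.Lib.CFT.Global.CohIdelesArch
import Fermat.Agent.Lib.CFT.Global.EtaleAlgCoh
import Fermat.Agent.Lib.CFT.Global.OrbitProd
import Fermat.Agent.Lib.CFT.HerbrandRep

set_option autoImplicit false
set_option linter.unusedSectionVars false

namespace Fermat.Agent.Lib.CFT.Global.CohIdelesArch

open NumberField NumberField.InfinitePlace TensorProduct
open Fermat.Agent.Lib.CFT.Global Fermat.Agent.Lib.CFT.Global.PlacesInfinite
open Fermat.Agent.Lib.CFT.Herbrand
open scoped Pointwise

/-! ### Cohomology of a finite cyclic group acting on a multiplicative module -/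

section Bridge

variable (H M : Type) [CommGroup H] [Fintype H] [CommGroup M] [MulDistribMulAction H M]

theorem repSub_ofMulDistribMulAction_eq (g : H) :
    repSub (Rep.ofMulDistribMulAction H M) g = MonoidHom.toAdditive (subOneMul H M g) := by
  ext u
  rfl

theorem repNorm_ofMulDistribMulAction_eq :
    repNorm (Rep.ofMulDistribMulAction H M) = MonoidHom.toAdditive (normMul H M) := by
  refine AddMonoidHom.ext fun (u : Additive M) => ?_
  change (∑ x : H, Additive.ofMul (x • Additive.toMul u) : Additive M) =
    Additive.ofMul (normMul H M (Additive.toMul u))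
  rw [normMul_apply, ofMul_prod]

theorem hIndex_repSub_repNorm_eq (g : H) :
    hIndex (repSub (Rep.ofMulDistribMulAction H M) g) (repNorm (Rep.ofMulDistribMulAction H M)) =
      hIndexMul (subOneMul H M g) (normMul H M) :=
  (congrArg₂ hIndex (repSub_ofMulDistribMulAction_eq H M g)
    (repNorm_ofMulDistribMulAction_eq H M)).trans (hIndex_toAdditive _ _)

theorem hIndex_repNorm_repSub_eq (g : H) :
    hIndex (repNorm (Rep.ofMulDistribMulAction H M)) (repSub (Rep.ofMulDistribMulAction H M) g) =
      hIndexMul (normMul H M) (subOneMul H M g) :=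
  (congrArg₂ hIndex (repNorm_ofMulDistribMulAction_eq H M)
    (repSub_ofMulDistribMulAction_eq H M g)).trans (hIndex_toAdditive _ _)

end Bridge

section Bridge2

variable (H M : Type) [Group H] [Fintype H] [CommGroup M] [MulDistribMulAction H M]

/-- `|H^{n}(H, M)| = [M^H : N M]` for `n > 0` even, `H = ⟨s⟩` finite cyclic. -/
theorem card_groupCohomology_even_of_generator (s : H) (hs : ∀ x, x ∈ Subgroup.zpowers s)
    (n : ℕ) (hn : n ≠ 0) (he : Even n) :
    Nat.card (groupCohomology (Rep.ofMulDistribMulAction H M) n) =
      hIndexMul (subOneMul H M s) (normMul H M) := by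
  classical
  have : IsCyclic H := ⟨⟨s, hs⟩⟩
  let _ : CommGroup H := IsCyclic.commGroup
  have : NeZero n := ⟨hn⟩
  exact (card_groupCohomology_even (Rep.ofMulDistribMulAction H M) s hs n he).trans
    (hIndex_repSub_repNorm_eq H M s)

/-- `|H^{n}(H, M)| = [ker N : (s - 1) M]` for `n` odd, `H = ⟨s⟩` finite cyclic. -/
theorem card_groupCohomology_odd_of_generator (s : H) (hs : ∀ x, x ∈ Subgroup.zpowers s)
    (n : ℕ) (ho : Odd n) :
    Nat.card (groupCohomology (Rep.ofMulDistribMulAction H M) n) =
      hIndexMul (normMul H M) (subOneMul H M s) := by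
  classical
  have : IsCyclic H := ⟨⟨s, hs⟩⟩
  let _ : CommGroup H := IsCyclic.commGroup
  exact (card_groupCohomology_odd (Rep.ofMulDistribMulAction H M) s hs n ho).trans
    (hIndex_repNorm_repSub_eq H M s)

end Bridge2

/-! ### Cohomology of the decomposition group of an infinite place -/

section LocalCoh

open EtaleAlg

attribute [local instance] Units.mulDistribMulActionRight

variable {L : Type} [Field L] [NumberField L] {G : Type} [Group G] [MulSemiringAction G L]
  [FaithfulSMul G L]

/-- The decomposition group of an infinite place is cyclic (of order `1` or `2`). -/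
theorem isCyclic_stabilizer_placeEquiv [Finite G] (w : InfinitePlace L) :
    IsCyclic (MulAction.stabilizer G (placeEquivMaximalSpectrum w)) := by
  have h2 := card_stabilizer_placeEquiv_le_two (G := G) w
  have h1 : 0 < Nat.card (MulAction.stabilizer G (placeEquivMaximalSpectrum w)) := Nat.card_pos
  rcases Nat.lt_or_ge (Nat.card (MulAction.stabilizer G (placeEquivMaximalSpectrum w))) 2 with h | h
  · have h3 : Nat.card (MulAction.stabilizer G (placeEquivMaximalSpectrum w)) = 1 := by omega
    have : Subsingleton (MulAction.stabilizer G (placeEquivMaximalSpectrum w)) :=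
      (Nat.card_eq_one_iff_unique.mp h3).1
    exact isCyclic_of_subsingleton
  · have h3 : Nat.card (MulAction.stabilizer G (placeEquivMaximalSpectrum w)) = 2 := by omega
    have : Fact (Nat.Prime 2) := ⟨Nat.prime_two⟩
    exact isCyclic_of_prime_card h3

/-- `|Hⁿ(G_w, L_wˣ)| = |G_w|` for `n > 0` even, at an infinite place `w`. -/
theorem card_groupCohomology_resUnits_even [Finite G] (w : InfinitePlace L)
    (n : ℕ) (hn : n ≠ 0) (he : Even n) :
    Nat.card (groupCohomology (Rep.ofMulDistribMulAction
        (MulAction.stabilizer G (placeEquivMaximalSpectrum w))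
        (ResUnits (placeEquivMaximalSpectrum w))) n) =
      Nat.card (MulAction.stabilizer G (placeEquivMaximalSpectrum w)) := by
  classical
  have := Fintype.ofFinite (MulAction.stabilizer G (placeEquivMaximalSpectrum w))
  have := isCyclic_stabilizer_placeEquiv (G := G) w
  obtain ⟨s, hs⟩ := IsCyclic.exists_generator
    (α := MulAction.stabilizer G (placeEquivMaximalSpectrum w))
  rw [card_groupCohomology_even_of_generator _ _ s hs n hn he]
  exact (hIndexMul_stabilizer w s hs).1

/-- `Hⁿ(G_w, L_wˣ)` is trivial for `n` odd, at an infinite place `w`. -/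
theorem card_groupCohomology_resUnits_odd [Finite G] (w : InfinitePlace L)
    (n : ℕ) (ho : Odd n) :
    Nat.card (groupCohomology (Rep.ofMulDistribMulAction
        (MulAction.stabilizer G (placeEquivMaximalSpectrum w))
        (ResUnits (placeEquivMaximalSpectrum w))) n) = 1 := by
  classical
  have := Fintype.ofFinite (MulAction.stabilizer G (placeEquivMaximalSpectrum w))
  have := isCyclic_stabilizer_placeEquiv (G := G) w
  obtain ⟨s, hs⟩ := IsCyclic.exists_generator
    (α := MulAction.stabilizer G (placeEquivMaximalSpectrum w))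
  rw [card_groupCohomology_odd_of_generator _ _ s hs n ho]
  exact (hIndexMul_stabilizer w s hs).2

end LocalCoh

/-! ### Cohomology of `(ArchAlg L)ˣ` -/

section GlobalCohAux

open EtaleAlg Fermat.Agent.Lib.CFT.Coh.PermLattice Fermat.Agent.Lib.CFT.Global.OrbitProd

attribute [local instance] Units.mulDistribMulActionRight

variable (L : Type) [Field L] [NumberField L] (G : Type) [Group G] [MulSemiringAction G L]
  [FaithfulSMul G L] [Fintype G]

omit [FaithfulSMul G L] [Fintype G] in
theorem stabilizer_placeEquiv_eq (w : InfinitePlace L) :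
    MulAction.stabilizer G (placeEquivMaximalSpectrum w) = MulAction.stabilizer G w := by
  ext g
  rw [mem_stabilizer_placeEquiv_iff, MulAction.mem_stabilizer_iff]

omit [FaithfulSMul G L] [Fintype G] in
theorem card_stabilizer_orbitMax (ω : PlaceOrbit L G) :
    Nat.card (MulAction.stabilizer G (orbitMax L G ω)) = orbStab G ω := by
  unfold orbitMax orbStab stabCard orbitPlace
  rw [stabilizer_placeEquiv_eq]

theorem card_groupCohomology_archUnits_even_aux (n : ℕ) (hn : n ≠ 0) (he : Even n) :
    Nat.card (groupCohomology (Rep.ofMulDistribMulAction G (ArchAlg L)ˣ) n) =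
      orbProd G (InfinitePlace L) := by
  classical
  rw [card_groupCohomology_units G (orbitMax L G) orbitMax_cover orbitMax_separated n]
  unfold orbProd
  refine Finset.prod_congr rfl fun ω _ => ?_
  rw [← card_stabilizer_orbitMax]
  exact card_groupCohomology_resUnits_even (orbitPlace L G ω) n hn he

theorem card_groupCohomology_archUnits_odd_aux (n : ℕ) (ho : Odd n) :
    Nat.card (groupCohomology (Rep.ofMulDistribMulAction G (ArchAlg L)ˣ) n) = 1 := by
  classical
  rw [card_groupCohomology_units G (orbitMax L G) orbitMax_cover orbitMax_separated n]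
  refine Finset.prod_eq_one fun ω _ => ?_
  exact card_groupCohomology_resUnits_odd (orbitPlace L G ω) n ho

end GlobalCohAux

section H1Explicit

open groupCohomology

/-- If `H¹(G, M)` has one element, every multiplicative `1`-cocycle is a coboundary. -/
theorem isMulCoboundary₁_of_card_H1_eq_one {G M : Type} [Group G] [CommGroup M]
    [MulDistribMulAction G M]
    (h : Nat.card (groupCohomology (Rep.ofMulDistribMulAction G M) 1) = 1)
    {f : G → M} (hf : IsMulCocycle₁ f) : IsMulCoboundary₁ f := by
  have hsub : Subsingleton (groupCohomology (Rep.ofMulDistribMulAction G M) 1) :=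
    (Nat.card_eq_one_iff_unique.mp h).1
  have h0 : H1π (Rep.ofMulDistribMulAction G M) (cocyclesOfIsMulCocycle₁ hf) = 0 :=
    Subsingleton.elim _ _
  rw [H1π_eq_zero_iff] at h0
  exact isMulCoboundary₁_of_mem_coboundaries₁ _ h0

end H1Explicit

/-! ### Main statements (with the global instance `archAlgUnitsAction` on `(ArchAlg L)ˣ`) -/

section GlobalCoh

open Fermat.Agent.Lib.CFT.Coh.PermLattice Fermat.Agent.Lib.CFT.Global.OrbitProd groupCohomology

variable (L : Type) [Field L] [NumberField L] (G : Type) [Group G] [MulSemiringAction G L]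
  [FaithfulSMul G L] [Fintype G]

/-- **Even cohomology of the archimedean factor**: `|Hⁿ(G, (ℝ ⊗ L)ˣ)| = ∏_ω |G_ω|` for `n > 0`
even, the product over the `G`-orbits of infinite places of `L` of the orders of the decomposition
groups. -/
theorem card_groupCohomology_archUnits_even (n : ℕ) (hn : n ≠ 0) (he : Even n) :
    Nat.card (groupCohomology (Rep.ofMulDistribMulAction G (ArchAlg L)ˣ) n) =
      orbProd G (InfinitePlace L) :=
  card_groupCohomology_archUnits_even_aux L G n hn he

/-- **Odd cohomology of the archimedean factor** vanishes. -/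
theorem card_groupCohomology_archUnits_odd (n : ℕ) (ho : Odd n) :
    Nat.card (groupCohomology (Rep.ofMulDistribMulAction G (ArchAlg L)ˣ) n) = 1 :=
  card_groupCohomology_archUnits_odd_aux L G n ho

/-- **Hilbert 90 for the archimedean factor**, explicit form: every multiplicative `1`-cocycle
`G → (ℝ ⊗ L)ˣ` is a coboundary. -/
theorem isMulCoboundary₁_archUnits {f : G → (ArchAlg L)ˣ} (hf : IsMulCocycle₁ f) :
    IsMulCoboundary₁ f :=
  isMulCoboundary₁_of_card_H1_eq_one (card_groupCohomology_archUnits_odd L G 1 (by decide)) hf

/-- The same, unfolded. -/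
theorem exists_smul_div_eq_of_isMulCocycle₁_archUnits {f : G → (ArchAlg L)ˣ}
    (hf : ∀ g h : G, f (g * h) = g • f h * f g) : ∃ x : (ArchAlg L)ˣ, ∀ g : G, g • x / x = f g :=
  isMulCoboundary₁_archUnits L G hf

variable {G}

/-- **Herbrand indices of the archimedean factor** for a finite cyclic group `G = ⟨s⟩`:
`[((ℝ ⊗ L)ˣ)^G : N (ℝ ⊗ L)ˣ] = ∏_ω |G_ω|` and `[ker N : (s - 1)(ℝ ⊗ L)ˣ] = 1`. -/
theorem hIndexMul_archUnits (s : G) (hs : ∀ x, x ∈ Subgroup.zpowers s) :
    hIndexMul (subOneMul G (ArchAlg L)ˣ s) (normMul G (ArchAlg L)ˣ) =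
        orbProd G (InfinitePlace L) ∧
      hIndexMul (normMul G (ArchAlg L)ˣ) (subOneMul G (ArchAlg L)ˣ s) = 1 := by
  constructor
  · rw [← card_groupCohomology_even_of_generator G (ArchAlg L)ˣ s hs 2 (by decide) (by decide)]
    exact card_groupCohomology_archUnits_even L G 2 (by decide) (by decide)
  · rw [← card_groupCohomology_odd_of_generator G (ArchAlg L)ˣ s hs 1 (by decide)]
    exact card_groupCohomology_archUnits_odd L G 1 (by decide)

/-- **Herbrand quotient of the archimedean factor**: `h(G, (ℝ ⊗ L)ˣ) = ∏_ω |G_ω|`, and both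
indices are finite. -/
theorem herbrandCycMul_archUnits (s : G) (hs : ∀ x, x ∈ Subgroup.zpowers s) :
    herbrandCycMul G (ArchAlg L)ˣ s = (orbProd G (InfinitePlace L) : ℚ) ∧
      CycFinMul G (ArchAlg L)ˣ s := by
  obtain ⟨h1, h2⟩ := hIndexMul_archUnits L s hs
  constructor
  · unfold herbrandCycMul herbrandMul
    rw [h1, h2]
    simp
  · unfold CycFinMul IsFinMul
    rw [h1, h2]
    exact ⟨(orbProd_pos (G := G) (X := InfinitePlace L)).ne', one_ne_zero⟩

end GlobalCoh

/-! ### Complements: the orbit product is a power of `2`; semi-local decomposition -/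

section Complements

open EtaleAlg Fermat.Agent.Lib.CFT.Coh.PermLattice Fermat.Agent.Lib.CFT.Global.OrbitProd
  CategoryTheory CategoryTheory.Limits

attribute [local instance] Units.mulDistribMulActionRight
attribute [local instance] CategoryTheory.Abelian.hasFiniteBiproducts

variable (L : Type) [Field L] [NumberField L] (G : Type) [Group G] [MulSemiringAction G L]
  [FaithfulSMul G L] [Fintype G]

omit [Fintype G] in
/-- The decomposition group of an infinite place has order `1` or `2`. -/
theorem stabCard_infinitePlace [Finite G] (w : InfinitePlace L) :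
    stabCard G w = 1 ∨ stabCard G w = 2 := by
  have h2 := card_stabilizer_placeEquiv_le_two (G := G) w
  rw [stabilizer_placeEquiv_eq] at h2
  have h1 : 0 < Nat.card (MulAction.stabilizer G w) := Nat.card_pos
  unfold stabCard
  omega

/-- For a group of odd order all infinite places are unramified. -/
theorem stabCard_infinitePlace_of_odd (hodd : Odd (Fintype.card G)) (w : InfinitePlace L) :
    stabCard G w = 1 := by
  rcases stabCard_infinitePlace L G w with h | h
  · exact h
  · exfalso
    have hdvd : Nat.card (MulAction.stabilizer G w) ∣ Nat.card G :=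
      Subgroup.card_subgroup_dvd_card _
    unfold stabCard at h
    rw [h, Nat.card_eq_fintype_card] at hdvd
    exact (Nat.not_even_iff_odd.mpr hodd) (even_iff_two_dvd.mpr hdvd)

/-- The archimedean orbit product `∏_ω |G_ω|` is a power of `2`. -/
theorem orbProd_infinitePlace_eq_two_pow :
    ∃ k : ℕ, orbProd G (InfinitePlace L) = 2 ^ k := by
  classical
  unfold orbProd
  have hω : ∀ ω : Orb G (InfinitePlace L), ∃ k : ℕ, orbStab G ω = 2 ^ k := by
    intro ω
    rcases stabCard_infinitePlace L G (Quotient.out ω) with h | h
    · exact ⟨0, by unfold orbStab; rw [h, pow_zero]⟩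
    · exact ⟨1, by unfold orbStab; rw [h, pow_one]⟩
  choose k hk using hω
  exact ⟨∑ ω, k ω, by rw [Finset.prod_congr rfl fun ω _ => hk ω, Finset.prod_pow_eq_pow_sum]⟩

/-- For a group of odd order the archimedean orbit product is `1`. -/
theorem orbProd_infinitePlace_of_odd (hodd : Odd (Fintype.card G)) :
    orbProd G (InfinitePlace L) = 1 := by
  unfold orbProd
  refine Finset.prod_eq_one fun ω _ => ?_
  exact stabCard_infinitePlace_of_odd L G hodd _

/-- The archimedean orbit product, computed on the maximal spectrum of `ArchAlg L`. -/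
theorem orbProd_maximalSpectrum_archAlg [Fintype (MaximalSpectrum (ArchAlg L))] :
    orbProd G (MaximalSpectrum (ArchAlg L)) = orbProd G (InfinitePlace L) :=
  (orbProd_congr (placeEquivMaximalSpectrum (L := L))
    (fun g w => placeEquivMaximalSpectrum_smul' g w)).symm

variable {L G} in
omit [Fintype G] in
/-- The local cohomology groups at an infinite place have order dividing `2`. -/
theorem card_groupCohomology_resUnits_dvd_two [Finite G] (w : InfinitePlace L) (n : ℕ)
    (hn : n ≠ 0) :
    Nat.card (groupCohomology (Rep.ofMulDistribMulAction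
        (MulAction.stabilizer G (placeEquivMaximalSpectrum w))
        (ResUnits (placeEquivMaximalSpectrum w))) n) ∣ 2 := by
  rcases Nat.even_or_odd n with he | ho
  · rw [card_groupCohomology_resUnits_even w n hn he, stabilizer_placeEquiv_eq]
    rcases stabCard_infinitePlace L G w with h | h
    · unfold stabCard at h; rw [h]; exact one_dvd 2
    · unfold stabCard at h; rw [h]
  · rw [card_groupCohomology_resUnits_odd w n ho]
    exact one_dvd 2

/-- **Semi-local decomposition of the cohomology of the archimedean factor**:
`Hⁿ(G, (ℝ ⊗ L)ˣ) ≅ ⨁_ω Hⁿ(G_ω, (ArchAlg L ⧸ 𝔪_ω)ˣ)` (helper75's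
`groupCohomologyUnitsIsoBiproduct` at the orbit representatives `orbitMax`). -/
noncomputable def groupCohomologyArchUnitsIso (n : ℕ) :
    groupCohomology (Rep.ofMulDistribMulAction G (ArchAlg L)ˣ) n ≅
      ⨁ fun ω : PlaceOrbit L G => groupCohomology
        (Rep.ofMulDistribMulAction (MulAction.stabilizer G (orbitMax L G ω))
          (ResUnits (orbitMax L G ω))) n :=
  letI := Classical.decEq (PlaceOrbit L G)
  groupCohomologyUnitsIsoBiproduct G (orbitMax L G) orbitMax_cover orbitMax_separated n

end Complements

end Fermat.Agent.Lib.CFT.Global.CohIdelesArch
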