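import Fermat.Agent.Lib.CFT.Global.EtaleAlgCoh
import Fermat.Agent.Lib.CFT.HerbrandRep
import Fermat.Agent.Lib.CFT.HerbrandMul

/-!
# Herbrand quotients of the units of a `G`-algebra (semi-local Shapiro lemma, Herbrand form)

helper65 (P-CFT, Global/CohIdeles, item (D3) of the interface note of helper58).

`G` a finite cyclic group generated by `s`, acting on a finite product of fields `E`; `r i` a system
of representatives of the `G`-orbits of maximal ideals of `E`, `G_i` the stabiliser (decomposition
group) of `r i`, generated by `t i`.  Then both Herbrand indices of `Eˣ` are the products of the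
local ones (`hIndexMul_sub_norm_units_eq_prod`, `hIndexMul_norm_sub_units_eq_prod`), hence

* `herbrandCycMul_units_eq_prod : h(G, Eˣ) = ∏ i, h(G_i, (E ⧸ r i)ˣ)`;
* `cycFinMul_units_iff : CycFinMul G Eˣ s ↔ ∀ i, CycFinMul G_i (E ⧸ r i)ˣ (t i)`.

The same for the stable unit subgroups `unitsSubmodule r W` of helper75 (e.g. local integral units),
at the level of `Rep ℤ G` (`hIndex_repSub_repNorm_subUnits`, ...), with the elementwise consequence
`subUnits_norm_surjective_of_local` / `subUnits_hilbert90_of_local`: if the local modules `W i` have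
trivial `H²` (resp. `H¹`), then every `s`-fixed element of the unit subgroup is a norm from it (resp.
every element of norm one is of the form `s • v / v`).

Ingredients: `Herbrand.card_groupCohomology_even/odd` (helper58) and
`card_groupCohomology_units/subUnits` (helper75).
-/

set_option autoImplicit false

namespace Fermat.Agent.Lib.CFT.Global.EtaleAlg

open Fermat.Agent.Lib.CFT.Herbrand

section Bridge

variable (G M : Type) [CommGroup G] [Fintype G] [CommGroup M] [MulDistribMulAction G M]

omit [Fintype G] in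
/-- The additive endomorphism `ρ(g) - 1` of `Rep.ofMulDistribMulAction G M` is `m ↦ g • m / m`. -/
theorem repSub_ofMul_eq (g : G) :
    repSub (Rep.ofMulDistribMulAction G M) g = MonoidHom.toAdditive (subOneMul G M g) := by
  ext u
  rfl

/-- The additive norm endomorphism of `Rep.ofMulDistribMulAction G M` is `normMul G M`. -/
theorem repNorm_ofMul_eq :
    repNorm (Rep.ofMulDistribMulAction G M) = MonoidHom.toAdditive (normMul G M) := by
  refine AddMonoidHom.ext fun (u : Additive M) => ?_
  change (∑ x : G, Additive.ofMul (x • Additive.toMul u) : Additive M) =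
    Additive.ofMul (normMul G M (Additive.toMul u))
  rw [normMul_apply, ofMul_prod]

variable {G}

theorem card_groupCohomology_even_ofMul_aux (s : G) (hs : ∀ x, x ∈ Subgroup.zpowers s) (n : ℕ)
    [NeZero n] (hn : Even n) :
    Nat.card (groupCohomology (Rep.ofMulDistribMulAction G M) n) =
      hIndexMul (subOneMul G M s) (normMul G M) := by
  rw [card_groupCohomology_even _ s hs n hn]
  exact (congrArg₂ hIndex (repSub_ofMul_eq G M s) (repNorm_ofMul_eq G M)).trans
    (hIndex_toAdditive _ _)

theorem card_groupCohomology_odd_ofMul_aux (s : G) (hs : ∀ x, x ∈ Subgroup.zpowers s) (n : ℕ)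
    (hn : Odd n) :
    Nat.card (groupCohomology (Rep.ofMulDistribMulAction G M) n) =
      hIndexMul (normMul G M) (subOneMul G M s) := by
  rw [card_groupCohomology_odd _ s hs n hn]
  exact (congrArg₂ hIndex (repNorm_ofMul_eq G M) (repSub_ofMul_eq G M s)).trans
    (hIndex_toAdditive _ _)

end Bridge

section BridgeGroup

/-- A group all of whose elements are powers of `s` is commutative (the `CommGroup` structure
extends the given `Group` structure, definitionally). -/
@[reducible] def commGroupOfZpowers {G : Type*} [inst : Group G] (s : G)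
    (hs : ∀ x, x ∈ Subgroup.zpowers s) : CommGroup G :=
  { inst with
    mul_comm := fun a b => by
      obtain ⟨m, rfl⟩ := Subgroup.mem_zpowers_iff.mp (hs a)
      obtain ⟨n, rfl⟩ := Subgroup.mem_zpowers_iff.mp (hs b)
      rw [← zpow_add, ← zpow_add, add_comm] }

variable {G : Type} (M : Type) [Group G] [Fintype G] [CommGroup M] [MulDistribMulAction G M]

/-- `|Hⁿ(G, M)| = [ker (s - 1) : im N]` for even `n > 0`, `G` cyclic generated by `s`. -/
theorem card_groupCohomology_even_ofMul (s : G) (hs : ∀ x, x ∈ Subgroup.zpowers s) (n : ℕ)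
    [NeZero n] (hn : Even n) :
    Nat.card (groupCohomology (Rep.ofMulDistribMulAction G M) n) =
      hIndexMul (subOneMul G M s) (normMul G M) := by
  let _ : CommGroup G := commGroupOfZpowers s hs
  exact card_groupCohomology_even_ofMul_aux M s hs n hn

/-- `|Hⁿ(G, M)| = [ker N : im (s - 1)]` for odd `n`, `G` cyclic generated by `s`. -/
theorem card_groupCohomology_odd_ofMul (s : G) (hs : ∀ x, x ∈ Subgroup.zpowers s) (n : ℕ)
    (hn : Odd n) :
    Nat.card (groupCohomology (Rep.ofMulDistribMulAction G M) n) =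
      hIndexMul (normMul G M) (subOneMul G M s) := by
  let _ : CommGroup G := commGroupOfZpowers s hs
  exact card_groupCohomology_odd_ofMul_aux M s hs n hn

end BridgeGroup

section Units

open scoped Pointwise

attribute [local instance] Units.mulDistribMulActionRight

variable (G : Type) {E : Type} [Group G] [Fintype G] [CommRing E] [MulSemiringAction G E]
  [IsArtinianRing E] [IsReduced E] {ι : Type} [Fintype ι] [DecidableEq ι]
  (r : ι → MaximalSpectrum E) [∀ i, Fintype (MulAction.stabilizer G (r i))]
  (hcov : ∀ m : MaximalSpectrum E, ∃ i, ∃ g : G, g • m = r i)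
  (hsep : ∀ i j (g : G), g • r i = r j → i = j)
  (s : G) (hs : ∀ x, x ∈ Subgroup.zpowers s)
  (t : ∀ i, MulAction.stabilizer G (r i)) (ht : ∀ i x, x ∈ Subgroup.zpowers (t i))

include hcov hsep hs ht in
/-- **Semi-local Shapiro lemma, Herbrand form (`Ĥ⁰`)**: `[ker (s - 1) : im N]` on `Eˣ` is the
product of the local indices. -/
theorem hIndexMul_sub_norm_units_eq_prod :
    hIndexMul (subOneMul G Eˣ s) (normMul G Eˣ) =
      ∏ i, hIndexMul (subOneMul (MulAction.stabilizer G (r i)) (E ⧸ (r i).asIdeal)ˣ (t i))
        (normMul (MulAction.stabilizer G (r i)) (E ⧸ (r i).asIdeal)ˣ) := by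
  rw [← card_groupCohomology_even_ofMul Eˣ s hs 2 (by decide),
    card_groupCohomology_units G r hcov hsep 2]
  exact Finset.prod_congr rfl fun i _ =>
    card_groupCohomology_even_ofMul _ (t i) (ht i) 2 (by decide)

include hcov hsep hs ht in
/-- **Semi-local Shapiro lemma, Herbrand form (`Ĥ⁻¹`)**: `[ker N : im (s - 1)]` on `Eˣ` is the
product of the local indices. -/
theorem hIndexMul_norm_sub_units_eq_prod :
    hIndexMul (normMul G Eˣ) (subOneMul G Eˣ s) =
      ∏ i, hIndexMul (normMul (MulAction.stabilizer G (r i)) (E ⧸ (r i).asIdeal)ˣ)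
        (subOneMul (MulAction.stabilizer G (r i)) (E ⧸ (r i).asIdeal)ˣ (t i)) := by
  rw [← card_groupCohomology_odd_ofMul Eˣ s hs 1 (by decide),
    card_groupCohomology_units G r hcov hsep 1]
  exact Finset.prod_congr rfl fun i _ =>
    card_groupCohomology_odd_ofMul _ (t i) (ht i) 1 (by decide)

include hcov hsep hs ht in
/-- **Herbrand quotient of the units of a `G`-algebra**: `h(G, Eˣ) = ∏ i, h(G_i, (E ⧸ r i)ˣ)`. -/
theorem herbrandCycMul_units_eq_prod :
    herbrandCycMul G Eˣ s =
      ∏ i, herbrandCycMul (MulAction.stabilizer G (r i)) (E ⧸ (r i).asIdeal)ˣ (t i) := by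
  unfold herbrandCycMul herbrandMul
  rw [hIndexMul_sub_norm_units_eq_prod G r hcov hsep s hs t ht,
    hIndexMul_norm_sub_units_eq_prod G r hcov hsep s hs t ht, Nat.cast_prod, Nat.cast_prod,
    Finset.prod_div_distrib]

include hcov hsep hs ht in
/-- Finiteness of the Herbrand indices of `Eˣ` is equivalent to the local finiteness. -/
theorem cycFinMul_units_iff :
    CycFinMul G Eˣ s ↔
      ∀ i, CycFinMul (MulAction.stabilizer G (r i)) (E ⧸ (r i).asIdeal)ˣ (t i) := by
  unfold CycFinMul IsFinMul
  rw [hIndexMul_sub_norm_units_eq_prod G r hcov hsep s hs t ht,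
    hIndexMul_norm_sub_units_eq_prod G r hcov hsep s hs t ht, Finset.prod_ne_zero_iff,
    Finset.prod_ne_zero_iff]
  constructor
  · intro h i
    exact ⟨h.1 i (Finset.mem_univ i), h.2 i (Finset.mem_univ i)⟩
  · intro h
    exact ⟨fun i _ => (h i).1, fun i _ => (h i).2⟩

end Units

section SubBridge

variable (H M : Type) [CommGroup H] [Fintype H] [CommGroup M] [MulDistribMulAction H M]
  (W : Submodule ℤ (Additive M))
  (hW : ∀ h : H, W ≤ W.comap (Representation.ofMulDistribMulAction H M h))

/-- The `H`-stable subgroup `W` of the multiplicative `H`-module `M`, as an object of `Rep ℤ H`. -/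
noncomputable def subRepOfMul : Rep ℤ H :=
  Rep.of ((Representation.ofMulDistribMulAction H M).subrepresentation W hW)

/-- The underlying element of the ambient module. -/
def subRepOfMulVal : (subRepOfMul H M W hW).V →+ Additive M :=
  (W.subtype : W →ₗ[ℤ] Additive M).toAddMonoidHom

/-- Elements of `W` as elements of the representation. -/
def subRepOfMulMk (w : M) (hw : Additive.ofMul w ∈ W) : (subRepOfMul H M W hW).V :=
  (⟨Additive.ofMul w, hw⟩ : W)

omit [Fintype H] in
theorem subRepOfMulVal_injective : Function.Injective (subRepOfMulVal H M W hW) :=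
  fun _ _ h => Subtype.ext h

omit [Fintype H] in
theorem subRepOfMulVal_mem (w : (subRepOfMul H M W hW).V) : subRepOfMulVal H M W hW w ∈ W :=
  Subtype.property (p := fun x => x ∈ W) w

omit [Fintype H] in
@[simp] theorem subRepOfMulVal_mk (w : M) (hw : Additive.ofMul w ∈ W) :
    subRepOfMulVal H M W hW (subRepOfMulMk H M W hW w hw) = Additive.ofMul w := rfl

omit [Fintype H] in
theorem subRepOfMulVal_repSub (t : H) (w : (subRepOfMul H M W hW).V) :
    subRepOfMulVal H M W hW (repSub (subRepOfMul H M W hW) t w) =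
      Additive.ofMul (subOneMul H M t (Additive.toMul (subRepOfMulVal H M W hW w))) := rfl

theorem subRepOfMulVal_repNorm (w : (subRepOfMul H M W hW).V) :
    subRepOfMulVal H M W hW (repNorm (subRepOfMul H M W hW) w) =
      Additive.ofMul (normMul H M (Additive.toMul (subRepOfMulVal H M W hW w))) := by
  rw [repNorm_apply, map_sum, normMul_apply, ofMul_prod]
  rfl

/-- `[ker (t - 1) : im N] = 1` on `W` means: every `t`-fixed element of `W` is a norm from `W`. -/
theorem hIndex_repSub_repNorm_subRepOfMul_eq_one_iff (t : H) :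
    hIndex (repSub (subRepOfMul H M W hW) t) (repNorm (subRepOfMul H M W hW)) = 1 ↔
      ∀ w : M, Additive.ofMul w ∈ W → t • w = w →
        ∃ v : M, Additive.ofMul v ∈ W ∧ normMul H M v = w := by
  unfold hIndex
  rw [AddSubgroup.relIndex_eq_one]
  constructor
  · intro h w hw hfix
    have hk : subRepOfMulMk H M W hW w hw ∈ (repSub (subRepOfMul H M W hW) t).ker := by
      rw [AddMonoidHom.mem_ker]
      apply subRepOfMulVal_injective
      rw [subRepOfMulVal_repSub, subRepOfMulVal_mk, toMul_ofMul, subOneMul_apply, hfix,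
        div_self', map_zero]
      rfl
    obtain ⟨v, hv⟩ := h hk
    refine ⟨Additive.toMul (subRepOfMulVal H M W hW v), subRepOfMulVal_mem H M W hW v, ?_⟩
    have := congrArg (subRepOfMulVal H M W hW) hv
    rw [subRepOfMulVal_repNorm, subRepOfMulVal_mk] at this
    exact Additive.ofMul.injective this
  · intro h w hw
    rw [AddMonoidHom.mem_ker] at hw
    have h1 := congrArg (subRepOfMulVal H M W hW) hw
    rw [subRepOfMulVal_repSub, map_zero] at h1
    have h2 : subOneMul H M t (Additive.toMul (subRepOfMulVal H M W hW w)) = 1 :=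
      Additive.ofMul.injective h1
    rw [subOneMul_apply, div_eq_one] at h2
    obtain ⟨v, hvW, hv⟩ := h _ (subRepOfMulVal_mem H M W hW w) h2
    refine ⟨subRepOfMulMk H M W hW v hvW, ?_⟩
    apply subRepOfMulVal_injective
    rw [subRepOfMulVal_repNorm, subRepOfMulVal_mk, toMul_ofMul, hv]
    rfl

/-- `[ker N : im (t - 1)] = 1` on `W` means: every element of `W` of norm one is of the form
`t • v / v` with `v` in `W`. -/
theorem hIndex_repNorm_repSub_subRepOfMul_eq_one_iff (t : H) :
    hIndex (repNorm (subRepOfMul H M W hW)) (repSub (subRepOfMul H M W hW) t) = 1 ↔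
      ∀ w : M, Additive.ofMul w ∈ W → normMul H M w = 1 →
        ∃ v : M, Additive.ofMul v ∈ W ∧ t • v / v = w := by
  unfold hIndex
  rw [AddSubgroup.relIndex_eq_one]
  constructor
  · intro h w hw hN
    have hk : subRepOfMulMk H M W hW w hw ∈ (repNorm (subRepOfMul H M W hW)).ker := by
      rw [AddMonoidHom.mem_ker]
      apply subRepOfMulVal_injective
      rw [subRepOfMulVal_repNorm, subRepOfMulVal_mk, toMul_ofMul, hN, map_zero]
      rfl
    obtain ⟨v, hv⟩ := h hk
    refine ⟨Additive.toMul (subRepOfMulVal H M W hW v), subRepOfMulVal_mem H M W hW v, ?_⟩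
    have := congrArg (subRepOfMulVal H M W hW) hv
    rw [subRepOfMulVal_repSub, subRepOfMulVal_mk] at this
    exact Additive.ofMul.injective this
  · intro h w hw
    rw [AddMonoidHom.mem_ker] at hw
    have h1 := congrArg (subRepOfMulVal H M W hW) hw
    rw [subRepOfMulVal_repNorm, map_zero] at h1
    have h2 : normMul H M (Additive.toMul (subRepOfMulVal H M W hW w)) = 1 :=
      Additive.ofMul.injective h1
    obtain ⟨v, hvW, hv⟩ := h _ (subRepOfMulVal_mem H M W hW w) h2
    refine ⟨subRepOfMulMk H M W hW v hvW, ?_⟩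
    apply subRepOfMulVal_injective
    rw [subRepOfMulVal_repSub, subRepOfMulVal_mk, toMul_ofMul, subOneMul_apply, hv]
    rfl

end SubBridge

section SubUnits

open scoped Pointwise

attribute [local instance] Units.mulDistribMulActionRight

variable (G : Type) {E : Type} [CommGroup G] [Fintype G] [CommRing E] [MulSemiringAction G E]
  [IsArtinianRing E] [IsReduced E] {ι : Type} [Fintype ι] [DecidableEq ι]
  (r : ι → MaximalSpectrum E) [∀ i, Fintype (MulAction.stabilizer G (r i))]
  (W : ∀ i, Submodule ℤ (Additive (E ⧸ (r i).asIdeal)ˣ))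
  (hW : ∀ i (s : MulAction.stabilizer G (r i)), W i ≤ (W i).comap
    (Representation.ofMulDistribMulAction (MulAction.stabilizer G (r i)) (E ⧸ (r i).asIdeal)ˣ s))
  (hcov : ∀ m : MaximalSpectrum E, ∃ i, ∃ g : G, g • m = r i)
  (hsep : ∀ i j (g : G), g • r i = r j → i = j)
  (s : G) (hs : ∀ x, x ∈ Subgroup.zpowers s)
  (t : ∀ i, MulAction.stabilizer G (r i)) (ht : ∀ i x, x ∈ Subgroup.zpowers (t i))

include hcov hsep hs ht in
/-- Semi-local Shapiro lemma, Herbrand form (`Ĥ⁰`), for the stable unit subgroup cut out by `W`. -/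
theorem hIndex_repSub_repNorm_subUnits :
    hIndex (repSub (subUnitsRep G r W) s) (repNorm (subUnitsRep G r W)) =
      ∏ i, hIndex (repSub (subUnitsLocalRep G r W hW i) (t i))
        (repNorm (subUnitsLocalRep G r W hW i)) := by
  rw [← card_groupCohomology_even _ s hs 2 (by decide),
    card_groupCohomology_subUnits G r W hW hcov hsep 2]
  exact Finset.prod_congr rfl fun i _ =>
    card_groupCohomology_even _ (t i) (ht i) 2 (by decide)

include hcov hsep hs ht in
/-- Semi-local Shapiro lemma, Herbrand form (`Ĥ⁻¹`), for the stable unit subgroup cut out by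
`W`. -/
theorem hIndex_repNorm_repSub_subUnits :
    hIndex (repNorm (subUnitsRep G r W)) (repSub (subUnitsRep G r W) s) =
      ∏ i, hIndex (repNorm (subUnitsLocalRep G r W hW i))
        (repSub (subUnitsLocalRep G r W hW i) (t i)) := by
  rw [← card_groupCohomology_odd _ s hs 1 (by decide),
    card_groupCohomology_subUnits G r W hW hcov hsep 1]
  exact Finset.prod_congr rfl fun i _ =>
    card_groupCohomology_odd _ (t i) (ht i) 1 (by decide)

include hcov hsep hs ht in
/-- Herbrand quotient of the stable unit subgroup cut out by `W`. -/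
theorem herbrand_subUnits :
    herbrand (repSub (subUnitsRep G r W) s) (repNorm (subUnitsRep G r W)) =
      ∏ i, herbrand (repSub (subUnitsLocalRep G r W hW i) (t i))
        (repNorm (subUnitsLocalRep G r W hW i)) := by
  unfold herbrand
  rw [hIndex_repSub_repNorm_subUnits G r W hW hcov hsep s hs t ht,
    hIndex_repNorm_repSub_subUnits G r W hW hcov hsep s hs t ht, Nat.cast_prod, Nat.cast_prod,
    Finset.prod_div_distrib]

include hW hcov hsep hs ht in
/-- **Norms of the stable unit subgroup**: if, for every `i`, every `t i`-fixed element of `W i` is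
a norm from `W i`, then every `s`-fixed unit of `E` with residues in `W` is the norm of such a
unit. -/
theorem subUnits_exists_norm_eq_aux
    (hloc : ∀ i, ∀ w : (E ⧸ (r i).asIdeal)ˣ, Additive.ofMul w ∈ W i → t i • w = w →
      ∃ v : (E ⧸ (r i).asIdeal)ˣ, Additive.ofMul v ∈ W i ∧
        normMul (MulAction.stabilizer G (r i)) (E ⧸ (r i).asIdeal)ˣ v = w)
    (u : Eˣ) (hu : Additive.ofMul u ∈ unitsSubmodule (G := G) r W) (hfix : s • u = u) :
    ∃ v : Eˣ, Additive.ofMul v ∈ unitsSubmodule (G := G) r W ∧ normMul G Eˣ v = u := by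
  have h1 : hIndex (repSub (subUnitsRep G r W) s) (repNorm (subUnitsRep G r W)) = 1 := by
    rw [hIndex_repSub_repNorm_subUnits G r W hW hcov hsep s hs t ht]
    refine Finset.prod_eq_one fun i _ => ?_
    exact (hIndex_repSub_repNorm_subRepOfMul_eq_one_iff (MulAction.stabilizer G (r i))
      (E ⧸ (r i).asIdeal)ˣ (W i) (hW i) (t i)).2 (hloc i)
  exact (hIndex_repSub_repNorm_subRepOfMul_eq_one_iff G Eˣ (unitsSubmodule (G := G) r W)
    (unitsSubmodule_le_comap r W) s).1 h1 u hu hfix

include hW hcov hsep hs ht in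
/-- **Hilbert 90 for the stable unit subgroup**: if, for every `i`, every element of `W i` of norm
one is of the form `t i • v / v` with `v` in `W i`, then every unit of `E` with residues in `W` and
of norm one is of the form `s • v / v` for such a unit `v`. -/
theorem subUnits_exists_subOne_eq_aux
    (hloc : ∀ i, ∀ w : (E ⧸ (r i).asIdeal)ˣ, Additive.ofMul w ∈ W i →
      normMul (MulAction.stabilizer G (r i)) (E ⧸ (r i).asIdeal)ˣ w = 1 →
      ∃ v : (E ⧸ (r i).asIdeal)ˣ, Additive.ofMul v ∈ W i ∧ t i • v / v = w)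
    (u : Eˣ) (hu : Additive.ofMul u ∈ unitsSubmodule (G := G) r W) (hN : normMul G Eˣ u = 1) :
    ∃ v : Eˣ, Additive.ofMul v ∈ unitsSubmodule (G := G) r W ∧ s • v / v = u := by
  have h1 : hIndex (repNorm (subUnitsRep G r W)) (repSub (subUnitsRep G r W) s) = 1 := by
    rw [hIndex_repNorm_repSub_subUnits G r W hW hcov hsep s hs t ht]
    refine Finset.prod_eq_one fun i _ => ?_
    exact (hIndex_repNorm_repSub_subRepOfMul_eq_one_iff (MulAction.stabilizer G (r i))
      (E ⧸ (r i).asIdeal)ˣ (W i) (hW i) (t i)).2 (hloc i)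
  exact (hIndex_repNorm_repSub_subRepOfMul_eq_one_iff G Eˣ (unitsSubmodule (G := G) r W)
    (unitsSubmodule_le_comap r W) s).1 h1 u hu hN

end SubUnits

section SubUnitsGroup

open scoped Pointwise

attribute [local instance] Units.mulDistribMulActionRight

variable (G : Type) {E : Type} [Group G] [Fintype G] [CommRing E] [MulSemiringAction G E]
  [IsArtinianRing E] [IsReduced E] {ι : Type} [Fintype ι] [DecidableEq ι]
  (r : ι → MaximalSpectrum E) [∀ i, Fintype (MulAction.stabilizer G (r i))]
  (W : ∀ i, Submodule ℤ (Additive (E ⧸ (r i).asIdeal)ˣ))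
  (hW : ∀ i (s : MulAction.stabilizer G (r i)), W i ≤ (W i).comap
    (Representation.ofMulDistribMulAction (MulAction.stabilizer G (r i)) (E ⧸ (r i).asIdeal)ˣ s))
  (hcov : ∀ m : MaximalSpectrum E, ∃ i, ∃ g : G, g • m = r i)
  (hsep : ∀ i j (g : G), g • r i = r j → i = j)
  (s : G) (hs : ∀ x, x ∈ Subgroup.zpowers s)
  (t : ∀ i, MulAction.stabilizer G (r i)) (ht : ∀ i x, x ∈ Subgroup.zpowers (t i))

include hW hcov hsep hs ht in
/-- **Norms of the stable unit subgroup**: if, for every `i`, every `t i`-fixed element of `W i` is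
a norm from `W i`, then every `s`-fixed unit of `E` with residues in `W` is the norm of such a
unit. -/
theorem subUnits_exists_norm_eq
    (hloc : ∀ i, ∀ w : (E ⧸ (r i).asIdeal)ˣ, Additive.ofMul w ∈ W i → t i • w = w →
      ∃ v : (E ⧸ (r i).asIdeal)ˣ, Additive.ofMul v ∈ W i ∧
        normMul (MulAction.stabilizer G (r i)) (E ⧸ (r i).asIdeal)ˣ v = w)
    (u : Eˣ) (hu : Additive.ofMul u ∈ unitsSubmodule (G := G) r W) (hfix : s • u = u) :
    ∃ v : Eˣ, Additive.ofMul v ∈ unitsSubmodule (G := G) r W ∧ normMul G Eˣ v = u := by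
  let _ : CommGroup G := commGroupOfZpowers s hs
  exact subUnits_exists_norm_eq_aux G r W hW hcov hsep s hs t ht hloc u hu hfix

include hW hcov hsep hs ht in
/-- **Hilbert 90 for the stable unit subgroup**: if, for every `i`, every element of `W i` of norm
one is of the form `t i • v / v` with `v` in `W i`, then every unit of `E` with residues in `W` and
of norm one is of the form `s • v / v` for such a unit `v`. -/
theorem subUnits_exists_subOne_eq
    (hloc : ∀ i, ∀ w : (E ⧸ (r i).asIdeal)ˣ, Additive.ofMul w ∈ W i →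
      normMul (MulAction.stabilizer G (r i)) (E ⧸ (r i).asIdeal)ˣ w = 1 →
      ∃ v : (E ⧸ (r i).asIdeal)ˣ, Additive.ofMul v ∈ W i ∧ t i • v / v = w)
    (u : Eˣ) (hu : Additive.ofMul u ∈ unitsSubmodule (G := G) r W) (hN : normMul G Eˣ u = 1) :
    ∃ v : Eˣ, Additive.ofMul v ∈ unitsSubmodule (G := G) r W ∧ s • v / v = u := by
  let _ : CommGroup G := commGroupOfZpowers s hs
  exact subUnits_exists_subOne_eq_aux G r W hW hcov hsep s hs t ht hloc u hu hN

end SubUnitsGroup

section SubgroupForm

open scoped Pointwise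

attribute [local instance] Units.mulDistribMulActionRight

/-- A subgroup of a commutative group `M`, as a `ℤ`-submodule of `Additive M`. -/
def subgroupSubmodule {M : Type} [CommGroup M] (V : Subgroup M) : Submodule ℤ (Additive M) :=
  (Subgroup.toAddSubgroup V).toIntSubmodule

@[simp] theorem ofMul_mem_subgroupSubmodule {M : Type} [CommGroup M] (V : Subgroup M) (v : M) :
    Additive.ofMul v ∈ subgroupSubmodule V ↔ v ∈ V := Iff.rfl

variable (G : Type) {E : Type} [Group G] [CommRing E] [MulSemiringAction G E]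
  {ι : Type} (r : ι → MaximalSpectrum E) (V : ∀ i, Subgroup (E ⧸ (r i).asIdeal)ˣ)

/-- The units of `E` all of whose conjugates reduce, modulo every `r i`, into the prescribed
subgroup `V i` of `(E ⧸ r i)ˣ`: the subgroup form of `unitsSubmodule`. -/
def unitsSubgroup : Subgroup Eˣ :=
  AddSubgroup.toSubgroup' (unitsSubmodule (G := G) r fun i => subgroupSubmodule (V i)).toAddSubgroup

theorem mem_unitsSubgroup (u : Eˣ) :
    u ∈ unitsSubgroup G r V ↔ ∀ i (g : G), redUnits (r i) (g • u) ∈ V i := Iff.rfl

theorem mem_unitsSubgroup_iff_ofMul (u : Eˣ) :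
    u ∈ unitsSubgroup G r V ↔
      Additive.ofMul u ∈ unitsSubmodule (G := G) r fun i => subgroupSubmodule (V i) := Iff.rfl

theorem smul_mem_unitsSubgroup (g : G) {u : Eˣ} (hu : u ∈ unitsSubgroup G r V) :
    g • u ∈ unitsSubgroup G r V := by
  rw [mem_unitsSubgroup] at hu ⊢
  intro i h
  have := hu i (h * g)
  rwa [mul_smul] at this

variable [Fintype G] [IsArtinianRing E] [IsReduced E] [Fintype ι] [DecidableEq ι]
  [∀ i, Fintype (MulAction.stabilizer G (r i))]
  (hV : ∀ i (h : MulAction.stabilizer G (r i)), ∀ v ∈ V i, h • v ∈ V i)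
  (hcov : ∀ m : MaximalSpectrum E, ∃ i, ∃ g : G, g • m = r i)
  (hsep : ∀ i j (g : G), g • r i = r j → i = j)
  (s : G) (hs : ∀ x, x ∈ Subgroup.zpowers s)
  (t : ∀ i, MulAction.stabilizer G (r i)) (ht : ∀ i x, x ∈ Subgroup.zpowers (t i))

include hV hcov hsep hs ht in
/-- **Cohomological triviality of a stable unit subgroup, elementary form** (the shape of
`HerbrandTrivialOn G s (unitsSubgroup G r V)` of `Coh/RestrictedProd`): if every local subgroup
`V i` satisfies `V i ^ {t i} ⊆ N (V i)` and `V i [N] ⊆ (t i - 1) (V i)` for its decomposition group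
`G_i = ⟨t i⟩`, then the same holds for the unit subgroup of `E` cut out by the `V i`, for
`G = ⟨s⟩`. -/
theorem herbrandTrivial_unitsSubgroup
    (hloc : ∀ i, (∀ w ∈ V i, t i • w = w → ∃ v ∈ V i,
        normMul (MulAction.stabilizer G (r i)) (E ⧸ (r i).asIdeal)ˣ v = w) ∧
      (∀ w ∈ V i, normMul (MulAction.stabilizer G (r i)) (E ⧸ (r i).asIdeal)ˣ w = 1 →
        ∃ v ∈ V i, t i • v / v = w)) :
    (∀ u ∈ unitsSubgroup G r V, s • u = u →
        ∃ v ∈ unitsSubgroup G r V, normMul G Eˣ v = u) ∧
      (∀ u ∈ unitsSubgroup G r V, normMul G Eˣ u = 1 →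
        ∃ v ∈ unitsSubgroup G r V, s • v / v = u) := by
  have hW : ∀ i (h : MulAction.stabilizer G (r i)), subgroupSubmodule (V i) ≤
      (subgroupSubmodule (V i)).comap (Representation.ofMulDistribMulAction
        (MulAction.stabilizer G (r i)) (E ⧸ (r i).asIdeal)ˣ h) := by
    intro i h v hv
    exact hV i h _ hv
  constructor
  · intro u hu hfix
    exact subUnits_exists_norm_eq G r (fun i => subgroupSubmodule (V i)) hW hcov hsep s hs t ht
      (fun i w hw hfix => (hloc i).1 w hw hfix) u hu hfix
  · intro u hu hN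
    exact subUnits_exists_subOne_eq G r (fun i => subgroupSubmodule (V i)) hW hcov hsep s hs t ht
      (fun i w hw hN => (hloc i).2 w hw hN) u hu hN

end SubgroupForm

end Fermat.Agent.Lib.CFT.Global.EtaleAlg
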