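import Fermat.Agent.Lib.CFT.Global.SUnits
import Fermat.Agent.Lib.CFT.Coh.LatticeHerbrand
import Fermat.Agent.Lib.CFT.HerbrandMul

/-!
# The Herbrand quotient of the group of `S`-units

`K` a number field, `G` a finite cyclic group (generator `s`) acting on `K`, `S` a finite
`G`-stable set of primes of `K`.  Then the Herbrand quotient of the `G`-module of `S`-units is
`(∏ over the G-orbits of places in S_∞ ∪ S of |Stab|) / |G|`.
-/

namespace Fermat.Agent.Lib.CFT.Global.SUnitHerbrand

open NumberField IsDedekindDomain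
open Fermat.Agent.Lib.CFT.Herbrand Fermat.Agent.Lib.CFT.Coh.PermLattice
  Fermat.Agent.Lib.CFT.Coh.Lattice Fermat.Agent.Lib.CFT.Coh.LatticeHerbrand
  Fermat.Agent.Lib.CFT.Global.SUnits

variable {K : Type*} [Field K] [NumberField K] {G : Type*} [Group G] [Fintype G]
  [MulSemiringAction G K] (S : Finset (HeightOneSpectrum (𝓞 K))) (hS : IsStableUnder G S)

attribute [local instance] permAction

omit [Fintype G] in
/-- Equivariance of the logarithmic map, as an identity of functions. -/
theorem logS_smul_eq_tr (g : G) (u : SUnit K S) :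
    letI := sUnitMulDistribMulAction S hS
    letI := idxMulAction S hS
    logS K S (Additive.ofMul (g • u)) = tr g (logS K S (Additive.ofMul u)) := by
  letI := sUnitMulDistribMulAction S hS
  letI := idxMulAction S hS
  funext i
  rw [tr_apply]
  have := logS_smul S hS g u (g⁻¹ • i)
  rw [smul_inv_smul] at this
  exact this

omit [Fintype G] in
theorem sUnitLattice_stable :
    letI := idxMulAction S hS
    ∀ (g : G), ∀ f ∈ sUnitLattice K S, tr g f ∈ sUnitLattice K S := by
  letI := sUnitMulDistribMulAction S hS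
  letI := idxMulAction S hS
  intro g f hf
  obtain ⟨u, rfl⟩ := mem_sUnitLattice_iff.mp hf
  exact mem_sUnitLattice_iff.mpr ⟨g • u, logS_smul_eq_tr S hS g u⟩

/-- **Herbrand quotient of the `S`-units** for a finite cyclic group `G = ⟨s⟩` acting on the number
field `K` and stabilising `S`. -/
theorem herbrand_sUnit {s : G} (hs : ∀ x, x ∈ Subgroup.zpowers s) :
    letI := sUnitMulDistribMulAction S hS
    letI := idxMulAction S hS
    herbrandCycMul G (SUnit K S) s =
        ((∏ ω : Orb G (Idx K S), orbStab G ω : ℕ) : ℚ) / (Fintype.card G : ℚ) ∧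
      CycFinMul G (SUnit K S) s := by
  letI := sUnitMulDistribMulAction S hS
  letI := idxMulAction S hS
  have hG := sUnitLattice_stable S hS
  have h0 : ∀ v ∈ sUnitLattice K S, ∑ x, v x = 0 := fun v hv =>
    mem_traceZero.mp (sUnitLattice_le_traceZero S (Submodule.subset_span hv))
  have hspan : ∀ v : Idx K S → ℝ, ∑ x, v x = 0 →
      v ∈ Submodule.span ℝ (sUnitLattice K S : Set (Idx K S → ℝ)) := fun v hv => by
    rw [span_sUnitLattice]
    exact mem_traceZero.mpr hv
  obtain ⟨hq, hfin⟩ := herbrand_traceZero_lattice hs (sUnitLattice K S) h0 hspan hG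
  -- the logarithm as a map onto the lattice
  let φ : Additive (SUnit K S) →+ (sUnitLattice K S).toAddSubgroup :=
    (logS K S).codRestrict (sUnitLattice K S).toAddSubgroup
      (fun u => mem_sUnitLattice_iff.mpr ⟨u.toMul, rfl⟩)
  have hφ_val : ∀ u, ((φ u : (sUnitLattice K S).toAddSubgroup) : Idx K S → ℝ) = logS K S u :=
    fun u => rfl
  have hφ_surj : Function.Surjective φ := by
    rintro ⟨f, hf⟩
    obtain ⟨u, rfl⟩ := mem_sUnitLattice_iff.mp hf
    exact ⟨Additive.ofMul u, rfl⟩
  have hker : φ.ker = (logS K S).ker := by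
    ext u
    rw [AddMonoidHom.mem_ker, AddMonoidHom.mem_ker]
    constructor
    · intro h
      have := congrArg (fun v : (sUnitLattice K S).toAddSubgroup => (v : Idx K S → ℝ)) h
      exact this
    · intro h
      apply Subtype.ext
      exact h
  have : Finite φ.ker := by
    rw [hker]
    exact finite_ker_logS S
  have hcoker : φ.range.index ≠ 0 := by
    rw [AddMonoidHom.range_eq_top.mpr hφ_surj, AddSubgroup.index_top]
    exact one_ne_zero
  have hsm : ∀ (g : G) (u : Additive (SUnit K S)),
      logS K S (Additive.ofMul (g • u.toMul)) = g • logS K S u := fun g u =>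
    logS_smul_eq_tr S hS g u.toMul
  have hf : ∀ u, φ (MonoidHom.toAdditive (subOneMul G (SUnit K S) s) u) =
      resEnd (subOne G (Idx K S → ℝ) s) (sUnitLattice K S).toAddSubgroup
        (subOne_mem _ hG s) (φ u) := by
    intro u
    apply Subtype.ext
    rw [resEnd_coe, subOne_apply, hφ_val, hφ_val, ← hsm s u]
    show logS K S (Additive.ofMul (s • u.toMul / u.toMul)) = _
    rw [ofMul_div, map_sub]
    rfl
  have hg : ∀ u, φ (MonoidHom.toAdditive (normMul G (SUnit K S)) u) =
      resEnd (normHom G (Idx K S → ℝ)) (sUnitLattice K S).toAddSubgroup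
        (normHom_mem _ hG) (φ u) := by
    intro u
    apply Subtype.ext
    rw [resEnd_coe, Herbrand.normHom_apply, hφ_val, hφ_val]
    show logS K S (Additive.ofMul (normMul G (SUnit K S) u.toMul)) = _
    rw [normMul_apply, ofMul_prod, map_sum]
    exact Finset.sum_congr rfl fun g _ => hsm g u
  obtain ⟨hiff, heq⟩ := herbrand_eq_of_finite_ker_coker φ
    (fun x => subOneMul_normMul s x.toMul) (fun x => normMul_subOneMul s x.toMul)
    (resEnd_comp_zero (subOne_normHom s) _ _ _) (resEnd_comp_zero (normHom_subOne s) _ _ _)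
    hf hg hcoker
  rw [herbrand_toAdditive] at heq
  rw [isFin_toAdditive] at hiff
  exact ⟨heq.trans hq, hiff.mpr hfin⟩

end Fermat.Agent.Lib.CFT.Global.SUnitHerbrand
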