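import Mathlib
import Fermat.Agent.Lib.CFT.Global.FirstIneqUnits
import Fermat.Agent.Lib.CFT.Global.OrbitProd
import Fermat.Agent.Lib.CFT.Global.SUnitHerbrand
import Fermat.Agent.Lib.CFT.Global.PlacesInfinite

/-!
# Orbit products over the places in `S ∪ ∞` (translation layer for the first inequality)

The Herbrand quotient of the `S`-units is expressed (helper58, `Global/SUnitHerbrand.lean`) through
the orbit product of `Idx L S' = InfinitePlace L ⊕ S'` (helper11's action).  Here we decompose it:
`orbProd G (Idx L S') = orbProd G (InfinitePlace L) * ∏ q ∈ S, orbProd G {v | q}`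
for `S' = primesAbove L S`, and identify the archimedean factor with the orbit product of
`MaximalSpectrum (ℝ ⊗ L)` (helper27's `PlacesInfinite`).  The result is packaged as
`FirstIneq.localDegreeProd L G S` (`= ∏_{v ∈ S_K ∪ ∞_K} n_v`), and we prove
`FirstIneq.herbrandCycMul_sUnits` (`h(O_{L,S}ˣ) = localDegreeProd / |G|`) and the conditional
`FirstIneq.herbrandCycMul_ideleClass_of_sIdeles` (`h(C_L) = |G|`, given `Covers L S` and
`h(J_{L,S}) = localDegreeProd`).
-/

set_option linter.style.haveILetI false

open scoped TensorProduct NumberField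

namespace Fermat.Agent.Lib.CFT.Global

namespace FirstIneq

open IsDedekindDomain NumberField OrbitProd SUnits
open Fermat.Agent.Lib.CFT.Coh.PermLattice Fermat.Agent.Lib.CFT.Herbrand

section Actions

variable (L : Type) [Field L] [NumberField L]
variable (G : Type) [Group G] [MulSemiringAction G L]

/-- The action of `G` on the infinite places of `L` (through `SUnits.infMap`). -/
@[reducible] noncomputable def infPlaceAction : MulAction G (InfinitePlace L) where
  smul g w := infMap (MulSemiringAction.toRingEquiv G L g) w
  one_smul w := by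
    change infMap (MulSemiringAction.toRingEquiv G L 1) w = w
    rw [toRingEquiv_one, infMap_refl]; rfl
  mul_smul g h w := by
    change infMap (MulSemiringAction.toRingEquiv G L (g * h)) w =
      infMap (MulSemiringAction.toRingEquiv G L g) (infMap (MulSemiringAction.toRingEquiv G L h) w)
    rw [toRingEquiv_mul, infMap_trans]

/-- The action of `G` on the primes of `𝓞 L` (through `SUnits.primeMap`). -/
@[reducible] noncomputable def primeAction : MulAction G (HeightOneSpectrum (𝓞 L)) where
  smul g v := primeMap (MulSemiringAction.toRingEquiv G L g) v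
  one_smul v := by
    change primeMap (MulSemiringAction.toRingEquiv G L 1) v = v
    rw [toRingEquiv_one, primeMap_refl]; rfl
  mul_smul g h v := by
    change primeMap (MulSemiringAction.toRingEquiv G L (g * h)) v =
      primeMap (MulSemiringAction.toRingEquiv G L g)
        (primeMap (MulSemiringAction.toRingEquiv G L h) v)
    rw [toRingEquiv_mul, primeMap_trans]

/-- The action of `G` on a stable subset of the primes of `𝓞 L`. -/
@[reducible] noncomputable def primeSubAction (P : HeightOneSpectrum (𝓞 L) → Prop)
    (hP : ∀ (g : G) (v : HeightOneSpectrum (𝓞 L)),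
      P (primeMap (MulSemiringAction.toRingEquiv G L g) v) ↔ P v) :
    MulAction G {v : HeightOneSpectrum (𝓞 L) // P v} where
  smul g v := ⟨primeMap (MulSemiringAction.toRingEquiv G L g) v.1, (hP g v.1).2 v.2⟩
  one_smul v := by
    apply Subtype.ext
    change primeMap (MulSemiringAction.toRingEquiv G L 1) v.1 = v.1
    rw [toRingEquiv_one, primeMap_refl]; rfl
  mul_smul g h v := by
    apply Subtype.ext
    change primeMap (MulSemiringAction.toRingEquiv G L (g * h)) v.1 =
      primeMap (MulSemiringAction.toRingEquiv G L g)
        (primeMap (MulSemiringAction.toRingEquiv G L h) v.1)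
    rw [toRingEquiv_mul, primeMap_trans]

omit [NumberField L] in
lemma natCast_mem_primeMap_iff (q : ℕ) (g : G) (v : HeightOneSpectrum (𝓞 L)) :
    (q : 𝓞 L) ∈ (primeMap (MulSemiringAction.toRingEquiv G L g) v).asIdeal ↔
      (q : 𝓞 L) ∈ v.asIdeal := by
  rw [SUnits.mem_primeMap_iff, map_natCast]

/-- The primes of `𝓞 L` above the rational prime `q`. -/
abbrev PrimesOverQ (q : Nat.Primes) : Type :=
  {v : HeightOneSpectrum (𝓞 L) // ((q : ℕ) : 𝓞 L) ∈ v.asIdeal}

noncomputable instance (q : Nat.Primes) : Fintype (PrimesOverQ L q) :=
  (finite_setOf_prime_mem L q).fintype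

/-- The action of `G` on the primes above `q`. -/
@[reducible] noncomputable def primesOverAction (q : Nat.Primes) : MulAction G (PrimesOverQ L q) :=
  primeSubAction L G _ (natCast_mem_primeMap_iff L G q)

end Actions

section Decomp

variable (L : Type) [Field L] [NumberField L]
variable (G : Type) [Group G] [Fintype G] [MulSemiringAction G L]

/-- The orbit product over `S_∞ ∪ S'` splits into the archimedean and the finite part. -/
theorem orbProd_idx (S' : Finset (HeightOneSpectrum (𝓞 L))) (hS' : IsStableUnder G S') :
    letI := idxMulAction S' hS'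
    letI := infPlaceAction L G
    letI := primeSubAction L G (· ∈ S') (fun g v => hS' g v)
    orbProd G (Idx L S') =
      orbProd G (InfinitePlace L) * orbProd G {v : HeightOneSpectrum (𝓞 L) // v ∈ S'} := by
  letI a1 := idxMulAction S' hS'
  letI a2 := infPlaceAction L G
  letI a3 := primeSubAction L G (· ∈ S') (fun g v => hS' g v)
  rw [← orbProd_sum]
  refine @orbProd_congr G _ _ (Idx L S') (InfinitePlace L ⊕ {v : HeightOneSpectrum (𝓞 L) // v ∈ S'})
    a1 _ _ _ (Equiv.refl _) ?_
  intro g x
  rcases x with w | v
  · rfl
  · rfl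

end Decomp

section Decomp2

variable (L : Type) [Field L] [NumberField L]
variable (G : Type) [Group G] [Fintype G] [MulSemiringAction G L]

/-- The primes above a finite set `S` of rational primes, as a disjoint union. -/
noncomputable def sigmaPrimesEquiv (S : Finset Nat.Primes) :
    (Σ q : S, PrimesOverQ L q.1) ≃ {v : HeightOneSpectrum (𝓞 L) // v ∈ primesAbove L S} :=
  Equiv.ofBijective
    (fun x => ⟨x.2.1, (mem_primesAbove L).2 ⟨x.1.1, x.1.2, x.2.2⟩⟩)
    (by
      constructor
      · rintro ⟨⟨q, hq⟩, ⟨v, hv⟩⟩ ⟨⟨q', hq'⟩, ⟨v', hv'⟩⟩ h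
        have hvv : v = v' := congrArg Subtype.val h
        subst hvv
        have hqq : q = q' := prime_mem_unique L v hv hv'
        subst hqq
        rfl
      · rintro ⟨v, hv⟩
        obtain ⟨q, hqS, hq⟩ := (mem_primesAbove L).1 hv
        exact ⟨⟨⟨q, hqS⟩, ⟨v, hq⟩⟩, rfl⟩)

/-- The finite part of the orbit product is the product over the rational primes in `S`. -/
theorem orbProd_primesAbove (S : Finset Nat.Primes) :
    letI := primeSubAction L G (· ∈ primesAbove L S)
      (fun g v => isStableUnder_primesAbove L G S g v)
    letI := fun q : Nat.Primes => primesOverAction L G q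
    orbProd G {v : HeightOneSpectrum (𝓞 L) // v ∈ primesAbove L S} =
      ∏ q ∈ S, orbProd G (PrimesOverQ L q) := by
  letI a1 := primeSubAction L G (· ∈ primesAbove L S)
    (fun g v => isStableUnder_primesAbove L G S g v)
  letI a2 := fun q : Nat.Primes => primesOverAction L G q
  rw [← Finset.prod_coe_sort S (fun q => orbProd G (PrimesOverQ L q)),
    ← orbProd_sigma (G := G) (fun q : S => PrimesOverQ L q.1)]
  symm
  refine orbProd_congr (sigmaPrimesEquiv L S) ?_
  rintro g ⟨q, v⟩
  rfl

end Decomp2

section Arch

variable (L : Type) [Field L] [NumberField L]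
variable (G : Type) [Group G] [MulSemiringAction G L]

open PlacesInfinite EtaleAlg

/-- The maximal ideals of `ℝ ⊗ L` form a finite set. -/
noncomputable instance fintypeMaxSpecArchAlg : Fintype (MaximalSpectrum (ArchAlg L)) :=
  Fintype.ofEquiv _ (placeEquivMaximalSpectrum (L := L))

/-- `placeEquivMaximalSpectrum` is equivariant for an arbitrary group acting on `L`. -/
theorem placeEquivMaximalSpectrum_smul' (g : G) (w : InfinitePlace L) :
    letI := infPlaceAction L G
    placeEquivMaximalSpectrum (g • w) = g • placeEquivMaximalSpectrum w := by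
  letI := infPlaceAction L G
  apply MaximalSpectrum.ext
  ext x
  rw [mem_smul_asIdeal_iff, placeEquivMaximalSpectrum_asIdeal, placeEquivMaximalSpectrum_asIdeal]
  change x ∈ maxIdeal L (infMap (MulSemiringAction.toRingEquiv G L g) w) ↔ _
  have hw : infMap (MulSemiringAction.toRingEquiv G L g) w =
      InfinitePlace.mk (w.embedding.comp (MulSemiringAction.toRingHom G L g⁻¹)) := by
    ext y
    rw [infMap_apply, InfinitePlace.apply, RingHom.comp_apply, InfinitePlace.norm_embedding_eq]
    rfl
  rw [hw, maxIdeal_mk, RingHom.mem_ker, ← evalEmb_archMap, mem_maxIdeal_iff, smul_archAlg_def]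

/-- The archimedean factor: orbits of infinite places versus orbits of maximal ideals of
`ℝ ⊗ L`. -/
theorem orbProd_infinitePlace [Fintype G] :
    letI := infPlaceAction L G
    orbProd G (InfinitePlace L) = orbProd G (MaximalSpectrum (ArchAlg L)) := by
  letI := infPlaceAction L G
  exact orbProd_congr (placeEquivMaximalSpectrum (L := L))
    (fun g w => placeEquivMaximalSpectrum_smul' L G g w)

end Arch

section Final

variable (L : Type) [Field L] [NumberField L]
variable (G : Type) [Group G] [Fintype G] [MulSemiringAction G L]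

open EtaleAlg

/-- The number `∏_{v ∈ S_K ∪ ∞_K} n_v` of the first inequality, in the form in which it is matched
with the Herbrand quotient of the `S`-units: the product, over the `G`-orbits of the places of
`L` above `S ∪ ∞`, of the orders of the stabilisers (decomposition groups). -/
noncomputable def localDegreeProd (S : Finset Nat.Primes) : ℕ :=
  letI := fun q : Nat.Primes => primesOverAction L G q
  orbProd G (MaximalSpectrum (ArchAlg L)) * ∏ q ∈ S, orbProd G (PrimesOverQ L q)

/-- The orbit product over `S_∞ ∪ primesAbove S`. -/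
theorem orbProd_idx_primesAbove (S : Finset Nat.Primes) :
    letI := idxMulAction (primesAbove L S) (isStableUnder_primesAbove L G S)
    orbProd G (Idx L (primesAbove L S)) = localDegreeProd L G S := by
  rw [orbProd_idx L G (primesAbove L S) (isStableUnder_primesAbove L G S), orbProd_infinitePlace,
    orbProd_primesAbove]
  rfl

/-- The Herbrand quotient of the `S`-units `FirstIneq.sUnits L S`. -/
theorem herbrandCycMul_sUnits {s : G} (hs : ∀ x, x ∈ Subgroup.zpowers s)
    (S : Finset Nat.Primes) :
    CycFinMul G (sUnits L (S : Set Nat.Primes)) s ∧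
      herbrandCycMul G (sUnits L (S : Set Nat.Primes)) s =
        (localDegreeProd L G S : ℚ) / (Fintype.card G : ℚ) := by
  obtain ⟨hiff, heq⟩ := herbrandCycMul_sUnits_eq L G S s
  obtain ⟨h1, h2⟩ := SUnitHerbrand.herbrand_sUnit (G := G) (primesAbove L S)
    (isStableUnder_primesAbove L G S) hs
  refine ⟨hiff.2 h2, ?_⟩
  rw [heq, h1, ← orbProd_idx_primesAbove L G S]
  rfl

/-- **The Herbrand quotient of the idele class group** of `L`, for a finite cyclic group
`G = ⟨s⟩` acting on `L`, given a finite set `S` of rational primes with `Lˣ J_{L,S} = J_L` and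
`h(J_{L,S}) = ∏_{v ∈ S_K ∪ ∞_K} n_v`:  `h(C_L) = |G|`. -/
theorem herbrandCycMul_ideleClass_of_sIdeles {s : G} (hs : ∀ x, x ∈ Subgroup.zpowers s)
    (S : Finset Nat.Primes) (hcov : Covers L (S : Set Nat.Primes))
    (hJfin : CycFinMul G (sIdeles L (S : Set Nat.Primes)) s)
    (hJ : herbrandCycMul G (sIdeles L (S : Set Nat.Primes)) s = (localDegreeProd L G S : ℚ)) :
    CycFinMul G (IdeleClass L) s ∧
      herbrandCycMul G (IdeleClass L) s = (Fintype.card G : ℚ) := by
  obtain ⟨hE, hE'⟩ := herbrandCycMul_sUnits L G hs S
  exact herbrandCycMul_ideleClass_eq L G s hcov (Fintype.card G) _ hJfin hJ hE hE'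

end Final

end FirstIneq

end Fermat.Agent.Lib.CFT.Global
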