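/-
P-CFT, Global/FirstIneq, (D3) field-specific half (helper39).

For number fields `L / K` with `IsGaloisGroup G K L`, `G = ⟨s⟩` finite cyclic, and a rational
prime `q`:
* `herbrandCycMul_localField`: the decomposition group `G_w` acting on `(L_w)ˣ` has Herbrand
  quotient `|G_w|` (from `Local/NormUnits` applied to the completed local rings of `Places`);
* `herbrandCycMul_locAlgUnits`: `h(G, (ℚ_q ⊗ L)ˣ) = ∏_{orbits of primes above q} |G_w|`
  (`= orbProd G (MaximalSpectrum (LocAlg L q))`), and `herbrandCycMul_locAlgUnits'` with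
  `orbProd G (PrimesOverQ L q)` (the shape of `FirstIneq.localDegreeProd`).
-/
import Mathlib
import Fermat.Agent.Lib.CFT.Global.Places.GaloisLocalField
import Fermat.Agent.Lib.CFT.Global.EtaleAlgHerbrand
import Fermat.Agent.Lib.CFT.Local.NormUnits.UnitsHerbrand
import Fermat.Agent.Lib.CFT.Global.FirstIneqPlaces

open scoped NumberField Pointwise

set_option linter.style.haveILetI false

noncomputable section

namespace Fermat.Agent.Lib.CFT.Global.LocAlgHerbrand

open Fermat.Agent.Lib.CFT Fermat.Agent.Lib.CFT.Herbrand Fermat.Agent.Lib.CFT.Global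
  Fermat.Agent.Lib.CFT.Global.Places Fermat.Agent.Lib.CFT.Global.Places.Galois
  Fermat.Agent.Lib.CFT.LocalUnits Fermat.Agent.Lib.CFT.NormUnits
  IsDedekindDomain IsLocalRing

section Local

variable {L : Type} [Field L] [NumberField L] {q : Nat.Primes}
variable {G : Type} [Group G] [Finite G] [MulSemiringAction G L]

/-- The residue field of the completed local ring at a prime of a number field is finite. -/
theorem finite_residueField_localInt (w : PrimesOver L q) :
    Finite (ResidueField (localInt L q w)) := by
  have : Finite (𝓞 L ⧸ w.1.asIdeal) := Ideal.finiteQuotientOfFreeOfNeBot _ w.1.ne_bot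
  exact Finite.of_equiv _ (LocalInt.residueFieldEquiv w).toEquiv

/-- **Local Herbrand quotient**: the decomposition group `G_w` (assumed cyclic, generated by `σ`)
acting on the multiplicative group of the local field `L_w` has Herbrand quotient `|G_w|`. -/
theorem herbrandMul_localField (K : Type) [Field K] [NumberField K] [Algebra K L]
    [IsGaloisGroup G K L] (w : PrimesOver L q)
    [Fintype (MulAction.stabilizer G w.1.asIdeal)]
    {σ : MulAction.stabilizer G w.1.asIdeal}
    (hσ : ∀ g : MulAction.stabilizer G w.1.asIdeal, g ∈ Subgroup.zpowers σ) :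
    IsFinMul (unitsTwist (localField L q w) σ)
        (LocalUnits.unitsNorm (MulAction.stabilizer G w.1.asIdeal) (localField L q w)) ∧
      herbrandMul (unitsTwist (localField L q w) σ)
        (LocalUnits.unitsNorm (MulAction.stabilizer G w.1.asIdeal) (localField L q w)) =
        Fintype.card (MulAction.stabilizer G w.1.asIdeal) := by
  set v : PrimesOver K q := primeBelow K w with hv
  have hvw : LiesOverAlong (algebraMap (𝓞 K) (𝓞 L)) v w := liesOverAlong_primeBelow w
  letI := localFieldAlgebra hvw
  letI := localIntAlgebra hvw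
  letI : Algebra (localInt K q v) (localField L q w) :=
    ((algebraMap (localField K q v) (localField L q w)).comp
      (algebraMap (localInt K q v) (localField K q v))).toAlgebra
  haveI : IsScalarTower (localInt K q v) (localField K q v) (localField L q w) :=
    IsScalarTower.of_algebraMap_eq (fun _ => rfl)
  haveI : IsScalarTower (localInt K q v) (localInt L q w) (localField L q w) :=
    IsScalarTower.of_algebraMap_eq (fun a => localFieldBaseMap_toLocalField hvw a)
  haveI : IsGaloisGroup G (𝓞 K) (𝓞 L) := IsGaloisGroup.of_isFractionRing G (𝓞 K) (𝓞 L) K L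
  haveI := isGaloisGroup_localInt (G := G) hvw
  haveI : IsScalarTower ℤ_[pv q] (localInt K q v) (localInt L q w) :=
    IsScalarTower.of_algebraMap_eq (fun a => (localIntMap_algebraMap_padic _ hvw a).symm)
  haveI : Module.Finite (localInt K q v) (localInt L q w) :=
    Module.Finite.of_restrictScalars_finite ℤ_[pv q] _ _
  haveI := finite_residueField_localInt w
  exact herbrandMul_field_units (MulAction.stabilizer G w.1.asIdeal) (localInt K q v)
    (localInt L q w) (localField K q v) (localField L q w) hσ

attribute [local instance] Units.mulDistribMulActionRight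

/-- **Local Herbrand quotient**, in the notation of `HerbrandMul`. -/
theorem herbrandCycMul_localField (K : Type) [Field K] [NumberField K] [Algebra K L]
    [IsGaloisGroup G K L] (w : PrimesOver L q)
    [Fintype (MulAction.stabilizer G w.1.asIdeal)]
    (σ : MulAction.stabilizer G w.1.asIdeal)
    (hσ : ∀ g : MulAction.stabilizer G w.1.asIdeal, g ∈ Subgroup.zpowers σ) :
    CycFinMul (MulAction.stabilizer G w.1.asIdeal) (localField L q w)ˣ σ ∧
      herbrandCycMul (MulAction.stabilizer G w.1.asIdeal) (localField L q w)ˣ σ =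
        Fintype.card (MulAction.stabilizer G w.1.asIdeal) := by
  obtain ⟨h1, h2⟩ := herbrandMul_localField K w hσ
  have e1 : unitsTwist (localField L q w) σ =
      subOneMul (MulAction.stabilizer G w.1.asIdeal) (localField L q w)ˣ σ := by
    ext u
    rfl
  have e2 : LocalUnits.unitsNorm (MulAction.stabilizer G w.1.asIdeal) (localField L q w) =
      normMul (MulAction.stabilizer G w.1.asIdeal) (localField L q w)ˣ := by
    ext u
    rw [coe_unitsNorm, normMul_apply, Units.coe_prod]
    rfl
  rw [e1, e2] at h1 h2
  exact ⟨h1, h2⟩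

end Local

section Transport

variable {H H' M : Type} [Group H] [Fintype H] [Group H'] [Fintype H'] [CommGroup M]
  [MulDistribMulAction H M] [MulDistribMulAction H' M]

omit [Fintype H] [Fintype H'] in
theorem subOneMul_of_mulEquiv (e : H' ≃* H) (he : ∀ (h : H') (m : M), h • m = e h • m) (t : H') :
    subOneMul H' M t = subOneMul H M (e t) := by
  ext m
  rw [subOneMul_apply, subOneMul_apply, he]

theorem normMul_of_mulEquiv (e : H' ≃* H) (he : ∀ (h : H') (m : M), h • m = e h • m) :
    normMul H' M = normMul H M := by
  ext m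
  rw [normMul_apply, normMul_apply]
  exact Fintype.prod_equiv e.toEquiv _ _ (fun h => he h m)

theorem cycFinMul_of_mulEquiv (e : H' ≃* H) (he : ∀ (h : H') (m : M), h • m = e h • m) (t : H') :
    CycFinMul H' M t ↔ CycFinMul H M (e t) := by
  unfold CycFinMul
  rw [subOneMul_of_mulEquiv e he, normMul_of_mulEquiv e he]

theorem herbrandCycMul_of_mulEquiv (e : H' ≃* H) (he : ∀ (h : H') (m : M), h • m = e h • m)
    (t : H') : herbrandCycMul H' M t = herbrandCycMul H M (e t) := by
  unfold herbrandCycMul
  rw [subOneMul_of_mulEquiv e he, normMul_of_mulEquiv e he]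

end Transport

section LocalMax

variable {L : Type} [Field L] [NumberField L] {q : Nat.Primes}
variable {G : Type} [Group G] [Finite G] [MulSemiringAction G L]

open EtaleAlg

attribute [local instance] Units.mulDistribMulActionRight

/-- The same statement in the conventions of `Global/EtaleAlg`: the stabilizer of the maximal
ideal of `ℚ_q ⊗ L` attached to `w` acting on the units of the residue field. -/
theorem herbrandCycMul_residue_primesEquiv (K : Type) [Field K] [NumberField K] [Algebra K L]
    [IsGaloisGroup G K L] (w : PrimesOver L q)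
    [Fintype (MulAction.stabilizer G (primesEquivMaximalSpectrum L q w))]
    (t : MulAction.stabilizer G (primesEquivMaximalSpectrum L q w))
    (ht : ∀ x, x ∈ Subgroup.zpowers t) :
    CycFinMul (MulAction.stabilizer G (primesEquivMaximalSpectrum L q w))
        (LocAlg L q ⧸ (primesEquivMaximalSpectrum L q w).asIdeal)ˣ t ∧
      herbrandCycMul (MulAction.stabilizer G (primesEquivMaximalSpectrum L q w))
        (LocAlg L q ⧸ (primesEquivMaximalSpectrum L q w).asIdeal)ˣ t =
        Fintype.card (MulAction.stabilizer G (primesEquivMaximalSpectrum L q w)) := by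
  classical
  let e : MulAction.stabilizer G (primesEquivMaximalSpectrum L q w) ≃*
      MulAction.stabilizer G w.1.asIdeal := MulEquiv.subgroupCongr (stabilizer_primesEquiv q w)
  letI : Fintype (MulAction.stabilizer G w.1.asIdeal) := Fintype.ofEquiv _ e.toEquiv
  have hσ : ∀ g : MulAction.stabilizer G w.1.asIdeal, g ∈ Subgroup.zpowers (e t) := by
    intro g
    obtain ⟨k, hk⟩ := Subgroup.mem_zpowers_iff.1 (ht (e.symm g))
    exact Subgroup.mem_zpowers_iff.2 ⟨k, by rw [← map_zpow, hk, e.apply_symm_apply]⟩
  obtain ⟨h1, h2⟩ := herbrandCycMul_localField K w (e t) hσ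
  letI inst' : MulDistribMulAction (MulAction.stabilizer G (primesEquivMaximalSpectrum L q w))
      (localField L q w)ˣ := residueUnitsAction (primesEquivMaximalSpectrum L q w)
  letI instS : SMul (MulAction.stabilizer G (primesEquivMaximalSpectrum L q w))
      (localField L q w)ˣ := inst'.toSMul
  letI instS2 : SMul (MulAction.stabilizer G w.1.asIdeal) (localField L q w)ˣ :=
    (Units.mulDistribMulActionRight :
      MulDistribMulAction (MulAction.stabilizer G w.1.asIdeal) (localField L q w)ˣ).toSMul
  have he : ∀ (h : MulAction.stabilizer G (primesEquivMaximalSpectrum L q w))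
      (m : (localField L q w)ˣ), h • m = e h • m := fun _ _ => rfl
  have key1 : CycFinMul (MulAction.stabilizer G (primesEquivMaximalSpectrum L q w))
      (localField L q w)ˣ t ↔
      CycFinMul (MulAction.stabilizer G w.1.asIdeal) (localField L q w)ˣ (e t) :=
    cycFinMul_of_mulEquiv e he t
  have key2 : herbrandCycMul (MulAction.stabilizer G (primesEquivMaximalSpectrum L q w))
      (localField L q w)ˣ t =
      herbrandCycMul (MulAction.stabilizer G w.1.asIdeal) (localField L q w)ˣ (e t) :=
    herbrandCycMul_of_mulEquiv e he t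
  refine ⟨key1.2 h1, ?_⟩
  refine key2.trans ?_
  rw [h2, Fintype.card_congr e.toEquiv]

end LocalMax


section OrbitReps

open Fermat.Agent.Lib.CFT.Coh.PermLattice Fermat.Agent.Lib.CFT.Global.OrbitProd

variable (G : Type*) [Group G] (X : Type*) [MulAction G X]

/-- A chosen representative in each orbit. -/
def orbRep (ω : Orb G X) : X := Quotient.out ω

variable {G X}

theorem orbRep_mk (ω : Orb G X) : (Quotient.mk'' (orbRep G X ω) : Orb G X) = ω :=
  Quotient.out_eq ω

theorem orbRep_cover (x : X) : ∃ ω : Orb G X, ∃ g : G, g • x = orbRep G X ω := by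
  have h : (Quotient.mk'' (orbRep G X (Quotient.mk'' x)) : Orb G X) = Quotient.mk'' x :=
    orbRep_mk _
  obtain ⟨g, hg⟩ := Quotient.exact' h
  exact ⟨Quotient.mk'' x, g, hg⟩

theorem orbRep_separated (ω ω' : Orb G X) (g : G) (h : g • orbRep G X ω = orbRep G X ω') :
    ω = ω' := by
  rw [← orbRep_mk ω, ← orbRep_mk ω']
  apply Quotient.sound'
  exact ⟨g⁻¹, by rw [← h]; exact inv_smul_smul g _⟩

end OrbitReps

section Global

open EtaleAlg Fermat.Agent.Lib.CFT.Coh.PermLattice Fermat.Agent.Lib.CFT.Global.OrbitProd

attribute [local instance] Units.mulDistribMulActionRight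

variable (L : Type) [Field L] [NumberField L] (G : Type) [Group G] [Fintype G]
  [MulSemiringAction G L]

/-- The local Herbrand quotient at an arbitrary maximal ideal of `ℚ_q ⊗ L`. -/
theorem herbrandCycMul_residue (K : Type) [Field K] [NumberField K] [Algebra K L]
    [IsGaloisGroup G K L] (q : Nat.Primes) (m : MaximalSpectrum (LocAlg L q))
    [Fintype (MulAction.stabilizer G m)] (t : MulAction.stabilizer G m)
    (ht : ∀ x, x ∈ Subgroup.zpowers t) :
    CycFinMul (MulAction.stabilizer G m) (LocAlg L q ⧸ m.asIdeal)ˣ t ∧
      herbrandCycMul (MulAction.stabilizer G m) (LocAlg L q ⧸ m.asIdeal)ˣ t =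
        Fintype.card (MulAction.stabilizer G m) := by
  obtain ⟨w, rfl⟩ := (primesEquivMaximalSpectrum L q).surjective m
  exact herbrandCycMul_residue_primesEquiv K w t ht

/-- **(D3)** The Herbrand quotient of `(ℚ_q ⊗ L)ˣ` for a finite cyclic group `G = ⟨s⟩` of
automorphisms of `L` is the product over the orbits of primes above `q` of the orders of the
decomposition groups. -/
theorem herbrandCycMul_locAlgUnits (K : Type) [Field K] [NumberField K] [Algebra K L]
    [IsGaloisGroup G K L] (q : Nat.Primes) [Fintype (MaximalSpectrum (LocAlg L q))]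
    {s : G} (hs : ∀ x, x ∈ Subgroup.zpowers s) :
    CycFinMul G (LocAlg L q)ˣ s ∧
      herbrandCycMul G (LocAlg L q)ˣ s = (orbProd G (MaximalSpectrum (LocAlg L q)) : ℚ) := by
  classical
  letI : ∀ ω : Orb G (MaximalSpectrum (LocAlg L q)),
      Fintype (MulAction.stabilizer G (orbRep G (MaximalSpectrum (LocAlg L q)) ω)) :=
    fun _ => Fintype.ofFinite _
  have hcyc : IsCyclic G := ⟨⟨s, hs⟩⟩
  have hgen : ∀ ω : Orb G (MaximalSpectrum (LocAlg L q)),
      ∃ t : MulAction.stabilizer G (orbRep G (MaximalSpectrum (LocAlg L q)) ω),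
        ∀ x, x ∈ Subgroup.zpowers t := fun ω => IsCyclic.exists_generator
  choose t ht using hgen
  have hloc := fun ω => herbrandCycMul_residue L G K q
    (orbRep G (MaximalSpectrum (LocAlg L q)) ω) (t ω) (ht ω)
  refine ⟨(EtaleAlg.cycFinMul_units_iff G _ orbRep_cover orbRep_separated s hs t ht).2
    (fun ω => (hloc ω).1), ?_⟩
  rw [EtaleAlg.herbrandCycMul_units_eq_prod G _ orbRep_cover orbRep_separated s hs t ht]
  unfold orbProd
  rw [Nat.cast_prod]
  refine Finset.prod_congr rfl fun ω _ => ?_
  rw [(hloc ω).2, ← Nat.card_eq_fintype_card]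
  rfl

end Global

section Compare

open EtaleAlg Fermat.Agent.Lib.CFT.Coh.PermLattice Fermat.Agent.Lib.CFT.Global.OrbitProd
  Fermat.Agent.Lib.CFT.Global.FirstIneq NumberField

variable (L : Type) [Field L] [NumberField L] (G : Type) [Group G] [MulSemiringAction G L]

omit [NumberField L] in
theorem primeMap_asIdeal (g : G) (v : HeightOneSpectrum (𝓞 L)) :
    (SUnits.primeMap (MulSemiringAction.toRingEquiv G L g) v).asIdeal = g • v.asIdeal := by
  ext a
  rw [SUnits.mem_primeMap_iff, Ideal.mem_pointwise_smul_iff_inv_smul_mem]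
  have : RingOfIntegers.mapRingEquiv (MulSemiringAction.toRingEquiv G L g).symm a = g⁻¹ • a := by
    apply RingOfIntegers.ext
    rfl
  rw [this]

/-- The primes above `q`, in the conventions of `FirstIneqPlaces` and of `Places`. -/
def primesOverQEquiv (q : Nat.Primes) : PrimesOverQ L q ≃ PrimesOver L q where
  toFun v := ⟨v.1, v.2⟩
  invFun v := ⟨v.1, v.2⟩
  left_inv _ := rfl
  right_inv _ := rfl

theorem primesOverQEquiv_smul (q : Nat.Primes) (g : G) (v : PrimesOverQ L q) :
    letI := primesOverAction L G q
    primesOverQEquiv L q (g • v) = g • primesOverQEquiv L q v := by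
  letI := primesOverAction L G q
  symm
  rw [smul_prime_eq_iff]
  exact (primeMap_asIdeal L G g v.1).symm

theorem orbProd_maximalSpectrum_locAlg [Fintype G] (q : Nat.Primes)
    [Fintype (MaximalSpectrum (LocAlg L q))] :
    letI := primesOverAction L G q
    orbProd G (MaximalSpectrum (LocAlg L q)) = orbProd G (PrimesOverQ L q) := by
  letI := primesOverAction L G q
  symm
  exact orbProd_congr ((primesOverQEquiv L q).trans (primesEquivMaximalSpectrum L q))
    (fun g v => by
      rw [Equiv.trans_apply, Equiv.trans_apply, primesOverQEquiv_smul,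
        primesEquivMaximalSpectrum_smul])

end Compare

section Final

open EtaleAlg Fermat.Agent.Lib.CFT.Coh.PermLattice Fermat.Agent.Lib.CFT.Global.OrbitProd
  Fermat.Agent.Lib.CFT.Global.FirstIneq NumberField

variable (L : Type) [Field L] [NumberField L] (G : Type) [Group G] [Fintype G]
  [MulSemiringAction G L]

/-- The maximal ideals of `ℚ_q ⊗ L` form a finite set. -/
instance fintypeMaxSpecLocAlg (q : Nat.Primes) : Fintype (MaximalSpectrum (LocAlg L q)) :=
  Fintype.ofEquiv _ (primesEquivMaximalSpectrum L q)

/-- **(D3), in the form used for the first inequality**: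
`h((ℚ_q ⊗ L)ˣ) = ∏_{v | q, v prime of K} n_v`. -/
theorem herbrandCycMul_locAlgUnits' (K : Type) [Field K] [NumberField K] [Algebra K L]
    [IsGaloisGroup G K L] (q : Nat.Primes) {s : G} (hs : ∀ x, x ∈ Subgroup.zpowers s) :
    letI := primesOverAction L G q
    CycFinMul G (LocAlg L q)ˣ s ∧
      herbrandCycMul G (LocAlg L q)ˣ s = (orbProd G (PrimesOverQ L q) : ℚ) := by
  letI := primesOverAction L G q
  obtain ⟨h1, h2⟩ := herbrandCycMul_locAlgUnits L G K q hs
  exact ⟨h1, by rw [h2, orbProd_maximalSpectrum_locAlg]⟩

end Final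

end Fermat.Agent.Lib.CFT.Global.LocAlgHerbrand
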