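import Mathlib

/-!
# Almost all rational primes have trivial inertia groups

`L` a number field, `G` a finite group acting faithfully on `L` by field automorphisms
(e.g. `G = Gal(L/K)`).  Then there is a finite set `S₀` of rational primes such that for every
prime `v` of `𝓞 L` not above `S₀` the inertia group `Ideal.inertia G v.asIdeal` is trivial
(`RamifiedFinite.exists_finset_forall_inertia_eq_bot`).

Proof: for `g ≠ 1` choose `θ ∈ 𝓞 L` with `g • θ ≠ θ`; if `g` lies in the inertia group of `v`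
then `g • θ - θ ∈ v`, so the rational prime below `v` divides the non-zero integer
`N(g • θ - θ)`.
-/

open scoped NumberField

namespace Fermat.Agent.Lib.CFT.Global.RamifiedFinite

open IsDedekindDomain

variable (L : Type*) [Field L] [NumberField L]
variable (G : Type*) [Group G] [MulSemiringAction G L]

/-- A non-trivial element of a group acting faithfully on `L` moves some algebraic integer. -/
lemma exists_integer_smul_ne [FaithfulSMul G L] {g : G} (hg : g ≠ 1) :
    ∃ θ : 𝓞 L, g • θ ≠ θ := by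
  by_contra hcon
  have hfix : ∀ θ : 𝓞 L, g • θ = θ := fun θ => by
    by_contra h
    exact hcon ⟨θ, h⟩
  apply hg
  apply FaithfulSMul.eq_of_smul_eq_smul (α := L)
  intro x
  rw [one_smul]
  obtain ⟨a, b, hb, rfl⟩ := IsFractionRing.div_surjective (A := 𝓞 L) x
  have ha' : g • (algebraMap (𝓞 L) L a) = algebraMap (𝓞 L) L a := by
    have := congrArg (algebraMap (𝓞 L) L) (hfix a)
    rwa [algebraMap.smul'] at this
  have hb' : g • (algebraMap (𝓞 L) L b) = algebraMap (𝓞 L) L b := by
    have := congrArg (algebraMap (𝓞 L) L) (hfix b)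
    rwa [algebraMap.smul'] at this
  rw [smul_div₀', ha', hb']

/-- If `g` lies in the inertia group of a prime `v` above `q` and moves `θ`, then `q` divides the
absolute norm of `(g • θ - θ)`. -/
lemma dvd_absNorm_of_mem_inertia {g : G} {θ : 𝓞 L} (v : HeightOneSpectrum (𝓞 L))
    (q : Nat.Primes) (hq : ((q : ℕ) : 𝓞 L) ∈ v.asIdeal) (hg : g ∈ Ideal.inertia G v.asIdeal) :
    (q : ℕ) ∣ Ideal.absNorm (Ideal.span {g • θ - θ}) := by
  by_contra hnd
  have hmem : g • θ - θ ∈ v.asIdeal := hg θ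
  have hN : ((Ideal.absNorm (Ideal.span {g • θ - θ}) : ℕ) : 𝓞 L) ∈ v.asIdeal := by
    have h1 := Ideal.absNorm_mem (Ideal.span {g • θ - θ})
    exact (Ideal.span_singleton_le_iff_mem (I := v.asIdeal)).2 hmem h1
  have hcop : IsCoprime ((q : ℕ) : ℤ) ((Ideal.absNorm (Ideal.span {g • θ - θ}) : ℕ) : ℤ) :=
    Nat.isCoprime_iff_coprime.2 ((Nat.Prime.coprime_iff_not_dvd q.2).2 hnd)
  obtain ⟨a, b, hab⟩ := hcop
  apply v.isPrime.ne_top
  rw [Ideal.eq_top_iff_one]
  have h2 : ((a : 𝓞 L)) * ((q : ℕ) : 𝓞 L) +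
      (b : 𝓞 L) * ((Ideal.absNorm (Ideal.span {g • θ - θ}) : ℕ) : 𝓞 L) = 1 := by
    have := congrArg (fun t : ℤ => (t : 𝓞 L)) hab
    push_cast at this
    exact this
  rw [← h2]
  exact add_mem (Ideal.mul_mem_left _ _ hq) (Ideal.mul_mem_left _ _ hN)

/-- **Almost all primes have trivial inertia groups.** -/
theorem exists_finset_forall_inertia_eq_bot [Finite G] [FaithfulSMul G L] :
    ∃ S₀ : Finset Nat.Primes, ∀ q : Nat.Primes, q ∉ S₀ → ∀ v : HeightOneSpectrum (𝓞 L),
      ((q : ℕ) : 𝓞 L) ∈ v.asIdeal → Ideal.inertia G v.asIdeal = ⊥ := by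
  classical
  have := Fintype.ofFinite G
  -- for every `g ≠ 1` a non-zero integer `N g`
  have hθ : ∀ g : G, ∃ θ : 𝓞 L, g ≠ 1 → g • θ ≠ θ := by
    intro g
    by_cases hg : g = 1
    · exact ⟨0, fun h => absurd hg h⟩
    · obtain ⟨θ, hθ⟩ := exists_integer_smul_ne L G hg
      exact ⟨θ, fun _ => hθ⟩
  choose θ hθ using hθ
  set N : G → ℕ := fun g => Ideal.absNorm (Ideal.span {g • θ g - θ g}) with hN
  have hN0 : ∀ g : G, g ≠ 1 → N g ≠ 0 := by
    intro g hg
    rw [hN]
    simp only [ne_eq, Ideal.absNorm_eq_zero_iff, Ideal.span_singleton_eq_bot, sub_eq_zero]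
    exact hθ g hg
  set M : ℕ := ∏ g ∈ Finset.univ.filter (fun g : G => g ≠ 1), N g with hM
  have hM0 : M ≠ 0 := by
    rw [hM, Finset.prod_ne_zero_iff]
    intro g hg
    exact hN0 g (Finset.mem_filter.1 hg).2
  have hfin : {q : Nat.Primes | (q : ℕ) ∣ M}.Finite := by
    have hsub : {q : Nat.Primes | (q : ℕ) ∣ M} ⊆
        (fun q : Nat.Primes => (q : ℕ)) ⁻¹' (M.divisors : Set ℕ) := by
      intro q hq
      simp only [Set.mem_preimage, Finset.mem_coe, Nat.mem_divisors]
      exact ⟨hq, hM0⟩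
    exact Set.Finite.subset (Set.Finite.preimage (Nat.Primes.coe_nat_injective.injOn)
      (Finset.finite_toSet _)) hsub
  refine ⟨hfin.toFinset, ?_⟩
  intro q hq v hv
  rw [Set.Finite.mem_toFinset] at hq
  rw [eq_bot_iff]
  intro g hg
  rw [Subgroup.mem_bot]
  by_contra hg1
  apply hq
  have h1 : (q : ℕ) ∣ N g := dvd_absNorm_of_mem_inertia L G v q hv hg
  exact h1.trans (Finset.dvd_prod_of_mem N (Finset.mem_filter.2 ⟨Finset.mem_univ g, hg1⟩))

end Fermat.Agent.Lib.CFT.Global.RamifiedFinite
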