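/-
P-CFT, Global/FirstIneq (helper39): the Herbrand quotient of the idele class group.

For number fields `L / K` with `IsGaloisGroup G K L`, `G = ⟨s⟩` finite cyclic:
* `herbrandCycMul_sIdeles_eq`: `h(J_{L,S}) = ∏_{v ∈ S_K ∪ ∞_K} n_v` (`FirstIneq.localDegreeProd`),
  from `CohIdeles.herbrandCycMul_sIdeles`, (D3) `LocAlgHerbrand.herbrandCycMul_locAlgUnits'` and
  (D4) `CohIdelesArch.herbrandCycMul_archUnits`, given the local input (D2) outside `S`;
* `herbrandCycMul_ideleClass_of_covers`, `herbrandCycMul_ideleClass`: `h(C_L) = |G|`.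
-/
import Mathlib
import Fermat.Agent.Lib.CFT.Global.LocAlgHerbrand
import Fermat.Agent.Lib.CFT.Global.CohIdeles.Basic
import Fermat.Agent.Lib.CFT.Global.CohIdelesArchCoh
import Fermat.Agent.Lib.CFT.Global.IdeleCovers
import Fermat.Agent.Lib.CFT.Global.RamifiedFinite

open scoped NumberField Pointwise

set_option linter.style.haveILetI false

noncomputable section

namespace Fermat.Agent.Lib.CFT.Global.FirstIneqMain

open Fermat.Agent.Lib.CFT Fermat.Agent.Lib.CFT.Herbrand Fermat.Agent.Lib.CFT.Global
  IsDedekindDomain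

section Assembly

open EtaleAlg Fermat.Agent.Lib.CFT.Coh.PermLattice Fermat.Agent.Lib.CFT.Global.OrbitProd
  Fermat.Agent.Lib.CFT.Global.FirstIneq NumberField
  Fermat.Agent.Lib.CFT.Coh.RestrictedProd Fermat.Agent.Lib.CFT.Global.LocAlgHerbrand

variable (L : Type) [Field L] [NumberField L] (G : Type) [Group G] [Fintype G]
  [MulSemiringAction G L]

/-- **The Herbrand quotient of the `S`-ideles** is `∏_{v ∈ S_K ∪ ∞_K} n_v`, provided the integral
units at the primes outside `S` have trivial Tate cohomology. -/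
theorem herbrandCycMul_sIdeles_eq (K : Type) [Field K] [NumberField K] [Algebra K L]
    [IsGaloisGroup G K L] {s : G} (hs : ∀ x, x ∈ Subgroup.zpowers s) (S : Finset Nat.Primes)
    (hU : ∀ q : Nat.Primes, q ∉ S → HerbrandTrivialOn G s (locIntUnits L q)) :
    CycFinMul G (sIdeles L (S : Set Nat.Primes)) s ∧
      herbrandCycMul G (sIdeles L (S : Set Nat.Primes)) s = (localDegreeProd L G S : ℚ) := by
  haveI : FaithfulSMul G L := IsGaloisGroup.faithful K
  obtain ⟨ha1, ha2⟩ := CohIdelesArch.herbrandCycMul_archUnits L s hs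
  obtain ⟨h1, h2⟩ := CohIdeles.herbrandCycMul_sIdeles L G s S hU
    (fun q _ => (herbrandCycMul_locAlgUnits' L G K q hs).1) ha2
  refine ⟨h1, ?_⟩
  rw [h2, ha1, ← CohIdelesArch.orbProd_maximalSpectrum_archAlg L G]
  unfold localDegreeProd
  rw [Nat.cast_mul, Nat.cast_prod, mul_comm]
  congr 1
  exact Finset.prod_congr rfl fun q _ => (herbrandCycMul_locAlgUnits' L G K q hs).2

/-- **The Herbrand quotient of the idele class group is `|G|`** (conditional on the local
triviality of the integral units outside `S` and `J_L = Lˣ J_{L,S}`). -/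
theorem herbrandCycMul_ideleClass_of_covers (K : Type) [Field K] [NumberField K] [Algebra K L]
    [IsGaloisGroup G K L] {s : G} (hs : ∀ x, x ∈ Subgroup.zpowers s) (S : Finset Nat.Primes)
    (hcov : Covers L (S : Set Nat.Primes))
    (hU : ∀ q : Nat.Primes, q ∉ S → HerbrandTrivialOn G s (locIntUnits L q)) :
    CycFinMul G (IdeleClass L) s ∧
      herbrandCycMul G (IdeleClass L) s = (Fintype.card G : ℚ) := by
  obtain ⟨h1, h2⟩ := herbrandCycMul_sIdeles_eq L G K hs S hU
  exact herbrandCycMul_ideleClass_of_sIdeles L G hs S hcov h1 h2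

/-- **`h(C_L) = |G|` for a finite cyclic group `G = ⟨s⟩` of automorphisms of the number field
`L`**, given the local input (D2): at the primes `q` unramified in `L/L^G` the integral units
`locIntUnits L q` have trivial Tate cohomology. -/
theorem herbrandCycMul_ideleClass (K : Type) [Field K] [NumberField K] [Algebra K L]
    [IsGaloisGroup G K L] {s : G} (hs : ∀ x, x ∈ Subgroup.zpowers s)
    (hD2 : ∀ q : Nat.Primes, (∀ v : HeightOneSpectrum (𝓞 L), ((q : ℕ) : 𝓞 L) ∈ v.asIdeal →
      Ideal.inertia G v.asIdeal = ⊥) → HerbrandTrivialOn G s (locIntUnits L q)) :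
    CycFinMul G (IdeleClass L) s ∧
      herbrandCycMul G (IdeleClass L) s = (Fintype.card G : ℚ) := by
  haveI : FaithfulSMul G L := IsGaloisGroup.faithful K
  obtain ⟨S₀, hS₀⟩ := RamifiedFinite.exists_finset_forall_inertia_eq_bot L G
  obtain ⟨S, hS₀S, hcov⟩ := IdeleCovers.exists_covers L S₀
  exact herbrandCycMul_ideleClass_of_covers L G K hs S hcov
    (fun q hq => hD2 q (hS₀ q (fun h => hq (hS₀S h))))

end Assembly

end Fermat.Agent.Lib.CFT.Global.FirstIneqMain
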