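import Mathlib

/-!
# Base change `F ⊗[ℚ] K → F ⊗[ℚ] L` along an extension of fields (helper96, P-CFT WP 207)

Generic algebra behind `Global/IdeleNorm.lean`.  For a commutative `ℚ`-algebra `F` (in practice
`ℚ_q` or `ℝ`) and a finite extension `L / K` of fields of characteristic zero, the ring
`F ⊗[ℚ] L` is a finite free algebra over `F ⊗[ℚ] K`, with basis `1 ⊗ bᵢ` for any `K`-basis
`bᵢ` of `L`.  We compute norms of pure tensors `1 ⊗ x`, and, for Galois `L / K`, show that the
norm of an arbitrary element is the product of its conjugates.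
-/

open scoped TensorProduct

noncomputable section

namespace Fermat.Agent.Lib.CFT.Global.TensorExt

variable (F : Type) [CommRing F] [Algebra ℚ F]
variable {K L M : Type} [Field K] [CharZero K] [Field L] [CharZero L] [Field M] [CharZero M]

/-- Functoriality of `F ⊗[ℚ] -` in the field. -/
def tmap (f : K →+* L) : F ⊗[ℚ] K →ₐ[F] F ⊗[ℚ] L :=
  Algebra.TensorProduct.map (AlgHom.id F F) f.toRatAlgHom

@[simp] lemma tmap_tmul (f : K →+* L) (a : F) (x : K) : tmap F f (a ⊗ₜ x) = a ⊗ₜ f x := by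
  simp [tmap]

lemma tmap_id (x : F ⊗[ℚ] K) : tmap F (RingHom.id K) x = x := by
  induction x using TensorProduct.induction_on with
  | zero => simp
  | tmul a x => simp
  | add x y hx hy => simp [hx, hy]

lemma tmap_comp (f : K →+* L) (g : L →+* M) (x : F ⊗[ℚ] K) :
    tmap F (g.comp f) x = tmap F g (tmap F f x) := by
  induction x using TensorProduct.induction_on with
  | zero => simp
  | tmul a x => simp
  | add x y hx hy => simp [hx, hy]

lemma tmap_injective (f : K →+* L) : Function.Injective (tmap F f) := by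
  have hf : Function.Injective f.toRatAlgHom := f.injective
  have hinj : Function.Injective (LinearMap.lTensor F (f.toRatAlgHom.toLinearMap)) :=
    Module.Flat.lTensor_preserves_injective_linearMap _ hf
  have h1 : ∀ z, LinearMap.lTensor F (f.toRatAlgHom.toLinearMap) z = tmap F f z := by
    intro z
    induction z using TensorProduct.induction_on with
    | zero => simp
    | tmul a x => simp
    | add x y hx hy => simp [hx, hy]
  intro x y hxy
  apply hinj
  rw [h1, h1, hxy]

section Algebra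

variable [Algebra K L]

/-- The algebra structure of `F ⊗[ℚ] L` over `F ⊗[ℚ] K`. -/
@[reducible] def tAlgebra : Algebra (F ⊗[ℚ] K) (F ⊗[ℚ] L) :=
  (tmap F (algebraMap K L)).toRingHom.toAlgebra

attribute [local instance] tAlgebra

lemma algebraMap_eq_tmap (x : F ⊗[ℚ] K) :
    algebraMap (F ⊗[ℚ] K) (F ⊗[ℚ] L) x = tmap F (algebraMap K L) x := rfl

lemma tsmul_def (c : F ⊗[ℚ] K) (y : F ⊗[ℚ] L) : c • y = tmap F (algebraMap K L) c * y := rfl

@[simp] lemma tmul_smul_tmul (a a' : F) (k : K) (x : L) :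
    ((a ⊗ₜ[ℚ] k : F ⊗[ℚ] K) • (a' ⊗ₜ[ℚ] x : F ⊗[ℚ] L)) = (a * a') ⊗ₜ (k • x) := by
  rw [tsmul_def, tmap_tmul, Algebra.TensorProduct.tmul_mul_tmul, Algebra.smul_def]

variable {ι : Type} [Fintype ι] [DecidableEq ι] (b : Module.Basis ι K L)

/-- Coordinates of `F ⊗ L` with respect to the basis `1 ⊗ bᵢ`, as an `F`-linear equivalence. -/
def tEquivFunAux : F ⊗[ℚ] L ≃ₗ[F] (ι → F ⊗[ℚ] K) :=
  (TensorProduct.AlgebraTensorModule.congr (LinearEquiv.refl F F)
      (b.equivFun.restrictScalars ℚ)) ≪≫ₗ TensorProduct.piRight ℚ F F (fun _ : ι => K)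

@[simp] lemma tEquivFunAux_tmul (a : F) (x : L) (i : ι) :
    tEquivFunAux F b (a ⊗ₜ x) i = a ⊗ₜ b.repr x i := by
  simp [tEquivFunAux]

lemma tEquivFunAux_smul (c : F ⊗[ℚ] K) (y : F ⊗[ℚ] L) :
    tEquivFunAux F b (c • y) = c • tEquivFunAux F b y := by
  induction c using TensorProduct.induction_on with
  | zero => simp
  | add c c' hc hc' => rw [add_smul, map_add, hc, hc', add_smul]
  | tmul a k =>
    induction y using TensorProduct.induction_on with
    | zero => simp
    | add y y' hy hy' => rw [smul_add, map_add, hy, hy', map_add, smul_add]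
    | tmul a' x =>
      funext i
      rw [tmul_smul_tmul, tEquivFunAux_tmul, Pi.smul_apply, tEquivFunAux_tmul, smul_eq_mul,
        Algebra.TensorProduct.tmul_mul_tmul]
      simp

/-- Coordinates of `F ⊗ L` with respect to the basis `1 ⊗ bᵢ`. -/
def tEquivFun : F ⊗[ℚ] L ≃ₗ[F ⊗[ℚ] K] (ι → F ⊗[ℚ] K) where
  toFun := tEquivFunAux F b
  map_add' := map_add _
  map_smul' c y := tEquivFunAux_smul F b c y
  invFun := (tEquivFunAux F b).symm
  left_inv := (tEquivFunAux F b).left_inv
  right_inv := (tEquivFunAux F b).right_inv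

/-- The basis `1 ⊗ bᵢ` of `F ⊗ L` over `F ⊗ K`. -/
def tBasis : Module.Basis ι (F ⊗[ℚ] K) (F ⊗[ℚ] L) := Module.Basis.ofEquivFun (tEquivFun F b)

@[simp] lemma tBasis_repr_tmul (a : F) (x : L) (i : ι) :
    (tBasis F b).repr (a ⊗ₜ x) i = a ⊗ₜ b.repr x i := by
  simp [tBasis, tEquivFun]

@[simp] lemma tBasis_apply (i : ι) : tBasis F b i = (1 : F) ⊗ₜ b i := by
  apply (tBasis F b).repr.injective
  ext j
  rw [Module.Basis.repr_self, tBasis_repr_tmul, Module.Basis.repr_self]
  by_cases h : i = j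
  · subst h; simp [Algebra.TensorProduct.one_def]
  · simp [Finsupp.single_eq_of_ne, Ne.symm h]

lemma leftMulMatrix_tBasis_one_tmul (x : L) :
    Algebra.leftMulMatrix (tBasis F b) ((1 : F) ⊗ₜ[ℚ] x) =
      (Algebra.leftMulMatrix b x).map
        (Algebra.TensorProduct.includeRight : K →ₐ[ℚ] F ⊗[ℚ] K) := by
  ext i j
  rw [Algebra.leftMulMatrix_eq_repr_mul, tBasis_apply, Algebra.TensorProduct.tmul_mul_tmul,
    one_mul, tBasis_repr_tmul, Matrix.map_apply, Algebra.leftMulMatrix_eq_repr_mul]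
  rfl

include b in
lemma tFree : Module.Free (F ⊗[ℚ] K) (F ⊗[ℚ] L) := Module.Free.of_basis (tBasis F b)

include b in
lemma tFinite : Module.Finite (F ⊗[ℚ] K) (F ⊗[ℚ] L) := Module.Finite.of_basis (tBasis F b)

end Algebra

section Norm

variable [Algebra K L] [FiniteDimensional K L]

attribute [local instance] tAlgebra

instance instFree : Module.Free (F ⊗[ℚ] K) (F ⊗[ℚ] L) := tFree F (Module.finBasis K L)

instance instFinite : Module.Finite (F ⊗[ℚ] K) (F ⊗[ℚ] L) := tFinite F (Module.finBasis K L)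

/-- The norm of a pure tensor `1 ⊗ x`. -/
lemma norm_one_tmul (x : L) :
    Algebra.norm (F ⊗[ℚ] K) ((1 : F) ⊗ₜ[ℚ] x : F ⊗[ℚ] L) = (1 : F) ⊗ₜ Algebra.norm K x := by
  rw [Algebra.norm_eq_matrix_det (tBasis F (Module.finBasis K L)),
    leftMulMatrix_tBasis_one_tmul, Algebra.norm_eq_matrix_det (Module.finBasis K L)]
  have := (RingHom.map_det
    ((Algebra.TensorProduct.includeRight : K →ₐ[ℚ] F ⊗[ℚ] K) : K →+* F ⊗[ℚ] K)
    (Algebra.leftMulMatrix (Module.finBasis K L) x)).symm
  simpa using this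

/-- The norm of an element coming from `F ⊗ K`. -/
lemma norm_tmap (c : F ⊗[ℚ] K) :
    Algebra.norm (F ⊗[ℚ] K) (tmap F (algebraMap K L) c) = c ^ Module.finrank K L := by
  have := Algebra.norm_algebraMap_of_basis (tBasis F (Module.finBasis K L)) c
  simpa [algebraMap_eq_tmap] using this

end Norm

end Fermat.Agent.Lib.CFT.Global.TensorExt
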