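import Fermat.Agent.Lib.CFT.Global.Ideles
import Fermat.Agent.Lib.CFT.Global.TensorExt

/-!
# Functoriality of the ideles in the number field (helper96, P-CFT WP 207, part 1)

For a ring homomorphism `f : K →+* L` of number fields we construct `ideleMap f : Idele K →* Idele L`
(componentwise `Units.map (locMap f q)`), show that it is injective, compatible with the diagonal
embeddings, functorial, and that for a Galois extension `L / K` its image is the group of
`Gal(L/K)`-invariants.
-/

open scoped TensorProduct NumberField

noncomputable section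

namespace Fermat.Agent.Lib.CFT.Global

variable {K L M : Type} [Field K] [NumberField K] [Field L] [NumberField L]
  [Field M] [NumberField M]

lemma locMap_eq_tmap (f : K →+* L) (q : Nat.Primes) :
    locMap f q = TensorExt.tmap ℚ_[pv q] f := rfl

lemma archMap_eq_tmap (f : K →+* L) : archMap f = TensorExt.tmap ℝ f := rfl

lemma locMap_injective (f : K →+* L) (q : Nat.Primes) : Function.Injective (locMap f q) :=
  TensorExt.tmap_injective ℚ_[pv q] f

lemma archMap_injective (f : K →+* L) : Function.Injective (archMap f) :=
  TensorExt.tmap_injective ℝ f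

/-- `locMap` preserves the integral subalgebras. -/
lemma locMap_mem_locInt (f : K →+* L) (q : Nat.Primes) {x : LocAlg K q} (hx : x ∈ locInt K q) :
    locMap f q x ∈ locInt L q := by
  let φ : LocAlg K q →ₐ[ℤ_[pv q]] LocAlg L q := (locMap f q).restrictScalars ℤ_[pv q]
  have hφ : ∀ y, φ y = locMap f q y := fun y => rfl
  have hmap : (locInt K q).map φ ≤ locInt L q := by
    rw [locInt, AlgHom.map_adjoin]
    apply Algebra.adjoin_mono
    rintro _ ⟨_, ⟨y, rfl⟩, rfl⟩
    have hint : IsIntegral ℤ (f (y : K)) := map_isIntegral_int f y.2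
    refine ⟨⟨f (y : K), hint⟩, ?_⟩
    simp only [hφ, locMap_tmul]
    rfl
  rw [← hφ]
  exact hmap ⟨x, hx, rfl⟩

/-- The map induced by `f` on the local unit groups. -/
def locUnitsMap (f : K →+* L) (q : Nat.Primes) : (LocAlg K q)ˣ →* (LocAlg L q)ˣ :=
  Units.map ((locMap f q : LocAlg K q →ₐ[ℚ_[pv q]] LocAlg L q) : LocAlg K q →* LocAlg L q)

/-- The map induced by `f` on the archimedean unit groups. -/
def archUnitsMap (f : K →+* L) : (ArchAlg K)ˣ →* (ArchAlg L)ˣ :=
  Units.map ((archMap f : ArchAlg K →ₐ[ℝ] ArchAlg L) : ArchAlg K →* ArchAlg L)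

@[simp] lemma val_locUnitsMap (f : K →+* L) (q : Nat.Primes) (u : (LocAlg K q)ˣ) :
    ((locUnitsMap f q u : (LocAlg L q)ˣ) : LocAlg L q) = locMap f q (u : LocAlg K q) := rfl

@[simp] lemma val_archUnitsMap (f : K →+* L) (u : (ArchAlg K)ˣ) :
    ((archUnitsMap f u : (ArchAlg L)ˣ) : ArchAlg L) = archMap f (u : ArchAlg K) := rfl

lemma locUnitsMap_injective (f : K →+* L) (q : Nat.Primes) :
    Function.Injective (locUnitsMap f q) :=
  Units.map_injective (locMap_injective f q)

lemma archUnitsMap_injective (f : K →+* L) : Function.Injective (archUnitsMap f) :=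
  Units.map_injective (archMap_injective f)

lemma locUnitsMap_mem_locIntUnits (f : K →+* L) (q : Nat.Primes) {u : (LocAlg K q)ˣ}
    (hu : u ∈ locIntUnits K q) : locUnitsMap f q u ∈ locIntUnits L q := by
  refine ⟨locMap_mem_locInt f q hu.1, ?_⟩
  rw [← map_inv]
  exact locMap_mem_locInt f q hu.2

lemma locUnitsMap_locUnit (f : K →+* L) (q : Nat.Primes) (x : Kˣ) :
    locUnitsMap f q (locUnit K q x) = locUnit L q (Units.map (f : K →* L) x) := by
  apply Units.ext
  simp

lemma archUnitsMap_archUnit (f : K →+* L) (x : Kˣ) :
    archUnitsMap f (archUnit K x) = archUnit L (Units.map (f : K →* L) x) := by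
  apply Units.ext
  simp

lemma locUnitsMap_id (q : Nat.Primes) (u : (LocAlg K q)ˣ) :
    locUnitsMap (RingHom.id K) q u = u := by
  apply Units.ext
  simp [locMap_id]

lemma archUnitsMap_id (u : (ArchAlg K)ˣ) : archUnitsMap (RingHom.id K) u = u := by
  apply Units.ext
  simp [archMap_id]

lemma locUnitsMap_comp (f : K →+* L) (g : L →+* M) (q : Nat.Primes) (u : (LocAlg K q)ˣ) :
    locUnitsMap (g.comp f) q u = locUnitsMap g q (locUnitsMap f q u) := by
  apply Units.ext
  simp [locMap_comp]

lemma archUnitsMap_comp (f : K →+* L) (g : L →+* M) (u : (ArchAlg K)ˣ) :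
    archUnitsMap (g.comp f) u = archUnitsMap g (archUnitsMap f u) := by
  apply Units.ext
  simp [archMap_comp]

/-- The map induced by `f` on the unrestricted products. -/
def ideleProdMap (f : K →+* L) : IdeleProd K →* IdeleProd L where
  toFun x := (fun q => locUnitsMap f q (x.1 q), archUnitsMap f x.2)
  map_one' := by
    ext : 1
    · funext q; exact map_one _
    · exact map_one _
  map_mul' x y := by
    ext : 1
    · funext q; exact map_mul _ _ _
    · exact map_mul _ _ _

@[simp] lemma ideleProdMap_fst (f : K →+* L) (x : IdeleProd K) (q : Nat.Primes) :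
    (ideleProdMap f x).1 q = locUnitsMap f q (x.1 q) := rfl

@[simp] lemma ideleProdMap_snd (f : K →+* L) (x : IdeleProd K) :
    (ideleProdMap f x).2 = archUnitsMap f x.2 := rfl

lemma ideleProdMap_mem (f : K →+* L) {x : IdeleProd K} (hx : x ∈ ideleSubgroup K) :
    ideleProdMap f x ∈ ideleSubgroup L := by
  refine Set.Finite.subset hx ?_
  intro q hq h
  exact hq (locUnitsMap_mem_locIntUnits f q h)

/-- The map induced by a ring homomorphism of number fields on the idele groups. -/
def ideleMap (f : K →+* L) : Idele K →* Idele L where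
  toFun a := ⟨ideleProdMap f (a : IdeleProd K), ideleProdMap_mem f a.2⟩
  map_one' := Subtype.ext (map_one (ideleProdMap f))
  map_mul' _ _ := Subtype.ext (map_mul (ideleProdMap f) _ _)

@[simp] lemma coe_ideleMap (f : K →+* L) (a : Idele K) :
    ((ideleMap f a : Idele L) : IdeleProd L) = ideleProdMap f (a : IdeleProd K) := rfl

lemma ideleMap_fst (f : K →+* L) (a : Idele K) (q : Nat.Primes) :
    (ideleMap f a : IdeleProd L).1 q = locUnitsMap f q ((a : IdeleProd K).1 q) := rfl

lemma ideleMap_snd (f : K →+* L) (a : Idele K) :
    (ideleMap f a : IdeleProd L).2 = archUnitsMap f (a : IdeleProd K).2 := rfl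

/-- `ideleMap` is compatible with the diagonal embeddings. -/
lemma ideleMap_principal (f : K →+* L) (x : Kˣ) :
    ideleMap f (principal K x) = principal L (Units.map (f : K →* L) x) := by
  apply Subtype.ext
  ext : 1
  · funext q
    exact locUnitsMap_locUnit f q x
  · exact archUnitsMap_archUnit f x

lemma ideleMap_injective (f : K →+* L) : Function.Injective (ideleMap f) := by
  intro a b hab
  apply Subtype.ext
  have h := congrArg (fun z : Idele L => (z : IdeleProd L)) hab
  simp only [coe_ideleMap] at h
  ext : 1
  · funext q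
    apply locUnitsMap_injective f q
    have := congrArg (fun z : IdeleProd L => z.1 q) h
    simpa using this
  · apply archUnitsMap_injective f
    have := congrArg (fun z : IdeleProd L => z.2) h
    simpa using this

lemma ideleMap_id (a : Idele K) : ideleMap (RingHom.id K) a = a := by
  apply Subtype.ext
  ext : 1
  · funext q
    exact locUnitsMap_id q _
  · exact archUnitsMap_id _

lemma ideleMap_comp (f : K →+* L) (g : L →+* M) (a : Idele K) :
    ideleMap (g.comp f) a = ideleMap g (ideleMap f a) := by
  apply Subtype.ext
  ext : 1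
  · funext q
    exact locUnitsMap_comp f g q _
  · exact archUnitsMap_comp f g _

/-- The map induced on idele class groups. -/
def ideleClassMap (f : K →+* L) : IdeleClass K →* IdeleClass L :=
  QuotientGroup.map (principal K).range (principal L).range (ideleMap f) (by
    rintro _ ⟨x, rfl⟩
    exact ⟨Units.map (f : K →* L) x, (ideleMap_principal f x).symm⟩)

@[simp] lemma ideleClassMap_mk (f : K →+* L) (a : Idele K) :
    ideleClassMap f (QuotientGroup.mk a : IdeleClass K) = QuotientGroup.mk (ideleMap f a) := rfl

section Equivariance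

variable {G : Type} [Group G] [MulSemiringAction G K] [MulSemiringAction G L]

/-- `ideleMap f` is equivariant when `f` is. -/
lemma ideleMap_smul (f : K →+* L) (hf : ∀ (g : G) (x : K), f (g • x) = g • f x) (g : G)
    (a : Idele K) : ideleMap f (g • a) = g • ideleMap f a := by
  have hcomp : f.comp (MulSemiringAction.toRingHom G K g) =
      (MulSemiringAction.toRingHom G L g).comp f := by
    ext x; simp [hf]
  apply Subtype.ext
  ext : 1
  · funext q
    apply Units.ext
    change locMap f q (locMap (MulSemiringAction.toRingHom G K g) q _) =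
      locMap (MulSemiringAction.toRingHom G L g) q (locMap f q _)
    rw [← locMap_comp, ← locMap_comp, hcomp]
  · apply Units.ext
    change archMap f (archMap (MulSemiringAction.toRingHom G K g) _) =
      archMap (MulSemiringAction.toRingHom G L g) (archMap f _)
    rw [← archMap_comp, ← archMap_comp, hcomp]

omit [MulSemiringAction G K] in
/-- If `G` acts on `L` fixing the image of `f`, then `G` fixes the image of `ideleMap f`. -/
lemma smul_ideleMap_of_fixed (f : K →+* L) (hf : ∀ (g : G) (x : K), g • f x = f x) (g : G)
    (a : Idele K) : g • ideleMap f a = ideleMap f a := by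
  have hcomp : (MulSemiringAction.toRingHom G L g).comp f = f := by
    ext x; simp [hf]
  apply Subtype.ext
  ext : 1
  · funext q
    apply Units.ext
    change locMap (MulSemiringAction.toRingHom G L g) q (locMap f q _) = locMap f q _
    rw [← locMap_comp, hcomp]
  · apply Units.ext
    change archMap (MulSemiringAction.toRingHom G L g) (archMap f _) = archMap f _
    rw [← archMap_comp, hcomp]

end Equivariance

lemma smul_ideleMap_algebraMap [Algebra K L] (g : L ≃ₐ[K] L) (a : Idele K) :
    g • ideleMap (algebraMap K L) a = ideleMap (algebraMap K L) a :=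
  smul_ideleMap_of_fixed (G := L ≃ₐ[K] L) (algebraMap K L) (fun g x => g.commutes x) g a

end Fermat.Agent.Lib.CFT.Global
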