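import Mathlib
import Fermat.Agent.Lib.CFT.Global.IdeleMap
import Fermat.Agent.Lib.CFT.Global.FirstIneq

/-!
# `(C_L)^G = C_K` for a Galois extension of number fields

`L/K` a Galois extension of number fields with group `G = Gal(L/K)`.  The natural map
`ideleClassMap (algebraMap K L) : IdeleClass K →* IdeleClass L` is injective
(`FirstIneq.ideleClassMap_injective`) and, granted the idele-level statement `(J_L)^G = J_K`
(`FirstIneq.IdeleInvariants K L`, provided by `Global/IdeleNorm`), its image is the group of
`G`-invariant idele classes (`FirstIneq.exists_ideleClassMap_eq_of_fixed`,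
`FirstIneq.range_ideleClassMap`).  The proof is Hilbert's theorem 90 for `Lˣ`.
-/

open scoped TensorProduct NumberField

namespace Fermat.Agent.Lib.CFT.Global

namespace FirstIneq

variable (K L : Type) [Field K] [NumberField K] [Field L] [NumberField L] [Algebra K L]

/-- The idele-level statement `(J_L)^G = J_K`. -/
def IdeleInvariants : Prop :=
  ∀ x : Idele L, (∀ g : L ≃ₐ[K] L, g • x = x) → ∃ y : Idele K, ideleMap (algebraMap K L) y = x

variable {K L}

/-- Elements of `Lˣ` fixed by the Galois group come from `Kˣ`. -/
lemma exists_units_map_eq_of_fixed [IsGalois K L] (b : Lˣ) (hb : ∀ g : L ≃ₐ[K] L, g • b = b) :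
    ∃ a : Kˣ, Units.map (algebraMap K L : K →* L) a = b := by
  have : FiniteDimensional K L := Module.Finite.of_restrictScalars_finite ℚ K L
  have hfix : ∀ g : L ≃ₐ[K] L, g (b : L) = (b : L) := fun g =>
    congrArg (fun u : Lˣ => (u : L)) (hb g)
  have hmem : (b : L) ∈ (algebraMap K L).range := by
    have := (IsGalois.mem_bot_iff_fixed (F := K) (E := L) (b : L)).2 hfix
    exact IntermediateField.mem_bot.1 this
  obtain ⟨a, ha⟩ := hmem
  have ha0 : a ≠ 0 := by
    rintro rfl
    rw [map_zero] at ha
    exact b.ne_zero ha.symm
  exact ⟨Units.mk0 a ha0, Units.ext ha⟩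

/-- `C_K → C_L` is injective. -/
theorem ideleClassMap_injective [IsGalois K L] :
    Function.Injective (ideleClassMap (algebraMap K L)) := by
  rw [injective_iff_map_eq_one]
  intro c hc
  induction c using QuotientGroup.induction_on with
  | H y =>
    rw [ideleClassMap_mk, QuotientGroup.eq_one_iff] at hc
    obtain ⟨b, hb⟩ := hc
    have hbfix : ∀ g : L ≃ₐ[K] L, g • b = b := by
      intro g
      apply principal_injective L
      have h1 := principal_smul L (L ≃ₐ[K] L) g b
      have h2 : principal L (g • b) = g • principal L b := h1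
      rw [h2, hb]
      exact smul_ideleMap_algebraMap g y
    obtain ⟨a, ha⟩ := exists_units_map_eq_of_fixed b hbfix
    rw [QuotientGroup.eq_one_iff]
    refine ⟨a, ?_⟩
    apply ideleMap_injective (algebraMap K L)
    rw [ideleMap_principal, ha, hb]

/-- Every `G`-invariant idele class of `L` comes from an idele class of `K`. -/
theorem exists_ideleClassMap_eq_of_fixed [IsGalois K L] (hJ : IdeleInvariants K L)
    (c : IdeleClass L) (hc : ∀ g : L ≃ₐ[K] L, g • c = c) :
    ∃ d : IdeleClass K, ideleClassMap (algebraMap K L) d = c := by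
  have : FiniteDimensional K L := Module.Finite.of_restrictScalars_finite ℚ K L
  induction c using QuotientGroup.induction_on with
  | H x =>
    -- the cocycle `g ↦ g x / x`
    have hex : ∀ g : L ≃ₐ[K] L, ∃ a : Lˣ, principal L a = g • x / x := by
      intro g
      have h := hc g
      rw [smul_mk_ideleClass, QuotientGroup.eq] at h
      obtain ⟨a, ha⟩ := h
      refine ⟨a⁻¹, ?_⟩
      rw [map_inv, ha, mul_inv_rev, inv_inv, div_eq_mul_inv, mul_comm]
    choose f hf using hex
    have hcoc : groupCohomology.IsMulCocycle₁ f := by
      intro g h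
      apply principal_injective L
      rw [map_mul, hf, hf]
      have h1 : principal L (g • f h) = g • principal L (f h) :=
        principal_smul L (L ≃ₐ[K] L) g (f h)
      rw [h1, hf, mul_smul, smul_div', div_mul_div_cancel]
    obtain ⟨b, hb⟩ :=
      groupCohomology.isMulCoboundary₁_of_isMulCocycle₁_of_aut_to_units f hcoc
    -- `x / b` is invariant
    have hinv : ∀ g : L ≃ₐ[K] L, g • (x / principal L b) = x / principal L b := by
      intro g
      have h1 : principal L (g • b) = g • principal L b :=
        principal_smul L (L ≃ₐ[K] L) g b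
      have h2 : principal L (g • b / b) = g • x / x := by rw [hb g, hf]
      rw [map_div, h1] at h2
      rw [smul_div', div_eq_div_iff_mul_eq_mul]
      rw [div_eq_div_iff_mul_eq_mul] at h2
      rw [mul_comm x, h2]
    obtain ⟨y, hy⟩ := hJ _ hinv
    refine ⟨QuotientGroup.mk y, ?_⟩
    rw [ideleClassMap_mk, hy]
    change (QuotientGroup.mk (x / principal L b) : IdeleClass L) = QuotientGroup.mk x
    rw [QuotientGroup.eq]
    refine ⟨b, ?_⟩
    rw [inv_div, div_mul_cancel]

/-- The image of `C_K` in `C_L` is the group of `G`-invariants. -/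
theorem range_ideleClassMap [IsGalois K L] (hJ : IdeleInvariants K L) (c : IdeleClass L) :
    c ∈ (ideleClassMap (algebraMap K L)).range ↔ ∀ g : L ≃ₐ[K] L, g • c = c := by
  constructor
  · rintro ⟨d, rfl⟩ g
    induction d using QuotientGroup.induction_on with
    | H y =>
      rw [ideleClassMap_mk, smul_mk_ideleClass, smul_ideleMap_algebraMap]
  · intro h
    exact exists_ideleClassMap_eq_of_fixed hJ c h

end FirstIneq

end Fermat.Agent.Lib.CFT.Global
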