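import Fermat.Agent.Lib.CFT.Global.IdeleNorm

/-!
# Galois invariants of the ideles, integrality at all primes (helper96, P-CFT WP 207)

* a `ℤ`-linear retraction `𝓞 L → 𝓞 K` of the inclusion, extended `ℚ`-linearly to `L → K`;
* `locMap f q x ∈ locInt L q ↔ x ∈ locInt K q` at EVERY prime `q`;
* for a Galois extension `L / K`: the invariants of `Idele L` are the image of `Idele K`, and the
  local norms preserve integrality at every prime.
-/

open scoped TensorProduct NumberField

noncomputable section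

namespace Fermat.Agent.Lib.CFT.Global

open TensorExt

attribute [local instance] TensorExt.tAlgebra

/-- Over a principal ideal domain, an injective linear map into a finite module with saturated
image has a linear retraction. -/
theorem exists_leftInverse_of_saturated {R N M : Type*} [CommRing R] [IsDomain R]
    [IsPrincipalIdealRing R] [AddCommGroup N] [Module R N] [AddCommGroup M] [Module R M]
    [Module.Finite R M] (φ : N →ₗ[R] M) (hφ : Function.Injective φ)
    (hsat : ∀ (r : R) (y : M), r ≠ 0 → r • y ∈ LinearMap.range φ → y ∈ LinearMap.range φ) :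
    ∃ ρ : M →ₗ[R] N, ∀ x, ρ (φ x) = x := by
  have htf : Module.IsTorsionFree R (M ⧸ LinearMap.range φ) := by
    refine Module.IsTorsionFree.of_smul_eq_zero (fun r m h => ?_)
    by_cases hr : r = 0
    · exact Or.inl hr
    · right
      induction m using Submodule.Quotient.induction_on with
      | H y =>
        rw [← Submodule.Quotient.mk_smul, Submodule.Quotient.mk_eq_zero] at h
        rw [Submodule.Quotient.mk_eq_zero]
        exact hsat r y hr h
  have hfree : Module.Free R (M ⧸ LinearMap.range φ) := Module.free_of_finite_type_torsion_free'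
  obtain ⟨s, hs⟩ := Module.projective_lifting_property (LinearMap.range φ).mkQ
    (LinearMap.id : (M ⧸ LinearMap.range φ) →ₗ[R] (M ⧸ LinearMap.range φ))
    (Submodule.mkQ_surjective _)
  have hs' : ∀ z, (LinearMap.range φ).mkQ (s z) = z := fun z => by
    have := congrArg (fun h : (M ⧸ LinearMap.range φ) →ₗ[R] (M ⧸ LinearMap.range φ) => h z) hs
    simpa using this
  let p : M →ₗ[R] M := LinearMap.id - s.comp (LinearMap.range φ).mkQ
  have hp : ∀ y, p y ∈ LinearMap.range φ := by
    intro y
    rw [← Submodule.Quotient.mk_eq_zero, ← Submodule.mkQ_apply]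
    simp only [p, LinearMap.sub_apply, LinearMap.id_apply, LinearMap.comp_apply, map_sub, hs']
    simp
  let e := LinearEquiv.ofInjective φ hφ
  refine ⟨e.symm.toLinearMap.comp (p.codRestrict _ hp), fun x => ?_⟩
  simp only [LinearMap.comp_apply, LinearEquiv.coe_toLinearMap]
  rw [LinearEquiv.symm_apply_eq]
  apply Subtype.ext
  simp only [LinearMap.codRestrict_apply, p, LinearMap.sub_apply, LinearMap.id_apply,
    LinearMap.comp_apply, e, LinearEquiv.ofInjective_apply]
  have : (LinearMap.range φ).mkQ (φ x) = 0 := by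
    rw [Submodule.mkQ_apply, Submodule.Quotient.mk_eq_zero]
    exact ⟨x, rfl⟩
  rw [this, map_zero, sub_zero]

section Retraction

variable {K L : Type} [Field K] [NumberField K] [Field L] [NumberField L]

/-- A `ℚ`-linear retraction of a homomorphism of number fields which maps algebraic integers to
algebraic integers. -/
theorem exists_integral_retraction (f : K →+* L) :
    ∃ r : L →ₗ[ℚ] K, (∀ x, r (f x) = x) ∧ ∀ y : L, IsIntegral ℤ y → IsIntegral ℤ (r y) := by
  classical
  let φ : 𝓞 K →ₗ[ℤ] 𝓞 L :=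
    (NumberField.RingOfIntegers.mapRingHom f).toAddMonoidHom.toIntLinearMap
  have hφ_apply : ∀ x : 𝓞 K, ((φ x : 𝓞 L) : L) = f (x : K) := fun x => rfl
  have hφ : Function.Injective φ := by
    intro x y hxy
    apply NumberField.RingOfIntegers.ext
    apply f.injective
    rw [← hφ_apply, ← hφ_apply, hxy]
  have hsat : ∀ (n : ℤ) (y : 𝓞 L), n ≠ 0 → n • y ∈ LinearMap.range φ →
      y ∈ LinearMap.range φ := by
    rintro n y hn ⟨x, hx⟩
    have hx' : f (x : K) = (n : L) * (y : L) := by
      rw [← hφ_apply, hx]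
      simp
    have hn' : (n : K) ≠ 0 := by exact_mod_cast hn
    have hn'' : (n : L) ≠ 0 := by exact_mod_cast hn
    have hfz : f ((x : K) / (n : K)) = (y : L) := by
      rw [map_div₀, hx', map_intCast, mul_div_cancel_left₀ _ hn'']
    have hz : IsIntegral ℤ ((x : K) / (n : K)) := by
      have hy : IsIntegral ℤ (y : L) := y.2
      rw [← hfz] at hy
      exact (isIntegral_algHom_iff f.toIntAlgHom f.injective).1 hy
    refine ⟨⟨_, hz⟩, ?_⟩
    apply NumberField.RingOfIntegers.ext
    rw [hφ_apply]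
    exact hfz
  obtain ⟨ρ, hρ⟩ := exists_leftInverse_of_saturated φ hφ hsat
  let ω := NumberField.RingOfIntegers.basis L
  let bL := NumberField.integralBasis L
  let r : L →ₗ[ℚ] K := bL.constr ℚ (fun i => ((ρ (ω i) : 𝓞 K) : K))
  -- `r` extends `ρ`
  have hA : ∀ y : 𝓞 L, r (y : L) = ((ρ y : 𝓞 K) : K) := by
    intro y
    let A₁ : 𝓞 L →ₗ[ℤ] K :=
      (r.restrictScalars ℤ).comp ((algebraMap (𝓞 L) L).toAddMonoidHom.toIntLinearMap)
    let A₂ : 𝓞 L →ₗ[ℤ] K :=
      ((algebraMap (𝓞 K) K).toAddMonoidHom.toIntLinearMap).comp ρ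
    have hA12 : A₁ = A₂ := by
      apply ω.ext
      intro i
      change r ((ω i : 𝓞 L) : L) = ((ρ (ω i) : 𝓞 K) : K)
      have : ((ω i : 𝓞 L) : L) = bL i := (NumberField.integralBasis_apply L i).symm
      rw [this, Module.Basis.constr_basis]
    exact congrArg (fun h : 𝓞 L →ₗ[ℤ] K => h y) hA12
  refine ⟨r, ?_, ?_⟩
  · intro x
    have : Algebra.IsAlgebraic ℤ ℚ := IsLocalization.isAlgebraic ℚ (nonZeroDivisors ℤ)
    have : Algebra.IsAlgebraic ℤ K := Algebra.IsAlgebraic.trans ℤ ℚ K
    obtain ⟨n, hn, hint⟩ := (Algebra.IsAlgebraic.isAlgebraic (R := ℤ) x).exists_integral_multiple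
    have h1 : n • r (f x) = n • x := by
      rw [← map_zsmul r, ← map_zsmul f]
      have h2 : f (n • x) = ((φ ⟨n • x, hint⟩ : 𝓞 L) : L) := rfl
      rw [h2, hA, hρ]
      rfl
    exact smul_right_injective K hn h1
  · intro y hy
    have := hA ⟨y, hy⟩
    change r y = _ at this
    rw [this]
    exact (ρ ⟨y, hy⟩).2

/-- The base change of a `ℚ`-linear map `L → K` to the local algebras. -/
def locLin (r : L →ₗ[ℚ] K) (q : Nat.Primes) : LocAlg L q →ₗ[ℚ_[pv q]] LocAlg K q :=
  TensorProduct.AlgebraTensorModule.map (LinearMap.id : ℚ_[pv q] →ₗ[ℚ_[pv q]] ℚ_[pv q]) r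

@[simp] lemma locLin_tmul (r : L →ₗ[ℚ] K) (q : Nat.Primes) (a : ℚ_[pv q]) (x : L) :
    locLin r q (a ⊗ₜ[ℚ] x : LocAlg L q) = a ⊗ₜ[ℚ] r x := by
  simp [locLin]

/-- A linear map preserving algebraic integers preserves the integral subalgebras. -/
lemma locLin_mem_locInt (r : L →ₗ[ℚ] K) (hr : ∀ y : L, IsIntegral ℤ y → IsIntegral ℤ (r y))
    (q : Nat.Primes) {y : LocAlg L q} (hy : y ∈ locInt L q) : locLin r q y ∈ locInt K q := by
  let φ : LocAlg L q →ₗ[ℤ_[pv q]] LocAlg K q := (locLin r q).restrictScalars ℤ_[pv q]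
  have hle : Subalgebra.toSubmodule (locInt L q) ≤
      (Subalgebra.toSubmodule (locInt K q)).comap φ := by
    rw [locInt_eq_span]
    refine Submodule.span_le.2 ?_
    rintro _ ⟨x, rfl⟩
    change locLin r q _ ∈ locInt K q
    rw [locLin_tmul]
    exact one_tmul_mem_locInt K q ⟨r (x : L), hr _ x.2⟩
  exact hle hy

/-- `locMap f q` reflects integrality, at every prime. -/
theorem locMap_mem_locInt_iff (f : K →+* L) (q : Nat.Primes) (x : LocAlg K q) :
    locMap f q x ∈ locInt L q ↔ x ∈ locInt K q := by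
  obtain ⟨r, hr1, hr2⟩ := exists_integral_retraction f
  have hx : ∀ x : LocAlg K q, locLin r q (locMap f q x) = x := by
    intro x
    induction x using TensorProduct.induction_on with
    | zero => simp
    | tmul a k => simp [hr1]
    | add x y hx hy => simp [hx, hy]
  refine ⟨fun h => ?_, locMap_mem_locInt f q⟩
  rw [← hx x]
  exact locLin_mem_locInt r hr2 q h

/-- `locUnitsMap f q` reflects integral units, at every prime. -/
theorem locUnitsMap_mem_locIntUnits_iff (f : K →+* L) (q : Nat.Primes) (u : (LocAlg K q)ˣ) :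
    locUnitsMap f q u ∈ locIntUnits L q ↔ u ∈ locIntUnits K q := by
  refine ⟨fun h => ⟨?_, ?_⟩, locUnitsMap_mem_locIntUnits f q⟩
  · exact (locMap_mem_locInt_iff f q _).1 h.1
  · have h2 := h.2
    rw [← map_inv] at h2
    exact (locMap_mem_locInt_iff f q _).1 h2

end Retraction

section Units

variable (F : Type) [CommRing F] [Algebra ℚ F]
variable {K L : Type} [Field K] [CharZero K] [Field L] [CharZero L] [Algebra K L]
  [FiniteDimensional K L]

/-- Units of `F ⊗ L` fixed by the Galois group come from units of `F ⊗ K`. -/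
theorem exists_units_tmap_eq_of_fixed [IsGalois K L] (u : (F ⊗[ℚ] L)ˣ)
    (hu : ∀ g : L ≃ₐ[K] L, tmap F (g : L →+* L) (u : F ⊗[ℚ] L) = u) :
    ∃ c : (F ⊗[ℚ] K)ˣ, tmap F (algebraMap K L) (c : F ⊗[ℚ] K) = u := by
  obtain ⟨c, hc⟩ := exists_tmap_eq_of_fixed F (u : F ⊗[ℚ] L) hu
  have hu' : ∀ g : L ≃ₐ[K] L,
      tmap F (g : L →+* L) ((u⁻¹ : (F ⊗[ℚ] L)ˣ) : F ⊗[ℚ] L) = (u⁻¹ : (F ⊗[ℚ] L)ˣ) := by
    intro g
    have h1 : tmap F (g : L →+* L) ((u⁻¹ : (F ⊗[ℚ] L)ˣ) : F ⊗[ℚ] L) * (u : F ⊗[ℚ] L) = 1 := by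
      conv_lhs => rw [← hu g]
      rw [← map_mul]
      simp
    exact (Units.eq_inv_of_mul_eq_one_right h1)
  obtain ⟨c', hc'⟩ := exists_tmap_eq_of_fixed F ((u⁻¹ : (F ⊗[ℚ] L)ˣ) : F ⊗[ℚ] L) hu'
  have h1 : c * c' = 1 := by
    apply tmap_injective F (algebraMap K L)
    rw [map_mul, hc, hc', map_one]
    simp
  exact ⟨⟨c, c', h1, by rw [mul_comm]; exact h1⟩, hc⟩

end Units

section Galois

variable (K L : Type) [Field K] [NumberField K] [Field L] [NumberField L] [Algebra K L]

/-- For a Galois extension `L / K` of number fields, the ideles of `L` fixed by the Galois group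
are exactly the ideles of `K`. -/
theorem exists_ideleMap_eq_of_fixed [IsGalois K L] (b : Idele L)
    (hb : ∀ g : L ≃ₐ[K] L, g • b = b) : ∃ a : Idele K, ideleMap (algebraMap K L) a = b := by
  have hloc : ∀ q : Nat.Primes, ∃ c : (LocAlg K q)ˣ,
      locUnitsMap (algebraMap K L) q c = (b : IdeleProd L).1 q := by
    intro q
    obtain ⟨c, hc⟩ := exists_units_tmap_eq_of_fixed (K := K) ℚ_[pv q] ((b : IdeleProd L).1 q)
      (fun g => by
        have := congrArg (fun z : Idele L => (((z : IdeleProd L).1 q : (LocAlg L q)ˣ) : LocAlg L q))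
          (hb g)
        exact this)
    exact ⟨c, Units.ext hc⟩
  have harch : ∃ c : (ArchAlg K)ˣ, archUnitsMap (algebraMap K L) c = (b : IdeleProd L).2 := by
    obtain ⟨c, hc⟩ := exists_units_tmap_eq_of_fixed (K := K) ℝ ((b : IdeleProd L).2)
      (fun g => by
        have := congrArg (fun z : Idele L => (((z : IdeleProd L).2 : (ArchAlg L)ˣ) : ArchAlg L))
          (hb g)
        exact this)
    exact ⟨c, Units.ext hc⟩
  choose c hc using hloc
  obtain ⟨cinf, hcinf⟩ := harch
  have hmem : ((c, cinf) : IdeleProd K) ∈ ideleSubgroup K := by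
    refine Set.Finite.subset b.2 ?_
    intro q hq h
    apply hq
    change c q ∈ locIntUnits K q
    rw [← locUnitsMap_mem_locIntUnits_iff (algebraMap K L) q, hc q]
    exact h
  refine ⟨⟨(c, cinf), hmem⟩, ?_⟩
  apply Subtype.ext
  ext : 1
  · funext q
    exact hc q
  · exact hcinf

/-- For a Galois extension the local norm preserves integrality at every prime. -/
theorem norm_mem_locInt_of_isGalois [IsGalois K L] (q : Nat.Primes) {u : LocAlg L q}
    (hu : u ∈ locInt L q) : Algebra.norm (LocAlg K q) u ∈ locInt K q := by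
  rw [← locMap_mem_locInt_iff (algebraMap K L) q, locMap_eq_tmap, tmap_norm_eq_prod]
  refine Subalgebra.prod_mem _ (fun g _ => ?_)
  exact locMap_mem_locInt (g : L →+* L) q hu

/-- For a Galois extension the local norm maps integral units to integral units at every prime. -/
theorem locRelNorm_mem_locIntUnits_of_isGalois [IsGalois K L] (q : Nat.Primes)
    {u : (LocAlg L q)ˣ} (hu : u ∈ locIntUnits L q) : locRelNorm K L q u ∈ locIntUnits K q := by
  refine ⟨norm_mem_locInt_of_isGalois K L q hu.1, ?_⟩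
  rw [← map_inv]
  exact norm_mem_locInt_of_isGalois K L q hu.2

end Galois

end Fermat.Agent.Lib.CFT.Global
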