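/-
P-CFT, Global/FirstIneq (helper39): the first inequality in the forms used by the consumers.

Input still to be supplied: `UnramHerbrandTrivial` = (D2) of the CohIdeles package (the integral
units `locIntUnits L q` at the primes `q` with trivial inertia groups have trivial Tate
cohomology for a finite cyclic group of automorphisms).  From it:
* `firstIneqHerbrand`: `SecondIneq.Consequences.FirstIneqHerbrand` (`h(C_L) = [L:K]` for cyclic
  layers);
* `finrank_dvd_index`: `[L:K] ∣ [J_K : Kˣ N J_L]` for cyclic `L/K`;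
* `finrank_eq_one_of_sup_eq_top`, `first_ineq_prime`: `Kˣ N J_L = J_K` implies `L = K`.
-/
import Mathlib
import Fermat.Agent.Lib.CFT.Global.FirstIneqMain
import Fermat.Agent.Lib.CFT.Global.SecondIneq.ConsequencesCyclic

set_option autoImplicit false
set_option linter.style.haveILetI false

open scoped NumberField

noncomputable section

namespace Fermat.Agent.Lib.CFT.Global.FirstIneqFinal

open Fermat.Agent.Lib.CFT Fermat.Agent.Lib.CFT.Herbrand Fermat.Agent.Lib.CFT.Global
  Fermat.Agent.Lib.CFT.Coh.RestrictedProd IsDedekindDomain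
  Fermat.Agent.Lib.CFT.Global.SecondIneq.Consequences

/-- **(D2)**: for a finite cyclic group `G = ⟨s⟩` acting faithfully on a number field `L` and a
rational prime `q` all of whose primes in `L` have trivial inertia group in `G`, the integral
units of `ℚ_q ⊗ L` have trivial Tate cohomology (in the elementary form `HerbrandTrivialOn`). -/
def UnramHerbrandTrivial : Prop :=
  ∀ (L : Type) [Field L] [NumberField L] (G : Type) [Group G] [Fintype G]
    [MulSemiringAction G L] [FaithfulSMul G L] (s : G), (∀ x, x ∈ Subgroup.zpowers s) →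
    ∀ q : Nat.Primes,
      (∀ v : HeightOneSpectrum (𝓞 L), ((q : ℕ) : 𝓞 L) ∈ v.asIdeal →
        Ideal.inertia G v.asIdeal = ⊥) →
      HerbrandTrivialOn G s (locIntUnits L q)

/-- The first inequality in Herbrand quotient form: `h(C_L) = [L : K]` for cyclic layers. -/
theorem firstIneqHerbrand (hD2 : UnramHerbrandTrivial) : FirstIneqHerbrand := by
  intro K L _ _ _ _ _ _ s hs
  haveI : FaithfulSMul (L ≃ₐ[K] L) L := IsGaloisGroup.faithful K
  obtain ⟨h1, h2⟩ := FirstIneqMain.herbrandCycMul_ideleClass L (L ≃ₐ[K] L) K hs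
    (fun q hq => hD2 L (L ≃ₐ[K] L) s hs q hq)
  refine ⟨h1, ?_⟩
  rw [h2, ← Nat.card_eq_fintype_card, IsGalois.card_aut_eq_finrank]

section Index

variable (K L : Type) [Field K] [NumberField K] [Field L] [NumberField L] [Algebra K L]
  [IsGalois K L] [IsCyclic (L ≃ₐ[K] L)]

/-- **First inequality, index form**: `[L : K]` divides `[J_K : Kˣ N_{L/K} J_L]` for a cyclic
extension `L / K` of number fields. -/
theorem finrank_dvd_index (hD2 : UnramHerbrandTrivial) :
    Module.finrank K L ∣ ((principal K).range ⊔ (ideleNorm K L).range).index := by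
  obtain ⟨s, hs⟩ := IsCyclic.exists_generator (α := L ≃ₐ[K] L)
  obtain ⟨h1, h2⟩ := firstIneqHerbrand hD2 K L s hs
  rw [← hIndexMul_eq_index K L hs]
  exact FirstIneq.dvd_hIndexMul_of_herbrandCycMul_eq h1 h2

/-- If `Kˣ N_{L/K} J_L = J_K` for a cyclic extension `L / K`, then `L = K`. -/
theorem finrank_eq_one_of_sup_eq_top (hD2 : UnramHerbrandTrivial)
    (h : (principal K).range ⊔ (ideleNorm K L).range = ⊤) : Module.finrank K L = 1 := by
  have h1 := finrank_dvd_index K L hD2
  rw [h, Subgroup.index_top] at h1
  exact Nat.dvd_one.mp h1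

omit [IsCyclic (L ≃ₐ[K] L)] in
/-- The form `(I-4)` used by the second inequality: for `L / K` Galois of prime degree,
`Kˣ N_{L/K} J_L ≠ J_K`. -/
theorem first_ineq_prime (hD2 : UnramHerbrandTrivial) (hp : (Module.finrank K L).Prime)
    (h : (principal K).range ⊔ (ideleNorm K L).range = ⊤) : False := by
  haveI : IsCyclic (L ≃ₐ[K] L) := by
    have hc : Nat.card (L ≃ₐ[K] L) = Module.finrank K L := IsGalois.card_aut_eq_finrank K L
    haveI : Fact (Module.finrank K L).Prime := ⟨hp⟩
    exact isCyclic_of_prime_card hc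
  have := finrank_eq_one_of_sup_eq_top K L hD2 h
  rw [this] at hp
  exact Nat.not_prime_one hp

end Index

end Fermat.Agent.Lib.CFT.Global.FirstIneqFinal
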