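import Fermat.Agent.Lib.CFT.Global.IdeleNorm

/-!
# Invariance of the idele norm under isomorphisms of the top field (helper96, P-CFT)

For number fields `L`, `L'` over `K` and a `K`-isomorphism `e : L ≃ₐ[K] L'`, the idele norms
satisfy `N_{L'/K} ∘ ideleMap e = N_{L/K}`; in particular the norm subgroups of `Idele K` coincide.
-/

open scoped TensorProduct NumberField

noncomputable section

namespace Fermat.Agent.Lib.CFT.Global

open TensorExt

attribute [local instance] TensorExt.tAlgebra

namespace TensorExt

variable (F : Type) [CommRing F] [Algebra ℚ F]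
variable {K L L' : Type} [Field K] [CharZero K] [Field L] [CharZero L] [Field L'] [CharZero L']
  [Algebra K L] [Algebra K L']

/-- A `K`-isomorphism `L ≃ L'` induces an `F ⊗ K`-algebra isomorphism `F ⊗ L ≃ F ⊗ L'`. -/
def tAlgEquiv (e : L ≃ₐ[K] L') : (F ⊗[ℚ] L) ≃ₐ[F ⊗[ℚ] K] (F ⊗[ℚ] L') :=
  AlgEquiv.ofAlgHom
    { (tmap F (e : L →+* L')).toRingHom with
      commutes' := fun c => by
        change tmap F (e : L →+* L') (tmap F (algebraMap K L) c) = tmap F (algebraMap K L') c
        rw [← tmap_comp]
        congr 1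
        ext x
        simp }
    { (tmap F ((e.symm : L' ≃ₐ[K] L) : L' →+* L)).toRingHom with
      commutes' := fun c => by
        change tmap F ((e.symm : L' ≃ₐ[K] L) : L' →+* L) (tmap F (algebraMap K L') c) =
          tmap F (algebraMap K L) c
        rw [← tmap_comp]
        congr 1
        ext x
        simp }
    (by
      ext y
      change tmap F (e : L →+* L') (tmap F ((e.symm : L' ≃ₐ[K] L) : L' →+* L) y) = y
      rw [← tmap_comp]
      have : ((e : L →+* L')).comp ((e.symm : L' ≃ₐ[K] L) : L' →+* L) = RingHom.id L' := by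
        ext x; simp
      rw [this, tmap_id])
    (by
      ext y
      change tmap F ((e.symm : L' ≃ₐ[K] L) : L' →+* L) (tmap F (e : L →+* L') y) = y
      rw [← tmap_comp]
      have : (((e.symm : L' ≃ₐ[K] L) : L' →+* L)).comp (e : L →+* L') = RingHom.id L := by
        ext x; simp
      rw [this, tmap_id])

@[simp] lemma tAlgEquiv_apply (e : L ≃ₐ[K] L') (y : F ⊗[ℚ] L) :
    tAlgEquiv F e y = tmap F (e : L →+* L') y := rfl

/-- Isomorphic extensions have the same norm. -/
lemma norm_tmap_of_algEquiv (e : L ≃ₐ[K] L') (y : F ⊗[ℚ] L) :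
    Algebra.norm (F ⊗[ℚ] K) (tmap F (e : L →+* L') y) = Algebra.norm (F ⊗[ℚ] K) y := by
  rw [← tAlgEquiv_apply, Algebra.norm_eq_of_algEquiv]

end TensorExt

variable (K : Type) {L L' : Type} [Field K] [NumberField K] [Field L] [NumberField L]
  [Field L'] [NumberField L'] [Algebra K L] [Algebra K L']

/-- The idele norm is compatible with `K`-isomorphisms of the top field. -/
theorem ideleNorm_ideleMap_algEquiv (e : L ≃ₐ[K] L') (b : Idele L) :
    ideleNorm K L' (ideleMap (e : L →+* L') b) = ideleNorm K L b := by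
  apply Subtype.ext
  ext : 1
  · funext q
    apply Units.ext
    change Algebra.norm (LocAlg K q) (tmap ℚ_[pv q] (e : L →+* L') _) = Algebra.norm (LocAlg K q) _
    rw [TensorExt.norm_tmap_of_algEquiv]
  · apply Units.ext
    change Algebra.norm (ArchAlg K) (tmap ℝ (e : L →+* L') _) = Algebra.norm (ArchAlg K) _
    rw [TensorExt.norm_tmap_of_algEquiv]

/-- Isomorphic extensions have the same idele norm group. -/
theorem range_ideleNorm_eq_of_algEquiv (e : L ≃ₐ[K] L') :
    (ideleNorm K L).range = (ideleNorm K L').range := by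
  apply le_antisymm
  · rintro _ ⟨b, rfl⟩
    exact ⟨ideleMap (e : L →+* L') b, ideleNorm_ideleMap_algEquiv K e b⟩
  · rintro _ ⟨b, rfl⟩
    exact ⟨ideleMap ((e.symm : L' ≃ₐ[K] L) : L' →+* L) b,
      ideleNorm_ideleMap_algEquiv K e.symm b⟩

/-- The class norm is compatible with `K`-isomorphisms of the top field. -/
theorem ideleClassNorm_ideleClassMap_algEquiv (e : L ≃ₐ[K] L') (c : IdeleClass L) :
    ideleClassNorm K L' (ideleClassMap (e : L →+* L') c) = ideleClassNorm K L c := by
  induction c using QuotientGroup.induction_on with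
  | H b =>
    rw [ideleClassMap_mk, ideleClassNorm_mk, ideleClassNorm_mk, ideleNorm_ideleMap_algEquiv]

/-- Isomorphic extensions have the same class norm group. -/
theorem range_ideleClassNorm_eq_of_algEquiv (e : L ≃ₐ[K] L') :
    (ideleClassNorm K L).range = (ideleClassNorm K L').range := by
  apply le_antisymm
  · rintro _ ⟨c, rfl⟩
    exact ⟨ideleClassMap (e : L →+* L') c, ideleClassNorm_ideleClassMap_algEquiv K e c⟩
  · rintro _ ⟨c, rfl⟩
    exact ⟨ideleClassMap ((e.symm : L' ≃ₐ[K] L) : L' →+* L) c,
      ideleClassNorm_ideleClassMap_algEquiv K e.symm c⟩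

end Fermat.Agent.Lib.CFT.Global
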