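/-
helper40.  P-CFT, Global layer: openness of the group of `l`-th powers in the semi-local algebras
`ℚ_q ⊗ L`.

* `exists_eq_sub_mul_eval`: contraction principle in a `π`-adically complete ring;
* `exists_pow_eq_of_isUnit`, `exists_pow_eq_natCast`, `exists_pow_eq_of_eq_mul`: extraction of
  roots of elements close to `1` in such a ring;
* `ohatToLocAlg`: the comparison map `ℤ_q ⊗ 𝓞 L → ℚ_q ⊗ L`, with image `locInt L q`;
* `exists_pow_eq_of_congr`: for `N` large, `1 + q ^ N locInt` consists of `l`-th powers of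
  integral units;
* `exists_principal_approx_pow`: every idele is, modulo a principal idele, an `l`-th power of an
  integral unit at finitely many prescribed primes and totally positive at infinity.
-/
import Mathlib
import Fermat.Agent.Lib.CFT.Global.Ideles
import Fermat.Agent.Lib.CFT.Global.WeakApprox
import Fermat.Agent.Lib.CFT.Global.FirstIneqUnits
import Fermat.Agent.Lib.CFT.Global.IdeleCovers
import Fermat.Agent.Lib.CFT.Global.Places.OhatCompletion

open scoped TensorProduct NumberField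

noncomputable section

namespace Fermat.Agent.Lib.CFT.Global.LocalPowers

open Polynomial Fermat.Agent.Lib.CFT.Global

section Abstract

variable {A : Type*} [CommRing A]

/-- Contraction principle in a `π`-adically complete ring: the equation `Y = c - π * h(Y)` has a
solution for every polynomial `h`. -/
theorem exists_eq_sub_mul_eval (π : A) [IsAdicComplete (Ideal.span {π}) A] (h : A[X]) (c : A) :
    ∃ Y : A, Y = c - π * h.eval Y := by
  -- the iteration
  let f : ℕ → A := fun n => Nat.rec c (fun _ y => c - π * h.eval y) n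
  have hf0 : f 0 = c := rfl
  have hfs : ∀ n, f (n + 1) = c - π * h.eval (f n) := fun n => rfl
  have hstep : ∀ n, π ^ (n + 1) ∣ f (n + 1) - f n := by
    intro n
    induction n with
    | zero =>
      rw [hfs, hf0, zero_add, pow_one]
      exact ⟨-h.eval c, by ring⟩
    | succ n ih =>
      rw [hfs (n + 1), hfs n]
      have h1 : f (n + 1) - f n ∣ h.eval (f (n + 1)) - h.eval (f n) := sub_dvd_eval_sub _ _ _
      obtain ⟨t, ht⟩ := ih.trans h1
      refine ⟨-t, ?_⟩
      have : c - π * eval (f (n + 1)) h - (c - π * eval (f n) h) =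
          -(π * (eval (f (n + 1)) h - eval (f n) h)) := by ring
      rw [this, ht, pow_succ]
      ring
  have hmono : ∀ m n, m ≤ n → π ^ m ∣ f n - f m := by
    intro m n hmn
    induction n, hmn using Nat.le_induction with
    | base => simp
    | succ n hmn ih =>
      have h1 : π ^ m ∣ f (n + 1) - f n :=
        (pow_dvd_pow π (Nat.le_succ_of_le hmn)).trans (hstep n)
      have : f (n + 1) - f m = (f (n + 1) - f n) + (f n - f m) := by ring
      rw [this]
      exact dvd_add h1 ih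
  have hmem : ∀ (k : ℕ) (x : A), x ∈ (Ideal.span {π} ^ k • ⊤ : Submodule A A) ↔ π ^ k ∣ x := by
    intro k x
    rw [smul_eq_mul, Ideal.mul_top, Ideal.span_singleton_pow, Ideal.mem_span_singleton]
  obtain ⟨Y, hY⟩ := IsPrecomplete.prec (I := Ideal.span {π}) inferInstance (f := f) (by
    intro m n hmn
    rw [SModEq.sub_mem, hmem]
    have := hmono m n hmn
    rw [← neg_sub] 
    exact (dvd_neg).2 this)
  have hY' : ∀ n, π ^ n ∣ f n - Y := fun n => by
    have := hY n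
    rwa [SModEq.sub_mem, hmem] at this
  refine ⟨Y, ?_⟩
  rw [← sub_eq_zero]
  refine IsHausdorff.haus (I := Ideal.span {π}) inferInstance _ fun n => ?_
  rw [SModEq.zero, hmem]
  -- `Y - (c - π h(Y)) = (Y - f (n+1)) + (f (n+1) - (c - π h(Y)))`
  have h1 : π ^ n ∣ Y - f (n + 1) := by
    have := hY' (n + 1)
    rw [← neg_sub]
    exact (dvd_neg).2 ((pow_dvd_pow π (Nat.le_succ n)).trans this)
  have h2 : π ^ n ∣ f (n + 1) - (c - π * h.eval Y) := by
    rw [hfs]
    have h3 : f n - Y ∣ h.eval (f n) - h.eval Y := sub_dvd_eval_sub _ _ _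
    obtain ⟨t, ht⟩ := (hY' n).trans h3
    refine ⟨-(π * t), ?_⟩
    have : c - π * eval (f n) h - (c - π * eval Y h) = -(π * (eval (f n) h - eval Y h)) := by ring
    rw [this, ht]
    ring
  have : Y - (c - π * h.eval Y) = (Y - f (n + 1)) + (f (n + 1) - (c - π * h.eval Y)) := by ring
  rw [this]
  exact dvd_add h1 h2

/-- `(1 + X) ^ n = 1 + n X + X ^ 2 r(X)`. -/
lemma exists_one_add_pow_eq (n : ℕ) :
    ∃ r : A[X], ∀ x : A, (1 + x) ^ n = 1 + n * x + x ^ 2 * r.eval x := by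
  induction n with
  | zero => exact ⟨0, fun x => by simp⟩
  | succ n ih =>
    obtain ⟨r, hr⟩ := ih
    refine ⟨C (n : A) + r + X * r, fun x => ?_⟩
    rw [pow_succ, hr]
    simp only [eval_add, eval_C, eval_mul, eval_X]
    push_cast
    ring

end Abstract


section Roots

variable {A : Type*} [CommRing A]

/-- Roots of order prime to the residue characteristic: `1 + π ^ m A ⊆ (1 + π ^ m A) ^ n` when `n`
is a unit. -/
theorem exists_pow_eq_of_isUnit (π : A) [IsAdicComplete (Ideal.span {π}) A] (n : ℕ)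
    (hn : IsUnit (n : A)) (m : ℕ) (hm : 1 ≤ m) (z : A) :
    ∃ Y : A, (1 + π ^ m * Y) ^ n = 1 + π ^ m * z := by
  obtain ⟨r, hr⟩ := exists_one_add_pow_eq (A := A) n
  obtain ⟨ν, hν⟩ := hn
  obtain ⟨k, rfl⟩ : ∃ k, m = k + 1 := ⟨m - 1, by omega⟩
  obtain ⟨Y, hY⟩ := exists_eq_sub_mul_eval π
    (C ((ν⁻¹ : Aˣ) * π ^ k : A) * X ^ 2 * r.comp (C (π ^ (k + 1)) * X)) ((ν⁻¹ : Aˣ) * z)
  refine ⟨Y, ?_⟩
  simp only [eval_mul, eval_C, eval_pow, eval_X, eval_comp] at hY
  rw [hr]
  have h1 : (n : A) * Y = z - π ^ (k + 1) * (Y ^ 2 * r.eval (π ^ (k + 1) * Y)) := by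
    have h2 : (ν : A) * Y = (ν : A) * ((ν⁻¹ : Aˣ) * z -
        π * (((ν⁻¹ : Aˣ) : A) * π ^ k * Y ^ 2 * eval (π ^ (k + 1) * Y) r)) := by
      rw [← hY]
    rw [← hν, h2]
    have h3 : (ν : A) * ((ν⁻¹ : Aˣ) : A) = 1 := by simp
    calc (ν : A) * (((ν⁻¹ : Aˣ) : A) * z -
          π * (((ν⁻¹ : Aˣ) : A) * π ^ k * Y ^ 2 * eval (π ^ (k + 1) * Y) r))
        = ((ν : A) * ((ν⁻¹ : Aˣ) : A)) * (z - π ^ (k + 1) * (Y ^ 2 * r.eval (π ^ (k + 1) * Y))) := by
          ring
      _ = _ := by rw [h3, one_mul]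
  calc 1 + (n : A) * (π ^ (k + 1) * Y) + (π ^ (k + 1) * Y) ^ 2 * r.eval (π ^ (k + 1) * Y)
      = 1 + π ^ (k + 1) * ((n : A) * Y + π ^ (k + 1) * (Y ^ 2 * r.eval (π ^ (k + 1) * Y))) := by
        ring
    _ = 1 + π ^ (k + 1) * z := by rw [h1]; ring

/-- Roots of order the residue characteristic: `1 + q ^ (m+1) A ⊆ (1 + q ^ m A) ^ q` for
`m ≥ 2`. -/
theorem exists_pow_eq_natCast (q : ℕ) [IsAdicComplete (Ideal.span {(q : A)}) A] (m : ℕ)
    (hm : 2 ≤ m) (z : A) :
    ∃ Y : A, (1 + (q : A) ^ m * Y) ^ q = 1 + (q : A) ^ (m + 1) * z := by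
  obtain ⟨r, hr⟩ := exists_one_add_pow_eq (A := A) q
  obtain ⟨k, rfl⟩ : ∃ k, m = k + 2 := ⟨m - 2, by omega⟩
  obtain ⟨Y, hY⟩ := exists_eq_sub_mul_eval (q : A)
    (C ((q : A) ^ k) * X ^ 2 * r.comp (C ((q : A) ^ (k + 2)) * X)) z
  refine ⟨Y, ?_⟩
  simp only [eval_mul, eval_C, eval_pow, eval_X, eval_comp] at hY
  rw [hr]
  have h1 : z = Y + (q : A) * ((q : A) ^ k * Y ^ 2 * eval ((q : A) ^ (k + 2) * Y) r) := by
    rw [eq_sub_iff_add_eq] at hY
    exact hY.symm
  rw [h1]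
  ring

/-- Roots of arbitrary order `l = q ^ a * l'` with `l'` a unit. -/
theorem exists_pow_eq_of_eq_mul (q : ℕ) [IsAdicComplete (Ideal.span {(q : A)}) A] (l' : ℕ)
    (hl' : IsUnit (l' : A)) (m : ℕ) (hm : 2 ≤ m) (a : ℕ) (z : A) :
    ∃ Y : A, (1 + (q : A) ^ m * Y) ^ (q ^ a * l') = 1 + (q : A) ^ (m + a) * z := by
  induction a generalizing z with
  | zero =>
    rw [pow_zero, one_mul, add_zero]
    exact exists_pow_eq_of_isUnit (q : A) l' hl' m (by omega) z
  | succ a ih =>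
    obtain ⟨Y₁, hY₁⟩ := exists_pow_eq_natCast q (m + a) (by omega) z
    obtain ⟨Y, hY⟩ := ih Y₁
    refine ⟨Y, ?_⟩
    have : q ^ (a + 1) * l' = (q ^ a * l') * q := by ring
    rw [this, pow_mul, hY, hY₁]
    ring_nf

end Roots

section Transfer

variable (L : Type) [Field L] [NumberField L] (q : Nat.Primes)

/-- The comparison map `ℤ_q ⊗ 𝓞 L → ℚ_q ⊗ L`, `a ⊗ x ↦ a ⊗ x`. -/
def ohatToLocAlg : Places.Ohat (𝓞 L) (pv q) →+* LocAlg L q :=
  (Algebra.TensorProduct.productMap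
    (((algebraMap ℚ_[pv q] (LocAlg L q)).comp (PadicInt.Coe.ringHom (p := pv q))).toIntAlgHom)
    (((Algebra.TensorProduct.includeRight : L →ₐ[ℚ] LocAlg L q).toRingHom.comp
      (algebraMap (𝓞 L) L)).toIntAlgHom) : ℤ_[pv q] ⊗[ℤ] 𝓞 L →ₐ[ℤ] LocAlg L q).toRingHom

lemma ohatToLocAlg_tmul (a : ℤ_[pv q]) (x : 𝓞 L) :
    ohatToLocAlg L q (Places.Ohat.tmul a x) = (a : ℚ_[pv q]) ⊗ₜ[ℚ] (x : L) := by
  have h1 : ohatToLocAlg L q (Places.Ohat.tmul a x) =
      algebraMap ℚ_[pv q] (LocAlg L q) (a : ℚ_[pv q]) * ((1 : ℚ_[pv q]) ⊗ₜ[ℚ] (x : L)) :=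
    Algebra.TensorProduct.productMap_apply_tmul _ _ a x
  rw [h1, Algebra.TensorProduct.algebraMap_apply, Algebra.TensorProduct.tmul_mul_tmul, one_mul]
  simp

theorem ohat_induction {O : Type*} [CommRing O] {p : ℕ} [Fact p.Prime]
    {motive : Places.Ohat O p → Prop} (z : Places.Ohat O p)
    (zero : motive 0) (tmul : ∀ a x, motive (Places.Ohat.tmul a x))
    (add : ∀ x y, motive x → motive y → motive (x + y)) : motive z :=
  TensorProduct.induction_on (motive := motive) z zero tmul add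

lemma ohatToLocAlg_mem_locInt (t : Places.Ohat (𝓞 L) (pv q)) :
    ohatToLocAlg L q t ∈ locInt L q := by
  refine ohat_induction (motive := fun t => ohatToLocAlg L q t ∈ locInt L q) t ?_ ?_ ?_
  · rw [map_zero]; exact zero_mem _
  · intro a x
    rw [ohatToLocAlg_tmul]
    exact tmul_mem_locInt L q a x
  · intro t₁ t₂ h₁ h₂
    rw [map_add]
    exact add_mem h₁ h₂

lemma exists_ohatToLocAlg_eq {z : LocAlg L q} (hz : z ∈ locInt L q) :
    ∃ t : Places.Ohat (𝓞 L) (pv q), ohatToLocAlg L q t = z := by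
  classical
  have hc : ∀ i, ‖(FirstIneq.locBasis L q).repr z i‖ ≤ 1 :=
    FirstIneq.norm_locBasis_repr_le_one L q hz
  set c : WeakApprox.Idx L → ℤ_[pv q] := fun i => ⟨_, hc i⟩ with hcdef
  have hcval : ∀ i, ((c i : ℤ_[pv q]) : ℚ_[pv q]) = (WeakApprox.locBasis L q).repr z i :=
    fun i => rfl
  refine ⟨∑ i, Places.Ohat.tmul (c i) (NumberField.RingOfIntegers.basis L i), ?_⟩
  rw [map_sum]
  conv_rhs => rw [← WeakApprox.sum_repr_tmul_loc L q z]
  refine Finset.sum_congr rfl fun i _ => ?_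
  rw [ohatToLocAlg_tmul, hcval, NumberField.integralBasis_apply]

lemma ohat_isAdicComplete :
    IsAdicComplete (Ideal.span {((pv q : ℕ) : Places.Ohat (𝓞 L) (pv q))})
      (Places.Ohat (𝓞 L) (pv q)) := by
  have h := (Places.Ohat.isAdicCompletionAt (𝓞 L) (pv q)).complete
  rwa [Places.Ohat.algebraMap_natCast] at h

omit [NumberField L] in
lemma isUnit_natCast_ohat (n : ℕ) (hn : ¬ (pv q) ∣ n) :
    IsUnit ((n : ℕ) : Places.Ohat (𝓞 L) (pv q)) := by
  have h1 : IsUnit ((n : ℕ) : ℤ_[pv q]) := by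
    rw [PadicInt.isUnit_iff, PadicInt.norm_natCast_eq_one_iff]
    exact (Nat.Prime.coprime_iff_not_dvd (pv_prime q)).2 hn
  have h2 := h1.map (algebraMap ℤ_[pv q] (Places.Ohat (𝓞 L) (pv q)))
  rwa [map_natCast] at h2

/-- **Openness of the group of `l`-th powers**: for `N` large, every unit of `ℚ_q ⊗ L` congruent
to `1` modulo `q ^ N` times the integral subalgebra is the `l`-th power of an integral unit. -/
theorem exists_pow_eq_of_congr (l : ℕ) (hl : l ≠ 0) :
    ∃ N : ℕ, ∀ u : (LocAlg L q)ˣ,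
      (∃ z ∈ locInt L q, (u : LocAlg L q) - 1 = ((pv q : ℕ) : LocAlg L q) ^ N * z) →
        ∃ w ∈ locIntUnits L q, w ^ l = u := by
  obtain ⟨a, l', hl', rfl⟩ := Nat.exists_eq_pow_mul_and_not_dvd hl (pv q) (pv_prime q).ne_one
  refine ⟨2 + a, ?_⟩
  rintro u ⟨z, hz, hzu⟩
  obtain ⟨z', rfl⟩ := exists_ohatToLocAlg_eq L q hz
  have hcomplete := ohat_isAdicComplete L q
  obtain ⟨Y, hY⟩ := exists_pow_eq_of_eq_mul (A := Places.Ohat (𝓞 L) (pv q)) (pv q) l'
    (isUnit_natCast_ohat L q l' hl') 2 le_rfl a z'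
  set w₀ : LocAlg L q := ohatToLocAlg L q (1 + ((pv q : ℕ) : Places.Ohat (𝓞 L) (pv q)) ^ 2 * Y)
    with hw₀
  have hw₀' : w₀ = 1 + ((pv q : ℕ) : LocAlg L q) ^ 2 * ohatToLocAlg L q Y := by
    rw [hw₀, map_add, map_one, map_mul, map_pow, map_natCast]
  have hpow : w₀ ^ (pv q ^ a * l') = (u : LocAlg L q) := by
    rw [hw₀, ← map_pow, hY, map_add, map_one, map_mul, map_pow, map_natCast]
    rw [sub_eq_iff_eq_add'] at hzu
    exact hzu.symm
  have hunit : IsUnit w₀ := by
    have : IsUnit (w₀ ^ (pv q ^ a * l')) := hpow ▸ u.isUnit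
    exact (isUnit_pow_iff hl).1 this
  obtain ⟨w, hw⟩ := hunit
  refine ⟨w, ?_, ?_⟩
  · refine IdeleCovers.mem_locIntUnits_of_sub_one L q w 2 two_ne_zero _
      (ohatToLocAlg_mem_locInt L q Y) ?_
    rw [hw, hw₀']
    ring
  · apply Units.ext
    rw [Units.val_pow_eq_pow_val, hw]
    exact hpow

end Transfer

section IdeleLevel

variable (L : Type) [Field L] [NumberField L]

/-- Weak approximation for ideles, power form: every idele can be multiplied by a principal idele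
so that the components at finitely many primes become `l`-th powers of integral units and the
archimedean component is totally positive with positive norm. -/
theorem exists_principal_approx_pow (b : Idele L) (Q : Finset Nat.Primes) (l : ℕ) (hl : l ≠ 0) :
    ∃ x : Lˣ, (∀ q ∈ Q, ∃ w ∈ locIntUnits L q,
        w ^ l = (((principal L x)⁻¹ * b : Idele L) : IdeleProd L).1 q) ∧
      0 < Algebra.norm ℝ ((((principal L x)⁻¹ * b : Idele L) : IdeleProd L).2 : ArchAlg L) ∧
      ∀ ψ : ArchAlg L →ₐ[ℝ] ℝ,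
        0 < ψ ((((principal L x)⁻¹ * b : Idele L) : IdeleProd L).2 : ArchAlg L) := by
  classical
  have hN : ∀ q : Nat.Primes, ∃ N : ℕ, ∀ u : (LocAlg L q)ˣ,
      (∃ z ∈ locInt L q, (u : LocAlg L q) - 1 = ((pv q : ℕ) : LocAlg L q) ^ N * z) →
        ∃ w ∈ locIntUnits L q, w ^ l = u := fun q => exists_pow_eq_of_congr L q l hl
  choose Nq hNq using hN
  obtain ⟨x, hx, hx'⟩ := WeakApprox.exists_principal_approx_pos L b Q (Q.sup Nq)
  refine ⟨x, fun q hq => ?_, hx'⟩
  obtain ⟨z, hz, hzq⟩ := hx q hq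
  apply hNq q
  have hle : Nq q ≤ Q.sup Nq := Finset.le_sup hq
  obtain ⟨j, hj⟩ := Nat.exists_eq_add_of_le hle
  refine ⟨((pv q : ℕ) : LocAlg L q) ^ j * z, mul_mem (pow_mem (natCast_mem _ _) j) hz, ?_⟩
  rw [hzq, hj, pow_add, mul_assoc]

end IdeleLevel


end Fermat.Agent.Lib.CFT.Global.LocalPowers
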