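/-
helper17 (P-CFT, WP Global/KummerLocal, task 208).

Local behaviour of exponent-`p` Kummer extensions, in completion-free form.

* `section Core` / `section Action` : the ring-theoretic heart.  `B` a domain with a primitive
  `p`-th root of unity, `Q` a prime not containing `p`, `β ^ p ∈ A`:
  - `smul_eq_of_mem_inertia` : if `β ∉ Q`, the inertia group of `Q` fixes `β`  (UNRAMIFIED);
  - `smul_eq_of_mem_stabilizer` : if `β ^ p ≡ d ^ p (mod Q)` with `d ∈ A`, `d ∉ Q`, the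
    decomposition group of `Q` fixes `β`  (SPLIT).
* `section NumberField` : `K ∋ ζ_p`, `M/K` Galois, `β ∈ M`, `β ^ p = a ∈ K`, `v ∤ p`, `w ∣ v`:
  - `apply_eq_of_mem_inertia` : `v(a / c ^ p) = 1` for some `c ∈ Kˣ` (i.e. `p ∣ ord_v a`)
    ⟹ inertia group of `w` fixes `β`;  `inertia_eq_bot` if `β` generates;
  - `apply_eq_of_mem_stabilizer` : `v(a / c ^ p - 1) < 1` for some `c ∈ Kˣ` (i.e. `a` is a `p`-th
    power in the completion at `v`) ⟹ decomposition group of `w` fixes `β`;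
    `stabilizer_eq_bot` if `β` generates.
* `section Hensel` : in a Henselian local ring with `n` invertible, a unit is an `n`-th power iff its
  residue is; principal units are `n`-th powers; fraction-field form
  `exists_pow_eq_of_eq_pow_mul_one_add`.
-/
import Mathlib

set_option autoImplicit false
set_option linter.unusedSectionVars false

open Polynomial
open scoped Pointwise

namespace Fermat.Agent.Lib.CFT.Global.KummerLocal

section Core

variable {B : Type*} [CommRing B] [IsDomain B] {p : ℕ} {ζ : B}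

/-- In a domain containing a primitive `p`-th root of unity, `x ^ p = y ^ p` forces `x = ζ ^ i * y`. -/
theorem eq_pow_mul_of_pow_eq_pow (hζ : IsPrimitiveRoot ζ p) (hp : 0 < p) {x y : B}
    (h : x ^ p = y ^ p) : ∃ i < p, x = ζ ^ i * y := by
  have hmem : x ∈ nthRoots p (y ^ p) := (mem_nthRoots hp).2 h
  rw [hζ.nthRoots_eq rfl, Multiset.mem_map] at hmem
  obtain ⟨i, hi, rfl⟩ := hmem
  exact ⟨i, Multiset.mem_range.1 hi, rfl⟩

/-- If `ζ` is a primitive `p`-th root of unity (`p` prime) and `ζ ^ i - 1` lies in a prime ideal `Q`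
not containing `p`, then `ζ ^ i = 1`. -/
theorem pow_eq_one_of_sub_one_mem (hp : p.Prime) (hζ : IsPrimitiveRoot ζ p) {Q : Ideal B}
    [Q.IsPrime] (hpQ : (p : B) ∉ Q) {i : ℕ} (hi : ζ ^ i - 1 ∈ Q) : ζ ^ i = 1 := by
  by_contra hne
  have hcop : i.Coprime p := by
    rw [Nat.coprime_comm, hp.coprime_iff_not_dvd]
    intro hdvd
    exact hne ((hζ.pow_eq_one_iff_dvd i).2 hdvd)
  have hμ : IsPrimitiveRoot (ζ ^ i) p := hζ.pow_of_coprime i hcop
  obtain ⟨n, rfl⟩ : ∃ n, p = n + 1 := ⟨p - 1, by have := hp.pos; omega⟩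
  have hprod := hμ.prod_one_sub_pow_eq_order
  apply hpQ
  have h0 : 0 ∈ Finset.range n := Finset.mem_range.2 (by have := hp.two_le; omega)
  have hmem : ∏ k ∈ Finset.range n, (1 - (ζ ^ i) ^ (k + 1)) ∈ Q := by
    rw [← Finset.mul_prod_erase _ _ h0]
    apply Q.mul_mem_right
    rw [zero_add, pow_one]
    have := Q.neg_mem hi
    rwa [neg_sub] at this
  rw [hprod] at hmem
  exact_mod_cast hmem

/-- **Core lemma.** `B` a domain with a primitive `p`-th root of unity, `Q` a prime ideal not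
containing `p`; if `γ ^ p = β ^ p`, `γ ≡ β (mod Q)` and `β ∉ Q`, then `γ = β`. -/
theorem eq_of_pow_eq_pow_of_sub_mem (hp : p.Prime) (hζ : IsPrimitiveRoot ζ p) {Q : Ideal B}
    [Q.IsPrime] (hpQ : (p : B) ∉ Q) {β γ : B} (hpow : γ ^ p = β ^ p) (hsub : γ - β ∈ Q)
    (hβ : β ∉ Q) : γ = β := by
  obtain ⟨i, -, rfl⟩ := eq_pow_mul_of_pow_eq_pow hζ hp.pos hpow
  have h1 : (ζ ^ i - 1) * β ∈ Q := by
    have : (ζ ^ i - 1) * β = ζ ^ i * β - β := by ring
    rwa [this]
  have h2 : ζ ^ i - 1 ∈ Q := (Ideal.IsPrime.mem_or_mem ‹_› h1).resolve_right hβ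
  rw [pow_eq_one_of_sub_one_mem hp hζ hpQ h2, one_mul]

end Core

section Action

variable {A B : Type*} [CommRing A] [CommRing B] [IsDomain B] [Algebra A B]
  {G : Type*} [Group G] [MulSemiringAction G B] [SMulCommClass G A B]
  {p : ℕ} {ζ : A}

/-- **Unramified.** `β ^ p ∈ A`, `β ∉ Q`, `p ∉ Q`: every element of the inertia group of `Q`
fixes `β`. -/
theorem smul_eq_of_mem_inertia (hp : p.Prime) (hζ : IsPrimitiveRoot (algebraMap A B ζ) p)
    {Q : Ideal B} [Q.IsPrime] (hpQ : (p : B) ∉ Q) {α : A} {β : B}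
    (hβ : β ^ p = algebraMap A B α) (hβQ : β ∉ Q) {σ : G} (hσ : σ ∈ Q.inertia G) :
    σ • β = β := by
  apply eq_of_pow_eq_pow_of_sub_mem hp hζ hpQ _ (hσ β) hβQ
  rw [← smul_pow', hβ, smul_algebraMap]

/-- **Split.** `β ^ p ≡ d ^ p (mod Q)` with `d ∈ A`, `d ∉ Q`, `p ∉ Q`: every element of the
decomposition group of `Q` fixes `β`. -/
theorem smul_eq_of_mem_stabilizer (hp : p.Prime) (hζ : IsPrimitiveRoot (algebraMap A B ζ) p)
    {Q : Ideal B} [Q.IsPrime] (hpQ : (p : B) ∉ Q) {α d : A} {β : B}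
    (hβ : β ^ p = algebraMap A B α) (hd : algebraMap A B d ∉ Q)
    (hαd : algebraMap A B (α - d ^ p) ∈ Q) {σ : G} (hσ : σ • Q = Q) :
    σ • β = β := by
  -- some `β - μ d ∈ Q` with `μ ^ p = 1`
  have hprod := hζ.pow_sub_pow_eq_prod_sub_mul β (algebraMap A B d) hp.pos
  have hmem : β ^ p - (algebraMap A B d) ^ p ∈ Q := by
    rw [hβ, ← map_pow, ← map_sub]; exact hαd
  rw [hprod, Ideal.IsPrime.prod_mem_iff] at hmem
  obtain ⟨μ, hμ, hμQ⟩ := hmem
  rw [mem_nthRootsFinset hp.pos] at hμ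
  have : NeZero p := ⟨hp.ne_zero⟩
  obtain ⟨i, -, rfl⟩ := hζ.eq_pow_of_pow_eq_one hμ
  set r : B := algebraMap A B ζ ^ i * algebraMap A B d with hr
  have hrfix : σ • r = r := by
    rw [hr, ← map_pow, ← map_mul, smul_algebraMap]
  have hβQ : β ∉ Q := by
    intro h
    have h1 : r ∈ Q := by
      have := Q.sub_mem h hμQ
      rwa [sub_sub_cancel] at this
    rcases Ideal.IsPrime.mem_or_mem ‹_› h1 with h2 | h2
    · have h3 : (algebraMap A B ζ ^ i) ^ p ∈ Q := Ideal.pow_mem_of_mem Q h2 p hp.pos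
      rw [← pow_mul, mul_comm, pow_mul, hζ.pow_eq_one, one_pow] at h3
      exact (Ideal.ne_top_iff_one Q).1 (Ideal.IsPrime.ne_top ‹_›) h3
    · exact hd h2
  apply eq_of_pow_eq_pow_of_sub_mem hp hζ hpQ _ _ hβQ
  · rw [← smul_pow', hβ, smul_algebraMap]
  · have h1 : σ • (β - r) ∈ σ • Q := Ideal.smul_mem_pointwise_smul σ _ _ hμQ
    rw [hσ, smul_sub, hrfix] at h1
    have := Q.sub_mem h1 hμQ
    rwa [sub_sub_sub_cancel_right] at this

end Action

section NumberField

open NumberField IsDedekindDomain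

variable {K M : Type*} [Field K] [NumberField K] [Field M] [NumberField M] [Algebra K M]
  {p : ℕ} {ζ : K}

/-- An element of `K` of valuation one at `v` is a quotient `n / d` of integers outside `v`. -/
theorem exists_num_den_of_valuation_eq_one (v : HeightOneSpectrum (𝓞 K)) {a : K}
    (ha : v.valuation K a = 1) :
    ∃ n d : 𝓞 K, n ∉ v.asIdeal ∧ d ∉ v.asIdeal ∧ a * (d : K) = (n : K) := by
  obtain ⟨n, ⟨d, hd⟩, hnd⟩ := v.exists_primeCompl_mul_eq_of_integer a ha.le
  refine ⟨n, d, ?_, hd, hnd⟩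
  intro hn
  have h1 : v.valuation K (algebraMap (𝓞 K) K n) < 1 := (v.valuation_lt_one_iff_mem n).2 hn
  have h2 : v.valuation K (algebraMap (𝓞 K) K d) = 1 := v.valuation_eq_one_iff_notMem.2 hd
  rw [← hnd, map_mul, ha, one_mul] at h1
  simp only at h1 h2
  rw [h2] at h1
  exact lt_irrefl _ h1

/-- The common integral normalisation: if `β ^ p = a` with `a = n / d`, then `d β` is integral
with `(d β) ^ p = d ^ (p - 1) n`. -/
theorem exists_integer_eq_mul {a : K} {β : M} (hp : 0 < p) (hβ : β ^ p = algebraMap K M a)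
    {n d : 𝓞 K} (hnd : a * (d : K) = (n : K)) :
    ∃ β₁ : 𝓞 M, (β₁ : M) = algebraMap K M (d : K) * β ∧
      β₁ ^ p = algebraMap (𝓞 K) (𝓞 M) (d ^ (p - 1) * n) := by
  have hpow : (algebraMap K M (d : K) * β) ^ p =
      algebraMap K M ((algebraMap (𝓞 K) K) (d ^ (p - 1) * n)) := by
    obtain ⟨k, rfl⟩ : ∃ k, p = k + 1 := ⟨p - 1, by omega⟩
    have h1 : (algebraMap (𝓞 K) K) (d ^ (k + 1 - 1) * n) = (d : K) ^ (k + 1) * a := by
      rw [Nat.add_sub_cancel, map_mul, map_pow]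
      change (d : K) ^ k * (n : K) = _
      rw [← hnd, pow_succ]
      ring
    rw [mul_pow, hβ, h1, map_mul, map_pow]
  have hint : IsIntegral ℤ (algebraMap K M (d : K) * β) := by
    apply IsIntegral.of_pow hp
    rw [hpow]
    exact ((d ^ (p - 1) * n).isIntegral_coe).map (IsScalarTower.toAlgHom ℤ K M)
  let β₁ : 𝓞 M := ⟨_, hint⟩
  have hβ₁ : (β₁ : M) = algebraMap K M (d : K) * β := rfl
  refine ⟨β₁, hβ₁, ?_⟩
  apply RingOfIntegers.ext
  have h2 : ((β₁ ^ p : 𝓞 M) : M) = (β₁ : M) ^ p := map_pow (algebraMap (𝓞 M) M) β₁ p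
  rw [h2, hβ₁, hpow]
  change _ = algebraMap (𝓞 M) M (algebraMap (𝓞 K) (𝓞 M) (d ^ (p - 1) * n))
  rw [← IsScalarTower.algebraMap_apply (𝓞 K) K M, ← IsScalarTower.algebraMap_apply (𝓞 K) (𝓞 M) M]

/-- membership in `w` of the image of an integer of `K` is membership in `w ∩ 𝓞 K`. -/
theorem algebraMap_mem_iff {v : Ideal (𝓞 K)} {w : Ideal (𝓞 M)} (hwv : w.under (𝓞 K) = v)
    (x : 𝓞 K) : algebraMap (𝓞 K) (𝓞 M) x ∈ w ↔ x ∈ v := by
  rw [← hwv, Ideal.under_def, Ideal.mem_comap]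

/-- The common setup: a primitive root in `𝓞 M` and `p ∉ w`. -/
theorem setup_aux (hp : p.Prime) (hζ : IsPrimitiveRoot ζ p) {v : Ideal (𝓞 K)}
    (hpv : (p : 𝓞 K) ∉ v) {w : Ideal (𝓞 M)} (hwv : w.under (𝓞 K) = v) :
    ∃ ζ₀ : 𝓞 K, IsPrimitiveRoot (algebraMap (𝓞 K) (𝓞 M) ζ₀) p ∧ (p : 𝓞 M) ∉ w := by
  have : NeZero p := ⟨hp.ne_zero⟩
  refine ⟨hζ.toInteger, ?_, ?_⟩
  · exact hζ.toInteger_isPrimitiveRoot.map_of_injective
      (FaithfulSMul.algebraMap_injective (𝓞 K) (𝓞 M))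
  · intro h
    apply hpv
    rw [← algebraMap_mem_iff hwv, map_natCast]
    exact h

/-- `p ∣ ord_v a` in the form used above: if `v(a) = exp (p * k)` then `v(a / c ^ p) = 1` for
some `c ≠ 0`. -/
theorem exists_valuation_div_pow_eq_one (v : HeightOneSpectrum (𝓞 K)) {a : K} {k : ℤ}
    (hk : v.valuation K a = WithZero.exp ((p : ℤ) * k)) :
    ∃ c : K, c ≠ 0 ∧ v.valuation K (a / c ^ p) = 1 := by
  obtain ⟨c, hc⟩ := v.valuation_surjective K (WithZero.exp k)
  have hc0 : c ≠ 0 := by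
    rintro rfl
    rw [map_zero] at hc
    exact WithZero.exp_ne_zero.symm hc
  refine ⟨c, hc0, ?_⟩
  rw [map_div₀, map_pow, hk, hc, ← WithZero.exp_nsmul, nsmul_eq_mul]
  exact div_self WithZero.exp_ne_zero

variable [IsGalois K M]

/-- **Unramified Kummer generators (number fields).** `ζ_p ∈ K`, `β ^ p = a ∈ K`, `v ∤ p` a prime
of `K` at which `a / c ^ p` is a unit for some `c ∈ Kˣ` (i.e. `p ∣ ord_v a`), `w` a prime of `M`
over `v`: every element of the inertia group of `w` fixes `β`. -/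
theorem apply_eq_of_mem_inertia (hp : p.Prime) (hζ : IsPrimitiveRoot ζ p)
    (v : HeightOneSpectrum (𝓞 K)) (hpv : (p : 𝓞 K) ∉ v.asIdeal)
    (w : Ideal (𝓞 M)) [w.IsPrime] (hwv : w.under (𝓞 K) = v.asIdeal)
    {a c : K} (hc : c ≠ 0) (hac : v.valuation K (a / c ^ p) = 1)
    {β : M} (hβ : β ^ p = algebraMap K M a)
    {σ : Gal(M/K)} (hσ : σ ∈ w.inertia Gal(M/K)) : σ β = β := by
  obtain ⟨ζ₀, hζ₀, hpw⟩ := setup_aux hp hζ hpv hwv
  obtain ⟨n, d, hn, hd, hnd⟩ := exists_num_den_of_valuation_eq_one v hac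
  have hβ₂ : (β / algebraMap K M c) ^ p = algebraMap K M (a / c ^ p) := by
    rw [div_pow, hβ, map_div₀, map_pow]
  obtain ⟨β₁, hβ₁, hβ₁p⟩ := exists_integer_eq_mul hp.pos hβ₂ hnd
  have hα : d ^ (p - 1) * n ∉ v.asIdeal := fun h =>
    (Ideal.IsPrime.mem_or_mem v.isPrime h).elim
      (fun h1 => hd (Ideal.IsPrime.mem_of_pow_mem v.isPrime _ h1)) hn
  have hβ₁w : β₁ ∉ w := by
    intro h
    apply hα
    rw [← algebraMap_mem_iff hwv, ← hβ₁p]
    exact Ideal.pow_mem_of_mem w h p hp.pos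
  have hfix := smul_eq_of_mem_inertia hp hζ₀ hpw hβ₁p hβ₁w hσ
  have hfix' : σ (β₁ : M) = (β₁ : M) := by
    have := congrArg (algebraMap (𝓞 M) M) hfix
    rwa [algebraMap.smul'] at this
  rw [hβ₁, map_mul, AlgEquiv.commutes, map_div₀, AlgEquiv.commutes] at hfix'
  have hd0 : algebraMap K M (d : K) ≠ 0 := by
    rw [Ne, map_eq_zero_iff _ (algebraMap K M).injective]
    intro h0
    apply hd
    have : d = 0 := RingOfIntegers.coe_injective (by simpa using h0)
    rw [this]; exact Ideal.zero_mem _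
  have hc0 : algebraMap K M c ≠ 0 := by
    rwa [Ne, map_eq_zero_iff _ (algebraMap K M).injective]
  have := mul_left_cancel₀ hd0 hfix'
  field_simp at this
  exact this

/-- **Split Kummer generators (number fields).** `ζ_p ∈ K`, `β ^ p = a ∈ K`, `v ∤ p` a prime of `K`
with `a / c ^ p ≡ 1 (mod v)` for some `c ∈ Kˣ` (i.e. `a` is a `p`-th power in the completion at
`v`), `w` a prime of `M` over `v`: every element of the decomposition group of `w` fixes `β`. -/
theorem apply_eq_of_mem_stabilizer (hp : p.Prime) (hζ : IsPrimitiveRoot ζ p)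
    (v : HeightOneSpectrum (𝓞 K)) (hpv : (p : 𝓞 K) ∉ v.asIdeal)
    (w : Ideal (𝓞 M)) [w.IsPrime] (hwv : w.under (𝓞 K) = v.asIdeal)
    {a c : K} (hc : c ≠ 0) (hac : v.valuation K (a / c ^ p - 1) < 1)
    {β : M} (hβ : β ^ p = algebraMap K M a)
    {σ : Gal(M/K)} (hσ : σ ∈ MulAction.stabilizer Gal(M/K) w) : σ β = β := by
  obtain ⟨ζ₀, hζ₀, hpw⟩ := setup_aux hp hζ hpv hwv
  -- `u = a / c ^ p` is a unit at `v`
  have hu1 : v.valuation K (a / c ^ p) = 1 := by
    have h1 : a / c ^ p = (a / c ^ p - 1) + 1 := by ring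
    rw [h1, Valuation.map_add_eq_of_lt_right _ (by rwa [map_one]), map_one]
  obtain ⟨n, d, hn, hd, hnd⟩ := exists_num_den_of_valuation_eq_one v hu1
  have hdK : (d : K) ≠ 0 := by
    intro h0
    apply hd
    have : d = 0 := RingOfIntegers.coe_injective (by simpa using h0)
    rw [this]; exact Ideal.zero_mem _
  -- `n ≡ d (mod v)`
  have hnd_mem : n - d ∈ v.asIdeal := by
    rw [← v.valuation_lt_one_iff_mem (K := K)]
    have h2 : algebraMap (𝓞 K) K (n - d) = (a / c ^ p - 1) * (d : K) := by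
      rw [map_sub, sub_mul, one_mul, hnd]
    show v.valuation K (algebraMap (𝓞 K) K (n - d)) < 1
    rw [h2, map_mul]
    have h3 : v.valuation K (d : K) = 1 := v.valuation_eq_one_iff_notMem.2 hd
    rw [h3, mul_one]
    exact hac
  have hβ₂ : (β / algebraMap K M c) ^ p = algebraMap K M (a / c ^ p) := by
    rw [div_pow, hβ, map_div₀, map_pow]
  obtain ⟨β₁, hβ₁, hβ₁p⟩ := exists_integer_eq_mul hp.pos hβ₂ hnd
  have hdw : algebraMap (𝓞 K) (𝓞 M) d ∉ w := fun h => hd ((algebraMap_mem_iff hwv d).1 h)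
  have hαd : algebraMap (𝓞 K) (𝓞 M) (d ^ (p - 1) * n - d ^ p) ∈ w := by
    rw [algebraMap_mem_iff hwv]
    have : d ^ (p - 1) * n - d ^ p = d ^ (p - 1) * (n - d) := by
      obtain ⟨k, rfl⟩ : ∃ k, p = k + 1 := ⟨p - 1, by have := hp.pos; omega⟩
      rw [Nat.add_sub_cancel, pow_succ]; ring
    rw [this]
    exact Ideal.mul_mem_left _ _ hnd_mem
  have hfix := smul_eq_of_mem_stabilizer hp hζ₀ hpw hβ₁p hdw hαd (MulAction.mem_stabilizer_iff.1 hσ)
  have hfix' : σ (β₁ : M) = (β₁ : M) := by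
    have := congrArg (algebraMap (𝓞 M) M) hfix
    rwa [algebraMap.smul'] at this
  rw [hβ₁, map_mul, AlgEquiv.commutes, map_div₀, AlgEquiv.commutes] at hfix'
  have hd0 : algebraMap K M (d : K) ≠ 0 := by
    rwa [Ne, map_eq_zero_iff _ (algebraMap K M).injective]
  have hc0 : algebraMap K M c ≠ 0 := by
    rwa [Ne, map_eq_zero_iff _ (algebraMap K M).injective]
  have := mul_left_cancel₀ hd0 hfix'
  field_simp at this
  exact this

/-- If moreover `β` generates `M/K` (no nontrivial automorphism fixes it), `M/K` is unramified at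
`w`. -/
theorem inertia_eq_bot (hp : p.Prime) (hζ : IsPrimitiveRoot ζ p)
    (v : HeightOneSpectrum (𝓞 K)) (hpv : (p : 𝓞 K) ∉ v.asIdeal)
    (w : Ideal (𝓞 M)) [w.IsPrime] (hwv : w.under (𝓞 K) = v.asIdeal)
    {a c : K} (hc : c ≠ 0) (hac : v.valuation K (a / c ^ p) = 1)
    {β : M} (hβ : β ^ p = algebraMap K M a) (hgen : ∀ σ : Gal(M/K), σ β = β → σ = 1) :
    w.inertia Gal(M/K) = ⊥ := by
  rw [eq_bot_iff]
  intro σ hσ
  exact Subgroup.mem_bot.2 (hgen σ (apply_eq_of_mem_inertia hp hζ v hpv w hwv hc hac hβ hσ))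

/-- If moreover `β` generates `M/K`, then `v` splits completely: decomposition groups are
trivial. -/
theorem stabilizer_eq_bot (hp : p.Prime) (hζ : IsPrimitiveRoot ζ p)
    (v : HeightOneSpectrum (𝓞 K)) (hpv : (p : 𝓞 K) ∉ v.asIdeal)
    (w : Ideal (𝓞 M)) [w.IsPrime] (hwv : w.under (𝓞 K) = v.asIdeal)
    {a c : K} (hc : c ≠ 0) (hac : v.valuation K (a / c ^ p - 1) < 1)
    {β : M} (hβ : β ^ p = algebraMap K M a) (hgen : ∀ σ : Gal(M/K), σ β = β → σ = 1) :
    MulAction.stabilizer Gal(M/K) w = ⊥ := by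
  rw [eq_bot_iff]
  intro σ hσ
  exact Subgroup.mem_bot.2 (hgen σ (apply_eq_of_mem_stabilizer hp hζ v hpv w hwv hc hac hβ hσ))

end NumberField

section Hensel

open IsLocalRing

variable {R : Type*} [CommRing R] [HenselianLocalRing R]

/-- **Hensel for `n`-th roots** (`n` invertible): if `y ^ n ≡ u (mod 𝔪)` with `u` a unit, then `u`
has an `n`-th root `x ≡ y (mod 𝔪)`. -/
theorem exists_pow_eq_of_pow_sub_mem {n : ℕ} (hn : IsUnit (n : R)) {u y : R} (hu : IsUnit u)
    (hy : y ^ n - u ∈ maximalIdeal R) : ∃ x : R, x ^ n = u ∧ x - y ∈ maximalIdeal R := by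
  have hn0 : n ≠ 0 := by
    rintro rfl
    simp only [Nat.cast_zero, isUnit_zero_iff] at hn
    exact zero_ne_one hn
  have hyu : IsUnit y := by
    by_contra h
    have h1 : y ∈ maximalIdeal R := (mem_maximalIdeal y).2 h
    have h2 : y ^ n ∈ maximalIdeal R := Ideal.pow_mem_of_mem _ h1 n (Nat.pos_of_ne_zero hn0)
    have h3 : u ∈ maximalIdeal R := by
      have := (maximalIdeal R).sub_mem h2 hy
      rwa [sub_sub_cancel] at this
    exact (mem_maximalIdeal u).1 h3 hu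
  obtain ⟨x, hx, hxy⟩ := HenselianLocalRing.is_henselian (X ^ n - C u : R[X])
    (monic_X_pow_sub_C u hn0) y (by simpa using hy)
    (by
      simp only [derivative_sub, derivative_X_pow, derivative_C, sub_zero, eval_mul, eval_C,
        eval_pow, eval_X]
      exact hn.mul (hyu.pow _))
  refine ⟨x, ?_, hxy⟩
  simpa [IsRoot.def, sub_eq_zero] using hx

/-- A unit is an `n`-th power iff its residue class is (`n` invertible, Henselian local ring). -/
theorem exists_pow_eq_iff_residue {n : ℕ} (hn : IsUnit (n : R)) {u : R} (hu : IsUnit u) :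
    (∃ x : R, x ^ n = u) ↔ ∃ z : ResidueField R, z ^ n = residue R u := by
  constructor
  · rintro ⟨x, rfl⟩
    exact ⟨residue R x, (map_pow _ _ _).symm⟩
  · rintro ⟨z, hz⟩
    obtain ⟨y, rfl⟩ := residue_surjective z
    have hy : y ^ n - u ∈ maximalIdeal R := by
      rw [← residue_eq_zero_iff, map_sub, map_pow, hz, sub_self]
    obtain ⟨x, hx, -⟩ := exists_pow_eq_of_pow_sub_mem hn hu hy
    exact ⟨x, hx⟩

/-- Principal units are `n`-th powers (`n` invertible, Henselian local ring). -/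
theorem exists_pow_eq_of_sub_one_mem {n : ℕ} (hn : IsUnit (n : R)) {u : R}
    (hu : u - 1 ∈ maximalIdeal R) : ∃ x : R, x ^ n = u ∧ x - 1 ∈ maximalIdeal R := by
  have huu : IsUnit u := by
    by_contra h
    have h1 : u ∈ maximalIdeal R := (mem_maximalIdeal u).2 h
    have h2 : (1 : R) ∈ maximalIdeal R := by
      have := (maximalIdeal R).sub_mem h1 hu
      rwa [sub_sub_cancel] at this
    exact (Ideal.ne_top_iff_one _).1 (maximalIdeal.isMaximal R).ne_top h2
  apply exists_pow_eq_of_pow_sub_mem hn huu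
  rw [one_pow]
  have := (maximalIdeal R).neg_mem hu
  rwa [neg_sub] at this

end Hensel

section HenselFrac

open IsLocalRing

variable {A : Type*} [CommRing A] [HenselianLocalRing A] {F : Type*} [Field F] [Algebra A F]

/-- Fraction-field form of Hensel: `b = c ^ n * (1 + t)` with `t ∈ 𝔪` is an `n`-th power. -/
theorem exists_pow_eq_of_eq_pow_mul_one_add {n : ℕ} (hn : IsUnit (n : A)) {b c : F} {t : A}
    (ht : t ∈ maximalIdeal A) (hb : b = c ^ n * algebraMap A F (1 + t)) : ∃ y : F, y ^ n = b := by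
  obtain ⟨x, hx, -⟩ := exists_pow_eq_of_sub_one_mem hn (u := 1 + t) (by simpa using ht)
  exact ⟨c * algebraMap A F x, by rw [mul_pow, ← map_pow, hx, hb]⟩

end HenselFrac

end Fermat.Agent.Lib.CFT.Global.KummerLocal
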