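/-
P-CFT work package Global/SecondIneq (task 205), local input for `p = 2`: at an odd place where
`u` is a unit, every local unit is a norm from the quadratic algebra `F[β]`, `β ^ 2 = u`
(complement to `KummerLocalNorm.exists_norm_eq_of_isUnit`, which treats odd `p`).
-/
import Fermat.Agent.Lib.CFT.Global.KummerLocal

set_option autoImplicit false

open Polynomial IsLocalRing

namespace Fermat.Agent.Lib.CFT.Global.KummerLocalTwo

open Fermat.Agent.Lib.CFT.Global.KummerLocal

section NormForm

variable {F E : Type*} [Field F] [CommRing E] [Algebra F E]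

/-- The norm form of a quadratic Kummer algebra `F[β]`, `β ^ 2 = b`:
`N(x + y β) = x ^ 2 - b y ^ 2`. -/
theorem norm_add_mul_gen (pb : PowerBasis F E) (hdim : pb.dim = 2) {b : F}
    (hgen : pb.gen ^ 2 = algebraMap F E b) (x y : F) :
    Algebra.norm F (algebraMap F E x + algebraMap F E y * pb.gen) = x ^ 2 - b * y ^ 2 := by
  classical
  let b' : Module.Basis (Fin 2) F E := pb.basis.reindex (finCongr hdim)
  have hb0 : b' 0 = 1 := by
    simp [b']
  have hb1 : b' 1 = pb.gen := by
    simp [b']
  set z : E := algebraMap F E x + algebraMap F E y * pb.gen with hz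
  have h0 : z * b' 0 = x • b' 0 + y • b' 1 := by
    rw [hb0, hb1, mul_one, Algebra.smul_def, Algebra.smul_def, mul_one]
  have h1 : z * b' 1 = (b * y) • b' 0 + x • b' 1 := by
    rw [hb0, hb1, hz, add_mul, mul_assoc, ← sq, hgen, Algebra.smul_def, Algebra.smul_def, mul_one,
      map_mul]
    ring
  rw [Algebra.norm_eq_matrix_det b', Matrix.det_fin_two]
  simp only [Algebra.leftMulMatrix_eq_repr_mul, h0, h1, map_add, map_smul, Module.Basis.repr_self,
    Finsupp.smul_single, smul_eq_mul, mul_one, Finsupp.coe_add, Pi.add_apply,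
    Finsupp.single_eq_same, ne_eq, one_ne_zero, not_false_eq_true, Finsupp.single_eq_of_ne,
    zero_ne_one, add_zero, zero_add]
  ring

end NormForm

section Residue

variable {k : Type*} [Field k] [Finite k]

/-- Over a finite field of odd characteristic the form `x ^ 2 - u y ^ 2` (`u ≠ 0`) represents
every element. -/
theorem exists_sq_sub_mul_sq_eq (h2 : (2 : k) ≠ 0) {u : k} (hu : u ≠ 0) (a : k) :
    ∃ x y : k, x ^ 2 - u * y ^ 2 = a := by
  have := Fintype.ofFinite k
  have hchar : ringChar k ≠ 2 := by
    intro h
    apply h2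
    have := CharP.cast_eq_zero k (ringChar k)
    rw [h] at this
    exact_mod_cast this
  have hodd := FiniteField.odd_card_of_char_ne_two hchar
  have hf : degree (X ^ 2 : k[X]) = 2 := degree_X_pow 2
  have hg : degree (C (-u) * X ^ 2 + C 0 * X + C (-a) : k[X]) = 2 :=
    degree_quadratic (neg_ne_zero.2 hu)
  obtain ⟨x, y, hxy⟩ := FiniteField.exists_root_sum_quadratic hf hg hodd
  refine ⟨x, y, ?_⟩
  simp only [eval_pow, eval_X, eval_add, eval_mul, eval_C, zero_mul, add_zero] at hxy
  linear_combination hxy

end Residue

section UnitNorms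

variable {A F E : Type*} [CommRing A] [HenselianLocalRing A] [Finite (ResidueField A)]
  [Field F] [Algebra A F] [CommRing E] [Algebra F E]

/-- **Units are norms at unramified quadratic Kummer places** (`p = 2`, `v ∤ 2`, `ord_v u = 0`), in
algebra form: `A` Henselian local with finite residue field and `2 ∈ Aˣ`, `F ⊇ A` a field,
`E = F[β]` of rank `2` with `β ^ 2 = u ∈ Aˣ`.  Then every unit of `A` is the norm of a unit
of `E`. -/
theorem exists_norm_eq_of_isUnit_two (pb : PowerBasis F E) (h2A : IsUnit (2 : A)) {u : A}
    (hu : IsUnit u) (hdim : pb.dim = 2)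
    (hgen : pb.gen ^ 2 = algebraMap F E (algebraMap A F u)) {a : A} (ha : IsUnit a) :
    ∃ y : Eˣ, Algebra.norm F (y : E) = algebraMap A F a := by
  have h2k : (2 : ResidueField A) ≠ 0 := by
    have h := (h2A.map (residue A)).ne_zero
    rwa [map_ofNat] at h
  have huk : residue A u ≠ 0 := (hu.map (residue A)).ne_zero
  obtain ⟨x₀, y₀, hxy⟩ := exists_sq_sub_mul_sq_eq h2k huk (residue A a)
  obtain ⟨x, rfl⟩ := residue_surjective x₀
  obtain ⟨y, rfl⟩ := residue_surjective y₀
  set c : A := x ^ 2 - u * y ^ 2 with hc
  have hcres : residue A c = residue A a := by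
    rw [hc, map_sub, map_mul, map_pow, map_pow, hxy]
  have hcu : IsUnit c := by
    by_contra h
    have h1 : residue A c = 0 := (residue_eq_zero_iff c).2 ((mem_maximalIdeal c).2 h)
    rw [hcres] at h1
    exact (ha.map (residue A)).ne_zero h1
  obtain ⟨c', hc'⟩ := hcu.exists_right_inv
  have hc'u : IsUnit c' := IsUnit.of_mul_eq_one_right c hc'
  have hw : IsUnit (a * c') := ha.mul hc'u
  have h2nat : IsUnit ((2 : ℕ) : A) := by simpa using h2A
  obtain ⟨s, hs⟩ := (exists_pow_eq_iff_residue h2nat hw).2 ⟨1, by
    rw [one_pow, map_mul, ← hcres, ← map_mul, hc', map_one]⟩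
  -- `a = s ^ 2 * c`
  have hasc : a = s ^ 2 * c := by
    rw [hs, mul_assoc, mul_comm c' c, hc', mul_one]
  set sF : F := algebraMap A F s
  set xF : F := algebraMap A F x
  set yF : F := algebraMap A F y
  set z : E := algebraMap F E sF * (algebraMap F E xF + algebraMap F E yF * pb.gen) with hz
  have hfin : Module.finrank F E = 2 := by rw [pb.finrank, hdim]
  have hnorm : Algebra.norm F z = algebraMap A F a := by
    rw [hz, map_mul, Algebra.norm_algebraMap, hfin, norm_add_mul_gen pb hdim hgen, hasc, map_mul,
      map_pow, hc, map_sub, map_mul, map_pow, map_pow]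
  have haF : algebraMap A F a ≠ 0 := (ha.map (algebraMap A F)).ne_zero
  have hzu : IsUnit z := by
    set z' : E := algebraMap F E sF * (algebraMap F E xF - algebraMap F E yF * pb.gen)
    have hprod : z * z' = algebraMap F E (algebraMap A F a) := by
      have h1 : (algebraMap F E xF + algebraMap F E yF * pb.gen) *
          (algebraMap F E xF - algebraMap F E yF * pb.gen) =
          algebraMap F E (xF ^ 2 - algebraMap A F u * yF ^ 2) := by
        have : (algebraMap F E xF + algebraMap F E yF * pb.gen) *
            (algebraMap F E xF - algebraMap F E yF * pb.gen) =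
            algebraMap F E xF ^ 2 - algebraMap F E yF ^ 2 * pb.gen ^ 2 := by ring
        rw [this, hgen, map_sub, map_mul, map_pow, map_pow]
        ring
      calc z * z' = algebraMap F E sF ^ 2 * ((algebraMap F E xF + algebraMap F E yF * pb.gen) *
            (algebraMap F E xF - algebraMap F E yF * pb.gen)) := by
            rw [hz]; ring
        _ = algebraMap F E (algebraMap A F a) := by
            rw [h1, hasc, hc, ← map_pow, ← map_mul]
            congr 1
            simp only [map_mul, map_pow, map_sub, sF, xF, yF]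
    refine IsUnit.of_mul_eq_one (z' * algebraMap F E (algebraMap A F a)⁻¹) ?_
    rw [← mul_assoc, hprod, ← map_mul, mul_inv_cancel₀ haF, map_one]
  exact ⟨hzu.unit, by rw [IsUnit.unit_spec, hnorm]⟩

end UnitNorms

end Fermat.Agent.Lib.CFT.Global.KummerLocalTwo
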