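/-
helper17 (P-CFT, WP Global/KummerLocal, task 208, part 2: norms).

* `section General` : `dvd_of_mem_inertia`, `dvd_of_mem_stabilizer` : the unramified / split criteria
  of `KummerLocal.lean` for NON-domains `B` over an arbitrary base ring `A` (e.g. `A = ℚ_q ⊗ K`,
  `B = ℚ_q ⊗ M`, or `ℝ ⊗ -`): valid at EVERY place (also over `p` and at infinity).
* `section Split` : (A) a rank-`p` algebra `E = F[β]`, `β ^ p = c ^ p`, over a field `F ∋ ζ_p` is
  `≃ Fin p → F` (`splitEquivOfRoots`) and its norm is onto on units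
  (`exists_norm_eq_of_kummer_split`); `norm_pi_eq_prod`; `minpoly_gen_eq_of_pow_eq`.
* `section Tensor` : `tensorPowerBasis` (base change of a power basis to `F ⊗ M`).
* `section UnitsModPowers` : Henselian local ring with finite residue field, `p` prime invertible:
  if the unit `u` is not a `p`-th power then every unit is `u ^ i * x ^ p`.
* `section UnitNorms` : (D) `exists_norm_eq_of_isUnit` : `p` odd; `E = F[β]` of rank `p` with
  `β ^ p = u ∈ Aˣ`: every unit of `A` is a norm from `Eˣ` (whether `E` is a field or split).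
-/
import Mathlib
import Fermat.Agent.Lib.CFT.Global.KummerLocal

set_option autoImplicit false
set_option linter.unusedSectionVars false

open Polynomial IsLocalRing
open scoped Pointwise TensorProduct

namespace Fermat.Agent.Lib.CFT.Global.KummerLocal

section General

variable {A B : Type*} [CommRing A] [CommRing B] [Algebra A B]
  {G : Type*} [Group G] [MulSemiringAction G B] [SMulCommClass G A B]
  {p : ℕ} {ζ : A}

/-- **Unramified, general base** (`B` need not be a domain, `A` need not be a field; e.g.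
`A = ℚ_q ⊗ K`, `B = ℚ_q ⊗ M`).  `ζ ^ k - 1` a unit for `p ∤ k`; `β ^ p = b` with
`b ∉ Q`; if `σ` is in the inertia group of the prime `Q` and `σ β = ζ ^ k β`, then `p ∣ k`. -/
theorem dvd_of_mem_inertia (hp : 0 < p) (hζu : ∀ k : ℕ, ¬ p ∣ k → IsUnit (ζ ^ k - 1))
    {Q : Ideal B} [Q.IsPrime] {b : A} {β : B} (hβ : β ^ p = algebraMap A B b)
    (hb : algebraMap A B b ∉ Q) {σ : G} (hσ : σ ∈ Q.inertia G) {k : ℕ}
    (hσβ : σ • β = algebraMap A B (ζ ^ k) * β) : p ∣ k := by
  by_contra hk
  have hβQ : β ∉ Q := by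
    intro h
    apply hb
    rw [← hβ]
    exact Ideal.pow_mem_of_mem Q h p hp
  have h1 : σ • β - β ∈ Q := hσ β
  rw [hσβ] at h1
  have h2 : algebraMap A B (ζ ^ k - 1) * β ∈ Q := by
    have : algebraMap A B (ζ ^ k - 1) * β = algebraMap A B (ζ ^ k) * β - β := by
      rw [map_sub, map_one, sub_mul, one_mul]
    rwa [this]
  rcases Ideal.IsPrime.mem_or_mem ‹_› h2 with h3 | h3
  · exact (Ideal.IsPrime.ne_top ‹_›) (Ideal.eq_top_of_isUnit_mem _ h3 ((hζu k hk).map _))
  · exact hβQ h3

/-- **Split, general base** (`B` need not be a domain, e.g. `B = ℚ_q ⊗ M` or `ℝ ⊗ M`; works at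
EVERY place, also over `p` and at infinity).  `ζ ^ p = 1` with `ζ ^ k - 1` a unit for `p ∤ k`;
`β ^ p = b` with `b ≡ c ^ p (mod Q)`, `c ∉ Q`; if `σ` stabilises the prime `Q` and `σ β = ζ ^ k β`,
then `p ∣ k`. -/
theorem dvd_of_mem_stabilizer (hp : 0 < p) (hζp : ζ ^ p = 1)
    (hζu : ∀ k : ℕ, ¬ p ∣ k → IsUnit (ζ ^ k - 1))
    {Q : Ideal B} [Q.IsPrime] {b c : A} {β : B} (hβ : β ^ p = algebraMap A B b)
    (hc : algebraMap A B c ∉ Q) (hbc : algebraMap A B (b - c ^ p) ∈ Q)
    {σ : G} (hσ : σ • Q = Q) {k : ℕ} (hσβ : σ • β = algebraMap A B (ζ ^ k) * β) : p ∣ k := by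
  by_contra hk
  -- the domain `D = B ⧸ Q` and its primitive root
  let π := Ideal.Quotient.mk Q
  have hprim : IsPrimitiveRoot (π (algebraMap A B ζ)) p := by
    rw [IsPrimitiveRoot.iff_def]
    refine ⟨by rw [← map_pow, ← map_pow, hζp, map_one, map_one], fun l hl => ?_⟩
    by_contra hpl
    have hu : IsUnit (π (algebraMap A B (ζ ^ l - 1))) := ((hζu l hpl).map _).map _
    rw [map_sub, map_sub, map_one, map_one, map_pow, map_pow, hl, sub_self] at hu
    exact not_isUnit_zero hu
  have hpow : (π β) ^ p = (π (algebraMap A B c)) ^ p := by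
    rw [← map_pow, hβ, ← map_pow, ← map_pow, ← sub_eq_zero, ← map_sub, ← map_sub]
    exact Ideal.Quotient.eq_zero_iff_mem.2 hbc
  obtain ⟨j, -, hj⟩ := eq_pow_mul_of_pow_eq_pow hprim hp hpow
  have hmem : β - algebraMap A B (ζ ^ j * c) ∈ Q := by
    rw [← Ideal.Quotient.eq_zero_iff_mem, map_sub, sub_eq_zero, map_mul, map_pow, map_mul,
      map_pow]
    exact hj
  have h1 : σ • (β - algebraMap A B (ζ ^ j * c)) ∈ σ • Q := Ideal.smul_mem_pointwise_smul σ _ _ hmem
  rw [hσ, smul_sub, smul_algebraMap, hσβ] at h1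
  have h2 : algebraMap A B (ζ ^ k) * (β - algebraMap A B (ζ ^ j * c)) ∈ Q :=
    Ideal.mul_mem_left _ _ hmem
  have h3 : algebraMap A B ((ζ ^ k - 1) * ζ ^ j) * algebraMap A B c ∈ Q := by
    have := Q.sub_mem h2 h1
    have e : algebraMap A B (ζ ^ k) * (β - algebraMap A B (ζ ^ j * c)) -
        (algebraMap A B (ζ ^ k) * β - algebraMap A B (ζ ^ j * c)) =
        -(algebraMap A B ((ζ ^ k - 1) * ζ ^ j) * algebraMap A B c) := by
      simp only [map_mul, map_sub, map_one, map_pow]
      ring
    rw [e] at this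
    exact (Ideal.neg_mem_iff _).1 this
  rcases Ideal.IsPrime.mem_or_mem ‹_› h3 with h4 | h4
  · have hunit : IsUnit ((ζ ^ k - 1) * ζ ^ j) :=
      (hζu k hk).mul ((IsUnit.of_pow_eq_one hζp hp.ne').pow j)
    exact (Ideal.IsPrime.ne_top ‹_›) (Ideal.eq_top_of_isUnit_mem _ h4 (hunit.map _))
  · exact hc h4

end General

section Split

variable {F E : Type*} [Field F] [CommRing E] [Algebra F E]

/-- The norm of the product algebra `ι → F` is the product of the coordinates. -/
theorem norm_pi_eq_prod {ι : Type*} [Fintype ι] [DecidableEq ι] (x : ι → F) :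
    Algebra.norm F x = ∏ i, x i := by
  rw [Algebra.norm_eq_matrix_det (Pi.basisFun F ι)]
  have : Algebra.leftMulMatrix (Pi.basisFun F ι) x = Matrix.diagonal x := by
    ext i j
    rw [Algebra.leftMulMatrix_eq_repr_mul, Pi.basisFun_repr, Pi.basisFun_apply, Pi.mul_apply,
      Matrix.diagonal_apply]
    by_cases h : i = j
    · subst h; simp
    · simp [h]
  rw [this, Matrix.det_diagonal]

/-- A finite algebra with a power basis whose minimal polynomial has `dim` distinct roots in the
base field is split: it is isomorphic to a product of copies of the base field. -/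
noncomputable def splitEquivOfRoots (pb : PowerBasis F E) (r : Fin pb.dim → F)
    (hr : Function.Injective r) (hroot : ∀ j, aeval (r j) (minpoly F pb.gen) = 0) :
    E ≃ₐ[F] (Fin pb.dim → F) := by
  let Φ : E →ₐ[F] (Fin pb.dim → F) := AlgHom.pi (fun j => pb.lift (r j) (hroot j))
  have hinj : Function.Injective Φ := by
    rw [injective_iff_map_eq_zero]
    intro y hy
    by_cases hE : Nontrivial E
    · obtain ⟨f, hf, rfl⟩ := pb.exists_eq_aeval y
      have hf0 : f = 0 := by
        apply eq_zero_of_natDegree_lt_card_of_eval_eq_zero f hr _ (by simpa using hf)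
        intro j
        have h1 : Φ (aeval pb.gen f) j = aeval (r j) f := pb.lift_aeval (r j) (hroot j) f
        rw [hy, Polynomial.coe_aeval_eq_eval] at h1
        exact h1.symm
      rw [hf0, map_zero]
    · rw [not_nontrivial_iff_subsingleton] at hE
      exact Subsingleton.elim _ _
  have hfin : Module.finrank F E = Module.finrank F (Fin pb.dim → F) := by
    rw [pb.finrank, Module.finrank_fin_fun]
  have : Module.Finite F E := pb.finite
  exact AlgEquiv.ofBijective Φ
    ⟨hinj, (LinearMap.injective_iff_surjective_of_finrank_eq_finrank hfin (f := Φ.toLinearMap)).1 hinj⟩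

/-- In a split algebra the norm is onto (on units). -/
theorem exists_norm_eq_of_roots [Nontrivial E] (pb : PowerBasis F E) (r : Fin pb.dim → F)
    (hr : Function.Injective r) (hroot : ∀ j, aeval (r j) (minpoly F pb.gen) = 0) (x : Fˣ) :
    ∃ y : Eˣ, Algebra.norm F (y : E) = x := by
  classical
  let e := splitEquivOfRoots pb r hr hroot
  let j₀ : Fin pb.dim := ⟨0, pb.dim_pos⟩
  let z : (Fin pb.dim → F)ˣ := ⟨Function.update 1 j₀ (x : F), Function.update 1 j₀ ((x⁻¹ : Fˣ) : F),
    by
      ext j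
      by_cases h : j = j₀
      · subst h; simp
      · simp [Function.update_of_ne h],
    by
      ext j
      by_cases h : j = j₀
      · subst h; simp
      · simp [Function.update_of_ne h]⟩
  refine ⟨Units.map e.symm.toAlgHom.toRingHom.toMonoidHom z, ?_⟩
  have h1 : Algebra.norm F (e.symm (z : Fin pb.dim → F)) = Algebra.norm F (z : Fin pb.dim → F) :=
    Algebra.norm_eq_of_algEquiv e.symm _
  have h2 : ((Units.map e.symm.toAlgHom.toRingHom.toMonoidHom z : Eˣ) : E) =
      e.symm (z : Fin pb.dim → F) := rfl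
  rw [h2, h1, norm_pi_eq_prod]
  show ∏ i, Function.update (1 : Fin pb.dim → F) j₀ (x : F) i = x
  rw [Finset.prod_update_of_mem (Finset.mem_univ j₀)]
  simp

/-- The minimal polynomial of the generator of a Kummer power basis. -/
theorem minpoly_gen_eq_of_pow_eq [Nontrivial E] (pb : PowerBasis F E) {p : ℕ} (hp : 0 < p) {b : F}
    (hdim : pb.dim = p) (hgen : pb.gen ^ p = algebraMap F E b) :
    minpoly F pb.gen = X ^ p - C b := by
  have hint : IsIntegral F pb.gen := pb.isIntegral_gen
  have hdvd : minpoly F pb.gen ∣ X ^ p - C b := by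
    apply minpoly.dvd
    simp [hgen]
  symm
  apply Polynomial.eq_of_monic_of_dvd_of_natDegree_le (minpoly.monic hint)
    (monic_X_pow_sub_C b hp.ne') hdvd
  rw [natDegree_X_pow_sub_C, pb.natDegree_minpoly, hdim]

/-- **(A) Split Kummer algebra: the norm is onto.**  `E = F[β]` of rank `p` with `β ^ p = c ^ p`,
`c ∈ Fˣ`, `ζ_p ∈ F`: every unit of `F` is the norm of a unit of `E`. -/
theorem exists_norm_eq_of_kummer_split [Nontrivial E] (pb : PowerBasis F E) {p : ℕ} (hp : 0 < p)
    {ζ : F} (hζ : IsPrimitiveRoot ζ p) {c : F} (hc : c ≠ 0) (hdim : pb.dim = p)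
    (hgen : pb.gen ^ p = algebraMap F E (c ^ p)) (x : Fˣ) :
    ∃ y : Eˣ, Algebra.norm F (y : E) = x := by
  apply exists_norm_eq_of_roots pb (fun j => ζ ^ (j : ℕ) * c)
  · intro i j hij
    have h1 : ζ ^ (i : ℕ) = ζ ^ (j : ℕ) := mul_right_cancel₀ hc hij
    exact Fin.ext (hζ.pow_inj (hdim ▸ i.2) (hdim ▸ j.2) h1)
  · intro j
    rw [minpoly_gen_eq_of_pow_eq pb hp hdim hgen]
    simp only [map_sub, map_pow, aeval_X, aeval_C, Algebra.algebraMap_self, RingHom.id_apply]
    rw [mul_pow, ← pow_mul, mul_comm (j : ℕ) p, pow_mul, hζ.pow_eq_one, one_pow, one_mul, sub_self]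

end Split

section Tensor

variable {F₀ M : Type*} [Field F₀] [CommRing M] [Algebra F₀ M] (F : Type*) [Field F] [Algebra F₀ F]

/-- Base change of a power basis. -/
noncomputable def tensorPowerBasis (pb : PowerBasis F₀ M) : PowerBasis F (F ⊗[F₀] M) where
  gen := 1 ⊗ₜ pb.gen
  dim := pb.dim
  basis := Algebra.TensorProduct.basis F pb.basis
  basis_eq_pow i := by
    rw [Algebra.TensorProduct.basis_apply, pb.basis_eq_pow, Algebra.TensorProduct.tmul_pow, one_pow]

end Tensor

section UnitsModPowers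

/-- In a finite cyclic group (e.g. `kˣ`), modulo `p`-th powers every element is a power of any
element that is not a `p`-th power (`p` prime). -/
theorem exists_eq_pow_mul_pow_of_isCyclic {G : Type*} [CommGroup G] [IsCyclic G] {p : ℕ}
    (hp : p.Prime) {u : G} (hu : ¬ ∃ x : G, x ^ p = u) (a : G) :
    ∃ i : ℕ, i < p ∧ ∃ x : G, a = u ^ i * x ^ p := by
  obtain ⟨g, hg⟩ := IsCyclic.exists_generator (α := G)
  obtain ⟨s, rfl⟩ := Subgroup.mem_zpowers_iff.1 (hg u)
  obtain ⟨t, rfl⟩ := Subgroup.mem_zpowers_iff.1 (hg a)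
  have hps : ¬ (p : ℤ) ∣ s := by
    rintro ⟨s', rfl⟩
    exact hu ⟨g ^ s', by rw [← zpow_natCast, ← zpow_mul, mul_comm]⟩
  -- solve `i * s ≡ t (mod p)`
  have hcop : IsCoprime s (p : ℤ) :=
    ((Nat.prime_iff_prime_int.1 hp).coprime_iff_not_dvd.2 hps).symm
  obtain ⟨m, n, hmn⟩ := hcop
  -- `m * s + n * p = 1`, so `t = (t * m) * s + (t * n) * p`
  set i0 : ℤ := (t * m) % p with hi0
  have hp0 : (p : ℤ) ≠ 0 := by exact_mod_cast hp.ne_zero
  have hi0_nonneg : 0 ≤ i0 := Int.emod_nonneg _ hp0
  have hi0_lt : i0 < p := Int.emod_lt_of_pos _ (by exact_mod_cast hp.pos)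
  obtain ⟨q, hq⟩ : ∃ q : ℤ, t * m = i0 + p * q := ⟨(t * m) / p, by
    rw [hi0]; exact (Int.emod_add_mul_ediv (t * m) p).symm⟩
  refine ⟨i0.toNat, by omega, g ^ (q * s + t * n), ?_⟩
  have h1 : ((i0.toNat : ℕ) : ℤ) = i0 := Int.toNat_of_nonneg hi0_nonneg
  rw [← zpow_natCast (g ^ s), ← zpow_natCast (g ^ (q * s + t * n)), h1, ← zpow_mul, ← zpow_mul,
    ← zpow_add]
  congr 1
  have : t = t * (m * s + n * p) := by rw [hmn, mul_one]
  calc t = t * (m * s + n * p) := this
    _ = (t * m) * s + t * n * p := by ring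
    _ = (i0 + p * q) * s + t * n * p := by rw [hq]
    _ = s * i0 + (q * s + t * n) * p := by ring

variable {R : Type*} [CommRing R] [HenselianLocalRing R] [Finite (ResidueField R)]

/-- **Units modulo `p`-th powers** (Henselian local ring with finite residue field, `p` prime and
invertible): if the unit `u` is not a `p`-th power, every unit is `u ^ i * x ^ p`. -/
theorem exists_eq_pow_mul_pow {p : ℕ} (hp : p.Prime) (hpR : IsUnit (p : R)) {u : R}
    (hu : IsUnit u) (hnot : ¬ ∃ x : R, x ^ p = u) {a : R} (ha : IsUnit a) :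
    ∃ i : ℕ, i < p ∧ ∃ x : R, a = u ^ i * x ^ p := by
  have hnot' : ¬ ∃ z : ResidueField R, z ^ p = residue R u := fun h =>
    hnot ((exists_pow_eq_iff_residue hpR hu).2 h)
  -- work in the cyclic group `kˣ`
  let ub : (ResidueField R)ˣ := (hu.map (residue R)).unit
  let ab : (ResidueField R)ˣ := (ha.map (residue R)).unit
  have hub : ¬ ∃ x : (ResidueField R)ˣ, x ^ p = ub := by
    rintro ⟨x, hx⟩
    apply hnot'
    refine ⟨(x : ResidueField R), ?_⟩
    have := congrArg Units.val hx
    simpa [ub] using this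
  obtain ⟨i, hi, x, hx⟩ := exists_eq_pow_mul_pow_of_isCyclic hp hub ab
  refine ⟨i, hi, ?_⟩
  -- `a / u ^ i` has residue a `p`-th power
  obtain ⟨w, hw⟩ := (hu.pow i).exists_left_inv
  have haw : IsUnit (w * a) := by
    have hwu : IsUnit w := IsUnit.of_mul_eq_one _ hw
    exact hwu.mul ha
  have hres : ∃ z : ResidueField R, z ^ p = residue R (w * a) := by
    refine ⟨(x : ResidueField R), ?_⟩
    have h1 := congrArg Units.val hx
    simp only [Units.val_mul, Units.val_pow_eq_pow_val, ab, ub, IsUnit.unit_spec] at h1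
    have h2 : residue R w * residue R u ^ i = 1 := by
      rw [← map_pow, ← map_mul, hw, map_one]
    rw [map_mul, h1, ← mul_assoc, h2, one_mul]
  obtain ⟨y, hy⟩ := (exists_pow_eq_iff_residue hpR haw).2 hres
  refine ⟨y, ?_⟩
  rw [hy, ← mul_assoc, mul_comm (u ^ i) w, hw, one_mul]

end UnitsModPowers

section UnitNorms

variable {A F E : Type*} [CommRing A] [HenselianLocalRing A] [Finite (ResidueField A)]
  [Field F] [Algebra A F] [CommRing E] [Algebra F E] [Nontrivial E]

/-- The norm of the generator of a Kummer power basis, `p` odd. -/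
theorem norm_gen_of_pow_eq (pb : PowerBasis F E) {p : ℕ} (hp : 0 < p) (hodd : Odd p) {b : F}
    (hdim : pb.dim = p) (hgen : pb.gen ^ p = algebraMap F E b) :
    Algebra.norm F pb.gen = b := by
  rw [Algebra.PowerBasis.norm_gen_eq_coeff_zero_minpoly pb, minpoly_gen_eq_of_pow_eq pb hp hdim hgen, hdim,
    hodd.neg_one_pow]
  simp [coeff_X_pow, hp.ne]

/-- **(D) Units are norms at unramified Kummer places** (`p` odd, `v ∤ p`, `ord_v b = 0`), in
algebra form: `A` Henselian local with finite residue field and `p ∈ Aˣ`, `F ⊇ A` a field with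
`ζ_p ∈ F`, `E = F[β]` of rank `p` with `β ^ p = u ∈ Aˣ`.  Then every unit of `A` is the norm of a
unit of `E` (no matter whether `E` is a field or split). -/
theorem exists_norm_eq_of_isUnit (pb : PowerBasis F E) {p : ℕ} (hp : p.Prime) (hp2 : p ≠ 2)
    (hpA : IsUnit (p : A)) {ζ : F} (hζ : IsPrimitiveRoot ζ p) {u : A} (hu : IsUnit u)
    (hdim : pb.dim = p) (hgen : pb.gen ^ p = algebraMap F E (algebraMap A F u)) {a : A}
    (ha : IsUnit a) : ∃ y : Eˣ, Algebra.norm F (y : E) = algebraMap A F a := by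
  have hodd : Odd p := hp.odd_of_ne_two hp2
  by_cases h : ∃ c : F, c ^ p = algebraMap A F u
  · obtain ⟨c, hc⟩ := h
    have hc0 : c ≠ 0 := by
      rintro rfl
      rw [zero_pow hp.ne_zero] at hc
      exact (hu.map (algebraMap A F)).ne_zero hc.symm
    rw [← hc] at hgen
    obtain ⟨y, hy⟩ := exists_norm_eq_of_kummer_split pb hp.pos hζ hc0 hdim hgen
      (ha.map (algebraMap A F)).unit
    exact ⟨y, by rw [hy, IsUnit.unit_spec]⟩
  · have hnot : ¬ ∃ x : A, x ^ p = u := by
      rintro ⟨x, rfl⟩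
      exact h ⟨algebraMap A F x, (map_pow _ _ _).symm⟩
    obtain ⟨i, -, x, hx⟩ := exists_eq_pow_mul_pow hp hpA hu hnot ha
    have hxu : IsUnit x := by
      have h1 : IsUnit (x ^ p) := by
        have : IsUnit (u ^ i * x ^ p) := hx ▸ ha
        exact isUnit_of_mul_isUnit_right this
      exact (isUnit_pow_iff hp.ne_zero).1 h1
    have hgu : IsUnit pb.gen := by
      have h1 : IsUnit (pb.gen ^ p) := by
        rw [hgen]; exact (hu.map (algebraMap A F)).map (algebraMap F E)
      exact (isUnit_pow_iff hp.ne_zero).1 h1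
    have hyu : IsUnit (pb.gen ^ i * algebraMap F E (algebraMap A F x)) :=
      (hgu.pow i).mul ((hxu.map (algebraMap A F)).map (algebraMap F E))
    refine ⟨hyu.unit, ?_⟩
    rw [IsUnit.unit_spec, map_mul, map_pow, norm_gen_of_pow_eq pb hp.pos hodd hdim hgen,
      Algebra.norm_algebraMap, pb.finrank, hdim, hx, map_mul, map_pow, map_pow]

end UnitNorms

end Fermat.Agent.Lib.CFT.Global.KummerLocal
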