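/-
P-CFT work package Global/KummerLocal (task 208), part 3: semi-local Kummer algebras.

Places-independent half of the instance of `SecondIneq.KummerModel`:

* `norm_baseChange`, `baseChangePowerBasis`: the norm and power bases commute with base change
  along an arbitrary map of commutative rings `R → R'`;
* `exists_norm_eq_of_forall_component(_int)`: for `R ≃ ∏ k i` and `E` finite free over `R`, a unit
  of `R` all of whose components are norms from `k i ⊗[R] E` is a norm from `E` (with control of
  integrality of the coordinates);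
* `exists_norm_eq_of_kummer_split_int`, `exists_norm_eq_of_isUnit_int`: integral refinements of the
  local statements of `KummerLocalNorm.lean` (the coordinates of the preimage and of its inverse
  in the power basis `1, β, …` lie in the image of the local ring `A`);
* `exists_norm_eq_baseChange_split`, `exists_norm_eq_baseChange_of_isUnit`: the same for the
  base change `K ⊗[R] E` of a Kummer algebra `E = R[β]`, `β ^ p = b`;
* `exists_norm_eq_of_semilocal_unramified`: the semi-local statement: if `b` and `x` are units at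
  all components, `x` is the norm of a unit of `E` with integral coordinates.
-/
import Mathlib
import Fermat.Agent.Lib.CFT.Global.KummerLocalNorm

set_option autoImplicit false

open scoped TensorProduct
open Polynomial IsLocalRing

namespace Fermat.Agent.Lib.CFT.Global.KummerLocal

section BaseChange

variable {R : Type*} [CommRing R] (R' : Type*) [CommRing R'] [Algebra R R']
  {E : Type*} [CommRing E] [Algebra R E]

/-- The norm commutes with base change. -/
theorem norm_baseChange [Module.Free R E] [Module.Finite R E] (x : E) :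
    Algebra.norm R' ((1 : R') ⊗ₜ[R] x) = algebraMap R R' (Algebra.norm R x) := by
  rw [Algebra.norm_apply, Algebra.norm_apply, ← LinearMap.det_baseChange]
  congr 1
  apply TensorProduct.AlgebraTensorModule.curry_injective
  ext y
  simp [Algebra.TensorProduct.tmul_mul_tmul]

/-- Base change of a power basis along an arbitrary map of commutative rings. -/
noncomputable def baseChangePowerBasis (pb : PowerBasis R E) : PowerBasis R' (R' ⊗[R] E) where
  gen := 1 ⊗ₜ pb.gen
  dim := pb.dim
  basis := Algebra.TensorProduct.basis R' pb.basis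
  basis_eq_pow i := by
    rw [Algebra.TensorProduct.basis_apply, pb.basis_eq_pow, Algebra.TensorProduct.tmul_pow, one_pow]

@[simp] theorem baseChangePowerBasis_gen (pb : PowerBasis R E) :
    (baseChangePowerBasis R' pb).gen = 1 ⊗ₜ pb.gen := rfl

@[simp] theorem baseChangePowerBasis_dim (pb : PowerBasis R E) :
    (baseChangePowerBasis R' pb).dim = pb.dim := rfl

theorem baseChangePowerBasis_gen_pow (pb : PowerBasis R E) {p : ℕ} {b : R}
    (hgen : pb.gen ^ p = algebraMap R E b) :
    (baseChangePowerBasis R' pb).gen ^ p = algebraMap R' (R' ⊗[R] E) (algebraMap R R' b) := by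
  rw [baseChangePowerBasis_gen, Algebra.TensorProduct.tmul_pow, one_pow, hgen,
    Algebra.TensorProduct.algebraMap_apply, Algebra.algebraMap_eq_smul_one,
    TensorProduct.tmul_smul, TensorProduct.smul_tmul', Algebra.algebraMap_self, RingHom.id_apply,
    Algebra.smul_def, mul_one]

end BaseChange

section Glue

variable {R : Type*} [CommRing R] {E : Type*} [CommRing E] [Algebra R E]
  {ι : Type*} {k : ι → Type*} [∀ i, CommRing (k i)] [∀ i, Algebra R (k i)]
  {κ : Type*}

/-- Coordinates of `1 ⊗ x` in the base-changed basis. -/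
theorem basis_repr_one_tmul (bs : Module.Basis κ R E) (i : ι) (x : E) (l : κ) :
    (Algebra.TensorProduct.basis (k i) bs).repr ((1 : k i) ⊗ₜ[R] x) l =
      algebraMap R (k i) (bs.repr x l) := by
  rw [Algebra.TensorProduct.basis_repr_tmul]
  simp

variable (e : R ≃+* ∀ i, k i) (he : ∀ r i, e r i = algebraMap R (k i) r)

include he in
/-- Every element of `k i ⊗[R] E` is of the form `1 ⊗ x` when `R → k i` is surjective. -/
theorem exists_one_tmul_eq [DecidableEq ι] (i : ι) (z : k i ⊗[R] E) : ∃ x : E, (1 : k i) ⊗ₜ[R] x = z := by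
  induction z using TensorProduct.induction_on with
  | zero => exact ⟨0, by simp⟩
  | tmul a x =>
    obtain ⟨r, rfl⟩ : ∃ r : R, algebraMap R (k i) r = a := by
      refine ⟨e.symm (Pi.single i a), ?_⟩
      rw [← he, RingEquiv.apply_symm_apply, Pi.single_eq_same]
    refine ⟨r • x, ?_⟩
    rw [TensorProduct.tmul_smul, TensorProduct.smul_tmul', Algebra.algebraMap_eq_smul_one]
  | add z w hz hw =>
    obtain ⟨x, rfl⟩ := hz
    obtain ⟨y, rfl⟩ := hw
    exact ⟨x + y, TensorProduct.tmul_add _ _ _⟩

include he in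
/-- Gluing elements of `E` along the product decomposition of `R`: coordinates. -/
theorem exists_glue [Fintype κ] (bs : Module.Basis κ R E) (x : ι → E) :
    ∃ y : E, ∀ i l, algebraMap R (k i) (bs.repr y l) = algebraMap R (k i) (bs.repr (x i) l) := by
  refine ⟨∑ l, e.symm (fun i => algebraMap R (k i) (bs.repr (x i) l)) • bs l, ?_⟩
  intro i l
  rw [Module.Basis.repr_sum_self, ← he, RingEquiv.apply_symm_apply]

include he in
/-- Joint injectivity of the coordinates. -/
theorem eq_of_forall_algebraMap_eq {r s : R} (h : ∀ i, algebraMap R (k i) r = algebraMap R (k i) s) :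
    r = s := by
  apply e.injective
  funext i
  rw [he, he, h]

include he in
theorem eq_of_forall_one_tmul_eq (bs : Module.Basis κ R E) {x y : E}
    (h : ∀ i, (1 : k i) ⊗ₜ[R] x = (1 : k i) ⊗ₜ[R] y) : x = y := by
  apply bs.repr.injective
  ext l
  apply eq_of_forall_algebraMap_eq e he
  intro i
  rw [← basis_repr_one_tmul bs i x l, ← basis_repr_one_tmul bs i y l, h i]

include he in
/-- **Gluing norms, with integrality.** `R ≃ ∏ k i`, `E` finite free over `R` with basis `bs`;
`R₀ ⊆ R` a subring containing every element all of whose components lie in the subrings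
`O i ⊆ k i`.  If every component of the unit `u` is the norm of a unit of `k i ⊗[R] E` whose
coordinates and those of its inverse lie in `O i`, then `u` is the norm of a unit of `E` whose
coordinates and those of its inverse lie in `R₀`. -/
theorem exists_norm_eq_of_forall_component_int [DecidableEq ι] [Fintype κ] (bs : Module.Basis κ R E)
    (R₀ : Subring R) (O : ∀ i, Subring (k i))
    (hR₀ : ∀ r : R, (∀ i, algebraMap R (k i) r ∈ O i) → r ∈ R₀) (u : Rˣ)
    (h : ∀ i, ∃ y : (k i ⊗[R] E)ˣ,
      Algebra.norm (k i) (y : k i ⊗[R] E) = algebraMap R (k i) u ∧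
      (∀ l, (Algebra.TensorProduct.basis (k i) bs).repr (y : k i ⊗[R] E) l ∈ O i) ∧
      (∀ l, (Algebra.TensorProduct.basis (k i) bs).repr ((y⁻¹ : (k i ⊗[R] E)ˣ) : k i ⊗[R] E) l
        ∈ O i)) :
    ∃ y : Eˣ, Algebra.norm R (y : E) = u ∧ (∀ l, bs.repr (y : E) l ∈ R₀) ∧
      (∀ l, bs.repr ((y⁻¹ : Eˣ) : E) l ∈ R₀) := by
  have : Module.Free R E := Module.Free.of_basis bs
  have : Module.Finite R E := Module.Finite.of_basis bs
  choose y hyN hyO hyO' using h
  -- lifts of the components
  choose x hx using fun i => exists_one_tmul_eq e he i (y i : k i ⊗[R] E)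
  choose x' hx' using fun i => exists_one_tmul_eq e he i (((y i)⁻¹ : (k i ⊗[R] E)ˣ) : k i ⊗[R] E)
  obtain ⟨z, hz⟩ := exists_glue e he bs x
  obtain ⟨z', hz'⟩ := exists_glue e he bs x'
  have hzi : ∀ i, (1 : k i) ⊗ₜ[R] z = (y i : k i ⊗[R] E) := by
    intro i
    rw [← hx i]
    apply (Algebra.TensorProduct.basis (k i) bs).repr.injective
    ext l
    rw [basis_repr_one_tmul, basis_repr_one_tmul, hz]
  have hzi' : ∀ i, (1 : k i) ⊗ₜ[R] z' = ((y i)⁻¹ : (k i ⊗[R] E)ˣ) := by
    intro i
    rw [← hx' i]
    apply (Algebra.TensorProduct.basis (k i) bs).repr.injective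
    ext l
    rw [basis_repr_one_tmul, basis_repr_one_tmul, hz']
  have hmul : z * z' = 1 := by
    apply eq_of_forall_one_tmul_eq e he bs
    intro i
    have : (1 : k i) ⊗ₜ[R] (z * z') = ((1 : k i) ⊗ₜ[R] z) * ((1 : k i) ⊗ₜ[R] z') := by
      rw [Algebra.TensorProduct.tmul_mul_tmul, mul_one]
    rw [this, hzi, hzi', ← Units.val_mul, mul_inv_cancel, Units.val_one]
    rfl
  refine ⟨⟨z, z', hmul, by rw [mul_comm]; exact hmul⟩, ?_, ?_, ?_⟩
  · apply eq_of_forall_algebraMap_eq e he
    intro i
    rw [← norm_baseChange, Units.val_mk, hzi, hyN]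
  · intro l
    apply hR₀
    intro i
    rw [Units.val_mk, ← basis_repr_one_tmul bs i z l, hzi]
    exact hyO i l
  · intro l
    apply hR₀
    intro i
    rw [Units.inv_mk, Units.val_mk, ← basis_repr_one_tmul bs i z' l, hzi']
    exact hyO' i l

include he in
/-- **Gluing norms.** `R ≃ ∏ k i`, `E` finite free over `R`: a unit of `R` all of whose components
are norms of units of the `k i ⊗[R] E` is the norm of a unit of `E`. -/
theorem exists_norm_eq_of_forall_component [DecidableEq ι] [Fintype κ] (bs : Module.Basis κ R E) (u : Rˣ)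
    (h : ∀ i, ∃ y : (k i ⊗[R] E)ˣ,
      Algebra.norm (k i) (y : k i ⊗[R] E) = algebraMap R (k i) u) :
    ∃ y : Eˣ, Algebra.norm R (y : E) = u := by
  obtain ⟨y, hy, -, -⟩ := exists_norm_eq_of_forall_component_int e he bs ⊤ (fun _ => ⊤)
    (fun _ _ => Subring.mem_top _) u (fun i => by
      obtain ⟨y, hy⟩ := h i
      exact ⟨y, hy, fun _ => Subring.mem_top _, fun _ => Subring.mem_top _⟩)
  exact ⟨y, hy⟩

end Glue

section SplitInt

variable {F E : Type*} [Field F] [CommRing E] [Algebra F E]

theorem splitEquivOfRoots_apply (pb : PowerBasis F E) (r : Fin pb.dim → F)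
    (hr : Function.Injective r) (hroot : ∀ j, aeval (r j) (minpoly F pb.gen) = 0) (y : E)
    (j : Fin pb.dim) :
    splitEquivOfRoots pb r hr hroot y j = pb.lift (r j) (hroot j) y := rfl

theorem splitEquivOfRoots_sum (pb : PowerBasis F E) (r : Fin pb.dim → F)
    (hr : Function.Injective r) (hroot : ∀ j, aeval (r j) (minpoly F pb.gen) = 0)
    (v : Fin pb.dim → F) (j : Fin pb.dim) :
    splitEquivOfRoots pb r hr hroot (∑ l, v l • pb.basis l) j = ∑ l, v l * r j ^ (l : ℕ) := by
  rw [splitEquivOfRoots_apply, map_sum]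
  refine Finset.sum_congr rfl fun l _ => ?_
  rw [map_smul, pb.basis_eq_pow, map_pow, pb.lift_gen, smul_eq_mul]

/-- The sum `∑_{l<p} (ζ^j)^l` for a primitive `p`-th root of unity (`p` prime). -/
theorem sum_pow_pow_of_isPrimitiveRoot {p : ℕ} (hp : p.Prime) {ζ : F} (hζ : IsPrimitiveRoot ζ p)
    {j : ℕ} (hj : j < p) :
    ∑ l ∈ Finset.range p, (ζ ^ j) ^ l = if j = 0 then (p : F) else 0 := by
  split_ifs with h
  · subst h; simp
  · have hcop : j.Coprime p :=
      ((Nat.Prime.coprime_iff_not_dvd hp).2 (Nat.not_dvd_of_pos_of_lt (Nat.pos_of_ne_zero h) hj)).symm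
    exact (hζ.pow_of_coprime j hcop).geom_sum_eq_zero hp.one_lt

variable {A : Type*} [CommRing A] [Algebra A F] [Nontrivial E]

/-- **Split Kummer algebra, integral form.**  `A → F` a ring map to a field containing `ζ_p`, `p`
and `c` units of `A`, `E = F[β]` of rank `p` with `β ^ p = c ^ p`.  Every unit `a` of `A` is the
norm of a unit `y` of `E` such that the coordinates of `y` and of `y⁻¹` in the power basis lie in
the image of `A`. -/
theorem exists_norm_eq_of_kummer_split_int (pb : PowerBasis F E) {p : ℕ} (hp : p.Prime)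
    (hpA : IsUnit (p : A)) {ζ : F} (hζ : IsPrimitiveRoot ζ p) {c : A} (hc : IsUnit c)
    (hdim : pb.dim = p) (hgen : pb.gen ^ p = algebraMap F E (algebraMap A F (c ^ p))) {a : A}
    (ha : IsUnit a) :
    ∃ y : Eˣ, Algebra.norm F (y : E) = algebraMap A F a ∧
      (∀ l, pb.basis.repr (y : E) l ∈ (algebraMap A F).range) ∧
      (∀ l, pb.basis.repr ((y⁻¹ : Eˣ) : E) l ∈ (algebraMap A F).range) := by
  classical
  obtain ⟨pinv, hpinv⟩ := hpA.exists_right_inv
  obtain ⟨cinv, hcinv⟩ := hc.exists_right_inv
  obtain ⟨a', ha'⟩ := ha.exists_right_inv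
  set φ := algebraMap A F with hφ
  have hc0 : φ c ≠ 0 := (hc.map φ).ne_zero
  have hgen' : pb.gen ^ p = algebraMap F E (φ c ^ p) := by rw [hgen, map_pow]
  -- the splitting
  have hinj : Function.Injective (fun j : Fin pb.dim => ζ ^ (j : ℕ) * φ c) := by
    intro i j hij
    have h1 : ζ ^ (i : ℕ) = ζ ^ (j : ℕ) := mul_right_cancel₀ hc0 hij
    exact Fin.ext (hζ.pow_inj (hdim ▸ i.2) (hdim ▸ j.2) h1)
  have hroot : ∀ j : Fin pb.dim, aeval (ζ ^ (j : ℕ) * φ c) (minpoly F pb.gen) = 0 := by
    intro j
    rw [minpoly_gen_eq_of_pow_eq pb hp.pos hdim hgen']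
    simp only [map_sub, map_pow, aeval_X, aeval_C, Algebra.algebraMap_self, RingHom.id_apply]
    rw [mul_pow, ← pow_mul, mul_comm (j : ℕ) p, pow_mul, hζ.pow_eq_one, one_pow, one_mul, sub_self]
  let Φ := splitEquivOfRoots pb (fun j => ζ ^ (j : ℕ) * φ c) hinj hroot
  let j₀ : Fin pb.dim := ⟨0, pb.dim_pos⟩
  -- the candidate elements
  let vec : A → Fin pb.dim → A := fun t l =>
    (if (l : ℕ) = 0 then 1 else 0) + (t - 1) * pinv * cinv ^ (l : ℕ)
  let elt : A → E := fun t => ∑ l, φ (vec t l) • pb.basis l
  have key : ∀ t : A, Φ (elt t) = Function.update (1 : Fin pb.dim → F) j₀ (φ t) := by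
    intro t
    funext j
    rw [splitEquivOfRoots_sum]
    have h1 : ∀ l : Fin pb.dim, φ (vec t l) * (ζ ^ (j : ℕ) * φ c) ^ (l : ℕ) =
        (if (l : ℕ) = 0 then 1 else 0) + φ (t - 1) * φ pinv * (ζ ^ (j : ℕ)) ^ (l : ℕ) := by
      intro l
      have h2 : φ cinv ^ (l : ℕ) * φ c ^ (l : ℕ) = 1 := by
        rw [← mul_pow, ← map_mul, mul_comm, hcinv, map_one, one_pow]
      simp only [vec, map_add, map_mul, map_pow, mul_pow]
      split_ifs with h0
      · simp [h0]
      · rw [map_zero, zero_add, zero_add]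
        calc φ (t - 1) * φ pinv * φ cinv ^ (l : ℕ) * ((ζ ^ (j : ℕ)) ^ (l : ℕ) * φ c ^ (l : ℕ))
            = φ (t - 1) * φ pinv * (ζ ^ (j : ℕ)) ^ (l : ℕ) * (φ cinv ^ (l : ℕ) * φ c ^ (l : ℕ)) := by
              ring
          _ = _ := by rw [h2, mul_one]
    rw [Finset.sum_congr rfl (fun l _ => h1 l), Finset.sum_add_distrib, ← Finset.mul_sum]
    have h3 : ∑ l : Fin pb.dim, (if (l : ℕ) = 0 then (1 : F) else 0) = 1 := by
      rw [Finset.sum_eq_single j₀]
      · simp [j₀]
      · intro l _ hl
        rw [if_neg]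
        intro h
        exact hl (Fin.ext h)
      · intro h; exact absurd (Finset.mem_univ _) h
    have h4 : ∑ l : Fin pb.dim, (ζ ^ (j : ℕ)) ^ (l : ℕ) =
        if (j : ℕ) = 0 then (p : F) else 0 := by
      rw [Fin.sum_univ_eq_sum_range (fun l => (ζ ^ (j : ℕ)) ^ l) pb.dim,
        Finset.sum_congr (congrArg Finset.range hdim) (fun _ _ => rfl)]
      exact sum_pow_pow_of_isPrimitiveRoot hp hζ (hdim ▸ j.2)
    rw [h3, h4]
    by_cases hj : j = j₀
    · subst hj
      have hpp : φ pinv * (p : F) = 1 := by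
        have : (p : F) = φ (p : A) := by simp [φ]
        rw [this, ← map_mul, mul_comm, hpinv, map_one]
      rw [Function.update_self, if_pos rfl, mul_assoc, hpp, mul_one, map_sub, map_one]
      ring
    · have hj' : (j : ℕ) ≠ 0 := fun h => hj (Fin.ext h)
      rw [Function.update_of_ne hj, if_neg hj', mul_zero, add_zero, Pi.one_apply]
  have hmul : elt a * elt a' = 1 := by
    apply Φ.injective
    rw [map_mul, key, key, map_one]
    funext j
    by_cases hj : j = j₀
    · subst hj
      rw [Pi.mul_apply, Function.update_self, Function.update_self, ← map_mul, ha', map_one,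
        Pi.one_apply]
    · rw [Pi.mul_apply, Function.update_of_ne hj, Function.update_of_ne hj, Pi.one_apply, mul_one]
  refine ⟨⟨elt a, elt a', hmul, by rw [mul_comm]; exact hmul⟩, ?_, ?_, ?_⟩
  · rw [Units.val_mk, ← Algebra.norm_eq_of_algEquiv Φ, key, norm_pi_eq_prod,
      Finset.prod_update_of_mem (Finset.mem_univ j₀)]
    simp
  · intro l
    rw [Units.val_mk, Module.Basis.repr_sum_self]
    exact ⟨_, rfl⟩
  · intro l
    rw [Units.inv_mk, Units.val_mk, Module.Basis.repr_sum_self]
    exact ⟨_, rfl⟩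

end SplitInt

section UnitNormsInt

variable {A F E : Type*} [CommRing A] [HenselianLocalRing A] [Finite (ResidueField A)]
  [Field F] [Algebra A F] [CommRing E] [Algebra F E] [Nontrivial E]

/-- **(D) Units are norms at unramified Kummer places, integral form** (`p` odd).  As
`exists_norm_eq_of_isUnit`, and moreover the coordinates of `y` and `y⁻¹` in the power basis
`1, β, …, β ^ (p - 1)` lie in the image of `A`. -/
theorem exists_norm_eq_of_isUnit_int (pb : PowerBasis F E) {p : ℕ} (hp : p.Prime) (hp2 : p ≠ 2)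
    (hpA : IsUnit (p : A)) {ζ : F} (hζ : IsPrimitiveRoot ζ p) {u : A} (hu : IsUnit u)
    (hdim : pb.dim = p) (hgen : pb.gen ^ p = algebraMap F E (algebraMap A F u)) {a : A}
    (ha : IsUnit a) :
    ∃ y : Eˣ, Algebra.norm F (y : E) = algebraMap A F a ∧
      (∀ l, pb.basis.repr (y : E) l ∈ (algebraMap A F).range) ∧
      (∀ l, pb.basis.repr ((y⁻¹ : Eˣ) : E) l ∈ (algebraMap A F).range) := by
  classical
  have hodd : Odd p := hp.odd_of_ne_two hp2
  by_cases h : ∃ c : A, c ^ p = u
  · obtain ⟨c, rfl⟩ := h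
    have hc : IsUnit c := (isUnit_pow_iff hp.ne_zero).1 hu
    exact exists_norm_eq_of_kummer_split_int pb hp hpA hζ hc hdim hgen ha
  · obtain ⟨i, hi, x, hx⟩ := exists_eq_pow_mul_pow hp hpA hu h ha
    have hxu : IsUnit x := by
      have h1 : IsUnit (x ^ p) := by
        have : IsUnit (u ^ i * x ^ p) := hx ▸ ha
        exact isUnit_of_mul_isUnit_right this
      exact (isUnit_pow_iff hp.ne_zero).1 h1
    obtain ⟨x', hx'⟩ := hxu.exists_right_inv
    obtain ⟨u', hu'⟩ := hu.exists_right_inv
    set φ := algebraMap A F with hφ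
    have hmem : ∀ (z : A) (m : Fin pb.dim) (l : Fin pb.dim),
        pb.basis.repr (φ z • pb.basis m) l ∈ φ.range := by
      intro z m l
      rw [map_smul, Module.Basis.repr_self, Finsupp.smul_single, smul_eq_mul, mul_one,
        Finsupp.single_apply]
      split_ifs
      · exact ⟨z, rfl⟩
      · exact ⟨0, map_zero _⟩
    have hnorm : ∀ z : A, Algebra.norm F (pb.gen ^ i * algebraMap F E (φ z)) = φ (u ^ i * z ^ p) := by
      intro z
      rw [map_mul, map_pow, norm_gen_of_pow_eq pb hp.pos hodd hdim hgen, Algebra.norm_algebraMap,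
        pb.finrank, hdim, map_mul, map_pow, map_pow]
    have hi' : i < pb.dim := hdim ▸ hi
    have hy_eq : pb.gen ^ i * algebraMap F E (φ x) = φ x • pb.basis ⟨i, hi'⟩ := by
      rw [pb.basis_eq_pow, Algebra.smul_def, mul_comm]
    by_cases hi0 : i = 0
    · -- `y = x`
      subst hi0
      have hmul : (pb.gen ^ 0 * algebraMap F E (φ x)) * (φ x' • pb.basis ⟨0, hi'⟩) = 1 := by
        rw [pb.basis_eq_pow, Algebra.smul_def, pow_zero, one_mul, mul_one, ← map_mul, ← map_mul, hx',
          map_one, map_one]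
      refine ⟨⟨_, _, hmul, by rw [mul_comm]; exact hmul⟩, ?_, ?_, ?_⟩
      · rw [Units.val_mk, hnorm, hx]
      · intro l
        rw [Units.val_mk, hy_eq]
        exact hmem _ _ _
      · intro l
        rw [Units.inv_mk, Units.val_mk]
        exact hmem _ _ _
    · -- `y = β ^ i * x`, `y⁻¹ = β ^ (p - i) * (u x)⁻¹`
      have hpi : p - i < pb.dim := by rw [hdim]; omega
      have hmul : (pb.gen ^ i * algebraMap F E (φ x)) * (φ (u' * x') • pb.basis ⟨p - i, hpi⟩) = 1 := by
        rw [pb.basis_eq_pow, Algebra.smul_def]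
        calc pb.gen ^ i * algebraMap F E (φ x) * (algebraMap F E (φ (u' * x')) * pb.gen ^ (p - i))
            = (pb.gen ^ i * pb.gen ^ (p - i)) *
                (algebraMap F E (φ x) * algebraMap F E (φ (u' * x'))) := by ring
          _ = 1 := by
            rw [← pow_add, Nat.add_sub_cancel' hi.le, hgen, ← map_mul, ← map_mul, ← map_mul, ← map_mul]
            have : u * (x * (u' * x')) = 1 := by
              calc u * (x * (u' * x')) = (u * u') * (x * x') := by ring
                _ = 1 := by rw [hu', hx', one_mul]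
            rw [this, map_one, map_one]
      refine ⟨⟨_, _, hmul, by rw [mul_comm]; exact hmul⟩, ?_, ?_, ?_⟩
      · rw [Units.val_mk, hnorm, hx]
      · intro l
        rw [Units.val_mk, hy_eq]
        exact hmem _ _ _
      · intro l
        rw [Units.inv_mk, Units.val_mk]
        exact hmem _ _ _

end UnitNormsInt

section BaseChangeKummer

variable {R E : Type*} [CommRing R] [CommRing E] [Algebra R E] (K : Type*) [Field K] [Algebra R K]

/-- The base change of a free algebra of positive rank to a field is nontrivial. -/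
theorem nontrivial_baseChange (pb : PowerBasis R E) (hdim : 0 < pb.dim) :
    Nontrivial (K ⊗[R] E) :=
  ⟨⟨(Algebra.TensorProduct.basis K pb.basis) ⟨0, hdim⟩, 0,
    (Algebra.TensorProduct.basis K pb.basis).ne_zero _⟩⟩

/-- **(H1b), base-change form**: if the image of `b` in the field `K ∋ ζ_p` is a `p`-th power,
every unit of `K` is a norm from `K ⊗[R] R[β]`, `β ^ p = b`. -/
theorem exists_norm_eq_baseChange_split (pb : PowerBasis R E) {p : ℕ} (hp : 0 < p)
    (hdim : pb.dim = p) {b : R} (hgen : pb.gen ^ p = algebraMap R E b) {ζ : K}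
    (hζ : IsPrimitiveRoot ζ p) {c : K} (hc0 : c ≠ 0) (hc : c ^ p = algebraMap R K b) (x : Kˣ) :
    ∃ y : (K ⊗[R] E)ˣ, Algebra.norm K (y : K ⊗[R] E) = x := by
  have : Nontrivial (K ⊗[R] E) := nontrivial_baseChange K pb (hdim ▸ hp)
  refine exists_norm_eq_of_kummer_split (baseChangePowerBasis K pb) hp hζ hc0 hdim ?_ x
  rw [baseChangePowerBasis_gen_pow K pb hgen, hc]

variable {A : Type*} [CommRing A] [HenselianLocalRing A] [Finite (ResidueField A)] [Algebra A K]

/-- **(H1c), base-change form, with integrality**: `A → K` Henselian local with finite residue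
field, `p` odd and invertible in `A`, the image of `b` in `K` is the image of a unit of `A`: every
unit of `A` is the norm of a unit of `K ⊗[R] R[β]` with `A`-integral coordinates. -/
theorem exists_norm_eq_baseChange_of_isUnit (pb : PowerBasis R E) {p : ℕ} (hp : p.Prime)
    (hp2 : p ≠ 2) (hpA : IsUnit (p : A)) {ζ : K} (hζ : IsPrimitiveRoot ζ p)
    (hdim : pb.dim = p) {b : R} (hgen : pb.gen ^ p = algebraMap R E b) {u : A} (hu : IsUnit u)
    (hb : algebraMap R K b = algebraMap A K u) {a : A} (ha : IsUnit a) :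
    ∃ y : (K ⊗[R] E)ˣ, Algebra.norm K (y : K ⊗[R] E) = algebraMap A K a ∧
      (∀ l, (Algebra.TensorProduct.basis K pb.basis).repr (y : K ⊗[R] E) l ∈
        (algebraMap A K).range) ∧
      (∀ l, (Algebra.TensorProduct.basis K pb.basis).repr ((y⁻¹ : (K ⊗[R] E)ˣ) : K ⊗[R] E) l ∈
        (algebraMap A K).range) := by
  have : Nontrivial (K ⊗[R] E) := nontrivial_baseChange K pb (hdim ▸ hp.pos)
  refine exists_norm_eq_of_isUnit_int (baseChangePowerBasis K pb) hp hp2 hpA hζ hu hdim ?_ ha
  rw [baseChangePowerBasis_gen_pow K pb hgen, hb]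

end BaseChangeKummer

section SemiLocal

variable {R E : Type*} [CommRing R] [CommRing E] [Algebra R E]
  {ι : Type*} [DecidableEq ι] {k : ι → Type*} [∀ i, Field (k i)] [∀ i, Algebra R (k i)]
  (e : R ≃+* ∀ i, k i) (he : ∀ r i, e r i = algebraMap R (k i) r)
  {A : ι → Type*} [∀ i, CommRing (A i)] [∀ i, HenselianLocalRing (A i)]
  [∀ i, Finite (ResidueField (A i))] [∀ i, Algebra (A i) (k i)]

include he in
/-- **Semi-local unramified Kummer algebras: integral units are norms of integral units.**
`R ≃ ∏ k i` a finite product of fields containing `ζ_p`, each `k i` with a Henselian local ring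
`A i → k i` with finite residue field in which the odd prime `p` is invertible; `E = R[β]` free of
rank `p` with `β ^ p = b`, all components of `b` units of the `A i`.  Then every `x : Rˣ` all of
whose components are units of the `A i` is the norm of a unit `y` of `E` such that the coordinates
of `y` and `y⁻¹` in the basis `1, β, …, β ^ (p - 1)` lie in any subring `R₀ ⊆ R` containing the
elements with all components in the images of the `A i`. -/
theorem exists_norm_eq_of_semilocal_unramified (R₀ : Subring R)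
    (hR₀ : ∀ r : R, (∀ i, algebraMap R (k i) r ∈ (algebraMap (A i) (k i)).range) → r ∈ R₀)
    (pb : PowerBasis R E) {p : ℕ} (hp : p.Prime) (hp2 : p ≠ 2) (hpA : ∀ i, IsUnit (p : A i))
    (hζ : ∀ i, ∃ ζ : k i, IsPrimitiveRoot ζ p) (hdim : pb.dim = p) {b : R}
    (hgen : pb.gen ^ p = algebraMap R E b)
    (hb : ∀ i, ∃ u : A i, IsUnit u ∧ algebraMap R (k i) b = algebraMap (A i) (k i) u) (x : Rˣ)
    (hx : ∀ i, ∃ a : A i, IsUnit a ∧ algebraMap R (k i) x = algebraMap (A i) (k i) a) :
    ∃ y : Eˣ, Algebra.norm R (y : E) = x ∧ (∀ l, pb.basis.repr (y : E) l ∈ R₀) ∧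
      (∀ l, pb.basis.repr ((y⁻¹ : Eˣ) : E) l ∈ R₀) := by
  apply exists_norm_eq_of_forall_component_int e he pb.basis R₀
    (fun i => (algebraMap (A i) (k i)).range) hR₀ x
  intro i
  obtain ⟨ζ, hζi⟩ := hζ i
  obtain ⟨u, hu, hbu⟩ := hb i
  obtain ⟨a, ha, hxa⟩ := hx i
  obtain ⟨y, hy, h1, h2⟩ := exists_norm_eq_baseChange_of_isUnit (k i) pb hp hp2 (hpA i) hζi hdim
    hgen hu hbu ha
  exact ⟨y, by rw [hy, hxa], h1, h2⟩

end SemiLocal

end Fermat.Agent.Lib.CFT.Global.KummerLocal
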