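/-
P-CFT work package Global/KummerLocal (task 208), part 4: the statements of `KummerLocalSemi.lean`
for EVERY prime `p` (the case `p = 2` uses the norm form `x ^ 2 - u y ^ 2` of
`KummerLocalNormTwo.lean`).

* `exists_norm_eq_of_isUnit_two_int`: `p = 2`, integral refinement of
  `KummerLocalTwo.exists_norm_eq_of_isUnit_two`;
* `exists_norm_eq_of_isUnit_int_all`, `exists_norm_eq_baseChange_of_isUnit_all`,
  `exists_norm_eq_of_semilocal_unramified_all`: as the unprimed statements of
  `KummerLocalSemi.lean`, without the hypothesis `p ≠ 2`.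
-/
import Mathlib
import Fermat.Agent.Lib.CFT.Global.KummerLocalSemi
import Fermat.Agent.Lib.CFT.Global.KummerLocalNormTwo

set_option autoImplicit false

open scoped TensorProduct
open Polynomial IsLocalRing

namespace Fermat.Agent.Lib.CFT.Global.KummerLocal

section UnitNormsTwoInt

variable {A F E : Type*} [CommRing A] [Field F] [Algebra A F] [CommRing E] [Algebra F E]

/-- The coordinates of `c₀ + c₁ β` in the power basis are `c₀, c₁, 0, …`. -/
theorem repr_add_mul_gen_mem_range (pb : PowerBasis F E) (hdim : 2 ≤ pb.dim) (c₀ c₁ : A)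
    (l : Fin pb.dim) :
    pb.basis.repr (algebraMap F E (algebraMap A F c₀) + algebraMap F E (algebraMap A F c₁) * pb.gen)
      l ∈ (algebraMap A F).range := by
  classical
  have h0 : 0 < pb.dim := by omega
  have h1 : 1 < pb.dim := by omega
  have e0 : algebraMap F E (algebraMap A F c₀) = algebraMap A F c₀ • pb.basis ⟨0, h0⟩ := by
    rw [pb.basis_eq_pow, Algebra.smul_def, pow_zero, mul_one]
  have e1 : algebraMap F E (algebraMap A F c₁) * pb.gen = algebraMap A F c₁ • pb.basis ⟨1, h1⟩ := by
    rw [pb.basis_eq_pow, Algebra.smul_def, pow_one]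
  rw [e0, e1, map_add, map_smul, map_smul, Module.Basis.repr_self, Module.Basis.repr_self,
    Finsupp.smul_single, Finsupp.smul_single, smul_eq_mul, smul_eq_mul, mul_one, mul_one,
    Finsupp.add_apply, Finsupp.single_apply, Finsupp.single_apply]
  refine Subring.add_mem _ ?_ ?_
  · split_ifs
    · exact ⟨c₀, rfl⟩
    · exact ⟨0, map_zero _⟩
  · split_ifs
    · exact ⟨c₁, rfl⟩
    · exact ⟨0, map_zero _⟩

variable [HenselianLocalRing A] [Finite (ResidueField A)]

/-- **Units are norms at unramified quadratic Kummer places, integral form** (`p = 2`).  As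
`KummerLocalTwo.exists_norm_eq_of_isUnit_two`, and moreover the coordinates of `y` and `y⁻¹` in
the power basis `1, β` lie in the image of `A`. -/
theorem exists_norm_eq_of_isUnit_two_int (pb : PowerBasis F E) (h2A : IsUnit (2 : A)) {u : A}
    (hu : IsUnit u) (hdim : pb.dim = 2)
    (hgen : pb.gen ^ 2 = algebraMap F E (algebraMap A F u)) {a : A} (ha : IsUnit a) :
    ∃ y : Eˣ, Algebra.norm F (y : E) = algebraMap A F a ∧
      (∀ l, pb.basis.repr (y : E) l ∈ (algebraMap A F).range) ∧
      (∀ l, pb.basis.repr ((y⁻¹ : Eˣ) : E) l ∈ (algebraMap A F).range) := by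
  have h2k : (2 : ResidueField A) ≠ 0 := by
    have h := (h2A.map (residue A)).ne_zero
    rwa [map_ofNat] at h
  have huk : residue A u ≠ 0 := (hu.map (residue A)).ne_zero
  obtain ⟨x₀, y₀, hxy⟩ := KummerLocalTwo.exists_sq_sub_mul_sq_eq h2k huk (residue A a)
  obtain ⟨x, rfl⟩ := residue_surjective x₀
  obtain ⟨y, rfl⟩ := residue_surjective y₀
  set c : A := x ^ 2 - u * y ^ 2 with hc
  have hcres : residue A c = residue A a := by
    rw [hc, map_sub, map_mul, map_pow, map_pow, hxy]
  have hcu : IsUnit c := by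
    by_contra h
    have h1 : residue A c = 0 := (residue_eq_zero_iff c).2 ((mem_maximalIdeal c).2 h)
    rw [hcres] at h1
    exact (ha.map (residue A)).ne_zero h1
  obtain ⟨c', hc'⟩ := hcu.exists_right_inv
  have hc'u : IsUnit c' := IsUnit.of_mul_eq_one_right c hc'
  have hw : IsUnit (a * c') := ha.mul hc'u
  have h2nat : IsUnit ((2 : ℕ) : A) := by simpa using h2A
  obtain ⟨s, hs⟩ := (exists_pow_eq_iff_residue h2nat hw).2 ⟨1, by
    rw [one_pow, map_mul, ← hcres, ← map_mul, hc', map_one]⟩
  -- `a = s ^ 2 * c`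
  have hasc : a = s ^ 2 * c := by
    rw [hs, mul_assoc, mul_comm c' c, hc', mul_one]
  obtain ⟨a', ha'⟩ := ha.exists_right_inv
  set φ := algebraMap A F with hφ
  set z : E := algebraMap F E (φ (s * x)) + algebraMap F E (φ (s * y)) * pb.gen with hz
  set z' : E := algebraMap F E (φ (s * x * a')) + algebraMap F E (φ (-(s * y * a'))) * pb.gen
    with hz'
  have hnorm : Algebra.norm F z = φ a := by
    rw [hz, KummerLocalTwo.norm_add_mul_gen pb hdim hgen, hasc, hc, ← map_pow, ← map_pow,
      ← map_mul, ← map_sub]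
    congr 1
    ring
  have hmul : z * z' = 1 := by
    have h1 : z * z' = algebraMap F E (φ (s * x)) * algebraMap F E (φ (s * x * a')) +
        algebraMap F E (φ (s * y)) * algebraMap F E (φ (-(s * y * a'))) * pb.gen ^ 2 +
        (algebraMap F E (φ (s * x)) * algebraMap F E (φ (-(s * y * a'))) +
          algebraMap F E (φ (s * y)) * algebraMap F E (φ (s * x * a'))) * pb.gen := by
      rw [hz, hz']; ring
    rw [h1, hgen]
    simp only [← map_mul, ← map_add]
    have e1 : s * x * (s * x * a') + s * y * -(s * y * a') * u = 1 := by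
      have : s * x * (s * x * a') + s * y * -(s * y * a') * u = (s ^ 2 * c) * a' := by
        rw [hc]; ring
      rw [this, ← hasc, ha']
    have e2 : s * x * -(s * y * a') + s * y * (s * x * a') = 0 := by ring
    rw [e1, e2, map_zero, map_zero, zero_mul, add_zero, map_one, map_one]
  have hdim2 : 2 ≤ pb.dim := hdim.ge
  refine ⟨⟨z, z', hmul, by rw [mul_comm]; exact hmul⟩, ?_, ?_, ?_⟩
  · rw [Units.val_mk, hnorm]
  · intro l
    rw [Units.val_mk, hz]
    exact repr_add_mul_gen_mem_range pb hdim2 _ _ l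
  · intro l
    rw [Units.inv_mk, Units.val_mk, hz']
    exact repr_add_mul_gen_mem_range pb hdim2 _ _ l

end UnitNormsTwoInt

section UnitNormsIntAll

variable {A F E : Type*} [CommRing A] [HenselianLocalRing A] [Finite (ResidueField A)]
  [Field F] [Algebra A F] [CommRing E] [Algebra F E] [Nontrivial E]

/-- **(D) Units are norms at unramified Kummer places, integral form, every prime `p`.** -/
theorem exists_norm_eq_of_isUnit_int_all (pb : PowerBasis F E) {p : ℕ} (hp : p.Prime)
    (hpA : IsUnit (p : A)) {ζ : F} (hζ : IsPrimitiveRoot ζ p) {u : A} (hu : IsUnit u)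
    (hdim : pb.dim = p) (hgen : pb.gen ^ p = algebraMap F E (algebraMap A F u)) {a : A}
    (ha : IsUnit a) :
    ∃ y : Eˣ, Algebra.norm F (y : E) = algebraMap A F a ∧
      (∀ l, pb.basis.repr (y : E) l ∈ (algebraMap A F).range) ∧
      (∀ l, pb.basis.repr ((y⁻¹ : Eˣ) : E) l ∈ (algebraMap A F).range) := by
  by_cases hp2 : p = 2
  · subst hp2
    have h2A : IsUnit (2 : A) := by simpa using hpA
    exact exists_norm_eq_of_isUnit_two_int pb h2A hu hdim hgen ha
  · exact exists_norm_eq_of_isUnit_int pb hp hp2 hpA hζ hu hdim hgen ha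

end UnitNormsIntAll

section BaseChangeKummerAll

variable {R E : Type*} [CommRing R] [CommRing E] [Algebra R E] (K : Type*) [Field K] [Algebra R K]
variable {A : Type*} [CommRing A] [HenselianLocalRing A] [Finite (ResidueField A)] [Algebra A K]

/-- **(H1c), base-change form, with integrality, every prime `p`.** -/
theorem exists_norm_eq_baseChange_of_isUnit_all (pb : PowerBasis R E) {p : ℕ} (hp : p.Prime)
    (hpA : IsUnit (p : A)) {ζ : K} (hζ : IsPrimitiveRoot ζ p)
    (hdim : pb.dim = p) {b : R} (hgen : pb.gen ^ p = algebraMap R E b) {u : A} (hu : IsUnit u)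
    (hb : algebraMap R K b = algebraMap A K u) {a : A} (ha : IsUnit a) :
    ∃ y : (K ⊗[R] E)ˣ, Algebra.norm K (y : K ⊗[R] E) = algebraMap A K a ∧
      (∀ l, (Algebra.TensorProduct.basis K pb.basis).repr (y : K ⊗[R] E) l ∈
        (algebraMap A K).range) ∧
      (∀ l, (Algebra.TensorProduct.basis K pb.basis).repr ((y⁻¹ : (K ⊗[R] E)ˣ) : K ⊗[R] E) l ∈
        (algebraMap A K).range) := by
  have : Nontrivial (K ⊗[R] E) := nontrivial_baseChange K pb (hdim ▸ hp.pos)
  refine exists_norm_eq_of_isUnit_int_all (baseChangePowerBasis K pb) hp hpA hζ hu hdim ?_ ha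
  rw [baseChangePowerBasis_gen_pow K pb hgen, hb]

end BaseChangeKummerAll

section SemiLocalAll

variable {R E : Type*} [CommRing R] [CommRing E] [Algebra R E]
  {ι : Type*} [DecidableEq ι] {k : ι → Type*} [∀ i, Field (k i)] [∀ i, Algebra R (k i)]
  (e : R ≃+* ∀ i, k i) (he : ∀ r i, e r i = algebraMap R (k i) r)
  {A : ι → Type*} [∀ i, CommRing (A i)] [∀ i, HenselianLocalRing (A i)]
  [∀ i, Finite (ResidueField (A i))] [∀ i, Algebra (A i) (k i)]

include he in
/-- **Semi-local unramified Kummer algebras: integral units are norms of integral units**, every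
prime `p` (see `exists_norm_eq_of_semilocal_unramified`). -/
theorem exists_norm_eq_of_semilocal_unramified_all (R₀ : Subring R)
    (hR₀ : ∀ r : R, (∀ i, algebraMap R (k i) r ∈ (algebraMap (A i) (k i)).range) → r ∈ R₀)
    (pb : PowerBasis R E) {p : ℕ} (hp : p.Prime) (hpA : ∀ i, IsUnit (p : A i))
    (hζ : ∀ i, ∃ ζ : k i, IsPrimitiveRoot ζ p) (hdim : pb.dim = p) {b : R}
    (hgen : pb.gen ^ p = algebraMap R E b)
    (hb : ∀ i, ∃ u : A i, IsUnit u ∧ algebraMap R (k i) b = algebraMap (A i) (k i) u) (x : Rˣ)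
    (hx : ∀ i, ∃ a : A i, IsUnit a ∧ algebraMap R (k i) x = algebraMap (A i) (k i) a) :
    ∃ y : Eˣ, Algebra.norm R (y : E) = x ∧ (∀ l, pb.basis.repr (y : E) l ∈ R₀) ∧
      (∀ l, pb.basis.repr ((y⁻¹ : Eˣ) : E) l ∈ R₀) := by
  apply exists_norm_eq_of_forall_component_int e he pb.basis R₀
    (fun i => (algebraMap (A i) (k i)).range) hR₀ x
  intro i
  obtain ⟨ζ, hζi⟩ := hζ i
  obtain ⟨u, hu, hbu⟩ := hb i
  obtain ⟨a, ha, hxa⟩ := hx i
  obtain ⟨y, hy, h1, h2⟩ := exists_norm_eq_baseChange_of_isUnit_all (k i) pb hp (hpA i) hζi hdim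
    hgen hu hbu ha
  exact ⟨y, by rw [hy, hxa], h1, h2⟩

end SemiLocalAll

end Fermat.Agent.Lib.CFT.Global.KummerLocal
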