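import Mathlib

/-!
# Existence theorem mod `p`: the abstract index count (P-CFT, Global layer)

Abstract setting: `ι : K →* J` (principal ideles `Fˣ → J_F`), subgroups `US ≤ JS ≤ J`
(`JS` = ideles that are units outside `S`, `US` = those that moreover are trivial at `S`).
In `K` we consider

* `sUnits = ι⁻¹(JS)` (the `S`-units),
* `delta = ι⁻¹(JS · Jᵖ)` (elements whose valuations outside `S` are divisible by `p`),
* `sha = ι⁻¹(US · Jᵖ)` (elements of `delta` that are local `p`-th powers at `S`).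

We prove two purely group-theoretic counts and deduce: if the two Kummer extensions
`F(sha^{1/p})`, `F(delta^{1/p})` have norm groups `N₀ ⊇ P Jᵖ JS`, `N ⊇ P Jᵖ US` of indices
`[sha : Kᵖ]`, `[delta : Kᵖ]`, then `N = P Jᵖ US`.
-/

namespace Fermat.Agent.Lib.CFT.Global.ExistenceAbstract

open Subgroup

/-- The subgroup of `p`-th powers of a commutative group. -/
def powSub (G : Type*) [CommGroup G] (p : ℕ) : Subgroup G := (powMonoidHom p : G →* G).range

lemma mem_powSub {G : Type*} [CommGroup G] {p : ℕ} {x : G} :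
    x ∈ powSub G p ↔ ∃ y : G, y ^ p = x := by
  simp [powSub, MonoidHom.mem_range]

lemma pow_mem_powSub {G : Type*} [CommGroup G] (p : ℕ) (y : G) : y ^ p ∈ powSub G p :=
  mem_powSub.2 ⟨y, rfl⟩

lemma map_powSub {G H : Type*} [CommGroup G] [CommGroup H] (f : G →* H) (p : ℕ) :
    (powSub G p).map f = (f.range).map (powMonoidHom p : H →* H) := by
  ext y
  simp only [Subgroup.mem_map, mem_powSub, MonoidHom.mem_range, powMonoidHom_apply]
  constructor
  · rintro ⟨x, ⟨z, rfl⟩, rfl⟩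
    exact ⟨f z, ⟨z, rfl⟩, (map_pow f z p).symm⟩
  · rintro ⟨w, ⟨z, rfl⟩, rfl⟩
    exact ⟨z ^ p, ⟨z, rfl⟩, map_pow f z p⟩

lemma map_powSub_of_surjective {G H : Type*} [CommGroup G] [CommGroup H] (f : G →* H)
    (hf : Function.Surjective f) (p : ℕ) : (powSub G p).map f = powSub H p := by
  rw [map_powSub, MonoidHom.range_eq_top.2 hf, ← MonoidHom.range_eq_map]
  rfl

section LemmaY

variable {D : Type*} [CommGroup D]

/-- Key count in a `p`-torsion-free commutative group `D`: for a subgroup `M` of finite index,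
`[M ∩ Dᵖ : Mᵖ] = [D : M Dᵖ]`. -/
theorem relIndex_map_pow_inf (p : ℕ) (htf : ∀ x : D, x ^ p = 1 → x = 1) (M : Subgroup D)
    (hM : M.index ≠ 0) :
    (M.map (powMonoidHom p : D →* D)).relIndex (M ⊓ powSub D p) = (M ⊔ powSub D p).index := by
  set f : D →* D := powMonoidHom p with hf
  have hinj : Function.Injective f := by
    rw [injective_iff_map_eq_one]
    intro x hx
    exact htf x (by simpa [hf] using hx)
  have hDp : powSub D p = (⊤ : Subgroup D).map f := by
    rw [← MonoidHom.range_eq_map]; rfl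
  -- (a)
  have ha : (M.map f).relIndex (powSub D p) = M.index := by
    rw [hDp, relIndex_map_map_of_injective _ _ hinj, relIndex_top_right]
  -- (b)
  have hle1 : M.map f ≤ M ⊓ powSub D p := by
    refine le_inf ?_ ?_
    · rintro _ ⟨x, hx, rfl⟩
      exact pow_mem hx p
    · rw [hDp]; exact Subgroup.map_mono le_top
  have hb : (M.map f).relIndex (M ⊓ powSub D p) * (M ⊓ powSub D p).relIndex (powSub D p)
      = M.index := by
    rw [relIndex_mul_relIndex _ _ _ hle1 inf_le_right, ha]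
  -- (c)
  have hc : (M ⊓ powSub D p).relIndex (powSub D p) = M.relIndex (M ⊔ powSub D p) := by
    rw [inf_relIndex_right, sup_comm, relIndex_sup_right]
  -- (d)
  have hd : M.relIndex (M ⊔ powSub D p) * (M ⊔ powSub D p).index = M.index :=
    relIndex_mul_index le_sup_left
  have hr : M.relIndex (M ⊔ powSub D p) ≠ 0 := by
    intro h0
    rw [h0, zero_mul] at hd
    exact hM hd.symm
  rw [hc] at hb
  have : M.relIndex (M ⊔ powSub D p) * (M.map f).relIndex (M ⊓ powSub D p)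
      = M.relIndex (M ⊔ powSub D p) * (M ⊔ powSub D p).index := by
    rw [hd, mul_comm, hb]
  exact Nat.eq_of_mul_eq_mul_left (Nat.pos_of_ne_zero hr) this

end LemmaY

section Main

variable {K J : Type*} [CommGroup K] [CommGroup J]
variable (ι : K →* J) (p : ℕ) (JS US : Subgroup J)

/-- The `S`-units: elements of `K` whose idele lies in `JS`. -/
def sUnits : Subgroup K := JS.comap ι

/-- Elements of `K` whose idele lies in `JS · Jᵖ`. -/
def delta : Subgroup K := (JS ⊔ powSub J p).comap ι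

/-- Elements of `K` whose idele lies in `US · Jᵖ`. -/
def sha : Subgroup K := (US ⊔ powSub J p).comap ι

variable {ι p JS US}

lemma mem_sUnits {x : K} : x ∈ sUnits ι JS ↔ ι x ∈ JS := Iff.rfl

lemma mem_delta {x : K} : x ∈ delta ι p JS ↔ ι x ∈ JS ⊔ powSub J p := Iff.rfl

lemma mem_sha {x : K} : x ∈ sha ι p US ↔ ι x ∈ US ⊔ powSub J p := Iff.rfl

variable (ι p JS US)

lemma powSub_le_sha : powSub K p ≤ sha ι p US := by
  intro x hx
  obtain ⟨y, rfl⟩ := mem_powSub.1 hx
  rw [mem_sha, map_pow]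
  exact (le_sup_right : powSub J p ≤ US ⊔ powSub J p) (pow_mem_powSub p (ι y))

lemma sha_le_delta (hUS : US ≤ JS) : sha ι p US ≤ delta ι p JS :=
  Subgroup.comap_mono (sup_le_sup_right hUS _)

lemma sUnits_le_delta : sUnits ι JS ≤ delta ι p JS :=
  Subgroup.comap_mono le_sup_left

lemma powSub_le_delta : powSub K p ≤ delta ι p JS := by
  intro x hx
  obtain ⟨y, rfl⟩ := mem_powSub.1 hx
  rw [mem_delta, map_pow]
  exact (le_sup_right : powSub J p ≤ JS ⊔ powSub J p) (pow_mem_powSub p (ι y))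

/-- If `JS` is `p`-saturated in `J` then `Kᵖ ∩ E_S = E_Sᵖ`; in index form. -/
theorem relIndex_powSub_sUnits (h1 : ∀ a : J, a ^ p ∈ JS → a ∈ JS) :
    (powSub K p).relIndex (sUnits ι JS)
      = (powMonoidHom p : sUnits ι JS →* sUnits ι JS).range.index := by
  rw [relIndex]
  congr 1
  ext x
  simp only [Subgroup.mem_subgroupOf, mem_powSub, MonoidHom.mem_range, powMonoidHom_apply]
  constructor
  · rintro ⟨y, hy⟩
    have hyS : y ∈ sUnits ι JS := by
      rw [mem_sUnits]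
      apply h1
      rw [← map_pow, hy]
      exact x.2
    exact ⟨⟨y, hyS⟩, Subtype.ext (by simpa using hy)⟩
  · rintro ⟨y, rfl⟩
    exact ⟨y.1, by simp⟩

/-- **Count 2.**  `[Δ : E_S Kᵖ] = [J : P Jᵖ J_S]`. -/
theorem relIndex_sup_delta (h1 : ∀ a : J, a ^ p ∈ JS → a ∈ JS)
    (hCl : (ι.range ⊔ JS).index ≠ 0) :
    (powSub K p ⊔ sUnits ι JS).relIndex (delta ι p JS)
      = (ι.range ⊔ powSub J p ⊔ JS).index := by
  -- pass to `D = J ⧸ JS`
  set π : J →* J ⧸ JS := QuotientGroup.mk' JS with hπ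
  have hπs : Function.Surjective π := QuotientGroup.mk'_surjective JS
  have hker : π.ker = JS := QuotientGroup.ker_mk' JS
  set d : K →* J ⧸ JS := π.comp ι with hd
  have htf : ∀ x : J ⧸ JS, x ^ p = 1 → x = 1 := by
    intro x hx
    obtain ⟨a, rfl⟩ := hπs x
    rw [← map_pow, ← MonoidHom.mem_ker, hker] at hx
    rw [← MonoidHom.mem_ker, hker]
    exact h1 a hx
  set M : Subgroup (J ⧸ JS) := d.range with hM
  have hMmap : M = (ι.range).map π := by
    rw [hM, hd, MonoidHom.range_eq_map, MonoidHom.range_eq_map, ← Subgroup.map_map]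
  have hDp : powSub (J ⧸ JS) p = (powSub J p).map π := (map_powSub_of_surjective π hπs p).symm
  have hMidx : M.index = (ι.range ⊔ JS).index := by
    rw [hMmap, Subgroup.index_map, hker, MonoidHom.range_eq_top.2 hπs, index_top, mul_one]
  have key := relIndex_map_pow_inf p htf M (by rw [hMidx]; exact hCl)
  -- right-hand side
  have hR : (M ⊔ powSub (J ⧸ JS) p).index = (ι.range ⊔ powSub J p ⊔ JS).index := by
    rw [hMmap, hDp, ← Subgroup.map_sup, Subgroup.index_map, hker, MonoidHom.range_eq_top.2 hπs,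
      index_top, mul_one]
  -- left-hand side
  have hcomap1 : powSub K p ⊔ sUnits ι JS
      = (M.map (powMonoidHom p : (J ⧸ JS) →* (J ⧸ JS))).comap d := by
    have h2 : M.map (powMonoidHom p : (J ⧸ JS) →* (J ⧸ JS)) = (powSub K p).map d := by
      rw [map_powSub]
    rw [h2, Subgroup.comap_map_eq]
    congr 1
    ext x
    rw [MonoidHom.mem_ker, hd, MonoidHom.comp_apply, ← MonoidHom.mem_ker, hker]
    rfl
  have hcomap2 : delta ι p JS = (powSub (J ⧸ JS) p).comap d := by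
    rw [hDp, hd, ← Subgroup.comap_comap, Subgroup.comap_map_eq, hker, sup_comm]
    rfl
  have hL : (powSub K p ⊔ sUnits ι JS).relIndex (delta ι p JS)
      = (M.map (powMonoidHom p : (J ⧸ JS) →* (J ⧸ JS))).relIndex (M ⊓ powSub (J ⧸ JS) p) := by
    rw [hcomap1, relIndex_comap, hcomap2, Subgroup.map_comap_eq]
  rw [hL, key, hR]

/-- **Count 2, second form.**  `[Δ : Kᵖ] = [E_S : E_S ∩ Kᵖ] · [J : P Jᵖ J_S]`. -/
theorem relIndex_powSub_delta (h1 : ∀ a : J, a ^ p ∈ JS → a ∈ JS)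
    (hCl : (ι.range ⊔ JS).index ≠ 0) :
    (powSub K p).relIndex (delta ι p JS)
      = (powSub K p).relIndex (sUnits ι JS) * (ι.range ⊔ powSub J p ⊔ JS).index := by
  rw [← relIndex_sup_delta ι p JS h1 hCl,
    ← relIndex_mul_relIndex (powSub K p) (powSub K p ⊔ sUnits ι JS) (delta ι p JS) le_sup_left
      (sup_le (powSub_le_delta ι p JS) (sUnits_le_delta ι p JS)),
    relIndex_sup_left]

/-- **Count 1.**  `[J : P Jᵖ U_S] · [Δ : Ш] = [J : P Jᵖ J_S] · [J_S : J_S ∩ U_S Jᵖ]`. -/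
theorem index_mul_relIndex_sha (hUS : US ≤ JS) :
    (ι.range ⊔ powSub J p ⊔ US).index * (sha ι p US).relIndex (delta ι p JS)
      = (ι.range ⊔ powSub J p ⊔ JS).index * (US ⊔ powSub J p).relIndex JS := by
  set P : Subgroup J := ι.range with hP
  set W : Subgroup J := US ⊔ powSub J p with hW
  set A : Subgroup J := P ⊔ W with hA
  have hA' : P ⊔ powSub J p ⊔ US = A := by
    rw [hA, hW, sup_assoc, sup_comm (powSub J p) US]
  have hJW : JS ⊔ W = JS ⊔ powSub J p := by
    rw [hW, ← sup_assoc, sup_eq_left.2 hUS]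
  have hAJ : A ⊔ JS = P ⊔ powSub J p ⊔ JS := by
    rw [hA, sup_assoc, sup_comm W JS, hJW, sup_comm JS, ← sup_assoc]
  -- step 1
  have h1 : A.index = A.relIndex JS * (P ⊔ powSub J p ⊔ JS).index := by
    rw [← hAJ, ← relIndex_sup_left JS A, relIndex_mul_index le_sup_left]
  -- step 2: identify `[Δ : Ш]`
  have h2 : (sha ι p US).relIndex (delta ι p JS) = W.relIndex (A ⊓ JS) := by
    have e1 : (sha ι p US).relIndex (delta ι p JS) = W.relIndex (P ⊓ (JS ⊔ W)) := by
      rw [sha, delta, relIndex_comap, Subgroup.map_comap_eq, hJW]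
    have e2 : W.relIndex (P ⊓ (JS ⊔ W)) = W.relIndex ((P ⊓ (JS ⊔ W)) ⊔ W) :=
      (relIndex_sup_right _ _).symm
    have e3 : W.relIndex (A ⊓ JS) = W.relIndex ((A ⊓ JS) ⊔ W) :=
      (relIndex_sup_right _ _).symm
    have m1 : (P ⊓ (JS ⊔ W)) ⊔ W = A ⊓ (JS ⊔ W) := by
      calc (P ⊓ (JS ⊔ W)) ⊔ W = W ⊔ P ⊓ (JS ⊔ W) := sup_comm _ _
        _ = (W ⊔ P) ⊓ (JS ⊔ W) := (sup_inf_assoc_of_le P (le_sup_right : W ≤ JS ⊔ W)).symm
        _ = A ⊓ (JS ⊔ W) := by rw [sup_comm W P]
    have m2 : (A ⊓ JS) ⊔ W = A ⊓ (JS ⊔ W) := by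
      calc (A ⊓ JS) ⊔ W = W ⊔ JS ⊓ A := by rw [sup_comm, inf_comm]
        _ = (W ⊔ JS) ⊓ A := (sup_inf_assoc_of_le JS (le_sup_right : W ≤ A)).symm
        _ = A ⊓ (JS ⊔ W) := by rw [inf_comm, sup_comm W JS]
    rw [e1, e2, e3, m1, m2]
  -- step 3
  have h3 : W.relIndex (A ⊓ JS) * A.relIndex JS = W.relIndex JS := by
    rw [relIndex_inf_mul_relIndex, inf_eq_left.2 (le_sup_right : W ≤ A)]
  rw [hA', h1, h2, ← h3]
  ring

/-- **Existence theorem mod `p`, abstract form.**  `N = P Jᵖ U_S`. -/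
theorem normGroup_eq (hp : p ≠ 0) (hUS : US ≤ JS) (h1 : ∀ a : J, a ^ p ∈ JS → a ∈ JS)
    (hCl : (ι.range ⊔ JS).index ≠ 0) (s : ℕ)
    (hE : (powSub K p).relIndex (sUnits ι JS) = p ^ s)
    (hloc : (US ⊔ powSub J p).relIndex JS = p ^ (2 * s))
    (N₀ N : Subgroup J)
    (hN₀ : ι.range ⊔ powSub J p ⊔ JS ≤ N₀)
    (hN₀i : (powSub K p).relIndex (sha ι p US) ≤ N₀.index)
    (hN : ι.range ⊔ powSub J p ⊔ US ≤ N)
    (hNi : (powSub K p).relIndex (delta ι p JS) ≤ N.index) :
    N = ι.range ⊔ powSub J p ⊔ US ∧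
      (ι.range ⊔ powSub J p ⊔ US).index = (powSub K p).relIndex (delta ι p JS) ∧
      (powSub K p).relIndex (delta ι p JS) ≠ 0 := by
  set c := (ι.range ⊔ powSub J p ⊔ JS).index with hc
  have hc0 : c ≠ 0 := by
    intro h0
    apply hCl
    have hle : ι.range ⊔ JS ≤ ι.range ⊔ powSub J p ⊔ JS :=
      sup_le (le_sup_left.trans le_sup_left) le_sup_right
    have hdvd := index_dvd_of_le hle
    rw [← hc, h0] at hdvd
    exact Nat.eq_zero_of_zero_dvd hdvd
  have hps : p ^ s ≠ 0 := pow_ne_zero _ hp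
  have hC2 := relIndex_powSub_delta ι p JS h1 hCl
  rw [hE, ← hc] at hC2
  have hC1 := index_mul_relIndex_sha ι p JS US hUS
  rw [hloc, ← hc] at hC1
  have hΔ0 : (powSub K p).relIndex (delta ι p JS) ≠ 0 := by
    rw [hC2]; exact mul_ne_zero hps hc0
  have hsplit : (powSub K p).relIndex (sha ι p US) * (sha ι p US).relIndex (delta ι p JS)
      = (powSub K p).relIndex (delta ι p JS) :=
    relIndex_mul_relIndex _ _ _ (powSub_le_sha ι p US) (sha_le_delta ι p JS US hUS)
  have hDS0 : (sha ι p US).relIndex (delta ι p JS) ≠ 0 := by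
    intro h0
    rw [h0, mul_zero] at hsplit
    exact hΔ0 hsplit.symm
  -- `[J : A] = p^s [Ш : Kᵖ]`
  have hA : (ι.range ⊔ powSub J p ⊔ US).index = p ^ s * (powSub K p).relIndex (sha ι p US) := by
    have : (ι.range ⊔ powSub J p ⊔ US).index * (sha ι p US).relIndex (delta ι p JS)
        = p ^ s * (powSub K p).relIndex (sha ι p US) * (sha ι p US).relIndex (delta ι p JS) := by
      rw [hC1, mul_assoc, hsplit, hC2]
      ring
    exact Nat.eq_of_mul_eq_mul_right (Nat.pos_of_ne_zero hDS0) this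
  -- `[Ш : Kᵖ] ≤ c`
  have hN₀c : N₀.index ≤ c := Nat.le_of_dvd (Nat.pos_of_ne_zero hc0) (index_dvd_of_le hN₀)
  have hAle : (ι.range ⊔ powSub J p ⊔ US).index ≤ (powSub K p).relIndex (delta ι p JS) := by
    rw [hA, hC2]
    exact Nat.mul_le_mul_left _ (hN₀i.trans hN₀c)
  have hS0 : (powSub K p).relIndex (sha ι p US) ≠ 0 := by
    intro h0
    rw [h0, zero_mul] at hsplit
    exact hΔ0 hsplit.symm
  have hA0 : (ι.range ⊔ powSub J p ⊔ US).index ≠ 0 := by
    rw [hA]; exact mul_ne_zero hps hS0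
  have hNA : N.index ≤ (ι.range ⊔ powSub J p ⊔ US).index :=
    Nat.le_of_dvd (Nat.pos_of_ne_zero hA0) (index_dvd_of_le hN)
  have hAN : (ι.range ⊔ powSub J p ⊔ US).index = N.index :=
    le_antisymm (hAle.trans hNi) hNA
  have hrel : (ι.range ⊔ powSub J p ⊔ US).relIndex N = 1 := by
    have := relIndex_mul_index hN
    rw [hAN] at this
    have hN0 : N.index ≠ 0 := hAN ▸ hA0
    exact Nat.eq_of_mul_eq_mul_right (Nat.pos_of_ne_zero hN0) (by rw [this, one_mul])
  refine ⟨le_antisymm (relIndex_eq_one.1 hrel) hN, le_antisymm hAle ?_, hΔ0⟩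
  exact hNi.trans hNA

/-- `[J : P Jᵖ U_S] = p^s · [Ш : Kᵖ]` (no reciprocity input). -/
theorem index_eq_pow_mul_relIndex_sha (hp : p ≠ 0) (hUS : US ≤ JS)
    (h1 : ∀ a : J, a ^ p ∈ JS → a ∈ JS) (hCl : (ι.range ⊔ JS).index ≠ 0) (s : ℕ)
    (hE : (powSub K p).relIndex (sUnits ι JS) = p ^ s)
    (hloc : (US ⊔ powSub J p).relIndex JS = p ^ (2 * s)) :
    (ι.range ⊔ powSub J p ⊔ US).index = p ^ s * (powSub K p).relIndex (sha ι p US) ∧
      (powSub K p).relIndex (delta ι p JS) = p ^ s * (ι.range ⊔ powSub J p ⊔ JS).index ∧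
      (powSub K p).relIndex (delta ι p JS) ≠ 0 := by
  set c := (ι.range ⊔ powSub J p ⊔ JS).index with hc
  have hc0 : c ≠ 0 := by
    intro h0
    apply hCl
    have hle : ι.range ⊔ JS ≤ ι.range ⊔ powSub J p ⊔ JS :=
      sup_le (le_sup_left.trans le_sup_left) le_sup_right
    have hdvd := index_dvd_of_le hle
    rw [← hc, h0] at hdvd
    exact Nat.eq_zero_of_zero_dvd hdvd
  have hps : p ^ s ≠ 0 := pow_ne_zero _ hp
  have hC2 := relIndex_powSub_delta ι p JS h1 hCl
  rw [hE, ← hc] at hC2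
  have hC1 := index_mul_relIndex_sha ι p JS US hUS
  rw [hloc, ← hc] at hC1
  have hΔ0 : (powSub K p).relIndex (delta ι p JS) ≠ 0 := by
    rw [hC2]; exact mul_ne_zero hps hc0
  have hsplit : (powSub K p).relIndex (sha ι p US) * (sha ι p US).relIndex (delta ι p JS)
      = (powSub K p).relIndex (delta ι p JS) :=
    relIndex_mul_relIndex _ _ _ (powSub_le_sha ι p US) (sha_le_delta ι p JS US hUS)
  have hDS0 : (sha ι p US).relIndex (delta ι p JS) ≠ 0 := by
    intro h0
    rw [h0, mul_zero] at hsplit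
    exact hΔ0 hsplit.symm
  refine ⟨?_, hC2, hΔ0⟩
  have : (ι.range ⊔ powSub J p ⊔ US).index * (sha ι p US).relIndex (delta ι p JS)
      = p ^ s * (powSub K p).relIndex (sha ι p US) * (sha ι p US).relIndex (delta ι p JS) := by
    rw [hC1, mul_assoc, hsplit, hC2]
    ring
  exact Nat.eq_of_mul_eq_mul_right (Nat.pos_of_ne_zero hDS0) this

/-- Homomorphism form: a surjection `ρ : J → G` (reciprocity map of `F(Δ^{1/p})`) killing
`P Jᵖ U_S` onto a group of order at least `[Δ : Kᵖ]` has kernel exactly `P Jᵖ U_S`. -/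
theorem ker_eq_of_surjective {G G₀ : Type*} [Group G] [Group G₀] (hp : p ≠ 0) (hUS : US ≤ JS)
    (h1 : ∀ a : J, a ^ p ∈ JS → a ∈ JS) (hCl : (ι.range ⊔ JS).index ≠ 0) (s : ℕ)
    (hE : (powSub K p).relIndex (sUnits ι JS) = p ^ s)
    (hloc : (US ⊔ powSub J p).relIndex JS = p ^ (2 * s))
    (ρ₀ : J →* G₀) (hρ₀s : Function.Surjective ρ₀)
    (hρ₀ : ι.range ⊔ powSub J p ⊔ JS ≤ ρ₀.ker)
    (hρ₀c : (powSub K p).relIndex (sha ι p US) ≤ Nat.card G₀)
    (ρ : J →* G) (hρs : Function.Surjective ρ)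
    (hρ : ι.range ⊔ powSub J p ⊔ US ≤ ρ.ker)
    (hρc : (powSub K p).relIndex (delta ι p JS) ≤ Nat.card G) :
    ρ.ker = ι.range ⊔ powSub J p ⊔ US ∧
      Nat.card G = (powSub K p).relIndex (delta ι p JS) := by
  have hidx : ρ.ker.index = Nat.card G := by
    rw [index_ker, MonoidHom.range_eq_top.2 hρs]
    exact Nat.card_congr (Subgroup.topEquiv (G := G)).toEquiv
  have hidx₀ : ρ₀.ker.index = Nat.card G₀ := by
    rw [index_ker, MonoidHom.range_eq_top.2 hρ₀s]
    exact Nat.card_congr (Subgroup.topEquiv (G := G₀)).toEquiv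
  obtain ⟨h, h', _⟩ := normGroup_eq ι p JS US hp hUS h1 hCl s hE hloc ρ₀.ker ρ.ker hρ₀
    (by rw [hidx₀]; exact hρ₀c) hρ (by rw [hidx]; exact hρc)
  refine ⟨h, ?_⟩
  rw [← hidx, h, h']

end Main

end Fermat.Agent.Lib.CFT.Global.ExistenceAbstract
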