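import Mathlib
import Fermat.Agent.Lib.CFT.Global.SecondIneq.Model
import Fermat.Agent.Lib.CFT.Global.SecondIneq.LocalIndexAbstract
import Fermat.Agent.Lib.CFT.Global.SecondIneq.SUnitPow
import Fermat.Agent.Lib.CFT.Global.ExistenceAbstract

/-!
# Existence theorem mod `p` in an abstract idele model (P-CFT, Global/Existence, file 2)

We verify the numerical hypotheses of `ExistenceAbstract.normGroup_eq` for the abstract idele
model `LocalModel F p` of `Global/SecondIneq/Model.lean` and a finite set `S` of primes of `F`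
containing the primes above `p`.
-/

set_option autoImplicit false

namespace Fermat.Agent.Lib.CFT.Global.ExistenceModel

open NumberField IsDedekindDomain Fermat.Agent.Lib.CFT.Global.SUnits
  Fermat.Agent.Lib.CFT.Global.SecondIneq Fermat.Agent.Lib.CFT.Global.ExistenceAbstract

variable {F : Type} [Field F] [NumberField F] {p : ℕ} (M : LocalModel F p)
variable (S : Finset (HeightOneSpectrum (𝓞 F)))

/-- The `S`-ideles of the model: units outside `S`. -/
def JS : Subgroup M.J where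
  carrier := {x | ∀ v, v ∉ S → (x : M.Prod).1 v ∈ M.U v}
  mul_mem' := by
    intro a b ha hb v hv
    exact mul_mem (ha v hv) (hb v hv)
  one_mem' := by
    intro v _
    exact one_mem _
  inv_mem' := by
    intro a ha v hv
    exact inv_mem (ha v hv)

/-- The ideles of the model that are units outside `S` and trivial at `S` and at infinity. -/
def US : Subgroup M.J where
  carrier := {x | (∀ v, v ∉ S → (x : M.Prod).1 v ∈ M.U v) ∧
    (∀ v, v ∈ S → (x : M.Prod).1 v = 1) ∧ (x : M.Prod).2 = 1}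
  mul_mem' := by
    rintro a b ⟨ha1, ha2, ha3⟩ ⟨hb1, hb2, hb3⟩
    refine ⟨fun v hv => mul_mem (ha1 v hv) (hb1 v hv), fun v hv => ?_, ?_⟩
    · change (a : M.Prod).1 v * (b : M.Prod).1 v = 1
      rw [ha2 v hv, hb2 v hv, mul_one]
    · change (a : M.Prod).2 * (b : M.Prod).2 = 1
      rw [ha3, hb3, mul_one]
  one_mem' := ⟨fun v _ => one_mem _, fun _ _ => rfl, rfl⟩
  inv_mem' := by
    rintro a ⟨ha1, ha2, ha3⟩
    refine ⟨fun v hv => inv_mem (ha1 v hv), fun v hv => ?_, ?_⟩
    · change ((a : M.Prod).1 v)⁻¹ = 1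
      rw [ha2 v hv, inv_one]
    · change ((a : M.Prod).2)⁻¹ = 1
      rw [ha3, inv_one]

variable {M S}

lemma mem_JS {x : M.J} : x ∈ JS M S ↔ ∀ v, v ∉ S → (x : M.Prod).1 v ∈ M.U v := Iff.rfl

lemma mem_US {x : M.J} : x ∈ US M S ↔ (∀ v, v ∉ S → (x : M.Prod).1 v ∈ M.U v) ∧
    (∀ v, v ∈ S → (x : M.Prod).1 v = 1) ∧ (x : M.Prod).2 = 1 := Iff.rfl

variable (M S)

lemma US_le_JS : US M S ≤ JS M S := fun _ hx => hx.1

/-- `U v` is saturated: `y ^ n ∈ U v → y ∈ U v` for `n ≠ 0`. -/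
lemma mem_U_of_pow_mem {n : ℕ} (hn : n ≠ 0) (v : HeightOneSpectrum (𝓞 F)) (y : M.Fv v)
    (hy : y ^ n ∈ M.U v) : y ∈ M.U v := by
  rw [← M.ord_ker v, MonoidHom.mem_ker] at hy ⊢
  rw [map_pow] at hy
  have h1 : n • Multiplicative.toAdd (M.ord v y) = 0 := by
    rw [← toAdd_pow, hy]; rfl
  rcases smul_eq_zero.mp h1 with h | h
  · exact absurd h hn
  · exact Multiplicative.toAdd.injective h

/-- `JS` is `p`-saturated in `J`. -/
lemma mem_JS_of_pow_mem (hp : p ≠ 0) (a : M.J) (ha : a ^ p ∈ JS M S) : a ∈ JS M S := by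
  intro v hv
  exact mem_U_of_pow_mem M hp v _ (ha v hv)

/-- The `S`-units of the abstract count are the `S`-units of `F`. -/
lemma sUnits_eq : sUnits M.principal (JS M S) = SUnit F S := by
  ext x
  rw [mem_sUnits, mem_JS, mem_sUnit_iff]
  refine forall_congr' fun v => forall_congr' fun _ => ?_
  rw [LocalModel.principal_fst, M.emb_mem_U_iff]

/-! ### Finiteness of the `S`-class group -/

/-- The projection of the ideles of the model to the component at `v`. -/
def proj (v : HeightOneSpectrum (𝓞 F)) : M.J →* M.Fv v where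
  toFun x := (x : M.Prod).1 v
  map_one' := rfl
  map_mul' _ _ := rfl

@[simp] lemma proj_apply (v : HeightOneSpectrum (𝓞 F)) (x : M.J) :
    proj M v x = (x : M.Prod).1 v := rfl

/-- The additive valuation of the component at `v`. -/
def ordJ (v : HeightOneSpectrum (𝓞 F)) (x : M.J) : ℤ :=
  Multiplicative.toAdd (M.ord v ((x : M.Prod).1 v))

lemma ordJ_mul (v : HeightOneSpectrum (𝓞 F)) (x y : M.J) :
    ordJ M v (x * y) = ordJ M v x + ordJ M v y := by
  change Multiplicative.toAdd (M.ord v ((x : M.Prod).1 v * (y : M.Prod).1 v)) = _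
  rw [map_mul, toAdd_mul]
  rfl

lemma ordJ_inv (v : HeightOneSpectrum (𝓞 F)) (x : M.J) : ordJ M v x⁻¹ = -ordJ M v x := by
  change Multiplicative.toAdd (M.ord v ((x : M.Prod).1 v)⁻¹) = _
  rw [map_inv, toAdd_inv]
  rfl

lemma ordJ_principal (v : HeightOneSpectrum (𝓞 F)) (x : Fˣ) :
    ordJ M v (M.principal x) = ordAt v x := by
  rw [ordJ, LocalModel.principal_fst, M.ord_emb]
  rfl

lemma mem_U_iff_ordJ (v : HeightOneSpectrum (𝓞 F)) (x : M.J) :
    (x : M.Prod).1 v ∈ M.U v ↔ ordJ M v x = 0 := by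
  rw [← M.ord_ker v, MonoidHom.mem_ker, ordJ]
  exact (toAdd_eq_zero).symm

lemma finite_setOf_ordJ_ne_zero (x : M.J) : {v | ordJ M v x ≠ 0}.Finite := by
  refine ((M.mem_ideleSubgroup _).1 x.2).subset ?_
  intro v hv h
  exact hv ((mem_U_iff_ordJ M v x).1 h)

/-- If `S'` is class generating then `J = P · J_{S'}`. -/
lemma principal_sup_JS_eq_top {S' : Finset (HeightOneSpectrum (𝓞 F))}
    (hcg : IsClassGenerating S') : M.principal.range ⊔ JS M S' = ⊤ := by
  rw [eq_top_iff]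
  intro a _
  let n : HeightOneSpectrum (𝓞 F) →₀ ℤ :=
    Finsupp.ofSupportFinite (fun v => ordJ M v a) (finite_setOf_ordJ_ne_zero M a)
  obtain ⟨x, hx⟩ := hcg n
  have h1 : a * (M.principal x)⁻¹ ∈ JS M S' := by
    intro v hv
    rw [mem_U_iff_ordJ, ordJ_mul, ordJ_inv, ordJ_principal, hx v hv]
    change ordJ M v a + -(ordJ M v a) = 0
    ring
  have h2 : a = M.principal x * (a * (M.principal x)⁻¹) := by
    rw [mul_comm a, mul_inv_cancel_left]
  rw [h2]
  exact mul_mem (Subgroup.mem_sup_left ⟨x, rfl⟩) (Subgroup.mem_sup_right h1)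

/-- **Finiteness of the `S`-class group** in the model: `[J : P · J_S] < ∞`. -/
theorem index_principal_sup_JS_ne_zero : (M.principal.range ⊔ JS M S).index ≠ 0 := by
  classical
  obtain ⟨S', hSS', hcg⟩ := exists_isClassGenerating S
  have htop := principal_sup_JS_eq_top M hcg
  -- auxiliary elements
  choose a ha0 ha using fun v : HeightOneSpectrum (𝓞 F) => exists_ordAt_pos_and_eq_zero v
  set T : Finset (HeightOneSpectrum (𝓞 F)) := S' \ S with hT
  let m : HeightOneSpectrum (𝓞 F) → ℕ := fun v => (ordAt v (a v)).toNat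
  have hm : ∀ v, (m v : ℤ) = ordAt v (a v) := fun v => Int.toNat_of_nonneg (ha0 v).le
  have : ∀ v, NeZero (m v) := fun v => ⟨by
    have := ha0 v
    have := hm v
    omega⟩
  -- the reduction map
  let ψv : ∀ v : HeightOneSpectrum (𝓞 F), M.J →* Multiplicative (ZMod (m v)) := fun v =>
    ((Int.castAddHom (ZMod (m v))).toMultiplicative).comp ((M.ord v).comp (proj M v))
  let ψ : M.J →* (∀ v : T, Multiplicative (ZMod (m v))) := MonoidHom.pi fun v : T => ψv v
  have hψ : ∀ (x : M.J) (v : HeightOneSpectrum (𝓞 F)), v ∈ T → x ∈ ψ.ker →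
      (m v : ℤ) ∣ ordJ M v x := by
    intro x v hv hx
    have h1 := congrFun ((MonoidHom.mem_ker).1 hx) ⟨v, hv⟩
    have h2 : ((ordJ M v x : ℤ) : ZMod (m v)) = 0 := h1
    exact (ZMod.intCast_zmod_eq_zero_iff_dvd _ _).1 h2
  -- the key inclusion
  have hker : ψ.ker ⊓ JS M S' ≤ M.principal.range ⊔ JS M S := by
    rintro x ⟨hx1, hx2⟩
    let k : HeightOneSpectrum (𝓞 F) → ℤ := fun v => ordJ M v x / (m v : ℤ)
    have hk : ∀ v ∈ T, ordJ M v x = k v * ordAt v (a v) := by
      intro v hv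
      rw [← hm v]
      exact (Int.ediv_mul_cancel (hψ x v hv hx1)).symm
    set y : Fˣ := ∏ v ∈ T, a v ^ k v with hy
    have hy_ord : ∀ w, ordAt w y = if w ∈ T then k w * ordAt w (a w) else 0 := by
      intro w
      rw [hy, ordAt_prod]
      simp_rw [ordAt_zpow]
      split_ifs with hw
      · rw [Finset.sum_eq_single w]
        · intro v _ hvw
          rw [ha v w (Ne.symm hvw), mul_zero]
        · intro h; exact absurd hw h
      · refine Finset.sum_eq_zero fun v hv => ?_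
        have : w ≠ v := fun h => hw (h ▸ hv)
        rw [ha v w this, mul_zero]
    have h1 : x * (M.principal y)⁻¹ ∈ JS M S := by
      intro w hw
      rw [mem_U_iff_ordJ, ordJ_mul, ordJ_inv, ordJ_principal, hy_ord]
      split_ifs with hwT
      · rw [hk w hwT]; ring
      · have hwS' : w ∉ S' := fun h => hwT (Finset.mem_sdiff.2 ⟨h, hw⟩)
        have := (mem_U_iff_ordJ M w x).1 (hx2 w hwS')
        rw [this]; ring
    have h2 : x = M.principal y * (x * (M.principal y)⁻¹) := by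
      rw [mul_comm x, mul_inv_cancel_left]
    rw [h2]
    exact mul_mem (Subgroup.mem_sup_left ⟨y, rfl⟩) (Subgroup.mem_sup_right h1)
  -- finiteness
  have hfin : ψ.ker.index ≠ 0 := by
    rw [Subgroup.index_ker]
    exact Nat.card_pos.ne'
  have hrel : ψ.ker.relIndex (JS M S') ≠ 0 := fun h0 =>
    hfin (Nat.eq_zero_of_zero_dvd (h0 ▸ Subgroup.relIndex_dvd_index_of_normal ψ.ker (JS M S')))
  have hrel2 : (M.principal.range ⊔ JS M S).relIndex (JS M S') ≠ 0 := by
    intro h0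
    have hd := Subgroup.relIndex_dvd_of_le_left (JS M S') hker
    rw [Subgroup.inf_relIndex_right, h0] at hd
    exact hrel (Nat.eq_zero_of_zero_dvd hd)
  have hle : JS M S ≤ JS M S' := fun x hx v hv => hx v (fun h => hv (hSS' h))
  have hsup : M.principal.range ⊔ JS M S ⊔ JS M S' = ⊤ := by
    rw [sup_assoc, sup_eq_right.2 hle, htop]
  rw [← Subgroup.relIndex_top_right, ← hsup, Subgroup.relIndex_sup_left]
  exact hrel2

/-! ### Local indices of `p`-th powers -/

omit [NumberField F] in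
/-- If `F` contains a primitive `p`-th root of unity and `v` does not divide `p`, then `p` divides
the order of the multiplicative group of the residue field at `v`. -/
lemma prime_dvd_card_residueUnits (hp : p.Prime) {ζ : F} (hζ : IsPrimitiveRoot ζ p)
    (v : HeightOneSpectrum (𝓞 F)) (hv : (p : 𝓞 F) ∉ v.asIdeal) :
    p ∣ Nat.card (𝓞 F ⧸ v.asIdeal)ˣ := by
  have : NeZero p := ⟨hp.ne_zero⟩
  have : Fact p.Prime := ⟨hp⟩
  have hz : IsPrimitiveRoot hζ.toInteger p := hζ.toInteger_isPrimitiveRoot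
  set z : 𝓞 F := hζ.toInteger with hzdef
  set zb : 𝓞 F ⧸ v.asIdeal := Ideal.Quotient.mk v.asIdeal z with hzb
  have hpow : zb ^ p = 1 := by
    rw [hzb, ← map_pow, hz.pow_eq_one, map_one]
  have hne : zb ≠ 1 := by
    intro h1
    have hsum : ∑ i ∈ Finset.range p, z ^ i = 0 := hz.geom_sum_eq_zero hp.one_lt
    have hsum' := congrArg (Ideal.Quotient.mk v.asIdeal) hsum
    rw [map_sum, map_zero] at hsum'
    simp_rw [map_pow, ← hzb, h1, one_pow] at hsum'
    rw [Finset.sum_const, Finset.card_range, nsmul_eq_mul, mul_one] at hsum'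
    apply hv
    rw [← Ideal.Quotient.eq_zero_iff_mem, map_natCast]
    exact hsum'
  let u : (𝓞 F ⧸ v.asIdeal)ˣ := Units.ofPowEqOne zb p hpow hp.ne_zero
  have hu : u ^ p = 1 := by
    ext
    rw [Units.val_pow_eq_pow_val, Units.val_ofPowEqOne, hpow, Units.val_one]
  have hu1 : u ≠ 1 := by
    intro h
    apply hne
    have := congrArg Units.val h
    rwa [Units.val_ofPowEqOne, Units.val_one] at this
  have hord : orderOf u = p := orderOf_eq_prime hu hu1
  rw [← hord]
  exact orderOf_dvd_natCard u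

/-- **Tame local index** in the model: `[F_vˣ : (F_vˣ)ᵖ] = p²` for `v ∤ p`. -/
theorem index_powSubgroup_of_notMem (hp : p.Prime) {ζ : F} (hζ : IsPrimitiveRoot ζ p)
    (v : HeightOneSpectrum (𝓞 F)) (hv : (p : 𝓞 F) ∉ v.asIdeal) :
    (powSubgroup (M.Fv v) p).index = p ^ 2 := by
  have : v.asIdeal.IsMaximal := v.isMaximal
  have : Finite (𝓞 F ⧸ v.asIdeal) := v.asIdeal.finiteQuotientOfFreeOfNeBot v.ne_bot
  let _ : Field (𝓞 F ⧸ v.asIdeal) := Ideal.Quotient.field v.asIdeal
  have hle : (M.ord v).ker ≤ M.U v := le_of_eq (M.ord_ker v)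
  let red' : (M.ord v).ker →* (𝓞 F ⧸ v.asIdeal)ˣ := (M.red v).comp (Subgroup.inclusion hle)
  have hred' : Function.Surjective red' := by
    intro c
    obtain ⟨u, hu⟩ := M.red_surjective v c
    refine ⟨⟨u.1, by rw [M.ord_ker v]; exact u.2⟩, ?_⟩
    change M.red v (Subgroup.inclusion hle _) = c
    rw [← hu]
    congr 1
  have hker' : ∀ u : (M.ord v).ker, red' u = 1 → ∃ u' : (M.ord v).ker, u' ^ p = u := by
    intro u hu
    obtain ⟨w, hw⟩ := M.red_ker v hv (Subgroup.inclusion hle u) hu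
    refine ⟨⟨w.1, by rw [M.ord_ker v]; exact w.2⟩, ?_⟩
    apply Subtype.ext
    have := congrArg Subtype.val hw
    simpa using this
  exact index_range_pow_of_ord_red hp (prime_dvd_card_residueUnits hp hζ v hv) (M.ord v)
    (M.ord_surjective v) red' hred' hker'

/-- The product of the local indices over `S` and infinity. -/
theorem prod_index_powSubgroup (hp : p.Prime) {ζ : F} (hζ : IsPrimitiveRoot ζ p)
    (hS : ∀ v : HeightOneSpectrum (𝓞 F), (p : 𝓞 F) ∈ v.asIdeal → v ∈ S) :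
    (∏ v ∈ S, (powSubgroup (M.Fv v) p).index) * (powSubgroup M.A p).index =
      p ^ (2 * (Fintype.card (InfinitePlace F) + S.card)) := by
  classical
  set P : Finset (HeightOneSpectrum (𝓞 F)) := S.filter fun v => (p : 𝓞 F) ∈ v.asIdeal with hP
  have hPmem : ∀ v, v ∈ P ↔ (p : 𝓞 F) ∈ v.asIdeal := by
    intro v
    rw [hP, Finset.mem_filter]
    exact ⟨fun h => h.2, fun h => ⟨hS v h, h⟩⟩
  have h1 := M.index_p P hPmem
  have h2 : ∏ v ∈ S.filter (fun v => ¬ (p : 𝓞 F) ∈ v.asIdeal), (powSubgroup (M.Fv v) p).index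
      = (p ^ 2) ^ (S.filter (fun v => ¬ (p : 𝓞 F) ∈ v.asIdeal)).card := by
    rw [Finset.prod_eq_pow_card]
    intro v hv
    exact index_powSubgroup_of_notMem M hp hζ v (Finset.mem_filter.1 hv).2
  have h3 : P.card + (S.filter (fun v => ¬ (p : 𝓞 F) ∈ v.asIdeal)).card = S.card :=
    Finset.card_filter_add_card_filter_not _
  rw [← Finset.prod_filter_mul_prod_filter_not S (fun v => (p : 𝓞 F) ∈ v.asIdeal), ← hP, h2,
    mul_right_comm, h1, ← pow_mul, ← pow_add, ← h3]
  congr 1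
  ring

section LocalQuotient

/-- The target of the local quotient map: `∏_{v ∈ S} F_vˣ/(F_vˣ)ᵖ × A/Aᵖ`. -/
abbrev LocQuot : Type :=
  (∀ v : S, M.Fv v ⧸ powSubgroup (M.Fv v) p) × (M.A ⧸ powSubgroup M.A p)

/-- The local quotient map `J → ∏_{v ∈ S} F_vˣ/(F_vˣ)ᵖ × A/Aᵖ`. -/
def locQuotHom : M.J →* LocQuot M S where
  toFun x := (fun v => QuotientGroup.mk ((x : M.Prod).1 v), QuotientGroup.mk (x : M.Prod).2)
  map_one' := rfl
  map_mul' _ _ := rfl

lemma locQuotHom_eq_one_iff (x : M.J) : locQuotHom M S x = 1 ↔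
    (∀ v ∈ S, ∃ z : M.Fv v, z ^ p = (x : M.Prod).1 v) ∧ ∃ z : M.A, z ^ p = (x : M.Prod).2 := by
  rw [Prod.ext_iff]
  constructor
  · rintro ⟨h1, h2⟩
    refine ⟨fun v hv => ?_, ?_⟩
    · have := congrFun h1 ⟨v, hv⟩
      exact (QuotientGroup.eq_one_iff _).1 this
    · exact (QuotientGroup.eq_one_iff _).1 h2
  · rintro ⟨h1, h2⟩
    refine ⟨funext fun v => ?_, ?_⟩
    · exact (QuotientGroup.eq_one_iff _).2 (h1 v.1 v.2)
    · exact (QuotientGroup.eq_one_iff _).2 h2

/-- An idele of the model supported on `S`. -/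
def mkS [DecidablePred (· ∈ S)] (g : ∀ v : S, M.Fv v) (c : M.A) : M.J :=
  ⟨(fun v => if h : v ∈ S then g ⟨v, h⟩ else 1, c), by
    rw [LocalModel.mem_ideleSubgroup]
    refine S.finite_toSet.subset ?_
    intro v hv
    by_contra hvS
    apply hv
    have hvS' : v ∉ S := hvS
    simp only [dif_neg hvS']
    exact one_mem _⟩

lemma mkS_fst_of_mem [DecidablePred (· ∈ S)] (g : ∀ v : S, M.Fv v) (c : M.A)
    {v : HeightOneSpectrum (𝓞 F)} (hv : v ∈ S) : (mkS M S g c : M.Prod).1 v = g ⟨v, hv⟩ := by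
  simp [mkS, dif_pos hv]

lemma mkS_fst_of_notMem [DecidablePred (· ∈ S)] (g : ∀ v : S, M.Fv v) (c : M.A)
    {v : HeightOneSpectrum (𝓞 F)} (hv : v ∉ S) : (mkS M S g c : M.Prod).1 v = 1 := by
  simp [mkS, dif_neg hv]

lemma mkS_snd [DecidablePred (· ∈ S)] (g : ∀ v : S, M.Fv v) (c : M.A) :
    (mkS M S g c : M.Prod).2 = c := rfl

lemma mkS_mem_JS [DecidablePred (· ∈ S)] (g : ∀ v : S, M.Fv v) (c : M.A) :
    mkS M S g c ∈ JS M S := by
  intro v hv
  rw [mkS_fst_of_notMem M S g c hv]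
  exact one_mem _

lemma map_locQuotHom_JS : (JS M S).map (locQuotHom M S) = ⊤ := by
  classical
  rw [eq_top_iff]
  rintro ⟨f, c⟩ _
  choose g hg using fun v : S => QuotientGroup.mk_surjective (f v)
  obtain ⟨cA, hcA⟩ := QuotientGroup.mk_surjective c
  refine ⟨mkS M S g cA, mkS_mem_JS M S g cA, ?_⟩
  refine Prod.ext (funext fun v => ?_) ?_
  · change QuotientGroup.mk ((mkS M S g cA : M.Prod).1 v) = f v
    rw [mkS_fst_of_mem M S g cA v.2]
    exact hg v
  · exact hcA

lemma inf_JS_eq : (US M S ⊔ powSub M.J p) ⊓ JS M S = (locQuotHom M S).ker ⊓ JS M S := by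
  classical
  ext x
  simp only [Subgroup.mem_inf, MonoidHom.mem_ker]
  refine and_congr_left fun hxJ => ?_
  rw [locQuotHom_eq_one_iff, Subgroup.mem_sup]
  constructor
  · rintro ⟨u, hu, w, hw, rfl⟩
    obtain ⟨y, rfl⟩ := mem_powSub.1 hw
    refine ⟨fun v hv => ⟨(y : M.Prod).1 v, ?_⟩, ⟨(y : M.Prod).2, ?_⟩⟩
    · change _ = (u : M.Prod).1 v * ((y : M.Prod).1 v) ^ p
      rw [hu.2.1 v hv, one_mul]
    · change _ = (u : M.Prod).2 * ((y : M.Prod).2) ^ p
      rw [hu.2.2, one_mul]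
  · rintro ⟨h1, zA, hzA⟩
    choose z hz using h1
    let y : M.J := mkS M S (fun v => z v.1 v.2) zA
    refine ⟨x * (y ^ p)⁻¹, ?_, y ^ p, pow_mem_powSub p y, by rw [inv_mul_cancel_right]⟩
    refine ⟨fun v hv => ?_, fun v hv => ?_, ?_⟩
    · change (x : M.Prod).1 v * (((y : M.Prod).1 v) ^ p)⁻¹ ∈ M.U v
      rw [mkS_fst_of_notMem M S _ _ hv, one_pow, inv_one, mul_one]
      exact hxJ v hv
    · change (x : M.Prod).1 v * (((y : M.Prod).1 v) ^ p)⁻¹ = 1
      rw [mkS_fst_of_mem M S _ _ hv, hz v hv, mul_inv_cancel]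
    · change (x : M.Prod).2 * (((y : M.Prod).2) ^ p)⁻¹ = 1
      rw [mkS_snd, hzA, mul_inv_cancel]

lemma card_locQuot : Nat.card (LocQuot M S (p := p)) =
    (∏ v ∈ S, (powSubgroup (M.Fv v) p).index) * (powSubgroup M.A p).index := by
  rw [Nat.card_prod, Nat.card_pi, ← Subgroup.index_eq_card]
  congr 1
  rw [← Finset.prod_coe_sort S (fun v => (powSubgroup (M.Fv v) p).index)]
  exact Finset.prod_congr rfl fun v _ => (Subgroup.index_eq_card _).symm

/-- **The local count**: `[J_S : J_S ∩ U_S Jᵖ] = ∏_{v ∈ S} [F_vˣ : (F_vˣ)ᵖ] · [A : Aᵖ]`. -/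
theorem relIndex_US_sup_pow_JS_eq_prod :
    (US M S ⊔ powSub M.J p).relIndex (JS M S) =
      (∏ v ∈ S, (powSubgroup (M.Fv v) p).index) * (powSubgroup M.A p).index := by
  rw [← Subgroup.inf_relIndex_right, inf_JS_eq, Subgroup.inf_relIndex_right, Subgroup.relIndex_ker,
    map_locQuotHom_JS, ← card_locQuot]
  exact Nat.card_congr (Subgroup.topEquiv (G := LocQuot M S)).toEquiv

end LocalQuotient

/-- **The local count, evaluated**: `[J_S : J_S ∩ U_S Jᵖ] = p ^ (2 s)`, `s = #S_∞ + #S`. -/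
theorem relIndex_US_sup_pow_JS (hp : p.Prime) {ζ : F} (hζ : IsPrimitiveRoot ζ p)
    (hS : ∀ v : HeightOneSpectrum (𝓞 F), (p : 𝓞 F) ∈ v.asIdeal → v ∈ S) :
    (US M S ⊔ powSub M.J p).relIndex (JS M S) =
      p ^ (2 * (Fintype.card (InfinitePlace F) + S.card)) := by
  rw [relIndex_US_sup_pow_JS_eq_prod, prod_index_powSubgroup M S hp hζ hS]

/-! ### Explicit description of `delta` and `sha` in the model -/

lemma ordJ_pow (v : HeightOneSpectrum (𝓞 F)) (x : M.J) (n : ℕ) :
    ordJ M v (x ^ n) = n * ordJ M v x := by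
  change Multiplicative.toAdd (M.ord v (((x : M.Prod).1 v) ^ n)) = _
  rw [map_pow, toAdd_pow]
  simp [ordJ]

/-- An auxiliary idele: prescribed components on `S`, prescribed valuations `k v` outside `S`
(finitely many nonzero), prescribed archimedean component. -/
lemma exists_idele [DecidablePred (· ∈ S)] (g : ∀ v : S, M.Fv v) (c : M.A)
    (k : HeightOneSpectrum (𝓞 F) → ℤ) (hk : {v | k v ≠ 0}.Finite) :
    ∃ y : M.J, (∀ v (hv : v ∈ S), (y : M.Prod).1 v = g ⟨v, hv⟩) ∧
      (∀ v, v ∉ S → ordJ M v y = k v) ∧ (y : M.Prod).2 = c := by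
  classical
  choose π hπ using fun v : HeightOneSpectrum (𝓞 F) =>
    M.ord_surjective v (Multiplicative.ofAdd (k v))
  have hπU : ∀ v, k v = 0 → π v ∈ M.U v := by
    intro v hv
    rw [← M.ord_ker v, MonoidHom.mem_ker, hπ v, hv]
    rfl
  refine ⟨⟨(fun v => if h : v ∈ S then g ⟨v, h⟩ else π v, c), ?_⟩, ?_, ?_, rfl⟩
  · rw [LocalModel.mem_ideleSubgroup]
    refine (S.finite_toSet.union hk).subset ?_
    intro v hv
    by_contra hcon
    simp only [Set.mem_union, Finset.mem_coe, Set.mem_ofPred_eq, not_or, not_not] at hcon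
    apply hv
    have h1 : v ∉ S := hcon.1
    simp only [dif_neg h1]
    exact hπU v hcon.2
  · intro v hv
    simp [dif_pos hv]
  · intro v hv
    simp only [ordJ, dif_neg hv, hπ v]
    rfl

/-- `Δ` in the model: valuations outside `S` divisible by `p`. -/
theorem mem_delta_iff (x : Fˣ) :
    x ∈ delta M.principal p (JS M S) ↔ ∀ v, v ∉ S → (p : ℤ) ∣ ordAt v x := by
  classical
  rw [mem_delta, Subgroup.mem_sup]
  constructor
  · rintro ⟨a, ha, w, hw, hx⟩ v hv
    obtain ⟨y, rfl⟩ := mem_powSub.1 hw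
    have h1 : ordJ M v (M.principal x) = ordJ M v a + ordJ M v (y ^ p) := by
      rw [← hx, ordJ_mul]
    rw [ordJ_principal, (mem_U_iff_ordJ M v a).1 (ha v hv), zero_add, ordJ_pow] at h1
    exact ⟨_, h1⟩
  · intro h
    obtain ⟨y, _, hy2, _⟩ := exists_idele M S (fun _ => 1) 1 (fun v => ordAt v x / (p : ℤ))
      ((LocalModel.finite_setOf_ordAt_ne_zero x).subset (by
        intro v hv h0
        apply hv
        rw [h0, Int.zero_ediv]))
    refine ⟨M.principal x * (y ^ p)⁻¹, ?_, y ^ p, pow_mem_powSub p y,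
      by rw [inv_mul_cancel_right]⟩
    intro v hv
    rw [mem_U_iff_ordJ, ordJ_mul, ordJ_inv, ordJ_pow, ordJ_principal, hy2 v hv,
      Int.mul_ediv_cancel' (h v hv)]
    ring

/-- `Ш` in the model: moreover local `p`-th powers at `S` and at infinity. -/
theorem mem_sha_iff (x : Fˣ) :
    x ∈ sha M.principal p (US M S) ↔ (∀ v, v ∉ S → (p : ℤ) ∣ ordAt v x) ∧
      (∀ v, v ∈ S → ∃ z : M.Fv v, z ^ p = M.emb v x) ∧ ∃ z : M.A, z ^ p = M.embA x := by
  classical
  rw [mem_sha, Subgroup.mem_sup]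
  constructor
  · rintro ⟨u, hu, w, hw, hx⟩
    obtain ⟨y, rfl⟩ := mem_powSub.1 hw
    refine ⟨fun v hv => ?_, fun v hv => ⟨(y : M.Prod).1 v, ?_⟩, ⟨(y : M.Prod).2, ?_⟩⟩
    · have h1 : ordJ M v (M.principal x) = ordJ M v u + ordJ M v (y ^ p) := by
        rw [← hx, ordJ_mul]
      rw [ordJ_principal, (mem_U_iff_ordJ M v u).1 (hu.1 v hv), zero_add, ordJ_pow] at h1
      exact ⟨_, h1⟩
    · have : (M.principal x : M.Prod).1 v = (u : M.Prod).1 v * ((y : M.Prod).1 v) ^ p := by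
        rw [← hx]; rfl
      rw [LocalModel.principal_fst, hu.2.1 v hv, one_mul] at this
      exact this.symm
    · have : (M.principal x : M.Prod).2 = (u : M.Prod).2 * ((y : M.Prod).2) ^ p := by
        rw [← hx]; rfl
      rw [LocalModel.principal_snd, hu.2.2, one_mul] at this
      exact this.symm
  · rintro ⟨h1, h2, zA, hzA⟩
    choose z hz using h2
    obtain ⟨y, hy1, hy2, hy3⟩ := exists_idele M S (fun v => z v.1 v.2) zA
      (fun v => ordAt v x / (p : ℤ))
      ((LocalModel.finite_setOf_ordAt_ne_zero x).subset (by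
        intro v hv h0
        apply hv
        rw [h0, Int.zero_ediv]))
    refine ⟨M.principal x * (y ^ p)⁻¹, ⟨fun v hv => ?_, fun v hv => ?_, ?_⟩, y ^ p,
      pow_mem_powSub p y, by rw [inv_mul_cancel_right]⟩
    · rw [mem_U_iff_ordJ, ordJ_mul, ordJ_inv, ordJ_pow, ordJ_principal, hy2 v hv,
        Int.mul_ediv_cancel' (h1 v hv)]
      ring
    · change M.emb v x * (((y : M.Prod).1 v) ^ p)⁻¹ = 1
      rw [hy1 v hv, hz v hv, mul_inv_cancel]
    · change M.embA x * (((y : M.Prod).2) ^ p)⁻¹ = 1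
      rw [hy3, hzA, mul_inv_cancel]

/-! ### The existence theorem mod `p` in the model -/

/-- **Existence theorem mod `p`, model form.**  Let `F ∋ ζ_p`, `S ⊇ {v | p}`.  If `N₀ ⊇ P Jᵖ J_S`
has index at least `[Ш : Fˣᵖ]` (norm group of `F(Ш^{1/p})`) and `N ⊇ P Jᵖ U_S` has index at least
`[Δ : Fˣᵖ]` (norm group of `F(Δ^{1/p})`), then `N = P Jᵖ U_S`, of index `[Δ : Fˣᵖ]`. -/
theorem normGroup_eq_model (hp : p.Prime) {ζ : F} (hζ : IsPrimitiveRoot ζ p)
    (hS : ∀ v : HeightOneSpectrum (𝓞 F), (p : 𝓞 F) ∈ v.asIdeal → v ∈ S)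
    (N₀ N : Subgroup M.J)
    (hN₀ : M.principal.range ⊔ powSub M.J p ⊔ JS M S ≤ N₀)
    (hN₀i : (powSub Fˣ p).relIndex (sha M.principal p (US M S)) ≤ N₀.index)
    (hN : M.principal.range ⊔ powSub M.J p ⊔ US M S ≤ N)
    (hNi : (powSub Fˣ p).relIndex (delta M.principal p (JS M S)) ≤ N.index) :
    N = M.principal.range ⊔ powSub M.J p ⊔ US M S ∧
      (M.principal.range ⊔ powSub M.J p ⊔ US M S).index =
        (powSub Fˣ p).relIndex (delta M.principal p (JS M S)) ∧
      (powSub Fˣ p).relIndex (delta M.principal p (JS M S)) ≠ 0 := by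
  have h1 : ∀ a : M.J, a ^ p ∈ JS M S → a ∈ JS M S := mem_JS_of_pow_mem M S hp.ne_zero
  have hE' : (powSub Fˣ p).relIndex (sUnits M.principal (JS M S)) =
      p ^ (Fintype.card (InfinitePlace F) + S.card) := by
    rw [relIndex_powSub_sUnits M.principal p (JS M S) h1]
    have key : ∀ H H' : Subgroup Fˣ, H = H' →
        (powMonoidHom p : H →* H).range.index = (powMonoidHom p : H' →* H').range.index := by
      rintro H _ rfl; rfl
    rw [key _ _ (sUnits_eq M S), index_range_pow_sUnit hp hζ S]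
  exact normGroup_eq M.principal p (JS M S) (US M S) hp.ne_zero (US_le_JS M S) h1
    (index_principal_sup_JS_ne_zero M S) _ hE' (relIndex_US_sup_pow_JS M S hp hζ hS) N₀ N
    hN₀ hN₀i hN hNi

/-- The two counts in the model (no reciprocity input):
`[J : P Jᵖ U_S] = p^s [Ш : Fˣᵖ]`, `[Δ : Fˣᵖ] = p^s [J : P Jᵖ J_S]`, `s = #S_∞ + #S`. -/
theorem index_eq_model (hp : p.Prime) {ζ : F} (hζ : IsPrimitiveRoot ζ p)
    (hS : ∀ v : HeightOneSpectrum (𝓞 F), (p : 𝓞 F) ∈ v.asIdeal → v ∈ S) :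
    (M.principal.range ⊔ powSub M.J p ⊔ US M S).index =
        p ^ (Fintype.card (InfinitePlace F) + S.card) *
          (powSub Fˣ p).relIndex (sha M.principal p (US M S)) ∧
      (powSub Fˣ p).relIndex (delta M.principal p (JS M S)) =
        p ^ (Fintype.card (InfinitePlace F) + S.card) *
          (M.principal.range ⊔ powSub M.J p ⊔ JS M S).index ∧
      (powSub Fˣ p).relIndex (delta M.principal p (JS M S)) ≠ 0 := by
  have h1 : ∀ a : M.J, a ^ p ∈ JS M S → a ∈ JS M S := mem_JS_of_pow_mem M S hp.ne_zero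
  have hE' : (powSub Fˣ p).relIndex (sUnits M.principal (JS M S)) =
      p ^ (Fintype.card (InfinitePlace F) + S.card) := by
    rw [relIndex_powSub_sUnits M.principal p (JS M S) h1]
    have key : ∀ H H' : Subgroup Fˣ, H = H' →
        (powMonoidHom p : H →* H).range.index = (powMonoidHom p : H' →* H').range.index := by
      rintro H _ rfl; rfl
    rw [key _ _ (sUnits_eq M S), index_range_pow_sUnit hp hζ S]
  exact index_eq_pow_mul_relIndex_sha M.principal p (JS M S) (US M S) hp.ne_zero (US_le_JS M S) h1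
    (index_principal_sup_JS_ne_zero M S) _ hE' (relIndex_US_sup_pow_JS M S hp hζ hS)

/-- Homomorphism form of `normGroup_eq_model`. -/
theorem ker_eq_of_surjective_model {G G₀ : Type*} [Group G] [Group G₀] (hp : p.Prime) {ζ : F}
    (hζ : IsPrimitiveRoot ζ p)
    (hS : ∀ v : HeightOneSpectrum (𝓞 F), (p : 𝓞 F) ∈ v.asIdeal → v ∈ S)
    (ρ₀ : M.J →* G₀) (hρ₀s : Function.Surjective ρ₀)
    (hρ₀ : M.principal.range ⊔ powSub M.J p ⊔ JS M S ≤ ρ₀.ker)
    (hρ₀c : (powSub Fˣ p).relIndex (sha M.principal p (US M S)) ≤ Nat.card G₀)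
    (ρ : M.J →* G) (hρs : Function.Surjective ρ)
    (hρ : M.principal.range ⊔ powSub M.J p ⊔ US M S ≤ ρ.ker)
    (hρc : (powSub Fˣ p).relIndex (delta M.principal p (JS M S)) ≤ Nat.card G) :
    ρ.ker = M.principal.range ⊔ powSub M.J p ⊔ US M S ∧
      Nat.card G = (powSub Fˣ p).relIndex (delta M.principal p (JS M S)) := by
  have hidx : ρ.ker.index = Nat.card G := by
    rw [Subgroup.index_ker, MonoidHom.range_eq_top.2 hρs]
    exact Nat.card_congr (Subgroup.topEquiv (G := G)).toEquiv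
  have hidx₀ : ρ₀.ker.index = Nat.card G₀ := by
    rw [Subgroup.index_ker, MonoidHom.range_eq_top.2 hρ₀s]
    exact Nat.card_congr (Subgroup.topEquiv (G := G₀)).toEquiv
  obtain ⟨h, h', _⟩ := normGroup_eq_model M S hp hζ hS ρ₀.ker ρ.ker hρ₀
    (by rw [hidx₀]; exact hρ₀c) hρ (by rw [hidx]; exact hρc)
  refine ⟨h, ?_⟩
  rw [← hidx, h, h']

end Fermat.Agent.Lib.CFT.Global.ExistenceModel
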