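import Mathlib
import Fermat.Agent.Lib.CFT.Global.ExistenceModel

/-!
# Existence theorem mod `p`: the perfect Kummer–Artin pairing (P-CFT, Global/Existence, file 3)

In the abstract idele model `KummerModel F p` (with `ζ_p ∈ F`), suppose given a bilinear pairing
`pair : J →* (Fˣ →* Fˣ)` (the Artin–Kummer pairing `⟨x, b⟩ = rec(x)(β)/β`, `β^p = b`) such that the
kernel of `⟨·, b⟩` is the norm group `Fˣ · N J_{F(β)}`.  Then for `S ⊇ {v ∣ p}` the induced pairing
`J/(Fˣ Jᵖ U_S) × Δ_S/Fˣᵖ → μ_p` is perfect.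
-/

set_option autoImplicit false

namespace Fermat.Agent.Lib.CFT.Global.ExistencePairing

open NumberField IsDedekindDomain Fermat.Agent.Lib.CFT.Global.SUnits
  Fermat.Agent.Lib.CFT.Global.SecondIneq Fermat.Agent.Lib.CFT.Global.ExistenceAbstract
  Fermat.Agent.Lib.CFT.Global.ExistenceModel

section Abstract

variable {E : Type*} [Field E]

/-- A field with a primitive `n`-th root of unity has enough roots of unity for every group
killed by `n`. -/
lemma hasEnoughRootsOfUnity_of_forall_pow {n : ℕ} [NeZero n] {ζ : E} (hζ : IsPrimitiveRoot ζ n)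
    (G : Type*) [CommGroup G] (hG : ∀ g : G, g ^ n = 1) :
    HasEnoughRootsOfUnity E (Monoid.exponent G) := by
  have h0 : HasEnoughRootsOfUnity E n := ⟨⟨ζ, hζ⟩, rootsOfUnity.isCyclic E n⟩
  exact HasEnoughRootsOfUnity.of_dvd E (Monoid.exponent_dvd_of_forall_pow_eq_one hG)

/-- `#Hom(G, Eˣ) = #G` for a finite commutative group killed by `n` when `ζ_n ∈ E`. -/
lemma card_monoidHom_units {n : ℕ} [NeZero n] {ζ : E} (hζ : IsPrimitiveRoot ζ n)
    (G : Type*) [CommGroup G] [Finite G] (hG : ∀ g : G, g ^ n = 1) :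
    Nat.card (G →* Eˣ) = Nat.card G := by
  have := hasEnoughRootsOfUnity_of_forall_pow hζ G hG
  exact CommGroup.card_monoidHom_of_hasEnoughRootsOfUnity G E

/-- **Duality.**  A pairing `φ : A → Hom(B, Eˣ)` with `B` finite killed by `n`, `ζ_n ∈ E`, which is
nondegenerate on the `B`-side, is surjective. -/
theorem surjective_of_right_nondegenerate {A B : Type*} [CommGroup A] [CommGroup B] [Finite B]
    {n : ℕ} [NeZero n] {ζ : E} (hζ : IsPrimitiveRoot ζ n) (hB : ∀ b : B, b ^ n = 1)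
    (φ : A →* (B →* Eˣ)) (hφ : ∀ b : B, (∀ a, φ a b = 1) → b = 1) :
    Function.Surjective φ := by
  classical
  have : Finite (B →* Eˣ) := by
    have h := card_monoidHom_units hζ B hB
    have hpos : 0 < Nat.card (B →* Eˣ) := h ▸ Nat.card_pos
    exact (Nat.card_pos_iff.1 hpos).2
  set I : Subgroup (B →* Eˣ) := φ.range with hI
  have hIpow : ∀ χ : I, χ ^ n = 1 := by
    intro χ
    apply Subtype.ext
    ext b
    simp only [Subgroup.coe_pow, MonoidHom.pow_apply, Subgroup.coe_one, MonoidHom.one_apply,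
      ← map_pow, hB b, map_one]
  -- evaluation `B → Hom(I, Eˣ)` is injective
  let ev : B →* (I →* Eˣ) :=
    { toFun := fun b =>
        { toFun := fun χ => (χ : B →* Eˣ) b
          map_one' := rfl
          map_mul' := fun _ _ => rfl }
      map_one' := by ext χ; simp
      map_mul' := fun b b' => by ext χ; simp }
  have hev : Function.Injective ev := by
    rw [injective_iff_map_eq_one]
    intro b hb
    apply hφ b
    intro a
    have := DFunLike.congr_fun hb ⟨φ a, ⟨a, rfl⟩⟩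
    simpa [ev] using this
  have h1 : Nat.card B ≤ Nat.card (I →* Eˣ) := Nat.card_le_card_of_injective ev hev
  rw [card_monoidHom_units hζ I hIpow] at h1
  have h2 : Nat.card (B →* Eˣ) = Nat.card B := card_monoidHom_units hζ B hB
  have h3 : Nat.card I = Nat.card (B →* Eˣ) :=
    le_antisymm (Subgroup.card_le_card_group I) (h2 ▸ h1)
  have h4 : I = ⊤ := Subgroup.eq_top_of_card_eq I h3
  rw [← MonoidHom.range_eq_top, ← hI, h4]

end Abstract

section Model

variable {F : Type} [Field F] [NumberField F] {p : ℕ} (M : KummerModel F p)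
variable (S : Finset (HeightOneSpectrum (𝓞 F)))

/-- The quotient `D / (D ∩ Fˣᵖ)` for a subgroup `D` of `Fˣ`. -/
abbrev QuotPow (p : ℕ) (D : Subgroup Fˣ) : Type := ↥D ⧸ (powSub Fˣ p).subgroupOf D

omit [NumberField F] in
lemma quotPow_pow_eq_one (p : ℕ) (D : Subgroup Fˣ) (b : QuotPow p D) : b ^ p = 1 := by
  obtain ⟨d, rfl⟩ := QuotientGroup.mk_surjective b
  rw [← QuotientGroup.mk_pow, QuotientGroup.eq_one_iff, Subgroup.mem_subgroupOf]
  exact pow_mem_powSub p (d : Fˣ)

omit [NumberField F] in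
lemma natCard_quotPow (p : ℕ) (D : Subgroup Fˣ) :
    Nat.card (QuotPow p D) = (powSub Fˣ p).relIndex D :=
  (Subgroup.index_eq_card _).symm

variable (pair : M.J →* (Fˣ →* Fˣ))

/-- The pairing induced on `D / (D ∩ Fˣᵖ)`. -/
def quotPair (hpow : ∀ (x : M.J) (c : Fˣ), pair x (c ^ p) = 1) (D : Subgroup Fˣ) :
    M.J →* (QuotPow p D →* Fˣ) where
  toFun x := QuotientGroup.lift _ ((pair x).comp D.subtype) (by
    intro d hd
    obtain ⟨c, hc⟩ := mem_powSub.1 (Subgroup.mem_subgroupOf.1 hd)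
    change pair x (d : Fˣ) = 1
    rw [← hc]
    exact hpow x c)
  map_one' := by
    ext b
    simp
  map_mul' x y := by
    ext b
    simp

@[simp] lemma quotPair_mk (hpow : ∀ (x : M.J) (c : Fˣ), pair x (c ^ p) = 1) (D : Subgroup Fˣ)
    (x : M.J) (d : D) :
    quotPair M pair hpow D x (QuotientGroup.mk d) = pair x (d : Fˣ) := rfl

lemma quotPair_eq_one_iff (hpow : ∀ (x : M.J) (c : Fˣ), pair x (c ^ p) = 1) (D : Subgroup Fˣ)
    (x : M.J) : quotPair M pair hpow D x = 1 ↔ ∀ d ∈ D, pair x d = 1 := by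
  constructor
  · intro h d hd
    have := DFunLike.congr_fun h (QuotientGroup.mk ⟨d, hd⟩)
    simpa using this
  · intro h
    refine MonoidHom.ext fun b => ?_
    obtain ⟨d, rfl⟩ := QuotientGroup.mk_surjective b
    exact h d d.2

/-- Surjectivity of the induced pairing from nondegeneracy on the Kummer side. -/
theorem quotPair_surjective (hp : p.Prime) {ζ : F} (hζ : IsPrimitiveRoot ζ p)
    (hpow : ∀ (x : M.J) (c : Fˣ), pair x (c ^ p) = 1)
    (hnd : ∀ b : Fˣ, (∀ x, pair x b = 1) → b ∈ powSub Fˣ p)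
    (D : Subgroup Fˣ) (hD : (powSub Fˣ p).relIndex D ≠ 0) :
    Function.Surjective (quotPair M pair hpow D) := by
  have : NeZero p := ⟨hp.ne_zero⟩
  have hfin : Finite (QuotPow p D) := Subgroup.index_ne_zero_iff_finite.1 hD
  have hζ' : IsPrimitiveRoot ζ p := hζ
  refine surjective_of_right_nondegenerate (B := QuotPow p D) hζ' (quotPow_pow_eq_one p D) _ ?_
  intro b hb
  obtain ⟨d, rfl⟩ := QuotientGroup.mk_surjective b
  rw [QuotientGroup.eq_one_iff, Subgroup.mem_subgroupOf]
  exact hnd d fun x => hb x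

omit [NumberField F] in
lemma card_quotPow_hom (hp : p.Prime) {ζ : F} (hζ : IsPrimitiveRoot ζ p)
    (D : Subgroup Fˣ) (hD : (powSub Fˣ p).relIndex D ≠ 0) :
    Nat.card (QuotPow p D →* Fˣ) = (powSub Fˣ p).relIndex D := by
  have : NeZero p := ⟨hp.ne_zero⟩
  have hfin : Finite (QuotPow p D) := Subgroup.index_ne_zero_iff_finite.1 hD
  rw [card_monoidHom_units hζ (QuotPow p D) (quotPow_pow_eq_one p D), natCard_quotPow]

variable {M pair}

/-- Ideles which are local norms everywhere pair trivially. -/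
lemma pair_eq_one_of_local (hker : ∀ (b : Fˣ) (x : M.J), pair x b = 1 ↔
      x ∈ M.principal.range ⊔ M.Nb b) (b : Fˣ) (x : M.J)
    (h1 : ∀ v, (x : M.Prod).1 v ∈ M.Nloc b v) (h2 : (x : M.Prod).2 ∈ M.NlocA b) :
    pair x b = 1 :=
  (hker b x).2 (Subgroup.mem_sup_right (M.mem_Nb b x h1 h2))

/-- `p`-th powers pair trivially with everything. -/
lemma pair_pow_eq_one (hker : ∀ (b : Fˣ) (x : M.J), pair x b = 1 ↔
      x ∈ M.principal.range ⊔ M.Nb b) (x : M.J) (c : Fˣ) : pair x (c ^ p) = 1 := by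
  refine pair_eq_one_of_local hker _ x (fun v => ?_) ?_
  · rw [M.Nloc_eq_top (c ^ p) v ⟨M.emb v c, by rw [map_pow]⟩]
    exact Subgroup.mem_top _
  · rw [M.NlocA_eq_top (c ^ p) ⟨M.embA c, by rw [map_pow]⟩]
    exact Subgroup.mem_top _

variable (M pair)

/-- **Existence theorem mod `p`: perfectness of the Artin–Kummer pairing (model form).**
`hker` : the kernel of `⟨·, b⟩` is the norm group of `F(b^{1/p})` (reciprocity for cyclic layers +
bilinearity); `hU` : units are local norms at `v ∤ p` when `p ∣ ord_v b` (unramified). -/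
theorem pairing_perfect_model (hp : p.Prime) {ζ : F} (hζ : IsPrimitiveRoot ζ p)
    (hS : ∀ v : HeightOneSpectrum (𝓞 F), (p : 𝓞 F) ∈ v.asIdeal → v ∈ S)
    (hker : ∀ (b : Fˣ) (x : M.J), pair x b = 1 ↔ x ∈ M.principal.range ⊔ M.Nb b)
    (hU : ∀ (b : Fˣ) (v : HeightOneSpectrum (𝓞 F)), (p : 𝓞 F) ∉ v.asIdeal →
      (p : ℤ) ∣ ordAt v b → M.U v ≤ M.Nloc b v) :
    (∀ x : M.J, (∀ b ∈ delta M.principal p (JS M.toLocalModel S), pair x b = 1) →
        x ∈ M.principal.range ⊔ powSub M.J p ⊔ US M.toLocalModel S) ∧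
      (∀ x ∈ M.principal.range ⊔ powSub M.J p ⊔ US M.toLocalModel S,
        ∀ b ∈ delta M.principal p (JS M.toLocalModel S), pair x b = 1) ∧
      (∀ b : Fˣ, (∀ x, pair x b = 1) → b ∈ powSub Fˣ p) ∧
      (M.principal.range ⊔ powSub M.J p ⊔ US M.toLocalModel S).index =
        (powSub Fˣ p).relIndex (delta M.principal p (JS M.toLocalModel S)) ∧
      (powSub Fˣ p).relIndex (delta M.principal p (JS M.toLocalModel S)) ≠ 0 := by
  classical
  set Δ := delta M.principal p (JS M.toLocalModel S) with hΔ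
  set Sh := sha M.principal p (US M.toLocalModel S) with hSh
  have hpow := pair_pow_eq_one (M := M) hker
  -- nondegeneracy on the Kummer side (first inequality)
  have hnd : ∀ b : Fˣ, (∀ x, pair x b = 1) → b ∈ powSub Fˣ p := by
    intro b hb
    have htop : M.principal.range ⊔ M.Nb b = ⊤ := by
      rw [eq_top_iff]
      intro x _
      exact (hker b x).1 (hb x)
    obtain ⟨c, hc⟩ := M.first_ineq b htop
    exact mem_powSub.2 ⟨c, hc⟩
  -- triviality on `P`, `Jᵖ`
  have hP : ∀ (y : Fˣ) (b : Fˣ), pair (M.principal y) b = 1 := fun y b =>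
    (hker b _).2 (Subgroup.mem_sup_left ⟨y, rfl⟩)
  have hJp : ∀ (x : M.J) (b : Fˣ), x ∈ powSub M.J p → pair x b = 1 := by
    intro x b hx
    obtain ⟨y, rfl⟩ := mem_powSub.1 hx
    rw [map_pow, MonoidHom.pow_apply, ← map_pow]
    exact hpow y b
  -- triviality of `U_S` on `Δ`
  have hUS : ∀ x ∈ US M.toLocalModel S, ∀ b ∈ Δ, pair x b = 1 := by
    intro x hx b hb
    have hb' := (mem_delta_iff M.toLocalModel S b).1 hb
    refine pair_eq_one_of_local hker b x (fun v => ?_) ?_
    · by_cases hv : v ∈ S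
      · rw [hx.2.1 v hv]; exact one_mem _
      · exact hU b v (fun h => hv (hS v h)) (hb' v hv) (hx.1 v hv)
    · rw [hx.2.2]; exact one_mem _
  -- triviality of `J_S` on `Ш`
  have hJS : ∀ x ∈ JS M.toLocalModel S, ∀ b ∈ Sh, pair x b = 1 := by
    intro x hx b hb
    obtain ⟨hb1, hb2, hb3⟩ := (mem_sha_iff M.toLocalModel S b).1 hb
    refine pair_eq_one_of_local hker b x (fun v => ?_) ?_
    · by_cases hv : v ∈ S
      · rw [M.Nloc_eq_top b v (hb2 v hv)]; exact Subgroup.mem_top _
      · exact hU b v (fun h => hv (hS v h)) (hb1 v hv) (hx v hv)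
    · rw [M.NlocA_eq_top b hb3]; exact Subgroup.mem_top _
  -- finiteness
  obtain ⟨-, -, hΔ0⟩ := index_eq_model M.toLocalModel S hp hζ hS
  have hShΔ : Sh ≤ Δ := sha_le_delta M.principal p (JS M.toLocalModel S) (US M.toLocalModel S) (US_le_JS M.toLocalModel S)
  have hSh0 : (powSub Fˣ p).relIndex Sh ≠ 0 := by
    intro h0
    have := Subgroup.relIndex_mul_relIndex (powSub Fˣ p) Sh Δ
      (powSub_le_sha M.principal p (US M.toLocalModel S)) hShΔ
    rw [h0, zero_mul] at this
    exact hΔ0 this.symm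
  -- the two surjections
  set ρ := quotPair M pair hpow Δ with hρ
  set ρ₀ := quotPair M pair hpow Sh with hρ₀
  have hρs := quotPair_surjective M pair hp hζ hpow hnd Δ hΔ0
  have hρ₀s := quotPair_surjective M pair hp hζ hpow hnd Sh hSh0
  have hρker : M.principal.range ⊔ powSub M.J p ⊔ US M.toLocalModel S ≤ ρ.ker := by
    refine sup_le (sup_le ?_ ?_) ?_
    · rintro _ ⟨y, rfl⟩
      rw [MonoidHom.mem_ker, hρ, quotPair_eq_one_iff]
      exact fun d _ => hP y d
    · intro x hx
      rw [MonoidHom.mem_ker, hρ, quotPair_eq_one_iff]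
      exact fun d _ => hJp x d hx
    · intro x hx
      rw [MonoidHom.mem_ker, hρ, quotPair_eq_one_iff]
      exact fun d hd => hUS x hx d hd
  have hρ₀ker : M.principal.range ⊔ powSub M.J p ⊔ JS M.toLocalModel S ≤ ρ₀.ker := by
    refine sup_le (sup_le ?_ ?_) ?_
    · rintro _ ⟨y, rfl⟩
      rw [MonoidHom.mem_ker, hρ₀, quotPair_eq_one_iff]
      exact fun d _ => hP y d
    · intro x hx
      rw [MonoidHom.mem_ker, hρ₀, quotPair_eq_one_iff]
      exact fun d _ => hJp x d hx
    · intro x hx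
      rw [MonoidHom.mem_ker, hρ₀, quotPair_eq_one_iff]
      exact fun d hd => hJS x hx d hd
  obtain ⟨hkerρ, hcard⟩ := ker_eq_of_surjective_model M.toLocalModel S hp hζ hS ρ₀ hρ₀s hρ₀ker
    (card_quotPow_hom hp hζ Sh hSh0).ge ρ hρs hρker (card_quotPow_hom hp hζ Δ hΔ0).ge
  refine ⟨?_, ?_, hnd, ?_, hΔ0⟩
  · intro x hx
    rw [← hkerρ, MonoidHom.mem_ker, hρ, quotPair_eq_one_iff]
    exact hx
  · intro x hx b hb
    have hx' : x ∈ ρ.ker := hρker hx
    rw [MonoidHom.mem_ker, hρ, quotPair_eq_one_iff] at hx'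
    exact hx' b hb
  · have hidx : ρ.ker.index = Nat.card (QuotPow p Δ →* Fˣ) := by
      rw [Subgroup.index_ker, MonoidHom.range_eq_top.2 hρs]
      exact Nat.card_congr (Subgroup.topEquiv (G := QuotPow p Δ →* Fˣ)).toEquiv
    rw [← hkerρ, hidx, card_quotPow_hom hp hζ Δ hΔ0]

end Model

end Fermat.Agent.Lib.CFT.Global.ExistencePairing
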