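import Mathlib
import Fermat.Agent.Lib.CFT.Global.ExistencePairing

/-!
# Existence theorem mod `p`: the perfect Kummer–Artin pairing, weak-hypothesis form
(P-CFT, Global/Existence, file 8)

Variant of `pairing_perfect_model` in which the pairing `⟨x, b⟩` is only defined for
`b ∈ Δ_S = {b | p ∣ ord_v b for v ∉ S}` (for other `b` the Kummer character `κ_b` is ramified
outside `S` and is not a character of `G_S`), and in which only the following is assumed:

* `hP`    : principal ideles pair trivially;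
* `hnorm` : idele norms from `F(b^{1/p})` pair trivially with `b` (reciprocity, easy direction);
* `hnd`   : if `⟨x, b⟩ = 1` for all `x` then `b` is a `p`-th power (surjectivity of `rec` + Galois
  theory);
* `hU`    : units are local norms at `v ∤ p` when `p ∣ ord_v b`.
-/

set_option autoImplicit false

namespace Fermat.Agent.Lib.CFT.Global.ExistencePairing

open NumberField IsDedekindDomain Fermat.Agent.Lib.CFT.Global.SUnits
  Fermat.Agent.Lib.CFT.Global.SecondIneq Fermat.Agent.Lib.CFT.Global.ExistenceAbstract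
  Fermat.Agent.Lib.CFT.Global.ExistenceModel

section ModelOn

variable {F : Type} [Field F] [NumberField F] {p : ℕ} (M : KummerModel F p)
variable (S : Finset (HeightOneSpectrum (𝓞 F)))
variable (D : Subgroup Fˣ) (pr : M.J →* (↥D →* Fˣ))

/-- The pairing induced on `D / (D ∩ Fˣᵖ)` by a pairing defined on `D`. -/
def quotPairOn (hpow : ∀ (x : M.J) (d : D), (d : Fˣ) ∈ powSub Fˣ p → pr x d = 1) :
    M.J →* (QuotPow p D →* Fˣ) where
  toFun x := QuotientGroup.lift _ (pr x) (by
    intro d hd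
    exact hpow x d (Subgroup.mem_subgroupOf.1 hd))
  map_one' := by
    refine MonoidHom.ext fun b => ?_
    obtain ⟨d, rfl⟩ := QuotientGroup.mk_surjective b
    change pr 1 d = 1
    rw [map_one, MonoidHom.one_apply]
  map_mul' x y := by
    refine MonoidHom.ext fun b => ?_
    obtain ⟨d, rfl⟩ := QuotientGroup.mk_surjective b
    change pr (x * y) d = pr x d * pr y d
    rw [map_mul, MonoidHom.mul_apply]

@[simp] lemma quotPairOn_mk (hpow : ∀ (x : M.J) (d : D), (d : Fˣ) ∈ powSub Fˣ p → pr x d = 1)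
    (x : M.J) (d : D) :
    quotPairOn M D pr hpow x (QuotientGroup.mk d) = pr x d := rfl

lemma quotPairOn_eq_one_iff (hpow : ∀ (x : M.J) (d : D), (d : Fˣ) ∈ powSub Fˣ p → pr x d = 1)
    (x : M.J) : quotPairOn M D pr hpow x = 1 ↔ ∀ d : D, pr x d = 1 := by
  constructor
  · intro h d
    have := DFunLike.congr_fun h (QuotientGroup.mk d)
    simpa using this
  · intro h
    refine MonoidHom.ext fun b => ?_
    obtain ⟨d, rfl⟩ := QuotientGroup.mk_surjective b
    exact h d

/-- Surjectivity of the induced pairing from nondegeneracy on the Kummer side. -/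
theorem quotPairOn_surjective (hp : p.Prime) {ζ : F} (hζ : IsPrimitiveRoot ζ p)
    (hpow : ∀ (x : M.J) (d : D), (d : Fˣ) ∈ powSub Fˣ p → pr x d = 1)
    (hnd : ∀ d : D, (∀ x, pr x d = 1) → (d : Fˣ) ∈ powSub Fˣ p)
    (hD : (powSub Fˣ p).relIndex D ≠ 0) :
    Function.Surjective (quotPairOn M D pr hpow) := by
  have : NeZero p := ⟨hp.ne_zero⟩
  have hfin : Finite (QuotPow p D) := Subgroup.index_ne_zero_iff_finite.1 hD
  refine surjective_of_right_nondegenerate (B := QuotPow p D) hζ (quotPow_pow_eq_one p D) _ ?_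
  intro b hb
  obtain ⟨d, rfl⟩ := QuotientGroup.mk_surjective b
  rw [QuotientGroup.eq_one_iff, Subgroup.mem_subgroupOf]
  exact hnd d fun x => hb x

/-- The range of a pairing on `D` has as many elements as the range of the induced pairing on
`D / (D ∩ Fˣᵖ)`. -/
lemma card_range_eq_card_range_quotPairOn
    (hpow : ∀ (x : M.J) (d : D), (d : Fˣ) ∈ powSub Fˣ p → pr x d = 1) :
    Nat.card pr.range = Nat.card (quotPairOn M D pr hpow).range := by
  let f : (quotPairOn M D pr hpow).range → pr.range := fun χ =>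
    ⟨(χ : QuotPow p D →* Fˣ).comp (QuotientGroup.mk' _), by
      obtain ⟨x, hx⟩ := χ.2
      refine ⟨x, ?_⟩
      ext d
      rw [← hx]
      rfl⟩
  have hf : Function.Bijective f := by
    constructor
    · intro χ χ' h
      apply Subtype.ext
      refine MonoidHom.ext fun b => ?_
      obtain ⟨d, rfl⟩ := QuotientGroup.mk_surjective b
      exact DFunLike.congr_fun (congrArg Subtype.val h) d
    · rintro ⟨_, ⟨x, rfl⟩⟩
      refine ⟨⟨quotPairOn M D pr hpow x, ⟨x, rfl⟩⟩, ?_⟩
      apply Subtype.ext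
      ext d
      rfl
  exact (Nat.card_congr (Equiv.ofBijective f hf)).symm

end ModelOn

section Weak

variable {F : Type} [Field F] [NumberField F] {p : ℕ} (M : KummerModel F p)
variable (S : Finset (HeightOneSpectrum (𝓞 F)))

/-- **Existence theorem mod `p`: perfectness of the Artin–Kummer pairing (model form, pairing
defined on `Δ_S` only, weak hypotheses).** -/
theorem pairing_perfect_model_weak (hp : p.Prime) {ζ : F} (hζ : IsPrimitiveRoot ζ p)
    (hS : ∀ v : HeightOneSpectrum (𝓞 F), (p : 𝓞 F) ∈ v.asIdeal → v ∈ S)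
    {Δ : Subgroup Fˣ} (hΔ : Δ = delta M.principal p (JS M.toLocalModel S))
    (pair : M.J →* (↥Δ →* Fˣ))
    (hP : ∀ (y : Fˣ) (b : ↥Δ), pair (M.principal y) b = 1)
    (hnorm : ∀ (b : ↥Δ) (x : M.J), x ∈ M.Nb (b : Fˣ) → pair x b = 1)
    (hnd : ∀ b : ↥Δ, (∀ x, pair x b = 1) → (b : Fˣ) ∈ powSub Fˣ p)
    (hU : ∀ (b : Fˣ) (v : HeightOneSpectrum (𝓞 F)), (p : 𝓞 F) ∉ v.asIdeal →
      (p : ℤ) ∣ ordAt v b → M.U v ≤ M.Nloc b v) :
    (∀ x : M.J, (∀ b, pair x b = 1) →
        x ∈ M.principal.range ⊔ powSub M.J p ⊔ US M.toLocalModel S) ∧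
      (∀ x ∈ M.principal.range ⊔ powSub M.J p ⊔ US M.toLocalModel S, ∀ b, pair x b = 1) ∧
      (M.principal.range ⊔ powSub M.J p ⊔ US M.toLocalModel S).index =
        (powSub Fˣ p).relIndex Δ ∧
      (powSub Fˣ p).relIndex Δ ≠ 0 ∧
      Nat.card pair.range = (powSub Fˣ p).relIndex Δ := by
  classical
  set Sh := sha M.principal p (US M.toLocalModel S) with hSh
  have hShΔ : Sh ≤ Δ := hΔ ▸ sha_le_delta M.principal p (JS M.toLocalModel S)
    (US M.toLocalModel S) (US_le_JS M.toLocalModel S)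
  -- ideles which are local norms everywhere pair trivially
  have hloc : ∀ (b : Δ) (x : M.J), (∀ v, (x : M.Prod).1 v ∈ M.Nloc (b : Fˣ) v) →
      (x : M.Prod).2 ∈ M.NlocA (b : Fˣ) → pair x b = 1 := fun b x h1 h2 =>
    hnorm b x (M.mem_Nb (b : Fˣ) x h1 h2)
  -- `p`-th powers pair trivially
  have hpow : ∀ (x : M.J) (d : Δ), (d : Fˣ) ∈ powSub Fˣ p → pair x d = 1 := by
    intro x d hd
    obtain ⟨c, hc⟩ := mem_powSub.1 hd
    refine hloc d x (fun v => ?_) ?_
    · rw [M.Nloc_eq_top (d : Fˣ) v ⟨M.emb v c, by rw [← hc, map_pow]⟩]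
      exact Subgroup.mem_top _
    · rw [M.NlocA_eq_top (d : Fˣ) ⟨M.embA c, by rw [← hc, map_pow]⟩]
      exact Subgroup.mem_top _
  have hJp : ∀ (x : M.J) (b : Δ), x ∈ powSub M.J p → pair x b = 1 := by
    intro x b hx
    obtain ⟨y, rfl⟩ := mem_powSub.1 hx
    rw [map_pow, MonoidHom.pow_apply, ← map_pow]
    exact hpow y (b ^ p) (by rw [Subgroup.coe_pow]; exact pow_mem_powSub p (b : Fˣ))
  -- triviality of `U_S` on `Δ`
  have hUS : ∀ x ∈ US M.toLocalModel S, ∀ b : Δ, pair x b = 1 := by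
    intro x hx b
    have hb' := (mem_delta_iff M.toLocalModel S (b : Fˣ)).1 (hΔ ▸ b.2)
    refine hloc b x (fun v => ?_) ?_
    · by_cases hv : v ∈ S
      · rw [hx.2.1 v hv]; exact one_mem _
      · exact hU (b : Fˣ) v (fun h => hv (hS v h)) (hb' v hv) (hx.1 v hv)
    · rw [hx.2.2]; exact one_mem _
  -- triviality of `J_S` on `Ш`
  have hJS : ∀ x ∈ JS M.toLocalModel S, ∀ b : Δ, (b : Fˣ) ∈ Sh → pair x b = 1 := by
    intro x hx b hb
    obtain ⟨hb1, hb2, hb3⟩ := (mem_sha_iff M.toLocalModel S (b : Fˣ)).1 hb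
    refine hloc b x (fun v => ?_) ?_
    · by_cases hv : v ∈ S
      · rw [M.Nloc_eq_top (b : Fˣ) v (hb2 v hv)]; exact Subgroup.mem_top _
      · exact hU (b : Fˣ) v (fun h => hv (hS v h)) (hb1 v hv) (hx v hv)
    · rw [M.NlocA_eq_top (b : Fˣ) hb3]; exact Subgroup.mem_top _
  -- finiteness
  obtain ⟨-, -, hΔ0⟩ := index_eq_model M.toLocalModel S hp hζ hS
  rw [← hΔ] at hΔ0
  have hSh0 : (powSub Fˣ p).relIndex Sh ≠ 0 := by
    intro h0
    have := Subgroup.relIndex_mul_relIndex (powSub Fˣ p) Sh Δ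
      (powSub_le_sha M.principal p (US M.toLocalModel S)) hShΔ
    rw [h0, zero_mul] at this
    exact hΔ0 this.symm
  -- the restricted pairing on `Ш`
  let pair₀ : M.J →* (↥Sh →* Fˣ) :=
    { toFun := fun x => (pair x).comp (Subgroup.inclusion hShΔ)
      map_one' := by ext b; simp
      map_mul' := fun x y => by ext b; simp }
  have hpow₀ : ∀ (x : M.J) (d : Sh), (d : Fˣ) ∈ powSub Fˣ p → pair₀ x d = 1 := fun x d hd =>
    hpow x (Subgroup.inclusion hShΔ d) hd
  have hnd₀ : ∀ d : Sh, (∀ x, pair₀ x d = 1) → (d : Fˣ) ∈ powSub Fˣ p := fun d hd =>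
    hnd (Subgroup.inclusion hShΔ d) hd
  -- the two surjections
  set ρ := quotPairOn M Δ pair hpow with hρ
  set ρ₀ := quotPairOn M Sh pair₀ hpow₀ with hρ₀
  have hρs := quotPairOn_surjective M Δ pair hp hζ hpow hnd hΔ0
  have hρ₀s := quotPairOn_surjective M Sh pair₀ hp hζ hpow₀ hnd₀ hSh0
  have hρker : M.principal.range ⊔ powSub M.J p ⊔ US M.toLocalModel S ≤ ρ.ker := by
    refine sup_le (sup_le ?_ ?_) ?_
    · rintro _ ⟨y, rfl⟩
      rw [MonoidHom.mem_ker, hρ, quotPairOn_eq_one_iff]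
      exact fun d => hP y d
    · intro x hx
      rw [MonoidHom.mem_ker, hρ, quotPairOn_eq_one_iff]
      exact fun d => hJp x d hx
    · intro x hx
      rw [MonoidHom.mem_ker, hρ, quotPairOn_eq_one_iff]
      exact fun d => hUS x hx d
  have hρ₀ker : M.principal.range ⊔ powSub M.J p ⊔ JS M.toLocalModel S ≤ ρ₀.ker := by
    refine sup_le (sup_le ?_ ?_) ?_
    · rintro _ ⟨y, rfl⟩
      rw [MonoidHom.mem_ker, hρ₀, quotPairOn_eq_one_iff]
      exact fun d => hP y _
    · intro x hx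
      rw [MonoidHom.mem_ker, hρ₀, quotPairOn_eq_one_iff]
      exact fun d => hJp x _ hx
    · intro x hx
      rw [MonoidHom.mem_ker, hρ₀, quotPairOn_eq_one_iff]
      exact fun d => hJS x hx (Subgroup.inclusion hShΔ d) d.2
  obtain ⟨hkerρ, hcard⟩ := ker_eq_of_surjective_model M.toLocalModel S hp hζ hS ρ₀ hρ₀s hρ₀ker
    (card_quotPow_hom hp hζ Sh hSh0).ge ρ hρs hρker
    (hΔ ▸ (card_quotPow_hom hp hζ Δ hΔ0).ge)
  refine ⟨?_, ?_, ?_, hΔ0, ?_⟩
  · intro x hx
    rw [← hkerρ, MonoidHom.mem_ker, hρ, quotPairOn_eq_one_iff]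
    exact hx
  · intro x hx b
    have hx' : x ∈ ρ.ker := hρker hx
    rw [MonoidHom.mem_ker, hρ, quotPairOn_eq_one_iff] at hx'
    exact hx' b
  · have hidx : ρ.ker.index = Nat.card (QuotPow p Δ →* Fˣ) := by
      rw [Subgroup.index_ker, MonoidHom.range_eq_top.2 hρs]
      exact Nat.card_congr (Subgroup.topEquiv (G := QuotPow p Δ →* Fˣ)).toEquiv
    rw [← hkerρ, hidx, card_quotPow_hom hp hζ Δ hΔ0]
  · rw [card_range_eq_card_range_quotPairOn M Δ pair hpow, ← hρ, MonoidHom.range_eq_top.2 hρs]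
    rw [Nat.card_congr (Subgroup.topEquiv (G := QuotPow p Δ →* Fˣ)).toEquiv,
      card_quotPow_hom hp hζ Δ hΔ0]

end Weak

end Fermat.Agent.Lib.CFT.Global.ExistencePairing
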