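import Mathlib
import Fermat.Agent.Lib.CFT.Coh.ClassFormation.Formation

/-!
# Existence theorem mod `p` in a class formation (P-CFT, Global/Existence, file 4)

Abstract statements on top of `Coh.ClassFormation.Formation`:

* `evalRec` : the value `φ (rec x)` of a character `φ : Γ →* μ` trivial on a normal level `U` on
  the reciprocity map of level `U`; it does not depend on `U` (`evalRec_compat`), is multiplicative
  in `x` and in `φ`, and for `ker φ = U` vanishes exactly on the norms from level `U`.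
* `levelPair` : the bilinear pairing `C^Γ × D → μ`, `(x, d) ↦ κ_d (rec x)`, attached to a family of
  characters `κ : D →* (Γ →* μ)` with level kernels (Kummer characters).
* `recMap_eq_zero_iff_of_card`, `card_quot_eq_of_card`, `le_ker_of_card` : if `[C^Γ : p C^Γ] = N` and
  `U₀` is a normal level with `Γ ⧸ U₀` abelian of exponent `p` and order `≥ N`, then the
  reciprocity map identifies `C^Γ / p` with `Γ ⧸ U₀`, and every character of exponent `p` of `Γ`
  trivial on some level is trivial on `U₀`.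
-/

set_option autoImplicit false
set_option linter.unusedSectionVars false

universe u

namespace Fermat.Agent.Lib.CFT.Global.ExistenceFormation

open Fermat.Agent.Lib.CFT.Profinite Fermat.Agent.Lib.CFT.Coh.ClassFormation

variable {k Γ : Type u} [CommRing k] [Group Γ] (F : Formation k Γ)

section EvalRec

variable {μ : Type*} [CommGroup μ]

/-- A character of `Γ` trivial on the normal subgroup `U`, as a character of `(Γ ⧸ U)^ab`. -/
def charLevel (U : Subgroup Γ) [U.Normal] (φ : Γ →* μ) (hφ : U ≤ φ.ker) :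
    Abelianization (Γ ⧸ U) →* μ :=
  Abelianization.lift (QuotientGroup.lift U φ hφ)

@[simp] lemma charLevel_of_mk (U : Subgroup Γ) [U.Normal] (φ : Γ →* μ) (hφ : U ≤ φ.ker) (g : Γ) :
    charLevel U φ hφ (Abelianization.of (g : Γ ⧸ U)) = φ g := by
  simp [charLevel]

lemma charLevel_mul (U : Subgroup Γ) [U.Normal] (φ ψ : Γ →* μ) (hφ : U ≤ φ.ker)
    (hψ : U ≤ ψ.ker) (hφψ : U ≤ (φ * ψ).ker) (y : Abelianization (Γ ⧸ U)) :
    charLevel U (φ * ψ) hφψ y = charLevel U φ hφ y * charLevel U ψ hψ y := by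
  obtain ⟨q, rfl⟩ := abOf_surjective (Γ ⧸ U) y
  induction q using QuotientGroup.induction_on with
  | H g => simp

lemma charLevel_map (U U' : Subgroup Γ) [U.Normal] [U'.Normal] (hle : U' ≤ U) (φ : Γ →* μ)
    (hφ : U ≤ φ.ker) (y : Abelianization (Γ ⧸ U')) :
    charLevel U φ hφ (Abelianization.map (levelMap U U' hle) y) =
      charLevel U' φ (hle.trans hφ) y := by
  obtain ⟨q, rfl⟩ := abOf_surjective (Γ ⧸ U') y
  induction q using QuotientGroup.induction_on with
  | H g =>
    rw [Abelianization.map_of]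
    change charLevel U φ hφ (Abelianization.of ((g : Γ) : Γ ⧸ U)) = _
    simp

lemma charLevel_injective (U : Subgroup Γ) [U.Normal] (φ : Γ →* μ) (hφ : φ.ker = U) :
    Function.Injective (charLevel U φ hφ.ge) := by
  rw [injective_iff_map_eq_one]
  intro y hy
  obtain ⟨q, rfl⟩ := abOf_surjective (Γ ⧸ U) y
  induction q using QuotientGroup.induction_on with
  | H g =>
    rw [charLevel_of_mk] at hy
    have hg : g ∈ U := hφ ▸ (MonoidHom.mem_ker.2 hy)
    rw [(QuotientGroup.eq_one_iff g).2 hg, map_one]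

/-- `φ (rec_U x)` for a character `φ` trivial on the normal level `U`. -/
noncomputable def evalRec (U : Subgroup Γ) [U.Normal] (hU : U ∈ F.𝒰.levels) (φ : Γ →* μ)
    (hφ : U ≤ φ.ker) (x : F.C.ρ.invariants) : μ :=
  charLevel U φ hφ (Additive.toMul (F.recMap U hU x))

lemma evalRec_zero (U : Subgroup Γ) [U.Normal] (hU : U ∈ F.𝒰.levels) (φ : Γ →* μ)
    (hφ : U ≤ φ.ker) : evalRec F U hU φ hφ 0 = 1 := by
  rw [evalRec, map_zero, toMul_zero, map_one]

lemma evalRec_add (U : Subgroup Γ) [U.Normal] (hU : U ∈ F.𝒰.levels) (φ : Γ →* μ)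
    (hφ : U ≤ φ.ker) (x y : F.C.ρ.invariants) :
    evalRec F U hU φ hφ (x + y) = evalRec F U hU φ hφ x * evalRec F U hU φ hφ y := by
  rw [evalRec, map_add, toMul_add, map_mul]
  rfl

lemma evalRec_nsmul (U : Subgroup Γ) [U.Normal] (hU : U ∈ F.𝒰.levels) (φ : Γ →* μ)
    (hφ : U ≤ φ.ker) (n : ℕ) (x : F.C.ρ.invariants) :
    evalRec F U hU φ hφ (n • x) = evalRec F U hU φ hφ x ^ n := by
  rw [evalRec, map_nsmul, toMul_nsmul, map_pow]
  rfl

lemma evalRec_mul_char (U : Subgroup Γ) [U.Normal] (hU : U ∈ F.𝒰.levels) (φ ψ : Γ →* μ)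
    (hφ : U ≤ φ.ker) (hψ : U ≤ ψ.ker) (hφψ : U ≤ (φ * ψ).ker) (x : F.C.ρ.invariants) :
    evalRec F U hU (φ * ψ) hφψ x = evalRec F U hU φ hφ x * evalRec F U hU ψ hψ x :=
  charLevel_mul U φ ψ hφ hψ hφψ _

/-- Independence of the level. -/
lemma evalRec_compat (U U' : Subgroup Γ) [U.Normal] [U'.Normal] (hU : U ∈ F.𝒰.levels)
    (hU' : U' ∈ F.𝒰.levels) (hle : U' ≤ U) (φ : Γ →* μ) (hφ : U ≤ φ.ker)
    (x : F.C.ρ.invariants) :
    evalRec F U' hU' φ (hle.trans hφ) x = evalRec F U hU φ hφ x := by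
  rw [evalRec, evalRec, F.recMap_compat U U' hU hU' hle x, toMul_ofMul, charLevel_map]

/-- For `ker φ = U`, `φ (rec_U x) = 1` iff `rec_U x = 0` (iff `x` is a norm from level `U`). -/
lemma evalRec_eq_one_iff (U : Subgroup Γ) [U.Normal] (hU : U ∈ F.𝒰.levels) (φ : Γ →* μ)
    (hφ : φ.ker = U) (x : F.C.ρ.invariants) :
    evalRec F U hU φ hφ.ge x = 1 ↔ F.recMap U hU x = 0 := by
  rw [evalRec, ← map_one (charLevel U φ hφ.ge), (charLevel_injective U φ hφ).eq_iff]
  exact Iff.rfl

end EvalRec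

section Pairing

variable {μ : Type*} [CommGroup μ] {D : Type*} [CommGroup D] (κ : D →* (Γ →* μ))
  (hκ : ∀ d, (κ d).ker ∈ F.𝒰.levels)

/-- The pairing `(x, d) ↦ κ_d (rec x)`. -/
noncomputable def levelPair (x : F.C.ρ.invariants) (d : D) : μ :=
  evalRec F (κ d).ker (hκ d) (κ d) le_rfl x

lemma levelPair_eq_evalRec (U : Subgroup Γ) [U.Normal] (hU : U ∈ F.𝒰.levels) (d : D)
    (hd : U ≤ (κ d).ker) (x : F.C.ρ.invariants) :
    levelPair F κ hκ x d = evalRec F U hU (κ d) hd x :=
  (evalRec_compat F (κ d).ker U (hκ d) hU hd (κ d) le_rfl x).symm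

lemma levelPair_add (x y : F.C.ρ.invariants) (d : D) :
    levelPair F κ hκ (x + y) d = levelPair F κ hκ x d * levelPair F κ hκ y d :=
  evalRec_add F _ _ _ _ x y

lemma levelPair_zero (d : D) : levelPair F κ hκ 0 d = 1 := evalRec_zero F _ _ _ _

lemma levelPair_mul (x : F.C.ρ.invariants) (d d' : D) :
    levelPair F κ hκ x (d * d') = levelPair F κ hκ x d * levelPair F κ hκ x d' := by
  obtain ⟨W, hW, hWd, hWd', hWn⟩ := F.𝒰.exists_normal_le_inf (hκ d) (hκ d')
  have := hWn
  have hWdd' : W ≤ (κ (d * d')).ker := by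
    intro g hg
    rw [MonoidHom.mem_ker, map_mul, MonoidHom.mul_apply, MonoidHom.mem_ker.1 (hWd hg),
      MonoidHom.mem_ker.1 (hWd' hg), one_mul]
  rw [levelPair_eq_evalRec F κ hκ W hW (d * d') hWdd', levelPair_eq_evalRec F κ hκ W hW d hWd,
    levelPair_eq_evalRec F κ hκ W hW d' hWd']
  have h1 : κ (d * d') = κ d * κ d' := map_mul κ d d'
  have key : ∀ (ψ : Γ →* μ) (hψ : ψ = κ d * κ d') (h : W ≤ ψ.ker),
      evalRec F W hW ψ h x = evalRec F W hW (κ d) hWd x * evalRec F W hW (κ d') hWd' x := by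
    intro ψ hψ h
    subst hψ
    exact evalRec_mul_char F W hW (κ d) (κ d') hWd hWd' h x
  exact key _ h1 hWdd'

lemma levelPair_one (x : F.C.ρ.invariants) : levelPair F κ hκ x 1 = 1 := by
  have h := levelPair_mul F κ hκ x 1 1
  rw [mul_one] at h
  exact (mul_eq_left.1 h.symm)

/-- The pairing as a homomorphism `Multiplicative (C^Γ) →* (D →* μ)`. -/
noncomputable def levelPairHom : Multiplicative F.C.ρ.invariants →* (D →* μ) where
  toFun x :=
    { toFun := fun d => levelPair F κ hκ (Multiplicative.toAdd x) d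
      map_one' := levelPair_one F κ hκ _
      map_mul' := fun d d' => levelPair_mul F κ hκ _ d d' }
  map_one' := by
    ext d
    exact levelPair_zero F κ hκ d
  map_mul' x y := by
    ext d
    exact levelPair_add F κ hκ _ _ d

@[simp] lemma levelPairHom_apply (x : Multiplicative F.C.ρ.invariants) (d : D) :
    levelPairHom F κ hκ x d = levelPair F κ hκ (Multiplicative.toAdd x) d := rfl

/-- The kernel of `⟨·, d⟩` is the group of norms from the level `ker κ_d`. -/
lemma levelPair_eq_one_iff (x : F.C.ρ.invariants) (d : D) :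
    levelPair F κ hκ x d = 1 ↔ F.recMap (κ d).ker (hκ d) x = 0 :=
  evalRec_eq_one_iff F (κ d).ker (hκ d) (κ d) rfl x

/-- For a normal level `U₀` contained in all the kernels, the pairing factors through `rec_{U₀}`. -/
lemma levelPair_eq_one_of_recMap_eq_zero (U₀ : Subgroup Γ) [U₀.Normal] (hU₀ : U₀ ∈ F.𝒰.levels)
    (hle : ∀ d, U₀ ≤ (κ d).ker) (x : F.C.ρ.invariants) (hx : F.recMap U₀ hU₀ x = 0) (d : D) :
    levelPair F κ hκ x d = 1 := by
  rw [levelPair_eq_evalRec F κ hκ U₀ hU₀ d (hle d), evalRec, hx, toMul_zero, map_one]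

end Pairing

section KummerLevel

variable {μ : Type*} [CommGroup μ] {D : Type*} [CommGroup D] (κ : D →* (Γ →* μ))
  (hκ : ∀ d, (κ d).ker ∈ F.𝒰.levels) (U₀ : Subgroup Γ) [U₀.Normal] (hU₀ : U₀ ∈ F.𝒰.levels)

/-- If `U₀` is the common kernel of the characters `κ_d`, then `Γ ⧸ U₀` is commutative. -/
lemma quot_comm_of_forall_ker (hinj : ∀ g : Γ, (∀ d, κ d g = 1) → g ∈ U₀) (a b : Γ ⧸ U₀) :
    a * b = b * a := by
  induction a using QuotientGroup.induction_on with
  | H g =>
    induction b using QuotientGroup.induction_on with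
    | H h =>
      rw [← QuotientGroup.mk_mul, ← QuotientGroup.mk_mul, QuotientGroup.eq]
      apply hinj
      intro d
      simp only [map_mul, map_inv]
      rw [mul_comm (κ d g) (κ d h), inv_mul_cancel]

/-- If moreover the `κ_d` have exponent `p`, then `Γ ⧸ U₀` has exponent `p`. -/
lemma quot_pow_of_forall_ker (p : ℕ) (hinj : ∀ g : Γ, (∀ d, κ d g = 1) → g ∈ U₀)
    (hpow : ∀ d g, κ d g ^ p = 1) (a : Γ ⧸ U₀) : a ^ p = 1 := by
  induction a using QuotientGroup.induction_on with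
  | H g =>
    rw [← QuotientGroup.mk_pow, QuotientGroup.eq_one_iff]
    apply hinj
    intro d
    rw [map_pow, hpow]

include hU₀ in
/-- The pairing `x ↦ ⟨x, ·⟩` factors through `rec_{U₀}`: its image has at most `#(Γ ⧸ U₀)`
elements. -/
theorem card_range_levelPairHom_le (hle : ∀ d, U₀ ≤ (κ d).ker) :
    Nat.card (levelPairHom F κ hκ).range ≤ Nat.card (Γ ⧸ U₀) := by
  have := F.𝒰.finiteIndex U₀ hU₀
  have hfin : Finite (Γ ⧸ U₀) := Subgroup.finite_quotient_of_finiteIndex
  -- the factorisation through the abelianisation of `Γ ⧸ U₀`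
  let f : Γ ⧸ U₀ → (D →* μ) := fun q =>
    { toFun := fun d => charLevel U₀ (κ d) (hle d) (Abelianization.of q)
      map_one' := by
        induction q using QuotientGroup.induction_on with
        | H g => rw [charLevel_of_mk, map_one, MonoidHom.one_apply]
      map_mul' := fun d d' => by
        induction q using QuotientGroup.induction_on with
        | H g => rw [charLevel_of_mk, charLevel_of_mk, charLevel_of_mk, map_mul,
            MonoidHom.mul_apply] }
  have hsub : ((levelPairHom F κ hκ).range : Set (D →* μ)) ⊆ Set.range f := by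
    rintro _ ⟨x, rfl⟩
    obtain ⟨q, hq⟩ := abOf_surjective (Γ ⧸ U₀)
      (Additive.toMul (F.recMap U₀ hU₀ (Multiplicative.toAdd x)))
    refine ⟨q, ?_⟩
    ext d
    change charLevel U₀ (κ d) (hle d) (Abelianization.of q) =
      levelPair F κ hκ (Multiplicative.toAdd x) d
    rw [levelPair_eq_evalRec F κ hκ U₀ hU₀ d (hle d), evalRec, hq]
  calc Nat.card (levelPairHom F κ hκ).range
      = Nat.card ((levelPairHom F κ hκ).range : Set (D →* μ)) := rfl
    _ ≤ Nat.card (Set.range f) := Nat.card_mono (Set.finite_range f) hsub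
    _ ≤ Nat.card (Γ ⧸ U₀) := Nat.card_le_card_of_surjective (Set.rangeFactorization f)
        Set.rangeFactorization_surjective

end KummerLevel

section Count

variable (p : ℕ) (U₀ : Subgroup Γ) [U₀.Normal] (hU₀ : U₀ ∈ F.𝒰.levels)

/-- `p C^Γ`. -/
noncomputable abbrev pMul : AddSubgroup F.C.ρ.invariants :=
  (nsmulAddMonoidHom p : F.C.ρ.invariants →+ F.C.ρ.invariants).range

lemma mem_pMul {x : F.C.ρ.invariants} : x ∈ pMul F p ↔ ∃ y : F.C.ρ.invariants, p • y = x :=
  Iff.rfl

include hU₀ in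
lemma pMul_le_ker (hexp : ∀ g : Γ ⧸ U₀, g ^ p = 1) : pMul F p ≤ (F.recMap U₀ hU₀).ker := by
  rintro _ ⟨y, rfl⟩
  rw [AddMonoidHom.mem_ker]
  change F.recMap U₀ hU₀ (p • y) = 0
  rw [map_nsmul]
  obtain ⟨z, hz⟩ := Additive.ofMul.surjective (F.recMap U₀ hU₀ y)
  rw [← hz, ← ofMul_pow]
  obtain ⟨q, rfl⟩ := abOf_surjective (Γ ⧸ U₀) z
  rw [← map_pow, hexp q, map_one]
  rfl

/-- **Existence theorem mod `p` in a formation.**  If `[C^Γ : p C^Γ] = N ≠ 0` and `U₀` is a normal
level with `Γ ⧸ U₀` abelian of exponent `p` and order at least `N`, then `#(Γ ⧸ U₀) = N` and the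
kernel of `rec_{U₀}` is `p C^Γ`. -/
theorem card_quot_and_ker_of_card (hexp : ∀ g : Γ ⧸ U₀, g ^ p = 1)
    (hcomm : ∀ g h : Γ ⧸ U₀, g * h = h * g) (hN0 : (pMul F p).index ≠ 0)
    (hcard : (pMul F p).index ≤ Nat.card (Γ ⧸ U₀)) :
    Nat.card (Γ ⧸ U₀) = (pMul F p).index ∧ (F.recMap U₀ hU₀).ker = pMul F p := by
  have hle := pMul_le_ker F p U₀ hU₀ hexp
  have hidx : (F.recMap U₀ hU₀).ker.index = Nat.card (Γ ⧸ U₀) := by
    rw [AddSubgroup.index_ker, AddMonoidHom.range_eq_top.2 (F.recMap_surjective U₀ hU₀)]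
    let _ : CommGroup (Γ ⧸ U₀) := { (inferInstance : Group (Γ ⧸ U₀)) with mul_comm := hcomm }
    have e1 : (⊤ : AddSubgroup (Additive (Abelianization (Γ ⧸ U₀)))) ≃
        Additive (Abelianization (Γ ⧸ U₀)) := AddSubgroup.topEquiv.toEquiv
    rw [Nat.card_congr e1]
    exact (Nat.card_congr (Abelianization.equivOfComm (H := Γ ⧸ U₀)).toEquiv).symm
  have hdvd : (F.recMap U₀ hU₀).ker.index ∣ (pMul F p).index := AddSubgroup.index_dvd_of_le hle
  have h1 : Nat.card (Γ ⧸ U₀) = (pMul F p).index := by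
    rw [hidx] at hdvd
    exact le_antisymm (Nat.le_of_dvd (Nat.pos_of_ne_zero hN0) hdvd) hcard
  refine ⟨h1, le_antisymm ?_ hle⟩
  have h2 := AddSubgroup.relIndex_mul_index hle
  rw [hidx, h1] at h2
  have h3 : (pMul F p).relIndex (F.recMap U₀ hU₀).ker = 1 := by
    have := Nat.eq_of_mul_eq_mul_right (Nat.pos_of_ne_zero hN0) (h2.trans (one_mul _).symm)
    exact this
  exact AddSubgroup.relIndex_eq_one.1 h3

/-- Every character of exponent `p` of `Γ` which is trivial on some level is trivial on `U₀`: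
`U₀` is the smallest level with abelian quotient of exponent `p`. -/
theorem le_ker_of_ker_eq (hker : (F.recMap U₀ hU₀).ker = pMul F p) {X : Type*} [CommGroup X]
    (hX : ∀ x : X, x ^ p = 1) (φ : Γ →* X) (W : Subgroup Γ) (hW : W ∈ F.𝒰.levels)
    (hφ : W ≤ φ.ker) : U₀ ≤ φ.ker := by
  obtain ⟨W', hW', hW'W, hW'U₀, hW'n⟩ := F.𝒰.exists_normal_le_inf hW hU₀
  have := hW'n
  intro γ hγ
  obtain ⟨a, ha⟩ := F.recMap_surjective W' hW'
    (Additive.ofMul (Abelianization.of ((γ : Γ) : Γ ⧸ W')))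
  have h0 : F.recMap U₀ hU₀ a = 0 := by
    rw [F.recMap_compat U₀ W' hU₀ hW' hW'U₀ a, ha, toMul_ofMul, Abelianization.map_of]
    change Additive.ofMul (Abelianization.of ((γ : Γ) : Γ ⧸ U₀)) = 0
    rw [(QuotientGroup.eq_one_iff γ).2 hγ, map_one]
    rfl
  have ha' : a ∈ pMul F p := by
    rw [← hker]
    exact h0
  obtain ⟨y, rfl⟩ := ha'
  have h1 : evalRec F W' hW' φ (hW'W.trans hφ) (p • y) = φ γ := by
    have h2 : F.recMap W' hW' (p • y) =
        Additive.ofMul (Abelianization.of ((γ : Γ) : Γ ⧸ W')) := ha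
    rw [evalRec, h2, toMul_ofMul, charLevel_of_mk]
  rw [MonoidHom.mem_ker, ← h1, evalRec_nsmul, hX]

/-- **Left nondegeneracy** of `(x, φ) ↦ φ (rec x)`: an element of `C^Γ` killed by all characters
of `Γ ⧸ U₀` is divisible by `p` (`μ` any target whose characters separate the points of
`Γ ⧸ U₀`). -/
theorem mem_pMul_iff_forall_evalRec (hker : (F.recMap U₀ hU₀).ker = pMul F p) {μ : Type*}
    [CommGroup μ] (hsep : ∀ g : Γ ⧸ U₀, g ≠ 1 → ∃ ψ : Γ ⧸ U₀ →* μ, ψ g ≠ 1)
    (x : F.C.ρ.invariants) :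
    x ∈ pMul F p ↔ ∀ (φ : Γ →* μ) (hφ : U₀ ≤ φ.ker), evalRec F U₀ hU₀ φ hφ x = 1 := by
  constructor
  · intro hx φ hφ
    rw [← hker] at hx
    have h0 : F.recMap U₀ hU₀ x = 0 := hx
    rw [evalRec, h0, toMul_zero, map_one]
  · intro h
    rw [← hker]
    change F.recMap U₀ hU₀ x = 0
    obtain ⟨q, hq⟩ := abOf_surjective (Γ ⧸ U₀) (Additive.toMul (F.recMap U₀ hU₀ x))
    by_contra hne
    have hq1 : q ≠ 1 := by
      rintro rfl
      apply hne
      rw [map_one] at hq
      exact Additive.toMul.injective hq.symm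
    obtain ⟨ψ, hψ⟩ := hsep q hq1
    have hφ : U₀ ≤ (ψ.comp (QuotientGroup.mk' U₀)).ker := by
      intro g hg
      rw [MonoidHom.mem_ker, MonoidHom.comp_apply, QuotientGroup.mk'_apply,
        (QuotientGroup.eq_one_iff g).2 hg, map_one]
    have h1 := h (ψ.comp (QuotientGroup.mk' U₀)) hφ
    rw [evalRec, ← hq] at h1
    induction q using QuotientGroup.induction_on with
    | H g =>
      rw [charLevel_of_mk] at h1
      exact hψ h1

end Count

end Fermat.Agent.Lib.CFT.Global.ExistenceFormation
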