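import Mathlib
import Fermat.Agent.Lib.CFT.Global.ExistenceFormation

/-!
# Existence theorem mod `p` in a formation: the `ℤ/p`-character form (P-CFT, Global/Existence, file 6)

The three hypotheses (LEFT, RIGHT, FINITENESS) consumed by the base case of global duality, for
level characters `χ : Γ →* Multiplicative (ZMod p)`:

* `exists_char_ne_one` : characters into `ℤ/p` separate the points of a commutative group of
  exponent `p`;
* `left_nondegenerate`  : `(∀ χ, χ (rec x) = 1) → x ∈ p C^Γ`;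
* `right_nondegenerate` : `χ ≠ 1 → ∃ x, χ (rec x) ≠ 1`;
* `existence_mod_p`     : the package.
-/

set_option autoImplicit false
set_option linter.unusedSectionVars false

universe u

namespace Fermat.Agent.Lib.CFT.Global.ExistenceFormation

open Fermat.Agent.Lib.CFT.Profinite Fermat.Agent.Lib.CFT.Coh.ClassFormation

/-- Characters into `ℤ/p` separate the points of a commutative group of exponent `p`. -/
theorem exists_char_ne_one_of_commGroup {G : Type*} [CommGroup G] (p : ℕ) [Fact p.Prime]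
    (hexp : ∀ a : G, a ^ p = 1) (g : G) (hg : g ≠ 1) :
    ∃ ψ : G →* Multiplicative (ZMod p), ψ g ≠ 1 := by
  have hsmul : ∀ x : Additive G, p • x = 0 := fun x => by
    obtain ⟨a, rfl⟩ := Additive.ofMul.surjective x
    rw [← ofMul_pow, hexp a]
    rfl
  let _ : Module (ZMod p) (Additive G) := AddCommGroup.zmodModule (n := p) hsmul
  have hv : Additive.ofMul g ≠ 0 := fun h => hg (Additive.ofMul.injective h)
  have h2 : ¬ ∀ φ : Module.Dual (ZMod p) (Additive G), φ (Additive.ofMul g) = 0 := fun h =>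
    hv ((Module.forall_dual_apply_eq_zero_iff (ZMod p) _).1 h)
  push Not at h2
  obtain ⟨φ, hφ⟩ := h2
  refine ⟨AddMonoidHom.toMultiplicative φ.toAddMonoidHom, ?_⟩
  intro h
  exact hφ (Multiplicative.ofAdd.injective h)

/-- The same for a group with commutativity given as a hypothesis. -/
theorem exists_char_ne_one {G : Type*} [Group G] (p : ℕ) [Fact p.Prime]
    (hcomm : ∀ a b : G, a * b = b * a) (hexp : ∀ a : G, a ^ p = 1) (g : G) (hg : g ≠ 1) :
    ∃ ψ : G →* Multiplicative (ZMod p), ψ g ≠ 1 := by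
  let _ : CommGroup G := { (inferInstance : Group G) with mul_comm := hcomm }
  exact exists_char_ne_one_of_commGroup p hexp g hg

variable {k Γ : Type u} [CommRing k] [Group Γ] (F : Formation k Γ)

/-- **RIGHT nondegeneracy** (formal): a nontrivial level character does not kill `rec (C^Γ)`. -/
theorem right_nondegenerate {μ : Type*} [CommGroup μ] (U : Subgroup Γ) [U.Normal]
    (hU : U ∈ F.𝒰.levels) (χ : Γ →* μ) (hχ : U ≤ χ.ker) (hne : χ ≠ 1) :
    ∃ x : F.C.ρ.invariants, evalRec F U hU χ hχ x ≠ 1 := by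
  have : ∃ g : Γ, χ g ≠ 1 := by
    by_contra h
    push Not at h
    exact hne (MonoidHom.ext h)
  obtain ⟨g, hg⟩ := this
  obtain ⟨x, hx⟩ := F.recMap_surjective U hU (Additive.ofMul (Abelianization.of ((g : Γ) : Γ ⧸ U)))
  refine ⟨x, ?_⟩
  rw [evalRec, hx, toMul_ofMul, charLevel_of_mk]
  exact hg

variable (p : ℕ) [Fact p.Prime] (U₀ : Subgroup Γ) [U₀.Normal] (hU₀ : U₀ ∈ F.𝒰.levels)

/-- **LEFT nondegeneracy**: an element of `C^Γ` killed by all level characters into `ℤ/p` is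
divisible by `p`. -/
theorem left_nondegenerate (hexp : ∀ g : Γ ⧸ U₀, g ^ p = 1) (hcomm : ∀ g h : Γ ⧸ U₀, g * h = h * g)
    (hker : (F.recMap U₀ hU₀).ker = pMul F p) (x : F.C.ρ.invariants)
    (hx : ∀ (U : Subgroup Γ) [U.Normal] (hU : U ∈ F.𝒰.levels)
      (χ : Γ →* Multiplicative (ZMod p)) (hχ : U ≤ χ.ker), evalRec F U hU χ hχ x = 1) :
    x ∈ pMul F p :=
  (mem_pMul_iff_forall_evalRec F p U₀ hU₀ hker
    (exists_char_ne_one p hcomm hexp) x).2 fun χ hχ => hx U₀ hU₀ χ hχ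

/-- **Existence theorem mod `p` in a formation, `ℤ/p`-character form.**  If `C^Γ / p` is finite of
order `N` and `U₀` is a normal level with `Γ ⧸ U₀` abelian of exponent `p` and order `≥ N`, then:
LEFT and RIGHT nondegeneracy of `(x, χ) ↦ χ (rec x)`, `#(Γ ⧸ U₀) = N`, `ker rec_{U₀} = p C^Γ`, and
every level character into `ℤ/p` factors through `Γ ⧸ U₀`. -/
theorem existence_mod_p (hexp : ∀ g : Γ ⧸ U₀, g ^ p = 1) (hcomm : ∀ g h : Γ ⧸ U₀, g * h = h * g)
    (hN0 : (pMul F p).index ≠ 0) (hcard : (pMul F p).index ≤ Nat.card (Γ ⧸ U₀)) :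
    (∀ x : F.C.ρ.invariants,
      (∀ (U : Subgroup Γ) [U.Normal] (hU : U ∈ F.𝒰.levels)
        (χ : Γ →* Multiplicative (ZMod p)) (hχ : U ≤ χ.ker), evalRec F U hU χ hχ x = 1) →
      x ∈ pMul F p) ∧
    (∀ (U : Subgroup Γ) [U.Normal] (hU : U ∈ F.𝒰.levels) (χ : Γ →* Multiplicative (ZMod p))
      (hχ : U ≤ χ.ker), χ ≠ 1 → ∃ x : F.C.ρ.invariants, evalRec F U hU χ hχ x ≠ 1) ∧
    Nat.card (Γ ⧸ U₀) = (pMul F p).index ∧
    (F.recMap U₀ hU₀).ker = pMul F p ∧
    (∀ (W : Subgroup Γ) (_ : W ∈ F.𝒰.levels) (χ : Γ →* Multiplicative (ZMod p)),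
      W ≤ χ.ker → U₀ ≤ χ.ker) := by
  obtain ⟨h1, h2⟩ := card_quot_and_ker_of_card F p U₀ hU₀ hexp hcomm hN0 hcard
  refine ⟨fun x hx => left_nondegenerate F p U₀ hU₀ hexp hcomm h2 x hx,
    fun U _ hU χ hχ hne => right_nondegenerate F U hU χ hχ hne, h1, h2, ?_⟩
  intro W hW χ hχ
  refine le_ker_of_ker_eq F p U₀ hU₀ h2 (X := Multiplicative (ZMod p)) ?_ χ W hW hχ
  intro x
  obtain ⟨a, rfl⟩ := Multiplicative.ofAdd.surjective x
  rw [← ofAdd_nsmul]
  have : p • a = 0 := by
    rw [nsmul_eq_mul, ZMod.natCast_self, zero_mul]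
  rw [this]
  rfl

end Fermat.Agent.Lib.CFT.Global.ExistenceFormation
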