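import Mathlib
import Fermat.Agent.Lib.CFT.Global.ExistenceFormationZMod
import Fermat.Agent.Lib.CFT.Coh.ClassFormation.Functorial

/-!
# Existence theorem mod `p` in a formation whose levels are a cofinal family
(P-CFT, Global/Existence, file 7)

In the `S`-version formation only the fixing subgroups of fields Galois over `ℚ` are levels; the
kernel of a Kummer character is in general NOT a level, it only CONTAINS a level.  This file
provides the abstract statements in that generality: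

* `relNorm` : the relative norm `N_{Γ/H} y = ∑_{q ∈ Γ/H} q • y` of an `H`-invariant element;
* `IsRecLayer.lift_recEquiv_eq_one_iff` : for a character `φ` of a layer `G` with kernel `H`
  (a sub-layer), `φ (rec_G a) = 1` iff `a` is a relative norm from `V^H`;
* `evalRec_eq_one_iff_relNorm` : the same in a formation, for any character `φ` of `Γ` trivial on
  a normal level `U` such that the sub-layer `ker φ / U` is a reciprocity layer;
* `evalChar`, `charPair`, `charPairHom` : the pairing `(x, d) ↦ κ_d (rec x)` for characters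
  whose kernels contain a level;
* `existence_mod_p_of_le` : the existence theorem mod `p` for a normal subgroup `U₀` containing a
  normal level.
-/

set_option autoImplicit false
set_option linter.unusedSectionVars false

universe u

namespace Fermat.Agent.Lib.CFT.Global.ExistenceFormation

open Fermat.Agent.Lib.CFT.Profinite Fermat.Agent.Lib.CFT.Coh.ClassFormation

/-! ### Relative norms -/

section RelNorm

variable {k Γ M : Type*} [CommRing k] [Group Γ] [AddCommGroup M] [Module k M]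

/-- The relative norm `∑_{q ∈ Γ/H} q • y` (meaningful for `H`-invariant `y` and `H` of finite
index). -/
noncomputable def relNorm (ρ : Representation k Γ M) (H : Subgroup Γ) (y : M) : M :=
  ∑ᶠ q : Γ ⧸ H, ρ (Quotient.out q) y

lemma relNorm_eq_sum (ρ : Representation k Γ M) (H : Subgroup Γ) {y : M}
    (hy : ∀ g ∈ H, ρ g y = y) {T : Type*} [Fintype T] (r : T → Γ)
    (hr : Function.Bijective fun t => (r t : Γ ⧸ H)) :
    relNorm ρ H y = ∑ t, ρ (r t) y := by
  unfold relNorm
  have h1 : ∀ t, ρ (Quotient.out ((r t : Γ) : Γ ⧸ H)) y = ρ (r t) y := by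
    intro t
    obtain ⟨h, hh⟩ := QuotientGroup.mk_out_eq_mul H (r t)
    rw [hh, map_mul, Module.End.mul_apply, hy _ h.2]
  rw [← finsum_comp_equiv (Equiv.ofBijective _ hr), finsum_eq_sum_of_fintype]
  exact Fintype.sum_congr _ _ fun t => h1 t

end RelNorm

/-! ### Sub-layer reciprocity at a finite layer -/

section Layer

variable {k G V : Type*} [CommRing k] [Group G] [Fintype G] [AddCommGroup V] {_ : Module k V}
variable {ρ : Representation k G V} {u : G × G → V}
variable {H : Type*} [Group H] [Fintype H] {ι : Type*} [Fintype ι]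
variable {f : H →* G} {x : ι → G} {e : ι × H ≃ G}
variable {μ : Type*} [CommGroup μ]

/-- **Sub-layer reciprocity.**  For a character `φ` of `G` with kernel (the image of) `H`,
`φ (rec_G a) = 1` iff `a` is a relative norm `N_{G/H} y` with `y ∈ V^H`. -/
theorem IsRecLayer.lift_recEquiv_eq_one_iff (he : ∀ i h, e (i, h) = x i * f h)
    (h : IsRecLayer ρ u) (hH : IsRecLayer (ρ.comp f) (resCoc f u)) (φ : G →* μ)
    (hφ : ∀ g, φ g = 1 ↔ g ∈ f.range) {a : V} (ha : a ∈ ρ.invariants) :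
    Abelianization.lift φ (Additive.toMul (h.recEquiv (tateZeroMk ρ a ha))) = 1 ↔
      ∃ y ∈ Representation.invariants (ρ.comp f), ∑ i, ρ (x i) y = a := by
  constructor
  · intro h1
    obtain ⟨g, c, hgc, hrec⟩ := h.exists_recEquiv_eq ha
    rw [hrec, toMul_ofMul, Abelianization.lift_apply_of] at h1
    obtain ⟨n, rfl⟩ := (hφ g).1 h1
    refine ⟨nak (resCoc f u) n + Representation.norm (ρ.comp f) c, ?_, ?_⟩
    · refine Submodule.add_mem _ (nak_mem_invariants (h.coc.res f) n) ?_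
      intro g'
      exact Representation.self_norm_apply (ρ.comp f) g' c
    · rw [hgc]
      simp only [map_add, Finset.sum_add_distrib]
      rw [sum_transversal_nak_res f x e he h.coc n, ← norm_eq_sum_transversal f x e he c]
  · rintro ⟨y, hy, rfl⟩
    have h2 := h.recEquiv_relNorm (he := he) hH hy
    rw [h2, toMul_ofMul]
    obtain ⟨z, hz⟩ := abOf_surjective H (Additive.toMul (hH.recEquiv (tateZeroMk (ρ.comp f) y hy)))
    rw [← hz, Abelianization.map_of, Abelianization.lift_apply_of]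
    exact (hφ (f z)).2 ⟨z, rfl⟩

end Layer

/-! ### Sub-layer reciprocity in a formation -/

section FormationSub

variable {k Γ : Type u} [CommRing k] [Group Γ] (F : Formation k Γ)
variable {μ : Type*} [CommGroup μ]

lemma quotientToInvariants_mk_apply (U : Subgroup Γ) [U.Normal] (g : Γ)
    (y : F.C.quotientToInvariants U) :
    (((F.C.quotientToInvariants U).ρ (g : Γ ⧸ U) y : F.C.quotientToInvariants U) : F.C) =
      F.C.ρ g (y : F.C) := rfl

/-- **Sub-layer reciprocity in a formation.**  Let `φ` be a character of `Γ` trivial on the normal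
level `U`, and suppose that the sub-layers of the layer `Γ ⧸ U` are reciprocity layers (true as
soon as the layer is a class layer).  Then `φ (rec x) = 1` iff `x` is a relative norm from
`C^{ker φ}`. -/
theorem evalRec_eq_one_iff_relNorm (U : Subgroup Γ) [U.Normal] (hU : U ∈ F.𝒰.levels)
    (φ : Γ →* μ) (hφ : U ≤ φ.ker)
    (hsub : letI := levelFintype F.𝒰 U hU
      ∀ (N : Subgroup (Γ ⧸ U)) [Fintype N],
        IsRecLayer ((F.C.quotientToInvariants U).ρ.comp N.subtype)
          (resCoc N.subtype (F.u U hU)))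
    (x : F.C.ρ.invariants) :
    evalRec F U hU φ hφ x = 1 ↔
      ∃ y : F.C, (∀ g ∈ φ.ker, F.C.ρ g y = y) ∧ relNorm F.C.ρ φ.ker y = (x : F.C) := by
  classical
  let _ := levelFintype F.𝒰 U hU
  set φb : Γ ⧸ U →* μ := QuotientGroup.lift U φ hφ with hφb
  set N : Subgroup (Γ ⧸ U) := φb.ker with hN
  let _ : Fintype N := Fintype.ofFinite N
  let _ : Fintype ((Γ ⧸ U) ⧸ N.subtype.range) := Fintype.ofFinite _
  obtain ⟨xs, e, he⟩ := exists_transversal N.subtype N.subtype_injective
  have hφ' : ∀ g, φb g = 1 ↔ g ∈ N.subtype.range := by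
    intro g
    rw [Subgroup.range_subtype, hN, MonoidHom.mem_ker]
  have key := IsRecLayer.lift_recEquiv_eq_one_iff he (F.isLayer U hU) (hsub N) φb hφ'
    (F.toLevel_mem_invariants U x)
  have hev : evalRec F U hU φ hφ x = Abelianization.lift φb (Additive.toMul
      ((F.isLayer U hU).recEquiv (tateZeroMk _ (F.toLevel U x)
        (F.toLevel_mem_invariants U x)))) := rfl
  rw [hev, key]
  -- representatives in `Γ` of the transversal
  have hmk : ∀ q : Γ ⧸ U, ∃ g : Γ, (g : Γ ⧸ U) = q := fun q => QuotientGroup.mk_surjective q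
  choose r hr using fun i => hmk (xs i)
  have hker : ∀ g : Γ, g ∈ φ.ker ↔ (g : Γ ⧸ U) ∈ N := by
    intro g
    rw [hN, MonoidHom.mem_ker, MonoidHom.mem_ker, hφb, QuotientGroup.lift_mk]
  have hbij : Function.Bijective fun i => (r i : Γ ⧸ φ.ker) := by
    constructor
    · intro i j hij
      have h1 : (r i)⁻¹ * r j ∈ φ.ker := QuotientGroup.eq.1 hij
      rw [hker, QuotientGroup.mk_mul, QuotientGroup.mk_inv, hr, hr] at h1
      have h2 : e (i, ⟨(xs i)⁻¹ * xs j, h1⟩) = e (j, 1) := by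
        rw [he, he]
        simp
      exact (Prod.ext_iff.1 (e.injective h2)).1
    · intro q
      obtain ⟨g, rfl⟩ := QuotientGroup.mk_surjective q
      obtain ⟨⟨i, n⟩, hin⟩ := e.surjective (g : Γ ⧸ U)
      refine ⟨i, ?_⟩
      rw [he] at hin
      change ((r i : Γ) : Γ ⧸ φ.ker) = (g : Γ ⧸ φ.ker)
      rw [QuotientGroup.eq, hker, QuotientGroup.mk_mul, QuotientGroup.mk_inv, hr, ← hin]
      simp
  constructor
  · rintro ⟨y', hy', hsum⟩
    have hy : ∀ g ∈ φ.ker, F.C.ρ g (y' : F.C) = (y' : F.C) := by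
      intro g hg
      have h1 := hy' ⟨(g : Γ ⧸ U), (hker g).1 hg⟩
      exact congrArg Subtype.val h1
    refine ⟨(y' : F.C), hy, ?_⟩
    rw [relNorm_eq_sum F.C.ρ φ.ker hy r hbij]
    have h2 := congrArg Subtype.val hsum
    rw [← (F.toLevel_coe U x), ← h2]
    rw [AddSubmonoidClass.coe_finsetSum]
    refine Fintype.sum_congr _ _ fun i => ?_
    rw [← hr i]
    rfl
  · rintro ⟨y, hy, hsum⟩
    have hyU : y ∈ Representation.invariants (F.C.ρ.comp U.subtype) := fun s => hy s.1 (hφ s.2)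
    refine ⟨⟨y, hyU⟩, ?_, ?_⟩
    · rintro ⟨n, hn⟩
      obtain ⟨g, rfl⟩ := QuotientGroup.mk_surjective n
      exact Subtype.ext (hy g ((hker g).2 hn))
    · apply Subtype.ext
      rw [AddSubmonoidClass.coe_finsetSum, F.toLevel_coe, ← hsum,
        relNorm_eq_sum F.C.ρ φ.ker hy r hbij]
      refine Fintype.sum_congr _ _ fun i => ?_
      rw [← hr i]
      rfl

end FormationSub

/-! ### Level characters and the pairing `(x, φ) ↦ φ (rec x)` -/

section EvalChar

variable {k Γ : Type u} [CommRing k] [Group Γ] (F : Formation k Γ)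
variable {μ : Type*} [CommGroup μ]

/-- A character of `Γ` is a *level character* if its kernel contains a level. -/
def IsLevelChar (φ : Γ →* μ) : Prop := ∃ U ∈ F.𝒰.levels, U ≤ φ.ker

variable {F}

lemma IsLevelChar.exists_normal {φ : Γ →* μ} (h : IsLevelChar F φ) :
    ∃ U : Subgroup Γ, U.Normal ∧ U ∈ F.𝒰.levels ∧ U ≤ φ.ker := by
  obtain ⟨U, hU, hle⟩ := h
  obtain ⟨V, hV, hVU, hn⟩ := F.𝒰.normal_le U hU
  exact ⟨V, hn, hV, hVU.trans hle⟩

lemma IsLevelChar.of_le {φ : Γ →* μ} {U : Subgroup Γ} (hU : U ∈ F.𝒰.levels) (hle : U ≤ φ.ker) :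
    IsLevelChar F φ := ⟨U, hU, hle⟩

lemma IsLevelChar.one : IsLevelChar F (1 : Γ →* μ) := by
  obtain ⟨U, hU⟩ := F.𝒰.nonempty
  exact ⟨U, hU, fun g _ => rfl⟩

lemma IsLevelChar.mul {φ ψ : Γ →* μ} (h : IsLevelChar F φ) (h' : IsLevelChar F ψ) :
    IsLevelChar F (φ * ψ) := by
  obtain ⟨U, hU, hle⟩ := h
  obtain ⟨U', hU', hle'⟩ := h'
  obtain ⟨W, hW, hWle⟩ := F.𝒰.directed U hU U' hU'
  refine ⟨W, hW, fun g hg => ?_⟩
  have h1 : φ g = 1 := hle (hWle hg).1
  have h2 : ψ g = 1 := hle' (hWle hg).2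
  rw [MonoidHom.mem_ker, MonoidHom.mul_apply, h1, h2, one_mul]

lemma IsLevelChar.comp {ν : Type*} [CommGroup ν] {φ : Γ →* μ} (h : IsLevelChar F φ)
    (f : μ →* ν) : IsLevelChar F (f.comp φ) := by
  obtain ⟨U, hU, hle⟩ := h
  refine ⟨U, hU, fun g hg => ?_⟩
  have h1 : φ g = 1 := hle hg
  rw [MonoidHom.mem_ker, MonoidHom.comp_apply, h1, map_one]

variable (F)

/-- `φ (rec x)` for a level character `φ`. -/
noncomputable def evalChar (φ : Γ →* μ) (hφ : IsLevelChar F φ) (x : F.C.ρ.invariants) : μ :=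
  @evalRec k Γ _ _ F μ _ hφ.exists_normal.choose hφ.exists_normal.choose_spec.1
    hφ.exists_normal.choose_spec.2.1 φ hφ.exists_normal.choose_spec.2.2 x

lemma evalChar_eq_evalRec (φ : Γ →* μ) (hφ : IsLevelChar F φ) (U : Subgroup Γ) [U.Normal]
    (hU : U ∈ F.𝒰.levels) (hle : U ≤ φ.ker) (x : F.C.ρ.invariants) :
    evalChar F φ hφ x = evalRec F U hU φ hle x := by
  obtain ⟨hn, hV, hVle⟩ := hφ.exists_normal.choose_spec
  set V := hφ.exists_normal.choose with hVdef
  obtain ⟨W, hW, hWV, hWU, hWn⟩ := F.𝒰.exists_normal_le_inf hV hU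
  have h1 := evalRec_compat F V W hV hW hWV φ hVle x
  have h2 := evalRec_compat F U W hU hW hWU φ hle x
  change evalRec F V hV φ hVle x = _
  rw [← h1, ← h2]

lemma evalChar_zero (φ : Γ →* μ) (hφ : IsLevelChar F φ) : evalChar F φ hφ 0 = 1 := by
  obtain ⟨U, hn, hU, hle⟩ := hφ.exists_normal
  rw [evalChar_eq_evalRec F φ hφ U hU hle]
  exact evalRec_zero F U hU φ hle

lemma evalChar_add (φ : Γ →* μ) (hφ : IsLevelChar F φ) (x y : F.C.ρ.invariants) :
    evalChar F φ hφ (x + y) = evalChar F φ hφ x * evalChar F φ hφ y := by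
  obtain ⟨U, hn, hU, hle⟩ := hφ.exists_normal
  simp only [evalChar_eq_evalRec F φ hφ U hU hle]
  exact evalRec_add F U hU φ hle x y

lemma evalChar_nsmul (φ : Γ →* μ) (hφ : IsLevelChar F φ) (n : ℕ) (x : F.C.ρ.invariants) :
    evalChar F φ hφ (n • x) = evalChar F φ hφ x ^ n := by
  obtain ⟨U, hn, hU, hle⟩ := hφ.exists_normal
  simp only [evalChar_eq_evalRec F φ hφ U hU hle]
  exact evalRec_nsmul F U hU φ hle n x

lemma evalChar_mul_char (φ ψ : Γ →* μ) (hφ : IsLevelChar F φ) (hψ : IsLevelChar F ψ)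
    (hφψ : IsLevelChar F (φ * ψ)) (x : F.C.ρ.invariants) :
    evalChar F (φ * ψ) hφψ x = evalChar F φ hφ x * evalChar F ψ hψ x := by
  obtain ⟨U, hn, hU, hle⟩ := hφ.exists_normal
  obtain ⟨U', hn', hU', hle'⟩ := hψ.exists_normal
  obtain ⟨W, hW, hWU, hWU', hWn⟩ := F.𝒰.exists_normal_le_inf hU hU'
  have h3 : W ≤ (φ * ψ).ker := by
    intro g hg
    have h1 : φ g = 1 := hle (hWU hg)
    have h2 : ψ g = 1 := hle' (hWU' hg)
    rw [MonoidHom.mem_ker, MonoidHom.mul_apply, h1, h2, one_mul]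
  rw [evalChar_eq_evalRec F (φ * ψ) hφψ W hW h3, evalChar_eq_evalRec F φ hφ W hW (hWU.trans hle),
    evalChar_eq_evalRec F ψ hψ W hW (hWU'.trans hle')]
  exact evalRec_mul_char F W hW φ ψ _ _ _ x

lemma evalChar_one_char (h1 : IsLevelChar F (1 : Γ →* μ)) (x : F.C.ρ.invariants) :
    evalChar F (1 : Γ →* μ) h1 x = 1 := by
  have h := evalChar_mul_char F (1 : Γ →* μ) 1 h1 h1 (by rw [one_mul]; exact h1) x
  have h2 : evalChar F ((1 : Γ →* μ) * 1) (by rw [one_mul]; exact h1) x =
      evalChar F (1 : Γ →* μ) h1 x := by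
    congr 1
    rw [one_mul]
  rw [h2] at h
  exact (mul_eq_left.1 h.symm)

lemma evalChar_comp {ν : Type*} [CommGroup ν] (φ : Γ →* μ) (hφ : IsLevelChar F φ) (f : μ →* ν)
    (x : F.C.ρ.invariants) :
    evalChar F (f.comp φ) (hφ.comp f) x = f (evalChar F φ hφ x) := by
  obtain ⟨U, hn, hU, hle⟩ := hφ.exists_normal
  have hle' : U ≤ (f.comp φ).ker := by
    intro g hg
    have h1 : φ g = 1 := hle hg
    rw [MonoidHom.mem_ker, MonoidHom.comp_apply, h1, map_one]
  rw [evalChar_eq_evalRec F (f.comp φ) (hφ.comp f) U hU hle', evalChar_eq_evalRec F φ hφ U hU hle,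
    evalRec, evalRec]
  obtain ⟨q, hq⟩ := abOf_surjective (Γ ⧸ U) (Additive.toMul (F.recMap U hU x))
  rw [← hq]
  induction q using QuotientGroup.induction_on with
  | H g => rw [charLevel_of_mk, charLevel_of_mk, MonoidHom.comp_apply]

/-- **RIGHT nondegeneracy** for level characters. -/
theorem exists_evalChar_ne_one (φ : Γ →* μ) (hφ : IsLevelChar F φ) (hne : φ ≠ 1) :
    ∃ x : F.C.ρ.invariants, evalChar F φ hφ x ≠ 1 := by
  obtain ⟨U, hn, hU, hle⟩ := hφ.exists_normal
  obtain ⟨x, hx⟩ := right_nondegenerate F U hU φ hle hne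
  exact ⟨x, by rw [evalChar_eq_evalRec F φ hφ U hU hle]; exact hx⟩

/-- There is an element of `C^Γ` with prescribed value of `rec`: for `g : Γ` there is `x` with
`φ (rec x) = φ g` for every level character `φ` trivial on the normal level `U`. -/
theorem exists_evalRec_eq (U : Subgroup Γ) [U.Normal] (hU : U ∈ F.𝒰.levels) (g : Γ) :
    ∃ x : F.C.ρ.invariants, ∀ (φ : Γ →* μ) (hφ : U ≤ φ.ker), evalRec F U hU φ hφ x = φ g := by
  obtain ⟨x, hx⟩ := F.recMap_surjective U hU (Additive.ofMul (Abelianization.of ((g : Γ) : Γ ⧸ U)))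
  refine ⟨x, fun φ hφ => ?_⟩
  rw [evalRec, hx, toMul_ofMul, charLevel_of_mk]

section Pairing

variable {D : Type*} [CommGroup D] (κ : D →* (Γ →* μ)) (hκ : ∀ d, IsLevelChar F (κ d))

/-- The pairing `(x, d) ↦ κ_d (rec x)` for a family of level characters. -/
noncomputable def charPairHom : Multiplicative F.C.ρ.invariants →* (D →* μ) where
  toFun x :=
    { toFun := fun d => evalChar F (κ d) (hκ d) (Multiplicative.toAdd x)
      map_one' := by
        have h1 : IsLevelChar F (1 : Γ →* μ) := IsLevelChar.one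
        have h2 : evalChar F (κ 1) (hκ 1) (Multiplicative.toAdd x) =
            evalChar F (1 : Γ →* μ) h1 (Multiplicative.toAdd x) := by
          congr 1
          exact map_one κ
        rw [h2, evalChar_one_char]
      map_mul' := fun d d' => by
        have h2 : evalChar F (κ (d * d')) (hκ (d * d')) (Multiplicative.toAdd x) =
            evalChar F (κ d * κ d') (by rw [← map_mul]; exact hκ _) (Multiplicative.toAdd x) := by
          congr 1
          exact map_mul κ d d'
        rw [h2, evalChar_mul_char F (κ d) (κ d') (hκ d) (hκ d')] }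
  map_one' := by
    ext d
    exact evalChar_zero F (κ d) (hκ d)
  map_mul' x y := by
    ext d
    exact evalChar_add F (κ d) (hκ d) (Multiplicative.toAdd x) (Multiplicative.toAdd y)

@[simp] lemma charPairHom_apply (x : Multiplicative F.C.ρ.invariants) (d : D) :
    charPairHom F κ hκ x d = evalChar F (κ d) (hκ d) (Multiplicative.toAdd x) := rfl

/-- The pairing factors through `Γ ⧸ U₀` for every normal subgroup `U₀` containing a level and
contained in all the kernels: its image has at most `#(Γ ⧸ U₀)` elements. -/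
theorem card_range_charPairHom_le (U₀ : Subgroup Γ) [U₀.Normal] (U : Subgroup Γ) [U.Normal]
    (hU : U ∈ F.𝒰.levels) (hUU₀ : U ≤ U₀) (hle : ∀ d, U₀ ≤ (κ d).ker) :
    Nat.card (charPairHom F κ hκ).range ≤ Nat.card (Γ ⧸ U₀) := by
  have := F.𝒰.finiteIndex U hU
  have hfinU : Finite (Γ ⧸ U) := Subgroup.finite_quotient_of_finiteIndex
  have hfin : Finite (Γ ⧸ U₀) :=
    Finite.of_surjective (levelMap U₀ U hUU₀) (levelMap_surjective U₀ U hUU₀)
  let f : Γ ⧸ U₀ → (D →* μ) := fun q =>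
    { toFun := fun d => QuotientGroup.lift U₀ (κ d) (hle d) q
      map_one' := by
        induction q using QuotientGroup.induction_on with
        | H g => rw [QuotientGroup.lift_mk, map_one, MonoidHom.one_apply]
      map_mul' := fun d d' => by
        induction q using QuotientGroup.induction_on with
        | H g => rw [QuotientGroup.lift_mk, QuotientGroup.lift_mk, QuotientGroup.lift_mk, map_mul,
            MonoidHom.mul_apply] }
  have hsub : ((charPairHom F κ hκ).range : Set (D →* μ)) ⊆ Set.range f := by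
    rintro _ ⟨x, rfl⟩
    obtain ⟨q, hq⟩ := abOf_surjective (Γ ⧸ U)
      (Additive.toMul (F.recMap U hU (Multiplicative.toAdd x)))
    obtain ⟨g, rfl⟩ := QuotientGroup.mk_surjective q
    refine ⟨(g : Γ ⧸ U₀), ?_⟩
    ext d
    change QuotientGroup.lift U₀ (κ d) (hle d) (g : Γ ⧸ U₀) =
      evalChar F (κ d) (hκ d) (Multiplicative.toAdd x)
    rw [evalChar_eq_evalRec F (κ d) (hκ d) U hU (hUU₀.trans (hle d)), evalRec, ← hq,
      charLevel_of_mk, QuotientGroup.lift_mk]
  calc Nat.card (charPairHom F κ hκ).range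
      = Nat.card ((charPairHom F κ hκ).range : Set (D →* μ)) := rfl
    _ ≤ Nat.card (Set.range f) := Nat.card_mono (Set.finite_range f) hsub
    _ ≤ Nat.card (Γ ⧸ U₀) := Nat.card_le_card_of_surjective (Set.rangeFactorization f)
        Set.rangeFactorization_surjective

end Pairing

end EvalChar

/-! ### Existence mod `p` for a normal subgroup containing a level -/

section CountLe

variable {k Γ : Type u} [CommRing k] [Group Γ] (F : Formation k Γ)
variable (p : ℕ) (U₀ : Subgroup Γ) [U₀.Normal] (U : Subgroup Γ) [U.Normal]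
  (hU : U ∈ F.𝒰.levels) (hUU₀ : U ≤ U₀)

/-- The reciprocity map to `(Γ ⧸ U₀)^ab` for a normal subgroup `U₀` containing the normal level
`U`. -/
noncomputable def recMapLe : F.C.ρ.invariants →+ Additive (Abelianization (Γ ⧸ U₀)) :=
  (MonoidHom.toAdditive (Abelianization.map (levelMap U₀ U hUU₀))).comp (F.recMap U hU)

lemma recMapLe_apply (x : F.C.ρ.invariants) :
    recMapLe F U₀ U hU hUU₀ x = Additive.ofMul (Abelianization.map (levelMap U₀ U hUU₀)
      (Additive.toMul (F.recMap U hU x))) := rfl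

lemma recMapLe_surjective : Function.Surjective (recMapLe F U₀ U hU hUU₀) := by
  intro y
  obtain ⟨q, hq⟩ := abOf_surjective (Γ ⧸ U₀) (Additive.toMul y)
  obtain ⟨g, rfl⟩ := QuotientGroup.mk_surjective q
  obtain ⟨x, hx⟩ := F.recMap_surjective U hU (Additive.ofMul (Abelianization.of ((g : Γ) : Γ ⧸ U)))
  refine ⟨x, ?_⟩
  rw [recMapLe_apply, hx, toMul_ofMul, Abelianization.map_of]
  exact Additive.toMul.injective hq

/-- Characters of `Γ ⧸ U₀` evaluated on `recMapLe`. -/
lemma evalRec_comp_eq {μ : Type*} [CommGroup μ] (ψ : Abelianization (Γ ⧸ U₀) →* μ)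
    (hle : U ≤ ((ψ.comp Abelianization.of).comp (QuotientGroup.mk' U₀)).ker)
    (x : F.C.ρ.invariants) :
    evalRec F U hU ((ψ.comp Abelianization.of).comp (QuotientGroup.mk' U₀)) hle x =
      ψ (Additive.toMul (recMapLe F U₀ U hU hUU₀ x)) := by
  rw [recMapLe_apply, toMul_ofMul, evalRec]
  obtain ⟨q, hq⟩ := abOf_surjective (Γ ⧸ U) (Additive.toMul (F.recMap U hU x))
  rw [← hq]
  induction q using QuotientGroup.induction_on with
  | H g =>
    rw [charLevel_of_mk, Abelianization.map_of]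
    rfl

lemma le_ker_comp {μ : Type*} [CommGroup μ] (ψ : Abelianization (Γ ⧸ U₀) →* μ) :
    U₀ ≤ ((ψ.comp Abelianization.of).comp (QuotientGroup.mk' U₀)).ker := by
  intro g hg
  rw [MonoidHom.mem_ker, MonoidHom.comp_apply, QuotientGroup.mk'_apply,
    (QuotientGroup.eq_one_iff g).2 hg, map_one]

include hU hUU₀ in
lemma pMul_le_ker_recMapLe (hexp : ∀ g : Γ ⧸ U₀, g ^ p = 1) :
    pMul F p ≤ (recMapLe F U₀ U hU hUU₀).ker := by
  rintro _ ⟨y, rfl⟩
  rw [AddMonoidHom.mem_ker]
  change recMapLe F U₀ U hU hUU₀ (p • y) = 0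
  rw [map_nsmul]
  obtain ⟨z, hz⟩ := Additive.ofMul.surjective (recMapLe F U₀ U hU hUU₀ y)
  rw [← hz, ← ofMul_pow]
  obtain ⟨q, rfl⟩ := abOf_surjective (Γ ⧸ U₀) z
  rw [← map_pow, hexp q, map_one]
  rfl

/-- **Existence theorem mod `p` in a formation, cofinal-level form.**  If `[C^Γ : p C^Γ] = N ≠ 0`
and `U₀ ⊇ U` (a normal level) is a normal subgroup with `Γ ⧸ U₀` abelian of exponent `p` and order
at least `N`, then `#(Γ ⧸ U₀) = N` and the kernel of `C^Γ → Γ ⧸ U₀` is `p C^Γ`. -/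
theorem card_quot_and_ker_of_card_le (hexp : ∀ g : Γ ⧸ U₀, g ^ p = 1)
    (hcomm : ∀ g h : Γ ⧸ U₀, g * h = h * g) (hN0 : (pMul F p).index ≠ 0)
    (hcard : (pMul F p).index ≤ Nat.card (Γ ⧸ U₀)) :
    Nat.card (Γ ⧸ U₀) = (pMul F p).index ∧ (recMapLe F U₀ U hU hUU₀).ker = pMul F p := by
  have hle := pMul_le_ker_recMapLe F p U₀ U hU hUU₀ hexp
  have hidx : (recMapLe F U₀ U hU hUU₀).ker.index = Nat.card (Γ ⧸ U₀) := by
    rw [AddSubgroup.index_ker, AddMonoidHom.range_eq_top.2 (recMapLe_surjective F U₀ U hU hUU₀)]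
    let _ : CommGroup (Γ ⧸ U₀) := { (inferInstance : Group (Γ ⧸ U₀)) with mul_comm := hcomm }
    have e1 : (⊤ : AddSubgroup (Additive (Abelianization (Γ ⧸ U₀)))) ≃
        Additive (Abelianization (Γ ⧸ U₀)) := AddSubgroup.topEquiv.toEquiv
    rw [Nat.card_congr e1]
    exact (Nat.card_congr (Abelianization.equivOfComm (H := Γ ⧸ U₀)).toEquiv).symm
  have hdvd : (recMapLe F U₀ U hU hUU₀).ker.index ∣ (pMul F p).index :=
    AddSubgroup.index_dvd_of_le hle
  have h1 : Nat.card (Γ ⧸ U₀) = (pMul F p).index := by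
    rw [hidx] at hdvd
    exact le_antisymm (Nat.le_of_dvd (Nat.pos_of_ne_zero hN0) hdvd) hcard
  refine ⟨h1, le_antisymm ?_ hle⟩
  have h2 := AddSubgroup.relIndex_mul_index hle
  rw [hidx, h1] at h2
  have h3 : (pMul F p).relIndex (recMapLe F U₀ U hU hUU₀).ker = 1 := by
    have := Nat.eq_of_mul_eq_mul_right (Nat.pos_of_ne_zero hN0) (h2.trans (one_mul _).symm)
    exact this
  exact AddSubgroup.relIndex_eq_one.1 h3

variable [Fact p.Prime]

/-- **LEFT nondegeneracy**, cofinal-level form. -/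
theorem left_nondegenerate_le (hexp : ∀ g : Γ ⧸ U₀, g ^ p = 1)
    (hker : (recMapLe F U₀ U hU hUU₀).ker = pMul F p) (x : F.C.ρ.invariants)
    (hx : ∀ (V : Subgroup Γ) [V.Normal] (hV : V ∈ F.𝒰.levels)
      (χ : Γ →* Multiplicative (ZMod p)) (hχ : V ≤ χ.ker), evalRec F V hV χ hχ x = 1) :
    x ∈ pMul F p := by
  rw [← hker, AddMonoidHom.mem_ker]
  by_contra hne
  set q := Additive.toMul (recMapLe F U₀ U hU hUU₀ x) with hq
  have hq1 : q ≠ 1 := fun h => hne (Additive.toMul.injective h)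
  have hexp' : ∀ a : Abelianization (Γ ⧸ U₀), a ^ p = 1 := by
    intro a
    obtain ⟨b, rfl⟩ := abOf_surjective (Γ ⧸ U₀) a
    rw [← map_pow, hexp b, map_one]
  obtain ⟨ψ, hψ⟩ := exists_char_ne_one_of_commGroup p hexp' q hq1
  have h1 := hx U hU ((ψ.comp Abelianization.of).comp (QuotientGroup.mk' U₀))
    (hUU₀.trans (le_ker_comp U₀ ψ))
  rw [evalRec_comp_eq F U₀ U hU hUU₀ ψ] at h1
  exact hψ h1

/-- Every level character of exponent `p` factors through `Γ ⧸ U₀`. -/
theorem le_ker_of_ker_eq_le (hker : (recMapLe F U₀ U hU hUU₀).ker = pMul F p) {X : Type*}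
    [CommGroup X] (hX : ∀ x : X, x ^ p = 1) (φ : Γ →* X) (hφ : IsLevelChar F φ) :
    U₀ ≤ φ.ker := by
  obtain ⟨W, hW, hWle⟩ := hφ
  obtain ⟨W', hW', hW'W, hW'U, hW'n⟩ := F.𝒰.exists_normal_le_inf hW hU
  have := hW'n
  intro γ hγ
  obtain ⟨a, ha⟩ := F.recMap_surjective W' hW'
    (Additive.ofMul (Abelianization.of ((γ : Γ) : Γ ⧸ W')))
  have h0 : recMapLe F U₀ U hU hUU₀ a = 0 := by
    rw [recMapLe_apply, F.recMap_compat U W' hU hW' hW'U a, ha, toMul_ofMul, toMul_ofMul,
      Abelianization.map_of, Abelianization.map_of]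
    change Additive.ofMul (Abelianization.of ((γ : Γ) : Γ ⧸ U₀)) = 0
    rw [(QuotientGroup.eq_one_iff γ).2 hγ, map_one]
    rfl
  have ha' : a ∈ pMul F p := by
    rw [← hker]
    exact h0
  obtain ⟨y, rfl⟩ := ha'
  have h1 : evalRec F W' hW' φ (hW'W.trans hWle) (p • y) = φ γ := by
    have h2 : F.recMap W' hW' (p • y) =
        Additive.ofMul (Abelianization.of ((γ : Γ) : Γ ⧸ W')) := ha
    rw [evalRec, h2, toMul_ofMul, charLevel_of_mk]
  rw [MonoidHom.mem_ker, ← h1, evalRec_nsmul, hX]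

/-- **Existence theorem mod `p` in a formation, cofinal-level form, `ℤ/p`-character package.**
`U₀ ⊇ U` (a normal level), `Γ ⧸ U₀` abelian of exponent `p` and order `≥ N = [C^Γ : p C^Γ] ≠ 0`.
Then: LEFT and RIGHT nondegeneracy of `(x, χ) ↦ χ (rec x)`, `#(Γ ⧸ U₀) = N`,
`ker (C^Γ → Γ ⧸ U₀) = p C^Γ`, and every level character into `ℤ/p` factors through `Γ ⧸ U₀`. -/
theorem existence_mod_p_of_le (hexp : ∀ g : Γ ⧸ U₀, g ^ p = 1)
    (hcomm : ∀ g h : Γ ⧸ U₀, g * h = h * g)
    (hN0 : (pMul F p).index ≠ 0) (hcard : (pMul F p).index ≤ Nat.card (Γ ⧸ U₀)) :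
    (∀ x : F.C.ρ.invariants,
      (∀ (V : Subgroup Γ) [V.Normal] (hV : V ∈ F.𝒰.levels)
        (χ : Γ →* Multiplicative (ZMod p)) (hχ : V ≤ χ.ker), evalRec F V hV χ hχ x = 1) →
      x ∈ pMul F p) ∧
    (∀ (V : Subgroup Γ) [V.Normal] (hV : V ∈ F.𝒰.levels) (χ : Γ →* Multiplicative (ZMod p))
      (hχ : V ≤ χ.ker), χ ≠ 1 → ∃ x : F.C.ρ.invariants, evalRec F V hV χ hχ x ≠ 1) ∧
    Nat.card (Γ ⧸ U₀) = (pMul F p).index ∧
    (recMapLe F U₀ U hU hUU₀).ker = pMul F p ∧
    (∀ (W : Subgroup Γ) (_ : W ∈ F.𝒰.levels) (χ : Γ →* Multiplicative (ZMod p)),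
      W ≤ χ.ker → U₀ ≤ χ.ker) := by
  obtain ⟨h1, h2⟩ := card_quot_and_ker_of_card_le F p U₀ U hU hUU₀ hexp hcomm hN0 hcard
  refine ⟨fun x hx => left_nondegenerate_le F p U₀ U hU hUU₀ hexp h2 x hx,
    fun V _ hV χ hχ hne => right_nondegenerate F V hV χ hχ hne, h1, h2, ?_⟩
  intro W hW χ hχ
  refine le_ker_of_ker_eq_le F p U₀ U hU hUU₀ h2 (X := Multiplicative (ZMod p)) ?_ χ ⟨W, hW, hχ⟩
  intro x
  obtain ⟨a, rfl⟩ := Multiplicative.ofAdd.surjective x
  rw [← ofAdd_nsmul]
  have : p • a = 0 := by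
    rw [nsmul_eq_mul, ZMod.natCast_self, zero_mul]
  rw [this]
  rfl

end CountLe

end Fermat.Agent.Lib.CFT.Global.ExistenceFormation
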