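import Mathlib
import Fermat.Agent.Lib.CFT.Global.SUnits
import Fermat.Agent.Lib.CFT.Global.SVersion.Divisible
import Fermat.Agent.Lib.CFT.Profinite.BridgeRamification

/-!
# Kummer extensions unramified outside `S` (P-CFT, Global/Existence, file 5)

`F ⊆ Qbar` a number field unramified outside `S`, `p` a number all of whose prime factors lie in
`S`, `b ∈ Fˣ` with `p ∣ ord_v b` at all primes `v` of `F` not above `S` (`b ∈ Δ_S`).  Then
`F(b^{1/p})` is unramified outside `S` in the Prelude sense (`IntermediateField.IsUnramifiedOutside`),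
i.e. its fixing subgroup is a level of the `S`-formation.

The proof is the dictionary between the valuation subrings of `Qbar` and the primes of `𝓞 F`
(`valuation_eq_one_of_ordAt_eq_zero`) plus the Kummer ramification criterion of
`SVersion/Divisible.lean`.
-/

set_option autoImplicit false
set_option linter.unusedSectionVars false

open NumberField IsDedekindDomain

namespace Fermat.Agent.Lib.CFT.Global.KummerLevel

open Fermat.Agent.Lib.CFT.Global.SUnits Fermat.Agent.Lib.CFT.Profinite.Bridge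
  Fermat.Agent.Lib.CFT.Global.SVersion

local notation "Qbar" => AlgebraicClosure ℚ

variable (F : IntermediateField ℚ Qbar) [FiniteDimensional ℚ F]

/-- Algebraic integers lie in every valuation subring. -/
lemma coe_integer_mem (A : ValuationSubring Qbar) (x : 𝓞 F) : ((x : F) : Qbar) ∈ A := by
  have hx : IsIntegral ℤ ((x : F) : Qbar) := by
    have h1 : IsIntegral ℤ (x : F) := RingOfIntegers.isIntegral_coe x
    exact h1.map (IsScalarTower.toAlgHom ℤ F Qbar)
  have h1 : IsIntegral A ((x : F) : Qbar) := hx.tower_top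
  obtain ⟨a, ha⟩ := IsIntegrallyClosed.isIntegral_iff.1 h1
  rw [← ha]
  exact a.2

/-- The prime of `𝓞 F` cut out by a valuation subring of `Qbar` over a rational prime. -/
noncomputable def placeBelow (A : ValuationSubring Qbar) {q : ℕ} (hq : q.Prime)
    (hA : A.LiesOverPrime q) : HeightOneSpectrum (𝓞 F) where
  asIdeal := primeBelow A F
  isPrime := inferInstance
  ne_bot := by
    intro h
    have h1 : (q : 𝓞 F) ∈ primeBelow A F := natCast_mem_primeBelow hA F
    rw [h, Ideal.mem_bot] at h1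
    exact hq.ne_zero (by exact_mod_cast h1)

lemma natCast_mem_placeBelow (A : ValuationSubring Qbar) {q : ℕ} (hq : q.Prime)
    (hA : A.LiesOverPrime q) : (q : 𝓞 F) ∈ (placeBelow F A hq hA).asIdeal :=
  natCast_mem_primeBelow hA F

/-- A rational prime different from `q` is not in the prime below `A`. -/
lemma natCast_notMem_placeBelow (A : ValuationSubring Qbar) {q : ℕ} (hq : q.Prime)
    (hA : A.LiesOverPrime q) {q' : ℕ} (hq' : q'.Prime) (hne : q' ≠ q) :
    (q' : 𝓞 F) ∉ (placeBelow F A hq hA).asIdeal := by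
  intro h
  have h1 := natCast_mem_placeBelow F A hq hA
  have hcop : Nat.Coprime q' q := (Nat.coprime_primes hq' hq).2 hne
  have h2 : (1 : 𝓞 F) ∈ (placeBelow F A hq hA).asIdeal := by
    have hb : (q' : ℤ) * Nat.gcdA q' q + (q : ℤ) * Nat.gcdB q' q = 1 := by
      have := Nat.gcd_eq_gcd_ab q' q
      rw [hcop] at this
      exact_mod_cast this.symm
    have h3 : ((q' : 𝓞 F)) * ((Nat.gcdA q' q : ℤ) : 𝓞 F) + (q : 𝓞 F) * ((Nat.gcdB q' q : ℤ) : 𝓞 F)
        = 1 := by
      have := congrArg (fun z : ℤ => (z : 𝓞 F)) hb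
      simpa using this
    rw [← h3]
    exact Ideal.add_mem _ (Ideal.mul_mem_right _ _ h) (Ideal.mul_mem_right _ _ h1)
  exact (placeBelow F A hq hA).isPrime.ne_top ((Ideal.eq_top_iff_one _).2 h2)

/-- An integer outside the prime below `A` is a unit of `A`. -/
lemma valuation_integer_eq_one (A : ValuationSubring Qbar) {q : ℕ} (hq : q.Prime)
    (hA : A.LiesOverPrime q) (d : 𝓞 F) (hd : d ∉ (placeBelow F A hq hA).asIdeal) :
    A.valuation ((d : F) : Qbar) = 1 := by
  have h1 : A.valuation ((d : F) : Qbar) ≤ 1 :=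
    (A.valuation_le_one_iff _).2 (coe_integer_mem F A d)
  have h2 : ¬ A.valuation ((d : F) : Qbar) < 1 := by
    intro h
    apply hd
    change d ∈ primeBelow A F
    rw [mem_primeBelow_iff]
    exact A.mem_nonunits_iff.2 h
  exact le_antisymm h1 (not_lt.1 h2)

/-- `v(y) ≥ 0` at the prime below `A` implies `y ∈ A`. -/
lemma valuation_le_one_of_ordAt_nonneg (A : ValuationSubring Qbar) {q : ℕ} (hq : q.Prime)
    (hA : A.LiesOverPrime q) (y : Fˣ) (hy : 0 ≤ ordAt (placeBelow F A hq hA) y) :
    A.valuation ((y : F) : Qbar) ≤ 1 := by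
  have hval : (placeBelow F A hq hA).valuation F (y : F) ≤ 1 :=
    (valuation_le_one_iff_ordAt _ y).2 hy
  obtain ⟨n, d, hnd⟩ :=
    HeightOneSpectrum.exists_primeCompl_mul_eq_of_integer (placeBelow F A hq hA) (y : F) hval
  have h1 : A.valuation ((y : F) : Qbar) * A.valuation (((d : 𝓞 F) : F) : Qbar) =
      A.valuation ((n : F) : Qbar) := by
    rw [← map_mul]
    congr 1
    have := congrArg (fun z : F => (z : Qbar)) hnd
    simpa using this
  rw [valuation_integer_eq_one F A hq hA (d : 𝓞 F) d.2, mul_one] at h1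
  rw [h1]
  exact (A.valuation_le_one_iff _).2 (coe_integer_mem F A n)

/-- **Dictionary**: an element of `Fˣ` of `v`-adic valuation `0` at the prime `v` below `A` is a
unit of `A`. -/
theorem valuation_eq_one_of_ordAt_eq_zero (A : ValuationSubring Qbar) {q : ℕ} (hq : q.Prime)
    (hA : A.LiesOverPrime q) (y : Fˣ) (hy : ordAt (placeBelow F A hq hA) y = 0) :
    A.valuation ((y : F) : Qbar) = 1 := by
  have h1 := valuation_le_one_of_ordAt_nonneg F A hq hA y hy.ge
  have h2 := valuation_le_one_of_ordAt_nonneg F A hq hA y⁻¹ (by rw [ordAt_inv, hy, neg_zero])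
  have hy0 : ((y : F) : Qbar) ≠ 0 := by
    have : (y : F) ≠ 0 := y.ne_zero
    exact_mod_cast this
  have h3 : A.valuation ((y : F) : Qbar) ≠ 0 := (Valuation.ne_zero_iff _).2 hy0
  rw [Units.val_inv_eq_inv_val] at h2
  have h4 : A.valuation (((y : F)⁻¹ : F) : Qbar) = (A.valuation ((y : F) : Qbar))⁻¹ := by
    rw [← map_inv₀]
    congr 1
  rw [h4] at h2
  apply le_antisymm h1
  by_contra hlt
  rw [not_le] at hlt
  have : 1 < (A.valuation ((y : F) : Qbar))⁻¹ := (one_lt_inv₀ (zero_lt_iff.2 h3)).2 hlt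
  exact absurd h2 (not_le.2 this)

/-- `ordAt` of an integral power. -/
lemma ordAt_zpow (v : HeightOneSpectrum (𝓞 F)) (x : Fˣ) (k : ℤ) :
    ordAt v (x ^ k) = k * ordAt v x := by
  simp only [ordAt, map_zpow, toAdd_zpow, smul_eq_mul]
  ring

/-- A uniformizer at `v`. -/
lemma exists_ordAt_eq_one (v : HeightOneSpectrum (𝓞 F)) : ∃ π : Fˣ, ordAt v π = 1 := by
  obtain ⟨π, hπ⟩ := v.valuation_exists_uniformizer F
  have hπ0 : π ≠ 0 := by
    rintro rfl
    rw [map_zero] at hπ
    exact WithZero.zero_ne_coe hπ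
  refine ⟨Units.mk0 π hπ0, ?_⟩
  have h := valuation_eq_exp_neg_ordAt v (Units.mk0 π hπ0)
  rw [Units.val_mk0, hπ, WithZero.exp_inj] at h
  omega

variable {F}

/-- **Kummer extensions of `Δ_S` are unramified outside `S`.** -/
theorem isUnramifiedOutside_sup_adjoin_root (S : Finset Nat.Primes)
    (hF : F.IsUnramifiedOutside S) {p : ℕ} (hp0 : p ≠ 0)
    (hp : ∀ q : Nat.Primes, (q : ℕ) ∣ p → q ∈ S) (b : Fˣ)
    (hb : ∀ v : HeightOneSpectrum (𝓞 F), (∀ q ∈ S, ((q : ℕ) : 𝓞 F) ∉ v.asIdeal) →
      (p : ℤ) ∣ ordAt v b)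
    (β : Qbar) (hβ : β ^ p = ((b : F) : Qbar)) :
    (F ⊔ IntermediateField.adjoin ℚ {β}).IsUnramifiedOutside S := by
  refine isUnramifiedOutside_sup_adjoin_of_pow_mem hp hF (x := β) ?_ ?_
  · rw [hβ]
    exact (b : F).2
  · intro q hq A hA
    set v := placeBelow F A q.2 hA with hv
    have hvS : ∀ q' ∈ S, ((q' : ℕ) : 𝓞 F) ∉ v.asIdeal := by
      intro q' hq'
      refine natCast_notMem_placeBelow F A q.2 hA q'.2 ?_
      intro h
      exact hq ((Subtype.ext h : q' = q) ▸ hq')
    obtain ⟨k, hk⟩ := hb v hvS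
    obtain ⟨π, hπ⟩ := exists_ordAt_eq_one F v
    set c : Fˣ := π ^ k with hc
    have hy : ordAt v (b * (c ^ p)⁻¹) = 0 := by
      rw [ordAt_mul, ordAt_inv, ordAt_pow, hc, ordAt_zpow, hπ, hk]
      ring
    have h1 := valuation_eq_one_of_ordAt_eq_zero F A q.2 hA _ hy
    refine ⟨((c : F) : Qbar), (c : F).2, ?_, ?_⟩
    · have : (c : F) ≠ 0 := c.ne_zero
      exact_mod_cast this
    · have h2 : A.valuation (((b : F) : Qbar)) = A.valuation ((c : F) : Qbar) ^ p := by
        have h3 : ((b : F) : Qbar) =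
            (((b * (c ^ p)⁻¹ : Fˣ) : F) : Qbar) * ((c : F) : Qbar) ^ p := by
          have : (b : F) = ((b * (c ^ p)⁻¹ : Fˣ) : F) * (c : F) ^ p := by
            rw [← Units.val_pow_eq_pow_val, ← Units.val_mul, inv_mul_cancel_right]
          exact_mod_cast congrArg (fun z : F => (z : Qbar)) this
        rw [h3, map_mul, h1, one_mul, map_pow]
      have h4 : A.valuation β ^ p = A.valuation ((c : F) : Qbar) ^ p := by
        rw [← map_pow, hβ, h2]
      exact (pow_left_inj₀ zero_le zero_le hp0).1 h4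

end Fermat.Agent.Lib.CFT.Global.KummerLevel
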