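import Mathlib
import Fermat.Agent.Lib.CFT.Kummer.Subfield
import Fermat.Agent.Lib.CFT.Global.KummerLevel
import Fermat.Agent.Lib.CFT.Global.SVersion.LevelFamilyAt
import Fermat.Agent.Lib.CFT.Global.ExistenceFormationSub
import Fermat.Agent.Lib.CFT.Global.ExistenceAbstract

/-!
# Kummer characters on `Gal(Qbar/F)` and the group `Δ_S` (P-CFT, Global/Existence, file 9)

`F ⊆ Qbar` a finite extension of `ℚ` containing the `p`-th roots of unity.

* `kummerCharW hζ : Fˣ →* (↥F.fixingSubgroup →* Fˣ)`, `b ↦ (σ ↦ σ β / β)`, `β ^ p = b`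
  (helper25's `Kummer.kummerChar` transported to the subgroup `F.fixingSubgroup ≤ Γℚ`);
  `kummerCharW_spec`, `kummerCharW_eq_one_iff_apply`, `kummerCharW_pow`, `ker_kummerCharW`
  (the kernel is the fixing subgroup of `F(β)`), `kummerCharW_eq_one_iff` (trivial iff `b ∈ Fˣᵖ`);
* `deltaS F p S = {b | p ∣ ord_v b for all v not above S}`; for `b ∈ Δ_S` the Kummer character is
  trivial on a level of `galFamilyOver F hF` (`exists_galLevel_le_ker`, `exists_level_le_ker`);
* `kerAll hζ S`, the common kernel (fixing subgroup of `F(Δ_S^{1/p})`): normal, contains a normal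
  level when `Δ_S / Fˣᵖ` is finite (`exists_level_le_kerAll`), quotient abelian of exponent `p`.
-/

set_option autoImplicit false

open NumberField IsDedekindDomain

namespace Fermat.Agent.Lib.CFT.Global.KummerChars

open Fermat.Agent.Lib.CFT.Global.SUnits Fermat.Agent.Lib.CFT.Profinite.Bridge
  Fermat.Agent.Lib.CFT.Profinite Fermat.Agent.Lib.CFT.Global.SVersion Fermat.Agent.Lib.CFT.Kummer

local notation "Qbar" => AlgebraicClosure ℚ
local notation "Γℚ" => (AlgebraicClosure ℚ ≃ₐ[ℚ] AlgebraicClosure ℚ)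

local instance isAlgebraicQbar_kc : Algebra.IsAlgebraic ℚ (AlgebraicClosure ℚ) :=
  AlgebraicClosure.isAlgebraic ℚ
local instance isAlgClosureQbar_kc : IsAlgClosure ℚ (AlgebraicClosure ℚ) :=
  ⟨inferInstance, inferInstance⟩
local instance normalQbar_kc : Normal ℚ (AlgebraicClosure ℚ) :=
  IsAlgClosure.normal ℚ (AlgebraicClosure ℚ)
local instance isGaloisQbar_kc : IsGalois ℚ (AlgebraicClosure ℚ) := ⟨⟩

variable (F : IntermediateField ℚ Qbar) (p : ℕ) [NeZero p]

lemma hasRoots_top : HasRoots Qbar p (⊤ : Subgroup Fˣ) := hasRoots_of_isAlgClosed ⊤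

variable {F p} (hζ : (primitiveRoots p F).Nonempty)

/-- The Kummer character of `b ∈ Fˣ` on `Gal(Qbar/F) = F.fixingSubgroup ≤ Γℚ`, with values in
`Fˣ` (in fact in `μ_p(F)`): `σ ↦ σ(β)/β`, `β^p = b`. -/
noncomputable def kummerCharW : Fˣ →* (↥F.fixingSubgroup →* Fˣ) where
  toFun b := (Subgroup.subtype _).comp
    ((kummerChar hζ (hasRoots_top F p) b).comp (F.fixingSubgroupEquiv).toMonoidHom)
  map_one' := by
    ext σ
    simp
  map_mul' b b' := by
    ext σ
    simp

lemma kummerCharW_apply (b : Fˣ) (σ : ↥F.fixingSubgroup) :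
    kummerCharW hζ b σ = (kummerChar hζ (hasRoots_top F p) b (F.fixingSubgroupEquiv σ) : Fˣ) := rfl

lemma kummerCharW_spec (b : Fˣ) (σ : ↥F.fixingSubgroup) {β : Qbar} (hβ : β ^ p = ((b : F) : Qbar)) :
    (σ : Γℚ) β = (((kummerCharW hζ b σ : Fˣ) : F) : Qbar) * β :=
  kummerChar_spec hζ (hasRoots_top F p) b (F.fixingSubgroupEquiv σ) hβ

lemma kummerCharW_eq_one_iff_apply (b : Fˣ) (σ : ↥F.fixingSubgroup) {β : Qbar}
    (hβ : β ^ p = ((b : F) : Qbar)) : kummerCharW hζ b σ = 1 ↔ (σ : Γℚ) β = β := by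
  have h1 := kummerChar_eq_one_iff_apply hζ (hasRoots_top F p) b (F.fixingSubgroupEquiv σ) hβ
  have h2 : (F.fixingSubgroupEquiv σ) β = (σ : Γℚ) β := rfl
  rw [kummerCharW_apply, ← h2, ← h1]
  exact ⟨fun h => Subtype.ext h, fun h => congrArg Subtype.val h⟩

lemma kummerCharW_pow (b : Fˣ) (σ : ↥F.fixingSubgroup) : kummerCharW hζ b σ ^ p = 1 := by
  rw [kummerCharW_apply]
  exact (mem_rootsOfUnity _ _).1 (kummerChar hζ (hasRoots_top F p) b (F.fixingSubgroupEquiv σ)).2

omit [NeZero p] in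
lemma mem_fixingSubgroup_adjoin_singleton (σ : Γℚ) (β : Qbar) :
    σ ∈ (IntermediateField.adjoin ℚ {β}).fixingSubgroup ↔ σ β = β := by
  rw [IntermediateField.mem_fixingSubgroup_iff]
  constructor
  · intro h
    exact h β (IntermediateField.mem_adjoin_simple_self ℚ β)
  · intro h x hx
    have hle : IntermediateField.adjoin ℚ {β} ≤
        IntermediateField.fixedField (Subgroup.zpowers σ) := by
      rw [IntermediateField.adjoin_le_iff]
      intro y hy
      rw [Set.mem_singleton_iff.1 hy, SetLike.mem_coe, IntermediateField.mem_fixedField_iff]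
      intro τ hτ
      obtain ⟨n, rfl⟩ := Subgroup.mem_zpowers_iff.1 hτ
      have h1 : ∀ m : ℕ, (σ ^ m) β = β := by
        intro m
        induction m with
        | zero => simp
        | succ k ih => rw [pow_succ, AlgEquiv.mul_apply, h, ih]
      have h2 : ∀ m : ℕ, (σ ^ m)⁻¹ β = β := by
        intro m
        have := congrArg ((σ ^ m)⁻¹ : Γℚ) (h1 m)
        rw [← AlgEquiv.mul_apply, inv_mul_cancel, AlgEquiv.one_apply] at this
        exact this.symm
      cases n with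
      | ofNat m => simpa using h1 m
      | negSucc m => simpa [zpow_negSucc] using h2 (m + 1)
    have := (IntermediateField.mem_fixedField_iff _ x).1 (hle hx) σ (Subgroup.mem_zpowers σ)
    exact this

/-- The kernel of the Kummer character of `b = β^p` is the fixing subgroup of `F(β)`. -/
lemma ker_kummerCharW (b : Fˣ) {β : Qbar} (hβ : β ^ p = ((b : F) : Qbar)) :
    (kummerCharW hζ b).ker =
      (F ⊔ IntermediateField.adjoin ℚ {β}).fixingSubgroup.subgroupOf F.fixingSubgroup := by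
  ext σ
  rw [MonoidHom.mem_ker, kummerCharW_eq_one_iff_apply hζ b σ hβ, Subgroup.mem_subgroupOf,
    IntermediateField.fixingSubgroup_sup, Subgroup.mem_inf]
  rw [mem_fixingSubgroup_adjoin_singleton]
  exact ⟨fun h => ⟨σ.2, h⟩, fun h => h.2⟩

/-- The Kummer character of `b` is trivial iff `b` is a `p`-th power in `F`. -/
lemma kummerCharW_eq_one_iff (b : Fˣ) : kummerCharW hζ b = 1 ↔ ∃ c : Fˣ, c ^ p = b := by
  have h1 := kummerChar_eq_one_iff hζ (hasRoots_top F p) b
  rw [mem_powSubgroup] at h1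
  rw [← h1]
  constructor
  · intro h
    ext1 τ
    have h2 := DFunLike.congr_fun h (F.fixingSubgroupEquiv.symm τ)
    rw [kummerCharW_apply, MulEquiv.apply_symm_apply] at h2
    exact Subtype.ext h2
  · intro h
    ext1 σ
    rw [kummerCharW_apply, h]
    rfl

/-! ### The group `Δ_S` and the level property -/

variable (S : Finset Nat.Primes)

variable (F p) in
/-- `Δ_S(F) = {b ∈ Fˣ | p ∣ ord_v b for all v not above S}`. -/
def deltaS [FiniteDimensional ℚ F] : Subgroup Fˣ where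
  carrier := {b | ∀ v : HeightOneSpectrum (𝓞 F), (∀ q ∈ S, ((q : ℕ) : 𝓞 F) ∉ v.asIdeal) →
    (p : ℤ) ∣ ordAt v b}
  one_mem' := fun v _ => by rw [ordAt_one]; exact dvd_zero _
  mul_mem' := fun {a b} ha hb v hv => by
    rw [ordAt_mul]
    exact dvd_add (ha v hv) (hb v hv)
  inv_mem' := fun {a} ha v hv => by
    rw [ordAt_inv]
    exact (dvd_neg).2 (ha v hv)

omit [NeZero p] in
lemma mem_deltaS [FiniteDimensional ℚ F] {b : Fˣ} : b ∈ deltaS F p S ↔
    ∀ v : HeightOneSpectrum (𝓞 F), (∀ q ∈ S, ((q : ℕ) : 𝓞 F) ∉ v.asIdeal) →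
      (p : ℤ) ∣ ordAt v b := Iff.rfl

omit [NeZero p] in
lemma pow_mem_deltaS [FiniteDimensional ℚ F] (c : Fˣ) : c ^ p ∈ deltaS F p S := by
  intro v _
  rw [ordAt_pow]
  exact dvd_mul_right _ _

/-- The Kummer character of `b ∈ Δ_S` is trivial on a Galois level. -/
theorem exists_galLevel_le_ker [FiniteDimensional ℚ F] (hF : F.IsUnramifiedOutside S)
    (hpS : ∀ q : Nat.Primes, (q : ℕ) ∣ p → q ∈ S) {b : Fˣ} (hb : b ∈ deltaS F p S) :
    ∃ L : GalLevel S, F ≤ L.F ∧
      (L.V).subgroupOf F.fixingSubgroup ≤ (kummerCharW hζ b).ker := by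
  obtain ⟨β, hβ⟩ := hasRoots_top F p b (Subgroup.mem_top b)
  have hβ' : β ^ p = ((b : F) : Qbar) := hβ
  have hun := KummerLevel.isUnramifiedOutside_sup_adjoin_root S hF (NeZero.ne p) hpS b hb β hβ'
  refine ⟨GalLevel.ofUnram _ hun, le_sup_left.trans (GalLevel.le_ofUnram _ hun), ?_⟩
  rw [ker_kummerCharW hζ b hβ']
  intro σ hσ
  rw [Subgroup.mem_subgroupOf] at hσ ⊢
  exact IntermediateField.fixingSubgroup_antitone (GalLevel.le_ofUnram _ hun) hσ

theorem exists_level_le_ker [FiniteDimensional ℚ F] (hF : F.IsUnramifiedOutside S)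
    (hpS : ∀ q : Nat.Primes, (q : ℕ) ∣ p → q ∈ S) {b : Fˣ} (hb : b ∈ deltaS F p S) :
    ∃ U ∈ (galFamilyOver F hF).levels, U ≤ (kummerCharW hζ b).ker := by
  obtain ⟨L, hL, hle⟩ := exists_galLevel_le_ker hζ S hF hpS hb
  exact ⟨_, ⟨L, hL, rfl⟩, hle⟩

/-! ### The common kernel -/

/-- The common kernel of the Kummer characters of the elements of `Δ_S`: the fixing subgroup of
`F(Δ_S^{1/p})`. -/
noncomputable def kerAll [FiniteDimensional ℚ F] : Subgroup ↥F.fixingSubgroup :=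
  ⨅ b : deltaS F p S, (kummerCharW hζ (b : Fˣ)).ker

lemma mem_kerAll [FiniteDimensional ℚ F] {σ : ↥F.fixingSubgroup} :
    σ ∈ kerAll hζ S ↔ ∀ b ∈ deltaS F p S, kummerCharW hζ b σ = 1 := by
  rw [kerAll, Subgroup.mem_iInf]
  exact ⟨fun h b hb => h ⟨b, hb⟩, fun h b => h b b.2⟩

instance normal_kerAll [FiniteDimensional ℚ F] : (kerAll hζ S).Normal :=
  Subgroup.normal_iInf_normal fun _ => MonoidHom.normal_ker _

lemma kerAll_le_ker [FiniteDimensional ℚ F] {b : Fˣ} (hb : b ∈ deltaS F p S) :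
    kerAll hζ S ≤ (kummerCharW hζ b).ker := fun _ hσ => (mem_kerAll hζ S).1 hσ b hb

open Fermat.Agent.Lib.CFT.Global.ExistenceAbstract in
/-- If `Δ_S / Fˣᵖ` is finite, the common kernel contains a (normal) Galois level. -/
theorem exists_level_le_kerAll [FiniteDimensional ℚ F] (hF : F.IsUnramifiedOutside S)
    (hpS : ∀ q : Nat.Primes, (q : ℕ) ∣ p → q ∈ S)
    (hfin : (powSub Fˣ p).relIndex (deltaS F p S) ≠ 0) :
    ∃ U ∈ (galFamilyOver F hF).levels, U.Normal ∧ U ≤ kerAll hζ S := by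
  have hfinQ : Finite (↥(deltaS F p S) ⧸ (powSub Fˣ p).subgroupOf (deltaS F p S)) :=
    Subgroup.index_ne_zero_iff_finite.1 hfin
  have hex : ∀ q : ↥(deltaS F p S) ⧸ (powSub Fˣ p).subgroupOf (deltaS F p S),
      ∃ U ∈ (galFamilyOver F hF).levels, U ≤ (kummerCharW hζ ((Quotient.out q : deltaS F p S) : Fˣ)).ker :=
    fun q => exists_level_le_ker hζ S hF hpS (Quotient.out q).2
  choose U hU hUle using hex
  obtain ⟨W, hW, hWn, hWle⟩ := (galFamilyOver F hF).exists_normal_le_of_finite U hU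
  refine ⟨W, hW, hWn, fun σ hσ => ?_⟩
  rw [mem_kerAll]
  intro b hb
  set q : ↥(deltaS F p S) ⧸ (powSub Fˣ p).subgroupOf (deltaS F p S) :=
    QuotientGroup.mk ⟨b, hb⟩ with hq
  have h1 : (Quotient.out q)⁻¹ * ⟨b, hb⟩ ∈ (powSub Fˣ p).subgroupOf (deltaS F p S) :=
    QuotientGroup.eq.1 (Quotient.out_eq' q)
  rw [Subgroup.mem_subgroupOf] at h1
  obtain ⟨c, hc⟩ := mem_powSub.1 h1
  have h2 : b = ((Quotient.out q : deltaS F p S) : Fˣ) * c ^ p := by
    rw [hc]
    simp
  have h3 : kummerCharW hζ ((Quotient.out q : deltaS F p S) : Fˣ) σ = 1 := hUle q (hWle q hσ)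
  rw [h2, map_mul, MonoidHom.mul_apply, h3, one_mul, map_pow, MonoidHom.pow_apply]
  exact kummerCharW_pow hζ c σ

/-- `Gal(Qbar/F) / kerAll` is commutative. -/
lemma quot_kerAll_comm [FiniteDimensional ℚ F] (a b : ↥F.fixingSubgroup ⧸ kerAll hζ S) :
    a * b = b * a :=
  ExistenceFormation.quot_comm_of_forall_ker
    ((kummerCharW hζ).comp (deltaS F p S).subtype) (kerAll hζ S)
    (fun _ hg => (mem_kerAll hζ S).2 fun b hb => hg ⟨b, hb⟩) a b

/-- `Gal(Qbar/F) / kerAll` has exponent `p`. -/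
lemma quot_kerAll_pow [FiniteDimensional ℚ F] (a : ↥F.fixingSubgroup ⧸ kerAll hζ S) :
    a ^ p = 1 :=
  ExistenceFormation.quot_pow_of_forall_ker
    ((kummerCharW hζ).comp (deltaS F p S).subtype) (kerAll hζ S) p
    (fun _ hg => (mem_kerAll hζ S).2 fun b hb => hg ⟨b, hb⟩)
    (fun d g => kummerCharW_pow hζ (d : Fˣ) g) a

end Fermat.Agent.Lib.CFT.Global.KummerChars
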