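import Mathlib
import Fermat.Agent.Lib.CFT.Global.KummerChars
import Fermat.Agent.Lib.CFT.Global.ExistencePairingWeak
import Fermat.Agent.Lib.CFT.Global.SecondIneq.Instance.KModel
import Fermat.Agent.Lib.CFT.Global.SVersion.Level

/-!
# Existence theorem mod `p` for a formation on `Gal(Qbar/K)`: the assembly
(P-CFT, Global/Existence, file 10)

`K ⊆ Qbar` finite over `ℚ`, unramified outside `S`, `ζ_p ∈ K`, `p ∈ S`.  Let `𝔉` be ANY class
formation (helper7's `Formation k Γ`) on `Γ = K.fixingSubgroup` whose levels contain the Galois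
levels `galFamilyOver K hK`, together with an *idelic dictionary*:

* `cls : Idele K →* Multiplicative C^Γ`, surjective with kernel `Kˣ · U_{K,S}`
  (descent: `C^Γ = C_S(K)`);
* `hnorm` : idele norms from `K(b^{1/p})` are killed by `κ_b ∘ rec` for `b ∈ Δ_S`
  (norm functoriality of the reciprocity map).

Then (`existence_of_dict`): `[C^Γ : p C^Γ] = [Δ_S : Kˣᵖ]` is finite and nonzero, the pairing
`(x, χ) ↦ χ (rec x)` between `C^Γ / p` and the level characters into `ℤ/p` is nondegenerate on both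
sides, and every level character into `ℤ/p` is trivial on the fixing subgroup of
`K(Δ_S^{1/p})`.
-/

set_option autoImplicit false

open scoped NumberField

open NumberField IsDedekindDomain

namespace Fermat.Agent.Lib.CFT.Global.ExistenceAssembly

open Fermat.Agent.Lib.CFT.Global Fermat.Agent.Lib.CFT.Global.SUnits
  Fermat.Agent.Lib.CFT.Global.SecondIneq Fermat.Agent.Lib.CFT.Global.SecondIneq.Instance
  Fermat.Agent.Lib.CFT.Global.ExistenceAbstract Fermat.Agent.Lib.CFT.Global.ExistenceModel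
  Fermat.Agent.Lib.CFT.Global.ExistencePairing Fermat.Agent.Lib.CFT.Global.ExistenceFormation
  Fermat.Agent.Lib.CFT.Global.SVersion Fermat.Agent.Lib.CFT.Global.KummerChars
  Fermat.Agent.Lib.CFT.Profinite Fermat.Agent.Lib.CFT.Coh.ClassFormation

/-! ### The primes above a finite set of rational primes -/

section PrimesAbove

variable (F : Type) [Field F] [NumberField F] (S : Finset Nat.Primes)

lemma finite_setOf_qOf_mem : {v : HeightOneSpectrum (𝓞 F) | qOf F v ∈ S}.Finite := by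
  have : {v : HeightOneSpectrum (𝓞 F) | qOf F v ∈ S} =
      ⋃ q ∈ S, {v : HeightOneSpectrum (𝓞 F) | qOf F v = q} := by
    ext v
    simp
  rw [this]
  exact Set.Finite.biUnion S.finite_toSet fun q _ => finite_setOf_qOf_eq F q

/-- The primes of `𝓞 F` above the rational primes of `S`. -/
noncomputable def primesAbove : Finset (HeightOneSpectrum (𝓞 F)) :=
  (finite_setOf_qOf_mem F S).toFinset

variable {F S}

lemma mem_primesAbove {v : HeightOneSpectrum (𝓞 F)} : v ∈ primesAbove F S ↔ qOf F v ∈ S := by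
  rw [primesAbove, Set.Finite.mem_toFinset]
  rfl

lemma natCast_mem_asIdeal_iff (v : HeightOneSpectrum (𝓞 F)) (q : Nat.Primes) :
    ((q : ℕ) : 𝓞 F) ∈ v.asIdeal ↔ qOf F v = q :=
  ⟨fun h => qOf_eq F v q h, fun h => h ▸ mem_qOf F v⟩

lemma notMem_primesAbove_iff {v : HeightOneSpectrum (𝓞 F)} :
    v ∉ primesAbove F S ↔ ∀ q ∈ S, ((q : ℕ) : 𝓞 F) ∉ v.asIdeal := by
  rw [mem_primesAbove]
  constructor
  · intro h q hq hmem
    exact h ((natCast_mem_asIdeal_iff v q).1 hmem ▸ hq)
  · intro h hmem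
    exact h _ hmem (mem_qOf F v)

variable {p : ℕ}

/-- `U_{F,S}` corresponds to the subgroup `U_S` of the model. -/
theorem ideleEquiv_mem_US_iff (D : LocalData F p) (x : Idele F) :
    D.ideleEquiv x ∈ US D.toLocalModel (primesAbove F S) ↔ x ∈ unitsOut S F := by
  rw [mem_US, mem_unitsOut]
  constructor
  · rintro ⟨h1, h2, h3⟩
    refine ⟨fun q hq => ?_, h3, fun q hq => ?_⟩
    · -- all components of `x q` are trivial
      apply (compEquiv F q).injective
      funext w
      rw [compEquiv_apply, map_one, Pi.one_apply]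
      apply (toFvEquiv F q w).injective
      rw [map_one, toFvEquiv_compAt F q w (fun q => (x : IdeleProd F).1 q)]
      have hw : w.1 ∈ primesAbove F S := mem_primesAbove.2 (by rw [qOf_val]; exact hq)
      exact h2 w.1 hw
    · rw [mem_locIntUnits_iff_compAt]
      intro w
      rw [toFvEquiv_compAt F q w (fun q => (x : IdeleProd F).1 q)]
      have hw : w.1 ∉ primesAbove F S := by
        rw [mem_primesAbove, qOf_val]
        exact hq
      exact h1 w.1 hw
  · rintro ⟨h1, h2, h3⟩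
    refine ⟨fun v hv => ?_, fun v hv => ?_, h2⟩
    · have hq : qOf F v ∉ S := fun h => hv (mem_primesAbove.2 h)
      have h4 := (mem_locIntUnits_iff_compAt F (qOf F v) _).1 (h3 _ hq) (vOver F v)
      rw [toFvEquiv_vOver] at h4
      exact h4
    · have hq : qOf F v ∈ S := mem_primesAbove.1 hv
      change compAt F (qOf F v) (vOver F v) ((x : IdeleProd F).1 (qOf F v)) = 1
      rw [h1 _ hq, map_one]

theorem map_unitsOut_eq_US (D : LocalData F p) :
    (unitsOut S F).map D.ideleEquiv.toMonoidHom = US D.toLocalModel (primesAbove F S) := by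
  ext y
  constructor
  · rintro ⟨x, hx, rfl⟩
    exact (ideleEquiv_mem_US_iff D x).2 hx
  · intro hy
    refine ⟨D.ideleEquiv.symm y, ?_, D.ideleEquiv.apply_symm_apply y⟩
    have h := (ideleEquiv_mem_US_iff (S := S) D (D.ideleEquiv.symm y)).1
      (by rw [D.ideleEquiv.apply_symm_apply]; exact hy)
    exact h

end PrimesAbove

/-! ### The assembly -/

section Assembly

local notation "Qbar" => AlgebraicClosure ℚ
local notation "Γℚ" => (AlgebraicClosure ℚ ≃ₐ[ℚ] AlgebraicClosure ℚ)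

variable {S : Finset Nat.Primes} {K : IntermediateField ℚ Qbar} [FiniteDimensional ℚ K]
  {p : ℕ}

/-- `Δ_S(K)` is the group `Δ` of the model attached to the primes above `S`. -/
lemma deltaS_eq_delta (D : LocalData K p) :
    deltaS K p S = delta D.toLocalModel.principal p (JS D.toLocalModel (primesAbove K S)) := by
  ext b
  rw [mem_delta_iff, mem_deltaS]
  exact forall_congr' fun v => by rw [notMem_primesAbove_iff]

/-- The comparison isomorphism between `Idele K` and the ideles of the Kummer model, with the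
properties used in the assembly (isolated here so that the model can be treated as opaque). -/
lemma exists_ideleEquiv_model (D : LocalData K p) (N : NormLocalData K p)
    (hWA : WeakApprox K p) :
    ∃ e : Idele K ≃* (kummerModelOf D N hWA).J,
      (∀ y : Kˣ, e (principal K y) = (kummerModelOf D N hWA).principal y) ∧
      (∀ x : Idele K, e x ∈ US (kummerModelOf D N hWA).toLocalModel (primesAbove K S) ↔
        x ∈ unitsOut S K) ∧
      (∀ (b : Kˣ) (x : (kummerModelOf D N hWA).J), x ∈ (kummerModelOf D N hWA).Nb b →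
        e.symm x ∈ N.Nglob b) :=
  ⟨D.ideleEquiv, D.ideleEquiv_principal, ideleEquiv_mem_US_iff D, by
    rintro b x ⟨y, hy, rfl⟩
    change D.ideleEquiv.symm (D.ideleEquiv y) ∈ N.Nglob b
    rw [D.ideleEquiv.symm_apply_apply]
    exact hy⟩

variable {k : Type} [CommRing k] (𝔉 : Formation k ↥K.fixingSubgroup)

set_option maxHeartbeats 600000 in
/-- **Existence theorem mod `p` for a formation on `Gal(Qbar/K)` with an idelic dictionary.** -/
theorem existence_of_dict [NeZero p] (hK : K.IsUnramifiedOutside S)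
    (h𝒰 : ∀ U ∈ (galFamilyOver K hK).levels, U ∈ 𝔉.𝒰.levels)
    (hp : p.Prime) {ζ : K} (hζ : IsPrimitiveRoot ζ p)
    (hζ' : (primitiveRoots p K).Nonempty)
    (hpS : ∀ q : Nat.Primes, (q : ℕ) ∣ p → q ∈ S)
    (D : LocalData K p) (N : NormLocalData K p) (hWA : WeakApprox K p)
    (hU : ∀ (b : Kˣ) (v : HeightOneSpectrum (𝓞 K)), (p : 𝓞 K) ∉ v.asIdeal →
      (p : ℤ) ∣ ordAt v b → Uv K v ≤ N.NlocQ b (qOf K v) (vOver K v))
    (cls : Idele K →* Multiplicative 𝔉.C.ρ.invariants) (hcls : Function.Surjective cls)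
    (hker : cls.ker = (principal K).range ⊔ unitsOut S K)
    (hnorm : ∀ (b : Kˣ) (_ : b ∈ deltaS K p S) (hb : IsLevelChar 𝔉 (kummerCharW hζ' b)),
      ∀ x ∈ N.Nglob b, evalChar 𝔉 (kummerCharW hζ' b) hb (Multiplicative.toAdd (cls x)) = 1) :
    haveI : Fact p.Prime := ⟨hp⟩
    (∀ x : 𝔉.C.ρ.invariants,
      (∀ (V : Subgroup ↥K.fixingSubgroup) [V.Normal] (hV : V ∈ 𝔉.𝒰.levels)
        (χ : ↥K.fixingSubgroup →* Multiplicative (ZMod p)) (hχ : V ≤ χ.ker),
          evalRec 𝔉 V hV χ hχ x = 1) → x ∈ pMul 𝔉 p) ∧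
    (∀ (V : Subgroup ↥K.fixingSubgroup) [V.Normal] (hV : V ∈ 𝔉.𝒰.levels)
      (χ : ↥K.fixingSubgroup →* Multiplicative (ZMod p)) (hχ : V ≤ χ.ker), χ ≠ 1 →
        ∃ x : 𝔉.C.ρ.invariants, evalRec 𝔉 V hV χ hχ x ≠ 1) ∧
    (pMul 𝔉 p).index ≠ 0 ∧
    (pMul 𝔉 p).index = (powSub Kˣ p).relIndex (deltaS K p S) ∧
    Nat.card (↥K.fixingSubgroup ⧸ kerAll hζ' S) = (pMul 𝔉 p).index ∧
    (∀ (W : Subgroup ↥K.fixingSubgroup) (_ : W ∈ 𝔉.𝒰.levels)
      (χ : ↥K.fixingSubgroup →* Multiplicative (ZMod p)), W ≤ χ.ker → kerAll hζ' S ≤ χ.ker) := by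
  have : Fact p.Prime := ⟨hp⟩
  classical
  obtain ⟨e, he1, he2, he3⟩ := exists_ideleEquiv_model (S := S) D N hWA
  have hΔ : deltaS K p S = delta (kummerModelOf D N hWA).principal p
      (JS (kummerModelOf D N hWA).toLocalModel (primesAbove K S)) := deltaS_eq_delta D
  have hU' : ∀ (b : Kˣ) (v : HeightOneSpectrum (𝓞 K)), (p : 𝓞 K) ∉ v.asIdeal →
      (p : ℤ) ∣ ordAt v b → (kummerModelOf D N hWA).U v ≤ (kummerModelOf D N hWA).Nloc b v := hU
  generalize kummerModelOf D N hWA = M at e he1 he2 he3 hΔ hU'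
  set S' := primesAbove K S with hS'
  -- `S'` contains the primes above `p`
  have hS'p : ∀ v : HeightOneSpectrum (𝓞 K), (p : 𝓞 K) ∈ v.asIdeal → v ∈ S' := by
    intro v hv
    rw [hS', mem_primesAbove]
    have h1 : qOf K v = ⟨p, hp⟩ := qOf_eq K v ⟨p, hp⟩ hv
    rw [h1]
    exact hpS ⟨p, hp⟩ dvd_rfl
  -- the Kummer characters restricted to `Δ_S`
  set κ : ↥(deltaS K p S) →* (↥K.fixingSubgroup →* Kˣ) :=
    (kummerCharW hζ').comp (deltaS K p S).subtype with hκdef
  have hκ : ∀ d, IsLevelChar 𝔉 (κ d) := by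
    intro d
    obtain ⟨U, hU, hle⟩ := exists_level_le_ker hζ' S hK hpS d.2
    exact ⟨U, h𝒰 U hU, hle⟩
  -- the map `J → C^Γ`
  set φ : M.J →* Multiplicative 𝔉.C.ρ.invariants := cls.comp e.symm.toMonoidHom with hφ
  have hφ_apply : ∀ x, φ x = cls (e.symm x) := fun _ => rfl
  have hφs : Function.Surjective φ := hcls.comp e.symm.surjective
  have hφker : φ.ker = M.principal.range ⊔ US M.toLocalModel S' := by
    ext x
    rw [MonoidHom.mem_ker, hφ_apply, ← MonoidHom.mem_ker, hker]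
    constructor
    · intro hx
      obtain ⟨_, ⟨y, rfl⟩, u, hu, hyu⟩ := Subgroup.mem_sup.1 hx
      have h1 : x = M.principal y * e u := by
        rw [← he1, ← map_mul, hyu, e.apply_symm_apply]
      rw [h1]
      exact Subgroup.mul_mem_sup ⟨y, rfl⟩ ((he2 u).2 hu)
    · intro hx
      obtain ⟨_, ⟨y, rfl⟩, u, hu, rfl⟩ := Subgroup.mem_sup.1 hx
      rw [map_mul, ← he1, e.symm_apply_apply]
      refine Subgroup.mul_mem_sup ⟨y, rfl⟩ ((he2 _).1 ?_)
      rw [e.apply_symm_apply]
      exact hu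
  -- the pairing
  set pair : M.J →* (↥(deltaS K p S) →* Kˣ) := (charPairHom 𝔉 κ hκ).comp φ with hpair
  have hpair_apply : ∀ (x : M.J) (b : ↥(deltaS K p S)),
      pair x b = evalChar 𝔉 (κ b) (hκ b) (Multiplicative.toAdd (φ x)) := fun _ _ => rfl
  have hP : ∀ (y : Kˣ) (b : ↥(deltaS K p S)), pair (M.principal y) b = 1 := by
    intro y b
    have h1 : φ (M.principal y) = 1 := by
      rw [← MonoidHom.mem_ker, hφker]
      exact Subgroup.mem_sup_left ⟨y, rfl⟩
    rw [hpair_apply, h1]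
    exact evalChar_zero 𝔉 _ _
  have hnorm' : ∀ (b : ↥(deltaS K p S)) (x : M.J), x ∈ M.Nb (b : Kˣ) → pair x b = 1 := by
    intro b x hx
    rw [hpair_apply, hφ_apply]
    exact hnorm (b : Kˣ) b.2 (hκ b) _ (he3 (b : Kˣ) x hx)
  have hnd : ∀ b : ↥(deltaS K p S), (∀ x, pair x b = 1) → (b : Kˣ) ∈ powSub Kˣ p := by
    intro b hb
    by_contra hne
    have hne' : κ b ≠ 1 := by
      intro h1
      apply hne
      obtain ⟨c, hc⟩ := (kummerCharW_eq_one_iff hζ' (b : Kˣ)).1 h1
      exact mem_powSub.2 ⟨c, hc⟩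
    obtain ⟨x, hx⟩ := exists_evalChar_ne_one 𝔉 (κ b) (hκ b) hne'
    obtain ⟨y, hy⟩ := hφs (Multiplicative.ofAdd x)
    apply hx
    have := hb y
    rw [hpair_apply, hy] at this
    exact this
  obtain ⟨-, -, hidx, hN0, hcardpair⟩ :=
    pairing_perfect_model_weak M S' hp hζ hS'p hΔ pair hP hnorm' hnd hU'
  -- the index of `p C^Γ`
  have hpow : (pMul 𝔉 p).toSubgroup = powSub (Multiplicative 𝔉.C.ρ.invariants) p := by
    ext x
    rw [mem_powSub]
    constructor
    · rintro ⟨y, hy⟩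
      refine ⟨Multiplicative.ofAdd y, ?_⟩
      rw [← ofAdd_nsmul]
      exact congrArg Multiplicative.ofAdd hy
    · rintro ⟨y, rfl⟩
      exact ⟨Multiplicative.toAdd y, rfl⟩
  have hcomap : (powSub (Multiplicative 𝔉.C.ρ.invariants) p).comap φ =
      M.principal.range ⊔ powSub M.J p ⊔ US M.toLocalModel S' := by
    rw [← map_powSub_of_surjective φ hφs p, Subgroup.comap_map_eq, hφker]
    rw [sup_comm (powSub M.J p), sup_right_comm]
  have hindex : (pMul 𝔉 p).index = (powSub Kˣ p).relIndex (deltaS K p S) := by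
    rw [← AddSubgroup.index_toSubgroup, hpow,
      ← Subgroup.index_comap_of_surjective (powSub (Multiplicative 𝔉.C.ρ.invariants) p) hφs,
      hcomap, hidx]
  have hindex0 : (pMul 𝔉 p).index ≠ 0 := hindex ▸ hN0
  -- the Kummer level
  obtain ⟨U, hUlev, hUn, hUle⟩ := exists_level_le_kerAll hζ' S hK hpS hN0
  have hrange : pair.range = (charPairHom 𝔉 κ hκ).range := by
    rw [hpair, MonoidHom.range_comp, MonoidHom.range_eq_top.2 hφs, ← MonoidHom.range_eq_map]
  have hcard : (pMul 𝔉 p).index ≤ Nat.card (↥K.fixingSubgroup ⧸ kerAll hζ' S) := by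
    rw [hindex, ← hcardpair, hrange]
    exact card_range_charPairHom_le 𝔉 κ hκ (kerAll hζ' S) U (h𝒰 U hUlev) hUle
      (fun d => kerAll_le_ker hζ' S d.2)
  obtain ⟨h1, h2, h3, -, h5⟩ := existence_mod_p_of_le 𝔉 p (kerAll hζ' S) U (h𝒰 U hUlev) hUle
    (quot_kerAll_pow hζ' S) (quot_kerAll_comm hζ' S) hindex0 hcard
  exact ⟨h1, h2, hindex0, hindex, h3, h5⟩

end Assembly

end Fermat.Agent.Lib.CFT.Global.ExistenceAssembly
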