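import Fermat.Agent.Lib.CFT.Global.IdeleInvariants
import Fermat.Agent.Lib.CFT.Global.IdeleSES

/-!
# Galois descent for idele classes (helper54, P-CFT task 255)

For a Galois extension `L / K` of number fields with group `Gal(L/K)`:

* `ideleClassMap_injective`: the map `C_K → C_L` is injective;
* `exists_ideleClassMap_eq_of_fixed`: every `Gal(L/K)`-invariant idele class of `L` comes from an
  idele class of `K` (Hilbert's theorem 90 plus the descent for ideles);
* the same statements for an arbitrary finite group `G` with `IsGaloisGroup G K L`;
* `ideleClassDescentIso`, `ideleDescentIso`, `unitsDescentIso`: for a group `G` acting on `M`, a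
  finite normal subgroup `N` with fixed field `E` and a compatible action of `G ⧸ N` on `E`, the
  modules `C_E`, `J_E`, `Eˣ` are the `G ⧸ N`-representations `(C_M)^N`, `(J_M)^N`, `(Mˣ)^N`
  (`Rep.quotientToInvariants`).
-/

open scoped NumberField

noncomputable section

namespace Fermat.Agent.Lib.CFT.Global

variable (K L : Type) [Field K] [NumberField K] [Field L] [NumberField L] [Algebra K L]

omit [NumberField K] in
/-- The value of `g • principal y` for a Galois automorphism `g`. -/
lemma smul_principal_algEquiv (g : L ≃ₐ[K] L) (y : Lˣ) :
    g • principal L y = principal L (g • y) := by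
  rw [← principal_smul L (L ≃ₐ[K] L) g y]
  congr 1

/-- A unit of `L` fixed by the Galois group comes from `K`. -/
lemma exists_units_map_eq_of_fixed [IsGalois K L] (y : Lˣ)
    (hy : ∀ g : L ≃ₐ[K] L, g (y : L) = y) :
    ∃ x : Kˣ, Units.map (algebraMap K L : K →* L) x = y := by
  have hmem : (y : L) ∈ (⊥ : IntermediateField K L) := by
    rw [← IsGalois.fixedField_top (F := K) (E := L), IntermediateField.mem_fixedField_iff]
    intro g _
    exact hy g
  obtain ⟨x, hx⟩ := IntermediateField.mem_bot.1 hmem
  have hx0 : x ≠ 0 := by
    rintro rfl
    rw [map_zero] at hx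
    exact y.ne_zero hx.symm
  exact ⟨Units.mk0 x hx0, Units.ext hx⟩

/-- **Descent, injectivity**: for a Galois extension `L / K` of number fields the map
`C_K → C_L` is injective. -/
theorem ideleClassMap_injective [IsGalois K L] :
    Function.Injective (ideleClassMap (algebraMap K L)) := by
  rw [injective_iff_map_eq_one]
  intro c hc
  induction c using QuotientGroup.induction_on with
  | H a =>
    rw [ideleClassMap_mk, QuotientGroup.eq_one_iff] at hc
    obtain ⟨y, hy⟩ := hc
    have hfix : ∀ g : L ≃ₐ[K] L, g (y : L) = y := by
      intro g
      have h1 : g • principal L y = principal L y := by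
        rw [hy]; exact smul_ideleMap_algebraMap g a
      rw [smul_principal_algEquiv] at h1
      have h2 := principal_injective' L h1
      exact congrArg (fun u : Lˣ => (u : L)) h2
    obtain ⟨x, hx⟩ := exists_units_map_eq_of_fixed K L y hfix
    have h3 : ideleMap (algebraMap K L) a = ideleMap (algebraMap K L) (principal K x) := by
      rw [ideleMap_principal, ← hy]
      congr 1
      exact hx.symm
    rw [QuotientGroup.eq_one_iff]
    exact ⟨x, (ideleMap_injective _ h3).symm⟩

private lemma comm_aux1 {G : Type*} [CommGroup G] (b u v : G) :
    b⁻¹ * v = u⁻¹ * v * (b⁻¹ * u) := by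
  rw [mul_comm (u⁻¹ * v), mul_assoc, mul_inv_cancel_left]

private lemma comm_aux2 {G : Type*} [CommGroup G] (b p q : G) :
    b * (p / q) * p⁻¹ = b * q⁻¹ := by
  rw [mul_assoc, div_eq_mul_inv, mul_comm p, mul_assoc, mul_inv_cancel, mul_one]

/-- **Descent, surjectivity onto the invariants**: for a Galois extension `L / K` of number fields
every Galois-invariant idele class of `L` comes from an idele class of `K`
(Hilbert's theorem 90). -/
theorem exists_ideleClassMap_eq_of_fixed [IsGalois K L] (c : IdeleClass L)
    (hc : ∀ g : L ≃ₐ[K] L, g • c = c) :
    ∃ a : IdeleClass K, ideleClassMap (algebraMap K L) a = c := by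
  induction c using QuotientGroup.induction_on with
  | H b =>
    -- the cocycle
    have hx : ∀ g : L ≃ₐ[K] L, ∃ x : Lˣ, principal L x = b⁻¹ * g • b := by
      intro g
      have h1 := hc g
      rw [smul_mk_ideleClass] at h1
      have h2 := QuotientGroup.eq.1 h1.symm
      exact h2
    choose x hx using hx
    have hcoc : groupCohomology.IsMulCocycle₁ x := by
      intro g h
      apply principal_injective' L
      rw [map_mul, hx, ← smul_principal_algEquiv, hx, hx, mul_smul, smul_mul', smul_inv']
      exact comm_aux1 _ _ _
    obtain ⟨y, hy⟩ := groupCohomology.isMulCoboundary₁_of_isMulCocycle₁_of_aut_to_units x hcoc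
    -- the corrected idele is invariant
    have hfix : ∀ g : L ≃ₐ[K] L, g • (b * (principal L y)⁻¹) = b * (principal L y)⁻¹ := by
      intro g
      have h1 : g • b = b * principal L (x g) := by rw [hx, mul_inv_cancel_left]
      have h2 : x g = g • y / y := (hy g).symm
      rw [smul_mul', smul_inv', smul_principal_algEquiv, h1, h2, map_div]
      exact comm_aux2 _ _ _
    obtain ⟨a, ha⟩ := exists_ideleMap_eq_of_fixed K L _ hfix
    refine ⟨QuotientGroup.mk a, ?_⟩
    rw [ideleClassMap_mk, ha, QuotientGroup.eq]
    exact ⟨y, by rw [mul_inv_rev, inv_inv, mul_assoc, inv_mul_cancel, mul_one]⟩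

/-- The image of `C_K → C_L` is the group of Galois invariants. -/
theorem mem_range_ideleClassMap_iff [IsGalois K L] (c : IdeleClass L) :
    c ∈ (ideleClassMap (algebraMap K L)).range ↔ ∀ g : L ≃ₐ[K] L, g • c = c := by
  constructor
  · rintro ⟨a, rfl⟩ g
    induction a using QuotientGroup.induction_on with
    | H a =>
      rw [ideleClassMap_mk, smul_mk_ideleClass, smul_ideleMap_algebraMap]
  · intro hc
    exact exists_ideleClassMap_eq_of_fixed K L c hc

section Congr

variable (L : Type) [Field L] [NumberField L]
variable {G H : Type} [Group G] [Group H] [MulSemiringAction G L] [MulSemiringAction H L]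

/-- The action on the ideles only depends on the induced ring automorphism. -/
lemma smul_idele_congr (g : G) (h : H) (hgh : ∀ x : L, g • x = h • x) (b : Idele L) :
    g • b = h • b := by
  have hcomp : MulSemiringAction.toRingHom G L g = MulSemiringAction.toRingHom H L h := by
    ext x; exact hgh x
  apply Subtype.ext
  ext : 1
  · funext q
    apply Units.ext
    change locMap (MulSemiringAction.toRingHom G L g) q _ =
      locMap (MulSemiringAction.toRingHom H L h) q _
    rw [hcomp]
  · apply Units.ext
    change archMap (MulSemiringAction.toRingHom G L g) _ =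
      archMap (MulSemiringAction.toRingHom H L h) _
    rw [hcomp]

/-- The action on the idele classes only depends on the induced ring automorphism. -/
lemma smul_ideleClass_congr (g : G) (h : H) (hgh : ∀ x : L, g • x = h • x) (c : IdeleClass L) :
    g • c = h • c := by
  induction c using QuotientGroup.induction_on with
  | H b => rw [smul_mk_ideleClass, smul_mk_ideleClass, smul_idele_congr L g h hgh]

end Congr

section Equivariance

variable {K L : Type} [Field K] [NumberField K] [Field L] [NumberField L]
variable {G H : Type} [Group G] [Group H] [MulSemiringAction G K] [MulSemiringAction H L]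

/-- `ideleMap f` intertwines `g` and `h` when `f` does. -/
lemma ideleMap_smul_of_intertwine (f : K →+* L) (g : G) (h : H)
    (hf : ∀ x : K, f (g • x) = h • f x) (a : Idele K) :
    ideleMap f (g • a) = h • ideleMap f a := by
  have hcomp : f.comp (MulSemiringAction.toRingHom G K g) =
      (MulSemiringAction.toRingHom H L h).comp f := by
    ext x; simp [hf]
  apply Subtype.ext
  ext : 1
  · funext q
    apply Units.ext
    change locMap f q (locMap (MulSemiringAction.toRingHom G K g) q _) =
      locMap (MulSemiringAction.toRingHom H L h) q (locMap f q _)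
    rw [← locMap_comp, ← locMap_comp, hcomp]
  · apply Units.ext
    change archMap f (archMap (MulSemiringAction.toRingHom G K g) _) =
      archMap (MulSemiringAction.toRingHom H L h) (archMap f _)
    rw [← archMap_comp, ← archMap_comp, hcomp]

/-- `ideleClassMap f` intertwines `g` and `h` when `f` does. -/
lemma ideleClassMap_smul_of_intertwine (f : K →+* L) (g : G) (h : H)
    (hf : ∀ x : K, f (g • x) = h • f x) (c : IdeleClass K) :
    ideleClassMap f (g • c) = h • ideleClassMap f c := by
  induction c using QuotientGroup.induction_on with
  | H a =>
    rw [smul_mk_ideleClass, ideleClassMap_mk, ideleClassMap_mk, smul_mk_ideleClass,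
      ideleMap_smul_of_intertwine f g h hf]

end Equivariance

section GaloisGroup

variable (K L : Type) [Field K] [NumberField K] [Field L] [NumberField L] [Algebra K L]
variable (G : Type) [Group G] [Finite G] [MulSemiringAction G L] [IsGaloisGroup G K L]

include G in
/-- A unit of `L` fixed by a Galois group `G` of `L / K` comes from `K`. -/
theorem exists_units_map_eq_of_fixed_of_isGaloisGroup (y : Lˣ)
    (hy : ∀ g : G, g • (y : L) = y) :
    ∃ x : Kˣ, Units.map (algebraMap K L : K →* L) x = y := by
  have := IsGaloisGroup.isGalois G K L
  refine exists_units_map_eq_of_fixed K L y (fun σ => ?_)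
  obtain ⟨g, rfl⟩ := (IsGaloisGroup.mulEquivAlgEquiv G K L).surjective σ
  rw [IsGaloisGroup.mulEquivAlgEquiv_apply_apply]
  exact hy g

/-- Ideles of `L` fixed by a Galois group `G` of `L / K` come from `K`. -/
theorem exists_ideleMap_eq_of_fixed_of_isGaloisGroup (b : Idele L) (hb : ∀ g : G, g • b = b) :
    ∃ a : Idele K, ideleMap (algebraMap K L) a = b := by
  have := IsGaloisGroup.isGalois G K L
  refine exists_ideleMap_eq_of_fixed K L b (fun σ => ?_)
  obtain ⟨g, rfl⟩ := (IsGaloisGroup.mulEquivAlgEquiv G K L).surjective σ
  rw [smul_idele_congr L (IsGaloisGroup.mulEquivAlgEquiv G K L g) g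
    (fun x => IsGaloisGroup.mulEquivAlgEquiv_apply_apply G K L g x) b]
  exact hb g

/-- Idele classes of `L` fixed by a Galois group `G` of `L / K` come from `K`. -/
theorem exists_ideleClassMap_eq_of_fixed_of_isGaloisGroup (c : IdeleClass L)
    (hc : ∀ g : G, g • c = c) : ∃ a : IdeleClass K, ideleClassMap (algebraMap K L) a = c := by
  have := IsGaloisGroup.isGalois G K L
  refine exists_ideleClassMap_eq_of_fixed K L c (fun σ => ?_)
  obtain ⟨g, rfl⟩ := (IsGaloisGroup.mulEquivAlgEquiv G K L).surjective σ
  rw [smul_ideleClass_congr L (IsGaloisGroup.mulEquivAlgEquiv G K L g) g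
    (fun x => IsGaloisGroup.mulEquivAlgEquiv_apply_apply G K L g x) c]
  exact hc g

include G in
/-- `C_K → C_L` is injective when `L / K` has a finite Galois group. -/
theorem ideleClassMap_injective_of_isGaloisGroup :
    Function.Injective (ideleClassMap (algebraMap K L)) := by
  have := IsGaloisGroup.isGalois G K L
  exact ideleClassMap_injective K L

end GaloisGroup

section Abstract

variable {G : Type} [Group G] (N : Subgroup G) [N.Normal]
variable {A B : Type} [CommGroup A] [CommGroup B] [MulDistribMulAction (G ⧸ N) A]
  [MulDistribMulAction G B]

/-- Abstract descent: an injective equivariant homomorphism `f : A →* B` from a `G ⧸ N`-module to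
a `G`-module whose image is the group of `N`-invariants identifies `A` with the
`G ⧸ N`-representation on `B^N`. -/
def descentEquiv (f : A →* B) (hinj : Function.Injective f)
    (hequiv : ∀ (g : G) (a : A), f ((g : G ⧸ N) • a) = g • f a)
    (hsurj : ∀ b : B, (∀ n : N, (n : G) • b = b) → ∃ a, f a = b) :
    (Representation.ofMulDistribMulAction (G ⧸ N) A).Equiv
      ((Representation.ofMulDistribMulAction G B).quotientToInvariants N) := by
  have hmem : ∀ a : Additive A, (MonoidHom.toAdditive f).toIntLinearMap a ∈
      Representation.invariants ((Representation.ofMulDistribMulAction G B).comp N.subtype) := by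
    intro a n
    change Additive.ofMul ((n : G) • f a.toMul) = Additive.ofMul (f a.toMul)
    rw [← hequiv]
    have h1 : ((n : G) : G ⧸ N) = 1 := (QuotientGroup.eq_one_iff _).2 n.2
    rw [h1, one_smul]
  let φ : Additive A →ₗ[ℤ]
      Representation.invariants ((Representation.ofMulDistribMulAction G B).comp N.subtype) :=
    LinearMap.codRestrict _ (MonoidHom.toAdditive f).toIntLinearMap hmem
  have hφ : Function.Bijective φ := by
    constructor
    · intro a b hab
      have h1 := congrArg Subtype.val hab
      exact congrArg Additive.ofMul (hinj (congrArg Additive.toMul h1))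
    · rintro ⟨b, hb⟩
      obtain ⟨a, ha⟩ := hsurj b.toMul (fun n => congrArg Additive.toMul (hb n))
      exact ⟨Additive.ofMul a, Subtype.ext (congrArg Additive.ofMul ha)⟩
  refine Representation.Equiv.mk (LinearEquiv.ofBijective φ hφ) ?_
  intro q
  induction q using QuotientGroup.induction_on with
  | H g =>
    ext a
    exact hequiv g a.toMul

lemma descentEquiv_apply (f : A →* B) (hinj : Function.Injective f)
    (hequiv : ∀ (g : G) (a : A), f ((g : G ⧸ N) • a) = g • f a)
    (hsurj : ∀ b : B, (∀ n : N, (n : G) • b = b) → ∃ a, f a = b) (a : Additive A) :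
    ((descentEquiv N f hinj hequiv hsurj a : Representation.invariants
      ((Representation.ofMulDistribMulAction G B).comp N.subtype)) : Additive B) =
      Additive.ofMul (f a.toMul) := rfl

end Abstract

section Descent

open CategoryTheory

variable (E M : Type) [Field E] [NumberField E] [Field M] [NumberField M] [Algebra E M]
variable (G : Type) [Group G] [MulSemiringAction G M] (N : Subgroup G) [N.Normal]
variable [MulSemiringAction (G ⧸ N) E] [Finite N] [IsGaloisGroup N E M]

/-- **Galois descent for the idele class module.**  Let `G` act on the number field `M`, let `N` be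
a finite normal subgroup with fixed field `E`, and let `G ⧸ N` act on `E` compatibly.  Then the
idele class module of `E` is the module of `N`-invariants of the idele class module of `M`, as
`G ⧸ N`-representations. -/
def ideleClassDescentIso
    (hcompat : ∀ (g : G) (x : E), algebraMap E M ((g : G ⧸ N) • x) = g • algebraMap E M x) :
    ideleClassRep E (G ⧸ N) ≅ (ideleClassRep M G).quotientToInvariants N :=
  Rep.mkIso (descentEquiv N (ideleClassMap (algebraMap E M))
    (ideleClassMap_injective_of_isGaloisGroup E M N)
    (fun g c => ideleClassMap_smul_of_intertwine (algebraMap E M) (g : G ⧸ N) g (hcompat g) c)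
    (fun c hc => exists_ideleClassMap_eq_of_fixed_of_isGaloisGroup E M N c
      (fun n => (smul_ideleClass_congr M n (n : G) (fun _ => rfl) c).trans (hc n))))

/-- **Galois descent for the idele module.** -/
def ideleDescentIso
    (hcompat : ∀ (g : G) (x : E), algebraMap E M ((g : G ⧸ N) • x) = g • algebraMap E M x) :
    ideleRep E (G ⧸ N) ≅ (ideleRep M G).quotientToInvariants N :=
  Rep.mkIso (descentEquiv N (ideleMap (algebraMap E M))
    (ideleMap_injective (algebraMap E M))
    (fun g a => ideleMap_smul_of_intertwine (algebraMap E M) (g : G ⧸ N) g (hcompat g) a)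
    (fun b hb => exists_ideleMap_eq_of_fixed_of_isGaloisGroup E M N b
      (fun n => (smul_idele_congr M n (n : G) (fun _ => rfl) b).trans (hb n))))

/-- **Galois descent for the multiplicative group.** -/
def unitsDescentIso
    (hcompat : ∀ (g : G) (x : E), algebraMap E M ((g : G ⧸ N) • x) = g • algebraMap E M x) :
    unitsRep E (G ⧸ N) ≅ (unitsRep M G).quotientToInvariants N :=
  Rep.mkIso (descentEquiv N (Units.map (algebraMap E M : E →* M))
    (Units.map_injective (algebraMap E M).injective)
    (fun g a => Units.ext (hcompat g a))
    (fun b hb => exists_units_map_eq_of_fixed_of_isGaloisGroup E M N b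
      (fun n => congrArg (fun u : Mˣ => (u : M)) (hb n))))

variable (hcompat : ∀ (g : G) (x : E), algebraMap E M ((g : G ⧸ N) • x) = g • algebraMap E M x)

lemma ideleClassDescentIso_hom_apply (c : Additive (IdeleClass E)) :
    ((ideleClassDescentIso E M G N hcompat).hom.hom c).1 =
      Additive.ofMul (ideleClassMap (algebraMap E M) c.toMul) := rfl

lemma ideleDescentIso_hom_apply (a : Additive (Idele E)) :
    ((ideleDescentIso E M G N hcompat).hom.hom a).1 =
      Additive.ofMul (ideleMap (algebraMap E M) a.toMul) := rfl

lemma unitsDescentIso_hom_apply (x : Additive Eˣ) :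
    ((unitsDescentIso E M G N hcompat).hom.hom x).1 =
      Additive.ofMul (Units.map (algebraMap E M : E →* M) x.toMul) := rfl

/-- The descent isomorphisms are compatible with the class maps `J → C`. -/
lemma ideleDescentIso_hom_comp_classRepHom :
    (ideleDescentIso E M G N hcompat).hom ≫
        (Rep.quotientToInvariantsFunctor ℤ N).map (classRepHom M G) =
      classRepHom E (G ⧸ N) ≫ (ideleClassDescentIso E M G N hcompat).hom := by
  ext a
  rfl

/-- The descent isomorphisms are compatible with the principal embeddings. -/
lemma unitsDescentIso_hom_comp_principalRepHom :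
    (unitsDescentIso E M G N hcompat).hom ≫
        (Rep.quotientToInvariantsFunctor ℤ N).map (principalRepHom M G) =
      principalRepHom E (G ⧸ N) ≫ (ideleDescentIso E M G N hcompat).hom := by
  ext x
  apply Subtype.ext
  exact congrArg Additive.ofMul (ideleMap_principal (algebraMap E M) x.toMul).symm

end Descent

section IntermediateField

variable {K L : Type} [Field K] [Field L] [NumberField L] [Algebra K L]
variable (G : Type) [Group G] [MulSemiringAction G L]
variable (F : IntermediateField K L) (N : Subgroup G) [N.Normal] [IsGaloisGroup N F L]

omit [NumberField L] in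
/-- Mathlib's action of `G ⧸ N` on the fixed field of `N` is compatible with the action of `G`. -/
lemma algebraMap_quotient_smul (g : G) (x : F) :
    algebraMap F L ((g : G ⧸ N) • x) = g • algebraMap F L x := by
  let := IsGaloisGroup.smulOfNormal G F L N
  have := IsGaloisGroup.smulDistribClass_smulOfNormal G F L N
  let := mulSemiringActionOfSmulDistribClass F L G
  have h2 := IsGaloisGroup.algebraMap_smulOfNormal G F L N g x
  rw [← h2]
  congr 1

variable [NumberField F] [Finite N]

/-- Galois descent for the idele class module, for Mathlib's action of `G ⧸ N` on an intermediate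
field `F` with `IsGaloisGroup N F L`. -/
def ideleClassDescentIsoIntermediateField :
    ideleClassRep F (G ⧸ N) ≅ (ideleClassRep L G).quotientToInvariants N :=
  ideleClassDescentIso F L G N (algebraMap_quotient_smul G F N)

/-- Galois descent for the idele module, for Mathlib's action of `G ⧸ N` on an intermediate
field `F` with `IsGaloisGroup N F L`. -/
def ideleDescentIsoIntermediateField :
    ideleRep F (G ⧸ N) ≅ (ideleRep L G).quotientToInvariants N :=
  ideleDescentIso F L G N (algebraMap_quotient_smul G F N)

/-- Galois descent for the multiplicative group, for Mathlib's action of `G ⧸ N` on an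
intermediate field `F` with `IsGaloisGroup N F L`. -/
def unitsDescentIsoIntermediateField :
    unitsRep F (G ⧸ N) ≅ (unitsRep L G).quotientToInvariants N :=
  unitsDescentIso F L G N (algebraMap_quotient_smul G F N)

end IntermediateField

end Fermat.Agent.Lib.CFT.Global
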