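import Mathlib
import Fermat.Agent.Lib.CFT.Global.SVersion.Descent
import Fermat.Agent.Lib.CFT.Global.SVersion.Reps
import Fermat.Agent.Lib.CFT.Global.ExistenceFormationSub
import Fermat.Agent.Lib.CFT.Coh.ClassFormation.Restrict

/-!
# The dictionary between ideles of a level field and the formation module `C_S`

For an arbitrary finite subextension `K` of `Qbar / ℚ` unramified outside `S` (not necessarily
Galois over `ℚ`): the class map `clsOver S K hK : Idele K →* (C_S)^{Gal(Qbar/K)}`, its kernel
`Kˣ · U_{K,S}` (`ker_clsOver`) and its surjectivity (`clsOver_surjective`, under the lifting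
statement `LiftHypOver S K`).  This is the input `cls` of `ExistenceAssembly.existence_of_dict`.
-/

set_option autoImplicit false
set_option linter.unusedSectionVars false

open scoped TensorProduct NumberField

noncomputable section

namespace Fermat.Agent.Lib.CFT.Global.ExistenceDict

open Fermat.Agent.Lib.CFT.Global Fermat.Agent.Lib.CFT.Global.SVersion
  Fermat.Agent.Lib.CFT.Global.SVersion.Descent
open Fermat.Agent.Lib.CFT.Profinite Fermat.Agent.Lib.CFT.Profinite.Bridge RepMul
open scoped Fermat.Agent.Lib.CFT.Global.SVersion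

local notation "Qbar" => AlgebraicClosure ℚ
local notation "Γℚ" => (AlgebraicClosure ℚ ≃ₐ[ℚ] AlgebraicClosure ℚ)

local instance isAlgebraicQbar_ed : Algebra.IsAlgebraic ℚ (AlgebraicClosure ℚ) :=
  AlgebraicClosure.isAlgebraic ℚ
local instance isAlgClosureQbar_ed : IsAlgClosure ℚ (AlgebraicClosure ℚ) :=
  ⟨inferInstance, inferInstance⟩
local instance normalQbar_ed : Normal ℚ (AlgebraicClosure ℚ) :=
  IsAlgClosure.normal ℚ (AlgebraicClosure ℚ)
local instance isGaloisQbar_ed : IsGalois ℚ (AlgebraicClosure ℚ) := ⟨⟩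

/-! ### Saturation over an arbitrary base field -/

section Saturation

variable {S : Finset Nat.Primes} {K : IntermediateField ℚ Qbar} [FiniteDimensional ℚ K]
  {L' : GalLevel S} (h : K ≤ L'.F)

/-- The image of an idele of `K` in a Galois level is fixed by the fixing subgroup of `K`. -/
lemma smul_levelMap_of_mem {σ : Γℚ} (hσ : σ ∈ K.fixingSubgroup) (b : Idele K) :
    σ • levelMap h b = levelMap h b := by
  apply toAmb_injective L'.F
  rw [toAmb_smul, toAmb_levelMap, smul_toAmb_of_mem_fixingSubgroup K hσ]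

theorem levelMap_mem_unitsOut_iff_over (b : Idele K) :
    levelMap h b ∈ unitsOut S L'.F ↔ b ∈ unitsOut S K := by
  refine ⟨fun hb => ⟨fun q hq => ?_, ?_, fun q hq => ?_⟩, fun hb => ideleMap_mem_unitsOut S _ hb⟩
  · apply locUnitsMap_injective ((IntermediateField.inclusion h : K →ₐ[ℚ] L'.F) : K →+* L'.F) q
    rw [map_one]
    exact hb.1 q hq
  · apply archUnitsMap_injective ((IntermediateField.inclusion h : K →ₐ[ℚ] L'.F) : K →+* L'.F)
    rw [map_one]
    exact hb.2.1
  · exact (locUnitsMap_mem_locIntUnits_iff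
      ((IntermediateField.inclusion h : K →ₐ[ℚ] L'.F) : K →+* L'.F) q _).1 (hb.2.2 q hq)

lemma exists_principal_of_fixed_over (y : L'.Fˣ)
    (hy : ∀ σ ∈ K.fixingSubgroup, σ • principal L'.F y = principal L'.F y) :
    ∃ x : Kˣ, levelMap h (principal K x) = principal L'.F y := by
  have hy' : ∀ σ ∈ K.fixingSubgroup, σ ((y : L'.F) : Qbar) = ((y : L'.F) : Qbar) := by
    intro σ hσ
    have h1 := hy σ hσ
    rw [← principal_smul L'.F Γℚ σ y] at h1
    have h2 : σ • y = y := principal_injective L'.F h1
    have h3 : ((σ • y : L'.Fˣ) : L'.F) = (y : L'.F) := congrArg Units.val h2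
    have h4 : ((σ • (y : L'.F) : L'.F) : Qbar) = ((y : L'.F) : Qbar) := congrArg Subtype.val h3
    rwa [coe_galAction_smul] at h4
  obtain ⟨x, hx⟩ := exists_units_of_fixed h y hy'
  refine ⟨x, ?_⟩
  rw [levelMap, ideleMap_principal, hx]

theorem levelMap_mem_range_sup_unitsOut_iff_over (b : Idele K) :
    levelMap h b ∈ (principal L'.F).range ⊔ unitsOut S L'.F ↔
      b ∈ (principal K).range ⊔ unitsOut S K := by
  constructor
  · intro hb
    obtain ⟨_, ⟨y, rfl⟩, u, hu, hyu⟩ := Subgroup.mem_sup.1 hb
    have hfix : ∀ σ ∈ K.fixingSubgroup,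
        σ • principal L'.F y = principal L'.F y ∧ σ • u = u := by
      intro σ hσ
      have h1 : σ • (principal L'.F y * u) = principal L'.F y * u := by
        rw [hyu]
        exact smul_levelMap_of_mem h hσ b
      rw [smul_mul'] at h1
      have h2 : (σ • principal L'.F y) / principal L'.F y = u / (σ • u) := by
        rw [div_eq_div_iff_mul_eq_mul, h1, mul_comm]
      have h3 : (σ • principal L'.F y) / principal L'.F y ∈
          (principal L'.F).range ⊓ unitsOut S L'.F := by
        refine Subgroup.mem_inf.2 ⟨Subgroup.div_mem _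
          (smul_mem_range_principal L'.F Γℚ σ ⟨y, rfl⟩) ⟨y, rfl⟩, ?_⟩
        rw [h2]
        exact Subgroup.div_mem _ hu (smul_mem_unitsOut S L'.F Γℚ σ hu)
      rw [range_principal_inf_unitsOut, Subgroup.mem_bot] at h3
      have h4 : σ • principal L'.F y = principal L'.F y := div_eq_one.1 h3
      refine ⟨h4, ?_⟩
      rw [h4] at h1
      exact mul_left_cancel h1
    obtain ⟨x, hx⟩ := exists_principal_of_fixed_over h y (fun σ hσ => (hfix σ hσ).1)
    obtain ⟨u₀, hu₀⟩ := exists_levelMap_eq_of_fixed h u (fun σ hσ => (hfix σ hσ).2)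
    have hu₀' : u₀ ∈ unitsOut S K :=
      (levelMap_mem_unitsOut_iff_over h u₀).1 (by rw [hu₀]; exact hu)
    have hb' : b = principal K x * u₀ := by
      apply levelMap_injective h
      rw [map_mul, hx, hu₀, hyu]
    rw [hb']
    exact Subgroup.mem_sup.2 ⟨_, ⟨x, rfl⟩, _, hu₀', rfl⟩
  · intro hb
    obtain ⟨_, ⟨x, rfl⟩, u, hu, rfl⟩ := Subgroup.mem_sup.1 hb
    rw [map_mul]
    exact Subgroup.mem_sup.2 ⟨_, ⟨_, (ideleMap_principal _ x).symm⟩, _,
      ideleMap_mem_unitsOut S _ hu, rfl⟩

end Saturation

/-! ### The class map `Idele K → C_S` over an arbitrary base field -/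

section ToCS

variable (S : Finset Nat.Primes) (K : IntermediateField ℚ Qbar) [FiniteDimensional ℚ K]
  (hK : K.IsUnramifiedOutside S)

include hK in
lemma toAmb_mem_ideleS_over (b : Idele K) : toAmb K b ∈ ideleS S := by
  rw [← toAmb_levelMap (GalLevel.le_ofUnram K hK) b]
  exact toAmb_mem_ideleS S _ _

/-- The map `Idele K → ⋃_F Idele F` for a level field `K` (not necessarily Galois over `ℚ`). -/
def toISOver : Idele K →* ISgrp S :=
  (toAmb K).codRestrict (ideleS S) (toAmb_mem_ideleS_over S K hK)

@[simp] lemma coe_toISOver (b : Idele K) : (toISOver S K hK b : AmbJ) = toAmb K b := rfl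

lemma toISOver_eq_levelToIS (L : GalLevel S) (h : K ≤ L.F) (b : Idele K) :
    toISOver S K hK b = levelToIS S L (levelMap h b) :=
  Subtype.ext (toAmb_levelMap h b).symm

lemma toISOver_mem_prinUnitsSub_iff (b : Idele K) :
    toISOver S K hK b ∈ prinUnitsSub S ↔ b ∈ (principal K).range ⊔ unitsOut S K := by
  rw [toISOver_eq_levelToIS S K hK (GalLevel.ofUnram K hK) (GalLevel.le_ofUnram K hK),
    levelToIS_mem_prinUnitsSub_iff, levelMap_mem_range_sup_unitsOut_iff_over]

lemma smul_toISOver {σ : Γℚ} (hσ : σ ∈ K.fixingSubgroup) (b : Idele K) :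
    σ • toISOver S K hK b = toISOver S K hK b :=
  Subtype.ext (smul_toAmb_of_mem_fixingSubgroup K hσ b)

/-- The class map `Idele K → C_S`. -/
def toCSOver : Idele K →* CSgrp S :=
  (QuotientGroup.mk' (prinUnitsSub S)).comp (toISOver S K hK)

@[simp] lemma toCSOver_apply (b : Idele K) :
    toCSOver S K hK b = QuotientGroup.mk (toISOver S K hK b) := rfl

theorem ker_toCSOver : (toCSOver S K hK).ker = (principal K).range ⊔ unitsOut S K := by
  ext b
  rw [MonoidHom.mem_ker, toCSOver_apply, QuotientGroup.eq_one_iff,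
    toISOver_mem_prinUnitsSub_iff]

theorem smul_toCSOver {σ : Γℚ} (hσ : σ ∈ K.fixingSubgroup) (b : Idele K) :
    σ • toCSOver S K hK b = toCSOver S K hK b := by
  rw [toCSOver_apply, smul_mk_CSgrp, smul_toISOver S K hK hσ]

/-- Compatibility with the transition maps. -/
lemma toCSOver_eq_levelToCS (L : GalLevel S) (h : K ≤ L.F) (b : Idele K) :
    toCSOver S K hK b = levelToCS S L (QuotientGroup.mk (levelMap h b)) := by
  rw [toCSOver_apply, levelToCS_mk, toISOver_eq_levelToIS S K hK L h]

/-- The hypothesis `H¹(Gal(L'/K), L'ˣ × U_{L',S}) = 0` for the base field `K`, in instance-free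
form (same shape as `Descent.LiftHyp`, with an arbitrary base). -/
def LiftHypOver : Prop :=
  ∀ (L' : GalLevel S) (h : K ≤ L'.F) (b : Idele L'.F),
    (∀ σ ∈ K.fixingSubgroup, σ • b / b ∈ (principal L'.F).range ⊔ unitsOut S L'.F) →
      ∃ b₀ : Idele K, levelMap h b₀ / b ∈ (principal L'.F).range ⊔ unitsOut S L'.F

/-- `(C_S)^{Gal(Qbar/K)} = C_S(K)` for an arbitrary level field `K`, under `LiftHypOver`. -/
theorem mem_range_toCSOver_of_fixed (hLift : LiftHypOver S K) (c : CSgrp S)
    (hfix : ∀ σ ∈ K.fixingSubgroup, σ • c = c) : c ∈ (toCSOver S K hK).range := by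
  induction c using QuotientGroup.induction_on with
  | H a =>
    obtain ⟨L', hle, b, -, hba⟩ := LevelSubgroups.exists_rep_of_le a.2 (GalLevel.ofUnram K hK)
    have hK' : K ≤ L'.F := (GalLevel.le_ofUnram K hK).trans hle
    have hba' : levelToIS S L' b = a := Subtype.ext hba
    have hcond : ∀ σ ∈ K.fixingSubgroup,
        σ • b / b ∈ (principal L'.F).range ⊔ unitsOut S L'.F := by
      intro σ hσ
      rw [← levelToIS_mem_prinUnitsSub_iff, map_div, levelToIS_smul, hba']
      have h1 := hfix σ hσ
      rw [smul_mk_CSgrp, QuotientGroup.eq] at h1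
      have h2 := (prinUnitsSub S).inv_mem h1
      rwa [mul_inv_rev, inv_inv, mul_comm, ← div_eq_mul_inv] at h2
    obtain ⟨b₀, hb₀⟩ := hLift L' hK' b hcond
    refine ⟨b₀, ?_⟩
    rw [toCSOver_apply, QuotientGroup.eq, ← hba', toISOver_eq_levelToIS S K hK L' hK' b₀,
      ← map_inv, ← map_mul, levelToIS_mem_prinUnitsSub_iff]
    have h3 := Subgroup.inv_mem _ hb₀
    rwa [inv_div, div_eq_mul_inv, mul_comm] at h3

end ToCS

/-! ### Homomorphisms into the invariants of a representation -/

section InvHom

variable {k Γ : Type*} [CommRing k] [Group Γ] (C : Rep k Γ)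

/-- A homomorphism into `C` (written multiplicatively) with invariant values, as a homomorphism
into `C^Γ`. -/
def invHom {A : Type*} [Group A] (f : A →* Multiplicative C)
    (hf : ∀ (a : A) (g : Γ), C.ρ g (Multiplicative.toAdd (f a)) = Multiplicative.toAdd (f a)) :
    A →* Multiplicative C.ρ.invariants where
  toFun a := Multiplicative.ofAdd ⟨Multiplicative.toAdd (f a), fun g => hf a g⟩
  map_one' := by
    apply Multiplicative.toAdd.injective
    apply Subtype.ext
    change Multiplicative.toAdd (f 1) = 0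
    rw [map_one]
    rfl
  map_mul' a b := by
    apply Multiplicative.toAdd.injective
    apply Subtype.ext
    change Multiplicative.toAdd (f (a * b)) = Multiplicative.toAdd (f a) + Multiplicative.toAdd (f b)
    rw [map_mul]
    rfl

@[simp] lemma coe_toAdd_invHom {A : Type*} [Group A] (f : A →* Multiplicative C)
    (hf : ∀ (a : A) (g : Γ), C.ρ g (Multiplicative.toAdd (f a)) = Multiplicative.toAdd (f a))
    (a : A) :
    ((Multiplicative.toAdd (invHom C f hf a) : C.ρ.invariants) : C) =
      Multiplicative.toAdd (f a) := rfl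

lemma ker_invHom {A : Type*} [Group A] (f : A →* Multiplicative C)
    (hf : ∀ (a : A) (g : Γ), C.ρ g (Multiplicative.toAdd (f a)) = Multiplicative.toAdd (f a)) :
    (invHom C f hf).ker = f.ker := by
  ext a
  rw [MonoidHom.mem_ker, MonoidHom.mem_ker]
  constructor
  · intro h
    have h1 := congrArg (fun x => ((Multiplicative.toAdd x : C.ρ.invariants) : C)) h
    exact Multiplicative.toAdd.injective h1
  · intro h
    apply Multiplicative.toAdd.injective
    apply Subtype.ext
    change Multiplicative.toAdd (f a) = 0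
    rw [h]
    rfl

lemma invHom_surjective {A : Type*} [Group A] (f : A →* Multiplicative C)
    (hf : ∀ (a : A) (g : Γ), C.ρ g (Multiplicative.toAdd (f a)) = Multiplicative.toAdd (f a))
    (hsurj : ∀ c : C, (∀ g : Γ, C.ρ g c = c) → ∃ a, Multiplicative.toAdd (f a) = c) :
    Function.Surjective (invHom C f hf) := by
  intro x
  obtain ⟨a, ha⟩ := hsurj (Multiplicative.toAdd x : C.ρ.invariants).1
    (Multiplicative.toAdd x : C.ρ.invariants).2
  refine ⟨a, ?_⟩
  apply Multiplicative.toAdd.injective
  apply Subtype.ext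
  exact ha

end InvHom

/-! ### The class map into the invariants of `C_S` -/

section Cls

variable (S : Finset Nat.Primes) (K : IntermediateField ℚ Qbar) [FiniteDimensional ℚ K]
  (hK : K.IsUnramifiedOutside S)

/-- The formation module over the base field `K`. -/
abbrev CSOver : Rep ℤ ↥K.fixingSubgroup := Rep.res K.fixingSubgroup.subtype (CS S)

/-- An element of `C_S` as an element of the module. -/
def ofCSgrp (c : CSgrp S) : CSOver S K := (show Additive (CSgrp S) from Additive.ofMul c)

/-- An element of the module as an element of `C_S`. -/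
def toCSgrp (c : CSOver S K) : CSgrp S := Additive.toMul (show Additive (CSgrp S) from c)

@[simp] lemma toCSgrp_ofCSgrp (c : CSgrp S) : toCSgrp S K (ofCSgrp S K c) = c := rfl

@[simp] lemma ofCSgrp_toCSgrp (c : CSOver S K) : ofCSgrp S K (toCSgrp S K c) = c := rfl

lemma ofCSgrp_one : ofCSgrp S K 1 = 0 := rfl

lemma ofCSgrp_mul (c c' : CSgrp S) :
    ofCSgrp S K (c * c') = ofCSgrp S K c + ofCSgrp S K c' := rfl

lemma toCSgrp_ρ (g : ↥K.fixingSubgroup) (c : CSOver S K) :
    toCSgrp S K ((CSOver S K).ρ g c) = (g : Γℚ) • toCSgrp S K c := rfl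

lemma ofCSgrp_injective : Function.Injective (ofCSgrp S K) := fun _ _ h =>
  congrArg (toCSgrp S K) h

/-- The class map as a homomorphism into the module `C_S` (multiplicative notation). -/
def clsFun : Idele K →* Multiplicative (CSOver S K) where
  toFun b := Multiplicative.ofAdd (ofCSgrp S K (toCSOver S K hK b))
  map_one' := by
    rw [map_one, ofCSgrp_one]
    rfl
  map_mul' a b := by
    rw [map_mul, ofCSgrp_mul]
    rfl

@[simp] lemma toAdd_clsFun (b : Idele K) :
    Multiplicative.toAdd (clsFun S K hK b) = ofCSgrp S K (toCSOver S K hK b) := rfl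

lemma clsFun_invariant (b : Idele K) (g : ↥K.fixingSubgroup) :
    (CSOver S K).ρ g (Multiplicative.toAdd (clsFun S K hK b)) =
      Multiplicative.toAdd (clsFun S K hK b) := by
  rw [toAdd_clsFun]
  have h := toCSgrp_ρ S K g (ofCSgrp S K (toCSOver S K hK b))
  rw [toCSgrp_ofCSgrp, smul_toCSOver S K hK g.2] at h
  have h2 := congrArg (ofCSgrp S K) h
  rwa [ofCSgrp_toCSgrp] at h2

/-- **The class map** `Idele K → (C_S)^{Gal(Qbar/K)}`. -/
def clsOver : Idele K →* Multiplicative (CSOver S K).ρ.invariants :=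
  invHom (CSOver S K) (clsFun S K hK) (clsFun_invariant S K hK)

theorem ker_clsOver : (clsOver S K hK).ker = (principal K).range ⊔ unitsOut S K := by
  rw [clsOver, ker_invHom, ← ker_toCSOver S K hK]
  ext b
  rw [MonoidHom.mem_ker, MonoidHom.mem_ker]
  constructor
  · intro h
    have h1 : ofCSgrp S K (toCSOver S K hK b) = 0 := by
      rw [← toAdd_clsFun, h]
      rfl
    exact ofCSgrp_injective S K (h1.trans (ofCSgrp_one S K).symm)
  · intro h
    apply Multiplicative.toAdd.injective
    rw [toAdd_clsFun, h, ofCSgrp_one]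
    rfl

theorem clsOver_surjective (hLift : LiftHypOver S K) :
    Function.Surjective (clsOver S K hK) := by
  refine invHom_surjective (CSOver S K) (clsFun S K hK) (clsFun_invariant S K hK) ?_
  intro c hc
  have hfix : ∀ σ ∈ K.fixingSubgroup, σ • toCSgrp S K c = toCSgrp S K c := by
    intro σ hσ
    have h1 := hc ⟨σ, hσ⟩
    have h2 := toCSgrp_ρ S K ⟨σ, hσ⟩ c
    rw [h1] at h2
    exact h2.symm
  obtain ⟨b, hb⟩ := mem_range_toCSOver_of_fixed S K hK hLift _ hfix
  refine ⟨b, ?_⟩
  rw [toAdd_clsFun, hb, ofCSgrp_toCSgrp]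

end Cls

end Fermat.Agent.Lib.CFT.Global.ExistenceDict
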