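import Mathlib
import Fermat.Agent.Lib.CFT.Global.ExistenceDict
import Fermat.Agent.Lib.CFT.Global.IdeleNormEquiv
import Fermat.Agent.Lib.CFT.Global.KummerChars
import Fermat.Agent.Lib.CFT.Profinite.BridgeRamification
import Fermat.Agent.Lib.CFT.Global.SecondIneq.Instance.NormLocal

/-!
# Idele norms and the formation module `C_S` (P-CFT, Global/Existence, dictionary B)

* `toAmb_smul_of_comm` : equivariance of `Idele F → AmbJ` along compatible automorphisms;
* `normLE h : Idele M →* Idele K` for `K ≤ M` finite subextensions of `Qbar`;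
* `exists_section_toAmb_normLE` : for `M / K` Galois, the idele norm is the product over coset
  representatives of `Gal(Qbar/M)` in `Gal(Qbar/K)`;
* `relNorm_ofCSgrp_toCSOver` : the relative norm `C_S^{G_M} → C_S^{G_K}` of the class of an idele
  of `M` is the class of its idele norm;
* `isSplittingField_sup_adjoin_root`, `isGalois_sup_adjoin_root`, `range_ideleNorm_Mb_eq` :
  `K(b^{1/p}) ⊆ Qbar` versus the abstract splitting field `Mb K p b`;
* `evalChar_clsOver_norm_eq_one` : in a formation on `Gal(Qbar/K)` with module `C_S`, the Kummer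
  character of `b ∈ Δ_S` kills the classes of the idele norms from `K(b^{1/p})`
  (the hypothesis `hnorm` of `ExistenceAssembly.existence_of_dict`).
-/

set_option autoImplicit false
set_option linter.unusedSectionVars false
set_option linter.style.haveILetI false

open scoped TensorProduct NumberField

noncomputable section

namespace Fermat.Agent.Lib.CFT.Global.ExistenceNorm

open Fermat.Agent.Lib.CFT.Global Fermat.Agent.Lib.CFT.Global.SVersion
  Fermat.Agent.Lib.CFT.Global.SVersion.Descent
open Fermat.Agent.Lib.CFT.Profinite Fermat.Agent.Lib.CFT.Profinite.Bridge RepMul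
open scoped Fermat.Agent.Lib.CFT.Global.SVersion

local notation "Qbar" => AlgebraicClosure ℚ
local notation "Γℚ" => (AlgebraicClosure ℚ ≃ₐ[ℚ] AlgebraicClosure ℚ)

local instance isAlgebraicQbar_en : Algebra.IsAlgebraic ℚ (AlgebraicClosure ℚ) :=
  AlgebraicClosure.isAlgebraic ℚ
local instance isAlgClosureQbar_en : IsAlgClosure ℚ (AlgebraicClosure ℚ) :=
  ⟨inferInstance, inferInstance⟩
local instance normalQbar_en : Normal ℚ (AlgebraicClosure ℚ) :=
  IsAlgClosure.normal ℚ (AlgebraicClosure ℚ)
local instance isGaloisQbar_en : IsGalois ℚ (AlgebraicClosure ℚ) := ⟨⟩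

/-! ### Equivariance of `toAmb` along compatible automorphisms -/

section Equivariance

variable (F : IntermediateField ℚ Qbar) [FiniteDimensional ℚ F]
  {G : Type} [Group G] [MulSemiringAction G F]

/-- If `g` acts on `F` as `σ ∈ Γℚ` does, the map `Idele F → AmbJ` intertwines `g` and `σ`. -/
lemma toAmb_smul_of_comm (g : G) (σ : Γℚ) (hgσ : ∀ x : F, ((g • x : F) : Qbar) = σ (x : Qbar))
    (a : Idele F) : toAmb F (g • a) = σ • toAmb F a := by
  have hcomp : (incl F).comp (MulSemiringAction.toRingHom G F g) =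
      (MulSemiringAction.toRingHom Γℚ Qbar σ).comp (incl F) := by
    ext x
    exact hgσ x
  ext : 1
  · funext q
    apply Units.ext
    change locMap (incl F) q (locMap (MulSemiringAction.toRingHom G F g) q _) =
      locMap (MulSemiringAction.toRingHom Γℚ Qbar σ) q (locMap (incl F) q _)
    rw [← locMap_comp, ← locMap_comp, hcomp]
  · apply Units.ext
    change archMap (incl F) (archMap (MulSemiringAction.toRingHom G F g) _) =
      archMap (MulSemiringAction.toRingHom Γℚ Qbar σ) (archMap (incl F) _)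
    rw [← archMap_comp, ← archMap_comp, hcomp]

end Equivariance

section GaloisNorm

variable {K M : IntermediateField ℚ Qbar} [FiniteDimensional ℚ K] [FiniteDimensional ℚ M]

/-- The idele norm for an inclusion of finite subextensions of `Qbar`. -/
def normLE (h : K ≤ M) : Idele M →* Idele K :=
  letI := algebraOfLE h
  ideleNorm K M

lemma isScalarTower_algebraOfLE (h : K ≤ M) :
    letI := algebraOfLE h
    IsScalarTower ℚ K M := by
  letI := algebraOfLE h
  exact IsScalarTower.of_algebraMap_eq (fun r => by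
    apply Subtype.ext
    rfl)

lemma isScalarTower_algebraOfLE_top (h : K ≤ M) :
    letI := algebraOfLE h
    IsScalarTower K M Qbar := by
  letI := algebraOfLE h
  exact IsScalarTower.of_algebraMap_eq (fun r => rfl)

/-- A lift to `Gal(Qbar/K)` of an automorphism of `M / K`. -/
lemma exists_lift_algEquiv (h : K ≤ M) :
    letI := algebraOfLE h
    ∀ g : M ≃ₐ[K] M, ∃ σ : ↥K.fixingSubgroup, ∀ x : M, (σ : Γℚ) (x : Qbar) = ((g x : M) : Qbar) := by
  letI := algebraOfLE h
  have hst := isScalarTower_algebraOfLE h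
  intro g
  let σ : Γℚ := (g.restrictScalars ℚ).liftNormal Qbar
  have hσ : ∀ x : M, σ (x : Qbar) = ((g x : M) : Qbar) := fun x =>
    AlgEquiv.liftNormal_commutes (g.restrictScalars ℚ) Qbar x
  have hσK : σ ∈ K.fixingSubgroup := by
    rw [IntermediateField.mem_fixingSubgroup_iff]
    intro x hx
    have h1 := hσ (IntermediateField.inclusion h ⟨x, hx⟩)
    have h2 : g (IntermediateField.inclusion h ⟨x, hx⟩) =
        IntermediateField.inclusion h ⟨x, hx⟩ := g.commutes ⟨x, hx⟩
    rw [h2] at h1
    exact h1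
  exact ⟨⟨σ, hσK⟩, hσ⟩

/-- The restriction to `M` of an element of `Gal(Qbar/K)`, for `M / K` normal. -/
lemma exists_restrict_algEquiv (h : K ≤ M)
    (hn : letI := algebraOfLE h
      Normal K M) :
    letI := algebraOfLE h
    ∀ σ : ↥K.fixingSubgroup, ∃ g : M ≃ₐ[K] M, ∀ x : M, (σ : Γℚ) (x : Qbar) = ((g x : M) : Qbar) := by
  letI := algebraOfLE h
  have hst := isScalarTower_algebraOfLE_top h
  have := hn
  intro σ
  refine ⟨(K.fixingSubgroupEquiv σ).restrictNormal M, fun x => ?_⟩
  exact (AlgEquiv.restrictNormal_commutes (K.fixingSubgroupEquiv σ) M x).symm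


/-- **The idele norm of a Galois extension `M / K` inside `Qbar`, as a product over coset
representatives of `Gal(Qbar/M)` in `Gal(Qbar/K)`.** -/
theorem exists_section_toAmb_normLE (h : K ≤ M)
    (hgal : letI := algebraOfLE h
      IsGalois K M) :
    ∃ (T : Type) (_ : Fintype T) (r : T → ↥K.fixingSubgroup),
      Function.Bijective (fun t => ((r t : ↥K.fixingSubgroup) :
        ↥K.fixingSubgroup ⧸ M.fixingSubgroup.subgroupOf K.fixingSubgroup)) ∧
      ∀ z : Idele M, toAmb K (normLE h z) = ∏ t, ((r t : ↥K.fixingSubgroup) : Γℚ) • toAmb M z := by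
  letI := algebraOfLE h
  have := hgal
  have hn : Normal K M := inferInstance
  choose r hr using exists_lift_algEquiv h
  refine ⟨M ≃ₐ[K] M, inferInstance, r, ⟨?_, ?_⟩, ?_⟩
  · intro g g' hgg'
    have h1 : (r g)⁻¹ * r g' ∈ M.fixingSubgroup.subgroupOf K.fixingSubgroup :=
      QuotientGroup.eq.1 hgg'
    rw [Subgroup.mem_subgroupOf, IntermediateField.mem_fixingSubgroup_iff] at h1
    ext x
    rw [← hr g x, ← hr g' x]
    have h2 := h1 (x : Qbar) x.2
    rw [Subgroup.coe_mul, Subgroup.coe_inv, AlgEquiv.mul_apply] at h2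
    have h3 := congrArg ((r g : ↥K.fixingSubgroup) : Γℚ) h2
    rw [← AlgEquiv.mul_apply, mul_inv_cancel, AlgEquiv.one_apply] at h3
    exact h3.symm
  · intro q
    induction q using QuotientGroup.induction_on with
    | H σ =>
      obtain ⟨g, hg⟩ := exists_restrict_algEquiv h hn σ
      refine ⟨g, ?_⟩
      apply QuotientGroup.eq.2
      rw [Subgroup.mem_subgroupOf, IntermediateField.mem_fixingSubgroup_iff]
      intro x hx
      rw [Subgroup.coe_mul, Subgroup.coe_inv, AlgEquiv.mul_apply]
      have h1 := hg ⟨x, hx⟩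
      have h2 := hr g ⟨x, hx⟩
      rw [← h2] at h1
      change (σ : Γℚ) x = (r g : Γℚ) x at h1
      rw [h1, ← AlgEquiv.mul_apply, inv_mul_cancel, AlgEquiv.one_apply]
  · intro z
    have h1 : toAmb K (normLE h z) = toAmb M (levelMap h (normLE h z)) :=
      (toAmb_levelMap h _).symm
    have h2 : levelMap h (normLE h z) = ∏ g : M ≃ₐ[K] M, g • z := ideleMap_ideleNorm K M z
    rw [h1, h2, map_prod]
    refine Finset.prod_congr rfl fun g _ => ?_
    exact toAmb_smul_of_comm M g (r g : Γℚ) (fun x => (hr g x).symm) z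

end GaloisNorm


/-! ### The norm on the level of `C_S` -/

section CSNorm

open Fermat.Agent.Lib.CFT.Global.ExistenceDict Fermat.Agent.Lib.CFT.Global.ExistenceFormation

variable (S : Finset Nat.Primes) {K M : IntermediateField ℚ Qbar} [FiniteDimensional ℚ K]
  [FiniteDimensional ℚ M] (hK : K.IsUnramifiedOutside S) (hM : M.IsUnramifiedOutside S)

lemma ofCSgrp_prod {T : Type} (s : Finset T) (c : T → CSgrp S) :
    ofCSgrp S K (∏ t ∈ s, c t) = ∑ t ∈ s, ofCSgrp S K (c t) := by
  classical
  induction s using Finset.induction_on with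
  | empty => simp [ofCSgrp_one]
  | insert a s ha ih => rw [Finset.prod_insert ha, Finset.sum_insert ha, ofCSgrp_mul, ih]

lemma ρ_ofCSgrp (g : ↥K.fixingSubgroup) (c : CSgrp S) :
    (CSOver S K).ρ g (ofCSgrp S K c) = ofCSgrp S K ((g : Γℚ) • c) := by
  have h := toCSgrp_ρ S K g (ofCSgrp S K c)
  rw [toCSgrp_ofCSgrp] at h
  have h2 := congrArg (ofCSgrp S K) h
  rwa [ofCSgrp_toCSgrp] at h2

/-- The class of an idele of `M` is fixed by `Gal(Qbar/M)`. -/
lemma ρ_ofCSgrp_toCSOver_of_mem (z : Idele M) (g : ↥K.fixingSubgroup)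
    (hg : g ∈ M.fixingSubgroup.subgroupOf K.fixingSubgroup) :
    (CSOver S K).ρ g (ofCSgrp S K (toCSOver S M hM z)) = ofCSgrp S K (toCSOver S M hM z) := by
  rw [ρ_ofCSgrp, smul_toCSOver S M hM (Subgroup.mem_subgroupOf.1 hg)]

/-- **The relative norm of the class of an idele of `M` is the class of its idele norm.** -/
theorem relNorm_ofCSgrp_toCSOver (h : K ≤ M)
    (hgal : letI := algebraOfLE h
      IsGalois K M) (z : Idele M) :
    relNorm (CSOver S K).ρ (M.fixingSubgroup.subgroupOf K.fixingSubgroup)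
        (ofCSgrp S K (toCSOver S M hM z)) =
      ofCSgrp S K (toCSOver S K hK (normLE h z)) := by
  obtain ⟨T, _, r, hbij, hr⟩ := exists_section_toAmb_normLE h hgal
  rw [relNorm_eq_sum (CSOver S K).ρ _ (ρ_ofCSgrp_toCSOver_of_mem S hM z) r hbij]
  have h1 : ∀ t, (CSOver S K).ρ (r t) (ofCSgrp S K (toCSOver S M hM z)) =
      ofCSgrp S K (QuotientGroup.mk' (prinUnitsSub S)
        (((r t : ↥K.fixingSubgroup) : Γℚ) • toISOver S M hM z)) := by
    intro t
    rw [ρ_ofCSgrp, toCSOver_apply, smul_mk_CSgrp]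
    rfl
  rw [Finset.sum_congr rfl (fun t _ => h1 t), ← ofCSgrp_prod, ← map_prod]
  have h2 : (∏ t, ((r t : ↥K.fixingSubgroup) : Γℚ) • toISOver S M hM z) =
      toISOver S K hK (normLE h z) := by
    apply Subtype.ext
    rw [Subgroup.val_finsetProd, coe_toISOver, hr z]
    refine Finset.prod_congr rfl fun t _ => ?_
    rw [coe_smul_ISgrp, coe_toISOver]
  rw [h2]
  rfl

end CSNorm


/-! ### Kummer extensions inside `Qbar` as splitting fields -/

section Splitting

open Polynomial IntermediateField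

variable {K : IntermediateField ℚ Qbar} [FiniteDimensional ℚ K] {p : ℕ}

/-- `K(β)` is generated by `β` over `K`. -/
lemma adjoin_root_eq_top (β : Qbar) [FiniteDimensional ℚ ↥(K ⊔ IntermediateField.adjoin ℚ {β})] :
    letI := algebraOfLE (le_sup_left : K ≤ K ⊔ IntermediateField.adjoin ℚ {β})
    IntermediateField.adjoin K
      {(⟨β, (le_sup_right : IntermediateField.adjoin ℚ {β} ≤ K ⊔ IntermediateField.adjoin ℚ {β})
        (IntermediateField.mem_adjoin_simple_self ℚ β)⟩ : ↥(K ⊔ IntermediateField.adjoin ℚ {β}))} =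
        ⊤ := by
  set M := K ⊔ IntermediateField.adjoin ℚ {β} with hM
  have h : K ≤ M := le_sup_left
  letI := algebraOfLE h
  have hst := isScalarTower_algebraOfLE h
  set α : M := ⟨β, (le_sup_right : IntermediateField.adjoin ℚ {β} ≤ M)
    (IntermediateField.mem_adjoin_simple_self ℚ β)⟩ with hα
  set E : IntermediateField K M := IntermediateField.adjoin K {α} with hE
  set N₀ : Subfield Qbar := E.toSubfield.map ((M.val : M →ₐ[ℚ] Qbar) : M →+* Qbar) with hN₀
  set N : IntermediateField ℚ Qbar := Subfield.toIntermediateField N₀ (fun r => by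
    rw [eq_ratCast]
    exact SubfieldClass.ratCast_mem N₀ r) with hN
  have hmem : ∀ x : Qbar, x ∈ N ↔ ∃ y ∈ E, ((y : M) : Qbar) = x := by
    intro x
    change x ∈ N₀ ↔ _
    rw [hN₀, Subfield.mem_map]
    rfl
  have hKN : K ≤ N := by
    intro x hx
    rw [hmem]
    exact ⟨algebraMap K M ⟨x, hx⟩, E.algebraMap_mem _, rfl⟩
  have hβN : IntermediateField.adjoin ℚ {β} ≤ N := by
    rw [IntermediateField.adjoin_simple_le_iff, hmem]
    exact ⟨α, IntermediateField.mem_adjoin_simple_self K α, rfl⟩
  have hMN : M ≤ N := sup_le hKN hβN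
  rw [eq_top_iff]
  intro x _
  obtain ⟨y, hy, hyx⟩ := (hmem _).1 (hMN x.2)
  have : y = x := Subtype.ext hyx
  rw [← this]
  exact hy


set_option synthInstance.maxHeartbeats 400000 in
/-- `K(β)`, `β ^ p = b`, is a splitting field of `X ^ p - b` over `K ∋ ζ_p`. -/
lemma isSplittingField_sup_adjoin_root (hp : 0 < p) {ζ : K} (hζ : IsPrimitiveRoot ζ p) (b : Kˣ)
    (β : Qbar) (hβ : β ^ p = ((b : K) : Qbar))
    [FiniteDimensional ℚ ↥(K ⊔ IntermediateField.adjoin ℚ {β})] :
    letI := algebraOfLE (le_sup_left : K ≤ K ⊔ IntermediateField.adjoin ℚ {β})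
    IsSplittingField K ↥(K ⊔ IntermediateField.adjoin ℚ {β}) (X ^ p - C (b : K)) := by
  have hgen := adjoin_root_eq_top (K := K) β
  set M := K ⊔ IntermediateField.adjoin ℚ {β} with hM
  have h : K ≤ M := le_sup_left
  letI := algebraOfLE h
  have hst := isScalarTower_algebraOfLE h
  have hfin : FiniteDimensional K M := FiniteDimensional.right ℚ K M
  set α : M := ⟨β, (le_sup_right : IntermediateField.adjoin ℚ {β} ≤ M)
    (IntermediateField.mem_adjoin_simple_self ℚ β)⟩ with hα
  have ha : α ^ p = algebraMap K M (b : K) := Subtype.ext hβ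
  constructor
  · rw [Polynomial.map_sub, Polynomial.map_pow, Polynomial.map_C, Polynomial.map_X]
    exact X_pow_sub_C_splits_of_isPrimitiveRoot
      (hζ.map_of_injective (algebraMap K M).injective) ha
  · rw [eq_top_iff, ← IntermediateField.top_toSubalgebra, ← hgen,
      IntermediateField.adjoin_simple_toSubalgebra_of_isAlgebraic (IsIntegral.of_finite K α).isAlgebraic]
    apply Algebra.adjoin_mono
    rw [Set.singleton_subset_iff, mem_rootSet_of_ne (X_pow_sub_C_ne_zero hp (b : K)),
      aeval_def, eval₂_sub, eval₂_X_pow, eval₂_C, ha, sub_self]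

/-- `K(β) / K` is Galois. -/
lemma isGalois_sup_adjoin_root (hp : 0 < p) {ζ : K} (hζ : IsPrimitiveRoot ζ p) (b : Kˣ)
    (β : Qbar) (hβ : β ^ p = ((b : K) : Qbar))
    [FiniteDimensional ℚ ↥(K ⊔ IntermediateField.adjoin ℚ {β})] :
    letI := algebraOfLE (le_sup_left : K ≤ K ⊔ IntermediateField.adjoin ℚ {β})
    IsGalois K ↥(K ⊔ IntermediateField.adjoin ℚ {β}) := by
  letI := algebraOfLE (le_sup_left : K ≤ K ⊔ IntermediateField.adjoin ℚ {β})
  have := isSplittingField_sup_adjoin_root hp hζ b β hβ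
  exact IsGalois.of_separable_splitting_field (p := X ^ p - C (b : K))
    (separable_X_pow_sub_C (b : K) (Nat.cast_ne_zero.mpr hp.ne') b.ne_zero)

/-- The idele norm group of the abstract splitting field of `X ^ p - b` is the norm group of
`K(β) ⊆ Qbar`. -/
lemma range_ideleNorm_Mb_eq (hp : 0 < p) {ζ : K} (hζ : IsPrimitiveRoot ζ p) (b : Kˣ)
    (β : Qbar) (hβ : β ^ p = ((b : K) : Qbar))
    [FiniteDimensional ℚ ↥(K ⊔ IntermediateField.adjoin ℚ {β})] :
    (ideleNorm K (SecondIneq.Instance.Mb K p b)).range =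
      (normLE (le_sup_left : K ≤ K ⊔ IntermediateField.adjoin ℚ {β})).range := by
  letI := algebraOfLE (le_sup_left : K ≤ K ⊔ IntermediateField.adjoin ℚ {β})
  have := isSplittingField_sup_adjoin_root hp hζ b β hβ
  have e : ↥(K ⊔ IntermediateField.adjoin ℚ {β}) ≃ₐ[K] SecondIneq.Instance.Mb K p b :=
    Polynomial.IsSplittingField.algEquiv _ (X ^ p - C (b : K))
  exact (range_ideleNorm_eq_of_algEquiv K e).symm

end Splitting


/-! ### Norms are killed by the Kummer characters -/

section Main

open Fermat.Agent.Lib.CFT.Global.ExistenceDict Fermat.Agent.Lib.CFT.Global.ExistenceFormation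
  Fermat.Agent.Lib.CFT.Global.KummerChars Fermat.Agent.Lib.CFT.Coh.ClassFormation
  Fermat.Agent.Lib.CFT.Kummer

variable (S : Finset Nat.Primes) (K : IntermediateField ℚ Qbar) [FiniteDimensional ℚ K]
  (hK : K.IsUnramifiedOutside S)

/-- **Dictionary B.**  In a formation on `Gal(Qbar/K)` with module `C_S` whose layers satisfy
sub-layer reciprocity, the Kummer character of `b ∈ Δ_S` kills (under the reciprocity map) the
classes of the idele norms from `K(b^{1/p})`. -/
theorem evalChar_clsOver_norm_eq_one {𝒰 : LevelFamily ↥K.fixingSubgroup}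
    (F : FormationOn 𝒰 (CSOver S K))
    (hsub : ∀ (U : Subgroup ↥K.fixingSubgroup) [U.Normal] (hU : U ∈ 𝒰.levels),
      letI := levelFintype 𝒰 U hU
      ∀ (N : Subgroup (↥K.fixingSubgroup ⧸ U)) [Fintype N],
        IsRecLayer (((CSOver S K).quotientToInvariants U).ρ.comp N.subtype)
          (resCoc N.subtype (F.u U hU)))
    {p : ℕ} [NeZero p] {ζ : K} (hζ : IsPrimitiveRoot ζ p) (hζ' : (primitiveRoots p K).Nonempty)
    (hpS : ∀ q : Nat.Primes, (q : ℕ) ∣ p → q ∈ S)
    (b : Kˣ) (hbΔ : b ∈ deltaS K p S) (hb : IsLevelChar F.toFormation (kummerCharW hζ' b))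
    (x : Idele K) (hx : x ∈ (ideleNorm K (SecondIneq.Instance.Mb K p b)).range) :
    evalChar F.toFormation (kummerCharW hζ' b) hb
      (Multiplicative.toAdd (clsOver S K hK x)) = 1 := by
  have hp0 : 0 < p := Nat.pos_of_ne_zero (NeZero.ne p)
  obtain ⟨β, hβ⟩ := hasRoots_top K p b (Subgroup.mem_top b)
  have hβ' : β ^ p = ((b : K) : Qbar) := hβ
  have hun := KummerLevel.isUnramifiedOutside_sup_adjoin_root S hK (NeZero.ne p) hpS b hbΔ β hβ'
  haveI : FiniteDimensional ℚ ↥(K ⊔ IntermediateField.adjoin ℚ {β}) := hun.1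
  have hgal := isGalois_sup_adjoin_root hp0 hζ b β hβ'
  rw [range_ideleNorm_Mb_eq hp0 hζ b β hβ'] at hx
  obtain ⟨z, rfl⟩ := hx
  obtain ⟨U, hUn, hU, hle⟩ := hb.exists_normal
  rw [evalChar_eq_evalRec F.toFormation _ hb U hU hle,
    evalRec_eq_one_iff_relNorm F.toFormation U hU _ hle (hsub U hU)]
  refine ⟨ofCSgrp S K (toCSOver S _ hun z), ?_, ?_⟩
  · intro g hg
    rw [ker_kummerCharW hζ' b hβ'] at hg
    exact ρ_ofCSgrp_toCSOver_of_mem S hun z g hg
  · rw [ker_kummerCharW hζ' b hβ']
    exact relNorm_ofCSgrp_toCSOver S hK hun le_sup_left hgal z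

end Main

end Fermat.Agent.Lib.CFT.Global.ExistenceNorm
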