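import Mathlib
import Fermat.Agent.Lib.CFT.Global.PlacesInfinite

/-!
# The archimedean component of the ideles modulo odd powers (P-CFT, Global layer)

For an odd `p` every unit of `ArchAlg L = ℝ ⊗[ℚ] L ≃ ℝ^{r₁} × ℂ^{r₂}` is a `p`-th power, and a
number field containing a primitive `p`-th root of unity (`p` odd, `p > 1`) is totally complex,
so that `[L : ℚ] = 2 · #(infinite places)`.
-/

set_option autoImplicit false

open scoped TensorProduct

namespace Fermat.Agent.Lib.CFT.Global.ArchIndex

open NumberField NumberField.InfinitePlace Fermat.Agent.Lib.CFT.Global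
  Fermat.Agent.Lib.CFT.Global.PlacesInfinite

/-- Odd roots of real numbers. -/
theorem exists_real_pow_eq {p : ℕ} (hp : Odd p) (x : ℝ) : ∃ y : ℝ, y ^ p = x := by
  have hp0 : p ≠ 0 := fun h => by simp [h] at hp
  rcases le_or_gt 0 x with hx | hx
  · exact ⟨x ^ ((p : ℝ)⁻¹), Real.rpow_inv_natCast_pow hx hp0⟩
  · refine ⟨-((-x) ^ ((p : ℝ)⁻¹)), ?_⟩
    rw [hp.neg_pow, Real.rpow_inv_natCast_pow (by linarith) hp0, neg_neg]

/-- A real number with `r ^ p = 1`, `p` odd, is `1`. -/
theorem real_eq_one_of_pow_eq_one {p : ℕ} (hp : Odd p) {r : ℝ} (hr : r ^ p = 1) : r = 1 := by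
  have h := hp.strictMono_pow (R := ℝ)
  exact h.injective (by simpa using hr)

variable (L : Type) [Field L] [NumberField L]

omit [NumberField L] in
/-- Every element of the mixed space is a `p`-th power for odd `p`. -/
theorem exists_mixedSpace_pow_eq {p : ℕ} (hp : Odd p) (x : mixedEmbedding.mixedSpace L) :
    ∃ y : mixedEmbedding.mixedSpace L, y ^ p = x := by
  have hp0 : 0 < p := hp.pos
  choose a ha using fun w => exists_real_pow_eq hp (x.1 w)
  choose b hb using fun w => IsAlgClosed.exists_pow_nat_eq (x.2 w) hp0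
  refine ⟨(a, b), Prod.ext ?_ ?_⟩
  · funext w
    exact ha w
  · funext w
    exact hb w

/-- For odd `p`, every unit of `ℝ ⊗[ℚ] L` is a `p`-th power. -/
theorem range_pow_archUnits_eq_top {p : ℕ} (hp : Odd p) :
    (powMonoidHom p : (ArchAlg L)ˣ →* (ArchAlg L)ˣ).range = ⊤ := by
  rw [eq_top_iff]
  intro u _
  have hp0 : p ≠ 0 := hp.pos.ne'
  obtain ⟨y', hy'⟩ := exists_mixedSpace_pow_eq L hp (archEquivMixed L (u : ArchAlg L))
  set y : ArchAlg L := (archEquivMixed L).symm y' with hy
  have hyp : y ^ p = (u : ArchAlg L) := by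
    apply (archEquivMixed L).injective
    rw [map_pow, hy, AlgEquiv.apply_symm_apply, hy']
  have hyu : IsUnit y := (isUnit_pow_iff hp0).1 (hyp ▸ u.isUnit)
  refine ⟨hyu.unit, Units.ext ?_⟩
  rw [powMonoidHom_apply, Units.val_pow_eq_pow_val, IsUnit.unit_spec, hyp]

/-- For odd `p`, the `p`-th powers have index one in `(ℝ ⊗[ℚ] L)ˣ`. -/
theorem index_range_pow_archUnits {p : ℕ} (hp : Odd p) :
    (powMonoidHom p : (ArchAlg L)ˣ →* (ArchAlg L)ˣ).range.index = 1 := by
  rw [range_pow_archUnits_eq_top L hp, Subgroup.index_top]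

variable {L}

omit [NumberField L] in
/-- A number field containing a primitive `p`-th root of unity, `p` odd and `> 1`, has no real
place. -/
theorem not_isReal_of_isPrimitiveRoot {p : ℕ} (hp : Odd p) (hp1 : 1 < p) {ζ : L}
    (hζ : IsPrimitiveRoot ζ p) (w : InfinitePlace L) : ¬ IsReal w := by
  intro hw
  set φ : L →+* ℝ := embedding_of_isReal hw with hφ
  have h1 : (φ ζ) ^ p = 1 := by
    rw [← map_pow, hζ.pow_eq_one, map_one]
  have h2 : φ ζ = 1 := real_eq_one_of_pow_eq_one hp h1
  have h3 : ζ = 1 := φ.injective (by rw [h2, map_one])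
  exact hζ.ne_one hp1 h3

/-- A number field containing a primitive `p`-th root of unity, `p` odd and `> 1`, has degree
twice the number of its infinite places. -/
theorem finrank_eq_two_mul_card_infinitePlace {p : ℕ} (hp : Odd p) (hp1 : 1 < p) {ζ : L}
    (hζ : IsPrimitiveRoot ζ p) :
    Module.finrank ℚ L = 2 * Fintype.card (InfinitePlace L) := by
  classical
  have h0 : nrRealPlaces L = 0 := by
    rw [nrRealPlaces, Fintype.card_eq_zero_iff]
    exact ⟨fun w => not_isReal_of_isPrimitiveRoot hp hp1 hζ w.1 w.2⟩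
  rw [← card_add_two_mul_card_eq_rank L, card_eq_nrRealPlaces_add_nrComplexPlaces, h0, zero_add,
    zero_add]

end Fermat.Agent.Lib.CFT.Global.ArchIndex
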