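import Mathlib
import Fermat.Agent.Lib.CFT.Global.Places.LocalInt
import Fermat.Agent.Lib.CFT.Local.PowerIndex

/-!
# The product of the local `p`-power indices over the primes above `p`

`O` a Dedekind domain, finite free over `ℤ` of characteristic zero (`O = 𝓞 F`), `p` a prime with
`ζ_p ∈ O`.  With `R_v = LocalInt O p v` the completions at the primes above `p` and `K_v` their
fraction fields:
`∏_{v ∣ p} [K_vˣ : (K_vˣ)ᵖ] = p ^ (2 · #{v ∣ p} + rank_ℤ O)`.
-/

set_option autoImplicit false

open scoped TensorProduct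

namespace Fermat.Agent.Lib.CFT.Global.LocalIndexProduct

open IsDedekindDomain IsLocalRing Fermat.Agent.Lib.CFT.Global.Places

variable (O : Type*) [CommRing O] [IsDedekindDomain O] [Module.Free ℤ O] [Module.Finite ℤ O]
  [CharZero O] (p : ℕ) [Fact p.Prime]

/-- The residue fields of the completions are finite. -/
instance finite_residueField (v : PrimesOverNat O p) :
    Finite (ResidueField (LocalInt O p v)) :=
  have : Finite (O ⧸ v.1.asIdeal) := v.1.asIdeal.finiteQuotientOfFreeOfNeBot v.1.ne_bot
  Finite.of_equiv _ (LocalInt.residueFieldEquiv v).toEquiv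

omit [CharZero O] [Fact p.Prime] in
/-- `#(O / pO) = p ^ rank O`. -/
theorem card_quot_span_natCast :
    Nat.card (O ⧸ Ideal.span {((p : ℕ) : O)}) = p ^ Module.finrank ℤ O := by
  rw [← Ideal.absNorm_span_natCast (S := O) p]
  rfl

/-- `ℤ_p ⊗ O / p = O / p`. -/
noncomputable def quotOhatEquiv :
    (O ⧸ Ideal.span {((p : ℕ) : O)}) ≃+* (Ohat O p ⧸ Ideal.span {((p : ℕ) : Ohat O p)}) := by
  have h := Ohat.isAdicCompletionAt O p
  let f : O →+* (Ohat O p ⧸ Ideal.span {((p : ℕ) : Ohat O p)}) :=
    (Ideal.Quotient.mk _).comp (algebraMap O (Ohat O p))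
  have hf : Function.Surjective f := by
    intro y
    obtain ⟨a, rfl⟩ := Ideal.Quotient.mk_surjective y
    obtain ⟨x, hx⟩ := h.approx 1 a
    refine ⟨x, ?_⟩
    rw [pow_one, Ohat.algebraMap_natCast] at hx
    exact (Ideal.Quotient.eq.2 hx).symm
  have hker : RingHom.ker f = Ideal.span {((p : ℕ) : O)} := by
    ext x
    rw [RingHom.mem_ker, RingHom.comp_apply, Ideal.Quotient.eq_zero_iff_mem]
    constructor
    · intro hx
      have := h.ker 1 x (by rwa [pow_one, Ohat.algebraMap_natCast])
      rwa [pow_one] at this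
    · intro hx
      have := IsAdicCompletionAt.map_mem_of_mem (A := Ohat O p) hx
      rwa [Ohat.algebraMap_natCast] at this
  exact (Ideal.quotEquivOfEq hker.symm).trans (RingHom.quotientKerEquivOfSurjective hf)

theorem card_quot_ohat :
    Nat.card (Ohat O p ⧸ Ideal.span {((p : ℕ) : Ohat O p)}) = p ^ Module.finrank ℤ O := by
  rw [← card_quot_span_natCast O p]
  exact (Nat.card_congr (quotOhatEquiv O p).toEquiv).symm

section Pi

variable {ι : Type*} [Finite ι] (R : ι → Type*) [∀ i, CommRing (R i)]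

/-- `(∏ R_i) / n = ∏ (R_i / n)`. -/
noncomputable def piQuotEquiv (n : ℕ) :
    ((∀ i, R i) ⧸ Ideal.span {((n : ℕ) : ∀ i, R i)}) ≃+*
      ∀ i, R i ⧸ Ideal.span {((n : ℕ) : R i)} := by
  let f : (∀ i, R i) →+* ∀ i, R i ⧸ Ideal.span {((n : ℕ) : R i)} :=
    RingHom.pi fun i => (Ideal.Quotient.mk _).comp (Pi.evalRingHom R i)
  have hf : Function.Surjective f := by
    intro y
    choose x hx using fun i => Ideal.Quotient.mk_surjective (y i)
    exact ⟨x, funext hx⟩
  have hker : RingHom.ker f = Ideal.span {((n : ℕ) : ∀ i, R i)} := by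
    ext x
    rw [RingHom.mem_ker, Ideal.mem_span_singleton']
    constructor
    · intro hx
      have h1 : ∀ i, ∃ a : R i, a * (n : R i) = x i := by
        intro i
        have := congrFun hx i
        change Ideal.Quotient.mk _ (x i) = 0 at this
        rw [Ideal.Quotient.eq_zero_iff_mem] at this
        exact Ideal.mem_span_singleton'.1 this
      choose a ha using h1
      exact ⟨a, funext fun i => by simpa using ha i⟩
    · rintro ⟨a, rfl⟩
      funext i
      change Ideal.Quotient.mk _ (a i * ((n : ∀ i, R i) i)) = 0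
      rw [Ideal.Quotient.eq_zero_iff_mem]
      exact Ideal.mem_span_singleton'.2 ⟨a i, by simp⟩
  exact (Ideal.quotEquivOfEq hker.symm).trans (RingHom.quotientKerEquivOfSurjective hf)

end Pi

/-- `∏_{v ∣ p} #(R_v / p R_v) = p ^ rank O`. -/
theorem prod_card_quot_localInt :
    ∏ v : PrimesOverNat O p,
      Nat.card (LocalInt O p v ⧸ Ideal.span {((p : ℕ) : LocalInt O p v)}) =
      p ^ Module.finrank ℤ O := by
  rw [← card_quot_ohat O p, ← Nat.card_pi]
  have e1 : (Ohat O p ⧸ Ideal.span {((p : ℕ) : Ohat O p)}) ≃+*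
      ((∀ v : PrimesOverNat O p, LocalInt O p v) ⧸
        Ideal.span {((p : ℕ) : ∀ v : PrimesOverNat O p, LocalInt O p v)}) :=
    Ideal.quotientEquiv _ _ (Ohat.equivPi O p) (by
      rw [Ideal.map_span, Set.image_singleton]
      congr 2)
  exact (Nat.card_congr
    (e1.trans (piQuotEquiv (fun v : PrimesOverNat O p => LocalInt O p v) p)).toEquiv).symm

variable {O p}

/-- **Product of the wild local indices.**  If `O` contains a primitive `p`-th root of unity then
`∏_{v ∣ p} [K_vˣ : (K_vˣ)ᵖ] = p ^ (2 #{v ∣ p} + rank_ℤ O)`, for any fraction fields `K_v` of the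
completions `LocalInt O p v`. -/
theorem prod_index_range_pow {ζ : O} (hζ : IsPrimitiveRoot ζ p)
    (Kv : PrimesOverNat O p → Type*) [∀ v, Field (Kv v)]
    [∀ v, Algebra (LocalInt O p v) (Kv v)] [∀ v, IsFractionRing (LocalInt O p v) (Kv v)] :
    ∏ v : PrimesOverNat O p, (powMonoidHom p : (Kv v)ˣ →* (Kv v)ˣ).range.index =
      p ^ (2 * Fintype.card (PrimesOverNat O p) + Module.finrank ℤ O) := by
  have hp : p.Prime := Fact.out
  have : NeZero p := ⟨hp.ne_zero⟩
  have hloc : ∀ v : PrimesOverNat O p,
      (powMonoidHom p : (Kv v)ˣ →* (Kv v)ˣ).range.index =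
        p * p * Nat.card (LocalInt O p v ⧸ Ideal.span {((p : ℕ) : LocalInt O p v)}) := by
    intro v
    have hinj : Function.Injective
        ((algebraMap (LocalInt O p v) (Kv v)).comp (algebraMap O (LocalInt O p v))) :=
      (IsFractionRing.injective (LocalInt O p v) (Kv v)).comp (LocalInt.algebraMap_injective v)
    have hζ' := hζ.map_of_injective hinj
    have hp0 : ((p : ℕ) : LocalInt O p v) ≠ 0 := by
      have := (LocalInt.algebraMap_injective v).ne (natCast_ne_zero' O p)
      rwa [map_natCast, map_zero] at this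
    rw [Fermat.Agent.Lib.CFT.Local.PowerIndex.index_range_pow_units (LocalInt O p v) (Kv v) p hp0,
      hζ'.card_rootsOfUnity]
  rw [Finset.prod_congr rfl fun v _ => hloc v, Finset.prod_mul_distrib, Finset.prod_const,
    prod_card_quot_localInt O p, Finset.card_univ, pow_add]
  congr 1
  rw [← sq, ← pow_mul]

end Fermat.Agent.Lib.CFT.Global.LocalIndexProduct
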