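import Mathlib
import Fermat.Agent.Lib.CFT.Global.ArchIndex
import Fermat.Agent.Lib.CFT.Global.LocalIndexProduct

/-!
# The archimedean `p`-power index for every prime `p`, and the total index `index_p`

`[(ℝ ⊗ F)ˣ : ((ℝ ⊗ F)ˣ)²] = 2 ^ r₁`; hence for every prime `p` with `ζ_p ∈ F`:
`∏_{v ∣ p} [F_vˣ : (F_vˣ)ᵖ] · [(ℝ ⊗ F)ˣ : p-th powers] = p ^ (2 #{v ∣ p} + 2 #{v ∣ ∞})`.
-/

set_option autoImplicit false

namespace Fermat.Agent.Lib.CFT.Global.ArchIndex

open NumberField NumberField.InfinitePlace Fermat.Agent.Lib.CFT.Global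
  Fermat.Agent.Lib.CFT.Global.PlacesInfinite Fermat.Agent.Lib.CFT.Global.Places

section General

/-- The index of `n`-th powers is invariant under isomorphism. -/
theorem index_range_pow_congr {G H : Type*} [CommGroup G] [CommGroup H] (e : G ≃* H) (n : ℕ) :
    (powMonoidHom n : G →* G).range.index = (powMonoidHom n : H →* H).range.index := by
  have h : ((powMonoidHom n : G →* G).range).map (e : G →* H) = (powMonoidHom n : H →* H).range := by
    ext y
    simp only [Subgroup.mem_map, MonoidHom.mem_range, powMonoidHom_apply]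
    constructor
    · rintro ⟨_, ⟨x, rfl⟩, rfl⟩
      exact ⟨e x, (map_pow e x n).symm⟩
    · rintro ⟨z, rfl⟩
      refine ⟨(e.symm z) ^ n, ⟨e.symm z, rfl⟩, ?_⟩
      change e ((e.symm z) ^ n) = z ^ n
      rw [map_pow, MulEquiv.apply_symm_apply]
  rw [← h, Subgroup.index_map_equiv]

/-- `n`-th powers in a product. -/
theorem index_range_pow_prod (G H : Type*) [CommGroup G] [CommGroup H] (n : ℕ) :
    (powMonoidHom n : G × H →* G × H).range.index =
      (powMonoidHom n : G →* G).range.index * (powMonoidHom n : H →* H).range.index := by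
  have h : (powMonoidHom n : G × H →* G × H).range =
      ((powMonoidHom n : G →* G).range).prod ((powMonoidHom n : H →* H).range) := by
    ext ⟨a, b⟩
    simp only [MonoidHom.mem_range, powMonoidHom_apply, Subgroup.mem_prod]
    constructor
    · rintro ⟨⟨x, y⟩, hxy⟩
      rw [Prod.pow_mk, Prod.mk.injEq] at hxy
      exact ⟨⟨x, hxy.1⟩, ⟨y, hxy.2⟩⟩
    · rintro ⟨⟨x, hx⟩, ⟨y, hy⟩⟩
      exact ⟨(x, y), by rw [Prod.pow_mk, hx, hy]⟩
  rw [h, Subgroup.index_prod]

/-- `n`-th powers in a finite power. -/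
theorem index_range_pow_pi {ι : Type*} [Fintype ι] (G : Type*) [CommGroup G] (n : ℕ) :
    (powMonoidHom n : (ι → G) →* (ι → G)).range.index =
      (powMonoidHom n : G →* G).range.index ^ Fintype.card ι := by
  have h : (powMonoidHom n : (ι → G) →* (ι → G)).range =
      Subgroup.pi Set.univ fun _ : ι => (powMonoidHom n : G →* G).range := by
    ext f
    simp only [MonoidHom.mem_range, powMonoidHom_apply, Subgroup.mem_pi, Set.mem_univ,
      forall_true_left]
    constructor
    · rintro ⟨g, rfl⟩ i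
      exact ⟨g i, rfl⟩
    · intro hf
      choose g hg using hf
      exact ⟨g, funext hg⟩
  rw [h, Subgroup.index_pi, Finset.prod_const, Finset.card_univ]

end General

/-- The squares have index two in `ℝˣ`. -/
theorem index_range_pow_two_realUnits : (powMonoidHom 2 : ℝˣ →* ℝˣ).range.index = 2 := by
  have hmem : ∀ u : ℝˣ, u ∈ (powMonoidHom 2 : ℝˣ →* ℝˣ).range ↔ 0 < (u : ℝ) := by
    intro u
    rw [MonoidHom.mem_range]
    constructor
    · rintro ⟨v, rfl⟩
      rw [powMonoidHom_apply, Units.val_pow_eq_pow_val]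
      exact sq_pos_of_ne_zero v.ne_zero
    · intro hu
      have hs : Real.sqrt (u : ℝ) ≠ 0 := (Real.sqrt_pos.2 hu).ne'
      refine ⟨Units.mk0 _ hs, Units.ext ?_⟩
      rw [powMonoidHom_apply, Units.val_pow_eq_pow_val, Units.val_mk0, Real.sq_sqrt hu.le]
  rw [Subgroup.index_eq_two_iff]
  refine ⟨-1, fun b => ?_⟩
  rw [hmem, hmem]
  have hb : (b : ℝ) ≠ 0 := b.ne_zero
  rcases lt_or_gt_of_ne hb with h | h
  · refine Or.inl ⟨?_, ?_⟩
    · simp only [Units.val_mul, Units.val_neg, Units.val_one]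
      linarith
    · linarith
  · refine Or.inr ⟨h, ?_⟩
    simp only [Units.val_mul, Units.val_neg, Units.val_one]
    linarith

/-- Every element of `ℂˣ` is an `n`-th power, `n > 0`. -/
theorem index_range_pow_complexUnits {n : ℕ} (hn : 0 < n) :
    (powMonoidHom n : ℂˣ →* ℂˣ).range.index = 1 := by
  rw [Subgroup.index_eq_one, eq_top_iff]
  intro u _
  obtain ⟨z, hz⟩ := IsAlgClosed.exists_pow_nat_eq (u : ℂ) hn
  have hz0 : z ≠ 0 := by
    rintro rfl
    rw [zero_pow hn.ne'] at hz
    exact u.ne_zero hz.symm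
  exact ⟨Units.mk0 z hz0, Units.ext (by simpa using hz)⟩

variable (L : Type) [Field L] [NumberField L]

/-- The unit group of `ℝ ⊗ L` is `(ℝˣ)^{r₁} × (ℂˣ)^{r₂}`. -/
noncomputable def archUnitsEquiv :
    (ArchAlg L)ˣ ≃* ({w : InfinitePlace L // IsReal w} → ℝˣ) ×
      ({w : InfinitePlace L // IsComplex w} → ℂˣ) :=
  ((Units.mapEquiv (archEquivMixed L).toMulEquiv).trans MulEquiv.prodUnits).trans
    (MulEquiv.prodCongr MulEquiv.piUnits MulEquiv.piUnits)

/-- `[(ℝ ⊗ L)ˣ : squares] = 2 ^ r₁`. -/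
theorem index_range_pow_two_archUnits :
    (powMonoidHom 2 : (ArchAlg L)ˣ →* (ArchAlg L)ˣ).range.index = 2 ^ nrRealPlaces L := by
  classical
  rw [index_range_pow_congr (archUnitsEquiv L), index_range_pow_prod, index_range_pow_pi,
    index_range_pow_pi, index_range_pow_two_realUnits,
    index_range_pow_complexUnits (by norm_num), one_pow, mul_one]

/-- **The index `index_p`, for every prime `p`.** -/
theorem prod_index_mul_archIndex_general {p : ℕ} [Fact p.Prime] {ζ : 𝓞 L}
    (hζ : IsPrimitiveRoot ζ p)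
    (Kv : PrimesOverNat (𝓞 L) p → Type*) [∀ v, Field (Kv v)]
    [∀ v, Algebra (LocalInt (𝓞 L) p v) (Kv v)]
    [∀ v, IsFractionRing (LocalInt (𝓞 L) p v) (Kv v)] :
    (∏ v : PrimesOverNat (𝓞 L) p, (powMonoidHom p : (Kv v)ˣ →* (Kv v)ˣ).range.index) *
        (powMonoidHom p : (ArchAlg L)ˣ →* (ArchAlg L)ˣ).range.index =
      p ^ (2 * Fintype.card (PrimesOverNat (𝓞 L) p) + 2 * Fintype.card (InfinitePlace L)) := by
  classical
  have hp : p.Prime := Fact.out
  by_cases hp2 : p = 2
  · subst hp2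
    rw [LocalIndexProduct.prod_index_range_pow hζ Kv, index_range_pow_two_archUnits,
      ← pow_add, RingOfIntegers.rank, ← card_add_two_mul_card_eq_rank L,
      card_eq_nrRealPlaces_add_nrComplexPlaces]
    congr 1
    ring
  · have hodd : Odd p := hp.odd_of_ne_two hp2
    have hζF : IsPrimitiveRoot (ζ : L) p :=
      hζ.map_of_injective (RingOfIntegers.coe_injective)
    rw [LocalIndexProduct.prod_index_range_pow hζ Kv, index_range_pow_archUnits L hodd,
      mul_one, RingOfIntegers.rank,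
      finrank_eq_two_mul_card_infinitePlace hodd hp.one_lt hζF]

end Fermat.Agent.Lib.CFT.Global.ArchIndex
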