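import Mathlib
import Fermat.Agent.Lib.CFT.Global.ExistenceNorm
import Fermat.Agent.Lib.CFT.Global.ExistenceAssembly
import Fermat.Agent.Lib.CFT.Global.SVersion.LiftHypOver
import Fermat.Agent.Lib.CFT.Global.SVersion.Formation
import Fermat.Agent.Lib.CFT.Global.CohIdeles.UnramTrivial
import Fermat.Agent.Lib.CFT.Global.SecondIneq.Instance.NormLocalDvd
import Fermat.Agent.Lib.CFT.Global.SecondIneq.Instance.LocalDataInst
import Fermat.Agent.Lib.CFT.Global.SecondIneq.Instance.ApproxIdele

/-!
# The existence theorem mod `p` for the `S`-class formation over a level field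
(P-CFT, Global/Existence, final file)

`K ⊆ Qbar` finite over `ℚ`, unramified outside `S`, `ζ_p ∈ K`, `p ∈ S`; `F` any formation on
`Gal(Qbar/K)` with module `C_S` whose levels contain the Galois levels and whose layers satisfy
sub-layer reciprocity (e.g. class layers).  Then all conclusions of
`ExistenceAssembly.existence_of_dict` hold UNCONDITIONALLY (`existence_CSOver`), in particular the
hypothesis package of `ExistenceFormation.existence_mod_p_of_le` for `U₀ = kerAll`
(`existence_package_CSOver`), and the same for helper33's `formationOverOf`.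
-/

set_option autoImplicit false
set_option linter.unusedSectionVars false
set_option linter.style.haveILetI false

open scoped NumberField

open NumberField IsDedekindDomain

noncomputable section

namespace Fermat.Agent.Lib.CFT.Global.Existence

open Fermat.Agent.Lib.CFT.Global Fermat.Agent.Lib.CFT.Global.SUnits
  Fermat.Agent.Lib.CFT.Global.SecondIneq Fermat.Agent.Lib.CFT.Global.SecondIneq.Instance
  Fermat.Agent.Lib.CFT.Global.ExistenceAbstract
  Fermat.Agent.Lib.CFT.Global.ExistenceFormation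
  Fermat.Agent.Lib.CFT.Global.SVersion Fermat.Agent.Lib.CFT.Global.KummerChars
  Fermat.Agent.Lib.CFT.Global.ExistenceDict Fermat.Agent.Lib.CFT.Global.ExistenceNorm
  Fermat.Agent.Lib.CFT.Global.ExistenceAssembly
  Fermat.Agent.Lib.CFT.Profinite Fermat.Agent.Lib.CFT.Coh.ClassFormation

local notation "Qbar" => AlgebraicClosure ℚ
local notation "Γℚ" => (AlgebraicClosure ℚ ≃ₐ[ℚ] AlgebraicClosure ℚ)

variable (S : Finset Nat.Primes) (K : IntermediateField ℚ Qbar) [FiniteDimensional ℚ K]
  (hK : K.IsUnramifiedOutside S)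

/-- **Existence theorem mod `p` for a formation on `Gal(Qbar/K)` with module `C_S`.** -/
theorem existence_CSOver {𝒰 : LevelFamily ↥K.fixingSubgroup}
    (F : FormationOn 𝒰 (CSOver S K))
    (h𝒰 : ∀ U ∈ (galFamilyOver K hK).levels, U ∈ 𝒰.levels)
    (hsub : ∀ (U : Subgroup ↥K.fixingSubgroup) [U.Normal] (hU : U ∈ 𝒰.levels),
      letI := levelFintype 𝒰 U hU
      ∀ (N : Subgroup (↥K.fixingSubgroup ⧸ U)) [Fintype N],
        IsRecLayer (((CSOver S K).quotientToInvariants U).ρ.comp N.subtype)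
          (resCoc N.subtype (F.u U hU)))
    {p : ℕ} [NeZero p] (hp : p.Prime) {ζ : K} (hζ : IsPrimitiveRoot ζ p)
    (hζ' : (primitiveRoots p K).Nonempty)
    (hpS : ∀ q : Nat.Primes, (q : ℕ) ∣ p → q ∈ S) :
    haveI : Fact p.Prime := ⟨hp⟩
    (∀ x : F.toFormation.C.ρ.invariants,
      (∀ (V : Subgroup ↥K.fixingSubgroup) [V.Normal] (hV : V ∈ F.toFormation.𝒰.levels)
        (χ : ↥K.fixingSubgroup →* Multiplicative (ZMod p)) (hχ : V ≤ χ.ker),
          evalRec F.toFormation V hV χ hχ x = 1) → x ∈ pMul F.toFormation p) ∧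
    (∀ (V : Subgroup ↥K.fixingSubgroup) [V.Normal] (hV : V ∈ F.toFormation.𝒰.levels)
      (χ : ↥K.fixingSubgroup →* Multiplicative (ZMod p)) (hχ : V ≤ χ.ker), χ ≠ 1 →
        ∃ x : F.toFormation.C.ρ.invariants, evalRec F.toFormation V hV χ hχ x ≠ 1) ∧
    (pMul F.toFormation p).index ≠ 0 ∧
    (pMul F.toFormation p).index = (powSub Kˣ p).relIndex (deltaS K p S) ∧
    Nat.card (↥K.fixingSubgroup ⧸ kerAll hζ' S) = (pMul F.toFormation p).index ∧
    (∀ (W : Subgroup ↥K.fixingSubgroup) (_ : W ∈ F.toFormation.𝒰.levels)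
      (χ : ↥K.fixingSubgroup →* Multiplicative (ZMod p)), W ≤ χ.ker → kerAll hζ' S ≤ χ.ker) := by
  have hFI : FirstIneqKummer K p :=
    firstIneqKummer_of_cyclic hp hζ (CohIdeles.firstIneqAll p K hp)
  exact existence_of_dict (S := S) (𝔉 := F.toFormation) hK h𝒰 hp hζ hζ' hpS
    (localData K hp hζ) (normLocalDataAll hp hζ hFI) (weakApprox K p hp.ne_zero)
    (fun b v hpv hbv => Uv_le_NlocV_of_dvd hp hζ b v hpv hbv)
    (clsOver S K hK)
    (clsOver_surjective S K hK (DescentOver.liftHypOver_dict S K))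
    (ker_clsOver S K hK)
    (fun b hbΔ hb x hx =>
      evalChar_clsOver_norm_eq_one S K hK F hsub hζ hζ' hpS b hbΔ hb x hx)


/-- **The hypothesis package of `existence_mod_p_of_le`** (and of `VForm.ofExistence`) for a
formation on `Gal(Qbar/K)` with module `C_S`: `U₀ = kerAll` (the fixing subgroup of
`K(Δ_S^{1/p})`) contains a normal level, `Γ ⧸ U₀` is abelian of exponent `p`, and
`[C^Γ : p C^Γ] = |Γ ⧸ U₀| ≠ 0`. -/
theorem existence_package_CSOver {𝒰 : LevelFamily ↥K.fixingSubgroup}
    (F : FormationOn 𝒰 (CSOver S K))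
    (h𝒰 : ∀ U ∈ (galFamilyOver K hK).levels, U ∈ 𝒰.levels)
    (hsub : ∀ (U : Subgroup ↥K.fixingSubgroup) [U.Normal] (hU : U ∈ 𝒰.levels),
      letI := levelFintype 𝒰 U hU
      ∀ (N : Subgroup (↥K.fixingSubgroup ⧸ U)) [Fintype N],
        IsRecLayer (((CSOver S K).quotientToInvariants U).ρ.comp N.subtype)
          (resCoc N.subtype (F.u U hU)))
    {p : ℕ} [NeZero p] (hp : p.Prime) {ζ : K} (hζ : IsPrimitiveRoot ζ p)
    (hζ' : (primitiveRoots p K).Nonempty)
    (hpS : ∀ q : Nat.Primes, (q : ℕ) ∣ p → q ∈ S) :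
    haveI : Fact p.Prime := ⟨hp⟩
    ∃ (U : Subgroup ↥K.fixingSubgroup) (_ : U.Normal) (_ : U ∈ F.toFormation.𝒰.levels),
      U ≤ kerAll hζ' S ∧
      (∀ g : ↥K.fixingSubgroup ⧸ kerAll hζ' S, g ^ p = 1) ∧
      (∀ g h : ↥K.fixingSubgroup ⧸ kerAll hζ' S, g * h = h * g) ∧
      (pMul F.toFormation p).index ≠ 0 ∧
      (pMul F.toFormation p).index ≤ Nat.card (↥K.fixingSubgroup ⧸ kerAll hζ' S) := by
  haveI : Fact p.Prime := ⟨hp⟩
  obtain ⟨-, -, h3, h4, h5, -⟩ := existence_CSOver S K hK F h𝒰 hsub hp hζ hζ' hpS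
  obtain ⟨U, hU, hUn, hle⟩ := exists_level_le_kerAll hζ' S hK hpS (by rw [← h4]; exact h3)
  exact ⟨U, hUn, h𝒰 U hU, hle, quot_kerAll_pow hζ' S, quot_kerAll_comm hζ' S, h3, h5.ge⟩

/-! ### The `S`-class formation of helper33 -/

section FormationOver

open Fermat.Agent.Lib.CFT.Global.SVersion.Formation
  Fermat.Agent.Lib.CFT.Global.SVersion.FormationOfLayers Fermat.Agent.Lib.CFT.Coh.TateThm

variable {S} (hdata : LayerData (galFamily S) (CS S))

/-- Sub-layer reciprocity for the `S`-class formation over `K`. -/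
lemma isRecLayer_sub_formationOverOf (U : Subgroup ↥K.fixingSubgroup) [U.Normal]
    (hU : U ∈ (galFamilyOver K hK).levels) :
    letI := levelFintype (galFamilyOver K hK) U hU
    ∀ (N : Subgroup (↥K.fixingSubgroup ⧸ U)) [Fintype N],
      IsRecLayer (((CSOver S K).quotientToInvariants U).ρ.comp N.subtype)
        (resCoc N.subtype ((formationOverOf hdata K hK).u U hU)) := by
  letI := levelFintype (galFamilyOver K hK) U hU
  intro N _
  exact ((formationOverOf hdata K hK).isClassLayer U hU).isRecLayer_subgroup N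

/-- **Existence theorem mod `p` for the `S`-class formation over `K ∋ ζ_p`.** -/
theorem existence_formationOverOf {p : ℕ} [NeZero p] (hp : p.Prime) {ζ : K}
    (hζ : IsPrimitiveRoot ζ p) (hζ' : (primitiveRoots p K).Nonempty)
    (hpS : ∀ q : Nat.Primes, (q : ℕ) ∣ p → q ∈ S) :
    haveI : Fact p.Prime := ⟨hp⟩
    (∀ x : (formationOverOf hdata K hK).toFormation.C.ρ.invariants,
      (∀ (V : Subgroup ↥K.fixingSubgroup) [V.Normal]
        (hV : V ∈ (formationOverOf hdata K hK).toFormation.𝒰.levels)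
        (χ : ↥K.fixingSubgroup →* Multiplicative (ZMod p)) (hχ : V ≤ χ.ker),
          evalRec (formationOverOf hdata K hK).toFormation V hV χ hχ x = 1) →
        x ∈ pMul (formationOverOf hdata K hK).toFormation p) ∧
    (∀ (V : Subgroup ↥K.fixingSubgroup) [V.Normal]
      (hV : V ∈ (formationOverOf hdata K hK).toFormation.𝒰.levels)
      (χ : ↥K.fixingSubgroup →* Multiplicative (ZMod p)) (hχ : V ≤ χ.ker), χ ≠ 1 →
        ∃ x : (formationOverOf hdata K hK).toFormation.C.ρ.invariants,
          evalRec (formationOverOf hdata K hK).toFormation V hV χ hχ x ≠ 1) ∧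
    (pMul (formationOverOf hdata K hK).toFormation p).index ≠ 0 ∧
    (pMul (formationOverOf hdata K hK).toFormation p).index =
      (powSub Kˣ p).relIndex (deltaS K p S) ∧
    Nat.card (↥K.fixingSubgroup ⧸ kerAll hζ' S) =
      (pMul (formationOverOf hdata K hK).toFormation p).index ∧
    (∀ (W : Subgroup ↥K.fixingSubgroup)
      (_ : W ∈ (formationOverOf hdata K hK).toFormation.𝒰.levels)
      (χ : ↥K.fixingSubgroup →* Multiplicative (ZMod p)), W ≤ χ.ker → kerAll hζ' S ≤ χ.ker) :=
  existence_CSOver S K hK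
    ((formationOverOf hdata K hK).toFormation.toOn :
      FormationOn (galFamilyOver K hK) (CSOver S K))
    (fun _ hU => hU) (fun U _ hU => isRecLayer_sub_formationOverOf K hK hdata U hU)
    hp hζ hζ' hpS

/-- **The hypothesis package of `existence_mod_p_of_le` / `VForm.ofExistenceInt`** for the
`S`-class formation over `K ∋ ζ_p`, with `U₀ = kerAll hζ' S`. -/
theorem existence_package_formationOverOf {p : ℕ} [NeZero p] (hp : p.Prime) {ζ : K}
    (hζ : IsPrimitiveRoot ζ p) (hζ' : (primitiveRoots p K).Nonempty)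
    (hpS : ∀ q : Nat.Primes, (q : ℕ) ∣ p → q ∈ S) :
    haveI : Fact p.Prime := ⟨hp⟩
    ∃ (U : Subgroup ↥K.fixingSubgroup) (_ : U.Normal)
      (_ : U ∈ (formationOverOf hdata K hK).toFormation.𝒰.levels),
      U ≤ kerAll hζ' S ∧
      (∀ g : ↥K.fixingSubgroup ⧸ kerAll hζ' S, g ^ p = 1) ∧
      (∀ g h : ↥K.fixingSubgroup ⧸ kerAll hζ' S, g * h = h * g) ∧
      (pMul (formationOverOf hdata K hK).toFormation p).index ≠ 0 ∧
      (pMul (formationOverOf hdata K hK).toFormation p).index ≤
        Nat.card (↥K.fixingSubgroup ⧸ kerAll hζ' S) :=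
  existence_package_CSOver S K hK
    ((formationOverOf hdata K hK).toFormation.toOn :
      FormationOn (galFamilyOver K hK) (CSOver S K))
    (fun _ hU => hU) (fun U _ hU => isRecLayer_sub_formationOverOf K hK hdata U hU)
    hp hζ hζ' hpS

end FormationOver

end Fermat.Agent.Lib.CFT.Global.Existence
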