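import Mathlib
import Fermat.Agent.Lib.CFT.Global.Existence
import Fermat.Agent.Lib.CFT.Global.SVersion.OpenLevelField
import Fermat.Agent.Lib.CFT.Duality.BaseCase.WFieldsOfFormation

/-!
# Existence mod `p` over every open subgroup of `ker χ_p` (P-CFT, Global/Existence → L4 glue)

* `apply_eq_of_mem_ker_cycloChar`, `exists_primitiveRoot_of_le_ker` : a level field `K` with
  `Gal(Qbar/K) ≤ ker χ_p` contains a primitive `p`-th root of unity;
* `wfields_fixingSubgroup`, `wfields_arith`, `wfields_arithDatum` : the four module-theoretic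
  fields `hinv`, `fin`, `hleft`, `hright` of the `P`-form contract (`GlobalBase.WFields`) for EVERY
  open subgroup `W ≤ ker χ_p`, for the `S`-class formation `formationQOf S hdata`, from the
  existence theorem mod `p` (`Existence.existence_package_formationOverOf`) through helper1's
  `wfields_of_existence`.  Only input: `hdata : LayerData (galFamily S) (CS S)` and `p ∈ S`.
-/

set_option autoImplicit false
set_option linter.unusedSectionVars false
set_option linter.style.haveILetI false

open scoped NumberField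

noncomputable section

namespace Fermat.Agent.Lib.CFT.Global.ExistenceOpen

open Fermat.Agent.Lib.CFT.Global Fermat.Agent.Lib.CFT.Global.SVersion
open Fermat.Agent.Lib.CFT.Profinite Fermat.Agent.Lib.CFT.Profinite.Bridge
open ExtCitation

local notation "Qbar" => AlgebraicClosure ℚ
local notation "Γℚ" => (AlgebraicClosure ℚ ≃ₐ[ℚ] AlgebraicClosure ℚ)

local instance isAlgebraicQbar_eo : Algebra.IsAlgebraic ℚ (AlgebraicClosure ℚ) :=
  AlgebraicClosure.isAlgebraic ℚ
local instance isAlgClosureQbar_eo : IsAlgClosure ℚ (AlgebraicClosure ℚ) :=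
  ⟨inferInstance, inferInstance⟩
local instance normalQbar_eo : Normal ℚ (AlgebraicClosure ℚ) :=
  IsAlgClosure.normal ℚ (AlgebraicClosure ℚ)
local instance isGaloisQbar_eo : IsGalois ℚ (AlgebraicClosure ℚ) := ⟨⟩

variable (p : ℕ) [Fact p.Prime]

/-- Elements of the kernel of the mod `p` cyclotomic character fix the `p`-th roots of unity. -/
lemma apply_eq_of_mem_ker_cycloChar {σ : Γℚ} (hσ : σ ∈ (cycloChar p).ker) (ζ : Qbar)
    (hζ : ζ ^ p = 1) : σ ζ = ζ := by
  haveI : NeZero p := ⟨(Fact.out : p.Prime).ne_zero⟩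
  have h := modularCyclotomicCharacter.spec Qbar (ExtCitation.card_rootsOfUnity_eq_self p)
    (σ : Qbar ≃+* Qbar)
    (t := ((rootsOfUnity.mkOfPowEq ζ hζ : rootsOfUnity p Qbar) : Qbarˣ))
    (rootsOfUnity.mkOfPowEq ζ hζ).2
  have h1 : modularCyclotomicCharacter Qbar (ExtCitation.card_rootsOfUnity_eq_self p)
      (σ : Qbar ≃+* Qbar) = 1 := MonoidHom.mem_ker.1 hσ
  haveI : Fact (1 < p) := ⟨(Fact.out : p.Prime).one_lt⟩
  rw [h1] at h
  simpa [ZMod.val_one] using h

/-- A level field whose absolute Galois group is contained in the kernel of the mod `p`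
cyclotomic character contains a primitive `p`-th root of unity. -/
theorem exists_primitiveRoot_of_le_ker (K : IntermediateField ℚ Qbar)
    (hle : K.fixingSubgroup ≤ (cycloChar p).ker) : ∃ ζ : K, IsPrimitiveRoot ζ p := by
  haveI : NeZero p := ⟨(Fact.out : p.Prime).ne_zero⟩
  haveI : NeZero (p : Qbar) := ⟨Nat.cast_ne_zero.mpr (NeZero.ne p)⟩
  obtain ⟨ζ, hζ⟩ : ∃ ζ : Qbar, IsPrimitiveRoot ζ p :=
    HasEnoughRootsOfUnity.exists_primitiveRoot Qbar p
  have hmem : ζ ∈ K := by
    rw [← InfiniteGalois.fixedField_fixingSubgroup K, IntermediateField.mem_fixedField_iff]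
    intro σ hσ
    exact apply_eq_of_mem_ker_cycloChar p (hle hσ) ζ hζ.pow_eq_one
  refine ⟨⟨ζ, hmem⟩, ?_⟩
  exact IsPrimitiveRoot.of_map_of_injective (f := algebraMap K Qbar) hζ
    (algebraMap K Qbar).injective


/-! ### The four `P`-form fields for every open subgroup of `ker χ_p` -/

section WFieldsArith

open Fermat.Agent.Lib.CFT.Global.SVersion.Formation
  Fermat.Agent.Lib.CFT.Global.SVersion.FormationOfLayers
  Fermat.Agent.Lib.CFT.Global.SVersion.OpenLevelField
  Fermat.Agent.Lib.CFT.Duality.FormationT Fermat.Agent.Lib.CFT.Duality.GlobalBase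
  Fermat.Agent.Lib.CFT.Global.KummerChars Fermat.Agent.Lib.CFT.Profinite.LES

variable {S : Finset Nat.Primes} (hdata : LayerData (galFamily S) (CS S))

/-- The four `P`-form fields for the fixing subgroup of a level field `K ∋ ζ_p`. -/
theorem wfields_fixingSubgroup (hpS : pPrime p ∈ S) (K : IntermediateField ℚ Qbar)
    (hK : K.IsUnramifiedOutside S) [(K.fixingSubgroup).FiniteIndex]
    (hW : IsOpenSubgroup (levelsS S) K.fixingSubgroup)
    (hle : K.fixingSubgroup ≤ (cycloChar p).ker) :
    WFields (levelsS S) p (CS S)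
      (invG (formationQOf S hdata) (levelsS S) (isCompatible_galFamily_levelsS S) p)
      K.fixingSubgroup := by
  haveI : FiniteDimensional ℚ K := hK.1
  have hp : p.Prime := Fact.out
  haveI : NeZero p := ⟨hp.ne_zero⟩
  obtain ⟨ζ, hζ⟩ := exists_primitiveRoot_of_le_ker p K hle
  have hζ' : (primitiveRoots p K).Nonempty := ⟨ζ, (mem_primitiveRoots hp.pos).2 hζ⟩
  have hpS' : ∀ q : Nat.Primes, (q : ℕ) ∣ p → q ∈ S := by
    intro q hq
    have h1 : (q : ℕ) = p := (Nat.prime_dvd_prime_iff_eq q.2 hp).1 hq
    have h2 : q = pPrime p := Subtype.ext h1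
    rw [h2]
    exact hpS
  obtain ⟨U, hUn, hU, hUU₀, hexp, hcomm, hN0, hcard⟩ :=
    Existence.existence_package_formationOverOf K hK hdata hp hζ hζ' hpS'
  -- the tower: some normal level has index divisible by `p`
  have hp' : ∃ U' ∈ (galFamilyOver K hK).levels, U'.Normal ∧ p ∣ U'.index := by
    obtain ⟨U', hU'n, hU', -, hdvd⟩ := galFamilyOver_tower hpS K hK U hUn hU
    exact ⟨U', hU', hU'n, Dvd.dvd.trans (Dvd.intro _ rfl) hdvd⟩
  exact wfields_of_existence (formationQOf S hdata) (levelsS S)
    (isCompatible_galFamily_levelsS S) (isCompatible_levelsS_galFamily S) p hW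
    (isSubFamily_galFamilyOver K hK) (isCofinalSub_galFamilyOver K hK) hp'
    (kerAll hζ' S) U hU hUU₀ hexp hcomm hN0 hcard

/-- **The four `P`-form fields (`hinv`, `fin`, `hleft`, `hright`) for every open subgroup of
`ker χ_p`**, for the `S`-class formation `formationQOf S hdata`. -/
theorem wfields_arith (hpS : pPrime p ∈ S) (W : Subgroup Γℚ) [W.FiniteIndex]
    (hW : IsOpenSubgroup (levelsS S) W) (hle : W ≤ (cycloChar p).ker) :
    WFields (levelsS S) p (CS S)
      (invG (formationQOf S hdata) (levelsS S) (isCompatible_galFamily_levelsS S) p) W := by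
  obtain ⟨K, hK, rfl⟩ := exists_levelField_of_isOpenSubgroup W hW
  exact wfields_fixingSubgroup p hdata hpS K hK hW hle

/-- The same, in the form consumed by `WFields.hinv_all` / `fin_all` / `hleft_all` /
`hright_all` for the arithmetic localisation datum. -/
theorem wfields_arithDatum (hpS : pPrime p ∈ S) :
    ∀ (W : Subgroup Γℚ) [W.FiniteIndex],
      IsOpenSubgroup (Fermat.Agent.Lib.CFT.Duality.arithDatum S).𝒰 W → W ≤ (cycloChar p).ker →
      WFields (Fermat.Agent.Lib.CFT.Duality.arithDatum S).𝒰 p (CS S)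
        (invG (formationQOf S hdata) (levelsS S) (isCompatible_galFamily_levelsS S) p) W :=
  fun W _ hW hle => wfields_arith p hdata hpS W hW hle

end WFieldsArith

end Fermat.Agent.Lib.CFT.Global.ExistenceOpen
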