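import Mathlib
import Fermat.Agent.Lib.CFT.Global.ExistenceOpen
import Fermat.Agent.Lib.CFT.Duality.BaseCase.PFormOfVForm

/-!
# `ArithExistence` for the mod `p` cyclotomic character (P-CFT, Global/Existence → L4 glue)

`arithExistence_cycloChar` : the hypothesis `hex` of helper91's
`PFormOfVForm.arithPFormOfFormation` for `χ = cycloChar p`, from the existence theorem mod `p`
(`Existence.existence_package_formationOverOf`).
-/

set_option autoImplicit false
set_option linter.unusedSectionVars false
set_option linter.style.haveILetI false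

noncomputable section

namespace Fermat.Agent.Lib.CFT.Global.ExistenceOpen

open Fermat.Agent.Lib.CFT.Global Fermat.Agent.Lib.CFT.Global.SVersion
open Fermat.Agent.Lib.CFT.Profinite Fermat.Agent.Lib.CFT.Profinite.Bridge
open Fermat.Agent.Lib.CFT.Global.SVersion.Formation
  Fermat.Agent.Lib.CFT.Global.SVersion.FormationOfLayers
  Fermat.Agent.Lib.CFT.Global.KummerChars
  Fermat.Agent.Lib.CFT.Duality.GlobalBase.PFormOfVForm
open ExtCitation

local notation "Qbar" => AlgebraicClosure ℚ
local notation "Γℚ" => (AlgebraicClosure ℚ ≃ₐ[ℚ] AlgebraicClosure ℚ)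

/-- **The existence theorem mod `p` over every level field containing `ζ_p`**, in the form
consumed by `PFormOfVForm.arithPFormOfFormation`. -/
theorem arithExistence_cycloChar (S : Finset Nat.Primes)
    (hdata : LayerData (galFamily S) (CS S)) (p : ℕ) [hp : Fact p.Prime]
    (hpS : (⟨p, hp.out⟩ : Nat.Primes) ∈ S) :
    ArithExistence S hdata p (cycloChar p) := by
  intro K hK hle
  haveI : FiniteDimensional ℚ K := hK.1
  have hp' : p.Prime := hp.out
  haveI : NeZero p := ⟨hp'.ne_zero⟩
  obtain ⟨ζ, hζ⟩ := exists_primitiveRoot_of_le_ker p K hle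
  have hζ' : (primitiveRoots p K).Nonempty := ⟨ζ, (mem_primitiveRoots hp'.pos).2 hζ⟩
  have hpS' : ∀ q : Nat.Primes, (q : ℕ) ∣ p → q ∈ S := by
    intro q hq
    have h1 : (q : ℕ) = p := (Nat.prime_dvd_prime_iff_eq q.2 hp').1 hq
    have h2 : q = ⟨p, hp.out⟩ := Subtype.ext h1
    rw [h2]
    exact hpS
  obtain ⟨U, hUn, hU, hUU₀, hexp, hcomm, hN0, hcard⟩ :=
    Existence.existence_package_formationOverOf K hK hdata hp' hζ hζ' hpS'
  exact ExistenceModP.mk' (kerAll hζ' S) U hU hUU₀ hexp hcomm hN0 hcard

end Fermat.Agent.Lib.CFT.Global.ExistenceOpen
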