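/-
helper70 (P-CFT, WP Global/ArtinCyclotomic, part 3: weak approximation, self-contained).

* `exists_rat_approx` : weak approximation for `ℚ` at finitely many primes and infinity (from
  Mathlib's `AbsoluteValue.denseRange_algebraMap_pi`);
* `exists_field_approx` : additive weak approximation in a number field `L` modulo `q^N locInt`
  and in the coordinates of `ℝ ⊗ L` (`archBasis`, `ofCoord`);
* `exists_unit_approx` : multiplicative weak approximation: `x ∈ Lˣ` with
  `x / β_q ∈ 1 + q^{N q} locInt` for `q ∈ T` and `N_{ℝ ⊗ L/ℝ}(x / β_∞) > 0`.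
-/
import Mathlib
import Fermat.Agent.Lib.CFT.Global.ArtinCyclotomic
set_option autoImplicit false
set_option linter.unusedSectionVars false

open scoped NumberField

namespace Fermat.Agent.Lib.CFT.Global.ArtinCyc

open Fermat.Agent.Lib.CFT.Global

section RatApprox

/-- The family of absolute values of `ℚ` at a finite set of primes and at infinity. -/
noncomputable def absFamily (T : Finset Nat.Primes) : Option T → AbsoluteValue ℚ ℝ
  | none => Rat.AbsoluteValue.real
  | some q => Rat.AbsoluteValue.padic (pv q.1)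

theorem absFamily_isNontrivial (T : Finset Nat.Primes) (i : Option T) :
    (absFamily T i).IsNontrivial := by
  cases i with
  | none =>
    refine ⟨2, by norm_num, ?_⟩
    show Rat.AbsoluteValue.real 2 ≠ 1
    rw [Rat.AbsoluteValue.real_eq_abs]
    norm_num
  | some q =>
    refine ⟨(pv q.1 : ℚ), Nat.cast_ne_zero.2 (pv_prime q.1).ne_zero, ?_⟩
    show Rat.AbsoluteValue.padic (pv q.1) (pv q.1 : ℚ) ≠ 1
    rw [Rat.AbsoluteValue.padic_eq_padicNorm]
    have := padicNorm.padicNorm_p_lt_one (p := pv q.1) (pv_prime q.1).one_lt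
    intro h
    have h' : padicNorm (pv q.1) (pv q.1 : ℚ) = 1 := by exact_mod_cast h
    rw [h'] at this
    exact lt_irrefl _ this

theorem absFamily_pairwise (T : Finset Nat.Primes) :
    Pairwise fun i j : Option T => ¬ (absFamily T i).IsEquiv (absFamily T j) := by
  intro i j hij
  cases i with
  | none =>
    cases j with
    | none => exact absurd rfl hij
    | some q => exact Rat.AbsoluteValue.not_real_isEquiv_padic (pv q.1)
  | some q =>
    cases j with
    | none => exact fun h => Rat.AbsoluteValue.not_real_isEquiv_padic (pv q.1) h.symm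
    | some q' =>
      intro h
      have hne : pv q.1 ≠ pv q'.1 := by
        intro h'
        apply hij
        congr 1
        exact Subtype.ext (Subtype.ext h')
      have h1 : (absFamily T (some q)) (pv q.1 : ℚ) < 1 := by
        show Rat.AbsoluteValue.padic (pv q.1) (pv q.1 : ℚ) < 1
        rw [Rat.AbsoluteValue.padic_eq_padicNorm]
        exact_mod_cast padicNorm.padicNorm_p_lt_one (p := pv q.1) (pv_prime q.1).one_lt
      have h2 := h.lt_one_iff.1 h1
      have h3 : (absFamily T (some q')) (pv q.1 : ℚ) = 1 := by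
        show Rat.AbsoluteValue.padic (pv q'.1) (pv q.1 : ℚ) = 1
        rw [Rat.AbsoluteValue.padic_eq_padicNorm]
        exact_mod_cast padicNorm.padicNorm_of_prime_of_ne (p := pv q'.1) (q := pv q.1) hne.symm
      rw [h3] at h2
      exact lt_irrefl _ h2

/-- Weak approximation for `ℚ`, rational targets. -/
theorem exists_rat_approx_rat (T : Finset Nat.Primes) (s : Nat.Primes → ℚ) (s' : ℚ) (δ : ℝ)
    (hδ : 0 < δ) :
    ∃ x : ℚ, (∀ q ∈ T, (padicNorm (pv q) (x - s q) : ℝ) < δ) ∧ |((x - s' : ℚ) : ℝ)| < δ := by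
  have hdense := AbsoluteValue.denseRange_algebraMap_pi (absFamily_isNontrivial T)
    (absFamily_pairwise T)
  rw [Metric.denseRange_iff] at hdense
  let z : (i : Option T) → WithAbs (absFamily T i) := fun i =>
    match i with
    | none => WithAbs.toAbs _ s'
    | some q => WithAbs.toAbs _ (s q.1)
  obtain ⟨x, hx⟩ := hdense z δ hδ
  rw [dist_pi_lt_iff hδ] at hx
  refine ⟨x, fun q hq => ?_, ?_⟩
  · have := hx (some ⟨q, hq⟩)
    rw [dist_comm, dist_eq_norm] at this
    have h2 : (algebraMap ℚ ((i : Option T) → WithAbs (absFamily T i)) x) (some ⟨q, hq⟩) - z (some ⟨q, hq⟩)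
        = WithAbs.toAbs (absFamily T (some ⟨q, hq⟩)) (x - s q) := rfl
    rw [h2, WithAbs.norm_toAbs_eq] at this
    exact this
  · have := hx none
    rw [dist_comm, dist_eq_norm] at this
    have h2 : (algebraMap ℚ ((i : Option T) → WithAbs (absFamily T i)) x) none - z none
        = WithAbs.toAbs (absFamily T none) (x - s') := rfl
    rw [h2, WithAbs.norm_toAbs_eq] at this
    have h3 : (absFamily T none) (x - s') = |((x - s' : ℚ) : ℝ)| := by
      show Rat.AbsoluteValue.real (x - s') = _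
      rw [Rat.AbsoluteValue.real_eq_abs, Rat.cast_abs]
    rw [h3] at this
    exact this


/-- Weak approximation for `ℚ`: simultaneous approximation of `q`-adic numbers for `q` in a finite
set and of a real number by one rational number. -/
theorem exists_rat_approx (T : Finset Nat.Primes) (t : ∀ q : Nat.Primes, ℚ_[pv q]) (t' : ℝ)
    (δ : ℝ) (hδ : 0 < δ) :
    ∃ x : ℚ, (∀ q ∈ T, ‖(x : ℚ_[pv q]) - t q‖ < δ) ∧ |(x : ℝ) - t'| < δ := by
  have hδ2 : 0 < δ / 2 := by linarith
  have h1 : ∀ q : Nat.Primes, ∃ s : ℚ, ‖t q - (s : ℚ_[pv q])‖ < δ / 2 := fun q =>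
    Padic.rat_dense (pv q) (t q) hδ2
  choose s hs using h1
  obtain ⟨s', hs'1, hs'2⟩ := exists_rat_btwn (show t' - δ / 2 < t' + δ / 2 by linarith)
  obtain ⟨x, hx1, hx2⟩ := exists_rat_approx_rat T s s' (δ / 2) hδ2
  refine ⟨x, fun q hq => ?_, ?_⟩
  · have h2 : ‖(x : ℚ_[pv q]) - (s q : ℚ_[pv q])‖ < δ / 2 := by
      have := hx1 q hq
      rw [← Rat.cast_sub, Padic.eq_padicNorm]
      exact this
    calc ‖(x : ℚ_[pv q]) - t q‖
        = ‖((x : ℚ_[pv q]) - (s q : ℚ_[pv q])) + ((s q : ℚ_[pv q]) - t q)‖ := by ring_nf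
      _ ≤ ‖(x : ℚ_[pv q]) - (s q : ℚ_[pv q])‖ + ‖(s q : ℚ_[pv q]) - t q‖ := norm_add_le _ _
      _ < δ / 2 + δ / 2 := by
          have := hs q
          rw [norm_sub_rev] at this
          linarith
      _ = δ := by ring
  · have h2 : |(x : ℝ) - (s' : ℝ)| < δ / 2 := by
      have := hx2
      rw [Rat.cast_sub] at this
      exact this
    have h3 : |(s' : ℝ) - t'| < δ / 2 := by
      rw [abs_lt]; constructor <;> linarith
    calc |(x : ℝ) - t'| = |((x : ℝ) - s') + ((s' : ℝ) - t')| := by ring_nf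
      _ ≤ |(x : ℝ) - s'| + |(s' : ℝ) - t'| := abs_add_le _ _
      _ < δ / 2 + δ / 2 := by linarith
      _ = δ := by ring

end RatApprox

section FieldApprox

open scoped TensorProduct
open Module

variable (L : Type) [Field L] [NumberField L]

/-- The `ℝ`-basis of `ℝ ⊗ L` given by an integral basis of `L`. -/
noncomputable def archBasis : Basis (Free.ChooseBasisIndex ℤ (𝓞 L)) ℝ (ArchAlg L) :=
  Algebra.TensorProduct.basis ℝ (NumberField.integralBasis L)

/-- The element of `L` with given rational coordinates in the integral basis. -/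
noncomputable def ofCoord (c : Free.ChooseBasisIndex ℤ (𝓞 L) → ℚ) : L :=
  ∑ i, c i • NumberField.integralBasis L i

theorem locBasis_repr_one_tmul_ofCoord (q : Nat.Primes) (c : Free.ChooseBasisIndex ℤ (𝓞 L) → ℚ)
    (i : Free.ChooseBasisIndex ℤ (𝓞 L)) :
    (locBasis L q).repr ((1 : ℚ_[pv q]) ⊗ₜ[ℚ] ofCoord L c) i = (c i : ℚ_[pv q]) := by
  rw [locBasis, Algebra.TensorProduct.basis_repr_tmul, one_smul, Finsupp.mapRange_apply, ofCoord,
    Basis.repr_sum_self, eq_ratCast]

theorem archBasis_repr_one_tmul_ofCoord (c : Free.ChooseBasisIndex ℤ (𝓞 L) → ℚ)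
    (i : Free.ChooseBasisIndex ℤ (𝓞 L)) :
    (archBasis L).repr ((1 : ℝ) ⊗ₜ[ℚ] ofCoord L c) i = (c i : ℝ) := by
  rw [archBasis, Algebra.TensorProduct.basis_repr_tmul, one_smul, Finsupp.mapRange_apply, ofCoord,
    Basis.repr_sum_self, eq_ratCast]

theorem norm_prime_pow (q : Nat.Primes) (N : ℕ) :
    ‖((pv q : ℚ_[pv q]) ^ N)‖ = ((pv q : ℝ) ^ N)⁻¹ := by
  rw [norm_pow, Padic.norm_p, inv_pow]

/-- Additive weak approximation in `L`: an element of `L` which is close to given elements of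
`ℚ_q ⊗ L` (`q ∈ T`) modulo `q^N locInt` and whose coordinates are close to those of a given element
of `ℝ ⊗ L`. -/
theorem exists_field_approx (T : Finset Nat.Primes) (y : ∀ q : Nat.Primes, LocAlg L q)
    (y' : ArchAlg L) (N : Nat.Primes → ℕ) (δ : ℝ) (hδ : 0 < δ) :
    ∃ c : Free.ChooseBasisIndex ℤ (𝓞 L) → ℚ,
      (∀ q ∈ T, ∃ w ∈ locInt L q, ((1 : ℚ_[pv q]) ⊗ₜ[ℚ] ofCoord L c : LocAlg L q) - y q =
        ((pv q : ℤ_[pv q]) ^ (N q)) • w) ∧
      (∀ i, |(c i : ℝ) - (archBasis L).repr y' i| < δ) := by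
  set B : ℝ := ∑ q ∈ T, (pv q : ℝ) ^ (N q) + 1 with hB
  have hBpos : 0 < B := by
    have : 0 ≤ ∑ q ∈ T, (pv q : ℝ) ^ (N q) := Finset.sum_nonneg fun q _ => by positivity
    linarith
  have hBq : ∀ q ∈ T, (pv q : ℝ) ^ (N q) ≤ B := by
    intro q hq
    have := Finset.single_le_sum (f := fun q : Nat.Primes => (pv q : ℝ) ^ (N q))
      (fun q _ => by positivity) hq
    linarith
  set δ' := min δ B⁻¹ with hδ'
  have hδ'pos : 0 < δ' := lt_min hδ (inv_pos.2 hBpos)
  have h1 : ∀ i : Free.ChooseBasisIndex ℤ (𝓞 L), ∃ x : ℚ,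
      (∀ q ∈ T, ‖(x : ℚ_[pv q]) - (locBasis L q).repr (y q) i‖ < δ') ∧
      |(x : ℝ) - (archBasis L).repr y' i| < δ' := fun i =>
    exists_rat_approx T (fun q => (locBasis L q).repr (y q) i) ((archBasis L).repr y' i) δ' hδ'pos
  choose c hc1 hc2 using h1
  refine ⟨c, fun q hq => ?_, fun i => lt_of_lt_of_le (hc2 i) (min_le_left _ _)⟩
  have hqN : (0 : ℝ) < (pv q : ℝ) ^ (N q) := by
    have : (0 : ℝ) < (pv q : ℝ) := by exact_mod_cast (pv_prime q).pos
    positivity
  have hpne : ((pv q : ℚ_[pv q]) ^ (N q)) ≠ 0 := by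
    apply pow_ne_zero
    exact_mod_cast (pv_prime q).ne_zero
  have hd : ∀ i, ‖((c i : ℚ_[pv q]) - (locBasis L q).repr (y q) i) / ((pv q : ℚ_[pv q]) ^ (N q))‖ ≤ 1 := by
    intro i
    rw [norm_div, norm_prime_pow, div_inv_eq_mul]
    have h2 : ‖(c i : ℚ_[pv q]) - (locBasis L q).repr (y q) i‖ ≤ ((pv q : ℝ) ^ (N q))⁻¹ := by
      refine le_trans (hc1 i q hq).le (le_trans (min_le_right _ _) ?_)
      exact inv_anti₀ hqN (hBq q hq)
    calc _ ≤ ((pv q : ℝ) ^ (N q))⁻¹ * (pv q : ℝ) ^ (N q) :=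
          mul_le_mul_of_nonneg_right h2 hqN.le
      _ = 1 := inv_mul_cancel₀ hqN.ne'
  set w : LocAlg L q := ∑ i, (((c i : ℚ_[pv q]) - (locBasis L q).repr (y q) i) /
    ((pv q : ℚ_[pv q]) ^ (N q))) • locBasis L q i with hw
  have hwrepr : ∀ i, (locBasis L q).repr w i = ((c i : ℚ_[pv q]) - (locBasis L q).repr (y q) i) /
      ((pv q : ℚ_[pv q]) ^ (N q)) := by
    intro i
    rw [hw, Basis.repr_sum_self]
  refine ⟨w, ?_, ?_⟩
  · rw [mem_locInt_iff]
    intro i
    rw [hwrepr]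
    exact hd i
  · apply (locBasis L q).repr.injective
    ext i
    rw [padicInt_smul_eq, map_sub, map_smul, Finsupp.sub_apply, Finsupp.smul_apply,
      locBasis_repr_one_tmul_ofCoord, hwrepr, smul_eq_mul]
    push_cast
    field_simp



/-- Every element of `ℚ_q ⊗ L` becomes integral after multiplication by a power of `q`. -/
theorem exists_pow_smul_mem_locInt (q : Nat.Primes) (c : LocAlg L q) :
    ∃ k : ℕ, ((pv q : ℤ_[pv q]) ^ k) • c ∈ locInt L q := by
  have hq1 : (1 : ℝ) < (pv q : ℝ) := by exact_mod_cast (pv_prime q).one_lt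
  have h1 : ∀ i, ∃ k : ℕ, ‖(locBasis L q).repr c i‖ < (pv q : ℝ) ^ k := fun i =>
    pow_unbounded_of_one_lt _ hq1
  choose k hk using h1
  refine ⟨∑ i, k i, ?_⟩
  rw [mem_locInt_iff]
  intro i
  rw [padicInt_smul_eq, map_smul, Finsupp.smul_apply, smul_eq_mul, norm_mul]
  push_cast
  rw [norm_prime_pow]
  have hpos : (0 : ℝ) < (pv q : ℝ) ^ (∑ i, k i) := by positivity
  rw [inv_mul_le_iff₀ hpos, mul_one]
  refine le_trans (hk i).le ?_
  exact pow_le_pow_right₀ hq1.le (Finset.single_le_sum (fun _ _ => Nat.zero_le _) (Finset.mem_univ i))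

/-- The norm of `ℝ ⊗ L` is a continuous function of the coordinates. -/
theorem continuous_norm_coord (u : ArchAlg L) :
    Continuous fun r : Free.ChooseBasisIndex ℤ (𝓞 L) → ℝ =>
      Algebra.norm ℝ ((∑ i, r i • archBasis L i) * u) := by
  have h1 : ∀ r : Free.ChooseBasisIndex ℤ (𝓞 L) → ℝ,
      Algebra.norm ℝ ((∑ i, r i • archBasis L i) * u) =
      Matrix.det (∑ i, r i • Algebra.leftMulMatrix (archBasis L) (archBasis L i)) *
        Algebra.norm ℝ u := by
    intro r
    rw [map_mul, Algebra.norm_eq_matrix_det (archBasis L), map_sum]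
    congr 2
    refine Finset.sum_congr rfl fun i _ => ?_
    rw [map_smul]
  simp_rw [h1]
  refine Continuous.mul ?_ continuous_const
  apply Continuous.matrix_det
  refine continuous_finsetSum _ fun i _ => ?_
  exact (continuous_apply i).smul continuous_const


/-- **Multiplicative weak approximation.** Given units `β q` of `ℚ_q ⊗ L` for `q` in a finite set
`T` and a unit `β'` of `ℝ ⊗ L`, there is `x ∈ Lˣ` with `x / β q ∈ 1 + q^{N q} locInt` for `q ∈ T`
and with `x / β'` of positive norm. -/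
theorem exists_unit_approx (T : Finset Nat.Primes) (β : ∀ q : Nat.Primes, (LocAlg L q)ˣ)
    (β' : (ArchAlg L)ˣ) (N : Nat.Primes → ℕ) :
    ∃ x : Lˣ,
      (∀ q ∈ T, ∃ w ∈ locInt L q, ((locUnit L q x : (LocAlg L q)ˣ) : LocAlg L q) *
        (((β q)⁻¹ : (LocAlg L q)ˣ) : LocAlg L q) = 1 + ((pv q : ℤ_[pv q]) ^ (N q)) • w) ∧
      0 < Algebra.norm ℝ (((archUnit L x : (ArchAlg L)ˣ) : ArchAlg L) *
        ((β'⁻¹ : (ArchAlg L)ˣ) : ArchAlg L)) := by
  have h1 : ∀ q : Nat.Primes, ∃ k : ℕ, ((pv q : ℤ_[pv q]) ^ k) •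
      (((β q)⁻¹ : (LocAlg L q)ˣ) : LocAlg L q) ∈ locInt L q := fun q =>
    exists_pow_smul_mem_locInt L q _
  choose k hk using h1
  -- the archimedean neighbourhood
  set Ψ : (Free.ChooseBasisIndex ℤ (𝓞 L) → ℝ) → ℝ := fun r =>
    Algebra.norm ℝ ((∑ i, r i • archBasis L i) * ((β'⁻¹ : (ArchAlg L)ˣ) : ArchAlg L)) with hΨ
  have hcont : Continuous Ψ := continuous_norm_coord L _
  set r₀ : Free.ChooseBasisIndex ℤ (𝓞 L) → ℝ := fun i => (archBasis L).repr (β' : ArchAlg L) i
    with hr₀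
  have hΨ0 : Ψ r₀ = 1 := by
    simp only [hΨ, hr₀]
    rw [(archBasis L).sum_repr, Units.mul_inv, map_one]
  have hopen : IsOpen (Ψ ⁻¹' Set.Ioi 0) := isOpen_Ioi.preimage hcont
  have hmem : r₀ ∈ Ψ ⁻¹' Set.Ioi 0 := by
    show 0 < Ψ r₀
    rw [hΨ0]; exact one_pos
  obtain ⟨δ, hδ, hball⟩ := Metric.isOpen_iff.1 hopen r₀ hmem
  obtain ⟨c, hc1, hc2⟩ := exists_field_approx L T (fun q => ((β q : (LocAlg L q)ˣ) : LocAlg L q))
    (β' : ArchAlg L) (fun q => N q + k q) δ hδ
  set x₀ : L := ofCoord L c with hx₀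
  have hsum : (∑ i, ((c i : ℚ) : ℝ) • archBasis L i) = (1 : ℝ) ⊗ₜ[ℚ] x₀ := by
    apply (archBasis L).repr.injective
    ext i
    rw [Basis.repr_sum_self, archBasis_repr_one_tmul_ofCoord]
  have hpos : 0 < Algebra.norm ℝ (((1 : ℝ) ⊗ₜ[ℚ] x₀ : ArchAlg L) *
      ((β'⁻¹ : (ArchAlg L)ˣ) : ArchAlg L)) := by
    have hdist : (fun i => ((c i : ℚ) : ℝ)) ∈ Metric.ball r₀ δ := by
      rw [Metric.mem_ball, dist_pi_lt_iff hδ]
      intro i
      rw [Real.dist_eq]
      exact hc2 i
    have := hball hdist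
    change 0 < Ψ (fun i => ((c i : ℚ) : ℝ)) at this
    simp only [hΨ] at this
    rw [hsum] at this
    exact this
  have hx0 : x₀ ≠ 0 := by
    intro h0
    rw [h0, TensorProduct.tmul_zero, zero_mul, Algebra.norm_zero] at hpos
    exact lt_irrefl _ hpos
  refine ⟨Units.mk0 x₀ hx0, fun q hq => ?_, ?_⟩
  · obtain ⟨w, hw, hw2⟩ := hc1 q hq
    refine ⟨w * (((pv q : ℤ_[pv q]) ^ (k q)) • (((β q)⁻¹ : (LocAlg L q)ˣ) : LocAlg L q)),
      mul_mem hw (hk q), ?_⟩
    rw [val_locUnit, Units.val_mk0]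
    have h2 : ((1 : ℚ_[pv q]) ⊗ₜ[ℚ] x₀ : LocAlg L q) =
        ((β q : (LocAlg L q)ˣ) : LocAlg L q) + ((pv q : ℤ_[pv q]) ^ (N q + k q)) • w := by
      rw [← hw2]; ring
    rw [h2, add_mul, Units.mul_inv, pow_add, mul_smul, smul_mul_assoc, smul_mul_assoc,
      mul_smul_comm]
  · rw [val_archUnit, Units.val_mk0]
    exact hpos

end FieldApprox

end Fermat.Agent.Lib.CFT.Global.ArtinCyc
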