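/-
helper70 (P-CFT, WP Global/ArtinCyclotomic, part 2: the Galois side).

* `cycloRange L M m : Subgroup (ZMod m)ˣ` : the image of `Gal(M/L)` under the cyclotomic character
  (units `u` such that some `σ` raises all `m`-th roots of unity to the power `u`);
* `exists_mem_cycloRange_eq_absNorm` : (Frobenius) for `M = L(ζ_m)` and a nonzero prime `P ∌ m` of
  `L`, the class of `N(P)` modulo `m` lies in `cycloRange L M m`;
* `primeRes_pow_mem_cycloRange_of_ideal`, `primeRes_zpow_mem_cycloRange_of_unit` : for a rational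
  prime `q ∤ m` and `z ∈ Lˣ`, `(q mod m)^{v_q(N_{L/ℚ} z)} ∈ cycloRange L M m`.
-/
import Mathlib
import Fermat.Agent.Lib.CFT.Global.ArtinCyclotomic
import Fermat.Agent.Lib.CFT.Kummer.CyclotomicAuxField
set_option autoImplicit false
set_option linter.unusedSectionVars false

open scoped NumberField

namespace Fermat.Agent.Lib.CFT.Global.ArtinCyc

open Fermat.Agent.Lib.CFT.Global

section CycloRange

theorem pow_val_natCast {M : Type*} [Monoid M] {m : ℕ} [NeZero m] {ζ : M} (hζ : ζ ^ m = 1)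
    (k : ℕ) : ζ ^ ((k : ZMod m).val) = ζ ^ k := by
  rw [ZMod.val_natCast, ← pow_eq_pow_mod k hζ]

theorem pow_val_mul {M : Type*} [Monoid M] {m : ℕ} [NeZero m] {ζ : M} (hζ : ζ ^ m = 1)
    (a b : ZMod m) : ζ ^ ((a * b).val) = (ζ ^ a.val) ^ b.val := by
  rw [ZMod.val_mul, ← pow_eq_pow_mod _ hζ, pow_mul]

/-- The image of `Gal(M/L)` in `(ℤ/m)ˣ` under the cyclotomic character: the units `u` such that
some automorphism of `M/L` raises every `m`-th root of unity of `M` to the power `u`. -/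
def cycloRange (L : Type*) [Field L] (M : Type*) [Field M] [Algebra L M] (m : ℕ) [NeZero m] :
    Subgroup (ZMod m)ˣ where
  carrier := {u | ∃ σ : Gal(M/L), ∀ ζ : M, ζ ^ m = 1 → σ ζ = ζ ^ ((u : (ZMod m)ˣ) : ZMod m).val}
  one_mem' := by
    refine ⟨1, fun ζ hζ => ?_⟩
    have := pow_val_natCast hζ 1
    rw [Nat.cast_one, pow_one] at this
    rw [Units.val_one, this]
    rfl
  mul_mem' := by
    rintro u v ⟨σ, hσ⟩ ⟨τ, hτ⟩
    refine ⟨τ * σ, fun ζ hζ => ?_⟩
    rw [AlgEquiv.mul_apply, hσ ζ hζ, map_pow, hτ ζ hζ, Units.val_mul, mul_comm, pow_val_mul hζ,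
      ← pow_mul]
  inv_mem' := by
    rintro u ⟨σ, hσ⟩
    refine ⟨σ⁻¹, fun ζ hζ => ?_⟩
    set ζ' := σ⁻¹ ζ with hζ'
    have h1 : ζ' ^ m = 1 := by rw [hζ', ← map_pow, hζ, map_one]
    have h2 : σ ζ' = ζ := by rw [hζ']; exact AlgEquiv.apply_symm_apply σ ζ
    have h3 : ζ = ζ' ^ ((u : (ZMod m)ˣ) : ZMod m).val := by rw [← h2, hσ ζ' h1]
    have h4 := pow_val_mul h1 ((u : (ZMod m)ˣ) : ZMod m) ((u⁻¹ : (ZMod m)ˣ) : ZMod m)
    rw [← Units.val_mul, mul_inv_cancel, Units.val_one] at h4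
    have h5 := pow_val_natCast h1 1
    rw [Nat.cast_one, pow_one] at h5
    rw [h5, ← h3] at h4
    exact h4

theorem mem_cycloRange {L : Type*} [Field L] {M : Type*} [Field M] [Algebra L M] {m : ℕ}
    [NeZero m] {u : (ZMod m)ˣ} :
    u ∈ cycloRange L M m ↔
      ∃ σ : Gal(M/L), ∀ ζ : M, ζ ^ m = 1 → σ ζ = ζ ^ ((u : (ZMod m)ˣ) : ZMod m).val := Iff.rfl

/-- If an automorphism raises all `m`-th roots of unity to the `N`-th power, then `N` is a unit
modulo `m` and belongs to `cycloRange`. -/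
theorem exists_mem_cycloRange_of_forall_pow {L : Type*} [Field L] {M : Type*} [Field M]
    [Algebra L M] {m : ℕ} [NeZero m] [IsCyclotomicExtension {m} L M] (σ : Gal(M/L)) (N : ℕ)
    (h : ∀ ζ : M, ζ ^ m = 1 → σ ζ = ζ ^ N) :
    ∃ u ∈ cycloRange L M m, ((u : (ZMod m)ˣ) : ZMod m) = (N : ZMod m) := by
  have hz := IsCyclotomicExtension.zeta_spec m L M
  set μ := IsCyclotomicExtension.zeta m L M
  set u := hz.autToPow L σ with hu
  have h1 : μ ^ ((u : (ZMod m)ˣ) : ZMod m).val = σ μ := hz.autToPow_spec L σ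
  have h2 : ((u : (ZMod m)ˣ) : ZMod m) = (N : ZMod m) := by
    rw [h μ hz.pow_eq_one, ← pow_val_natCast hz.pow_eq_one N] at h1
    have h3 := hz.pow_inj (ZMod.val_lt _) (ZMod.val_lt _) h1
    exact ZMod.val_injective m h3
  refine ⟨u, ⟨σ, fun ζ hζ => ?_⟩, h2⟩
  rw [h ζ hζ, h2, pow_val_natCast hζ]

end CycloRange

section Frobenius

variable (L : Type) [Field L] [NumberField L] (M : Type*) [Field M] [NumberField M] [Algebra L M]
  (m : ℕ) [NeZero m] [IsCyclotomicExtension {m} L M]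

/-- **Frobenius**: the absolute norm of a nonzero prime of `L` not containing `m` lies in the image
of `Gal(L(ζ_m)/L)` in `(ℤ/m)ˣ`. -/
theorem exists_mem_cycloRange_eq_absNorm (P : Ideal (𝓞 L)) [P.IsPrime] (hP0 : P ≠ ⊥)
    (hmP : (m : 𝓞 L) ∉ P) :
    ∃ u ∈ cycloRange L M m, ((u : (ZMod m)ˣ) : ZMod m) = (Ideal.absNorm P : ZMod m) := by
  have : IsGalois L M := IsCyclotomicExtension.isGalois {m} L M
  obtain ⟨Q, -, hQp, hQ⟩ := Ideal.exists_ideal_over_prime_of_isIntegral P (⊥ : Ideal (𝓞 M))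
    (by
      rw [Ideal.comap_bot_of_injective _ (FaithfulSMul.algebraMap_injective (𝓞 L) (𝓞 M))]
      exact bot_le)
  have hQ0 : Q ≠ ⊥ := by
    rintro rfl
    apply hP0
    rw [← hQ, Ideal.comap_bot_of_injective _ (FaithfulSMul.algebraMap_injective (𝓞 L) (𝓞 M))]
  have hfin : Finite (𝓞 M ⧸ Q) := Ideal.finiteQuotientOfFreeOfNeBot Q hQ0
  obtain ⟨σ, hσ⟩ := IsArithFrobAt.exists_of_isInvariant (𝓞 L) Gal(M/L) Q
  have hmQ : (m : 𝓞 M) ∉ Q := by
    intro h
    apply hmP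
    rw [← hQ, Ideal.mem_comap, map_natCast]
    exact h
  have hunder : Q.under (𝓞 L) = P := hQ
  have hcard : Nat.card (𝓞 L ⧸ Q.under (𝓞 L)) = Ideal.absNorm P := by
    rw [hunder, Ideal.absNorm_apply, Submodule.cardQuot_apply]
  apply exists_mem_cycloRange_of_forall_pow σ
  intro ζ hζ
  rw [← hcard]
  exact CyclotomicAux.apply_eq_pow_card_of_isArithFrobAt m M hmQ hσ hζ


theorem primeRes_pow_mem_cycloRange_of_prime (q : Nat.Primes) (hq : ¬ pv q ∣ m)
    (P : Ideal (𝓞 L)) [P.IsPrime] (hP0 : P ≠ ⊥) :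
    (primeRes m q) ^ (padicValNat (pv q) (Ideal.absNorm P)) ∈ cycloRange L M m := by
  have hmax : P.IsMaximal := Ideal.IsPrime.isMaximal inferInstance hP0
  letI := Ideal.Quotient.field P
  have hfin : Finite (𝓞 L ⧸ P) := Ideal.finiteQuotientOfFreeOfNeBot P hP0
  letI := Fintype.ofFinite (𝓞 L ⧸ P)
  have hpp : IsPrimePow (Ideal.absNorm P) := by
    rw [Ideal.absNorm_apply, Submodule.cardQuot_apply, Nat.card_eq_fintype_card]
    exact FiniteField.isPrimePow_card (𝓞 L ⧸ P)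
  obtain ⟨p, k, hp, hk, hpk⟩ := hpp
  have hp' : p.Prime := Nat.prime_iff.2 hp
  by_cases hpq : p = pv q
  · subst hpq
    have hval : padicValNat (pv q) (Ideal.absNorm P) = k := by
      rw [← hpk, padicValNat.prime_pow]
    have hmP : (m : 𝓞 L) ∉ P := by
      intro hmem
      have h1 : ((Ideal.absNorm P : ℕ) : 𝓞 L) ∈ P := by
        have := Ideal.absNorm_mem P
        exact_mod_cast this
      have hcop : Nat.Coprime (pv q ^ k) m :=
        Nat.Coprime.pow_left _ ((pv_prime q).coprime_iff_not_dvd.2 hq)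
      obtain ⟨a, b, hab⟩ := Nat.isCoprime_iff_coprime.2 hcop
      have h2 : ((a : ℤ) : 𝓞 L) * ((pv q ^ k : ℕ) : 𝓞 L) + ((b : ℤ) : 𝓞 L) * ((m : ℕ) : 𝓞 L) = 1 := by
        have := congrArg (fun z : ℤ => (z : 𝓞 L)) hab
        push_cast at this ⊢
        exact this
      have h3 : (1 : 𝓞 L) ∈ P := by
        rw [← h2]
        refine P.add_mem (P.mul_mem_left _ ?_) (P.mul_mem_left _ hmem)
        rw [hpk]; exact h1
      exact (Ideal.IsPrime.ne_top inferInstance) ((Ideal.eq_top_iff_one P).2 h3)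
    obtain ⟨u, hu, huN⟩ := exists_mem_cycloRange_eq_absNorm L M m P hP0 hmP
    have : (primeRes m q) ^ k = u := by
      apply Units.ext
      rw [Units.val_pow_eq_pow_val, primeRes_of_not_dvd m hq, huN, ← hpk]
      push_cast
      rfl
    rw [hval, this]
    exact hu
  · have hval : padicValNat (pv q) (Ideal.absNorm P) = 0 := by
      rw [← hpk, padicValNat.pow p k]
      have := Fact.mk hp'
      rw [padicValNat_primes (p := pv q) (q := p) (fun h => hpq h.symm), mul_zero]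
    rw [hval, pow_zero]
    exact one_mem _

theorem primeRes_pow_mem_cycloRange_of_ideal (q : Nat.Primes) (hq : ¬ pv q ∣ m)
    (I : Ideal (𝓞 L)) (hI : I ≠ ⊥) :
    (primeRes m q) ^ (padicValNat (pv q) (Ideal.absNorm I)) ∈ cycloRange L M m := by
  induction I using UniqueFactorizationMonoid.induction_on_prime with
  | h₁ => exact absurd rfl hI
  | h₂ I hI' =>
    rw [Ideal.isUnit_iff] at hI'
    rw [hI', Ideal.absNorm_top, padicValNat_one_right, pow_zero]
    exact one_mem _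
  | h₃ I P hI0 hP ih =>
    have hP0 : P ≠ ⊥ := hP.ne_zero
    haveI : P.IsPrime := (Ideal.prime_iff_isPrime hP0).1 hP
    have h1 : Ideal.absNorm P ≠ 0 := by rw [Ne, Ideal.absNorm_eq_zero_iff]; exact hP0
    have h2 : Ideal.absNorm I ≠ 0 := by rw [Ne, Ideal.absNorm_eq_zero_iff]; exact hI0
    rw [map_mul, padicValNat.mul h1 h2, pow_add]
    exact mul_mem (primeRes_pow_mem_cycloRange_of_prime L M m q hq P hP0) (ih hI0)

theorem primeRes_zpow_mem_cycloRange_of_integer (q : Nat.Primes) (hq : ¬ pv q ∣ m)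
    (a : 𝓞 L) (ha : a ≠ 0) :
    (primeRes m q) ^ (padicValRat (pv q) (Algebra.norm ℚ (a : L))) ∈ cycloRange L M m := by
  have h1 : Algebra.norm ℚ (a : L) = ((Algebra.norm ℤ a : ℤ) : ℚ) := (Algebra.coe_norm_int a).symm
  rw [h1, padicValRat.of_int, padicValInt, ← Ideal.absNorm_span_singleton, zpow_natCast]
  apply primeRes_pow_mem_cycloRange_of_ideal L M m q hq
  rw [Ne, Ideal.span_singleton_eq_bot]
  exact ha

theorem primeRes_zpow_mem_cycloRange_of_unit (q : Nat.Primes) (hq : ¬ pv q ∣ m) (z : Lˣ) :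
    (primeRes m q) ^ (padicValRat (pv q) (Algebra.norm ℚ (z : L))) ∈ cycloRange L M m := by
  obtain ⟨a, b, hb, hab⟩ : ∃ a b : 𝓞 L, b ≠ 0 ∧ (z : L) = (a : L) / (b : L) := by
    obtain ⟨⟨a, b⟩, h⟩ := IsLocalization.surj (nonZeroDivisors (𝓞 L)) (z : L)
    refine ⟨a, b, nonZeroDivisors.ne_zero b.2, ?_⟩
    have hb0 : ((b : 𝓞 L) : L) ≠ 0 := by simp
    rw [eq_div_iff hb0]
    simpa using h
  have hb0 : ((b : 𝓞 L) : L) ≠ 0 := by simpa using hb
  have ha0 : ((a : 𝓞 L) : L) ≠ 0 := by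
    intro h0
    rw [h0, zero_div] at hab
    exact z.ne_zero hab
  have ha' : a ≠ 0 := by rintro rfl; simp at ha0
  have hNa : Algebra.norm ℚ (a : L) ≠ 0 := by rw [Ne, Algebra.norm_eq_zero_iff]; exact ha0
  have hNb : Algebra.norm ℚ (b : L) ≠ 0 := by rw [Ne, Algebra.norm_eq_zero_iff]; exact hb0
  have hNz : Algebra.norm ℚ (z : L) ≠ 0 := by rw [Ne, Algebra.norm_eq_zero_iff]; exact z.ne_zero
  have hmul : Algebra.norm ℚ (z : L) * Algebra.norm ℚ (b : L) = Algebra.norm ℚ (a : L) := by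
    rw [← map_mul, hab, div_mul_cancel₀ _ hb0]
  have hval : padicValRat (pv q) (Algebra.norm ℚ (z : L)) =
      padicValRat (pv q) (Algebra.norm ℚ (a : L)) - padicValRat (pv q) (Algebra.norm ℚ (b : L)) := by
    rw [← hmul, padicValRat.mul hNz hNb]
    ring
  rw [hval, zpow_sub]
  exact mul_mem (primeRes_zpow_mem_cycloRange_of_integer L M m q hq a ha')
    (inv_mem (primeRes_zpow_mem_cycloRange_of_integer L M m q hq b hb))

end Frobenius

end Fermat.Agent.Lib.CFT.Global.ArtinCyc
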