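/-
helper70 (P-CFT, WP Global/ArtinCyclotomic, part 4: the main theorems).

* `omega_mem_cycloRange` : for a number field `L` and `M = L(ζ_m)`, the cyclotomic character
  `omega L m` of the ideles of `L` takes values in the image `cycloRange L M m` of `Gal(M/L)`;
* for `K` with `Φ_m` irreducible over `K`, `M = K(ζ_m)` :
  `artinCycTop K M m hirr : Idele K →* Gal(M/K)` (characterised by
  `artinCycTop_apply_of_pow_eq_one`), `artinCyc K M m hirr L : Idele K →* Gal(L/K)` for an
  intermediate field `L`, `artinCyc_principal`, `artinCycClass`, `artinCyc_norm` (kills norms from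
  `L`), `artinCyc_smul`, `cycloRange_eq_map_fixingSubgroup`, `artinCyc_surjective_of_omega`.
-/
import Mathlib
import Fermat.Agent.Lib.CFT.Global.ArtinCyclotomicFrob
import Fermat.Agent.Lib.CFT.Global.ArtinCyclotomicApprox

set_option autoImplicit false
set_option linter.unusedSectionVars false

open scoped NumberField TensorProduct

namespace Fermat.Agent.Lib.CFT.Global.ArtinCyc

open Fermat.Agent.Lib.CFT.Global Polynomial

section Main

theorem padic_norm_inv_sub_one_le {q : Nat.Primes} {e : ℚ_[pv q]} {ρ : ℝ} (hρ : ρ < 1)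
    (he : ‖e - 1‖ ≤ ρ) : ‖e⁻¹ - 1‖ ≤ ρ ∧ ‖e‖ = 1 := by
  have h1 : ‖e - 1‖ < ‖(1 : ℚ_[pv q])‖ := by rw [norm_one]; exact lt_of_le_of_lt he hρ
  have h2 : ‖e‖ = 1 := by rw [Padic.norm_eq_of_norm_sub_lt_right h1, norm_one]
  have he0 : e ≠ 0 := by
    intro h0; rw [h0, norm_zero] at h2; exact zero_ne_one h2
  refine ⟨?_, h2⟩
  have h3 : e⁻¹ - 1 = (1 - e) / e := by field_simp
  rw [h3, norm_div, h2, div_one, norm_sub_rev]
  exact he

theorem norm_natCast_padic (q : Nat.Primes) {m : ℕ} (hm : m ≠ 0) :
    ‖(m : ℚ_[pv q])‖ = ((pv q : ℝ) ^ (m.factorization (pv q)))⁻¹ := by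
  have h0 : (m : ℚ_[pv q]) ≠ 0 := by exact_mod_cast hm
  rw [Padic.norm_eq_zpow_neg_valuation h0, Padic.valuation_natCast,
    ← Nat.factorization_def m (pv_prime q), zpow_neg, zpow_natCast]

theorem finite_setOf_dvd {m : ℕ} (hm : m ≠ 0) : {q : Nat.Primes | pv q ∣ m}.Finite := by
  have : {q : Nat.Primes | pv q ∣ m} ⊆
      (fun q : Nat.Primes => (q : ℕ)) ⁻¹' (m.divisors : Set ℕ) := by
    intro q hq
    simp only [Set.mem_preimage, Finset.mem_coe, Nat.mem_divisors]
    exact ⟨hq, hm⟩
  exact Set.Finite.subset (Set.Finite.preimage (Nat.Primes.coe_nat_injective.injOn)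
    (Finset.finite_toSet _)) this

variable (L : Type) [Field L] [NumberField L] (M : Type*) [Field M] [Algebra L M]
  (m : ℕ) [NeZero m] [IsCyclotomicExtension {m} L M]

/-- **The cyclotomic character of the ideles of `L` takes values in the image of `Gal(L(ζ_m)/L)`.**
Equivalently: the Artin map of `K(ζ_m)/K` kills the norms from every intermediate field `L`. -/
theorem omega_mem_cycloRange (b : Idele L) : omega L m b ∈ cycloRange L M m := by
  have hNF : NumberField M := IsCyclotomicExtension.numberField {m} L M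
  have hm0 : m ≠ 0 := NeZero.ne m
  set T : Finset Nat.Primes := ((finite_setOf_dvd hm0).union b.2).toFinset with hTdef
  have hT : ∀ q : Nat.Primes, q ∈ T ↔ (pv q ∣ m ∨ b.1.1 q ∉ locIntUnits L q) := by
    intro q
    rw [hTdef, Set.Finite.mem_toFinset]
    rfl
  set N : Nat.Primes → ℕ := fun q => m.factorization (pv q) + 1 with hN
  obtain ⟨x, hx1, hx2⟩ := exists_unit_approx L T (fun q => b.1.1 q) b.1.2 N
  set b' : Idele L := b * (principal L x)⁻¹ with hb'
  have hω : omega L m b = omega L m b' := by
    rw [hb', map_mul, map_inv, omega_principal, inv_one, mul_one]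
  rw [hω, omega_apply]
  -- components of `b'`
  have hcomp : ∀ q : Nat.Primes, b'.1.1 q = (locUnit L q x * (b.1.1 q)⁻¹)⁻¹ := by
    intro q
    show b.1.1 q * ((principal L x)⁻¹ : Idele L).1.1 q = _
    rw [mul_inv_rev, inv_inv]
    rfl
  have hcomp' : b'.1.2 = (archUnit L x * (b.1.2)⁻¹)⁻¹ := by
    show b.1.2 * ((principal L x)⁻¹ : Idele L).1.2 = _
    rw [mul_inv_rev, inv_inv]
    rfl
  have hq1 : ∀ q : Nat.Primes, (1 : ℝ) < (pv q : ℝ) := fun q => by
    exact_mod_cast (pv_prime q).one_lt
  -- the local norms at the primes of `T`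
  have hloc : ∀ q ∈ T, ‖((locNorm L q (b'.1.1 q) : ℚ_[pv q]ˣ) : ℚ_[pv q]) - 1‖ ≤
      ((pv q : ℝ) ^ (N q))⁻¹ ∧ ‖((locNorm L q (b'.1.1 q) : ℚ_[pv q]ˣ) : ℚ_[pv q])‖ = 1 := by
    intro q hq
    obtain ⟨w, hw, hw2⟩ := hx1 q hq
    rw [hcomp q, map_inv, Units.val_inv_eq_inv_val, val_locNorm, Units.val_mul, hw2]
    have h1 := norm_norm_one_add_smul_sub_one_le L q ((pv q : ℤ_[pv q]) ^ (N q)) hw
    have h2 : ‖((pv q : ℤ_[pv q]) ^ (N q))‖ = ((pv q : ℝ) ^ (N q))⁻¹ := by
      rw [PadicInt.norm_def]
      push_cast
      exact norm_prime_pow q (N q)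
    rw [h2] at h1
    have h3 : ((pv q : ℝ) ^ (N q))⁻¹ < 1 := by
      apply inv_lt_one_of_one_lt₀
      exact one_lt_pow₀ (hq1 q) (by simp [hN])
    have := padic_norm_inv_sub_one_le h3 h1
    refine ⟨this.1, ?_⟩
    rw [norm_inv, this.2, inv_one]
  -- positivity at infinity
  have hpos : 0 < (((ideleNormQ L b' : QIdele).1.2 : ℝˣ) : ℝ) := by
    rw [ideleNormQ_snd, hcomp', map_inv, Units.val_inv_eq_inv_val, val_archNorm, Units.val_mul]
    exact inv_pos.2 hx2
  -- congruence at the primes dividing `m`
  have hcongr : ∀ q : Nat.Primes, pv q ∣ m →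
      ‖(((ideleNormQ L b' : QIdele).1.1 q : ℚ_[pv q]ˣ) : ℚ_[pv q]) - 1‖ ≤ ‖(m : ℚ_[pv q])‖ := by
    intro q hq
    rw [ideleNormQ_fst, norm_natCast_padic q hm0]
    refine le_trans (hloc q ((hT q).2 (Or.inl hq))).1 ?_
    have hpos' : (0 : ℝ) < (pv q : ℝ) ^ (m.factorization (pv q)) := by
      have := hq1 q
      positivity
    apply inv_anti₀ hpos'
    exact pow_le_pow_right₀ (hq1 q).le (Nat.le_succ _)
  rw [qOmega_eq_fsPow m _ hpos hcongr]
  apply fsPow_mem
  intro q hfq
  rw [qValFinsupp_apply, ideleNormQ_fst] at hfq ⊢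
  by_cases hqT : q ∈ T
  · exfalso
    apply hfq
    rw [← norm_eq_one_iff_valuation_eq_zero q (Units.ne_zero _)]
    exact (hloc q hqT).2
  · have hqm : ¬ pv q ∣ m := fun h => hqT ((hT q).2 (Or.inl h))
    have hbq : b.1.1 q ∈ locIntUnits L q := by
      by_contra h
      exact hqT ((hT q).2 (Or.inr h))
    have hval : (((locNorm L q (b'.1.1 q) : ℚ_[pv q]ˣ) : ℚ_[pv q])).valuation =
        - padicValRat (pv q) (Algebra.norm ℚ (x : L)) := by
      have h1 : qVal q (locNorm L q (b'.1.1 q)) =
          (qVal q (ratToPadic q (fieldNorm L x)))⁻¹ := by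
        have : b'.1.1 q = b.1.1 q * (locUnit L q x)⁻¹ := by
          rw [hcomp q, mul_inv_rev, inv_inv, mul_comm]
        rw [this, map_mul, map_mul, qVal_locNorm_of_mem_locIntUnits L q hbq, one_mul, map_inv,
          map_inv, locNorm_locUnit]
      rw [qVal_ratToPadic, qVal_apply] at h1
      have h2 := congrArg Multiplicative.toAdd h1
      rw [toAdd_ofAdd, toAdd_inv, toAdd_ofAdd] at h2
      rw [h2, val_fieldNorm]
    rw [hval, zpow_neg]
    exact inv_mem (primeRes_zpow_mem_cycloRange_of_unit L M m q hqm x)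

end Main

section Artin

/-- A cyclotomic extension is cyclotomic over every intermediate base. -/
theorem isCyclotomicExtension_tower_top (K L M : Type*) [Field K] [Field L] [Field M]
    [Algebra K L] [Algebra L M] [Algebra K M] [IsScalarTower K L M] (m : ℕ) [NeZero m]
    [IsCyclotomicExtension {m} K M] : IsCyclotomicExtension {m} L M := by
  rw [IsCyclotomicExtension.iff_singleton]
  have h := (IsCyclotomicExtension.iff_singleton m K M).1 inferInstance
  refine ⟨h.1, fun x => ?_⟩
  have hx := h.2 x
  induction hx using Algebra.adjoin_induction with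
  | mem y hy => exact Algebra.subset_adjoin hy
  | algebraMap r =>
    rw [IsScalarTower.algebraMap_apply K L M]
    exact Subalgebra.algebraMap_mem _ _
  | add y z _ _ hy hz => exact add_mem hy hz
  | mul y z _ _ hy hz => exact mul_mem hy hz

variable (K : Type) [Field K] [NumberField K] (M : Type) [Field M] [Algebra K M]
  (m : ℕ) [NeZero m] [IsCyclotomicExtension {m} K M] (hirr : Irreducible (cyclotomic m K))

/-- The Artin map of the cyclotomic extension `M = K(ζ_m)` of `K` (for `Φ_m` irreducible over `K`):
the automorphism attached to an idele raises the `m`-th roots of unity to the power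
`omega K m a`. -/
noncomputable def artinCycTop : Idele K →* Gal(M/K) :=
  (IsCyclotomicExtension.autEquivPow M hirr).symm.toMonoidHom.comp (omega K m)

theorem autEquivPow_artinCycTop (a : Idele K) :
    IsCyclotomicExtension.autEquivPow M hirr (artinCycTop K M m hirr a) = omega K m a := by
  show IsCyclotomicExtension.autEquivPow M hirr
    ((IsCyclotomicExtension.autEquivPow M hirr).symm (omega K m a)) = _
  exact MulEquiv.apply_symm_apply _ _

/-- The characterisation of the Artin map on roots of unity. -/
theorem artinCycTop_apply_of_pow_eq_one (a : Idele K) {ζ : M} (hζ : ζ ^ m = 1) :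
    artinCycTop K M m hirr a ζ = ζ ^ ((omega K m a : (ZMod m)ˣ) : ZMod m).val := by
  rw [CyclotomicAux.autEquivPow_spec m M hirr _ hζ, autEquivPow_artinCycTop]

theorem artinCycTop_principal (x : Kˣ) : artinCycTop K M m hirr (principal K x) = 1 := by
  show (IsCyclotomicExtension.autEquivPow M hirr).symm (omega K m (principal K x)) = 1
  rw [omega_principal, map_one]

/-- The image of the subgroup fixing an intermediate field under the cyclotomic character is
the `cycloRange` of the top extension. -/
theorem cycloRange_eq_map_fixingSubgroup (L : IntermediateField K M) :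
    cycloRange L M m = (L.fixingSubgroup).map
      (IsCyclotomicExtension.autEquivPow M hirr).toMonoidHom := by
  ext u
  rw [mem_cycloRange, Subgroup.mem_map]
  constructor
  · rintro ⟨σ, hσ⟩
    set τ' : L.fixingSubgroup := (IntermediateField.fixingSubgroupEquiv L).symm σ with hτ'
    refine ⟨τ'.1, τ'.2, ?_⟩
    have hz := IsCyclotomicExtension.zeta_spec m K M
    set τ : Gal(M/K) := τ'.1 with hτ
    have h1 : τ (IsCyclotomicExtension.zeta m K M) = σ (IsCyclotomicExtension.zeta m K M) := rfl
    have h2 := CyclotomicAux.autEquivPow_spec m M hirr τ hz.pow_eq_one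
    rw [h1, hσ _ hz.pow_eq_one] at h2
    have h3 := hz.pow_inj (ZMod.val_lt _) (ZMod.val_lt _) h2
    apply Units.ext
    exact (ZMod.val_injective m h3).symm
  · rintro ⟨τ, hτ, rfl⟩
    refine ⟨IntermediateField.fixingSubgroupEquiv L ⟨τ, hτ⟩, fun ζ hζ => ?_⟩
    have h2 := CyclotomicAux.autEquivPow_spec m M hirr τ hζ
    exact h2

/-- The Artin map of an intermediate field `L` of `K(ζ_m)/K`. -/
noncomputable def artinCyc (L : IntermediateField K M) [Normal K L] : Idele K →* Gal(L/K) :=
  (AlgEquiv.restrictNormalHom L).comp (artinCycTop K M m hirr)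

theorem artinCyc_apply (L : IntermediateField K M) [Normal K L] (a : Idele K) :
    artinCyc K M m hirr L a = AlgEquiv.restrictNormalHom L (artinCycTop K M m hirr a) := rfl

theorem artinCyc_principal (L : IntermediateField K M) [Normal K L] (x : Kˣ) :
    artinCyc K M m hirr L (principal K x) = 1 := by
  rw [artinCyc_apply, artinCycTop_principal, map_one]

/-- The Artin map of `L/K` as a map on the idele class group. -/
noncomputable def artinCycClass (L : IntermediateField K M) [Normal K L] :
    IdeleClass K →* Gal(L/K) :=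
  QuotientGroup.lift (principal K).range (artinCyc K M m hirr L) (by
    rintro _ ⟨x, rfl⟩
    exact artinCyc_principal K M m hirr L x)

@[simp] theorem artinCycClass_mk (L : IntermediateField K M) [Normal K L] (a : Idele K) :
    artinCycClass K M m hirr L (QuotientGroup.mk a) = artinCyc K M m hirr L a := rfl

/-- **The Artin map kills norms**: for an intermediate field `L` of `K(ζ_m)/K` and any
homomorphism `N : Idele L → Idele K` compatible with the local norms to `ℚ_q` and `ℝ` (e.g. the
idele norm), the Artin map of `L/K` is trivial on the image of `N`. -/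
theorem artinCyc_norm (L : IntermediateField K M) [Normal K L] [NumberField M]
    (N : Idele L →* Idele K)
    (hN : ∀ (b : Idele L) (q : Nat.Primes), locNorm K q ((N b).1.1 q) = locNorm L q (b.1.1 q))
    (hN' : ∀ b : Idele L, archNorm K (N b).1.2 = archNorm L b.1.2) (b : Idele L) :
    artinCyc K M m hirr L (N b) = 1 := by
  have : IsCyclotomicExtension {m} L M := isCyclotomicExtension_tower_top K L M m
  have h1 : omega K m (N b) ∈ cycloRange L M m := by
    rw [omega_comp_norm K m N hN hN' b]
    exact omega_mem_cycloRange L M m b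
  rw [cycloRange_eq_map_fixingSubgroup K M m hirr L, Subgroup.mem_map] at h1
  obtain ⟨τ, hτ, hτ2⟩ := h1
  have h2 : artinCycTop K M m hirr (N b) = τ := by
    apply (IsCyclotomicExtension.autEquivPow M hirr).injective
    rw [autEquivPow_artinCycTop]
    exact hτ2.symm
  rw [artinCyc_apply, h2]
  ext x
  rw [AlgEquiv.restrictNormalHom_apply]
  exact hτ ⟨x, x.2⟩

/-- Invariance of the Artin map under automorphisms of `K`. -/
theorem artinCycTop_smul (G : Type) [Group G] [MulSemiringAction G K] (g : G) (a : Idele K) :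
    artinCycTop K M m hirr (g • a) = artinCycTop K M m hirr a := by
  simp only [artinCycTop, MonoidHom.comp_apply, omega_smul]

theorem artinCyc_smul (L : IntermediateField K M) [Normal K L] (G : Type) [Group G]
    [MulSemiringAction G K] (g : G) (a : Idele K) :
    artinCyc K M m hirr L (g • a) = artinCyc K M m hirr L a := by
  rw [artinCyc_apply, artinCyc_apply, artinCycTop_smul]

/-- If `omega K m` is onto, so is the Artin map of every intermediate field. -/
theorem artinCyc_surjective_of_omega (L : IntermediateField K M) [Normal K L]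
    (h : Function.Surjective (omega K m)) : Function.Surjective (artinCyc K M m hirr L) := by
  have : IsGalois K M := IsCyclotomicExtension.isGalois {m} K M
  intro σ
  obtain ⟨τ, rfl⟩ := AlgEquiv.restrictNormalHom_surjective M σ
  obtain ⟨a, ha⟩ := h (IsCyclotomicExtension.autEquivPow M hirr τ)
  refine ⟨a, ?_⟩
  rw [artinCyc_apply]
  congr 1
  apply (IsCyclotomicExtension.autEquivPow M hirr).injective
  rw [autEquivPow_artinCycTop, ha]

end Artin

end Fermat.Agent.Lib.CFT.Global.ArtinCyc
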