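/-
helper70 (P-CFT, WP Global/ArtinCyclotomic, part 5: glue with helper96's `ideleNorm` and explicit
formulas for `omega K m`).

* `omega_ideleNorm` : `omega K m (ideleNorm K L b) = omega L m b`;
* `omega_ideleMap` : `omega L m (ideleMap (algebraMap K L) a) = omega K m a ^ [L : K]` (base change);
* `artinCyc_ideleNorm` : the Artin map of `L ⊆ K(ζ_m)` kills `ideleNorm K L`;
* `omega_eq_fsPow`, `omega_of_support_single` : explicit formulas (unramified primes).
-/
import Mathlib
import Fermat.Agent.Lib.CFT.Global.ArtinCyclotomicMain
import Fermat.Agent.Lib.CFT.Global.IdeleNorm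

set_option autoImplicit false
set_option linter.unusedSectionVars false

open scoped NumberField TensorProduct

namespace Fermat.Agent.Lib.CFT.Global.ArtinCyc

open Fermat.Agent.Lib.CFT.Global Polynomial

section Glue

variable (K L : Type) [Field K] [NumberField K] [Field L] [NumberField L] [Algebra K L]
  (m : ℕ) [NeZero m]

/-- Compatibility of the cyclotomic characters with the idele norm of helper96. -/
theorem omega_ideleNorm (b : Idele L) : omega K m (ideleNorm K L b) = omega L m b := by
  apply omega_comp_norm K m (ideleNorm K L)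
  · intro b q
    apply Units.ext
    rw [val_locNorm, val_locNorm, ideleNorm_fst]
    exact norm_locRelNorm K L q _
  · intro b
    apply Units.ext
    rw [val_archNorm, val_archNorm, ideleNorm_snd]
    exact norm_archRelNorm K L _

/-- Base change on ideles coming from `K`: the cyclotomic character of `L` on the image of an idele
of `K` is the `[L : K]`-th power of the cyclotomic character of `K`. -/
theorem omega_ideleMap (a : Idele K) :
    omega L m (ideleMap (algebraMap K L) a) = omega K m a ^ Module.finrank K L := by
  rw [← omega_ideleNorm K L m, ideleNorm_ideleMap, map_pow]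

end Glue

section GlueArtin

variable (K : Type) [Field K] [NumberField K] (M : Type) [Field M] [NumberField M] [Algebra K M]
  (m : ℕ) [NeZero m] [IsCyclotomicExtension {m} K M] (hirr : Irreducible (cyclotomic m K))

/-- The Artin map of an intermediate field `L` of `K(ζ_m)/K` kills the idele norms from `L`. -/
theorem artinCyc_ideleNorm (L : IntermediateField K M) [Normal K L] (b : Idele L) :
    artinCyc K M m hirr L (ideleNorm K L b) = 1 := by
  apply artinCyc_norm K M m hirr L (ideleNorm K L)
  · intro b q
    apply Units.ext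
    rw [val_locNorm, val_locNorm, ideleNorm_fst]
    exact norm_locRelNorm K L q _
  · intro b
    apply Units.ext
    rw [val_archNorm, val_archNorm, ideleNorm_snd]
    exact norm_archRelNorm K L _

end GlueArtin

section ExplicitK

variable (K : Type) [Field K] [NumberField K] (m : ℕ) [NeZero m]

/-- **Explicit formula** for the cyclotomic character of `K`: on an idele whose archimedean
component has positive norm and whose components at the primes dividing `m` have norm congruent
to `1` modulo `m`, it is `∏_{q ∤ m} (q mod m)^{v_q(N a_q)}`. -/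
theorem omega_eq_fsPow (a : Idele K) (hpos : 0 < Algebra.norm ℝ ((a.1.2 : (ArchAlg K)ˣ) : ArchAlg K))
    (hcongr : ∀ q : Nat.Primes, pv q ∣ m →
      ‖Algebra.norm ℚ_[pv q] ((a.1.1 q : (LocAlg K q)ˣ) : LocAlg K q) - 1‖ ≤ ‖(m : ℚ_[pv q])‖) :
    omega K m a = fsPow (primeRes m) (qValFinsupp (ideleNormQ K a)) := by
  rw [omega_apply]
  apply qOmega_eq_fsPow
  · rw [ideleNormQ_snd, val_archNorm]
    exact hpos
  · intro q hq
    rw [ideleNormQ_fst, val_locNorm]
    exact hcongr q hq

/-- The value of the cyclotomic character on an idele supported at a single prime `q₀ ∤ m`: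
it is `(q₀ mod m)^{v_{q₀}(N a_{q₀})}` (in terms of places: `∏_{v ∣ q₀} Frob_v^{ord_v a_v}`). -/
theorem omega_of_support_single (a : Idele K) (q₀ : Nat.Primes) (hq₀ : ¬ pv q₀ ∣ m)
    (h1 : ∀ q : Nat.Primes, q ≠ q₀ → a.1.1 q = 1) (h2 : a.1.2 = 1) :
    omega K m a = primeRes m q₀ ^
      (Algebra.norm ℚ_[pv q₀] ((a.1.1 q₀ : (LocAlg K q₀)ˣ) : LocAlg K q₀)).valuation := by
  have hfs : qValFinsupp (ideleNormQ K a) = Multiplicative.ofAdd (Finsupp.single q₀
      (Algebra.norm ℚ_[pv q₀] ((a.1.1 q₀ : (LocAlg K q₀)ˣ) : LocAlg K q₀)).valuation) := by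
    apply Multiplicative.toAdd.injective
    ext q
    rw [qValFinsupp_apply, ideleNormQ_fst, val_locNorm, toAdd_ofAdd, Finsupp.single_apply]
    by_cases hq : q₀ = q
    · subst hq
      rw [if_pos rfl]
    · rw [if_neg hq, h1 q (Ne.symm hq), Units.val_one, map_one, Padic.valuation_one]
  rw [omega_eq_fsPow K m a, hfs, fsPow_single]
  · rw [h2, Units.val_one, map_one]
    exact one_pos
  · intro q hq
    have hne : q ≠ q₀ := by
      rintro rfl
      exact hq₀ hq
    rw [h1 q hne, Units.val_one, map_one, sub_self, norm_zero]
    exact norm_nonneg _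

end ExplicitK

end Fermat.Agent.Lib.CFT.Global.ArtinCyc
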