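/-
helper70 (P-CFT, WP Global/ArtinCyclotomic, part 7: step (1) of the general surjectivity of the
cyclotomic Artin character, package (I4d')).

For a number field `K`, any `m ≥ 1` and a nonzero prime `P` of `𝓞 K` not containing `m`, the
class of the absolute norm of `P` modulo `m` is a value of `omega K m : Idele K →* (ZMod m)ˣ`:

* `not_dvd_absNorm_of_sup_span_eq_top` : an ideal coprime to `p` has absolute norm prime to `p`;
* `exists_padicValNat_absNorm_span_eq` : there is `y ∈ 𝓞 K`, `y ≠ 0`, with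
  `v_p(N y) = v_p(absNorm P)` (for `p ∈ P`);
* `exists_omega_eq_absNorm` : `∃ a : Idele K, (omega K m a : ZMod m) = absNorm P`;
* `exists_mem_range_omega_eq_absNorm`, `exists_mem_range_omega_inf_cycloRange` : reformulations.
-/
import Mathlib
import Fermat.Agent.Lib.CFT.Global.ArtinCyclotomicNorm

set_option autoImplicit false
set_option linter.unusedSectionVars false

open scoped NumberField TensorProduct

namespace Fermat.Agent.Lib.CFT.Global.ArtinCyc

open Fermat.Agent.Lib.CFT.Global Polynomial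

section AbsNorm

variable (K : Type) [Field K] [NumberField K]

/-- An ideal of the ring of integers which is coprime to the rational prime `p` has absolute norm
prime to `p`. -/
theorem not_dvd_absNorm_of_sup_span_eq_top (J : Ideal (𝓞 K)) (hJ : J ≠ ⊥) (p : ℕ) [Fact p.Prime]
    (h : J ⊔ Ideal.span {(p : 𝓞 K)} = ⊤) : ¬ p ∣ Ideal.absNorm J := by
  intro hd
  have hfin : Finite (𝓞 K ⧸ J) := Ideal.finiteQuotientOfFreeOfNeBot J hJ
  rw [Ideal.absNorm_apply, Submodule.cardQuot_apply] at hd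
  obtain ⟨x, hx⟩ := exists_prime_addOrderOf_dvd_card' p hd
  have hx0 : x ≠ 0 := by
    rintro rfl
    rw [addOrderOf_zero] at hx
    exact (Fact.out : p.Prime).one_lt.ne hx
  have hpx : p • x = 0 := by
    rw [← hx]
    exact addOrderOf_nsmul_eq_zero x
  obtain ⟨j, hj, r, hr, hjr⟩ := Submodule.mem_sup.1 ((Ideal.eq_top_iff_one _).1 h)
  obtain ⟨s, rfl⟩ := Ideal.mem_span_singleton'.1 hr
  apply hx0
  obtain ⟨z, rfl⟩ := Ideal.Quotient.mk_surjective x
  have h1 : Ideal.Quotient.mk J j = 0 := Ideal.Quotient.eq_zero_iff_mem.2 hj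
  have h2 : Ideal.Quotient.mk J z = Ideal.Quotient.mk J ((j + s * (p : 𝓞 K)) * z) := by
    rw [hjr, one_mul]
  rw [h2, map_mul, map_add, h1, zero_add, map_mul, mul_assoc, map_natCast, ← nsmul_eq_mul, hpx,
    mul_zero]

/-- For a nonzero prime `P` of the ring of integers over the rational prime `p`, there is a
nonzero integer `y` of `K` whose norm has the same `p`-adic valuation as the absolute norm of
`P`: a generator of `P` locally at `P` which is a unit at the other primes over `p`. -/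
theorem exists_padicValNat_absNorm_span_eq (P : Ideal (𝓞 K)) [P.IsPrime] (hP0 : P ≠ ⊥) (p : ℕ)
    [Fact p.Prime] (hp : (p : 𝓞 K) ∈ P) :
    ∃ y : 𝓞 K, y ≠ 0 ∧ padicValNat p (Ideal.absNorm (Ideal.span {y})) =
      padicValNat p (Ideal.absNorm P) := by
  have hp0 : (p : 𝓞 K) ≠ 0 := by
    have : (p : ℕ) ≠ 0 := (Fact.out : p.Prime).ne_zero
    exact_mod_cast this
  have hI0 : P * Ideal.span {(p : 𝓞 K)} ≠ 0 := by
    apply mul_ne_zero hP0
    rw [Ne, Ideal.zero_eq_bot, Ideal.span_singleton_eq_bot]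
    exact hp0
  obtain ⟨y, hy⟩ := IsDedekindDomain.exists_sup_span_eq (I := P * Ideal.span {(p : 𝓞 K)}) (J := P)
    Ideal.mul_le_left hI0
  have hyP : Ideal.span {y} ≤ P := by
    rw [← hy]; exact le_sup_right
  obtain ⟨J, hJ⟩ := Ideal.dvd_iff_le.2 hyP
  have hcop : J ⊔ Ideal.span {(p : 𝓞 K)} = ⊤ := by
    have h1 : P * (Ideal.span {(p : 𝓞 K)} ⊔ J) = P * ⊤ := by
      rw [Ideal.mul_sup, ← hJ, hy, Ideal.mul_top]
    have h2 := mul_left_cancel₀ hP0 h1
    rw [sup_comm]; exact h2
  have hPtop : P ≠ ⊤ := Ideal.IsPrime.ne_top inferInstance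
  have hJ0 : J ≠ ⊥ := by
    rintro rfl
    rw [bot_sup_eq] at hcop
    apply hPtop
    rw [eq_top_iff, ← hcop, Ideal.span_singleton_le_iff_mem]
    exact hp
  have hy0 : y ≠ 0 := by
    rintro rfl
    have : P * J = ⊥ := by rw [← hJ]; simp
    rcases mul_eq_zero.1 this with h | h
    · exact hP0 h
    · exact hJ0 h
  refine ⟨y, hy0, ?_⟩
  have hnP : Ideal.absNorm P ≠ 0 := by rw [Ne, Ideal.absNorm_eq_zero_iff]; exact hP0
  have hnJ : Ideal.absNorm J ≠ 0 := by rw [Ne, Ideal.absNorm_eq_zero_iff]; exact hJ0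
  rw [hJ, map_mul, padicValNat.mul hnP hnJ,
    padicValNat.eq_zero_of_not_dvd (not_dvd_absNorm_of_sup_span_eq_top K J hJ0 p hcop), add_zero]

end AbsNorm

section Main

variable (K : Type) [Field K] [NumberField K] (m : ℕ) [NeZero m]

/-- **The absolute norms of the primes not dividing `m` are values of the cyclotomic character**
of the ideles of `K` (the idele is a uniformizer at `P`, and `1` at all other places). -/
theorem exists_omega_eq_absNorm (P : Ideal (𝓞 K)) [P.IsPrime] (hP0 : P ≠ ⊥)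
    (hmP : (m : 𝓞 K) ∉ P) :
    ∃ a : Idele K, ((omega K m a : (ZMod m)ˣ) : ZMod m) = (Ideal.absNorm P : ZMod m) := by
  classical
  have hmax : P.IsMaximal := Ideal.IsPrime.isMaximal inferInstance hP0
  let _ := Ideal.Quotient.field P
  have hfin : Finite (𝓞 K ⧸ P) := Ideal.finiteQuotientOfFreeOfNeBot P hP0
  let _ := Fintype.ofFinite (𝓞 K ⧸ P)
  have hpp : IsPrimePow (Ideal.absNorm P) := by
    rw [Ideal.absNorm_apply, Submodule.cardQuot_apply, Nat.card_eq_fintype_card]
    exact FiniteField.isPrimePow_card (𝓞 K ⧸ P)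
  obtain ⟨p, k, hp, hk, hpk⟩ := hpp
  have hp' : p.Prime := Nat.prime_iff.2 hp
  have : Fact p.Prime := ⟨hp'⟩
  have hpP : (p : 𝓞 K) ∈ P := by
    have h1 : ((Ideal.absNorm P : ℕ) : 𝓞 K) ∈ P := by
      have := Ideal.absNorm_mem P
      exact_mod_cast this
    rw [← hpk] at h1
    push_cast at h1
    exact Ideal.IsPrime.mem_of_pow_mem inferInstance k h1
  have hpm : ¬ p ∣ m := by
    rintro ⟨d, rfl⟩
    apply hmP
    push_cast
    exact P.mul_mem_right _ hpP
  set q₀ : Nat.Primes := ⟨p, hp'⟩ with hq₀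
  have hpv : pv q₀ = p := rfl
  obtain ⟨y, hy0, hy⟩ := exists_padicValNat_absNorm_span_eq K P hP0 p hpP
  have hyK : ((y : 𝓞 K) : K) ≠ 0 := by
    intro h0; apply hy0
    apply NumberField.RingOfIntegers.coe_injective
    rw [map_zero]; exact h0
  set X : Nat.Primes → Kˣ := fun q => if q = q₀ then Units.mk0 (y : K) hyK else 1 with hX
  have hX0 : X q₀ = Units.mk0 (y : K) hyK := by simp only [hX, if_pos rfl]
  have hX1 : ∀ q : Nat.Primes, q ≠ q₀ → X q = 1 := by
    intro q hq; simp only [hX, if_neg hq]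
  have hfinS : {q : Nat.Primes | locUnit K q (X q) ∉ locIntUnits K q}.Finite := by
    refine (Set.finite_singleton q₀).subset ?_
    intro q hq
    by_contra h
    apply hq
    rw [hX1 q h, map_one]
    exact one_mem _
  set a : Idele K := ⟨(fun q => locUnit K q (X q), 1), hfinS⟩ with ha
  refine ⟨a, ?_⟩
  have hsupp : ∀ q : Nat.Primes, q ≠ q₀ → a.1.1 q = 1 := by
    intro q hq
    show locUnit K q (X q) = 1
    rw [hX1 q hq, map_one]
  rw [omega_of_support_single K m a q₀ hpm hsupp rfl]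
  have h1 : (a.1.1 q₀ : (LocAlg K q₀)ˣ) = locUnit K q₀ (Units.mk0 (y : K) hyK) := by
    show locUnit K q₀ (X q₀) = _
    rw [hX0]
  have h2 : (Algebra.norm ℚ_[pv q₀] ((a.1.1 q₀ : (LocAlg K q₀)ˣ) : LocAlg K q₀)).valuation
      = (k : ℤ) := by
    rw [h1, ← val_locNorm, locNorm_locUnit, val_ratToPadic, val_fieldNorm, Units.val_mk0,
      ← Algebra.coe_norm_int]
    have h3 : (((Algebra.norm ℤ y : ℤ) : ℚ) : ℚ_[pv q₀]) = ((Algebra.norm ℤ y : ℤ) : ℚ_[pv q₀]) := by
      push_cast; rfl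
    rw [h3, Padic.valuation_intCast, padicValInt, ← Ideal.absNorm_span_singleton]
    show ((padicValNat p (Ideal.absNorm (Ideal.span {y})) : ℕ) : ℤ) = k
    rw [hy, ← hpk, padicValNat.prime_pow]
  have hpm' : ¬ pv q₀ ∣ m := hpm
  rw [h2, zpow_natCast, Units.val_pow_eq_pow_val, primeRes_of_not_dvd m hpm', ← hpk]
  push_cast
  rfl

/-- The same statement in terms of the range of `omega`. -/
theorem exists_mem_range_omega_eq_absNorm (P : Ideal (𝓞 K)) [P.IsPrime] (hP0 : P ≠ ⊥)
    (hmP : (m : 𝓞 K) ∉ P) :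
    ∃ u ∈ (omega K m).range, ((u : (ZMod m)ˣ) : ZMod m) = (Ideal.absNorm P : ZMod m) := by
  obtain ⟨a, ha⟩ := exists_omega_eq_absNorm K m P hP0 hmP
  exact ⟨omega K m a, ⟨a, rfl⟩, ha⟩

/-- The class of the absolute norm of `P` lies both in the range of `omega` and in the image of
the Galois group of the cyclotomic extension. -/
theorem exists_mem_range_omega_inf_cycloRange (Z : Type*) [Field Z] [NumberField Z] [Algebra K Z]
    [IsCyclotomicExtension {m} K Z] (P : Ideal (𝓞 K)) [P.IsPrime] (hP0 : P ≠ ⊥)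
    (hmP : (m : 𝓞 K) ∉ P) :
    ∃ u ∈ (omega K m).range ⊓ cycloRange K Z m,
      ((u : (ZMod m)ˣ) : ZMod m) = (Ideal.absNorm P : ZMod m) := by
  obtain ⟨u, hu, hu'⟩ := exists_mem_range_omega_eq_absNorm K m P hP0 hmP
  obtain ⟨w, hw, hw'⟩ := exists_mem_cycloRange_eq_absNorm K Z m P hP0 hmP
  have : u = w := Units.ext (hu'.trans hw'.symm)
  exact ⟨u, ⟨hu, this ▸ hw⟩, hu'⟩

end Main

end Fermat.Agent.Lib.CFT.Global.ArtinCyc
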