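import Mathlib
import Fermat.Agent.Lib.CFT.Global.ArtinCyclotomicNorm
import Fermat.Agent.Lib.CFT.Global.SecondIneq.ConsequencesCyclicAll

/-!
# The kernel of the cyclotomic Artin map is the norm group (helper96, P-CFT)

`K` a number field, `M = K(ζ_m)` with `Φ_m` irreducible over `K`, `L` an intermediate field which
is cyclic over `K`.  If the Artin map `artinCyc : J_K → Gal(L/K)` of helper70 is onto, then its
kernel is `Kˣ · N_{L/K} J_L`, and it induces `C_K / N C_L ≃ Gal(L/K)`.
-/

set_option autoImplicit false

open scoped NumberField

noncomputable section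

namespace Fermat.Agent.Lib.CFT.Global.ArtinCyc

open Fermat.Agent.Lib.CFT.Global Polynomial
open Fermat.Agent.Lib.CFT.Global.SecondIneq.Consequences

variable (K : Type) [Field K] [NumberField K] (M : Type) [Field M] [NumberField M] [Algebra K M]
  (m : ℕ) [NeZero m] [IsCyclotomicExtension {m} K M] (hirr : Irreducible (cyclotomic m K))
  (L : IntermediateField K M) [Normal K L]

/-- The Artin map on idele classes kills the norms. -/
theorem range_ideleClassNorm_le_ker_artinCycClass :
    (ideleClassNorm K L).range ≤ (artinCycClass K M m hirr L).ker := by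
  rintro _ ⟨c, rfl⟩
  induction c using QuotientGroup.induction_on with
  | H b =>
    rw [MonoidHom.mem_ker, ideleClassNorm_mk]
    exact artinCyc_ideleNorm K M m hirr L b

omit [NumberField M] in
theorem artinCycClass_surjective (hsurj : Function.Surjective (artinCyc K M m hirr L)) :
    Function.Surjective (artinCycClass K M m hirr L) := by
  intro σ
  obtain ⟨a, ha⟩ := hsurj σ
  exact ⟨QuotientGroup.mk a, ha⟩

/-- **Artin reciprocity for subfields of `K(ζ_m)`**, from the norm index: if the Artin map is onto
and `[C_K : N C_L] = [L : K]` then the kernel of the Artin map on `C_K` is the norm group. -/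
theorem ker_artinCycClass_eq_range_norm
    (hsurj : Function.Surjective (artinCyc K M m hirr L))
    (hidx : (ideleClassNorm K L).range.index = Module.finrank K L) :
    (artinCycClass K M m hirr L).ker = (ideleClassNorm K L).range := by
  have hgal : IsGalois K L := ⟨⟩
  have hle := range_ideleClassNorm_le_ker_artinCycClass K M m hirr L
  have h2 : (artinCycClass K M m hirr L).ker.index = Module.finrank K L := by
    rw [Subgroup.index_ker,
      MonoidHom.range_eq_top.2 (artinCycClass_surjective K M m hirr L hsurj),
      Nat.card_congr Subgroup.topEquiv.toEquiv, IsGalois.card_aut_eq_finrank]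
  have h3 := Subgroup.relIndex_mul_index hle
  rw [hidx, h2] at h3
  have hpos : 0 < Module.finrank K L := Module.finrank_pos
  have h4 : (ideleClassNorm K L).range.relIndex (artinCycClass K M m hirr L).ker = 1 :=
    Nat.eq_of_mul_eq_mul_right hpos (h3.trans (one_mul _).symm)
  exact le_antisymm (Subgroup.relIndex_eq_one.1 h4) hle

/-- The kernel of the Artin map on ideles is `Kˣ · N J_L`. -/
theorem ker_artinCyc_eq (hsurj : Function.Surjective (artinCyc K M m hirr L))
    (hidx : (ideleClassNorm K L).range.index = Module.finrank K L) :
    (artinCyc K M m hirr L).ker = (principal K).range ⊔ (ideleNorm K L).range := by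
  rw [← comap_range_ideleClassNorm, ← ker_artinCycClass_eq_range_norm K M m hirr L hsurj hidx]
  ext a
  rw [Subgroup.mem_comap, MonoidHom.mem_ker, MonoidHom.mem_ker]
  rfl

/-- An idele has trivial Artin symbol iff it is a principal idele times a norm. -/
theorem artinCyc_eq_one_iff (hsurj : Function.Surjective (artinCyc K M m hirr L))
    (hidx : (ideleClassNorm K L).range.index = Module.finrank K L) (a : Idele K) :
    artinCyc K M m hirr L a = 1 ↔ ∃ (x : Kˣ) (b : Idele L), a = principal K x * ideleNorm K L b := by
  rw [← MonoidHom.mem_ker, ker_artinCyc_eq K M m hirr L hsurj hidx, Subgroup.mem_sup]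
  constructor
  · rintro ⟨_, ⟨x, rfl⟩, _, ⟨b, rfl⟩, h⟩
    exact ⟨x, b, h.symm⟩
  · rintro ⟨x, b, rfl⟩
    exact ⟨_, ⟨x, rfl⟩, _, ⟨b, rfl⟩, rfl⟩

/-- The norm group is normal (instance search does not find this by itself). -/
instance normal_range_ideleClassNorm (K L : Type) [Field K] [NumberField K] [Field L]
    [NumberField L] [Algebra K L] : (ideleClassNorm K L).range.Normal :=
  ⟨fun n hn g => by
    have h : g * n * g⁻¹ = n := by rw [mul_comm g n, mul_inv_cancel_right]
    rw [h]
    exact hn⟩

/-- The isomorphism `C_K / N C_L ≃ Gal(L/K)` induced by the Artin map. -/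
def artinCycEquiv (hsurj : Function.Surjective (artinCyc K M m hirr L))
    (hidx : (ideleClassNorm K L).range.index = Module.finrank K L) :
    IdeleClass K ⧸ (ideleClassNorm K L).range ≃* Gal(L/K) :=
  (QuotientGroup.quotientMulEquivOfEq
    (ker_artinCycClass_eq_range_norm K M m hirr L hsurj hidx).symm).trans
    (QuotientGroup.quotientKerEquivOfSurjective _
      (artinCycClass_surjective K M m hirr L hsurj))

theorem artinCycEquiv_mk (hsurj : Function.Surjective (artinCyc K M m hirr L))
    (hidx : (ideleClassNorm K L).range.index = Module.finrank K L) (c : IdeleClass K) :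
    artinCycEquiv K M m hirr L hsurj hidx (QuotientGroup.mk c) =
      artinCycClass K M m hirr L c := rfl

/-! ### Cyclic subfields: the index comes from the two inequalities -/

section Cyclic

variable [IsCyclic Gal(L/K)]

/-- For a cyclic subfield `L` of `K(ζ_m)` with surjective Artin map: kernel `=` norm group. -/
theorem ker_artinCycClass_of_isCyclic (h1 : FirstIneqHerbrand) (hP : PrimeLayersGood)
    (hsurj : Function.Surjective (artinCyc K M m hirr L)) :
    (artinCycClass K M m hirr L).ker = (ideleClassNorm K L).range := by
  have hgal : IsGalois K L := ⟨⟩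
  exact ker_artinCycClass_eq_range_norm K M m hirr L hsurj
    (index_ideleClassNorm_of_isCyclic K L h1 hP)

theorem ker_artinCyc_of_isCyclic (h1 : FirstIneqHerbrand) (hP : PrimeLayersGood)
    (hsurj : Function.Surjective (artinCyc K M m hirr L)) :
    (artinCyc K M m hirr L).ker = (principal K).range ⊔ (ideleNorm K L).range := by
  have hgal : IsGalois K L := ⟨⟩
  exact ker_artinCyc_eq K M m hirr L hsurj (index_ideleClassNorm_of_isCyclic K L h1 hP)

theorem artinCyc_eq_one_iff_of_isCyclic (h1 : FirstIneqHerbrand) (hP : PrimeLayersGood)
    (hsurj : Function.Surjective (artinCyc K M m hirr L)) (a : Idele K) :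
    artinCyc K M m hirr L a = 1 ↔ ∃ (x : Kˣ) (b : Idele L), a = principal K x * ideleNorm K L b := by
  have hgal : IsGalois K L := ⟨⟩
  exact artinCyc_eq_one_iff K M m hirr L hsurj (index_ideleClassNorm_of_isCyclic K L h1 hP) a

end Cyclic

end Fermat.Agent.Lib.CFT.Global.ArtinCyc
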