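import Mathlib
import Fermat.Agent.Lib.CFT.Global.ArtinCyclotomicMain

/-!
# Surjectivity of the cyclotomic Artin character

For a number field `K` and `m` prime to the discriminant of `K`, the character
`omega K m : Idele K →* (ZMod m)ˣ` is onto, and so is the Artin map `artinCyc` of every
intermediate field of `K(ζ_m)/K`.

The proof is purely local at the primes `p ∣ m`: as `p` does not divide the discriminant, the
ring `𝓞 K / p` is reduced (the trace form is nondegenerate modulo `p`), hence a product of finite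
fields, hence its norm to `𝔽_p` is onto (`norm_surjective_of_isReduced`); a Hensel style lifting
with the trace (`exists_norm_sub_dvd_prime_pow`) gives integers of `K` of norm congruent to any
prescribed residue prime to `p` modulo any power of `p`.  The idele with these integers at the
primes dividing `m` and `1` elsewhere has the prescribed value under `omega`.

Main statements:
* `norm_surjective_of_isReduced`: the norm of a reduced finite algebra over a finite field is onto.
* `isReduced_zmod_tensor`: `𝓞 K / p` is reduced when `p ∤ disc K`.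
* `exists_norm_sub_dvd_prime_pow`: norms of integers hit every residue prime to `p` mod `p ^ j`.
* `omega_surjective`, `artinCyc_surjective`.
-/
set_option autoImplicit false
set_option linter.unusedSectionVars false

open scoped NumberField TensorProduct

namespace Fermat.Agent.Lib.CFT.Global.ArtinCyc

open Fermat.Agent.Lib.CFT.Global Polynomial

section GenericNorm

/-- The norm of a product algebra is the product of the norms. -/
theorem norm_prod_eq {F A B : Type*} [CommRing F] [CommRing A] [CommRing B] [Algebra F A]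
    [Algebra F B] [Module.Free F A] [Module.Finite F A] [Module.Free F B] [Module.Finite F B]
    (a : A) (b : B) :
    Algebra.norm F ((a, b) : A × B) = Algebra.norm F a * Algebra.norm F b := by
  rw [Algebra.norm_apply, Algebra.norm_apply, Algebra.norm_apply, ← LinearMap.det_prodMap]
  congr 1

/-- If a finite algebra over a finite field has an idempotent `ε` such that `(1 - ε)` generates a
maximal ideal, then its norm is onto. -/
theorem norm_surjective_of_idempotent {F A : Type*} [Field F] [Finite F] [CommRing A]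
    [Algebra F A] [Module.Finite F A] (ε : A) (hε : ε * ε = ε)
    (hmax : (Ideal.span {1 - ε}).IsMaximal) :
    Function.Surjective (Algebra.norm F : A → F) := by
  set I : Ideal A := Ideal.span {1 - ε} with hI
  set J : Ideal A := Ideal.span {ε} with hJ
  have hεI : Ideal.Quotient.mk I ε = 1 := by
    have : Ideal.Quotient.mk I (1 - ε) = 0 :=
      Ideal.Quotient.eq_zero_iff_mem.2 (Ideal.subset_span rfl)
    rw [map_sub, map_one, sub_eq_zero] at this
    exact this.symm
  have hεJ : Ideal.Quotient.mk J ε = 0 :=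
    Ideal.Quotient.eq_zero_iff_mem.2 (Ideal.subset_span rfl)
  let φ : A →ₐ[F] (A ⧸ I) × (A ⧸ J) :=
    AlgHom.prod (Ideal.Quotient.mkₐ F I) (Ideal.Quotient.mkₐ F J)
  have hφ : ∀ a, φ a = (Ideal.Quotient.mk I a, Ideal.Quotient.mk J a) := fun a => rfl
  have hinj : Function.Injective φ := by
    rw [injective_iff_map_eq_zero]
    intro a ha
    rw [hφ, Prod.mk_eq_zero, Ideal.Quotient.eq_zero_iff_mem, Ideal.Quotient.eq_zero_iff_mem,
      hI, hJ, Ideal.mem_span_singleton', Ideal.mem_span_singleton'] at ha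
    obtain ⟨⟨x, hx⟩, ⟨y, hy⟩⟩ := ha
    have h1 : a * ε = 0 := by
      rw [← hx, mul_assoc, sub_mul, one_mul, hε, sub_self, mul_zero]
    have h2 : a * ε = a := by
      rw [← hy, mul_assoc, hε]
    rw [← h2, h1]
  have hsurj : Function.Surjective φ := by
    rintro ⟨x, y⟩
    obtain ⟨x, rfl⟩ := Ideal.Quotient.mk_surjective x
    obtain ⟨y, rfl⟩ := Ideal.Quotient.mk_surjective y
    refine ⟨x * ε + y * (1 - ε), ?_⟩
    rw [hφ, map_add, map_mul, map_mul, map_sub, map_one, hεI, map_add, map_mul, map_mul, map_sub,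
      map_one, hεJ]
    simp
  let e : A ≃ₐ[F] (A ⧸ I) × (A ⧸ J) := AlgEquiv.ofBijective φ ⟨hinj, hsurj⟩
  have hfinA : Finite A := Module.finite_of_finite F
  have hfinQ : Finite (A ⧸ I) := Finite.of_surjective _ (Ideal.Quotient.mk_surjective (I := I))
  letI : Field (A ⧸ I) := Ideal.Quotient.field I
  intro c
  obtain ⟨g, hg⟩ := FiniteField.norm_surjective F (A ⧸ I) c
  refine ⟨e.symm (g, 1), ?_⟩
  rw [← Algebra.norm_eq_of_algEquiv e, AlgEquiv.apply_symm_apply, norm_prod_eq, hg, map_one,
    mul_one]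

/-- A nontrivial reduced Artinian ring has an idempotent `ε` such that `1 - ε` generates a maximal
ideal. -/
theorem exists_idempotent_span_isMaximal (A : Type*) [CommRing A] [IsArtinianRing A] [IsReduced A]
    [Nontrivial A] : ∃ ε : A, ε * ε = ε ∧ (Ideal.span {1 - ε}).IsMaximal := by
  classical
  obtain ⟨M, hM⟩ := Ideal.exists_maximal A
  let m₀ : MaximalSpectrum A := ⟨M, hM⟩
  let e := IsArtinianRing.equivPi A
  set ε : A := e.symm (Pi.single m₀ 1) with hε
  have heε : e ε = Pi.single m₀ 1 := by rw [hε, AlgEquiv.apply_symm_apply]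
  have hidem : ε * ε = ε := by
    apply e.injective
    rw [map_mul, heε, ← Pi.single_mul, one_mul]
  refine ⟨ε, hidem, ?_⟩
  have hspan : Ideal.span {1 - ε} = M := by
    apply le_antisymm
    · rw [Ideal.span_le, Set.singleton_subset_iff, SetLike.mem_coe,
        ← Ideal.Quotient.eq_zero_iff_mem]
      have h1 : e (1 - ε) m₀ = 0 := by
        rw [map_sub, map_one, heε, Pi.sub_apply, Pi.one_apply, Pi.single_eq_same, sub_self]
      exact h1
    · intro x hx
      have h1 : x * ε = 0 := by
        apply e.injective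
        rw [map_mul, heε, map_zero]
        funext m
        rw [Pi.mul_apply, Pi.zero_apply]
        by_cases hm : m = m₀
        · subst hm
          have : e x m₀ = 0 := Ideal.Quotient.eq_zero_iff_mem.2 hx
          rw [this, zero_mul]
        · rw [Pi.single_eq_of_ne hm, mul_zero]
      have h2 : x = x * (1 - ε) := by rw [mul_sub, mul_one, h1, sub_zero]
      rw [h2]
      exact Ideal.mul_mem_left _ _ (Ideal.subset_span rfl)
  rw [hspan]
  exact hM

/-- The norm of a nontrivial reduced finite algebra over a finite field is onto. -/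
theorem norm_surjective_of_isReduced {F A : Type*} [Field F] [Finite F] [CommRing A]
    [Algebra F A] [Module.Finite F A] [IsReduced A] [Nontrivial A] :
    Function.Surjective (Algebra.norm F : A → F) := by
  have : IsArtinianRing A := IsArtinianRing.of_finite F A
  obtain ⟨ε, hε, hmax⟩ := exists_idempotent_span_isMaximal A
  exact norm_surjective_of_idempotent ε hε hmax

end GenericNorm

section ModP

variable (K : Type) [Field K] [NumberField K] (p : ℕ) [Fact p.Prime]


/-- The norm of `1 ⊗ x` in a base change is the image of the norm of `x` (copy for this file). -/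
theorem norm_one_tmul' {R A B : Type*} [CommRing R] [CommRing A] [Algebra R A] [Ring B]
    [Algebra R B] [Module.Free R B] [Module.Finite R B] (x : B) :
    Algebra.norm A ((1 : A) ⊗ₜ[R] x) = algebraMap R A (Algebra.norm R x) := by
  rw [Algebra.norm_apply, Algebra.norm_apply, ← Algebra.baseChange_lmul, LinearMap.det_baseChange]

theorem trace_one_tmul' {R A B : Type*} [CommRing R] [CommRing A] [Algebra R A] [CommRing B]
    [Algebra R B] [Module.Free R B] [Module.Finite R B] (x : B) :
    Algebra.trace A (A ⊗[R] B) ((1 : A) ⊗ₜ[R] x) = algebraMap R A (Algebra.trace R B x) := by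
  rw [Algebra.trace_apply, Algebra.trace_apply, ← Algebra.baseChange_lmul,
    LinearMap.trace_baseChange]

theorem exists_one_tmul_eq (a : ZMod p ⊗[ℤ] 𝓞 K) : ∃ x : 𝓞 K, a = (1 : ZMod p) ⊗ₜ[ℤ] x := by
  induction a using TensorProduct.induction_on with
  | zero => exact ⟨0, (TensorProduct.tmul_zero _ _).symm⟩
  | tmul c x =>
    obtain ⟨n, rfl⟩ := ZMod.intCast_surjective c
    refine ⟨n • x, ?_⟩
    rw [← TensorProduct.smul_tmul, zsmul_eq_mul, mul_one]
  | add a b ha hb =>
    obtain ⟨x, rfl⟩ := ha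
    obtain ⟨y, rfl⟩ := hb
    exact ⟨x + y, (TensorProduct.tmul_add _ _ _).symm⟩


open Module in
theorem one_tmul_eq_sum (x : 𝓞 K) :
    ((1 : ZMod p) ⊗ₜ[ℤ] x : ZMod p ⊗[ℤ] 𝓞 K) =
      ∑ i, (((NumberField.RingOfIntegers.basis K).repr x i : ℤ) : ZMod p) •
        ((1 : ZMod p) ⊗ₜ[ℤ] (NumberField.RingOfIntegers.basis K i)) := by
  conv_lhs => rw [← (NumberField.RingOfIntegers.basis K).sum_repr x]
  rw [TensorProduct.tmul_sum]
  refine Finset.sum_congr rfl fun i _ => ?_
  rw [TensorProduct.tmul_smul, Int.cast_smul_eq_zsmul]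

/-- The trace pairing modulo `p` in coordinates. -/
theorem trace_one_tmul_mul_basis (x : 𝓞 K) (j : Module.Free.ChooseBasisIndex ℤ (𝓞 K)) :
    Algebra.trace (ZMod p) (ZMod p ⊗[ℤ] 𝓞 K)
      (((1 : ZMod p) ⊗ₜ[ℤ] x) * ((1 : ZMod p) ⊗ₜ[ℤ] (NumberField.RingOfIntegers.basis K j))) =
    Matrix.vecMul (fun i => (((NumberField.RingOfIntegers.basis K).repr x i : ℤ) : ZMod p))
      ((Algebra.traceMatrix ℤ (NumberField.RingOfIntegers.basis K)).map
        (Int.castRingHom (ZMod p))) j := by
  rw [one_tmul_eq_sum K p x, Finset.sum_mul, map_sum, Matrix.vecMul, dotProduct]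
  refine Finset.sum_congr rfl fun i _ => ?_
  rw [smul_mul_assoc, map_smul, Algebra.TensorProduct.tmul_mul_tmul, one_mul, trace_one_tmul',
    smul_eq_mul, Matrix.map_apply, Algebra.traceMatrix_apply, Algebra.traceForm_apply]
  rfl

theorem det_traceMatrix_map_ne_zero (hp : ¬ (p : ℤ) ∣ NumberField.discr K) :
    ((Algebra.traceMatrix ℤ (NumberField.RingOfIntegers.basis K)).map
      (Int.castRingHom (ZMod p))).det ≠ 0 := by
  rw [← RingHom.mapMatrix_apply, ← RingHom.map_det]
  intro h
  apply hp
  rw [← ZMod.intCast_zmod_eq_zero_iff_dvd]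
  exact h

/-- If `p` does not divide the discriminant, `𝓞 K / p` is reduced. -/
theorem isReduced_zmod_tensor (hp : ¬ (p : ℤ) ∣ NumberField.discr K) :
    IsReduced (ZMod p ⊗[ℤ] 𝓞 K) := by
  constructor
  intro a ha
  obtain ⟨x, rfl⟩ := exists_one_tmul_eq K p a
  have h1 : ∀ j, Algebra.trace (ZMod p) (ZMod p ⊗[ℤ] 𝓞 K)
      (((1 : ZMod p) ⊗ₜ[ℤ] x) * ((1 : ZMod p) ⊗ₜ[ℤ] (NumberField.RingOfIntegers.basis K j))) = 0 := by
    intro j
    have hn : IsNilpotent (((1 : ZMod p) ⊗ₜ[ℤ] x : ZMod p ⊗[ℤ] 𝓞 K) *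
        ((1 : ZMod p) ⊗ₜ[ℤ] (NumberField.RingOfIntegers.basis K j))) :=
      (Commute.all _ _).isNilpotent_mul_right ha
    exact (Algebra.isNilpotent_trace_of_isNilpotent hn).eq_zero
  have h2 : Matrix.vecMul (fun i => (((NumberField.RingOfIntegers.basis K).repr x i : ℤ) : ZMod p))
      ((Algebra.traceMatrix ℤ (NumberField.RingOfIntegers.basis K)).map
        (Int.castRingHom (ZMod p))) = 0 := by
    funext j
    rw [← trace_one_tmul_mul_basis, h1 j]
    rfl
  have h3 := Matrix.eq_zero_of_vecMul_eq_zero (det_traceMatrix_map_ne_zero K p hp) h2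
  rw [one_tmul_eq_sum K p x]
  refine Finset.sum_eq_zero fun i _ => ?_
  have := congrFun h3 i
  simp only [Pi.zero_apply] at this
  rw [this, zero_smul]

/-- **The norm is onto modulo an unramified prime.** -/
theorem exists_norm_sub_dvd_prime (hp : ¬ (p : ℤ) ∣ NumberField.discr K) (c : ℤ) :
    ∃ x : 𝓞 K, (p : ℤ) ∣ Algebra.norm ℤ x - c := by
  have : IsReduced (ZMod p ⊗[ℤ] 𝓞 K) := isReduced_zmod_tensor K p hp
  obtain ⟨a, ha⟩ := norm_surjective_of_isReduced (F := ZMod p) (A := ZMod p ⊗[ℤ] 𝓞 K) (c : ZMod p)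
  obtain ⟨x, rfl⟩ := exists_one_tmul_eq K p a
  refine ⟨x, ?_⟩
  rw [norm_one_tmul', eq_intCast, ZMod.intCast_eq_intCast_iff_dvd_sub] at ha
  rw [← dvd_neg, neg_sub]
  exact ha

/-- The trace is onto modulo an unramified prime. -/
theorem exists_trace_sub_one_dvd_prime (hp : ¬ (p : ℤ) ∣ NumberField.discr K) :
    ∃ y : 𝓞 K, (p : ℤ) ∣ Algebra.trace ℤ (𝓞 K) y - 1 := by
  have hex : ∃ y₀ : 𝓞 K, ¬ (p : ℤ) ∣ Algebra.trace ℤ (𝓞 K) y₀ := by
    by_contra hcon
    push Not at hcon
    apply det_traceMatrix_map_ne_zero K p hp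
    have hz : (Algebra.traceMatrix ℤ (NumberField.RingOfIntegers.basis K)).map
        (Int.castRingHom (ZMod p)) = 0 := by
      ext i j
      rw [Matrix.map_apply, Algebra.traceMatrix_apply, Algebra.traceForm_apply, Matrix.zero_apply,
        eq_intCast, ZMod.intCast_zmod_eq_zero_iff_dvd]
      exact hcon _
    rw [hz]
    exact Matrix.det_zero
  obtain ⟨y₀, hy₀⟩ := hex
  have hprime : Prime (p : ℤ) := Nat.prime_iff_prime_int.1 Fact.out
  have hcop : IsCoprime (Algebra.trace ℤ (𝓞 K) y₀) (p : ℤ) :=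
    (hprime.coprime_iff_not_dvd.2 hy₀).symm
  obtain ⟨u, v, huv⟩ := hcop
  refine ⟨u • y₀, ⟨-v, ?_⟩⟩
  rw [map_smul, smul_eq_mul]
  linear_combination huv


/-- **The norm is onto modulo every power of an unramified prime** (on residues prime to `p`). -/
theorem exists_norm_sub_dvd_prime_pow (hp : ¬ (p : ℤ) ∣ NumberField.discr K) (c : ℤ)
    (hc : ¬ (p : ℤ) ∣ c) (j : ℕ) :
    ∃ x : 𝓞 K, (p : ℤ) ^ j ∣ Algebra.norm ℤ x - c := by
  induction j with
  | zero => exact ⟨1, by simp⟩
  | succ j ih =>
    rcases j with _ | i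
    · obtain ⟨x, hx⟩ := exists_norm_sub_dvd_prime K p hp c
      exact ⟨x, by simpa using hx⟩
    · obtain ⟨x, t, ht⟩ := ih
      obtain ⟨y₁, s, hs⟩ := exists_trace_sub_one_dvd_prime K p hp
      have hprime : Prime (p : ℤ) := Nat.prime_iff_prime_int.1 Fact.out
      obtain ⟨u, v, huv⟩ : IsCoprime c (p : ℤ) := (hprime.coprime_iff_not_dvd.2 hc).symm
      set w : ℤ := -t * u with hw
      set y : 𝓞 K := w • y₁ with hy
      set b₀ : ℤ := (p : ℤ) ^ i with hb₀
      have ha : (p : ℤ) ^ (i + 1) = b₀ * p := by rw [hb₀, pow_succ]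
      have ha2 : (p : ℤ) ^ (i + 1 + 1) = b₀ * p * p := by rw [pow_succ, ha]
      obtain ⟨r, hr⟩ := Algebra.norm_one_add_smul ((p : ℤ) ^ (i + 1)) y
      refine ⟨x * (1 + ((p : ℤ) ^ (i + 1)) • y), ?_⟩
      have hT : Algebra.trace ℤ (𝓞 K) y = w * (1 + p * s) := by
        rw [hy, map_smul, smul_eq_mul]
        have : Algebra.trace ℤ (𝓞 K) y₁ = 1 + p * s := by linarith
        rw [this]
      have hNx : Algebra.norm ℤ x = c + b₀ * p * t := by
        rw [ha] at ht; linarith
      rw [map_mul, hr, hT, hNx, ha, ha2]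
      refine ⟨(t * v - c * t * u * s) +
        b₀ * (c * r + t * (w * (1 + p * s)) + b₀ * p * t * r), ?_⟩
      rw [hw]
      linear_combination (-(b₀ * p * t)) * huv

end ModP

section Surjective

variable (K : Type) [Field K] [NumberField K] (m : ℕ) [NeZero m]

/-- The value of `omega` on an idele whose local norms are units at all primes and which is
positive at infinity: the inverse of the residue of the family of local norms. -/
theorem qUnitAt_coe_of_val_eq_zero (X : QIdele) (hpos : 0 < ((X.1.2 : ℝˣ) : ℝ))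
    (hval : ∀ q : Nat.Primes, ((X.1.1 q : ℚ_[pv q]ˣ) : ℚ_[pv q]).valuation = 0) (q : Nat.Primes) :
    (((qUnitAt q X : ℤ_[pv q]ˣ) : ℤ_[pv q]) : ℚ_[pv q]) = ((X.1.1 q : ℚ_[pv q]ˣ) : ℚ_[pv q]) := by
  have h1 : qValFinsupp X = 1 := by
    apply Multiplicative.toAdd.injective
    ext q'
    rw [qValFinsupp_apply, hval q']
    rfl
  have h2 : qContent X = 1 := by
    rw [qContent_apply, h1, map_one, realSign_of_pos hpos, map_one, one_mul]
  show ((qUnitHom q X : ℚ_[pv q]ˣ) : ℚ_[pv q]) = _
  rw [qUnitHom_apply, h2, map_one, inv_one, mul_one]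

/-- **Surjectivity of the cyclotomic character** of the ideles of `K` onto `(ℤ/m)ˣ` when `m` is
prime to the discriminant of `K` (the local norms on units are onto at the primes dividing `m`). -/
theorem omega_surjective (hm : m.Coprime (NumberField.discr K).natAbs) :
    Function.Surjective (omega K m) := by
  classical
  intro u
  have hm0 : m ≠ 0 := NeZero.ne m
  set c : ℤ := ((((u⁻¹ : (ZMod m)ˣ) : ZMod m).val : ℕ) : ℤ) with hc
  have hcm : Nat.Coprime (((u⁻¹ : (ZMod m)ˣ) : ZMod m).val) m := ZMod.val_coe_unit_coprime u⁻¹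
  have hcu : (c : ZMod m) = ((u⁻¹ : (ZMod m)ˣ) : ZMod m) := by
    rw [hc, Int.cast_natCast, ZMod.natCast_zmod_val]
  -- the local elements
  have H : ∀ q : Nat.Primes, ∃ x : 𝓞 K, pv q ∣ m →
      ((pv q : ℤ) ^ (m.factorization (pv q)) ∣ Algebra.norm ℤ x - c) := by
    intro q
    by_cases h : pv q ∣ m
    · have h1 : ¬ ((pv q : ℕ) : ℤ) ∣ NumberField.discr K := by
        intro hd
        have hd' : pv q ∣ (NumberField.discr K).natAbs := Int.natCast_dvd.1 hd
        have := Nat.Coprime.eq_one_of_dvd (Nat.Coprime.coprime_dvd_left h hm) hd'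
        exact (pv_prime q).one_lt.ne' this
      have h2 : ¬ ((pv q : ℕ) : ℤ) ∣ c := by
        intro hd
        rw [hc, Int.natCast_dvd_natCast] at hd
        have := Nat.Coprime.eq_one_of_dvd (Nat.Coprime.coprime_dvd_left h hcm.symm) hd
        exact (pv_prime q).one_lt.ne' this
      obtain ⟨x, hx⟩ := exists_norm_sub_dvd_prime_pow K (pv q) h1 c h2 (m.factorization (pv q))
      exact ⟨x, fun _ => hx⟩
    · exact ⟨1, fun h' => absurd h' h⟩
  choose x hx using H
  -- the norms are prime to `q`
  have hnq : ∀ q : Nat.Primes, pv q ∣ m → ¬ ((pv q : ℕ) : ℤ) ∣ Algebra.norm ℤ (x q) := by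
    intro q h hd
    have h2 : ¬ ((pv q : ℕ) : ℤ) ∣ c := by
      intro hd
      rw [hc, Int.natCast_dvd_natCast] at hd
      have := Nat.Coprime.eq_one_of_dvd (Nat.Coprime.coprime_dvd_left h hcm.symm) hd
      exact (pv_prime q).one_lt.ne' this
    apply h2
    have hpos : 0 < m.factorization (pv q) :=
      (pv_prime q).factorization_pos_of_dvd hm0 h
    have h3 : ((pv q : ℕ) : ℤ) ∣ Algebra.norm ℤ (x q) - c :=
      dvd_trans (dvd_pow_self _ hpos.ne') (hx q h)
    have := dvd_sub hd h3
    rwa [sub_sub_cancel] at this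
  have hx0 : ∀ q : Nat.Primes, pv q ∣ m → ((x q : 𝓞 K) : K) ≠ 0 := by
    intro q h h0
    apply hnq q h
    have : x q = 0 := by
      apply NumberField.RingOfIntegers.coe_injective
      rw [map_zero]; exact h0
    rw [this, Algebra.norm_zero]
    exact dvd_zero _
  -- the global units
  set X : Nat.Primes → Kˣ := fun q =>
    if h : pv q ∣ m then Units.mk0 ((x q : 𝓞 K) : K) (hx0 q h) else 1 with hX
  have hXpos : ∀ q : Nat.Primes, ∀ h : pv q ∣ m, X q = Units.mk0 ((x q : 𝓞 K) : K) (hx0 q h) := by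
    intro q h
    simp only [hX, dif_pos h]
  have hXneg : ∀ q : Nat.Primes, ¬ pv q ∣ m → X q = 1 := by
    intro q h
    simp only [hX, dif_neg h]
  -- the idele
  have hfin : {q : Nat.Primes | locUnit K q (X q) ∉ locIntUnits K q}.Finite := by
    refine (finite_setOf_dvd hm0).subset ?_
    intro q hq
    by_contra h
    apply hq
    rw [hXneg q h, map_one]
    exact one_mem _
  set a : Idele K := ⟨(fun q => locUnit K q (X q), 1), hfin⟩ with ha
  refine ⟨a, ?_⟩
  -- the local norms
  have hloc : ∀ q : Nat.Primes, (((ideleNormQ K a : QIdele).1.1 q : ℚ_[pv q]ˣ) : ℚ_[pv q]) =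
      if pv q ∣ m then ((Algebra.norm ℤ (x q) : ℤ) : ℚ_[pv q]) else 1 := by
    intro q
    rw [ideleNormQ_fst]
    show ((locNorm K q (locUnit K q (X q)) : ℚ_[pv q]ˣ) : ℚ_[pv q]) = _
    rw [locNorm_locUnit, val_ratToPadic, val_fieldNorm]
    by_cases h : pv q ∣ m
    · rw [if_pos h, hXpos q h, Units.val_mk0, ← Algebra.coe_norm_int]
      push_cast
      rfl
    · rw [if_neg h, hXneg q h, Units.val_one, map_one, Rat.cast_one]
  have hval : ∀ q : Nat.Primes,
      (((ideleNormQ K a : QIdele).1.1 q : ℚ_[pv q]ˣ) : ℚ_[pv q]).valuation = 0 := by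
    intro q
    rw [hloc q]
    by_cases h : pv q ∣ m
    · rw [if_pos h, Padic.valuation_intCast, padicValInt]
      have := hnq q h
      rw [← Int.natAbs_dvd_natAbs, Int.natAbs_natCast] at this
      rw [padicValNat.eq_zero_of_not_dvd this]
      rfl
    · rw [if_neg h, Padic.valuation_one]
  have hpos : 0 < (((ideleNormQ K a : QIdele).1.2 : ℝˣ) : ℝ) := by
    rw [ideleNormQ_snd]
    show 0 < ((archNorm K 1 : ℝˣ) : ℝ)
    rw [map_one, Units.val_one]
    exact one_pos
  have hunit := qUnitAt_coe_of_val_eq_zero (ideleNormQ K a) hpos hval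
  -- the residue
  have hres : zhatRes m ((qUnit (ideleNormQ K a) : (∀ q : Nat.Primes, ℤ_[pv q])ˣ) :
      ∀ q : Nat.Primes, ℤ_[pv q]) = (c : ZMod m) := by
    apply zhatRes_eq_of_isResidue
    intro q
    rw [qUnit_apply]
    by_cases h : pv q ∣ m
    · rw [natCast_dvd_iff q hm0]
      obtain ⟨k, hk⟩ := hx q h
      refine ⟨-(k : ℤ_[pv q]), ?_⟩
      apply PadicInt.ext
      have h1 := hunit q
      rw [hloc q, if_pos h] at h1
      rw [PadicInt.coe_sub, h1]
      have h2 := congrArg (fun z : ℤ => (z : ℚ_[pv q])) hk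
      push_cast at h2 ⊢
      linear_combination -h2
    · exact (natCast_isUnit_of_not_dvd m h).dvd
  rw [omega_apply, qOmega_apply]
  have h3 : Units.map ((zhatRes m : (∀ q : Nat.Primes, ℤ_[pv q]) →+* ZMod m) :
      (∀ q : Nat.Primes, ℤ_[pv q]) →* ZMod m) (qUnit (ideleNormQ K a)) = u⁻¹ := by
    apply Units.ext
    rw [Units.coe_map]
    exact hres.trans hcu
  rw [h3, inv_inv]

/-- The Artin map of every intermediate field of `K(ζ_m)/K` is onto when `m` is prime to the
discriminant of `K`. -/
theorem artinCyc_surjective (M : Type) [Field M] [Algebra K M] [IsCyclotomicExtension {m} K M]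
    (hirr : Irreducible (cyclotomic m K)) (hm : m.Coprime (NumberField.discr K).natAbs)
    (L : IntermediateField K M) [Normal K L] :
    Function.Surjective (artinCyc K M m hirr L) :=
  artinCyc_surjective_of_omega K M m hirr L (omega_surjective K m hm)

end Surjective

end Fermat.Agent.Lib.CFT.Global.ArtinCyc
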