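/-
helper14 (P-CFT).  "Not all primes split": in a cyclic extension `L/K` of number fields there are
infinitely many primes of `K` that are INERT in `L` (decomposition group = the whole Galois
group), in particular some prime outside any finite set `S` of rational primes has a nontrivial
decomposition group, and the decomposition groups outside `S` generate `Gal(L/K)`.

No ideles, no first inequality: this is a direct corollary of the Frobenius density theorem
(`Fermat/Agent/Lib/FrobDensity`, helper62 et al.): the inert primes have positive density.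
-/
import Mathlib
import Fermat.Agent.Lib.FrobDensity.Main

set_option autoImplicit false

namespace Fermat.Agent.Lib.CFT.Global.FirstIneqSplit

open NumberField IsDedekindDomain Fermat.Agent.Lib.FrobDensity
open scoped Pointwise

universe u

variable (K L : Type u) [Field K] [NumberField K] [Field L] [NumberField L] [Algebra K L]
  [IsGalois K L] [IsCyclic Gal(L/K)]

/-- The density of the inert primes is positive. -/
theorem inertConst_pos (n : ℕ) : 0 < ∏ p ∈ n.primeFactors, (1 - 1 / (p : ℝ)) := by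
  refine Finset.prod_pos fun p hp => ?_
  have hp2 : (2 : ℝ) ≤ p := by exact_mod_cast (Nat.prime_of_mem_primeFactors hp).two_le
  have : 1 / (p : ℝ) < 1 := by
    rw [div_lt_one (by linarith)]
    linarith
  linarith

/-- In a cyclic extension of number fields there are infinitely many inert primes. -/
theorem infinite_inertSet : (inertSet K L).Infinite :=
  (inertDensity.{u} K L).infinite (inertConst_pos _)

/-- There is an inert prime of `K` not dividing any of the rational primes in `S`. -/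
theorem exists_inert_outside (S : Finset Nat.Primes) :
    ∃ q : HeightOneSpectrum (𝓞 K), q ∈ inertSet K L ∧
      ∀ ℓ ∈ S, (((ℓ : ℕ) : ℕ) : 𝓞 K) ∉ q.asIdeal := by
  have hfin : {q : HeightOneSpectrum (𝓞 K) | ∃ ℓ ∈ S, (((ℓ : ℕ) : ℕ) : 𝓞 K) ∈ q.asIdeal}.Finite := by
    have : {q : HeightOneSpectrum (𝓞 K) | ∃ ℓ ∈ S, (((ℓ : ℕ) : ℕ) : 𝓞 K) ∈ q.asIdeal} =
        ⋃ ℓ ∈ S, {q : HeightOneSpectrum (𝓞 K) | (((ℓ : ℕ) : ℕ) : 𝓞 K) ∈ q.asIdeal} := by
      ext q
      simp
    rw [this]
    refine Set.Finite.biUnion S.finite_toSet fun ℓ _ => ?_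
    refine FrobGen.finite_setOf_mem ?_
    exact_mod_cast ℓ.2.ne_zero
  obtain ⟨q, hq, hqS⟩ := ((infinite_inertSet K L).sdiff hfin).nonempty
  refine ⟨q, hq, fun ℓ hℓ hmem => hqS ⟨ℓ, hℓ, hmem⟩⟩

/-- Rational prime form: there are a rational prime `ℓ ∉ S` and a prime `Q` of `L` above `ℓ` whose
decomposition group is all of `Gal(L/K)`. -/
theorem exists_prime_stabilizer_eq_top (S : Finset Nat.Primes) :
    ∃ ℓ : Nat.Primes, ℓ ∉ S ∧ ∃ Q : Ideal (𝓞 L), Q.IsPrime ∧ (((ℓ : ℕ) : ℕ) : 𝓞 L) ∈ Q ∧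
      MulAction.stabilizer Gal(L/K) Q = ⊤ := by
  obtain ⟨q, hq, hqS⟩ := exists_inert_outside K L S
  have hℓ : (NonDegOne.ratPrime K q).Prime := NonDegOne.ratPrime_prime K q
  have hmem : ((NonDegOne.ratPrime K q : ℕ) : 𝓞 K) ∈ q.asIdeal := by
    have h := (NonDegOne.liesOver_ratPrime K q).over
    have h1 : ((NonDegOne.ratPrime K q : ℕ) : ℤ) ∈
        Ideal.span {((NonDegOne.ratPrime K q : ℕ) : ℤ)} := Ideal.mem_span_singleton_self _
    rw [h, Ideal.mem_comap] at h1
    simpa using h1
  refine ⟨⟨NonDegOne.ratPrime K q, hℓ⟩, fun hS => hqS _ hS hmem, ?_⟩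
  obtain ⟨Q, hQ1, hQ2⟩ := Inert.exists_prime_liesOver K L q
  refine ⟨Q, hQ1, ?_, hq Q hQ1 hQ2⟩
  have h2 : algebraMap (𝓞 K) (𝓞 L) ((NonDegOne.ratPrime K q : ℕ) : 𝓞 K) ∈ Q := by
    have := hQ2.over
    rw [this] at hmem
    exact hmem
  simpa using h2

/-- The decomposition groups of the primes of `L` not above `S` generate `Gal(L/K)`
(they even contain the whole group for a single prime). -/
theorem closure_stabilizers_eq_top (S : Finset Nat.Primes) :
    Subgroup.closure (⋃ (ℓ : Nat.Primes) (_ : ℓ ∉ S) (Q : Ideal (𝓞 L))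
      (_ : Q.IsPrime ∧ (((ℓ : ℕ) : ℕ) : 𝓞 L) ∈ Q),
        (MulAction.stabilizer Gal(L/K) Q : Set Gal(L/K))) = ⊤ := by
  obtain ⟨ℓ, hℓ, Q, hQ, hmem, hst⟩ := exists_prime_stabilizer_eq_top K L S
  rw [eq_top_iff]
  intro σ _
  apply Subgroup.subset_closure
  simp only [Set.mem_iUnion]
  exact ⟨ℓ, hℓ, Q, ⟨hQ, hmem⟩, by rw [hst]; trivial⟩

end Fermat.Agent.Lib.CFT.Global.FirstIneqSplit
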