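/-
helper57 (P-CFT, Global/ArtinCyclotomic, package (I4d') of helper50): SURJECTIVITY OF THE CYCLOTOMIC
ARTIN MAP for all `m` and all number fields `K` (no condition on the discriminant).

* `exists_frob_not_mem_ker` : for `Z = K(ζ_m)` and a character `ψ : Gal(Z/K) →* ℂˣ` which is not
  trivial there is a prime `Q ∌ m` of `Z` and a Frobenius element at `Q` outside the kernel of `ψ`
  (the fixed field `E` of the kernel is cyclic over `K`; take a prime of `K` which is inert and
  unramified in `E` and does not divide `m`: helper14's `FirstIneqSplit.infinite_inertSet` and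
  `FrobDensity.ramFinite`; the restriction to `E` of a Frobenius element is a Frobenius element,
  and it generates `Gal(E/K) ≠ 1`);
* `cycloRange_le_range_omega` : `cycloRange K Z m ≤ (omega K m).range`  (Frobenius elements
  generate: the class of `absNorm P` is a value of `omega K m` by helper70's
  `exists_omega_eq_absNorm`, so a character of `(ℤ/m)ˣ` trivial on the range of `omega K m` kills all
  Frobenius elements, hence is trivial on `cycloRange K Z m`);
* `range_omega_eq_cycloRange` : `(omega K m).range = cycloRange K Z m`.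
-/
import Mathlib
import Fermat.Agent.Lib.CFT.Global.ArtinCyclotomicAbsNorm
import Fermat.Agent.Lib.CFT.Global.FirstIneqSplit
import Fermat.Agent.Lib.CFT.Unram.CycloFrob

set_option autoImplicit false
set_option linter.style.haveILetI false

open scoped NumberField TensorProduct

namespace Fermat.Agent.Lib.CFT.Global.ArtinCyc

open Fermat.Agent.Lib.CFT.Global NumberField IsDedekindDomain


section Step2

open Fermat.Agent.Lib.FrobDensity Fermat.Agent.Lib.CFT.Unram
open scoped Pointwise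

variable (K : Type) [Field K] [NumberField K] (Z : Type) [Field Z] [NumberField Z] [Algebra K Z]
  (m : ℕ) [NeZero m] [IsCyclotomicExtension {m} K Z]

/-- The Frobenius elements of `Gal(K(ζ_m)/K)` at the primes not dividing `m` are not contained in
any proper subgroup which is the kernel of a character with cyclic image: formulated as the
existence, for every homomorphism `ψ` to `ℂˣ` which is not trivial, of a prime `Q ∌ m` of
`K(ζ_m)` with a Frobenius element outside the kernel of `ψ`. -/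
theorem exists_frob_not_mem_ker [IsGalois K Z] (ψ : Gal(Z/K) →* ℂˣ) (hψ : ψ.ker ≠ ⊤) :
    ∃ (Q : Ideal (𝓞 Z)) (σ : Gal(Z/K)), Q.IsPrime ∧ Q ≠ ⊥ ∧ (m : 𝓞 Z) ∉ Q ∧
      IsArithFrobAt (𝓞 K) σ Q ∧ σ ∉ ψ.ker := by
  classical
  have hfd : FiniteDimensional K Z := IsCyclotomicExtension.finiteDimensional {m} K Z
  set H' : Subgroup Gal(Z/K) := ψ.ker with hH'
  set E : IntermediateField K Z := IntermediateField.fixedField H' with hE
  have hEgal : IsGalois K E := IsGalois.of_fixedField_normal_subgroup H'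
  -- `Gal(E/K)` is cyclic and nontrivial
  have hfinr : Finite ψ.range := Finite.of_surjective ψ.rangeRestrict ψ.rangeRestrict_surjective
  have hcyc1 : IsCyclic ψ.range := isCyclic_subgroup_units ψ.range
  have hcyc2 : IsCyclic (Gal(Z/K) ⧸ H') :=
    (QuotientGroup.quotientKerEquivRange ψ).isCyclic.2 hcyc1
  have hEcyc : IsCyclic Gal(E/K) := (IsGalois.normalAutEquivQuotient H').isCyclic.1 hcyc2
  have hnt : Nontrivial Gal(E/K) := by
    have h1 : Nontrivial (Gal(Z/K) ⧸ H') := by
      rw [← not_subsingleton_iff_nontrivial, QuotientGroup.subsingleton_iff]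
      exact hψ
    exact (IsGalois.normalAutEquivQuotient H').symm.toEquiv.nontrivial
  -- an inert, unramified prime not dividing `m`
  have hm0 : ((m : ℕ) : 𝓞 K) ≠ 0 := by exact_mod_cast NeZero.ne m
  have hfin1 : {q : HeightOneSpectrum (𝓞 K) | ((m : ℕ) : 𝓞 K) ∈ q.asIdeal}.Finite :=
    FrobGen.finite_setOf_mem hm0
  have hfin2 : (ramSet K E).Finite := ramFinite K E
  obtain ⟨q, hq, hq'⟩ :=
    ((FirstIneqSplit.infinite_inertSet K E).sdiff (hfin1.union hfin2)).nonempty
  have hqm : ((m : ℕ) : 𝓞 K) ∉ q.asIdeal := fun h => hq' (Or.inl h)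
  have hqram : q ∉ ramSet K E := fun h => hq' (Or.inr h)
  -- a prime of `Z` above `q`
  obtain ⟨Q, -, hQp, hQ⟩ := Ideal.exists_ideal_over_prime_of_isIntegral q.asIdeal
    (⊥ : Ideal (𝓞 Z)) (by
      rw [Ideal.comap_bot_of_injective _ (FaithfulSMul.algebraMap_injective (𝓞 K) (𝓞 Z))]
      exact bot_le)
  have hQu : Q.under (𝓞 K) = q.asIdeal := hQ
  have hQ0 : Q ≠ ⊥ := by
    rintro rfl
    apply q.ne_bot
    rw [← hQu, Ideal.under_def,
      Ideal.comap_bot_of_injective _ (FaithfulSMul.algebraMap_injective (𝓞 K) (𝓞 Z))]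
  have hmQ : ((m : ℕ) : 𝓞 Z) ∉ Q := by
    intro h
    apply hqm
    rw [← hQu, Ideal.under_def, Ideal.mem_comap, map_natCast]
    exact h
  have hfinQ : Finite (𝓞 Z ⧸ Q) := Ideal.finiteQuotientOfFreeOfNeBot Q hQ0
  obtain ⟨σ, hσ⟩ := IsArithFrobAt.exists_of_isInvariant (𝓞 K) Gal(Z/K) Q
  refine ⟨Q, σ, hQp, hQ0, hmQ, hσ, ?_⟩
  intro hσH
  -- the prime of `E` below `Q`
  set QE : Ideal (𝓞 E) := Q.under (𝓞 E) with hQE
  have hQEp : QE.IsPrime := Ideal.IsPrime.under (𝓞 E) Q
  have hQEq : QE.LiesOver q.asIdeal := ⟨by rw [hQE, Ideal.under_under, hQu]⟩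
  have hQE0 : QE ≠ ⊥ := by
    intro h0
    apply q.ne_bot
    have := hQEq.over
    rw [this, h0, Ideal.under_def, Ideal.comap_bot_of_injective _
      (FaithfulSMul.algebraMap_injective (𝓞 K) (𝓞 E))]
  have hD : MulAction.stabilizer Gal(E/K) QE = ⊤ := hq QE hQEp hQEq
  have hI : Ideal.inertia Gal(E/K) QE = ⊥ := by
    by_contra hne
    exact hqram ⟨QE, hQEp, hQEq, hne⟩
  have h1 : IsArithFrobAt (𝓞 K) (AlgEquiv.restrictNormalHom E σ) QE :=
    CycloFrob.isArithFrobAt_restrictNormalHom hσ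
  have h2 : Subgroup.zpowers (AlgEquiv.restrictNormalHom E σ) = ⊤ :=
    FrobGen.zpowers_frob_eq_top hQE0 hD hI h1
  -- but `σ` fixes `E`
  have h3 : AlgEquiv.restrictNormalHom E σ = 1 := by
    ext x
    have hx := (IntermediateField.mem_fixedField_iff H' (x : Z)).1 x.2 σ hσH
    have hc := AlgEquiv.restrictNormal_commutes σ E x
    rw [AlgEquiv.one_apply]
    exact hc.trans hx
  rw [h3, Subgroup.zpowers_one_eq_bot] at h2
  have : Subsingleton Gal(E/K) := by
    rw [← Subgroup.subsingleton_iff ]  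
    exact subsingleton_of_bot_eq_top h2
  exact not_subsingleton Gal(E/K) this

/-- **Surjectivity of the cyclotomic Artin map** (general `m`, general `K`): every element of the
image of `Gal(K(ζ_m)/K)` in `(ℤ/m)ˣ` is a value of the cyclotomic character of the ideles of `K`.
Together with `omega_mem_cycloRange` this says `(omega K m).range = cycloRange K Z m`. -/
theorem cycloRange_le_range_omega : cycloRange K Z m ≤ (omega K m).range := by
  classical
  have hGal : IsGalois K Z := IsCyclotomicExtension.isGalois {m} K Z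
  have hζ : IsPrimitiveRoot (IsCyclotomicExtension.zeta m K Z) m :=
    IsCyclotomicExtension.zeta_spec m K Z
  set ζ := IsCyclotomicExtension.zeta m K Z with hζdef
  set χ : Gal(Z/K) →* (ZMod m)ˣ := hζ.autToPow K with hχ
  set Ω : Subgroup (ZMod m)ˣ := (omega K m).range with hΩ
  intro u hu
  by_contra huΩ
  obtain ⟨σ₀, hσ₀⟩ := hu
  have hχσ₀ : χ σ₀ = u := by
    have h1 := hζ.autToPow_spec K σ₀
    rw [hσ₀ ζ hζ.pow_eq_one] at h1
    have h3 := hζ.pow_inj (ZMod.val_lt _) (ZMod.val_lt _) h1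
    exact Units.ext (ZMod.val_injective m h3)
  have hne1 : (QuotientGroup.mk u : (ZMod m)ˣ ⧸ Ω) ≠ 1 := by
    rwa [Ne, QuotientGroup.eq_one_iff]
  haveI : NeZero (Monoid.exponent ((ZMod m)ˣ ⧸ Ω)) := ⟨Monoid.exponent_ne_zero_of_finite (G := (ZMod m)ˣ ⧸ Ω)⟩
  obtain ⟨φ, hφ⟩ :=
    CommGroup.exists_apply_ne_one_of_hasEnoughRootsOfUnity ((ZMod m)ˣ ⧸ Ω) ℂ hne1
  set ψ : Gal(Z/K) →* ℂˣ := φ.comp ((QuotientGroup.mk' Ω).comp χ) with hψdef
  have hψ : ψ.ker ≠ ⊤ := by
    intro h
    have hmem : σ₀ ∈ ψ.ker := by rw [h]; trivial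
    rw [MonoidHom.mem_ker] at hmem
    apply hφ
    rw [← hχσ₀]
    exact hmem
  obtain ⟨Q, σ, hQp, hQ0, hmQ, hσ, hσψ⟩ := exists_frob_not_mem_ker K Z m ψ hψ
  apply hσψ
  rw [MonoidHom.mem_ker]
  have hPp : (Q.under (𝓞 K)).IsPrime := Ideal.IsPrime.under (𝓞 K) Q
  have hP0 : Q.under (𝓞 K) ≠ ⊥ := ArtinMap.under_ne_bot hQ0
  have hmP : ((m : ℕ) : 𝓞 K) ∉ Q.under (𝓞 K) := by
    intro h
    apply hmQ
    rw [Ideal.under_def, Ideal.mem_comap, map_natCast] at h
    exact h
  obtain ⟨a, ha⟩ := exists_omega_eq_absNorm K m (Q.under (𝓞 K)) hP0 hmP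
  have hχσ : χ σ = omega K m a := by
    apply Units.ext
    rw [ha]
    exact CycloFrob.autToPow_of_isArithFrobAt hζ hmQ hσ
  show φ (QuotientGroup.mk (χ σ)) = 1
  have hmemΩ : omega K m a ∈ Ω := ⟨a, rfl⟩
  rw [hχσ, (QuotientGroup.eq_one_iff _).2 hmemΩ, map_one]

/-- The range of the cyclotomic character of the ideles of `K` is exactly the image of
`Gal(K(ζ_m)/K)` in `(ℤ/m)ˣ`. -/
theorem range_omega_eq_cycloRange : (omega K m).range = cycloRange K Z m := by
  apply le_antisymm
  · rintro _ ⟨a, rfl⟩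
    exact omega_mem_cycloRange K Z m a
  · exact cycloRange_le_range_omega K Z m

end Step2

end Fermat.Agent.Lib.CFT.Global.ArtinCyc
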