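/-
helper70 (P-CFT, WP Global/ArtinCyclotomic, part 8: reduction of the general surjectivity of the
cyclotomic Artin character (package (I4d')) to a statement on Frobenius elements).

* `exists_le_ne_top_isCyclic_quotient` : a proper subgroup of a finite commutative group lies in a
  proper subgroup with cyclic quotient;
* `autToPow_eq_of_forall_pow` : uniqueness of the exponent of an automorphism on roots of unity;
* `cycloRange_le_range_omega_of_frob`, `range_omega_eq_cycloRange_of_frob` : if every nontrivial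
  cyclic subextension `E/K` of `K(ζ_m)/K` has a prime `P ∌ m` whose Frobenius moves `E`, then
  `cycloRange K Z m ≤ (omega K m).range` (every Galois element is hit by the Artin character).
-/
import Mathlib
import Fermat.Agent.Lib.CFT.Global.ArtinCyclotomicAbsNorm

set_option autoImplicit false
set_option linter.unusedSectionVars false

open scoped NumberField TensorProduct

namespace Fermat.Agent.Lib.CFT.Global.ArtinCyc

open Fermat.Agent.Lib.CFT.Global Polynomial

section GroupTheory

/-- A proper subgroup of a finite commutative group is contained in a proper subgroup with cyclic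
quotient (the kernel of a character). -/
theorem exists_le_ne_top_isCyclic_quotient {G : Type*} [CommGroup G] [Finite G] (N : Subgroup G)
    (hN : N ≠ ⊤) : ∃ N' : Subgroup G, N ≤ N' ∧ N' ≠ ⊤ ∧ IsCyclic (G ⧸ N') := by
  obtain ⟨g, hg⟩ : ∃ g : G, g ∉ N := by
    by_contra h
    push Not at h
    exact hN (eq_top_iff.2 fun x _ => h x)
  have ha : (QuotientGroup.mk' N g) ≠ 1 := by
    intro h
    exact hg ((QuotientGroup.eq_one_iff g).1 h)
  obtain ⟨φ, hφ⟩ := CommGroup.exists_apply_ne_one_of_hasEnoughRootsOfUnity (G ⧸ N) ℂ ha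
  set ψ : G →* ℂˣ := φ.comp (QuotientGroup.mk' N) with hψ
  refine ⟨ψ.ker, ?_, ?_, ?_⟩
  · intro x hx
    rw [MonoidHom.mem_ker, hψ, MonoidHom.comp_apply]
    have : QuotientGroup.mk' N x = 1 := (QuotientGroup.eq_one_iff x).2 hx
    rw [this, map_one]
  · intro h
    apply hφ
    have : g ∈ ψ.ker := h ▸ Subgroup.mem_top g
    exact this
  · exact isCyclic_of_injective_ringHom
      ((Units.coeHom ℂ).comp (QuotientGroup.kerLift ψ))
      (Units.val_injective.comp (QuotientGroup.kerLift_injective ψ))

end GroupTheory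

section Reduction

open scoped IsMulCommutative

variable (K : Type) [Field K] [NumberField K] (Z : Type) [Field Z] [NumberField Z] [Algebra K Z]
  (m : ℕ) [NeZero m] [IsCyclotomicExtension {m} K Z]

/-- If `σ` raises the `m`-th roots of unity to the power `u`, then `u` is the value of the
cyclotomic character at `σ`. -/
theorem autToPow_eq_of_forall_pow (σ : Gal(Z/K)) (u : (ZMod m)ˣ)
    (h : ∀ ζ : Z, ζ ^ m = 1 → σ ζ = ζ ^ ((u : (ZMod m)ˣ) : ZMod m).val) :
    (IsCyclotomicExtension.zeta_spec m K Z).autToPow K σ = u := by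
  have hz := IsCyclotomicExtension.zeta_spec m K Z
  set μ := IsCyclotomicExtension.zeta m K Z
  have h1 : μ ^ ((hz.autToPow K σ : (ZMod m)ˣ) : ZMod m).val = σ μ := hz.autToPow_spec K σ
  rw [h μ hz.pow_eq_one] at h1
  have h3 := hz.pow_inj (ZMod.val_lt _) (ZMod.val_lt _) h1
  exact Units.ext (ZMod.val_injective m h3)

/-- **Reduction of the general surjectivity of the cyclotomic character** to the nontriviality
of Frobenius elements: if every nontrivial cyclic subextension `E/K` of `K(ζ_m)/K` admits a prime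
`P ∌ m` of `K` whose Frobenius (any `σ` raising the roots of unity to the power `N(P)`) acts
nontrivially on `E`, then every element of the image of the Galois group in `(ℤ/m)ˣ` is a value of
`omega K m`. -/
theorem cycloRange_le_range_omega_of_frob
    (hyp : ∀ E : IntermediateField K Z, IsGalois K E → IsCyclic Gal(E/K) → E ≠ ⊥ →
      ∃ P : Ideal (𝓞 K), P.IsPrime ∧ P ≠ ⊥ ∧ (m : 𝓞 K) ∉ P ∧
        ∀ σ : Gal(Z/K), (∀ ζ : Z, ζ ^ m = 1 → σ ζ = ζ ^ (Ideal.absNorm P)) → ∃ x ∈ E, σ x ≠ x) :
    cycloRange K Z m ≤ (omega K m).range := by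
  classical
  have hgal : IsGalois K Z := IsCyclotomicExtension.isGalois {m} K Z
  have hfd : FiniteDimensional K Z := IsCyclotomicExtension.finiteDimensional {m} K Z
  have hcomm : IsMulCommutative Gal(Z/K) := IsCyclotomicExtension.isMulCommutative {m} K Z
  have hz := IsCyclotomicExtension.zeta_spec m K Z
  set χ : Gal(Z/K) →* (ZMod m)ˣ := hz.autToPow K with hχ
  set N : Subgroup Gal(Z/K) := (omega K m).range.comap χ with hN
  have hNtop : N = ⊤ := by
    by_contra hne
    obtain ⟨N', hNN', hN'top, hcyc⟩ := exists_le_ne_top_isCyclic_quotient N hne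
    set E : IntermediateField K Z := IntermediateField.fixedField N' with hE
    have hfix : E.fixingSubgroup = N' := IntermediateField.fixingSubgroup_fixedField N'
    have hEgal : IsGalois K E := IsGalois.of_fixedField_normal_subgroup N'
    have hEcyc : IsCyclic Gal(E/K) :=
      isCyclic_of_surjective (IsGalois.normalAutEquivQuotient N')
        (IsGalois.normalAutEquivQuotient N').surjective
    have hEbot : E ≠ ⊥ := by
      intro h
      apply hN'top
      rw [← hfix, h, IntermediateField.fixingSubgroup_bot]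
    obtain ⟨P, hPprime, hP0, hmP, hP⟩ := hyp E hEgal hEcyc hEbot
    have := hPprime
    obtain ⟨u, ⟨hu1, hu2⟩, hu3⟩ := exists_mem_range_omega_inf_cycloRange K m Z P hP0 hmP
    obtain ⟨σ, hσ⟩ := hu2
    have hσ' : ∀ ζ : Z, ζ ^ m = 1 → σ ζ = ζ ^ (Ideal.absNorm P) := by
      intro ζ hζ
      rw [hσ ζ hζ, hu3, pow_val_natCast hζ]
    obtain ⟨x, hxE, hx⟩ := hP σ hσ'
    apply hx
    have hχσ : χ σ = u := autToPow_eq_of_forall_pow K Z m σ u hσ
    have hσN : σ ∈ N := by
      rw [hN, Subgroup.mem_comap, hχσ]; exact hu1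
    have hσN' : σ ∈ E.fixingSubgroup := hfix ▸ hNN' hσN
    exact (IntermediateField.mem_fixingSubgroup_iff E σ).1 hσN' x hxE
  intro u hu
  obtain ⟨σ, hσ⟩ := hu
  have hχσ : χ σ = u := autToPow_eq_of_forall_pow K Z m σ u hσ
  have hmem : σ ∈ N := hNtop ▸ Subgroup.mem_top σ
  rw [hN, Subgroup.mem_comap, hχσ] at hmem
  exact hmem

/-- The equality version. -/
theorem range_omega_eq_cycloRange_of_frob
    (hyp : ∀ E : IntermediateField K Z, IsGalois K E → IsCyclic Gal(E/K) → E ≠ ⊥ →
      ∃ P : Ideal (𝓞 K), P.IsPrime ∧ P ≠ ⊥ ∧ (m : 𝓞 K) ∉ P ∧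
        ∀ σ : Gal(Z/K), (∀ ζ : Z, ζ ^ m = 1 → σ ζ = ζ ^ (Ideal.absNorm P)) → ∃ x ∈ E, σ x ≠ x) :
    (omega K m).range = cycloRange K Z m := by
  apply le_antisymm
  · rintro _ ⟨a, rfl⟩
    exact omega_mem_cycloRange K Z m a
  · exact cycloRange_le_range_omega_of_frob K Z m hyp

end Reduction

end Fermat.Agent.Lib.CFT.Global.ArtinCyc
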