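import Mathlib
import Fermat.Agent.Lib.CFT.Kummer.CyclotomicChar
import Fermat.Agent.Lib.CFT.Kummer.CyclotomicAuxField
import Fermat.Agent.Lib.CFT.Unram.ArtinMap
import Fermat.Agent.Lib.CFT.Unram.CycloFrob

/-!
# Cyclic cyclotomic extensions adapted to a finite set of primes (helper96, P-CFT task 265)

For a number field `K`, a finite set `T` of finite primes of `K` and `N ≥ 1` we construct a
cyclic extension `L / K` inside a cyclotomic extension `K(ζ_m) / K`, with `m` prime to the residue
characteristics of `T` (and to the discriminant of `K` and any given integer), such that the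
Frobenius elements of the primes in `T` have order divisible by `N` in `Gal(L/K)`; in particular
`N` divides the local degree of `L / K` at every prime of `T`.

`L` is the fixed field `charField M hirr χ` of the kernel of a character `χ` of `(ZMod m)ˣ`,
transported to `Gal(K(ζ_m)/K)` by `IsCyclotomicExtension.autEquivPow`.
-/

set_option autoImplicit false

open Polynomial NumberField IntermediateField

open scoped Pointwise

noncomputable section

namespace Fermat.Agent.Lib.CFT.Global.CycAdapted

open Fermat.Agent.Lib.CFT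

/-! ### The field cut out by a character -/

section CharField

lemma finiteDimensional_top {K : Type} [Field K] (m : ℕ) [NeZero m] (M : Type) [Field M]
    [Algebra K M] [IsCyclotomicExtension {m} K M] : FiniteDimensional K M :=
  IsCyclotomicExtension.finiteDimensional {m} K M

lemma isGalois_top {K : Type} [Field K] (m : ℕ) [NeZero m] (M : Type) [Field M]
    [Algebra K M] [IsCyclotomicExtension {m} K M] : IsGalois K M :=
  IsCyclotomicExtension.isGalois {m} K M

variable {K : Type} [Field K] {m : ℕ} [NeZero m] (M : Type) [Field M] [Algebra K M]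
  [IsCyclotomicExtension {m} K M] (hirr : Irreducible (cyclotomic m K)) (χ : (ZMod m)ˣ →* ℂˣ)

/-- The character of `Gal(K(ζ_m)/K)` attached to a character of `(ZMod m)ˣ`. -/
def galChar : Gal(M/K) →* ℂˣ :=
  χ.comp (IsCyclotomicExtension.autEquivPow M hirr).toMonoidHom

@[simp] lemma galChar_apply (σ : Gal(M/K)) :
    galChar M hirr χ σ = χ (IsCyclotomicExtension.autEquivPow M hirr σ) := rfl

/-- The subfield of `K(ζ_m)` cut out by a character of `(ZMod m)ˣ`. -/
def charField : IntermediateField K M := IntermediateField.fixedField (galChar M hirr χ).ker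

instance isGalois_charField : IsGalois K (charField M hirr χ) := by
  have := finiteDimensional_top (K := K) m M
  have := isGalois_top (K := K) m M
  unfold charField
  infer_instance

lemma fixingSubgroup_charField :
    (charField M hirr χ).fixingSubgroup = (galChar M hirr χ).ker := by
  have := finiteDimensional_top (K := K) m M
  exact IntermediateField.fixingSubgroup_fixedField _

lemma restrictNormalHom_ker_charField :
    (AlgEquiv.restrictNormalHom (F := K) (K₁ := M) (charField M hirr χ)).ker =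
      (galChar M hirr χ).ker := by
  rw [IntermediateField.restrictNormalHom_ker, fixingSubgroup_charField]

/-- The restriction of `σ` to `charField` is trivial iff the character kills `σ`. -/
lemma restrictNormalHom_eq_one_iff (σ : Gal(M/K)) :
    AlgEquiv.restrictNormalHom (charField M hirr χ) σ = 1 ↔
      χ (IsCyclotomicExtension.autEquivPow M hirr σ) = 1 := by
  rw [← MonoidHom.mem_ker, restrictNormalHom_ker_charField, MonoidHom.mem_ker, galChar_apply]

/-- The order of the restriction of `σ` to `charField` is the order of the character value. -/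
theorem orderOf_restrictNormalHom (σ : Gal(M/K)) :
    orderOf (AlgEquiv.restrictNormalHom (charField M hirr χ) σ) =
      orderOf (χ (IsCyclotomicExtension.autEquivPow M hirr σ)) := by
  rw [orderOf_eq_orderOf_iff]
  intro n
  rw [← map_pow, restrictNormalHom_eq_one_iff, map_pow, map_pow]

/-- The Galois group of `charField` is cyclic. -/
theorem isCyclic_gal_charField : IsCyclic Gal(charField M hirr χ/K) := by
  have := finiteDimensional_top (K := K) m M
  have := isGalois_top (K := K) m M
  have hrange : IsCyclic (galChar M hirr χ).range := by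
    refine isCyclic_of_injective_ringHom
      (((Units.coeHom ℂ).comp (galChar M hirr χ).range.subtype)) ?_
    intro a b hab
    apply Subtype.ext
    apply Units.ext
    exact hab
  have hq : IsCyclic (Gal(M/K) ⧸ (galChar M hirr χ).ker) :=
    isCyclic_of_surjective (QuotientGroup.quotientKerEquivRange (galChar M hirr χ)).symm.toMonoidHom
      (QuotientGroup.quotientKerEquivRange (galChar M hirr χ)).symm.surjective
  exact isCyclic_of_surjective
    (IsGalois.normalAutEquivQuotient (galChar M hirr χ).ker).toMonoidHom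
    (IsGalois.normalAutEquivQuotient (galChar M hirr χ).ker).surjective

/-- The degree of `charField` is the order of the image of the character. -/
theorem finrank_charField :
    Module.finrank K (charField M hirr χ) = Nat.card (galChar M hirr χ).range := by
  have := finiteDimensional_top (K := K) m M
  have := isGalois_top (K := K) m M
  rw [← IsGalois.card_aut_eq_finrank K (charField M hirr χ)]
  exact (Nat.card_congr (IsGalois.normalAutEquivQuotient (galChar M hirr χ).ker).toEquiv).symm.trans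
    (Nat.card_congr (QuotientGroup.quotientKerEquivRange (galChar M hirr χ)).toEquiv)

/-- The order of every value of the character divides the degree of `charField`. -/
theorem orderOf_dvd_finrank_charField (u : (ZMod m)ˣ) :
    orderOf (χ u) ∣ Module.finrank K (charField M hirr χ) := by
  have := finiteDimensional_top (K := K) m M
  rw [finrank_charField]
  obtain ⟨σ, rfl⟩ := (IsCyclotomicExtension.autEquivPow M hirr).surjective u
  have hmem : χ (IsCyclotomicExtension.autEquivPow M hirr σ) ∈ (galChar M hirr χ).range :=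
    ⟨σ, rfl⟩
  have := orderOf_dvd_natCard (⟨_, hmem⟩ : (galChar M hirr χ).range)
  rwa [Subgroup.orderOf_mk] at this

end CharField

/-! ### Frobenius elements -/

section Frob

variable {K : Type} [Field K] [NumberField K] {m : ℕ} [NeZero m] (M : Type) [Field M]
  [NumberField M] [Algebra K M] [IsGalois K M] [IsCyclotomicExtension {m} K M]
  (hirr : Irreducible (cyclotomic m K)) (χ : (ZMod m)ˣ →* ℂˣ)

/-- The order in `Gal(charField/K)` of (the restriction of) a Frobenius element. -/
theorem orderOf_restrict_of_isArithFrobAt {Q : Ideal (𝓞 M)} (hQ : (m : 𝓞 M) ∉ Q)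
    {σ : Gal(M/K)} (hσ : IsArithFrobAt (𝓞 K) σ Q)
    (h : (Nat.card (𝓞 K ⧸ Q.under (𝓞 K))).Coprime m) :
    orderOf (AlgEquiv.restrictNormalHom (charField M hirr χ) σ) =
      orderOf (χ (ZMod.unitOfCoprime _ h)) := by
  rw [orderOf_restrictNormalHom]
  congr 2
  apply Units.ext
  rw [ZMod.coe_unitOfCoprime]
  exact CyclotomicAux.autEquivPow_of_isArithFrobAt m M hirr hQ hσ

end Frob

/-! ### The arithmetic input -/

section Arith

variable (K : Type) [Field K] [NumberField K]

/-- Choice of the modulus and the character. -/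
theorem exists_modulus_character (T : Finset (IsDedekindDomain.HeightOneSpectrum (𝓞 K))) {N : ℕ}
    (hN : N ≠ 0) {D : ℕ} (hD : D ≠ 0) :
    ∃ m : ℕ, 2 < m ∧ m.Coprime D ∧ m.Coprime (NumberField.discr K).natAbs ∧
      ∃ χ : (ZMod m)ˣ →* ℂˣ, χ (-1) ≠ 1 ∧
        (∃ h2 : (2 : ℕ).Coprime m, N ∣ orderOf (χ (ZMod.unitOfCoprime 2 h2))) ∧
        ∀ v ∈ T, ∃ h : (Ideal.absNorm v.asIdeal).Coprime m,
          N ∣ orderOf (χ (ZMod.unitOfCoprime _ h)) := by
  classical
  let S : Finset ℕ := insert 2 (T.image fun v => Ideal.absNorm v.asIdeal)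
  have hS : ∀ a ∈ S, 2 ≤ a := by
    intro a ha
    rcases Finset.mem_insert.1 ha with rfl | ha
    · exact le_rfl
    · obtain ⟨v, -, rfl⟩ := Finset.mem_image.1 ha
      have h0 : Ideal.absNorm v.asIdeal ≠ 0 := by
        rw [Ne, Ideal.absNorm_eq_zero_iff]
        exact v.ne_bot
      have h1 : Ideal.absNorm v.asIdeal ≠ 1 := by
        rw [Ne, Ideal.absNorm_eq_one_iff]
        exact v.isPrime.ne_top
      omega
  have hdisc : (NumberField.discr K).natAbs ≠ 0 :=
    Int.natAbs_ne_zero.2 (NumberField.discr_ne_zero K)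
  obtain ⟨m, hm, hT, χ, hχ, hχS⟩ := CyclotomicChar.exists_character N hN S hS
    (D.primeFactors ∪ (NumberField.discr K).natAbs.primeFactors)
  have hcop : ∀ E : ℕ, E ≠ 0 → E.primeFactors ⊆
      D.primeFactors ∪ (NumberField.discr K).natAbs.primeFactors → m.Coprime E := by
    intro E hE hsub
    rw [Nat.coprime_comm]
    apply Nat.Coprime.symm
    apply Nat.coprime_of_dvd
    intro l hl hlm hlE
    exact hT l hl hlm (hsub (Nat.mem_primeFactors.2 ⟨hl, hlE, hE⟩))
  refine ⟨m, hm, hcop D hD Finset.subset_union_left, hcop _ hdisc Finset.subset_union_right,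
    χ, hχ, hχS 2 (Finset.mem_insert_self _ _), ?_⟩
  intro v hv
  exact hχS _ (Finset.mem_insert_of_mem (Finset.mem_image_of_mem _ hv))

end Arith

/-! ### The main theorem -/

section Main

variable (K : Type) [Field K] [NumberField K]

/-- A prime of `K(ζ_m)` over a prime `v` of `K` whose norm is prime to `m` does not contain `m`. -/
lemma natCast_notMem_of_coprime {M : Type} [Field M] [NumberField M] [Algebra K M] {m : ℕ}
    (v : IsDedekindDomain.HeightOneSpectrum (𝓞 K)) (h : (Ideal.absNorm v.asIdeal).Coprime m)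
    (Q : Ideal (𝓞 M)) (hQv : Q.under (𝓞 K) = v.asIdeal) : (m : 𝓞 M) ∉ Q := by
  intro hmem
  have h1 : (m : 𝓞 K) ∈ v.asIdeal := by
    rw [← hQv, Ideal.under_def, Ideal.mem_comap, map_natCast]
    exact hmem
  have h2 : ((Ideal.absNorm v.asIdeal : ℕ) : 𝓞 K) ∈ v.asIdeal := by
    have := Ideal.absNorm_mem v.asIdeal
    exact_mod_cast this
  have h3 : (1 : 𝓞 K) ∈ v.asIdeal := by
    have hg : Nat.gcd (Ideal.absNorm v.asIdeal) m = 1 := h
    have hb := Nat.gcd_eq_gcd_ab (Ideal.absNorm v.asIdeal) m
    rw [hg] at hb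
    have hb' : (1 : 𝓞 K) = ((Ideal.absNorm v.asIdeal : ℕ) : 𝓞 K) *
        ((Nat.gcdA (Ideal.absNorm v.asIdeal) m : ℤ) : 𝓞 K) +
        (m : 𝓞 K) * ((Nat.gcdB (Ideal.absNorm v.asIdeal) m : ℤ) : 𝓞 K) := by
      have := congrArg (fun z : ℤ => (z : 𝓞 K)) hb
      push_cast at this
      exact this
    rw [hb']
    exact Ideal.add_mem _ (Ideal.mul_mem_right _ _ h2) (Ideal.mul_mem_right _ _ h1)
  exact v.isPrime.ne_top ((Ideal.eq_top_iff_one _).2 h3)

lemma natCard_quotient_eq_absNorm (v : IsDedekindDomain.HeightOneSpectrum (𝓞 K)) :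
    Nat.card (𝓞 K ⧸ v.asIdeal) = Ideal.absNorm v.asIdeal := by
  rw [Ideal.absNorm_apply, Submodule.cardQuot_apply]

/-- The properties of the field cut out by a character with prescribed orders at the primes
of `T`. -/
theorem charField_spec (T : Finset (IsDedekindDomain.HeightOneSpectrum (𝓞 K))) {N : ℕ}
    {m : ℕ} [NeZero m] (hirr : Irreducible (cyclotomic m K)) (χ : (ZMod m)ˣ →* ℂˣ)
    (hχT : ∀ v ∈ T, ∃ h : (Ideal.absNorm v.asIdeal).Coprime m,
      N ∣ orderOf (χ (ZMod.unitOfCoprime _ h)))
    (M : Type) [Field M] [NumberField M] [Algebra K M] [IsGalois K M]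
    [IsCyclotomicExtension {m} K M] :
    (∀ v ∈ T, ∀ Q : Ideal (𝓞 M), Q.IsPrime → Q.under (𝓞 K) = v.asIdeal →
        ∀ σ : Gal(M/K), IsArithFrobAt (𝓞 K) σ Q →
          N ∣ orderOf (AlgEquiv.restrictNormalHom (charField M hirr χ) σ)) ∧
      (∀ v ∈ T, ∀ P : Ideal (𝓞 (charField M hirr χ)), P.IsPrime → P.under (𝓞 K) = v.asIdeal →
        ∃ τ : Gal(charField M hirr χ/K), IsArithFrobAt (𝓞 K) τ P ∧
          τ ∈ MulAction.stabilizer Gal(charField M hirr χ/K) P ∧ N ∣ orderOf τ) := by
  have hfrobM : ∀ v ∈ T, ∀ Q : Ideal (𝓞 M), Q.IsPrime → Q.under (𝓞 K) = v.asIdeal →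
      ∀ σ : Gal(M/K), IsArithFrobAt (𝓞 K) σ Q →
        N ∣ orderOf (AlgEquiv.restrictNormalHom (charField M hirr χ) σ) := by
    intro v hv Q _ hQv σ hσ
    obtain ⟨h, hdiv⟩ := hχT v hv
    have hQ : (m : 𝓞 M) ∉ Q := natCast_notMem_of_coprime K v h Q hQv
    have hcard : Nat.card (𝓞 K ⧸ Q.under (𝓞 K)) = Ideal.absNorm v.asIdeal := by
      rw [hQv, natCard_quotient_eq_absNorm]
    have h' : (Nat.card (𝓞 K ⧸ Q.under (𝓞 K))).Coprime m := by rw [hcard]; exact h
    rw [orderOf_restrict_of_isArithFrobAt M hirr χ hQ hσ h']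
    have : ZMod.unitOfCoprime _ h' = ZMod.unitOfCoprime _ h := by
      apply Units.ext
      rw [ZMod.coe_unitOfCoprime, ZMod.coe_unitOfCoprime, hcard]
    rw [this]
    exact hdiv
  refine ⟨hfrobM, ?_⟩
  intro v hv P hP hPv
  -- a prime of `M` over `P`
  have hP0 : P ≠ ⊥ := by
    rintro rfl
    have : (⊥ : Ideal (𝓞 (charField M hirr χ))).under (𝓞 K) = ⊥ := Ideal.under_bot _ _
    rw [this] at hPv
    exact v.ne_bot hPv.symm
  obtain ⟨Q, -, hQprime, hQP⟩ := Ideal.exists_ideal_over_prime_of_isIntegral P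
    (⊥ : Ideal (𝓞 M)) (by simp)
  have hQP' : Q.under (𝓞 (charField M hirr χ)) = P := hQP
  have hQv : Q.under (𝓞 K) = v.asIdeal := by
    rw [← hPv, ← hQP', Ideal.under_under]
  have hQ0 : Q ≠ ⊥ := by
    rintro rfl
    apply hP0
    rw [← hQP']
    exact Ideal.under_bot _ _
  obtain ⟨σ, hσ⟩ := Unram.ArtinMap.exists_frob K M Q hQ0
  have hτ : IsArithFrobAt (𝓞 K) (AlgEquiv.restrictNormalHom (charField M hirr χ) σ) P := by
    have := Unram.CycloFrob.isArithFrobAt_restrictNormalHom (E := charField M hirr χ) hσ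
    rwa [hQP'] at this
  exact ⟨_, hτ, hτ.mem_stabilizer, hfrobM v hv Q hQprime hQv σ hσ⟩

/-- **Cyclic cyclotomic extensions adapted to a finite set of primes.**  Given a finite set `T` of
primes of `K`, `N ≥ 1` and `D ≥ 1`, there is a modulus `m`, prime to `D`, to the discriminant of
`K` and to the norms of the primes in `T`, such that every cyclotomic extension `M = K(ζ_m)`
contains a cyclic extension `L / K` of degree divisible by `N` in which the Frobenius elements of
the primes in `T` have order divisible by `N`. -/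
theorem exists_cyclic_cyclotomic (T : Finset (IsDedekindDomain.HeightOneSpectrum (𝓞 K))) {N : ℕ}
    (hN : N ≠ 0) {D : ℕ} (hD : D ≠ 0) :
    ∃ (m : ℕ) (_ : NeZero m) (_ : Irreducible (cyclotomic m K)),
      m.Coprime D ∧ m.Coprime (NumberField.discr K).natAbs ∧
      (∀ v ∈ T, (Ideal.absNorm v.asIdeal).Coprime m) ∧
      ∀ (M : Type) [Field M] [NumberField M] [Algebra K M] [IsGalois K M]
        [IsCyclotomicExtension {m} K M],
        ∃ L : IntermediateField K M, ∃ _ : IsGalois K L, IsCyclic Gal(L/K) ∧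
          N ∣ Module.finrank K L ∧
          (∀ v ∈ T, ∀ Q : Ideal (𝓞 M), Q.IsPrime → Q.under (𝓞 K) = v.asIdeal →
            ∀ σ : Gal(M/K), IsArithFrobAt (𝓞 K) σ Q →
              N ∣ orderOf (AlgEquiv.restrictNormalHom L σ)) ∧
          (∀ v ∈ T, ∀ P : Ideal (𝓞 L), P.IsPrime → P.under (𝓞 K) = v.asIdeal →
            ∃ τ : Gal(L/K), IsArithFrobAt (𝓞 K) τ P ∧ τ ∈ MulAction.stabilizer Gal(L/K) P ∧
              N ∣ orderOf τ) := by
  obtain ⟨m, hm, hmD, hmdisc, χ, -, ⟨h2, hχ2⟩, hχT⟩ := exists_modulus_character K T hN hD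
  have hm0 : NeZero m := ⟨by omega⟩
  have hirr : Irreducible (cyclotomic m K) :=
    CyclotomicAux.irreducible_cyclotomic_of_coprime_discr K m hmdisc
  refine ⟨m, hm0, hirr, hmD, hmdisc, fun v hv => (hχT v hv).1, ?_⟩
  intro M _ _ _ _ _
  obtain ⟨hA, hB⟩ := charField_spec K T hirr χ hχT M
  exact ⟨charField M hirr χ, inferInstance, isCyclic_gal_charField M hirr χ,
    dvd_trans hχ2 (orderOf_dvd_finrank_charField M hirr χ _), hA, hB⟩

/-- The `p`-primary variant: for `N = p ^ k` the cyclic extension can be chosen of `p`-power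
degree. -/
theorem exists_cyclic_cyclotomic_primePow (T : Finset (IsDedekindDomain.HeightOneSpectrum (𝓞 K)))
    {p : ℕ} (hp : p.Prime) (k : ℕ) {D : ℕ} (hD : D ≠ 0) :
    ∃ (m : ℕ) (_ : NeZero m) (_ : Irreducible (cyclotomic m K)),
      m.Coprime D ∧ m.Coprime (NumberField.discr K).natAbs ∧
      (∀ v ∈ T, (Ideal.absNorm v.asIdeal).Coprime m) ∧
      ∀ (M : Type) [Field M] [NumberField M] [Algebra K M] [IsGalois K M]
        [IsCyclotomicExtension {m} K M],
        ∃ L : IntermediateField K M, ∃ _ : IsGalois K L, IsCyclic Gal(L/K) ∧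
          p ^ k ∣ Module.finrank K L ∧ (∃ a : ℕ, Module.finrank K L = p ^ a) ∧
          (∀ v ∈ T, ∀ Q : Ideal (𝓞 M), Q.IsPrime → Q.under (𝓞 K) = v.asIdeal →
            ∀ σ : Gal(M/K), IsArithFrobAt (𝓞 K) σ Q →
              p ^ k ∣ orderOf (AlgEquiv.restrictNormalHom L σ)) ∧
          (∀ v ∈ T, ∀ P : Ideal (𝓞 L), P.IsPrime → P.under (𝓞 K) = v.asIdeal →
            ∃ τ : Gal(L/K), IsArithFrobAt (𝓞 K) τ P ∧ τ ∈ MulAction.stabilizer Gal(L/K) P ∧
              p ^ k ∣ orderOf τ) := by
  have hN : p ^ k ≠ 0 := pow_ne_zero _ hp.ne_zero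
  obtain ⟨m, hm, hmD, hmdisc, χ, -, ⟨h2, hχ2⟩, hχT⟩ := exists_modulus_character K T hN hD
  have hm0 : NeZero m := ⟨by omega⟩
  have hirr : Irreducible (cyclotomic m K) :=
    CyclotomicAux.irreducible_cyclotomic_of_coprime_discr K m hmdisc
  -- kill the prime-to-`p` part of the character
  set n : ℕ := Nat.card (ZMod m)ˣ with hn
  have hn0 : n ≠ 0 := Nat.card_pos.ne'
  set c : ℕ := n / p ^ n.factorization p with hc
  have hcn : p ^ n.factorization p * c = n :=
    Nat.mul_div_cancel' (Nat.ordProj_dvd n p)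
  have hpc : p.Coprime c := by
    have := Nat.coprime_ordCompl hp hn0
    exact this
  set χ' : (ZMod m)ˣ →* ℂˣ := χ ^ c with hχ'
  have hχ'_apply : ∀ u, χ' u = χ u ^ c := fun u => rfl
  have hord : ∀ u : (ZMod m)ˣ, p ^ k ∣ orderOf (χ u) → p ^ k ∣ orderOf (χ' u) := by
    intro u hu
    have hfo : IsOfFinOrder (χ u) := MonoidHom.isOfFinOrder χ (isOfFinOrder_of_finite u)
    rw [hχ'_apply, hfo.orderOf_pow]
    have hg : (p ^ k).Coprime (Nat.gcd (orderOf (χ u)) c) :=
      Nat.Coprime.coprime_dvd_right (Nat.gcd_dvd_right _ _) (Nat.Coprime.pow_left k hpc)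
    have hmul : orderOf (χ u) / Nat.gcd (orderOf (χ u)) c * Nat.gcd (orderOf (χ u)) c =
        orderOf (χ u) := Nat.div_mul_cancel (Nat.gcd_dvd_left _ _)
    rw [← hmul] at hu
    exact hg.dvd_of_dvd_mul_right hu
  have hχ'T : ∀ v ∈ T, ∃ h : (Ideal.absNorm v.asIdeal).Coprime m,
      p ^ k ∣ orderOf (χ' (ZMod.unitOfCoprime _ h)) := by
    intro v hv
    obtain ⟨h, hdiv⟩ := hχT v hv
    exact ⟨h, hord _ hdiv⟩
  refine ⟨m, hm0, hirr, hmD, hmdisc, fun v hv => (hχT v hv).1, ?_⟩
  intro M _ _ _ _ _
  obtain ⟨hA, hB⟩ := charField_spec K T hirr χ' hχ'T M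
  refine ⟨charField M hirr χ', inferInstance, isCyclic_gal_charField M hirr χ',
    dvd_trans (hord _ hχ2) (orderOf_dvd_finrank_charField M hirr χ' _), ?_, hA, hB⟩
  -- the degree is a power of `p`
  have hfd := finiteDimensional_top (K := K) m M
  rw [finrank_charField]
  have hpg : IsPGroup p (galChar M hirr χ').range := by
    rintro ⟨y, σ, rfl⟩
    refine ⟨n.factorization p, ?_⟩
    apply Subtype.ext
    rw [Subgroup.coe_pow, Subgroup.coe_one]
    change (galChar M hirr χ' σ) ^ p ^ n.factorization p = 1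
    rw [galChar_apply, hχ'_apply, ← pow_mul, mul_comm, hcn, ← map_pow, hn, pow_card_eq_one',
      map_one]
  have hfin : Finite (galChar M hirr χ').range := inferInstance
  have : Fact p.Prime := ⟨hp⟩
  obtain ⟨a, ha⟩ := IsPGroup.iff_card.1 hpg
  exact ⟨a, ha⟩

omit [NumberField K] in
/-- With the notation of `exists_cyclic_cyclotomic`: `N` divides the order of the decomposition
group (the local degree) at every prime of `L` over a prime in `T`. -/
theorem dvd_card_stabilizer_of_frob {L : Type} [Field L] [NumberField L] [Algebra K L]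
    [IsGalois K L] {N : ℕ} {P : Ideal (𝓞 L)} {τ : Gal(L/K)}
    (hτ : τ ∈ MulAction.stabilizer Gal(L/K) P) (hN : N ∣ orderOf τ) :
    N ∣ Nat.card (MulAction.stabilizer Gal(L/K) P) := by
  have := orderOf_dvd_natCard (⟨τ, hτ⟩ : MulAction.stabilizer Gal(L/K) P)
  rw [Subgroup.orderOf_mk] at this
  exact dvd_trans hN this

end Main

end Fermat.Agent.Lib.CFT.Global.CycAdapted
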