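import Mathlib
import Fermat.Agent.Lib.CFT.Global.CyclotomicAdapted
import Fermat.Agent.Lib.CFT.Global.Places.GaloisLocal

/-!
# Adapted cyclic cyclotomic layers, in terms of `ℚ_q ⊗ L` (helper96, P-CFT)

The theorem `exists_cyclic_cyclotomic_primePow` restated for a finite set `S` of rational primes
and with the decomposition groups computed on the maximal spectrum of `ℚ_q ⊗ L`: there is a cyclic
layer `L ⊆ K(ζ_m)` of `p`-power degree, `m` prime to `S`, such that `p ^ k` divides the order of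
the decomposition group of every maximal ideal of `ℚ_q ⊗ L`, `q ∈ S`.
-/

set_option autoImplicit false

open Polynomial NumberField IntermediateField IsDedekindDomain

open scoped Pointwise

noncomputable section

namespace Fermat.Agent.Lib.CFT.Global.CycAdapted

open Fermat.Agent.Lib.CFT Fermat.Agent.Lib.CFT.Global Fermat.Agent.Lib.CFT.Global.Places
  Fermat.Agent.Lib.CFT.Global.Places.Galois Fermat.Agent.Lib.CFT.Global.EtaleAlg

variable (K : Type) [Field K] [NumberField K]

/-- The finite primes of `K` above the rational primes in `S`. -/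
def primesAboveFinset (S : Finset Nat.Primes) : Finset (HeightOneSpectrum (𝓞 K)) := by
  classical
  exact S.biUnion fun q => Finset.univ.image fun w : PrimesOver K q => w.1

variable {K}

lemma mem_primesAboveFinset {S : Finset Nat.Primes} {q : Nat.Primes} (hq : q ∈ S)
    (v : HeightOneSpectrum (𝓞 K)) (hv : ((pv q : ℕ) : 𝓞 K) ∈ v.asIdeal) :
    v ∈ primesAboveFinset K S := by
  classical
  unfold primesAboveFinset
  rw [Finset.mem_biUnion]
  refine ⟨q, hq, ?_⟩
  rw [Finset.mem_image]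
  exact ⟨⟨v, hv⟩, Finset.mem_univ _, rfl⟩

omit [NumberField K] in
/-- The order of the decomposition group of a maximal ideal of `ℚ_q ⊗ L` is divisible by `N` as
soon as the decomposition group of the corresponding prime of `𝓞 L` contains an element of order
divisible by `N`. -/
theorem dvd_card_stabilizer_maxSpec {L : Type} [Field L] [NumberField L] [Algebra K L]
    [IsGalois K L] {N : ℕ} (q : Nat.Primes) (m₁ : MaximalSpectrum (LocAlg L q))
    (h : ∀ P : Ideal (𝓞 L), P.IsPrime → ((pv q : ℕ) : 𝓞 L) ∈ P →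
      ∃ τ : Gal(L/K), τ ∈ MulAction.stabilizer Gal(L/K) P ∧ N ∣ orderOf τ) :
    N ∣ Nat.card (MulAction.stabilizer Gal(L/K) m₁) := by
  set w := (primesEquivMaximalSpectrum L q).symm m₁ with hw
  have hm₁ : m₁ = primesEquivMaximalSpectrum L q w := by
    rw [hw, Equiv.apply_symm_apply]
  obtain ⟨τ, hτ, hN⟩ := h w.1.asIdeal w.1.isPrime w.2
  rw [hm₁, stabilizer_primesEquiv q w]
  exact dvd_card_stabilizer_of_frob K hτ hN

variable (K)

/-- **Adapted layers** in terms of `ℚ_q ⊗ L`. -/
theorem exists_cyclic_cyclotomic_primePow_maxSpec (S : Finset Nat.Primes) {p : ℕ} (hp : p.Prime)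
    (k : ℕ) {D : ℕ} (hD : D ≠ 0) :
    ∃ (m : ℕ) (_ : NeZero m) (_ : Irreducible (cyclotomic m K)),
      m.Coprime D ∧ m.Coprime (NumberField.discr K).natAbs ∧ (∀ q ∈ S, ¬ pv q ∣ m) ∧
      ∀ (M : Type) [Field M] [NumberField M] [Algebra K M] [IsGalois K M]
        [IsCyclotomicExtension {m} K M],
        ∃ L : IntermediateField K M, ∃ _ : IsGalois K L, IsCyclic Gal(L/K) ∧
          p ^ k ∣ Module.finrank K L ∧ (∃ a : ℕ, Module.finrank K L = p ^ a) ∧
          ∀ q ∈ S, ∀ m₁ : MaximalSpectrum (LocAlg L q),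
            p ^ k ∣ Nat.card (MulAction.stabilizer Gal(L/K) m₁) := by
  classical
  have hD' : D * ∏ q ∈ S, pv q ≠ 0 := by
    refine mul_ne_zero hD (Finset.prod_ne_zero_iff.2 fun q _ => ?_)
    exact q.2.ne_zero
  obtain ⟨m, hm0, hirr, hmD, hmdisc, -, hM⟩ :=
    exists_cyclic_cyclotomic_primePow K (primesAboveFinset K S) hp k hD'
  refine ⟨m, hm0, hirr, Nat.Coprime.coprime_mul_right_right hmD, hmdisc, ?_, ?_⟩
  · intro q hq hdvd
    have h1 : m.Coprime (∏ q ∈ S, pv q) := Nat.Coprime.coprime_mul_left_right hmD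
    have h2 : m.Coprime (pv q) := Nat.Coprime.coprime_dvd_right (Finset.dvd_prod_of_mem _ hq) h1
    have h3 : pv q ∣ Nat.gcd m (pv q) := Nat.dvd_gcd hdvd dvd_rfl
    rw [h2] at h3
    exact q.2.one_lt.ne' (Nat.dvd_one.1 h3)
  · intro M _ _ _ _ _
    obtain ⟨L, hgal, hcyc, hdvd, hpow, -, hfrob⟩ := hM M
    refine ⟨L, hgal, hcyc, hdvd, hpow, ?_⟩
    intro q hq m₁
    refine dvd_card_stabilizer_maxSpec q m₁ (fun P hP hqP => ?_)
    -- the prime of `K` below `P`
    have hunder : (P.under (𝓞 K)).IsPrime := Ideal.IsPrime.under (𝓞 K) P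
    have hqK : ((pv q : ℕ) : 𝓞 K) ∈ P.under (𝓞 K) := by
      rw [Ideal.under_def, Ideal.mem_comap, map_natCast]
      exact hqP
    have hne : P.under (𝓞 K) ≠ ⊥ := by
      intro h0
      rw [h0, Ideal.mem_bot] at hqK
      have : ((pv q : ℕ) : 𝓞 K) ≠ 0 := Nat.cast_ne_zero.2 q.2.ne_zero
      exact this hqK
    set v : HeightOneSpectrum (𝓞 K) := ⟨P.under (𝓞 K), hunder, hne⟩ with hv
    have hvT : v ∈ primesAboveFinset K S := mem_primesAboveFinset hq v hqK
    obtain ⟨τ, -, hτ, hN⟩ := hfrob v hvT P hP rfl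
    exact ⟨τ, hτ, hN⟩

end Fermat.Agent.Lib.CFT.Global.CycAdapted
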