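import Fermat.Agent.Lib.CFT.Global.EtaleAlg

/-!
# Decomposition groups and residue fields in a tower of `G`-algebras

Abstract form of the tower facts needed for the inflation compatibility of local invariants:
`φ : E →+* E'` a ring homomorphism, `f : G' →* G` a group homomorphism, `G` acting on `E`, `G'` on
`E'`, with `φ (f g' • x) = g' • φ x`; `m'` a maximal ideal of `E'` over the maximal ideal `m` of
`E` (`m = φ⁻¹ m'`).

* `decompMap : stabilizer G' m' →* stabilizer G m`, `residueMap : E ⧸ m →+* E' ⧸ m'` (injective),
  `residueMap_smul` (equivariance);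
* `decompMap_surjective`: if `f` is surjective and the `ker f`-invariants of `E'` come from `E`
  (for `E = ℚ_q ⊗ L`, `E' = ℚ_q ⊗ L'`, `ker f = Gal(L'/L)`), then `decompMap` is surjective;
* `exists_residueMap_eq_of_ker_fixed`, `fixed_iff_exists_residueMap`: the fixed field of the
  decomposition group of `m'` in `E' ⧸ m'` is the image of the fixed field of the decomposition
  group of `m` in `E ⧸ m` (characteristic zero).
-/

set_option autoImplicit false
set_option linter.style.haveILetI false

namespace Fermat.Agent.Lib.CFT.Global.EtaleAlg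

open scoped Pointwise

section Tower

variable {G G' E E' : Type*} [Group G] [Group G'] [CommRing E] [CommRing E']
  [MulSemiringAction G E] [MulSemiringAction G' E']
  (φ : E →+* E') (f : G' →* G) (hφ : ∀ (g' : G') (x : E), φ (f g' • x) = g' • φ x)
  (m' : MaximalSpectrum E') (m : MaximalSpectrum E) (hm : m.asIdeal = m'.asIdeal.comap φ)

include hφ in
/-- Contraction of maximal ideals along an equivariant ring homomorphism is equivariant. -/
lemma smul_asIdeal_eq_comap (g' : G') {m' : MaximalSpectrum E'} {m : MaximalSpectrum E}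
    (hm : m.asIdeal = m'.asIdeal.comap φ) :
    (f g' • m).asIdeal = (g' • m').asIdeal.comap φ := by
  ext x
  rw [mem_smul_asIdeal_iff, hm, Ideal.mem_comap, Ideal.mem_comap, mem_smul_asIdeal_iff,
    ← map_inv, hφ]

include hφ hm in
lemma map_mem_stabilizer {s' : G'} (hs' : s' ∈ MulAction.stabilizer G' m') :
    f s' ∈ MulAction.stabilizer G m := by
  rw [MulAction.mem_stabilizer_iff] at hs' ⊢
  apply MaximalSpectrum.ext
  rw [smul_asIdeal_eq_comap φ f hφ s' hm, hs', hm]

/-- The map between decomposition groups induced by an equivariant ring homomorphism. -/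
def decompMap : MulAction.stabilizer G' m' →* MulAction.stabilizer G m :=
  (f.comp (MulAction.stabilizer G' m').subtype).codRestrict _
    (fun s' => map_mem_stabilizer φ f hφ m' m hm s'.2)

@[simp] lemma coe_decompMap (s' : MulAction.stabilizer G' m') :
    ((decompMap φ f hφ m' m hm s' : MulAction.stabilizer G m) : G) = f (s' : G') := rfl

/-- The map between residue fields induced by a ring homomorphism. -/
def residueMap : E ⧸ m.asIdeal →+* E' ⧸ m'.asIdeal :=
  Ideal.quotientMap m'.asIdeal φ (hm ▸ le_rfl)

@[simp] lemma residueMap_mk (x : E) :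
    residueMap φ m' m hm (Ideal.Quotient.mk m.asIdeal x) = Ideal.Quotient.mk m'.asIdeal (φ x) :=
  rfl

lemma residueMap_injective : Function.Injective (residueMap φ m' m hm) :=
  Ideal.quotientMap_injective' (hm ▸ le_rfl)

/-- The map between residue fields is equivariant along the map between decomposition groups. -/
lemma residueMap_smul (s' : MulAction.stabilizer G' m') (x : E ⧸ m.asIdeal) :
    residueMap φ m' m hm (decompMap φ f hφ m' m hm s' • x) = s' • residueMap φ m' m hm x := by
  obtain ⟨x, rfl⟩ := Ideal.Quotient.mk_surjective x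
  rw [stab_smul_mk, residueMap_mk, residueMap_mk, stab_smul_mk, coe_decompMap, hφ]

/-- Reduction of units is compatible with the maps of a tower. -/
lemma redUnits_map (u : Eˣ) :
    redUnits m' (Units.map (φ : E →* E') u) =
      Units.map (residueMap φ m' m hm : E ⧸ m.asIdeal →* E' ⧸ m'.asIdeal) (redUnits m u) :=
  Units.ext rfl

include hφ in
/-- The kernel of `f` acts `E`-linearly on `E'`. -/
lemma ker_smul_map (n : f.ker) (x : E) : (n : G') • φ x = φ x := by
  rw [← hφ, (MonoidHom.mem_ker).1 n.2, one_smul]

include hφ hm in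
/-- **Surjectivity of the map between decomposition groups** in a tower: if `f : G' →* G` is
surjective and the invariants of `ker f` in `E'` come from `E`, then every element of the
decomposition group of `m` lifts to the decomposition group of `m'` (because `ker f` permutes
transitively the maximal ideals of `E'` over `m`). -/
theorem decompMap_surjective [Finite G'] (hf : Function.Surjective f)
    (hinv : ∀ y : E', (∀ n : f.ker, (n : G') • y = y) → ∃ x : E, φ x = y) :
    Function.Surjective (decompMap φ f hφ m' m hm) := by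
  intro s
  obtain ⟨g', hg'⟩ := hf (s : G)
  letI : Algebra E E' := φ.toAlgebra
  haveI : SMulCommClass f.ker E E' := ⟨fun n a b => by
    show n • (φ a * b) = φ a * n • b
    rw [smul_mul']
    congr 1
    exact ker_smul_map φ f hφ n a⟩
  haveI : Algebra.IsInvariant E E' f.ker := ⟨fun b hb => hinv b hb⟩
  haveI := m'.isMaximal.isPrime
  haveI := (g' • m').isMaximal.isPrime
  have hunder : m'.asIdeal.under E = (g' • m').asIdeal.under E := by
    show m'.asIdeal.comap φ = (g' • m').asIdeal.comap φ
    rw [← smul_asIdeal_eq_comap φ f hφ g' hm, hg', ← hm]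
    have := s.2
    rw [MulAction.mem_stabilizer_iff] at this
    rw [this]
  obtain ⟨n, hn⟩ := Algebra.IsInvariant.exists_smul_of_under_eq E E' f.ker
    m'.asIdeal (g' • m').asIdeal hunder
  have hstab : (n : G')⁻¹ * g' ∈ MulAction.stabilizer G' m' := by
    rw [MulAction.mem_stabilizer_iff, mul_smul]
    apply MaximalSpectrum.ext
    rw [smul_asIdeal, hn]
    exact inv_smul_smul (n : G') m'.asIdeal
  refine ⟨⟨(n : G')⁻¹ * g', hstab⟩, Subtype.ext ?_⟩
  rw [coe_decompMap]
  show f ((n : G')⁻¹ * g') = s
  rw [map_mul, map_inv, (MonoidHom.mem_ker).1 n.2, inv_one, one_mul, hg']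

include hφ in
/-- **Residue fields in a tower**: if the invariants of `ker f` in `E'` come from `E`, then an
element of the residue field `E' ⧸ m'` fixed by the decomposition group of `m'` inside `ker f`
comes from the residue field `E ⧸ m` (characteristic zero, so that the residue extension, which
is normal, is Galois). -/
theorem exists_residueMap_eq_of_ker_fixed [Finite G'] [CharZero (E ⧸ m.asIdeal)]
    (hinv : ∀ y : E', (∀ n : f.ker, (n : G') • y = y) → ∃ x : E, φ x = y)
    (y : E' ⧸ m'.asIdeal)
    (hy : ∀ s' : MulAction.stabilizer G' m', f (s' : G') = 1 → s' • y = y) :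
    ∃ x : E ⧸ m.asIdeal, residueMap φ m' m hm x = y := by
  letI : Algebra E E' := φ.toAlgebra
  haveI : SMulCommClass f.ker E E' := ⟨fun n a b => by
    show n • (φ a * b) = φ a * n • b
    rw [smul_mul']
    congr 1
    exact ker_smul_map φ f hφ n a⟩
  haveI : Algebra.IsInvariant E E' f.ker := ⟨fun b hb => hinv b hb⟩
  haveI hP := m.isMaximal
  haveI hQ := m'.isMaximal
  haveI : m'.asIdeal.LiesOver m.asIdeal := ⟨hm⟩
  letI := Ideal.Quotient.field m.asIdeal
  letI := Ideal.Quotient.field m'.asIdeal
  have hnormal : Normal (E ⧸ m.asIdeal) (E' ⧸ m'.asIdeal) :=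
    Ideal.Quotient.normal (A := E) (B := E') f.ker m.asIdeal m'.asIdeal
  haveI : Algebra.IsAlgebraic (E ⧸ m.asIdeal) (E' ⧸ m'.asIdeal) := hnormal.toIsAlgebraic
  haveI : Algebra.IsSeparable (E ⧸ m.asIdeal) (E' ⧸ m'.asIdeal) :=
    Algebra.IsAlgebraic.isSeparable_of_perfectField
  haveI : IsGalois (E ⧸ m.asIdeal) (E' ⧸ m'.asIdeal) := {}
  have hsurj := Ideal.Quotient.stabilizerHom_surjective f.ker m.asIdeal m'.asIdeal
  have hmem : y ∈ (⊥ : IntermediateField (E ⧸ m.asIdeal) (E' ⧸ m'.asIdeal)) := by
    rw [InfiniteGalois.mem_bot_iff_fixed]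
    intro σ
    obtain ⟨t, rfl⟩ := hsurj σ
    have ht : ((t : f.ker) : G') ∈ MulAction.stabilizer G' m' := by
      rw [MulAction.mem_stabilizer_iff]
      apply MaximalSpectrum.ext
      have := t.2
      rw [MulAction.mem_stabilizer_iff] at this
      exact this
    have h1 := hy ⟨((t : f.ker) : G'), ht⟩ ((MonoidHom.mem_ker).1 (t : f.ker).2)
    obtain ⟨b, rfl⟩ := Ideal.Quotient.mk_surjective y
    rw [stab_smul_mk] at h1
    exact h1
  obtain ⟨x, hx⟩ := IntermediateField.mem_bot.1 hmem
  obtain ⟨x, rfl⟩ := Ideal.Quotient.mk_surjective x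
  exact ⟨Ideal.Quotient.mk m.asIdeal x, hx⟩

include hφ in
/-- **Decomposition fields in a tower**: the fixed field of the decomposition group of `m'` in
`E' ⧸ m'` is the image of the fixed field of the decomposition group of `m` in `E ⧸ m`. -/
theorem fixed_iff_exists_residueMap [Finite G'] [CharZero (E ⧸ m.asIdeal)]
    (hf : Function.Surjective f)
    (hinv : ∀ y : E', (∀ n : f.ker, (n : G') • y = y) → ∃ x : E, φ x = y)
    (y : E' ⧸ m'.asIdeal) :
    (∀ s' : MulAction.stabilizer G' m', s' • y = y) ↔
      ∃ x : E ⧸ m.asIdeal, (∀ s : MulAction.stabilizer G m, s • x = x) ∧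
        residueMap φ m' m hm x = y := by
  constructor
  · intro hy
    obtain ⟨x, rfl⟩ := exists_residueMap_eq_of_ker_fixed φ f hφ m' m hm hinv y
      (fun s' _ => hy s')
    refine ⟨x, fun s => ?_, rfl⟩
    obtain ⟨s', rfl⟩ := decompMap_surjective φ f hφ m' m hm hf hinv s
    apply residueMap_injective φ m' m hm
    rw [residueMap_smul, hy]
  · rintro ⟨x, hx, rfl⟩ s'
    rw [← residueMap_smul φ f hφ m' m hm, hx]

end Tower

end Fermat.Agent.Lib.CFT.Global.EtaleAlg
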