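import Fermat.Agent.Lib.CFT.Global.EtaleAlgCoh
import Fermat.Agent.Lib.CFT.Coh.ShapiroExplicit

/-!
# Explicit semi-local Shapiro lemma for the units of a `G`-algebra

For a finite product of fields `E` permuted by `G`, with representatives `r i` of the `G`-orbits of
maximal ideals, the *explicit* local projections

`unitsProj G (r i) n : Hⁿ(G, Eˣ) ⟶ Hⁿ(G_{r i}, (E ⧸ r i)ˣ)`

(restriction to the decomposition group followed by reduction modulo `r i`, i.e.
`groupCohomology.map (stabilizer G (r i)).subtype (redHom G (r i)) n`) are jointly bijective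
(`bijective_unitsProj`); the same holds for decomposition-group-stable unit subgroups
(`bijective_subUnitsProj`).  Since these maps are of the form `groupCohomology.map _ _ n`, their
compatibility with inflation, restriction and coefficient maps is formal (`map_comp`).

The generic statement is `bijective_map_of_iso_piRepObj_coind`.
-/

set_option autoImplicit false

universe u

open CategoryTheory Rep groupCohomology

namespace Fermat.Agent.Lib.CFT.Global.EtaleAlg

open Fermat.Agent.Lib.CFT.Coh.ShapiroExplicit

section Generic

variable {k G : Type u} [CommRing k] [Group G] {ι : Type} [Fintype ι] [DecidableEq ι]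

/-- Group cohomology of a finite product representation: the maps induced by the projections are
jointly bijective. -/
theorem bijective_map_piRepProj (A : ι → Rep.{u} k G) (n : ℕ) :
    Function.Bijective (fun (x : groupCohomology (piRepObj A) n) (i : ι) =>
      map (MonoidHom.id G) (Rep.ofHom (piRepProj A i)) n x) :=
  bijective_pi_map_of_total (functor k G n) (piRepBicone A) (piRepBicone_total A)

variable (S : ι → Subgroup G) [∀ i, (S i).FiniteIndex] (B : ∀ i, Rep.{u} k (S i))

/-- **Explicit semi-local Shapiro lemma.**  If `M` is isomorphic to the product of the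
representations coinduced from `B i : Rep k (S i)`, and `f i : Res_{S i} M ⟶ B i` is the `i`-th
component of the isomorphism followed by evaluation at `1`, then the explicit maps
`Hⁿ(G, M) ⟶ Hⁿ(S i, B i)` (restriction to `S i` followed by `f i`) are jointly bijective. -/
theorem bijective_map_of_iso_piRepObj_coind (M : Rep.{u} k G)
    (e : M ≅ piRepObj fun i => coind (S i).subtype (B i))
    (f : ∀ i, res (S i).subtype M ⟶ B i)
    (hf : ∀ i, (resFunctor (S i).subtype).map
      (e.hom ≫ Rep.ofHom (piRepProj (fun i => coind (S i).subtype (B i)) i)) ≫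
        coindEval (S i) (B i) = f i) (n : ℕ) :
    Function.Bijective (fun (x : groupCohomology M n) (i : ι) =>
      map (S i).subtype (f i) n x) := by
  have h1 : Function.Bijective (map (MonoidHom.id G) e.hom n) :=
    ConcreteCategory.bijective_of_isIso ((functor k G n).mapIso e).hom
  have h2 := bijective_map_piRepProj (fun i => coind (S i).subtype (B i)) n
  have h3 : Function.Bijective (fun (y : ∀ i, groupCohomology (coind (S i).subtype (B i)) n)
      (i : ι) => shapiroMap (S i) (B i) n (y i)) :=
    Function.Bijective.piMap fun i => bijective_shapiroMap (S i) (B i) n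
  have h := h3.comp (h2.comp h1)
  convert h using 1
  funext x i
  have h4 := map_comp_shapiroMap (S i)
    (e.hom ≫ Rep.ofHom (piRepProj (fun i => coind (S i).subtype (B i)) i)) (f i) (hf i) n
  rw [map_id_comp, Category.assoc] at h4
  exact (ConcreteCategory.congr_hom h4 x).symm

end Generic

section Units

open scoped Pointwise

attribute [local instance] Units.mulDistribMulActionRight

variable (G : Type) {E : Type} [Group G] [CommRing E] [MulSemiringAction G E]

/-- Reduction modulo a maximal ideal `m`, as a morphism of representations of the decomposition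
group `G_m` from (the restriction of) `Eˣ` to `(E ⧸ m)ˣ`. -/
noncomputable def redHom (m : MaximalSpectrum E) :
    res (MulAction.stabilizer G m).subtype (Rep.ofMulDistribMulAction G Eˣ) ⟶
      Rep.ofMulDistribMulAction (MulAction.stabilizer G m) (E ⧸ m.asIdeal)ˣ :=
  Rep.ofHom (ρ := (res (MulAction.stabilizer G m).subtype (Rep.ofMulDistribMulAction G Eˣ)).ρ)
    (σ := Representation.ofMulDistribMulAction (MulAction.stabilizer G m) (E ⧸ m.asIdeal)ˣ)
    ⟨redAdd m, fun s => LinearMap.ext fun v => redAdd_equivariant m s v⟩

@[simp]
lemma redHom_apply (m : MaximalSpectrum E) (u : Additive Eˣ) :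
    (redHom G m).hom u = Additive.ofMul (redUnits m u.toMul) := rfl

/-- The explicit local projection `Hⁿ(G, Eˣ) ⟶ Hⁿ(G_m, (E ⧸ m)ˣ)`: restrict to the decomposition
group of `m` and reduce modulo `m`. -/
noncomputable abbrev unitsProj (m : MaximalSpectrum E) (n : ℕ) :
    groupCohomology (Rep.ofMulDistribMulAction G Eˣ) n ⟶
      groupCohomology (Rep.ofMulDistribMulAction (MulAction.stabilizer G m) (E ⧸ m.asIdeal)ˣ) n :=
  map (MulAction.stabilizer G m).subtype (redHom G m) n

variable [IsArtinianRing E] [IsReduced E] {ι : Type} [Fintype ι] [DecidableEq ι]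
  (r : ι → MaximalSpectrum E) [∀ i, (MulAction.stabilizer G (r i)).FiniteIndex]
  (hcov : ∀ m : MaximalSpectrum E, ∃ i, ∃ g : G, g • m = r i)
  (hsep : ∀ i j (g : G), g • r i = r j → i = j)

include hcov hsep in
/-- **Explicit semi-local Shapiro lemma for units**: for a system `r` of representatives of the
`G`-orbits on the maximal spectrum of `E`, the explicit local projections
`Hⁿ(G, Eˣ) ⟶ Hⁿ(G_{r i}, (E ⧸ r i)ˣ)` are jointly bijective. -/
theorem bijective_unitsProj (n : ℕ) :
    Function.Bijective (fun (x : groupCohomology (Rep.ofMulDistribMulAction G Eˣ) n) (i : ι) =>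
      unitsProj G (r i) n x) := by
  refine bijective_map_of_iso_piRepObj_coind (fun i => MulAction.stabilizer G (r i))
    (fun i => Rep.ofMulDistribMulAction (MulAction.stabilizer G (r i)) (E ⧸ (r i).asIdeal)ˣ)
    (Rep.ofMulDistribMulAction G Eˣ) (unitsIsoPiRepObj G r hcov hsep)
    (fun i => redHom G (r i)) (fun i => ?_) n
  refine Rep.hom_ext (Representation.IntertwiningMap.ext (LinearMap.ext fun (u : Additive Eˣ) => ?_))
  show Additive.ofMul (redUnits (r i) ((1 : G) • (Additive.toMul u))) = redAdd (r i) u
  rw [one_smul]
  rfl

end Units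

section SubUnits

open scoped Pointwise

attribute [local instance] Units.mulDistribMulActionRight

variable (G : Type) {E : Type} [Group G] [CommRing E] [MulSemiringAction G E]
  {ι : Type} (r : ι → MaximalSpectrum E)
  (W : ∀ i, Submodule ℤ (Additive (E ⧸ (r i).asIdeal)ˣ))
  (hW : ∀ i (s : MulAction.stabilizer G (r i)), W i ≤ (W i).comap
    (Representation.ofMulDistribMulAction (MulAction.stabilizer G (r i)) (E ⧸ (r i).asIdeal)ˣ s))

/-- Reduction modulo `r i` on the stable unit subgroup cut out by `W`, as a morphism of
representations of the decomposition group of `r i`. -/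
noncomputable def subRedHom (i : ι) :
    res (MulAction.stabilizer G (r i)).subtype (subUnitsRep G r W) ⟶
      subUnitsLocalRep G r W hW i :=
  Rep.ofHom (ρ := (res (MulAction.stabilizer G (r i)).subtype (subUnitsRep G r W)).ρ)
    (σ := (subUnitsLocalRep G r W hW i).ρ)
    ⟨redSub r W i, fun s => LinearMap.ext fun u => redSub_equivariant r W hW i s u⟩

/-- The explicit local projection for the stable unit subgroup cut out by `W`. -/
noncomputable abbrev subUnitsProj (i : ι) (n : ℕ) :
    groupCohomology (subUnitsRep G r W) n ⟶ groupCohomology (subUnitsLocalRep G r W hW i) n :=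
  map (MulAction.stabilizer G (r i)).subtype (subRedHom G r W hW i) n

/-- The inclusion of the stable unit subgroup cut out by `W` into `Eˣ`. -/
noncomputable def subUnitsι : subUnitsRep G r W ⟶ Rep.ofMulDistribMulAction G Eˣ :=
  Rep.ofHom (ρ := (subUnitsRep G r W).ρ) (σ := Representation.ofMulDistribMulAction G Eˣ)
    ⟨(unitsSubmodule (G := G) r W).subtype, fun _ => rfl⟩

/-- The inclusion of `W i` into `(E ⧸ r i)ˣ`. -/
noncomputable def subUnitsLocalι (i : ι) :
    subUnitsLocalRep G r W hW i ⟶
      Rep.ofMulDistribMulAction (MulAction.stabilizer G (r i)) (E ⧸ (r i).asIdeal)ˣ :=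
  Rep.ofHom (ρ := (subUnitsLocalRep G r W hW i).ρ)
    (σ := Representation.ofMulDistribMulAction (MulAction.stabilizer G (r i))
      (E ⧸ (r i).asIdeal)ˣ)
    ⟨(W i).subtype, fun _ => rfl⟩

/-- The explicit local projections are compatible with the inclusions of the stable unit
subgroups. -/
lemma subUnitsProj_comp_map_ι (i : ι) (n : ℕ) :
    subUnitsProj G r W hW i n ≫
        map (MonoidHom.id (MulAction.stabilizer G (r i))) (subUnitsLocalι G r W hW i) n =
      map (MonoidHom.id G) (subUnitsι G r W) n ≫ unitsProj G (r i) n := by
  rw [subUnitsProj, unitsProj, ← map_comp, ← map_comp]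
  exact map_congr rfl rfl n

variable [IsArtinianRing E] [IsReduced E] [Fintype ι] [DecidableEq ι]
  [∀ i, (MulAction.stabilizer G (r i)).FiniteIndex]
  (hcov : ∀ m : MaximalSpectrum E, ∃ i, ∃ g : G, g • m = r i)
  (hsep : ∀ i j (g : G), g • r i = r j → i = j)

include hcov hsep in
/-- **Explicit semi-local Shapiro lemma for stable unit subgroups** (e.g. local integral units):
the explicit local projections are jointly bijective. -/
theorem bijective_subUnitsProj (n : ℕ) :
    Function.Bijective (fun (x : groupCohomology (subUnitsRep G r W) n) (i : ι) =>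
      subUnitsProj G r W hW i n x) := by
  refine bijective_map_of_iso_piRepObj_coind (fun i => MulAction.stabilizer G (r i))
    (fun i => subUnitsLocalRep G r W hW i)
    (subUnitsRep G r W) (subUnitsIsoPiRepObj G r W hW hcov hsep)
    (fun i => subRedHom G r W hW i) (fun i => ?_) n
  refine Rep.hom_ext (Representation.IntertwiningMap.ext
    (LinearMap.ext fun (u : unitsSubmodule (G := G) r W) => ?_))
  show redSub r W i (((Representation.ofMulDistribMulAction G Eˣ).subrepresentation
    (unitsSubmodule (G := G) r W) (unitsSubmodule_le_comap r W)) 1 u) = redSub r W i u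
  rw [map_one]
  rfl

end SubUnits

end Fermat.Agent.Lib.CFT.Global.EtaleAlg
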