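import Mathlib
import Fermat.Agent.Lib.CFT.Global.IdeleSES
import Fermat.Agent.Lib.CFT.Global.IdeleMap
import Fermat.Agent.Lib.CFT.Global.EtaleAlgShapiro
import Fermat.Agent.Lib.CFT.Coh.EquivariantMap

/-!
# Local components of idele cohomology

For a number field `L` with a group `G` acting by ring automorphisms, a rational prime `q` and a
maximal ideal `m` of `LocAlg L q = ℚ_q ⊗ L` (i.e. a prime of `L` above `q`) with stabiliser
`D = Stab_G(m)` (the decomposition group), the *local component map*

`locComp L G q m n : Hⁿ(G, J_L) ⟶ Hⁿ(D, (LocAlg L q ⧸ m)ˣ)`

is restriction to `D` followed by the map induced by projection to the `q`-component and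
reduction modulo `m`.  Same at the archimedean algebra `ArchAlg L = ℝ ⊗ L` (`archComp`).

The main results are the naturality statements `locComp_natural` and `archComp_natural`: for a
ring homomorphism `ι : L →+* L'` of number fields which is equivariant along a group homomorphism
`f : G' →* G`, and primes `m'` over `m`, the local component maps are compatible with the maps
induced by `(f, ideleMap ι)` on idele cohomology and by the induced maps on decomposition groups
and residue fields.  This covers both inflation (`f` surjective) and restriction (`ι = id`,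
`f` a subgroup inclusion).
-/

set_option autoImplicit false

namespace Fermat.Agent.Lib.CFT.Global

open CategoryTheory EtaleAlg





section Proj

variable (L : Type) [Field L] [NumberField L]
variable (G : Type) [Group G] [MulSemiringAction G L]

/-- Projection of an idele to its `q`-component. -/
def ideleLocProj (q : Nat.Primes) : Idele L →* (LocAlg L q)ˣ where
  toFun x := (x : IdeleProd L).1 q
  map_one' := rfl
  map_mul' _ _ := rfl

/-- Projection of an idele to its archimedean component. -/
def ideleArchProj : Idele L →* (ArchAlg L)ˣ where
  toFun x := (x : IdeleProd L).2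
  map_one' := rfl
  map_mul' _ _ := rfl

@[simp] lemma ideleLocProj_apply (q : Nat.Primes) (x : Idele L) :
    ideleLocProj L q x = (x : IdeleProd L).1 q := rfl

@[simp] lemma ideleArchProj_apply (x : Idele L) :
    ideleArchProj L x = (x : IdeleProd L).2 := rfl

lemma ideleLocProj_smul (q : Nat.Primes) (g : G) (x : Idele L) :
    ideleLocProj L q (g • x) = g • ideleLocProj L q x := rfl

lemma ideleArchProj_smul (g : G) (x : Idele L) :
    ideleArchProj L (g • x) = g • ideleArchProj L x := rfl

lemma ideleLocProj_principal (q : Nat.Primes) (x : Lˣ) :
    ideleLocProj L q (principal L x) = locUnit L q x := rfl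

lemma ideleArchProj_principal (x : Lˣ) :
    ideleArchProj L (principal L x) = archUnit L x := rfl

/-- The `q`-component projection as a morphism of `Rep ℤ G`. -/
noncomputable def ideleLocProjRep (q : Nat.Primes) :
    ideleRep L G ⟶ Rep.ofMulDistribMulAction G (LocAlg L q)ˣ :=
  repHomOfMulEquivariant (ideleLocProj L q) (ideleLocProj_smul L G q)

/-- The archimedean projection as a morphism of `Rep ℤ G`. -/
noncomputable def ideleArchProjRep :
    ideleRep L G ⟶ Rep.ofMulDistribMulAction G (ArchAlg L)ˣ :=
  repHomOfMulEquivariant (ideleArchProj L) (ideleArchProj_smul L G)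

end Proj

section Comp

open scoped Pointwise

attribute [local instance] Units.mulDistribMulActionRight

variable (L : Type) [Field L] [NumberField L]
variable (G : Type) [Group G] [MulSemiringAction G L]

/-- The morphism of representations of the decomposition group `D = Stab_G(m)` from (the
restriction of) the ideles to the units of the residue field at `m`. -/
noncomputable def locCompHom (q : Nat.Primes) (m : MaximalSpectrum (LocAlg L q)) :
    Rep.res (MulAction.stabilizer G m).subtype (ideleRep L G) ⟶
      Rep.ofMulDistribMulAction (MulAction.stabilizer G m) (LocAlg L q ⧸ m.asIdeal)ˣ :=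
  (Rep.resFunctor (MulAction.stabilizer G m).subtype).map (ideleLocProjRep L G q) ≫ redHom G m

/-- The local component map `Hⁿ(G, J_L) ⟶ Hⁿ(D, (LocAlg L q ⧸ m)ˣ)`. -/
noncomputable def locComp (q : Nat.Primes) (m : MaximalSpectrum (LocAlg L q)) (n : ℕ) :
    groupCohomology (ideleRep L G) n ⟶
      groupCohomology
        (Rep.ofMulDistribMulAction (MulAction.stabilizer G m) (LocAlg L q ⧸ m.asIdeal)ˣ) n :=
  groupCohomology.map (MulAction.stabilizer G m).subtype (locCompHom L G q m) n

lemma locCompHom_apply (q : Nat.Primes) (m : MaximalSpectrum (LocAlg L q))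
    (x : Additive (Idele L)) :
    (locCompHom L G q m).hom x =
      Additive.ofMul (redUnits m (ideleLocProj L q x.toMul)) := rfl

end Comp

section Natural

open scoped Pointwise

attribute [local instance] Units.mulDistribMulActionRight

variable {G G' E E' : Type} [Group G] [Group G'] [CommRing E] [CommRing E']
  [MulSemiringAction G E] [MulSemiringAction G' E']
  (f : G' →* G) (F : E →+* E') (hF : ∀ (g : G') (x : E), F (f g • x) = g • F x)
  (m : MaximalSpectrum E) (m' : MaximalSpectrum E')
  (hm : m.asIdeal = m'.asIdeal.comap F)

include hF hm in
lemma map_mem_stabilizer_of_comap {g : G'} (hg : g ∈ MulAction.stabilizer G' m') :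
    f g ∈ MulAction.stabilizer G m := by
  rw [MulAction.mem_stabilizer_iff] at hg ⊢
  apply MaximalSpectrum.ext
  ext x
  rw [mem_smul_asIdeal_iff, hm, Ideal.mem_comap, Ideal.mem_comap]
  have h1 : F ((f g)⁻¹ • x) = g⁻¹ • F x := by
    rw [← map_inv, hF]
  rw [h1, ← mem_smul_asIdeal_iff, hg]

/-- The homomorphism between decomposition groups induced by `f : G' →* G`, for a maximal
ideal `m'` lying over `m`. -/
def stabilizerMapAlong : MulAction.stabilizer G' m' →* MulAction.stabilizer G m where
  toFun s := ⟨f (s : G'), map_mem_stabilizer_of_comap f F hF m m' hm s.2⟩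
  map_one' := Subtype.ext (map_one f)
  map_mul' s t := Subtype.ext (map_mul f (s : G') (t : G'))

@[simp] lemma coe_stabilizerMapAlong (s : MulAction.stabilizer G' m') :
    ((stabilizerMapAlong f F hF m m' hm s : MulAction.stabilizer G m) : G) = f (s : G') := rfl

lemma subtype_comp_stabilizerMapAlong :
    f.comp (MulAction.stabilizer G' m').subtype =
      (MulAction.stabilizer G m).subtype.comp (stabilizerMapAlong f F hF m m' hm) := rfl

/-- The ring homomorphism between residue fields induced by `F`, for `m'` over `m`. -/
noncomputable def residueMapAlong : E ⧸ m.asIdeal →+* E' ⧸ m'.asIdeal :=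
  Ideal.quotientMap m'.asIdeal F (le_of_eq hm)

@[simp] lemma residueMapAlong_mk (x : E) :
    residueMapAlong F m m' hm (Ideal.Quotient.mk _ x) = Ideal.Quotient.mk _ (F x) := rfl

lemma residueMapAlong_smul (s : MulAction.stabilizer G' m') (x : E ⧸ m.asIdeal) :
    residueMapAlong F m m' hm (stabilizerMapAlong f F hF m m' hm s • x) =
      s • residueMapAlong F m m' hm x := by
  obtain ⟨x, rfl⟩ := Ideal.Quotient.mk_surjective x
  rw [stab_smul_mk, residueMapAlong_mk, residueMapAlong_mk, stab_smul_mk,
    coe_stabilizerMapAlong, hF]

/-- The map on units of residue fields. -/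
noncomputable def residueUnitsMapAlong : (E ⧸ m.asIdeal)ˣ →* (E' ⧸ m'.asIdeal)ˣ :=
  Units.map (residueMapAlong F m m' hm : E ⧸ m.asIdeal →* E' ⧸ m'.asIdeal)

lemma residueUnitsMapAlong_smul (s : MulAction.stabilizer G' m') (u : (E ⧸ m.asIdeal)ˣ) :
    residueUnitsMapAlong F m m' hm (stabilizerMapAlong f F hF m m' hm s • u) =
      s • residueUnitsMapAlong F m m' hm u := by
  apply Units.ext
  exact residueMapAlong_smul f F hF m m' hm s (u : E ⧸ m.asIdeal)

lemma residueUnitsMapAlong_redUnits (u : Eˣ) :
    residueUnitsMapAlong F m m' hm (redUnits m u) = redUnits m' (Units.map (F : E →* E') u) := by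
  apply Units.ext
  rfl

/-- The map on units of residue fields as a morphism of representations of the decomposition
group of `m'`. -/
noncomputable def residueUnitsRepHomAlong :
    Rep.res (stabilizerMapAlong f F hF m m' hm)
        (Rep.ofMulDistribMulAction (MulAction.stabilizer G m) (E ⧸ m.asIdeal)ˣ) ⟶
      Rep.ofMulDistribMulAction (MulAction.stabilizer G' m') (E' ⧸ m'.asIdeal)ˣ :=
  repHomOfMulEquivariantAlong (stabilizerMapAlong f F hF m m' hm)
    (residueUnitsMapAlong F m m' hm) (residueUnitsMapAlong_smul f F hF m m' hm)

/-- **Naturality of the explicit local projections** `unitsProj` (restriction to the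
decomposition group followed by reduction) with respect to an equivariant ring homomorphism. -/
theorem unitsProj_natural (n : ℕ) :
    groupCohomology.map f (unitsRepHomAlong f F hF) n ≫ unitsProj G' m' n =
      unitsProj G m n ≫
        groupCohomology.map (stabilizerMapAlong f F hF m m' hm)
          (residueUnitsRepHomAlong f F hF m m' hm) n := by
  refine groupCohomology_map_square f _ _ _ (subtype_comp_stabilizerMapAlong f F hF m m' hm)
    _ _ _ _ ?_ n
  refine LinearMap.ext fun u => ?_
  exact congrArg Additive.ofMul (residueUnitsMapAlong_redUnits F m m' hm u.toMul)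

end Natural

section ArchComp

open scoped Pointwise

attribute [local instance] Units.mulDistribMulActionRight

variable (L : Type) [Field L] [NumberField L]
variable (G : Type) [Group G] [MulSemiringAction G L]

/-- The archimedean analogue of `locCompHom`. -/
noncomputable def archCompHom (m : MaximalSpectrum (ArchAlg L)) :
    Rep.res (MulAction.stabilizer G m).subtype (ideleRep L G) ⟶
      Rep.ofMulDistribMulAction (MulAction.stabilizer G m) (ArchAlg L ⧸ m.asIdeal)ˣ :=
  (Rep.resFunctor (MulAction.stabilizer G m).subtype).map (ideleArchProjRep L G) ≫ redHom G m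

/-- The archimedean local component map `Hⁿ(G, J_L) ⟶ Hⁿ(D, (ArchAlg L ⧸ m)ˣ)`. -/
noncomputable def archComp (m : MaximalSpectrum (ArchAlg L)) (n : ℕ) :
    groupCohomology (ideleRep L G) n ⟶
      groupCohomology
        (Rep.ofMulDistribMulAction (MulAction.stabilizer G m) (ArchAlg L ⧸ m.asIdeal)ˣ) n :=
  groupCohomology.map (MulAction.stabilizer G m).subtype (archCompHom L G m) n

lemma archCompHom_apply (m : MaximalSpectrum (ArchAlg L)) (x : Additive (Idele L)) :
    (archCompHom L G m).hom x =
      Additive.ofMul (redUnits m (ideleArchProj L x.toMul)) := rfl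

/-- `locComp` factors through the projection to the `q`-component. -/
lemma locComp_eq (q : Nat.Primes) (m : MaximalSpectrum (LocAlg L q)) (n : ℕ) :
    locComp L G q m n =
      groupCohomology.map (MonoidHom.id G) (ideleLocProjRep L G q) n ≫ unitsProj G m n := by
  rw [locComp, unitsProj, ← groupCohomology.map_comp]
  exact groupCohomology.map_congr rfl rfl n

/-- `archComp` factors through the projection to the archimedean component. -/
lemma archComp_eq (m : MaximalSpectrum (ArchAlg L)) (n : ℕ) :
    archComp L G m n =
      groupCohomology.map (MonoidHom.id G) (ideleArchProjRep L G) n ≫ unitsProj G m n := by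
  rw [archComp, unitsProj, ← groupCohomology.map_comp]
  exact groupCohomology.map_congr rfl rfl n

end ArchComp

section IdeleNatural

open scoped Pointwise

attribute [local instance] Units.mulDistribMulActionRight

variable {L L' : Type} [Field L] [NumberField L] [Field L'] [NumberField L']
variable {G G' : Type} [Group G] [Group G'] [MulSemiringAction G L] [MulSemiringAction G' L']
  (f : G' →* G) (ι : L →+* L') (hι : ∀ (g : G') (x : L), ι (f g • x) = g • ι x)

include hι in
lemma locMap_smul_along (q : Nat.Primes) (g : G') (x : LocAlg L q) :
    locMap ι q (f g • x) = g • locMap ι q x := by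
  have hcomp : ι.comp (MulSemiringAction.toRingHom G L (f g)) =
      (MulSemiringAction.toRingHom G' L' g).comp ι := by
    ext x; simp [hι]
  rw [smul_locAlg_def, smul_locAlg_def, ← locMap_comp, ← locMap_comp, hcomp]

include hι in
lemma archMap_smul_along (g : G') (x : ArchAlg L) :
    archMap ι (f g • x) = g • archMap ι x := by
  have hcomp : ι.comp (MulSemiringAction.toRingHom G L (f g)) =
      (MulSemiringAction.toRingHom G' L' g).comp ι := by
    ext x; simp [hι]
  rw [smul_archAlg_def, smul_archAlg_def, ← archMap_comp, ← archMap_comp, hcomp]

include hι in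
/-- `ideleMap ι` is equivariant along `f` when `ι` is. -/
lemma ideleMap_smul_along (g : G') (a : Idele L) :
    ideleMap ι (f g • a) = g • ideleMap ι a := by
  apply Subtype.ext
  ext : 1
  · funext q
    apply Units.ext
    exact locMap_smul_along f ι hι q g _
  · apply Units.ext
    exact archMap_smul_along f ι hι g _

/-- `ideleMap ι` as a morphism of representations of `G'`. -/
noncomputable def ideleMapRepHom : Rep.res f (ideleRep L G) ⟶ ideleRep L' G' :=
  repHomOfMulEquivariantAlong f (ideleMap ι) (ideleMap_smul_along f ι hι)

variable (q : Nat.Primes) (m : MaximalSpectrum (LocAlg L q)) (m' : MaximalSpectrum (LocAlg L' q))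
  (hm : m.asIdeal = m'.asIdeal.comap ((locMap ι q : LocAlg L q →ₐ[ℚ_[pv q]] LocAlg L' q) :
    LocAlg L q →+* LocAlg L' q))

/-- **Naturality of the local component maps** at a finite prime: for `ι : L →+* L'` equivariant
along `f : G' →* G` and `m'` a prime of `L'` above the prime `m` of `L`, the local components of
the image of a class under `(f, ideleMap ι)` are the images of its local components under the
induced maps on decomposition groups and residue fields. -/
theorem locComp_natural (n : ℕ) :
    groupCohomology.map f (ideleMapRepHom f ι hι) n ≫ locComp L' G' q m' n =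
      locComp L G q m n ≫
        groupCohomology.map
          (stabilizerMapAlong f _ (locMap_smul_along f ι hι q) m m' hm)
          (residueUnitsRepHomAlong f _ (locMap_smul_along f ι hι q) m m' hm) n := by
  rw [locComp_eq, locComp_eq, Category.assoc,
    ← unitsProj_natural f _ (locMap_smul_along f ι hι q) m m' hm n,
    ← Category.assoc, ← Category.assoc]
  congr 1
  rw [← groupCohomology.map_comp, ← groupCohomology.map_comp]
  exact groupCohomology.map_congr rfl rfl n

variable (a : MaximalSpectrum (ArchAlg L)) (a' : MaximalSpectrum (ArchAlg L'))
  (ha : a.asIdeal = a'.asIdeal.comap ((archMap ι : ArchAlg L →ₐ[ℝ] ArchAlg L') :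
    ArchAlg L →+* ArchAlg L'))

/-- **Naturality of the local component maps** at the archimedean places. -/
theorem archComp_natural (n : ℕ) :
    groupCohomology.map f (ideleMapRepHom f ι hι) n ≫ archComp L' G' a' n =
      archComp L G a n ≫
        groupCohomology.map
          (stabilizerMapAlong f _ (archMap_smul_along f ι hι) a a' ha)
          (residueUnitsRepHomAlong f _ (archMap_smul_along f ι hι) a a' ha) n := by
  rw [archComp_eq, archComp_eq, Category.assoc,
    ← unitsProj_natural f _ (archMap_smul_along f ι hι) a a' ha n,
    ← Category.assoc, ← Category.assoc]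
  congr 1
  rw [← groupCohomology.map_comp, ← groupCohomology.map_comp]
  exact groupCohomology.map_congr rfl rfl n

end IdeleNatural

section Principal

open scoped Pointwise

attribute [local instance] Units.mulDistribMulActionRight

variable (L : Type) [Field L] [NumberField L]
variable (G : Type) [Group G] [MulSemiringAction G L]

/-- The map `Lˣ → (LocAlg L q ⧸ m)ˣ` (embedding of `L` into its completion at `m`), as a morphism
of representations of the decomposition group. -/
noncomputable def principalLocHom (q : Nat.Primes) (m : MaximalSpectrum (LocAlg L q)) :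
    Rep.res (MulAction.stabilizer G m).subtype (unitsRep L G) ⟶
      Rep.ofMulDistribMulAction (MulAction.stabilizer G m) (LocAlg L q ⧸ m.asIdeal)ˣ :=
  (Rep.resFunctor (MulAction.stabilizer G m).subtype).map (principalRepHom L G) ≫
    locCompHom L G q m

lemma principalLocHom_apply (q : Nat.Primes) (m : MaximalSpectrum (LocAlg L q))
    (x : Additive Lˣ) :
    (principalLocHom L G q m).hom x = Additive.ofMul (redUnits m (locUnit L q x.toMul)) := rfl

/-- The archimedean analogue of `principalLocHom`. -/
noncomputable def principalArchHom (m : MaximalSpectrum (ArchAlg L)) :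
    Rep.res (MulAction.stabilizer G m).subtype (unitsRep L G) ⟶
      Rep.ofMulDistribMulAction (MulAction.stabilizer G m) (ArchAlg L ⧸ m.asIdeal)ˣ :=
  (Rep.resFunctor (MulAction.stabilizer G m).subtype).map (principalRepHom L G) ≫
    archCompHom L G m

lemma principalArchHom_apply (m : MaximalSpectrum (ArchAlg L)) (x : Additive Lˣ) :
    (principalArchHom L G m).hom x = Additive.ofMul (redUnits m (archUnit L x.toMul)) := rfl

/-- The local component of the image of a class of `Hⁿ(G, Lˣ)` in `Hⁿ(G, J_L)`. -/
lemma map_principalRepHom_comp_locComp (q : Nat.Primes) (m : MaximalSpectrum (LocAlg L q))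
    (n : ℕ) :
    groupCohomology.map (MonoidHom.id G) (principalRepHom L G) n ≫ locComp L G q m n =
      groupCohomology.map (MulAction.stabilizer G m).subtype (principalLocHom L G q m) n := by
  rw [locComp, ← groupCohomology.map_comp]
  exact groupCohomology.map_congr rfl rfl n

lemma map_principalRepHom_comp_archComp (m : MaximalSpectrum (ArchAlg L)) (n : ℕ) :
    groupCohomology.map (MonoidHom.id G) (principalRepHom L G) n ≫ archComp L G m n =
      groupCohomology.map (MulAction.stabilizer G m).subtype (principalArchHom L G m) n := by
  rw [archComp, ← groupCohomology.map_comp]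
  exact groupCohomology.map_congr rfl rfl n

/-- Elementwise form of `map_principalRepHom_comp_locComp`, with the functorial spelling of the
map induced by `Lˣ → J_L` (as in `hasse_principle_H2`). -/
lemma locComp_map_principalRepHom (q : Nat.Primes) (m : MaximalSpectrum (LocAlg L q))
    (n : ℕ) (y : groupCohomology (unitsRep L G) n) :
    locComp L G q m n ((groupCohomology.functor ℤ G n).map (principalRepHom L G) y) =
      groupCohomology.map (MulAction.stabilizer G m).subtype (principalLocHom L G q m) n y :=
  ConcreteCategory.congr_hom (map_principalRepHom_comp_locComp L G q m n) y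

lemma archComp_map_principalRepHom (m : MaximalSpectrum (ArchAlg L))
    (n : ℕ) (y : groupCohomology (unitsRep L G) n) :
    archComp L G m n ((groupCohomology.functor ℤ G n).map (principalRepHom L G) y) =
      groupCohomology.map (MulAction.stabilizer G m).subtype (principalArchHom L G m) n y :=
  ConcreteCategory.congr_hom (map_principalRepHom_comp_archComp L G m n) y

end Principal

end Fermat.Agent.Lib.CFT.Global
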