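import Fermat.Agent.Lib.CFT.Global.LocalFieldAt
import Fermat.Agent.Lib.CFT.Global.EtaleAlgTower
import Fermat.Agent.Lib.CFT.Global.TensorExt2
import Fermat.Agent.Lib.CFT.Global.LocalComponents

/-!
# Local fields `F_m = ℚ_q ⊗ L ⧸ m` in a Galois tower `K ⊂ L ⊂ L'` (helper75, P-CFT)

Instantiation of the abstract tower facts of `Global/EtaleAlgTower.lean` for `E = ℚ_q ⊗ L`,
`E' = ℚ_q ⊗ L'`, with the conventions of `Global/LocalComponents.lean` (`stabilizerMapAlong`,
`residueMapAlong`, `locMap_smul_along`).

Setting: `K ⊂ L ⊂ L'` number fields, `G`, `G'` finite groups with `IsGaloisGroup G K L`,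
`IsGaloisGroup G' K L'`, `f : G' →* G` compatible with `algebraMap L L'`
(`hf : ∀ g' x, algebraMap L L' (f g' • x) = g' • algebraMap L L' x`), `m'` a maximal ideal of
`ℚ_q ⊗ L'` over the maximal ideal `m` of `ℚ_q ⊗ L`.

* `towerHom_surjective` : `f` is surjective.
* `exists_locMap_eq_of_ker_fixed` : `(ℚ_q ⊗ L')^{ker f} = ℚ_q ⊗ L` (Galois descent).
* `stabilizerMapAlong_surjective` : `D_{m'} → D_m` is surjective.
* `fieldAtMap` : `F_m →ₐ[ℚ_q] F_{m'}`, equivariant (`fieldAtMap_smul`), injective.
* `mem_range_fieldAtMap_iff`, `isGaloisGroup_ker_fieldAt`, `finrank_fieldAt_tower` :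
  `F_{m'} / F_m` is Galois with group `ker (D_{m'} → D_m)`.
* `mem_decompField_iff`, `decompField_eq_map` : the decomposition field of `m'` is the image of the
  decomposition field of `m`.
* `card_stabilizer_tower` : `|D_{m'}| = |D_m| * |ker|`.
* `maxBelow` : the maximal ideal of `ℚ_q ⊗ L` below `m'`.
-/

set_option autoImplicit false
set_option linter.unusedSectionVars false

open scoped Pointwise TensorProduct

noncomputable section

namespace Fermat.Agent.Lib.CFT.Global.LocalFieldAt

open Fermat.Agent.Lib.CFT.Global.EtaleAlg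

section GaloisTower

variable (K L L' : Type) [Field K] [Field L] [Field L'] [CharZero L] [CharZero L']
  [Algebra K L] [Algebra K L'] [Algebra L L'] [IsScalarTower K L L']
  (G G' : Type) [Group G] [Group G'] [Finite G] [Finite G']
  [MulSemiringAction G L] [MulSemiringAction G' L'] [IsGaloisGroup G K L] [IsGaloisGroup G' K L']
  (f : G' →* G) (hf : ∀ (g' : G') (x : L), algebraMap L L' (f g' • x) = g' • algebraMap L L' x)
  (q : Nat.Primes)

include K hf in
/-- An element of `G'` acting trivially on the image of `L` lies in the kernel of `f`. -/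
lemma mem_ker_of_forall_smul_algebraMap (g' : G')
    (h : ∀ x : L, g' • algebraMap L L' x = algebraMap L L' x) : g' ∈ f.ker := by
  have : FaithfulSMul G L := IsGaloisGroup.faithful K
  rw [MonoidHom.mem_ker]
  apply eq_of_smul_eq_smul (α := L)
  intro x
  apply (algebraMap L L').injective
  rw [hf, h, one_smul]

include K hf in
/-- A compatible homomorphism `G' → G` of Galois groups of a tower is surjective. -/
lemma towerHom_surjective : Function.Surjective f := by
  have : FaithfulSMul G L := IsGaloisGroup.faithful K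
  have : IsGalois K L := IsGaloisGroup.isGalois G K L
  have : IsGalois K L' := IsGaloisGroup.isGalois G' K L'
  have : FiniteDimensional K L' := IsGaloisGroup.finiteDimensional G' K L'
  intro g
  obtain ⟨σ', hσ'⟩ := AlgEquiv.restrictNormalHom_surjective (F := K) (K₁ := L) L'
    (IsGaloisGroup.mulEquivAlgEquiv G K L g)
  obtain ⟨g', rfl⟩ := (IsGaloisGroup.mulEquivAlgEquiv G' K L').surjective σ'
  refine ⟨g', ?_⟩
  apply eq_of_smul_eq_smul (α := L)
  intro x
  apply (algebraMap L L').injective
  rw [hf]
  have h1 := AlgEquiv.restrictNormal_commutes (IsGaloisGroup.mulEquivAlgEquiv G' K L' g') L x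
  have h2 : (IsGaloisGroup.mulEquivAlgEquiv G' K L' g').restrictNormal L = 
      IsGaloisGroup.mulEquivAlgEquiv G K L g := hσ'
  rw [h2] at h1
  exact h1.symm


include K hf in
/-- **Galois descent for `ℚ_q ⊗ L'`**: the invariants of `ker (G' → G)` in `ℚ_q ⊗ L'` are the image
of `ℚ_q ⊗ L`. -/
lemma exists_locMap_eq_of_ker_fixed (y : LocAlg L' q) (hy : ∀ g' ∈ f.ker, g' • y = y) :
    ∃ x : LocAlg L q, locMap (algebraMap L L') q x = y := by
  have : IsGalois K L' := IsGaloisGroup.isGalois G' K L'
  have : FiniteDimensional K L' := IsGaloisGroup.finiteDimensional G' K L'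
  have : IsGalois L L' := IsGalois.tower_top_of_isGalois K L L'
  have : FiniteDimensional L L' := FiniteDimensional.right K L L'
  refine TensorExt.exists_tmap_eq_of_fixed ℚ_[pv q] (K := L) (L := L') y (fun g => ?_)
  obtain ⟨g', hg'⟩ := (IsGaloisGroup.mulEquivAlgEquiv G' K L').surjective (g.restrictScalars K)
  have hg'x : ∀ z : L', g' • z = g z := fun z => by
    have := congrArg (fun σ : L' ≃ₐ[K] L' => σ z) hg'
    simpa using this
  have hker : g' ∈ f.ker := mem_ker_of_forall_smul_algebraMap K L L' G G' f hf g' (fun x => by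
    rw [hg'x, AlgEquiv.commutes])
  have h := hy g' hker
  rw [smul_locAlg_def] at h
  have hring : MulSemiringAction.toRingHom G' L' g' = (g : L' →+* L') := by
    ext z
    exact hg'x z
  rw [hring] at h
  exact h

end GaloisTower



section Instantiate

variable (K L L' : Type) [Field K] [Field L] [Field L'] [NumberField L] [NumberField L']
  [Algebra K L] [Algebra K L'] [Algebra L L'] [IsScalarTower K L L']
  (G G' : Type) [Group G] [Group G'] [Finite G] [Finite G']
  [MulSemiringAction G L] [MulSemiringAction G' L'] [IsGaloisGroup G K L] [IsGaloisGroup G' K L']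
  (f : G' →* G) (hf : ∀ (g' : G') (x : L), algebraMap L L' (f g' • x) = g' • algebraMap L L' x)
  (q : Nat.Primes) (m : MaximalSpectrum (LocAlg L q)) (m' : MaximalSpectrum (LocAlg L' q))
  (hm : m.asIdeal = m'.asIdeal.comap
    ((locMap (algebraMap L L') q : LocAlg L q →ₐ[ℚ_[pv q]] LocAlg L' q) :
      LocAlg L q →+* LocAlg L' q))

include K in
/-- **Decomposition groups in a Galois tower** `K ⊂ L ⊂ L'`: for `m'` over `m` the map
`D_{m'} → D_m` induced by `G' → G` is surjective. -/
theorem stabilizerMapAlong_surjective :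
    Function.Surjective
      (stabilizerMapAlong f _ (locMap_smul_along f (algebraMap L L') hf q) m m' hm) :=
  decompMap_surjective _ f (locMap_smul_along f (algebraMap L L') hf q) m' m hm
    (towerHom_surjective K L L' G G' f hf)
    (fun y hy => exists_locMap_eq_of_ker_fixed K L L' G G' f hf q y (fun g' hg' => hy ⟨g', hg'⟩))


/-- The maximal ideal of `ℚ_q ⊗ L` below a maximal ideal of `ℚ_q ⊗ L'`. -/
def maxBelow (m' : MaximalSpectrum (LocAlg L' q)) : MaximalSpectrum (LocAlg L q) :=
  ⟨m'.asIdeal.comap ((locMap (algebraMap L L') q : LocAlg L q →ₐ[ℚ_[pv q]] LocAlg L' q) :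
      LocAlg L q →+* LocAlg L' q),
    haveI : IsArtinianRing (LocAlg L q) := IsArtinianRing.of_finite ℚ_[pv q] (LocAlg L q)
    haveI : (m'.asIdeal.comap ((locMap (algebraMap L L') q :
        LocAlg L q →ₐ[ℚ_[pv q]] LocAlg L' q) : LocAlg L q →+* LocAlg L' q)).IsPrime :=
      Ideal.comap_isPrime _ _
    IsArtinianRing.isMaximal_of_isPrime _⟩

lemma maxBelow_asIdeal (m' : MaximalSpectrum (LocAlg L' q)) :
    (maxBelow L L' q m').asIdeal = m'.asIdeal.comap
      ((locMap (algebraMap L L') q : LocAlg L q →ₐ[ℚ_[pv q]] LocAlg L' q) :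
        LocAlg L q →+* LocAlg L' q) := rfl

/-- The embedding of local fields `F_m → F_{m'}` for `m'` over `m`, as a `ℚ_q`-algebra
homomorphism.  As a ring homomorphism it is `residueMapAlong` (`coe_fieldAtMap`). -/
def fieldAtMap : FieldAt L q m →ₐ[ℚ_[pv q]] FieldAt L' q m' :=
  Ideal.quotientMapₐ m'.asIdeal (locMap (algebraMap L L') q) (le_of_eq hm)

lemma coe_fieldAtMap :
    ((fieldAtMap L L' q m m' hm : FieldAt L q m →ₐ[ℚ_[pv q]] FieldAt L' q m') :
      FieldAt L q m →+* FieldAt L' q m') = residueMapAlong _ m m' hm := rfl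

@[simp] lemma fieldAtMap_mk (x : LocAlg L q) :
    fieldAtMap L L' q m m' hm (Ideal.Quotient.mk m.asIdeal x) =
      Ideal.Quotient.mk m'.asIdeal (locMap (algebraMap L L') q x) := rfl

lemma fieldAtMap_injective : Function.Injective (fieldAtMap L L' q m m' hm) :=
  (fieldAtMap L L' q m m' hm : FieldAt L q m →+* FieldAt L' q m').injective

lemma fieldAtMap_toFieldAt (x : L) :
    fieldAtMap L L' q m m' hm (toFieldAt L q m x) = toFieldAt L' q m' (algebraMap L L' x) := by
  rw [toFieldAt_apply, toFieldAt_apply, fieldAtMap_mk, locMap_tmul]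

/-- The embedding `F_m → F_{m'}` is equivariant along `D_{m'} → D_m`. -/
lemma fieldAtMap_smul (s' : MulAction.stabilizer G' m') (x : FieldAt L q m) :
    fieldAtMap L L' q m m' hm
        (stabilizerMapAlong f _ (locMap_smul_along f (algebraMap L L') hf q) m m' hm s' • x) =
      s' • fieldAtMap L L' q m m' hm x :=
  residueMapAlong_smul f _ (locMap_smul_along f (algebraMap L L') hf q) m m' hm s' x

instance charZero_fieldAt : CharZero (FieldAt L q m) :=
  charZero_of_injective_algebraMap (algebraMap ℚ_[pv q] (FieldAt L q m)).injective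

include K hf in
/-- **Galois group of the local extension** `F_{m'} / F_m`: an element of `F_{m'}` comes from
`F_m` iff it is fixed by the kernel of `D_{m'} → D_m`. -/
theorem mem_range_fieldAtMap_iff (y : FieldAt L' q m') :
    y ∈ (fieldAtMap L L' q m m' hm).range ↔
      ∀ s' : MulAction.stabilizer G' m', f (s' : G') = 1 → s' • y = y := by
  constructor
  · rintro ⟨x, rfl⟩ s' hs'
    show s' • fieldAtMap L L' q m m' hm x = fieldAtMap L L' q m m' hm x
    rw [← fieldAtMap_smul L L' G G' f hf q m m' hm s' x]
    have : stabilizerMapAlong f _ (locMap_smul_along f (algebraMap L L') hf q) m m' hm s' = 1 :=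
      Subtype.ext hs'
    rw [this, one_smul]
  · intro hy
    obtain ⟨x, hx⟩ := exists_residueMap_eq_of_ker_fixed _ f
      (locMap_smul_along f (algebraMap L L') hf q) m' m hm
      (fun y hy => exists_locMap_eq_of_ker_fixed K L L' G G' f hf q y
        (fun g' hg' => hy ⟨g', hg'⟩)) y hy
    exact ⟨x, hx⟩

variable [FaithfulSMul G L] [FaithfulSMul G' L']

include K hf in
/-- **Decomposition fields in a Galois tower**: the decomposition field of `m'` (the fixed field
of `D_{m'}` in `F_{m'}`) is the image of the decomposition field of `m`: both are "`K_v`". -/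
theorem mem_decompField_iff (y : FieldAt L' q m') :
    y ∈ decompField L' G' q m' ↔
      ∃ x ∈ decompField L G q m, fieldAtMap L L' q m m' hm x = y := by
  have h := fixed_iff_exists_residueMap _ f
    (locMap_smul_along f (algebraMap L L') hf q) m' m hm
    (towerHom_surjective K L L' G G' f hf)
    (fun y hy => exists_locMap_eq_of_ker_fixed K L L' G G' f hf q y
      (fun g' hg' => hy ⟨g', hg'⟩)) y
  exact h

include K hf in
theorem decompField_eq_map :
    decompField L' G' q m' = (decompField L G q m).map (fieldAtMap L L' q m m' hm) := by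
  ext y
  rw [mem_decompField_iff K L L' G G' f hf q m m' hm, IntermediateField.mem_map]


/-- `F_{m'}` as an algebra over `F_m` (for `m'` over `m`); not an instance. -/
@[reducible] def fieldAtAlgebra : Algebra (FieldAt L q m) (FieldAt L' q m') :=
  (fieldAtMap L L' q m m' hm : FieldAt L q m →+* FieldAt L' q m').toAlgebra

include K hf in
/-- **The local extension `F_{m'} / F_m` is Galois with group `ker (D_{m'} → D_m)`.** -/
theorem isGaloisGroup_ker_fieldAt :
    letI := fieldAtAlgebra L L' q m m' hm
    IsGaloisGroup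
      (stabilizerMapAlong f _ (locMap_smul_along f (algebraMap L L') hf q) m m' hm).ker
      (FieldAt L q m) (FieldAt L' q m') := by
  let _ := fieldAtAlgebra L L' q m m' hm
  refine ⟨inferInstance, ⟨fun s a b => ?_⟩, ⟨fun b hb => ?_⟩⟩
  · have h1 : ∀ (a : FieldAt L q m) (b : FieldAt L' q m'),
        a • b = fieldAtMap L L' q m m' hm a * b := fun a b => rfl
    have hs : stabilizerMapAlong f _ (locMap_smul_along f (algebraMap L L') hf q) m m' hm
        (s : MulAction.stabilizer G' m') = 1 := s.2
    have h2 : (s : MulAction.stabilizer G' m') • fieldAtMap L L' q m m' hm a =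
        fieldAtMap L L' q m m' hm a := by
      rw [← fieldAtMap_smul L L' G G' f hf q m m' hm, hs, one_smul]
    show (s : MulAction.stabilizer G' m') • (a • b) = a • ((s : MulAction.stabilizer G' m') • b)
    rw [h1, h1, smul_mul', h2]
  · have := (mem_range_fieldAtMap_iff K L L' G G' f hf q m m' hm b).2 (fun s' hs' =>
      hb ⟨s', Subtype.ext hs'⟩)
    obtain ⟨a, ha⟩ := this
    exact ⟨a, ha⟩

include K hf in
/-- The local degree `[F_{m'} : F_m]` is the order of `ker (D_{m'} → D_m)`. -/
theorem finrank_fieldAt_tower :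
    letI := fieldAtAlgebra L L' q m m' hm
    Module.finrank (FieldAt L q m) (FieldAt L' q m') =
      Nat.card (stabilizerMapAlong f _
        (locMap_smul_along f (algebraMap L L') hf q) m m' hm).ker := by
  let _ := fieldAtAlgebra L L' q m m' hm
  have := isGaloisGroup_ker_fieldAt K L L' G G' f hf q m m' hm
  exact (IsGaloisGroup.card_eq_finrank _ (FieldAt L q m) (FieldAt L' q m')).symm

include K hf in
/-- Multiplicativity of the orders of the decomposition groups in a Galois tower. -/
theorem card_stabilizer_tower :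
    Nat.card (MulAction.stabilizer G' m') =
      Nat.card (MulAction.stabilizer G m) *
        Nat.card (stabilizerMapAlong f _
          (locMap_smul_along f (algebraMap L L') hf q) m m' hm).ker := by
  set φ := stabilizerMapAlong f _ (locMap_smul_along f (algebraMap L L') hf q) m m' hm with hφ
  have hsurj : Function.Surjective φ := stabilizerMapAlong_surjective K L L' G G' f hf q m m' hm
  rw [← Nat.card_congr (QuotientGroup.quotientKerEquivOfSurjective φ hsurj).toEquiv]
  exact Subgroup.card_eq_card_quotient_mul_card_subgroup φ.ker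

end Instantiate

end Fermat.Agent.Lib.CFT.Global.LocalFieldAt

end
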