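import Mathlib
import Fermat.Agent.Lib.CFT.Global.LocalFieldAtTower

/-!
# Orders of decomposition groups in a Galois tower, relative form (helper96, P-CFT)

In the setting of `LocalFieldAtTower` (a Galois tower `K ⊂ L ⊂ L'` with groups `G' → G`), let `N`
be a group acting on `L'` through an injective homomorphism `j : N →* G'` whose range is the kernel
of `G' → G`.  For a maximal ideal `m'` of `ℚ_q ⊗ L'` over `m`:

`|G'_{m'}| / |N_{m'}| = |G_m|`.

This is the shape of the adaptedness hypothesis of `ClassFormation.globalInv_principalClass_eq_zero`.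
-/

set_option autoImplicit false
set_option linter.unusedSectionVars false

open scoped Pointwise TensorProduct

noncomputable section

namespace Fermat.Agent.Lib.CFT.Global.LocalFieldAt

open Fermat.Agent.Lib.CFT.Global.EtaleAlg

variable (K L L' : Type) [Field K] [Field L] [Field L'] [NumberField L] [NumberField L']
  [Algebra K L] [Algebra K L'] [Algebra L L'] [IsScalarTower K L L']
  (G G' : Type) [Group G] [Group G'] [Finite G] [Finite G']
  [MulSemiringAction G L] [MulSemiringAction G' L'] [IsGaloisGroup G K L] [IsGaloisGroup G' K L']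
  (f : G' →* G) (hf : ∀ (g' : G') (x : L), algebraMap L L' (f g' • x) = g' • algebraMap L L' x)
  (q : Nat.Primes) (m : MaximalSpectrum (LocAlg L q)) (m' : MaximalSpectrum (LocAlg L' q))
  (hm : m.asIdeal = m'.asIdeal.comap
    ((locMap (algebraMap L L') q : LocAlg L q →ₐ[ℚ_[pv q]] LocAlg L' q) :
      LocAlg L q →+* LocAlg L' q))
  (N : Type) [Group N] [MulSemiringAction N L'] (j : N →* G')
  (hj : ∀ (n : N) (x : L'), j n • x = n • x)

include hj in
/-- The action of `n : N` on `ℚ_q ⊗ L'` is the action of `j n`. -/
lemma smul_locAlg_eq_of_hom (n : N) (y : LocAlg L' q) : j n • y = n • y := by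
  rw [smul_locAlg_def, smul_locAlg_def]
  have : MulSemiringAction.toRingHom G' L' (j n) = MulSemiringAction.toRingHom N L' n := by
    ext x
    exact hj n x
  rw [this]

include hj in
/-- The action of `n : N` on the maximal spectrum is the action of `j n`. -/
lemma smul_maxSpec_eq_of_hom (n : N) (m' : MaximalSpectrum (LocAlg L' q)) : j n • m' = n • m' := by
  apply MaximalSpectrum.ext
  ext y
  rw [mem_smul_asIdeal_iff, mem_smul_asIdeal_iff, ← map_inv,
    smul_locAlg_eq_of_hom L' G' q N j hj]

include hj in
lemma mem_stabilizer_iff_of_hom (n : N) (m' : MaximalSpectrum (LocAlg L' q)) :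
    n ∈ MulAction.stabilizer N m' ↔ j n ∈ MulAction.stabilizer G' m' := by
  rw [MulAction.mem_stabilizer_iff, MulAction.mem_stabilizer_iff,
    smul_maxSpec_eq_of_hom L' G' q N j hj]

include hj in
/-- `N_{m'}` has the same order as the kernel of `G'_{m'} → G_m`. -/
theorem card_stabilizer_eq_card_ker (hjinj : Function.Injective j) (hjker : j.range = f.ker) :
    Nat.card (MulAction.stabilizer N m') =
      Nat.card (stabilizerMapAlong f _
        (locMap_smul_along f (algebraMap L L') hf q) m m' hm).ker := by
  set φ := stabilizerMapAlong f _ (locMap_smul_along f (algebraMap L L') hf q) m m' hm with hφ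
  have hmem : ∀ n : MulAction.stabilizer N m', j (n : N) ∈ MulAction.stabilizer G' m' :=
    fun n => (mem_stabilizer_iff_of_hom L' G' q N j hj (n : N) m').1 n.2
  have hker : ∀ n : MulAction.stabilizer N m',
      (⟨j (n : N), hmem n⟩ : MulAction.stabilizer G' m') ∈ φ.ker := by
    intro n
    rw [MonoidHom.mem_ker]
    apply Subtype.ext
    rw [hφ, coe_stabilizerMapAlong]
    have h1 : j (n : N) ∈ f.ker := by
      rw [← hjker]
      exact ⟨_, rfl⟩
    exact h1
  let ψ : MulAction.stabilizer N m' → φ.ker := fun n => ⟨⟨j (n : N), hmem n⟩, hker n⟩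
  have hψinj : Function.Injective ψ := by
    intro a b hab
    have h1 : j (a : N) = j (b : N) := congrArg (fun t : φ.ker => ((t : MulAction.stabilizer G' m') : G')) hab
    exact Subtype.ext (hjinj h1)
  have hψsurj : Function.Surjective ψ := by
    rintro ⟨⟨g, hg⟩, hgk⟩
    have h1 : g ∈ f.ker := by
      rw [MonoidHom.mem_ker] at hgk ⊢
      have := congrArg (fun t : MulAction.stabilizer G m => (t : G)) hgk
      simpa [hφ] using this
    rw [← hjker] at h1
    obtain ⟨n, rfl⟩ := h1
    have hn : n ∈ MulAction.stabilizer N m' :=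
      (mem_stabilizer_iff_of_hom L' G' q N j hj n m').2 hg
    exact ⟨⟨n, hn⟩, rfl⟩
  exact Nat.card_congr (Equiv.ofBijective ψ ⟨hψinj, hψsurj⟩)

include K hf hm hj in
/-- **Relative order of decomposition groups**: `|G'_{m'}| / |N_{m'}| = |G_m|`. -/
theorem card_stabilizer_div_card_stabilizer [Finite N] (hjinj : Function.Injective j)
    (hjker : j.range = f.ker) :
    Nat.card (MulAction.stabilizer G' m') / Nat.card (MulAction.stabilizer N m') =
      Nat.card (MulAction.stabilizer G m) := by
  have : FaithfulSMul G L := IsGaloisGroup.faithful K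
  have : FaithfulSMul G' L' := IsGaloisGroup.faithful K
  rw [card_stabilizer_tower K L L' G G' f hf q m m' hm,
    card_stabilizer_eq_card_ker L L' G G' f hf q m m' hm N j hj hjinj hjker]
  exact Nat.mul_div_cancel _ Nat.card_pos

include K hf hm hj in
/-- Divisibility form, as in the adaptedness hypothesis of the sum formula. -/
theorem dvd_card_stabilizer_div_of_dvd [Finite N] (hjinj : Function.Injective j)
    (hjker : j.range = f.ker) {n : ℕ} (h : n ∣ Nat.card (MulAction.stabilizer G m)) :
    n ∣ Nat.card (MulAction.stabilizer G' m') / Nat.card (MulAction.stabilizer N m') := by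
  rw [card_stabilizer_div_card_stabilizer K L L' G G' f hf q m m' hm N j hj hjinj hjker]
  exact h

end Fermat.Agent.Lib.CFT.Global.LocalFieldAt
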