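import Mathlib
import Fermat.Agent.Lib.CFT.Global.IdeleSES

/-!
# Cyclic layers: `H²(G, J_L) → H²(G, C_L)` is surjective

For a finite cyclic group all odd-degree cohomology groups are isomorphic (periodicity), so
`H¹(G, Lˣ) = 0` (Hilbert 90) implies `H³(G, Lˣ) = 0`, and then the long exact sequence of
`1 → Lˣ → J_L → C_L → 1` shows that `H²(G, J_L) → H²(G, C_L)` is surjective.
-/

namespace Fermat.Agent.Lib.CFT.Global

open CategoryTheory CategoryTheory.Limits

section Periodicity

variable {k G : Type} [CommRing k] [Group G] [Fintype G]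

/-- Periodicity for finite cyclic groups: all odd-degree cohomology groups are isomorphic. -/
noncomputable def groupCohomologyOddIsoOfCyclic (A : Rep k G) (g : G)
    (hg : ∀ x, x ∈ Subgroup.zpowers g) (i j : ℕ) (hi : Odd i) (hj : Odd j) :
    groupCohomology A i ≅ groupCohomology A j :=
  letI : IsCyclic G := ⟨⟨g, hg⟩⟩
  letI : CommGroup G := IsCyclic.commGroup
  (Rep.FiniteCyclicGroup.groupCohomologyIsoOdd A g hg i hi) ≪≫
    (Rep.FiniteCyclicGroup.groupCohomologyIsoOdd A g hg j hj).symm

lemma isZero_groupCohomology_three_of_cyclic (A : Rep k G) (g : G)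
    (hg : ∀ x, x ∈ Subgroup.zpowers g) (h1 : IsZero (groupCohomology A 1)) :
    IsZero (groupCohomology A 3) :=
  h1.of_iso (groupCohomologyOddIsoOfCyclic A g hg 3 1 (by decide) (by decide))

end Periodicity

section Cyclic

variable (L : Type) [Field L] [NumberField L]
variable (G : Type) [Group G] [Fintype G] [MulSemiringAction G L]

/-- For a finite cyclic group `G` acting on `L` with `H¹(G, Lˣ) = 0` (Hilbert 90), the map
`H²(G, J_L) → H²(G, C_L)` is surjective. -/
theorem surjective_H2_classRepHom_of_cyclic (g : G) (hg : ∀ x, x ∈ Subgroup.zpowers g)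
    (h90 : IsZero (groupCohomology (unitsRep L G) 1)) :
    Function.Surjective ((groupCohomology.functor ℤ G 2).map (classRepHom L G)) :=
  surjective_H2_classRepHom_of_isZero_H3 L G
    (isZero_groupCohomology_three_of_cyclic (unitsRep L G) g hg h90)

end Cyclic

section Galois

variable (K L : Type) [Field K] [NumberField K] [Field L] [NumberField L] [Algebra K L]
  [FiniteDimensional K L]

omit [NumberField K] [NumberField L] in
/-- Hilbert 90 in the form used here: `H¹(Gal(L/K), Lˣ) = 0` for `unitsRep`. -/
lemma isZero_H1_unitsRep_gal : IsZero (groupCohomology (unitsRep L (L ≃ₐ[K] L)) 1) := by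
  change IsZero (groupCohomology (Rep.ofAlgebraAutOnUnits K L) 1)
  have h : Subsingleton (groupCohomology.H1 (Rep.ofAlgebraAutOnUnits K L)) :=
    (groupCohomology.H1ofAutOnUnitsUnique K L).instSubsingleton
  exact ModuleCat.isZero_of_subsingleton _

/-- For a cyclic Galois extension `L/K` of number fields `H²(G, J_L) → H²(G, C_L)` is
surjective. -/
theorem surjective_H2_classRepHom_gal_of_cyclic [Fintype (L ≃ₐ[K] L)] (g : L ≃ₐ[K] L)
    (hg : ∀ x, x ∈ Subgroup.zpowers g) :
    Function.Surjective
      ((groupCohomology.functor ℤ (L ≃ₐ[K] L) 2).map (classRepHom L (L ≃ₐ[K] L))) :=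
  surjective_H2_classRepHom_of_cyclic L (L ≃ₐ[K] L) g hg (isZero_H1_unitsRep_gal K L)

end Galois

end Fermat.Agent.Lib.CFT.Global
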