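/-
helper40.  P-CFT, Global layer: the valuations of an idele at the primes of `𝓞 L`, and the divisor
map `Idele L →* (HeightOneSpectrum (𝓞 L) →₀ ℤ)` (second half of work package Global/IdeleIdeal).

* `primeBelow L v`, `overBelow L v`: the rational prime below `v`;
* `ideleComp L q : Idele L →* (LocAlg L q)ˣ`;
* `ordIdele L v : Idele L →* Multiplicative ℤ`, `ordIdele_eq_ordAt`, `ordIdele_principal`;
* `mem_sIdeles_iff_ordIdele`: `a ∈ J_{L,S}` iff `ord_v a = 0` for all `v` not above `S`;
* `divisor L : Idele L →* Multiplicative (HeightOneSpectrum (𝓞 L) →₀ ℤ)`, surjective, with kernel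
  the unit ideles `J_{L,∅}`; `divisor_principal`;
* `mem_sIdeles_of_pow_mem`: `J_L / J_{L,S}` is torsion-free.
-/
import Mathlib
import Fermat.Agent.Lib.CFT.Global.Ideles
import Fermat.Agent.Lib.CFT.Global.Places.OrdAt
import Fermat.Agent.Lib.CFT.Global.FirstIneqUnits

set_option autoImplicit false

open scoped TensorProduct NumberField

noncomputable section

namespace Fermat.Agent.Lib.CFT.Global.IdeleIdeal

open Fermat.Agent.Lib.CFT.Global IsDedekindDomain NumberField

variable (L : Type) [Field L] [NumberField L]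

/-- The rational prime below a prime of `𝓞 L`. -/
def primeBelow (v : HeightOneSpectrum (𝓞 L)) : Nat.Primes :=
  Classical.choose (FirstIneq.exists_prime_mem L v)

lemma primeBelow_mem (v : HeightOneSpectrum (𝓞 L)) :
    ((pv (primeBelow L v) : ℕ) : 𝓞 L) ∈ v.asIdeal :=
  Classical.choose_spec (FirstIneq.exists_prime_mem L v)

lemma primeBelow_eq (v : HeightOneSpectrum (𝓞 L)) (q : Nat.Primes)
    (hq : ((pv q : ℕ) : 𝓞 L) ∈ v.asIdeal) : primeBelow L v = q :=
  FirstIneq.prime_mem_unique L v (primeBelow_mem L v) hq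

/-- `v` as a prime over `primeBelow v`. -/
def overBelow (v : HeightOneSpectrum (𝓞 L)) : Places.PrimesOver L (primeBelow L v) :=
  ⟨v, primeBelow_mem L v⟩

/-- The component at `q` of an idele. -/
def ideleComp (q : Nat.Primes) : Idele L →* (LocAlg L q)ˣ :=
  (Pi.evalMonoidHom (fun q : Nat.Primes => (LocAlg L q)ˣ) q).comp
    ((MonoidHom.fst _ _).comp (ideleSubgroup L).subtype)

@[simp] lemma ideleComp_apply (q : Nat.Primes) (a : Idele L) :
    ideleComp L q a = (a : IdeleProd L).1 q := rfl

@[simp] lemma ideleComp_principal (q : Nat.Primes) (x : Lˣ) :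
    ideleComp L q (principal L x) = locUnit L q x := rfl

/-- The valuation of an idele at the prime `v`. -/
def ordIdele (v : HeightOneSpectrum (𝓞 L)) : Idele L →* Multiplicative ℤ :=
  (Places.ordAt (overBelow L v)).comp (ideleComp L (primeBelow L v))

lemma ordAt_congr {q q' : Nat.Primes} (h : q' = q) (v : HeightOneSpectrum (𝓞 L))
    (hm : ((pv q : ℕ) : 𝓞 L) ∈ v.asIdeal) (hm' : ((pv q' : ℕ) : 𝓞 L) ∈ v.asIdeal) (a : Idele L) :
    Places.ordAt (⟨v, hm'⟩ : Places.PrimesOver L q') (ideleComp L q' a) =
      Places.ordAt (⟨v, hm⟩ : Places.PrimesOver L q) (ideleComp L q a) := by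
  subst h
  rfl

/-- `ordIdele` in terms of the valuations on the semi-local algebras. -/
lemma ordIdele_eq_ordAt (q : Nat.Primes) (w : Places.PrimesOver L q) (a : Idele L) :
    ordIdele L w.1 a = Places.ordAt w (ideleComp L q a) :=
  ordAt_congr L (primeBelow_eq L w.1 q w.2) w.1 w.2 (primeBelow_mem L w.1) a

lemma ordIdele_principal (v : HeightOneSpectrum (𝓞 L)) (x : Lˣ) :
    ordIdele L v (principal L x) = Multiplicative.ofAdd (SUnits.ordAt v x) := by
  change Places.ordAt (overBelow L v) (locUnit L (primeBelow L v) x) = _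
  rw [Places.ordAt_locUnit]
  rfl

/-- An idele is integral at `q` iff its valuations at the primes above `q` vanish. -/
lemma ideleComp_mem_locIntUnits_iff (q : Nat.Primes) (a : Idele L) :
    ideleComp L q a ∈ locIntUnits L q ↔
      ∀ v : HeightOneSpectrum (𝓞 L), ((pv q : ℕ) : 𝓞 L) ∈ v.asIdeal → ordIdele L v a = 1 := by
  rw [Places.mem_locIntUnits_iff_ordAt]
  constructor
  · intro h v hv
    rw [ordIdele_eq_ordAt L q ⟨v, hv⟩]
    exact h ⟨v, hv⟩
  · intro h w
    rw [← ordIdele_eq_ordAt L q w]
    exact h w.1 w.2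

/-- `a ∈ J_{L,S}` iff `ord_v a = 0` for all `v` not above `S`. -/
theorem mem_sIdeles_iff_ordIdele (S : Set Nat.Primes) (a : Idele L) :
    a ∈ FirstIneq.sIdeles L S ↔
      ∀ v : HeightOneSpectrum (𝓞 L), primeBelow L v ∉ S → ordIdele L v a = 1 := by
  constructor
  · intro h v hv
    have h1 : ideleComp L (primeBelow L v) a ∈ locIntUnits L (primeBelow L v) :=
      h (primeBelow L v) hv
    exact (ideleComp_mem_locIntUnits_iff L _ a).1 h1 v (primeBelow_mem L v)
  · intro h q hq
    change ideleComp L q a ∈ locIntUnits L q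
    rw [ideleComp_mem_locIntUnits_iff]
    intro v hv
    apply h v
    rwa [primeBelow_eq L v q hv]

/-- `J_L / J_{L,S}` is torsion-free. -/
theorem mem_sIdeles_of_pow_mem (S : Set Nat.Primes) (a : Idele L) (m : ℕ) (hm : m ≠ 0)
    (h : a ^ m ∈ FirstIneq.sIdeles L S) : a ∈ FirstIneq.sIdeles L S := by
  rw [mem_sIdeles_iff_ordIdele] at h ⊢
  intro v hv
  have h1 := h v hv
  rw [map_pow] at h1
  have h2 : m • Multiplicative.toAdd (ordIdele L v a) = 0 := by
    have := congrArg Multiplicative.toAdd h1
    simpa using this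
  have h3 : Multiplicative.toAdd (ordIdele L v a) = 0 := by
    rcases smul_eq_zero.1 h2 with h4 | h4
    · exact absurd h4 hm
    · exact h4
  exact Multiplicative.toAdd.injective h3

/-- The valuations of an idele vanish at almost all primes. -/
lemma finite_setOf_ordIdele_ne_one (a : Idele L) :
    {v : HeightOneSpectrum (𝓞 L) | ordIdele L v a ≠ 1}.Finite := by
  have hT : {q : Nat.Primes | (a : IdeleProd L).1 q ∉ locIntUnits L q}.Finite := a.2
  have hfin : (⋃ q ∈ {q : Nat.Primes | (a : IdeleProd L).1 q ∉ locIntUnits L q},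
      {v : HeightOneSpectrum (𝓞 L) | ((q : ℕ) : 𝓞 L) ∈ v.asIdeal}).Finite :=
    hT.biUnion fun q _ => FirstIneq.finite_setOf_prime_mem L q
  refine hfin.subset ?_
  intro v hv
  simp only [Set.mem_iUnion, Set.mem_ofPred_eq, exists_prop]
  refine ⟨primeBelow L v, ?_, primeBelow_mem L v⟩
  intro hmem
  apply hv
  exact (ideleComp_mem_locIntUnits_iff L _ a).1 hmem v (primeBelow_mem L v)

/-- The divisor of an idele. -/
def divisor : Idele L →* Multiplicative (HeightOneSpectrum (𝓞 L) →₀ ℤ) where
  toFun a := Multiplicative.ofAdd (Finsupp.ofSupportFinite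
    (fun v => Multiplicative.toAdd (ordIdele L v a)) (by
      refine (finite_setOf_ordIdele_ne_one L a).subset ?_
      intro v hv
      rw [Function.mem_support] at hv
      intro h1
      apply hv
      rw [h1]
      rfl))
  map_one' := by
    apply Multiplicative.toAdd.injective
    ext v
    simp [Finsupp.ofSupportFinite_coe]
  map_mul' a b := by
    apply Multiplicative.toAdd.injective
    ext v
    simp [Finsupp.ofSupportFinite_coe]

lemma divisor_apply (a : Idele L) (v : HeightOneSpectrum (𝓞 L)) :
    Multiplicative.toAdd (divisor L a) v = Multiplicative.toAdd (ordIdele L v a) := rfl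

lemma divisor_principal (x : Lˣ) (v : HeightOneSpectrum (𝓞 L)) :
    Multiplicative.toAdd (divisor L (principal L x)) v = SUnits.ordAt v x := by
  rw [divisor_apply, ordIdele_principal]
  rfl

/-- The kernel of the divisor map consists of the unit ideles. -/
theorem ker_divisor : (divisor L).ker = FirstIneq.sIdeles L ∅ := by
  ext a
  rw [MonoidHom.mem_ker, mem_sIdeles_iff_ordIdele]
  constructor
  · intro h v _
    have := congrArg
      (fun d : Multiplicative (HeightOneSpectrum (𝓞 L) →₀ ℤ) => Multiplicative.toAdd d v) h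
    simp only [divisor_apply] at this
    exact Multiplicative.toAdd.injective this
  · intro h
    apply Multiplicative.toAdd.injective
    ext v
    rw [divisor_apply, h v (Set.notMem_empty _)]
    rfl

/-- Every divisor is the divisor of an idele. -/
theorem divisor_surjective : Function.Surjective (divisor L) := by
  classical
  intro d
  set n : HeightOneSpectrum (𝓞 L) →₀ ℤ := Multiplicative.toAdd d with hn
  have hex : ∀ q : Nat.Primes, ∃ u : (LocAlg L q)ˣ, ∀ w : Places.PrimesOver L q,
      Places.ordAt w u = Multiplicative.ofAdd (n w.1) := fun q =>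
    Places.exists_ordAt_eq fun w => n w.1
  choose u hu using hex
  set Q : Finset Nat.Primes := n.support.image (primeBelow L) with hQ
  have hzero : ∀ q, q ∉ Q → ∀ w : Places.PrimesOver L q, n w.1 = 0 := by
    intro q hq w
    by_contra hne
    apply hq
    rw [hQ, Finset.mem_image]
    exact ⟨w.1, Finsupp.mem_support_iff.2 hne, primeBelow_eq L w.1 q w.2⟩
  have hfin : ((fun q => if q ∈ Q then u q else 1, 1) : IdeleProd L) ∈ ideleSubgroup L := by
    rw [mem_ideleSubgroup]
    refine Q.finite_toSet.subset ?_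
    intro q hq
    by_contra hqQ
    apply hq
    have hqQ' : q ∉ Q := hqQ
    simp only [if_neg hqQ']
    exact one_mem _
  refine ⟨⟨_, hfin⟩, ?_⟩
  apply Multiplicative.toAdd.injective
  ext v
  rw [divisor_apply]
  change Multiplicative.toAdd (Places.ordAt (overBelow L v)
    (if primeBelow L v ∈ Q then u (primeBelow L v) else 1)) = n v
  by_cases hq : primeBelow L v ∈ Q
  · rw [if_pos hq, hu]
    rfl
  · rw [if_neg hq, map_one]
    exact (hzero _ hq (overBelow L v)).symm

end Fermat.Agent.Lib.CFT.Global.IdeleIdeal
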