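import Fermat.Agent.Lib.CFT.Global.Ideles
import Fermat.Agent.Lib.CFT.Global.EtaleAlgHilbert90
import Fermat.Agent.Lib.CFT.Local.NormUnits.Padic
import Fermat.Agent.Lib.CFT.Global.GaloisTransport

/-!
# The local field of a number field at a maximal ideal of `ℚ_q ⊗ L` (local-global interface)

For `m : MaximalSpectrum (LocAlg L q)`:

* `FieldAt L q m := LocAlg L q ⧸ m.asIdeal` is a field, finite over `ℚ_q`, hence a local field
  (`isLocalFld_fieldAt`);
* the decomposition group `G_m := MulAction.stabilizer G m` acts on it `ℚ_q`-linearly
  (`smulCommClass_fieldAt`) and faithfully (`faithfulSMul_fieldAt`); `toFieldAt : L →+* FieldAt L q m`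
  is injective and equivariant;
* `decompField L G q m` (the fixed field of `G_m`) is a local field, `FieldAt / decompField` is
  Galois with group `G_m` (`isGaloisGroup_decompField`, `decompGalEquiv`, `finrank_decompField`);
* `localCohomologyIso`: `Hⁿ(G_m, (FieldAt)ˣ)` in action form is the Galois cohomology
  `Hⁿ(Gal(FieldAt/decompField), (FieldAt)ˣ)`; `card_H2_fieldAt_dvd`;
* `isMulCoboundary₁_locAlgUnits`, `isZero_H1_locAlgUnits`: Hilbert 90 for `(ℚ_q ⊗ L)ˣ`.
-/

set_option autoImplicit false
set_option linter.unusedSectionVars false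

open scoped Pointwise TensorProduct

noncomputable section

namespace Fermat.Agent.Lib.CFT.Global.LocalFieldAt

open Fermat.Agent.Lib.CFT.Global.EtaleAlg Fermat.Agent.Lib.CFT.NormUnits

section Defs

variable (L : Type) [Field L] [CharZero L] (q : Nat.Primes) (m : MaximalSpectrum (LocAlg L q))

/-- The local field of `L` at the maximal ideal `m` of `ℚ_q ⊗ L`. -/
abbrev FieldAt : Type := LocAlg L q ⧸ m.asIdeal

/-- The residue ring at a maximal ideal of `ℚ_q ⊗ L` is a field. -/
instance fieldAt : Field (FieldAt L q m) :=
  haveI := m.isMaximal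
  Ideal.Quotient.field m.asIdeal

example : Algebra ℚ_[pv q] (FieldAt L q m) := inferInstance
example : IsScalarTower ℚ_[pv q] (LocAlg L q) (FieldAt L q m) := inferInstance

instance finiteDimensional_fieldAt [FiniteDimensional ℚ L] :
    FiniteDimensional ℚ_[pv q] (FieldAt L q m) :=
  inferInstance

theorem isLocalFld_fieldAt [FiniteDimensional ℚ L] : IsLocalFld (FieldAt L q m) :=
  isLocalFld_of_finite_padic (pv q) (FieldAt L q m)

end Defs

section Action

variable (L : Type) [Field L] [CharZero L] (G : Type) [Group G] [MulSemiringAction G L]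
  (q : Nat.Primes) (m : MaximalSpectrum (LocAlg L q))

/-- The action of `G` on `ℚ_q ⊗ L` (through the second factor) is `ℚ_q`-linear. -/
instance smulCommClass_locAlg : SMulCommClass G ℚ_[pv q] (LocAlg L q) :=
  ⟨fun g a x => by
    rw [smul_locAlg_def, smul_locAlg_def, map_smul]⟩

/-- The action of the decomposition group on the local field is `ℚ_q`-linear. -/
instance smulCommClass_fieldAt :
    SMulCommClass (MulAction.stabilizer G m) ℚ_[pv q] (FieldAt L q m) :=
  ⟨fun s a x => by
    obtain ⟨x, rfl⟩ := Ideal.Quotient.mk_surjective x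
    have h : ∀ (a : ℚ_[pv q]) (y : LocAlg L q),
        a • Ideal.Quotient.mk m.asIdeal y = Ideal.Quotient.mk m.asIdeal (a • y) :=
      fun a y => (map_smul (Ideal.Quotient.mkₐ ℚ_[pv q] m.asIdeal) a y).symm
    rw [h, stab_smul_mk, stab_smul_mk, h, smul_comm]⟩

/-- The canonical embedding of `L` into its local field at `m`. -/
def toFieldAt : L →+* FieldAt L q m :=
  (Ideal.Quotient.mk m.asIdeal).comp
    ((Algebra.TensorProduct.includeRight : L →ₐ[ℚ] LocAlg L q) : L →+* LocAlg L q)

lemma toFieldAt_apply (x : L) :
    toFieldAt L q m x = Ideal.Quotient.mk m.asIdeal ((1 : ℚ_[pv q]) ⊗ₜ[ℚ] x) := rfl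

lemma toFieldAt_injective : Function.Injective (toFieldAt L q m) :=
  RingHom.injective _

lemma toFieldAt_smul (s : MulAction.stabilizer G m) (x : L) :
    toFieldAt L q m ((s : G) • x) = s • toFieldAt L q m x := by
  rw [toFieldAt_apply, toFieldAt_apply, stab_smul_mk, smul_tmul_locAlg]

/-- The decomposition group acts faithfully on the local field. -/
instance faithfulSMul_fieldAt [FaithfulSMul G L] :
    FaithfulSMul (MulAction.stabilizer G m) (FieldAt L q m) :=
  faithfulSMul_residue_of_field G
    ((Algebra.TensorProduct.includeRight : L →ₐ[ℚ] LocAlg L q) : L →+* LocAlg L q)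
    (fun g x => (smul_tmul_locAlg q g 1 x).symm) m

end Action

section Decomp

attribute [local instance] Units.mulDistribMulActionRight

variable (L : Type) [Field L] [CharZero L] [FiniteDimensional ℚ L] (G : Type) [Group G] [Finite G]
  [MulSemiringAction G L] [FaithfulSMul G L]
  (q : Nat.Primes) (m : MaximalSpectrum (LocAlg L q))

/-- The decomposition field at `m`: the fixed field of the decomposition group `G_m` in the local
field `F_m`, as an intermediate field of `F_m / ℚ_q`.  It plays the role of the completion `K_v`
of the fixed field `K` of `G` at the place below `m`. -/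
abbrev decompField : IntermediateField ℚ_[pv q] (FieldAt L q m) :=
  FixedPoints.intermediateField (MulAction.stabilizer G m)

instance isGaloisGroup_decompField :
    IsGaloisGroup (MulAction.stabilizer G m) (decompField L G q m) (FieldAt L q m) :=
  isGaloisGroup_fixedPoints (MulAction.stabilizer G m) ℚ_[pv q] (FieldAt L q m)

theorem isLocalFld_decompField : IsLocalFld (decompField L G q m) :=
  isLocalFld_of_finite_padic (pv q) (decompField L G q m)

theorem finrank_decompField :
    Module.finrank (decompField L G q m) (FieldAt L q m) =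
      Nat.card (MulAction.stabilizer G m) :=
  finrank_eq_card (MulAction.stabilizer G m) (decompField L G q m) (FieldAt L q m)

instance isGalois_decompField : IsGalois (decompField L G q m) (FieldAt L q m) :=
  IsGaloisGroup.isGalois (MulAction.stabilizer G m) (decompField L G q m) (FieldAt L q m)

instance finiteDimensional_decompField :
    FiniteDimensional (decompField L G q m) (FieldAt L q m) :=
  IsGaloisGroup.finiteDimensional (MulAction.stabilizer G m) (decompField L G q m) (FieldAt L q m)

/-- The decomposition group is the Galois group of the local extension `F_m / (F_m)^{G_m}`. -/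
abbrev decompGalEquiv :
    MulAction.stabilizer G m ≃* Gal(FieldAt L q m/decompField L G q m) :=
  galEquiv (MulAction.stabilizer G m) (decompField L G q m) (FieldAt L q m)

/-- **Local-global interface**: the cohomology of the decomposition group `G_m` acting on
`(ℚ_q ⊗ L ⧸ m)ˣ` (action form, as it comes out of the semi-local Shapiro lemma) is the Galois
cohomology of the local extension `F_m / (F_m)^{G_m}` of finite extensions of `ℚ_q`
(Galois form, as used by the local theory). -/
def localCohomologyIso (n : ℕ) :
    groupCohomology (Rep.ofMulDistribMulAction (MulAction.stabilizer G m) (FieldAt L q m)ˣ) n ≅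
      groupCohomology (Rep.ofAlgebraAutOnUnits (decompField L G q m) (FieldAt L q m)) n :=
  unitsCohomologyIso (MulAction.stabilizer G m) (decompField L G q m) (FieldAt L q m) n

/-- `H²(G_m, F_mˣ)` is finite of order dividing `|G_m|`. -/
theorem card_H2_fieldAt_dvd :
    Finite (groupCohomology
        (Rep.ofMulDistribMulAction (MulAction.stabilizer G m) (FieldAt L q m)ˣ) 2) ∧
      Nat.card (groupCohomology
        (Rep.ofMulDistribMulAction (MulAction.stabilizer G m) (FieldAt L q m)ˣ) 2) ∣
        Nat.card (MulAction.stabilizer G m) := by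
  have h := card_H2_units_dvd_padic (pv q) (decompField L G q m) (FieldAt L q m)
  let e := (localCohomologyIso L G q m 2).toLinearEquiv.toEquiv
  rw [finrank_decompField] at h
  exact ⟨@Finite.of_equiv _ _ h.1 e.symm, by rw [Nat.card_congr e]; exact h.2⟩

end Decomp

section Hilbert90

variable (L : Type) [Field L] [CharZero L] (G : Type) [Group G] [Finite G]
  [MulSemiringAction G L] [FaithfulSMul G L]
  (q : Nat.Primes) [IsArtinianRing (LocAlg L q)] [IsReduced (LocAlg L q)]

/-- **Hilbert 90 for the `q`-adic factor of the ideles**: every `1`-cocycle of `G` with values in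
`(ℚ_q ⊗ L)ˣ` is a coboundary.  (The instances `IsArtinianRing`, `IsReduced` for `LocAlg L q` are
provided by `Global/Places/LocAlgDecomp.lean` for number fields.) -/
theorem isMulCoboundary₁_locAlgUnits (f : G → (LocAlg L q)ˣ)
    (hf : groupCohomology.IsMulCocycle₁ f) : groupCohomology.IsMulCoboundary₁ f := by
  classical
  have : Fintype (MulAction.orbitRel.Quotient G (MaximalSpectrum (LocAlg L q))) :=
    Fintype.ofFinite _
  exact isMulCoboundary₁_units G (orbitRep G (LocAlg L q)) (orbitRep_cov G _) (orbitRep_sep G _)
    (fun i => faithfulSMul_fieldAt L G q _) f hf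

/-- `H¹(G, (ℚ_q ⊗ L)ˣ) = 0`. -/
theorem isZero_H1_locAlgUnits :
    CategoryTheory.Limits.IsZero
      (groupCohomology (Rep.ofMulDistribMulAction G (LocAlg L q)ˣ) 1) :=
  isZero_H1_of_forall_isMulCoboundary₁ (isMulCoboundary₁_locAlgUnits L G q)

end Hilbert90

end Fermat.Agent.Lib.CFT.Global.LocalFieldAt

end
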