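import Fermat.Agent.Lib.CFT.Global.LocalFieldAtTower
import Fermat.Agent.Lib.CFT.Global.ClassFormation.LocalInv
import Fermat.Agent.Lib.CFT.Global.ClassFormation.GlobalInv

/-!
# Local invariants in towers: discharging the hypotheses of `ClassFormation/LocalInv` (helper75)

Package (GI-8) of note CFT-GLOBALINV-PLAN.  Everything is phrased in the conventions of
`Global/LocalComponents.lean` and `Global/ClassFormation/LocalInv.lean` (helper55):
`m : MaximalSpectrum (LocAlg L q)`, `m'` over `m` through
`hm : m.asIdeal = m'.asIdeal.comap (locMap ι q)`, `ClassFormation.decompMap`,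
`ClassFormation.fieldAtMap`, `ClassFormation.locInv`.

* `EtaleAlg.exists_ker_smul_eq_of_comap_eq` (abstract): `ker f` is transitive on fibres.
* `exists_maximalSpectrum_over` : lying over for `ℚ_q ⊗ L → ℚ_q ⊗ L'`.
* Galois tower `K ⊂ L ⊂ L'` (`IsGaloisGroup G K L`, `IsGaloisGroup G' K L'`, `f : G' →* G`
  compatible): `exists_ker_smul_eq` (transitivity of `ker f` on the primes over `m`),
  `decompMap_surjective` (`hsurj`), `exists_fieldAtMap_eq_of_fixed` (`hfix`), `locInv_infl`.
* orbits: `maxBelow_smul`, `maxBelow_surjective`, `orbitRel_maxBelow_iff`, `orbitEquiv`.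
* `globalInv_infl` : inflation compatibility of `ClassFormation.globalInv` in a Galois tower.
* restriction along an injective `f : G' →* G` on the same field: `asIdeal_eq_comap_locMap_id`,
  `fieldAtMap_id_bijective` (`hbij`), `decompMap_injective` (`hinj`), `locInv_res`.
-/

set_option autoImplicit false
set_option linter.unusedSectionVars false
set_option linter.style.haveILetI false

open scoped Pointwise TensorProduct

noncomputable section

namespace Fermat.Agent.Lib.CFT.Global.EtaleAlg

section Fibre

variable {G G' E E' : Type*} [Group G] [Group G'] [CommRing E] [CommRing E']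
  [MulSemiringAction G E] [MulSemiringAction G' E']
  (φ : E →+* E') (f : G' →* G) (hφ : ∀ (g' : G') (x : E), φ (f g' • x) = g' • φ x)

include hφ in
/-- **Transitivity on fibres**: if the invariants of `ker f` in `E'` come from `E`, then `ker f`
permutes transitively the maximal ideals of `E'` with a given contraction to `E`. -/
theorem exists_ker_smul_eq_of_comap_eq [Finite G']
    (hinv : ∀ y : E', (∀ n : f.ker, (n : G') • y = y) → ∃ x : E, φ x = y)
    (m' m'' : MaximalSpectrum E') (h : m'.asIdeal.comap φ = m''.asIdeal.comap φ) :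
    ∃ n ∈ f.ker, n • m' = m'' := by
  letI : Algebra E E' := φ.toAlgebra
  haveI : SMulCommClass f.ker E E' := ⟨fun n a b => by
    show n • (φ a * b) = φ a * n • b
    rw [smul_mul']
    congr 1
    exact ker_smul_map φ f hφ n a⟩
  haveI : Algebra.IsInvariant E E' f.ker := ⟨fun b hb => hinv b hb⟩
  haveI := m'.isMaximal.isPrime
  haveI := m''.isMaximal.isPrime
  obtain ⟨n, hn⟩ := Algebra.IsInvariant.exists_smul_of_under_eq E E' f.ker
    m'.asIdeal m''.asIdeal h
  refine ⟨(n : G'), n.2, ?_⟩
  apply MaximalSpectrum.ext
  rw [smul_asIdeal, hn]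
  rfl

end Fibre

end Fermat.Agent.Lib.CFT.Global.EtaleAlg


namespace Fermat.Agent.Lib.CFT.Global.LocalInvTower

open CategoryTheory
open Fermat.Agent.Lib.CFT.Global Fermat.Agent.Lib.CFT.Global.EtaleAlg
open Fermat.Agent.Lib.CFT.Global.LocalFieldAt
open Fermat.Agent.Lib.CFT.Local (LocalInvTheory)

attribute [local instance] Units.mulDistribMulActionRight

section LyingOver

variable (L L' : Type) [Field L] [Field L'] [CharZero L] [CharZero L']
  [Algebra L L'] [FiniteDimensional L L'] (q : Nat.Primes)

/-- **Lying over** for `ℚ_q ⊗ L → ℚ_q ⊗ L'`: every maximal ideal of `ℚ_q ⊗ L` is the contraction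
of a maximal ideal of `ℚ_q ⊗ L'`. -/
theorem exists_maximalSpectrum_over (m : MaximalSpectrum (LocAlg L q)) :
    ∃ m' : MaximalSpectrum (LocAlg L' q), m.asIdeal = m'.asIdeal.comap
      ((locMap (algebraMap L L') q : LocAlg L q →ₐ[ℚ_[pv q]] LocAlg L' q) :
        LocAlg L q →+* LocAlg L' q) := by
  letI : Algebra (ℚ_[pv q] ⊗[ℚ] L) (ℚ_[pv q] ⊗[ℚ] L') := TensorExt.tAlgebra ℚ_[pv q]
  haveI : Module.Finite (ℚ_[pv q] ⊗[ℚ] L) (ℚ_[pv q] ⊗[ℚ] L') := TensorExt.instFinite ℚ_[pv q]
  haveI : Algebra.IsIntegral (ℚ_[pv q] ⊗[ℚ] L) (ℚ_[pv q] ⊗[ℚ] L') := Algebra.IsIntegral.of_finite _ _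
  haveI := m.isMaximal
  have hker : RingHom.ker (algebraMap (ℚ_[pv q] ⊗[ℚ] L) (ℚ_[pv q] ⊗[ℚ] L')) ≤ m.asIdeal := by
    intro x hx
    have hx0 : x = 0 := by
      apply TensorExt.tmap_injective ℚ_[pv q] (algebraMap L L')
      rw [map_zero]
      exact hx
    rw [hx0]
    exact Ideal.zero_mem _
  obtain ⟨Q, hQmax, hQ⟩ := Ideal.exists_ideal_over_maximal_of_isIntegral
    (S := ℚ_[pv q] ⊗[ℚ] L') m.asIdeal hker
  exact ⟨⟨Q, hQmax⟩, hQ.symm⟩

end LyingOver

section Inflation

variable (T : ∀ q : Nat.Primes, LocalInvTheory (pv q))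
variable (K L L' : Type) [Field K] [Field L] [Field L'] [NumberField L] [NumberField L']
  [Algebra K L] [Algebra K L'] [Algebra L L'] [IsScalarTower K L L']
  (G G' : Type) [Group G] [Group G'] [Finite G] [Finite G']
  [MulSemiringAction G L] [MulSemiringAction G' L'] [IsGaloisGroup G K L] [IsGaloisGroup G' K L']
  (f : G' →* G) (hf : ∀ (g' : G') (x : L), algebraMap L L' (f g' • x) = g' • algebraMap L L' x)
  (q : Nat.Primes) (m : MaximalSpectrum (LocAlg L q)) (m' : MaximalSpectrum (LocAlg L' q))
  (hm : m.asIdeal = m'.asIdeal.comap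
    ((locMap (algebraMap L L') q : LocAlg L q →ₐ[ℚ_[pv q]] LocAlg L' q) :
      LocAlg L q →+* LocAlg L' q))

include K hf hm in
/-- **Transitivity on fibres** in a Galois tower: `ker (G' → G)` (`= Gal(L'/L)`) permutes
transitively the maximal ideals of `ℚ_q ⊗ L'` over a given maximal ideal of `ℚ_q ⊗ L`. -/
theorem exists_ker_smul_eq (m'' : MaximalSpectrum (LocAlg L' q))
    (hm'' : m.asIdeal = m''.asIdeal.comap
      ((locMap (algebraMap L L') q : LocAlg L q →ₐ[ℚ_[pv q]] LocAlg L' q) :
        LocAlg L q →+* LocAlg L' q)) :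
    ∃ n ∈ f.ker, n • m' = m'' :=
  exists_ker_smul_eq_of_comap_eq _ f (locMap_smul_along f (algebraMap L L') hf q)
    (fun y hy => exists_locMap_eq_of_ker_fixed K L L' G G' f hf q y
      (fun g' hg' => hy ⟨g', hg'⟩)) m' m'' (hm.symm.trans hm'')

variable [FaithfulSMul G L] [FaithfulSMul G' L']

include K in
/-- `hsurj` of `ClassFormation.locInv_map_of_surjective` in a Galois tower. -/
theorem decompMap_surjective :
    Function.Surjective (ClassFormation.decompMap f (algebraMap L L') hf q m m' hm) :=
  stabilizerMapAlong_surjective K L L' G G' f hf q m m' hm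

include K hf in
/-- `hfix` of `ClassFormation.locInv_map_of_surjective` in a Galois tower. -/
theorem exists_fieldAtMap_eq_of_fixed (y : FieldAt L' q m')
    (hy : ∀ d : MulAction.stabilizer G' m', d • y = y) :
    ∃ x : FieldAt L q m, ClassFormation.fieldAtMap (algebraMap L L') q m m' hm x = y := by
  obtain ⟨x, -, hx⟩ := (mem_decompField_iff K L L' G G' f hf q m m' hm y).1 hy
  exact ⟨x, hx⟩

include K hm in
/-- **Inflation compatibility of the local invariants** in a Galois tower `K ⊂ L ⊂ L'`: for `m'`
over `m`, the local invariant at `m'` of the inflation of an idele class is its local invariant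
at `m`. -/
theorem locInv_infl (c : groupCohomology (ideleRep L G) 2) :
    ClassFormation.locInv T L' G' q m'
        (groupCohomology.map f (ideleMapRepHom f (algebraMap L L') hf) 2 c) =
      ClassFormation.locInv T L G q m c :=
  ClassFormation.locInv_map_of_surjective T f (algebraMap L L') hf q m m' hm
    (decompMap_surjective K L L' G G' f hf q m m' hm)
    (exists_fieldAtMap_eq_of_fixed K L L' G G' f hf q m m' hm) c

end Inflation

section Orbits

variable (K L L' : Type) [Field K] [Field L] [Field L'] [NumberField L] [NumberField L']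
  [Algebra K L] [Algebra K L'] [Algebra L L'] [IsScalarTower K L L']
  (G G' : Type) [Group G] [Group G'] [Finite G] [Finite G']
  [MulSemiringAction G L] [MulSemiringAction G' L'] [IsGaloisGroup G K L] [IsGaloisGroup G' K L']
  (f : G' →* G) (hf : ∀ (g' : G') (x : L), algebraMap L L' (f g' • x) = g' • algebraMap L L' x)
  (q : Nat.Primes)

include hf in
/-- Contraction of primes `maxBelow` is equivariant along `G' → G`. -/
lemma maxBelow_smul (g' : G') (m' : MaximalSpectrum (LocAlg L' q)) :
    maxBelow L L' q (g' • m') = f g' • maxBelow L L' q m' := by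
  apply MaximalSpectrum.ext
  exact (smul_asIdeal_eq_comap _ f (locMap_smul_along f (algebraMap L L') hf q) g'
    (maxBelow_asIdeal L L' q m')).symm

omit [Finite G] [Finite G'] [IsGaloisGroup G K L] [IsGaloisGroup G' K L'] [Algebra K L]
  [Algebra K L'] [IsScalarTower K L L'] in
/-- Every prime of `L` above `q` lies below a prime of `L'`. -/
lemma maxBelow_surjective [FiniteDimensional L L'] : Function.Surjective (maxBelow L L' q) := by
  intro m
  obtain ⟨m', hm'⟩ := exists_maximalSpectrum_over L L' q m
  exact ⟨m', MaximalSpectrum.ext hm'.symm⟩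

include K hf in
/-- Two primes of `L'` are `G'`-conjugate iff the primes of `L` below them are `G`-conjugate. -/
theorem orbitRel_maxBelow_iff (m₁ m₂ : MaximalSpectrum (LocAlg L' q)) :
    MulAction.orbitRel G (MaximalSpectrum (LocAlg L q))
        (maxBelow L L' q m₁) (maxBelow L L' q m₂) ↔
      MulAction.orbitRel G' (MaximalSpectrum (LocAlg L' q)) m₁ m₂ := by
  rw [MulAction.orbitRel_apply, MulAction.orbitRel_apply]
  constructor
  · rintro ⟨g, hg⟩
    obtain ⟨g', rfl⟩ := towerHom_surjective K L L' G G' f hf g
    have hg' : maxBelow L L' q (g' • m₂) = maxBelow L L' q m₁ := by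
      rw [maxBelow_smul L L' G G' f hf q]
      exact hg
    obtain ⟨n, -, hn⟩ := exists_ker_smul_eq K L L' G G' f hf q (maxBelow L L' q m₁) (g' • m₂)
      (by rw [← hg']; rfl) m₁ rfl
    exact ⟨n * g', by show (n * g') • m₂ = m₁; rw [mul_smul]; exact hn⟩
  · rintro ⟨g', hg'⟩
    refine ⟨f g', ?_⟩
    show f g' • maxBelow L L' q m₂ = maxBelow L L' q m₁
    rw [← maxBelow_smul L L' G G' f hf q]
    exact congrArg _ hg'

/-- **Orbits of primes in a Galois tower**: the `G'`-orbits of primes of `L'` above `q` correspond
bijectively to the `G`-orbits of primes of `L` above `q` (both are the primes of `K` above `q`). -/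
def orbitEquiv :
    MulAction.orbitRel.Quotient G' (MaximalSpectrum (LocAlg L' q)) ≃
      MulAction.orbitRel.Quotient G (MaximalSpectrum (LocAlg L q)) :=
  Equiv.ofBijective
    (Quotient.map' (maxBelow L L' q) (fun m₁ m₂ h =>
      (orbitRel_maxBelow_iff K L L' G G' f hf q m₁ m₂).2 h))
    ⟨by
      intro a b
      induction a using Quotient.inductionOn' with | _ m₁ => ?_
      induction b using Quotient.inductionOn' with | _ m₂ => ?_
      intro h
      rw [Quotient.map'_mk'', Quotient.map'_mk'', Quotient.eq''] at h
      exact Quotient.eq''.2 ((orbitRel_maxBelow_iff K L L' G G' f hf q m₁ m₂).1 h),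
    by
      intro a
      induction a using Quotient.inductionOn' with | _ m => ?_
      have : FiniteDimensional K L' := IsGaloisGroup.finiteDimensional G' K L'
      have : FiniteDimensional L L' := FiniteDimensional.right K L L'
      obtain ⟨m', rfl⟩ := maxBelow_surjective L L' q m
      exact ⟨Quotient.mk'' m', rfl⟩⟩

lemma orbitEquiv_mk (m' : MaximalSpectrum (LocAlg L' q)) :
    orbitEquiv K L L' G G' f hf q (Quotient.mk'' m') = Quotient.mk'' (maxBelow L L' q m') := rfl

end Orbits

section Restriction

variable (T : ∀ q : Nat.Primes, LocalInvTheory (pv q))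
variable (L : Type) [Field L] [NumberField L]
  (G G' : Type) [Group G] [Group G'] [Finite G] [Finite G']
  [MulSemiringAction G L] [MulSemiringAction G' L] [FaithfulSMul G L] [FaithfulSMul G' L]
  (f : G' →* G) (hf : ∀ (g' : G') (x : L), RingHom.id L (f g' • x) = g' • RingHom.id L x)
  (q : Nat.Primes) (m : MaximalSpectrum (LocAlg L q))

/-- Every maximal ideal of `ℚ_q ⊗ L` lies over itself (along the identity of `L`). -/
lemma asIdeal_eq_comap_locMap_id :
    m.asIdeal = m.asIdeal.comap
      ((locMap (RingHom.id L) q : LocAlg L q →ₐ[ℚ_[pv q]] LocAlg L q) :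
        LocAlg L q →+* LocAlg L q) := by
  ext x
  rw [Ideal.mem_comap]
  show x ∈ m.asIdeal ↔ locMap (RingHom.id L) q x ∈ m.asIdeal
  rw [locMap_id]

lemma fieldAtMap_id_apply (y : FieldAt L q m) :
    ClassFormation.fieldAtMap (RingHom.id L) q m m (asIdeal_eq_comap_locMap_id L q m) y = y := by
  obtain ⟨x, rfl⟩ := Ideal.Quotient.mk_surjective y
  show Ideal.Quotient.mk m.asIdeal (locMap (RingHom.id L) q x) = Ideal.Quotient.mk m.asIdeal x
  rw [locMap_id]

/-- `hbij` of `ClassFormation.locInv_map_of_injective` for the restriction to a subgroup. -/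
theorem fieldAtMap_id_bijective :
    Function.Bijective
      (ClassFormation.fieldAtMap (RingHom.id L) q m m (asIdeal_eq_comap_locMap_id L q m)) :=
  ⟨fun x y h => by rwa [fieldAtMap_id_apply, fieldAtMap_id_apply] at h,
    fun y => ⟨y, fieldAtMap_id_apply L q m y⟩⟩

/-- `hinj` of `ClassFormation.locInv_map_of_injective` for the restriction to a subgroup. -/
theorem decompMap_injective (hinj : Function.Injective f) :
    Function.Injective (ClassFormation.decompMap f (RingHom.id L) hf q m m
      (asIdeal_eq_comap_locMap_id L q m)) := by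
  intro s t h
  apply Subtype.ext
  apply hinj
  exact congrArg Subtype.val h

/-- **Restriction compatibility of the local invariants**: for an injective `f : G' →* G`
compatible with the actions on `L` (e.g. the inclusion of a subgroup), the local invariant at `m`
of the restriction to `G'` of an idele class is `|G_m| / |G'_m|` times its local invariant. -/
theorem locInv_res (hinj : Function.Injective f) (c : groupCohomology (ideleRep L G) 2) :
    ClassFormation.locInv T L G' q m
        (groupCohomology.map f (ideleMapRepHom f (RingHom.id L) hf) 2 c) =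
      (Nat.card (MulAction.stabilizer G m) / Nat.card (MulAction.stabilizer G' m)) •
        ClassFormation.locInv T L G q m c :=
  ClassFormation.locInv_map_of_injective T f (RingHom.id L) hf q m m
    (asIdeal_eq_comap_locMap_id L q m) (decompMap_injective L G G' f hf q m hinj)
    (fieldAtMap_id_bijective L q m) c

end Restriction

section GlobalInflation

variable (T : ∀ q : Nat.Primes, LocalInvTheory (pv q))
variable (K L L' : Type) [Field K] [Field L] [Field L'] [NumberField L] [NumberField L']
  [Algebra K L] [Algebra K L'] [Algebra L L'] [IsScalarTower K L L']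
  (G G' : Type) [Group G] [Group G'] [Finite G] [Finite G']
  [MulSemiringAction G L] [MulSemiringAction G' L'] [IsGaloisGroup G K L] [IsGaloisGroup G' K L']
  [FaithfulSMul G L] [FaithfulSMul G' L']
  (f : G' →* G) (hf : ∀ (g' : G') (x : L), algebraMap L L' (f g' • x) = g' • algebraMap L L' x)

include K in
/-- **Inflation compatibility of the global invariant** in a Galois tower `K ⊂ L ⊂ L'`
(all four hypotheses of `ClassFormation.globalInv_map_of_surjective` discharged). -/
theorem globalInv_infl (c : groupCohomology (ideleRep L G) 2) :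
    ClassFormation.globalInv T L' G'
        (groupCohomology.map f (ideleMapRepHom f (algebraMap L L') hf) 2 c) =
      ClassFormation.globalInv T L G c := by
  have hfd : FiniteDimensional K L' := IsGaloisGroup.finiteDimensional G' K L'
  have hfd' : FiniteDimensional L L' := FiniteDimensional.right K L L'
  refine ClassFormation.globalInv_map_of_surjective T f (algebraMap L L') hf
    (towerHom_surjective K L L' G G' f hf) ?_ ?_ ?_ ?_ c
  · intro q m
    obtain ⟨m', hm'⟩ := exists_maximalSpectrum_over L L' q m
    exact ⟨m', MaximalSpectrum.ext hm'.symm⟩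
  · intro q m₁ m₂ h
    obtain ⟨n, -, hn⟩ := exists_ker_smul_eq K L L' G G' f hf q
      (ClassFormation.primeBelowMax (algebraMap L L') q m₁) m₁ rfl m₂
      (congrArg MaximalSpectrum.asIdeal h)
    exact ⟨n, hn⟩
  · intro q m'
    exact decompMap_surjective K L L' G G' f hf q _ m' rfl
  · intro q m' y hy
    exact exists_fieldAtMap_eq_of_fixed K L L' G G' f hf q _ m' rfl y hy

end GlobalInflation

end Fermat.Agent.Lib.CFT.Global.LocalInvTower

end
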