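import Mathlib
import Fermat.Agent.Lib.FrobDensity.Main

/-!
# Decomposition groups outside a finite set of primes generate the Galois group

helper39 (P-CFT).  `L/K` ANY Galois extension of number fields (not necessarily cyclic or abelian),
`G = Gal(L/K)`.  From the Frobenius density theorem
(`Fermat.Agent.Lib.FrobDensity.decompDensity`: the primes all of whose decomposition groups lie in
a normal subgroup `H'` have density `1/[G:H']`) we deduce:

* `DecompGenerate.infinite_compl_decompSet`: for a proper normal subgroup `H'`, infinitely many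
  primes of `K` have a decomposition group not contained in `H'`;
* `DecompGenerate.exists_prime_stabilizer_not_le`: the same outside a finite set of primes;
* `DecompGenerate.decompClosure_eq_top`: the decomposition groups of the primes of `L` not
  above a given finite set of primes of `K` generate `G`;
* `DecompGenerate.exists_stabilizer_ne_bot`: if `L ≠ K`, not all primes outside a finite set
  split completely;
* `DecompGenerate.closure_stabilizers_eq_top`, `DecompGenerate.exists_prime_stabilizer_ne_bot`: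
  the same with the exceptional set given as a `Finset Nat.Primes` of rational primes (same shape
  as `FirstIneqSplit.closure_stabilizers_eq_top`, which treats the cyclic case).

(This replaces the classical deduction of these facts from the first inequality; the cyclic case,
with an actual inert prime, is `Global/FirstIneqSplit.lean`.)
-/

open scoped NumberField Pointwise

namespace Fermat.Agent.Lib.CFT.Global.DecompGenerate

open NumberField IsDedekindDomain Fermat.Agent.Lib.FrobDensity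

universe u

variable (K L : Type u) [Field K] [NumberField K] [Field L] [NumberField L] [Algebra K L]
  [IsGalois K L]

/-- For a proper normal subgroup `H'`, infinitely many primes of `K` have a decomposition group
not contained in `H'`. -/
theorem infinite_compl_decompSet (H' : Subgroup Gal(L/K)) [H'.Normal] (hH : H' ≠ ⊤) :
    (decompSet K L H')ᶜ.Infinite := by
  have h1 := decompDensity.{u} K L H'
  have h2 : HasLogDensity K (Set.univ \ decompSet K L H') (1 - 1 / (H'.index : ℝ)) :=
    (hasLogDensity_univ (K := K)).diff h1 (Set.subset_univ _)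
  rw [← Set.compl_eq_univ_sdiff] at h2
  apply h2.infinite
  have hfin : Finite Gal(L/K) := inferInstance
  have h0 : H'.index ≠ 0 := Subgroup.index_ne_zero_of_finite
  have h1' : H'.index ≠ 1 := fun h => hH (Subgroup.index_eq_one.1 h)
  have h2' : (2 : ℝ) ≤ (H'.index : ℝ) := by
    have : 2 ≤ H'.index := by omega
    exact_mod_cast this
  have h3 : 1 / (H'.index : ℝ) ≤ 1 / 2 := by
    apply one_div_le_one_div_of_le (by norm_num) h2'
  linarith

/-- Outside any finite set of primes of `K` there is a prime with a decomposition group not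
contained in the proper normal subgroup `H'`. -/
theorem exists_prime_stabilizer_not_le (H' : Subgroup Gal(L/K)) [H'.Normal] (hH : H' ≠ ⊤)
    (T : Set (HeightOneSpectrum (𝓞 K))) (hT : T.Finite) :
    ∃ q : HeightOneSpectrum (𝓞 K), q ∉ T ∧ ∃ Q : Ideal (𝓞 L), Q.IsPrime ∧
      Q.LiesOver q.asIdeal ∧ ¬ MulAction.stabilizer Gal(L/K) Q ≤ H' := by
  have hinf := (infinite_compl_decompSet K L H' hH).sdiff hT
  obtain ⟨q, hq⟩ := hinf.nonempty
  refine ⟨q, hq.2, ?_⟩
  have hq1 : q ∉ decompSet K L H' := hq.1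
  unfold decompSet at hq1
  simp only [Set.mem_ofPred_eq, not_forall] at hq1
  obtain ⟨Q, hQ1, hQ2, hQ3⟩ := hq1
  exact ⟨Q, hQ1, hQ2, hQ3⟩

/-- The set of elements of decomposition groups of primes of `L` not above `T`. -/
def decompElems (T : Set (HeightOneSpectrum (𝓞 K))) : Set Gal(L/K) :=
  {g | ∃ q : HeightOneSpectrum (𝓞 K), q ∉ T ∧ ∃ Q : Ideal (𝓞 L), Q.IsPrime ∧
    Q.LiesOver q.asIdeal ∧ g ∈ MulAction.stabilizer Gal(L/K) Q}

/-- The subgroup generated by the decomposition groups of the primes of `L` not above `T`. -/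
def decompClosure (T : Set (HeightOneSpectrum (𝓞 K))) : Subgroup Gal(L/K) :=
  Subgroup.closure (decompElems K L T)

lemma conj_mem_decompElems (T : Set (HeightOneSpectrum (𝓞 K))) (g h : Gal(L/K))
    (hh : h ∈ decompElems K L T) : g * h * g⁻¹ ∈ decompElems K L T := by
  obtain ⟨q, hq, Q, hQ1, hQ2, hQ3⟩ := hh
  refine ⟨q, hq, g • Q, inferInstance, inferInstance, ?_⟩
  rw [MulAction.mem_stabilizer_iff] at hQ3 ⊢
  rw [mul_smul, mul_smul, inv_smul_smul, hQ3]

instance decompClosure_normal (T : Set (HeightOneSpectrum (𝓞 K))) :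
    (decompClosure K L T).Normal := by
  constructor
  intro h hh g
  unfold decompClosure at hh ⊢
  induction hh using Subgroup.closure_induction with
  | mem x hx => exact Subgroup.subset_closure (conj_mem_decompElems K L T g x hx)
  | one => simp
  | mul x y _ _ hx hy =>
    have : g * (x * y) * g⁻¹ = (g * x * g⁻¹) * (g * y * g⁻¹) := by group
    rw [this]
    exact mul_mem hx hy
  | inv x _ hx =>
    have : g * x⁻¹ * g⁻¹ = (g * x * g⁻¹)⁻¹ := by group
    rw [this]
    exact inv_mem hx

/-- **The decomposition groups of the primes outside a finite set generate the Galois group.** -/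
theorem decompClosure_eq_top (T : Set (HeightOneSpectrum (𝓞 K))) (hT : T.Finite) :
    decompClosure K L T = ⊤ := by
  by_contra hne
  obtain ⟨q, hq, Q, hQ1, hQ2, hQ3⟩ :=
    exists_prime_stabilizer_not_le K L (decompClosure K L T) hne T hT
  apply hQ3
  intro g hg
  exact Subgroup.subset_closure ⟨q, hq, Q, hQ1, hQ2, hg⟩

/-- If `L ≠ K`, not all primes outside a finite set split completely: some prime of `L` not
above `T` has a non-trivial decomposition group. -/
theorem exists_stabilizer_ne_bot (hKL : Nontrivial Gal(L/K))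
    (T : Set (HeightOneSpectrum (𝓞 K))) (hT : T.Finite) :
    ∃ q : HeightOneSpectrum (𝓞 K), q ∉ T ∧ ∃ Q : Ideal (𝓞 L), Q.IsPrime ∧
      Q.LiesOver q.asIdeal ∧ MulAction.stabilizer Gal(L/K) Q ≠ ⊥ := by
  have hbot : (⊥ : Subgroup Gal(L/K)) ≠ ⊤ := bot_ne_top
  obtain ⟨q, hq, Q, hQ1, hQ2, hQ3⟩ := exists_prime_stabilizer_not_le K L ⊥ hbot T hT
  exact ⟨q, hq, Q, hQ1, hQ2, fun h => hQ3 (h ▸ le_refl _)⟩

/-! ### Rational prime versions -/

/-- The primes of `K` dividing one of the rational primes in `S`. -/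
def primesOfK (S : Finset Nat.Primes) : Set (HeightOneSpectrum (𝓞 K)) :=
  {q | ∃ ℓ ∈ S, (((ℓ : ℕ) : ℕ) : 𝓞 K) ∈ q.asIdeal}

theorem finite_primesOfK (S : Finset Nat.Primes) : (primesOfK K S).Finite := by
  have : primesOfK K S =
      ⋃ ℓ ∈ S, {q : HeightOneSpectrum (𝓞 K) | (((ℓ : ℕ) : ℕ) : 𝓞 K) ∈ q.asIdeal} := by
    ext q
    simp [primesOfK]
  rw [this]
  refine Set.Finite.biUnion S.finite_toSet fun ℓ _ => ?_
  refine FrobGen.finite_setOf_mem ?_
  exact_mod_cast ℓ.2.ne_zero

omit [NumberField K] [NumberField L] [IsGalois K L] in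
/-- The rational prime below a prime `Q` of `L` lying over `q ∉ primesOfK K S` is not in `S`. -/
theorem exists_ratPrime_of_liesOver (S : Finset Nat.Primes) (q : HeightOneSpectrum (𝓞 K))
    (hq : q ∉ primesOfK K S) (Q : Ideal (𝓞 L)) (hQ2 : Q.LiesOver q.asIdeal) :
    ∃ ℓ : Nat.Primes, ℓ ∉ S ∧ (((ℓ : ℕ) : ℕ) : 𝓞 L) ∈ Q := by
  have hℓ : (NonDegOne.ratPrime K q).Prime := NonDegOne.ratPrime_prime K q
  have hmem : ((NonDegOne.ratPrime K q : ℕ) : 𝓞 K) ∈ q.asIdeal := by
    have h := (NonDegOne.liesOver_ratPrime K q).over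
    have h1 : ((NonDegOne.ratPrime K q : ℕ) : ℤ) ∈
        Ideal.span {((NonDegOne.ratPrime K q : ℕ) : ℤ)} := Ideal.mem_span_singleton_self _
    rw [h, Ideal.mem_comap] at h1
    simpa using h1
  refine ⟨⟨NonDegOne.ratPrime K q, hℓ⟩, fun hS => hq ⟨_, hS, hmem⟩, ?_⟩
  have h2 : algebraMap (𝓞 K) (𝓞 L) ((NonDegOne.ratPrime K q : ℕ) : 𝓞 K) ∈ Q := by
    have := hQ2.over
    rw [this] at hmem
    exact hmem
  simpa using h2

/-- Rational prime form: for a proper normal subgroup `H'` and a finite set `S` of rational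
primes there are `ℓ ∉ S` and a prime `Q` of `L` above `ℓ` whose decomposition group is not
contained in `H'`. -/
theorem exists_ratPrime_stabilizer_not_le (H' : Subgroup Gal(L/K)) [H'.Normal] (hH : H' ≠ ⊤)
    (S : Finset Nat.Primes) :
    ∃ ℓ : Nat.Primes, ℓ ∉ S ∧ ∃ Q : Ideal (𝓞 L), Q.IsPrime ∧ (((ℓ : ℕ) : ℕ) : 𝓞 L) ∈ Q ∧
      ¬ MulAction.stabilizer Gal(L/K) Q ≤ H' := by
  obtain ⟨q, hq, Q, hQ1, hQ2, hQ3⟩ :=
    exists_prime_stabilizer_not_le K L H' hH (primesOfK K S) (finite_primesOfK K S)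
  obtain ⟨ℓ, hℓ, hmem⟩ := exists_ratPrime_of_liesOver K L S q hq Q hQ2
  exact ⟨ℓ, hℓ, Q, hQ1, hmem, hQ3⟩

/-- If `L ≠ K`, some prime of `L` above a rational prime `ℓ ∉ S` has a non-trivial decomposition
group. -/
theorem exists_prime_stabilizer_ne_bot (hKL : Nontrivial Gal(L/K)) (S : Finset Nat.Primes) :
    ∃ ℓ : Nat.Primes, ℓ ∉ S ∧ ∃ Q : Ideal (𝓞 L), Q.IsPrime ∧ (((ℓ : ℕ) : ℕ) : 𝓞 L) ∈ Q ∧
      MulAction.stabilizer Gal(L/K) Q ≠ ⊥ := by
  have hbot : (⊥ : Subgroup Gal(L/K)) ≠ ⊤ := bot_ne_top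
  obtain ⟨ℓ, hℓ, Q, hQ1, hmem, hQ3⟩ := exists_ratPrime_stabilizer_not_le K L ⊥ hbot S
  exact ⟨ℓ, hℓ, Q, hQ1, hmem, fun h => hQ3 (h ▸ le_refl _)⟩

/-- **The decomposition groups of the primes of `L` not above `S` generate `Gal(L/K)`**, for any
Galois extension `L/K` of number fields (same shape as `FirstIneqSplit.closure_stabilizers_eq_top`,
without the cyclicity hypothesis). -/
theorem closure_stabilizers_eq_top (S : Finset Nat.Primes) :
    Subgroup.closure (⋃ (ℓ : Nat.Primes) (_ : ℓ ∉ S) (Q : Ideal (𝓞 L))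
      (_ : Q.IsPrime ∧ (((ℓ : ℕ) : ℕ) : 𝓞 L) ∈ Q),
        (MulAction.stabilizer Gal(L/K) Q : Set Gal(L/K))) = ⊤ := by
  have hle : decompClosure K L (primesOfK K S) ≤
      Subgroup.closure (⋃ (ℓ : Nat.Primes) (_ : ℓ ∉ S) (Q : Ideal (𝓞 L))
        (_ : Q.IsPrime ∧ (((ℓ : ℕ) : ℕ) : 𝓞 L) ∈ Q),
          (MulAction.stabilizer Gal(L/K) Q : Set Gal(L/K))) := by
    unfold decompClosure
    apply Subgroup.closure_mono
    rintro g ⟨q, hq, Q, hQ1, hQ2, hg⟩
    obtain ⟨ℓ, hℓ, hmem⟩ := exists_ratPrime_of_liesOver K L S q hq Q hQ2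
    simp only [Set.mem_iUnion]
    exact ⟨ℓ, hℓ, Q, ⟨hQ1, hmem⟩, hg⟩
  rw [eq_top_iff, ← decompClosure_eq_top K L (primesOfK K S) (finite_primesOfK K S)]
  exact hle

end Fermat.Agent.Lib.CFT.Global.DecompGenerate
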