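/-
P-CFT (helper39): decomposition groups in the `MaximalSpectrum (LocAlg L q)` conventions.

`L / K` a Galois extension of number fields, `G = Gal(L/K)` acting on `ℚ_q ⊗ L` and (through
`Global/EtaleAlg`) on its maximal spectrum.
* `closure_stabilizers_maxSpec_eq_top`: the decomposition groups `stabilizer G m`,
  `m : MaximalSpectrum (LocAlg L q)`, `q ∉ S`, generate `G` (any Galois `L / K`);
* `exists_maxSpec_stabilizer_eq_top`: for cyclic `L / K` some `m` over some `q ∉ S` has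
  decomposition group `⊤` (an inert prime);
* `exists_maxSpec_stabilizer_ne_bot`: if `L ≠ K`, some `m` over some `q ∉ S` has a non-trivial
  decomposition group.
Translations of `Global/DecompGenerate` and `Global/FirstIneqSplit` along
`Places.primesEquivMaximalSpectrum` (`Places.Galois.stabilizer_primesEquiv`).
-/
import Mathlib
import Fermat.Agent.Lib.CFT.Global.DecompGenerate
import Fermat.Agent.Lib.CFT.Global.FirstIneqSplit
import Fermat.Agent.Lib.CFT.Global.Places.GaloisLocal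

set_option autoImplicit false

open scoped NumberField Pointwise

noncomputable section

namespace Fermat.Agent.Lib.CFT.Global.DecompMaxSpec

open Fermat.Agent.Lib.CFT.Global Fermat.Agent.Lib.CFT.Global.Places
  Fermat.Agent.Lib.CFT.Global.Places.Galois IsDedekindDomain EtaleAlg

variable (K L : Type) [Field K] [NumberField K] [Field L] [NumberField L] [Algebra K L]
  [IsGalois K L]

omit [NumberField K] [IsGalois K L] in
/-- A prime ideal of `𝓞 L` containing the rational prime `ℓ`, as a point of `PrimesOver L ℓ`. -/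
theorem exists_primesOver_eq (ℓ : Nat.Primes) (Q : Ideal (𝓞 L)) (hQ : Q.IsPrime)
    (hmem : (((ℓ : ℕ) : ℕ) : 𝓞 L) ∈ Q) : ∃ w : PrimesOver L ℓ, w.1.asIdeal = Q := by
  have hne : Q ≠ ⊥ := by
    intro h
    rw [h, Ideal.mem_bot] at hmem
    have : ((ℓ : ℕ) : 𝓞 L) ≠ 0 := by exact_mod_cast ℓ.2.ne_zero
    exact this hmem
  exact ⟨⟨⟨Q, hQ, hne⟩, hmem⟩, rfl⟩

omit [NumberField K] [IsGalois K L] in
/-- The decomposition group of a prime `Q` of `𝓞 L` above `ℓ` is the stabilizer of the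
corresponding maximal ideal of `ℚ_ℓ ⊗ L`. -/
theorem exists_maxSpec_stabilizer_eq (ℓ : Nat.Primes) (Q : Ideal (𝓞 L)) (hQ : Q.IsPrime)
    (hmem : (((ℓ : ℕ) : ℕ) : 𝓞 L) ∈ Q) :
    ∃ m : MaximalSpectrum (LocAlg L ℓ),
      MulAction.stabilizer Gal(L/K) m = MulAction.stabilizer Gal(L/K) Q := by
  obtain ⟨w, hw⟩ := exists_primesOver_eq L ℓ Q hQ hmem
  exact ⟨primesEquivMaximalSpectrum L ℓ w, by rw [stabilizer_primesEquiv, hw]⟩

/-- **The decomposition groups at the maximal ideals of `ℚ_q ⊗ L`, `q ∉ S`, generate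
`Gal(L/K)`**, for any Galois extension `L / K` of number fields. -/
theorem closure_stabilizers_maxSpec_eq_top (S : Finset Nat.Primes) :
    Subgroup.closure (⋃ (q : Nat.Primes) (_ : q ∉ S) (m : MaximalSpectrum (LocAlg L q)),
      (MulAction.stabilizer Gal(L/K) m : Set Gal(L/K))) = ⊤ := by
  rw [eq_top_iff, ← DecompGenerate.closure_stabilizers_eq_top K L S]
  apply Subgroup.closure_mono
  intro g hg
  simp only [Set.mem_iUnion] at hg ⊢
  obtain ⟨ℓ, hℓ, Q, ⟨hQ, hmem⟩, hgQ⟩ := hg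
  obtain ⟨m, hm⟩ := exists_maxSpec_stabilizer_eq K L ℓ Q hQ hmem
  exact ⟨ℓ, hℓ, m, by rw [hm]; exact hgQ⟩

/-- For a proper normal subgroup `H'` there are `q ∉ S` and a maximal ideal `m` of `ℚ_q ⊗ L` whose
decomposition group is not contained in `H'`. -/
theorem exists_maxSpec_stabilizer_not_le (H' : Subgroup Gal(L/K)) [H'.Normal] (hH : H' ≠ ⊤)
    (S : Finset Nat.Primes) :
    ∃ q : Nat.Primes, q ∉ S ∧ ∃ m : MaximalSpectrum (LocAlg L q),
      ¬ MulAction.stabilizer Gal(L/K) m ≤ H' := by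
  obtain ⟨ℓ, hℓ, Q, hQ, hmem, hnot⟩ :=
    DecompGenerate.exists_ratPrime_stabilizer_not_le K L H' hH S
  obtain ⟨m, hm⟩ := exists_maxSpec_stabilizer_eq K L ℓ Q hQ hmem
  exact ⟨ℓ, hℓ, m, by rw [hm]; exact hnot⟩

/-- If `L ≠ K`, some maximal ideal of some `ℚ_q ⊗ L`, `q ∉ S`, has a non-trivial decomposition
group. -/
theorem exists_maxSpec_stabilizer_ne_bot (hKL : Nontrivial Gal(L/K)) (S : Finset Nat.Primes) :
    ∃ q : Nat.Primes, q ∉ S ∧ ∃ m : MaximalSpectrum (LocAlg L q),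
      MulAction.stabilizer Gal(L/K) m ≠ ⊥ := by
  obtain ⟨ℓ, hℓ, Q, hQ, hmem, hne⟩ := DecompGenerate.exists_prime_stabilizer_ne_bot K L hKL S
  obtain ⟨m, hm⟩ := exists_maxSpec_stabilizer_eq K L ℓ Q hQ hmem
  exact ⟨ℓ, hℓ, m, by rw [hm]; exact hne⟩

/-- **An inert prime outside `S`**: for a cyclic extension `L / K` there are `q ∉ S` and a
maximal ideal `m` of `ℚ_q ⊗ L` whose decomposition group is all of `Gal(L/K)`. -/
theorem exists_maxSpec_stabilizer_eq_top [IsCyclic Gal(L/K)] (S : Finset Nat.Primes) :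
    ∃ q : Nat.Primes, q ∉ S ∧ ∃ m : MaximalSpectrum (LocAlg L q),
      MulAction.stabilizer Gal(L/K) m = ⊤ := by
  obtain ⟨ℓ, hℓ, Q, hQ, hmem, htop⟩ := FirstIneqSplit.exists_prime_stabilizer_eq_top K L S
  obtain ⟨m, hm⟩ := exists_maxSpec_stabilizer_eq K L ℓ Q hQ hmem
  exact ⟨ℓ, hℓ, m, by rw [hm]; exact htop⟩

end Fermat.Agent.Lib.CFT.Global.DecompMaxSpec
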