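/-
P-CFT, Global/FirstIneq (helper39): **the first inequality of global class field theory**,
unconditional.

For a cyclic extension `L / K` of number fields:
* `firstIneqHerbrand`: the Herbrand quotient of the idele class group is `h(C_L) = [L : K]`
  (`SecondIneq.Consequences.FirstIneqHerbrand`);
* `finrank_dvd_index`: `[L : K] ∣ [J_K : Kˣ N_{L/K} J_L]`;
* `finrank_eq_one_of_sup_eq_top`, `first_ineq_prime`: `Kˣ N_{L/K} J_L = J_K` forces `L = K`.
-/
import Mathlib
import Fermat.Agent.Lib.CFT.Global.CohIdeles.UnramUnits
import Fermat.Agent.Lib.CFT.Global.FirstIneqFinal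

set_option autoImplicit false
set_option linter.style.haveILetI false

open scoped NumberField

noncomputable section

namespace Fermat.Agent.Lib.CFT.Global.FirstIneqTheorem

open Fermat.Agent.Lib.CFT Fermat.Agent.Lib.CFT.Herbrand Fermat.Agent.Lib.CFT.Global
  Fermat.Agent.Lib.CFT.Global.SecondIneq.Consequences


/-- **(D2)** in the packaged form consumed by `Global/FirstIneqFinal`
(`CohIdeles.locIntUnits_herbrandTrivialOn`). -/
theorem unramHerbrandTrivial : FirstIneqFinal.UnramHerbrandTrivial := by
  intro L _ _ G _ _ _ _ s hs q hq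
  exact CohIdeles.locIntUnits_herbrandTrivialOn s hs (fun w => hq w.1 w.2)

/-- **First inequality, Herbrand quotient form**: `h(C_L) = [L : K]` for cyclic layers. -/
theorem firstIneqHerbrand : FirstIneqHerbrand :=
  FirstIneqFinal.firstIneqHerbrand unramHerbrandTrivial

/-- The Herbrand quotient of the idele class group for a finite cyclic group `G = ⟨s⟩` acting on
`L` with `IsGaloisGroup G K L`. -/
theorem herbrandCycMul_ideleClass (L : Type) [Field L] [NumberField L] (G : Type) [Group G]
    [Fintype G] [MulSemiringAction G L] (K : Type) [Field K] [NumberField K] [Algebra K L]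
    [IsGaloisGroup G K L] {s : G} (hs : ∀ x, x ∈ Subgroup.zpowers s) :
    CycFinMul G (IdeleClass L) s ∧ herbrandCycMul G (IdeleClass L) s = (Fintype.card G : ℚ) := by
  haveI : FaithfulSMul G L := IsGaloisGroup.faithful K
  exact FirstIneqMain.herbrandCycMul_ideleClass L G K hs
    (fun q hq => unramHerbrandTrivial L G s hs q hq)

section Index

variable (K L : Type) [Field K] [NumberField K] [Field L] [NumberField L] [Algebra K L]
  [IsGalois K L]

/-- **First inequality, index form**: `[L : K] ∣ [J_K : Kˣ N_{L/K} J_L]` for cyclic `L / K`. -/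
theorem finrank_dvd_index [IsCyclic (L ≃ₐ[K] L)] :
    Module.finrank K L ∣ ((principal K).range ⊔ (ideleNorm K L).range).index :=
  FirstIneqFinal.finrank_dvd_index K L unramHerbrandTrivial

/-- If `Kˣ N_{L/K} J_L = J_K` for a cyclic extension `L / K`, then `L = K`. -/
theorem finrank_eq_one_of_sup_eq_top [IsCyclic (L ≃ₐ[K] L)]
    (h : (principal K).range ⊔ (ideleNorm K L).range = ⊤) : Module.finrank K L = 1 :=
  FirstIneqFinal.finrank_eq_one_of_sup_eq_top K L unramHerbrandTrivial h

/-- For `L / K` Galois of prime degree, `Kˣ N_{L/K} J_L ≠ J_K`. -/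
theorem first_ineq_prime (hp : (Module.finrank K L).Prime)
    (h : (principal K).range ⊔ (ideleNorm K L).range = ⊤) : False :=
  FirstIneqFinal.first_ineq_prime K L unramHerbrandTrivial hp h

end Index

end Fermat.Agent.Lib.CFT.Global.FirstIneqTheorem
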