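import Fermat.Agent.Lib.CFT.Global.IdeleClassInvariants

/-!
# Restriction and inflation for the idele class module, in Galois form (helper54, P-CFT)

For a Galois extension `L / K` of number fields with group `Gal(L/K) = (L ≃ₐ[K] L)` acting on the
idele class module `C_L = ideleClassRep L (L ≃ₐ[K] L)`:

* `resIso K L H n`: for a subgroup `H` with fixed field `E`, `H^n(H, C_L) ≅ H^n(Gal(L/E), C_L)`;
* `invIso K L N n`: for a normal subgroup `N` with fixed field `E`,
  `H^n(Gal(L/K) ⧸ N, (C_L)^N) ≅ H^n(Gal(E/K), C_E)` (Galois descent `(C_L)^N = C_E`).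

Both are instances of Mathlib's `groupCohomology.mapIso`.
-/

open scoped NumberField

noncomputable section

namespace Fermat.Agent.Lib.CFT.Global

open IntermediateField

variable (K L : Type) [Field K] [NumberField K] [Field L] [NumberField L] [Algebra K L]
  [IsGalois K L]

/-- **Restriction in Galois form.**  For a subgroup `H` of `Gal(L/K)` with fixed field `E`, the
cohomology of `H` with coefficients in `C_L` is the cohomology of `Gal(L/E)`. -/
def resIso (H : Subgroup (L ≃ₐ[K] L)) (n : ℕ) :
    groupCohomology (Rep.res H.subtype (ideleClassRep L (L ≃ₐ[K] L))) n ≅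
      groupCohomology (ideleClassRep L (L ≃ₐ[fixedField H] L)) n :=
  groupCohomology.mapIso (A := ideleClassRep L (L ≃ₐ[fixedField H] L))
    (B := Rep.res H.subtype (ideleClassRep L (L ≃ₐ[K] L)))
    (subgroupEquivAlgEquiv H) (LinearEquiv.refl ℤ _)
    (fun h => by
      ext c
      exact congrArg Additive.ofMul
        (smul_ideleClass_congr L (h : L ≃ₐ[K] L) (subgroupEquivAlgEquiv H h) (fun _ => rfl)
          c.toMul)) n

/-- The same for the idele module. -/
def resIsoIdele (H : Subgroup (L ≃ₐ[K] L)) (n : ℕ) :
    groupCohomology (Rep.res H.subtype (ideleRep L (L ≃ₐ[K] L))) n ≅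
      groupCohomology (ideleRep L (L ≃ₐ[fixedField H] L)) n :=
  groupCohomology.mapIso (A := ideleRep L (L ≃ₐ[fixedField H] L))
    (B := Rep.res H.subtype (ideleRep L (L ≃ₐ[K] L)))
    (subgroupEquivAlgEquiv H) (LinearEquiv.refl ℤ _)
    (fun h => by
      ext c
      exact congrArg Additive.ofMul
        (smul_idele_congr L (h : L ≃ₐ[K] L) (subgroupEquivAlgEquiv H h) (fun _ => rfl)
          c.toMul)) n

/-- The subgroup `N` is a Galois group of `L` over its fixed field. -/
instance isGaloisGroup_fixedField (N : Subgroup (L ≃ₐ[K] L)) :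
    IsGaloisGroup N (fixedField N) L :=
  IsGaloisGroup.subgroup (L ≃ₐ[K] L) K L N

/-- The descent equivalence `C_E ≃ (C_L)^N`, `E` the fixed field of the normal subgroup `N`, as a
`ℤ`-linear equivalence. -/
def invLinearEquiv (N : Subgroup (L ≃ₐ[K] L)) [N.Normal] :
    (ideleClassRep (fixedField N) ((fixedField N) ≃ₐ[K] (fixedField N))).V ≃ₗ[ℤ]
      ((ideleClassRep L (L ≃ₐ[K] L)).quotientToInvariants N).V := by
  letI iACG : AddCommGroup (Additive (IdeleClass (fixedField N))) := inferInstance
  letI iACG' : AddCommGroup (Additive (IdeleClass L)) := inferInstance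
  letI : MulDistribMulAction ((L ≃ₐ[K] L) ⧸ N) (IdeleClass (fixedField N)) :=
    MulDistribMulAction.compHom (IdeleClass (fixedField N))
      (IsGalois.normalAutEquivQuotient N).toMonoidHom
  exact (descentEquiv N (ideleClassMap (algebraMap (fixedField N) L))
    (ideleClassMap_injective_of_isGaloisGroup (fixedField N) L N)
    (fun g c => ideleClassMap_smul_of_intertwine (algebraMap (fixedField N) L)
      (AlgEquiv.restrictNormalHom (fixedField N) g) g
      (fun x => AlgEquiv.restrictNormal_commutes g (fixedField N) x) c)
    (fun c hc => exists_ideleClassMap_eq_of_fixed_of_isGaloisGroup (fixedField N) L N c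
      (fun n => (smul_ideleClass_congr L n (n : L ≃ₐ[K] L) (fun _ => rfl) c).trans
        (hc n)))).toLinearEquiv

lemma invLinearEquiv_apply (N : Subgroup (L ≃ₐ[K] L)) [N.Normal]
    (c : (ideleClassRep (fixedField N) ((fixedField N) ≃ₐ[K] (fixedField N))).V) :
    (invLinearEquiv K L N c).1 =
      Additive.ofMul (ideleClassMap (algebraMap (fixedField N) L) (Additive.toMul c)) := rfl

/-- The descent equivalence intertwines the action of `Gal(L/K) ⧸ N` on `(C_L)^N` with the action
of `Gal(E/K)` on `C_E`. -/
lemma invLinearEquiv_intertwine (N : Subgroup (L ≃ₐ[K] L)) [N.Normal] (q : (L ≃ₐ[K] L) ⧸ N)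
    (c : (ideleClassRep (fixedField N) ((fixedField N) ≃ₐ[K] (fixedField N))).V) :
    ((ideleClassRep L (L ≃ₐ[K] L)).quotientToInvariants N).ρ q (invLinearEquiv K L N c) =
      invLinearEquiv K L N ((ideleClassRep (fixedField N)
        ((fixedField N) ≃ₐ[K] (fixedField N))).ρ (IsGalois.normalAutEquivQuotient N q) c) := by
  induction q using QuotientGroup.induction_on with
  | H g =>
    apply Subtype.ext
    exact congrArg Additive.ofMul
      (ideleClassMap_smul_of_intertwine (algebraMap (fixedField N) L)
        (AlgEquiv.restrictNormalHom (fixedField N) g) g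
        (fun x => AlgEquiv.restrictNormal_commutes g (fixedField N) x) (Additive.toMul c)).symm

/-- **Inflation in Galois form.**  For a normal subgroup `N` of `Gal(L/K)` with fixed field `E`,
the cohomology of `Gal(L/K) ⧸ N` with coefficients in `(C_L)^N` is the cohomology of `Gal(E/K)`
with coefficients in `C_E`. -/
def invIso (N : Subgroup (L ≃ₐ[K] L)) [N.Normal] (n : ℕ) :
    groupCohomology ((ideleClassRep L (L ≃ₐ[K] L)).quotientToInvariants N) n ≅
      groupCohomology (ideleClassRep (fixedField N) ((fixedField N) ≃ₐ[K] (fixedField N))) n :=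
  groupCohomology.mapIso
    (A := ideleClassRep (fixedField N) ((fixedField N) ≃ₐ[K] (fixedField N)))
    (B := (ideleClassRep L (L ≃ₐ[K] L)).quotientToInvariants N)
    (IsGalois.normalAutEquivQuotient N) (invLinearEquiv K L N).symm
    (fun q => by
      ext c
      obtain ⟨c, rfl⟩ := (invLinearEquiv K L N).surjective c
      apply (invLinearEquiv K L N).injective
      refine ((invLinearEquiv K L N).apply_symm_apply _).trans ?_
      refine (invLinearEquiv_intertwine K L N q c).trans ?_
      exact congrArg (fun z => invLinearEquiv K L N ((ideleClassRep (fixedField N)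
        ((fixedField N) ≃ₐ[K] (fixedField N))).ρ (IsGalois.normalAutEquivQuotient N q) z))
        ((invLinearEquiv K L N).symm_apply_apply c).symm) n

end Fermat.Agent.Lib.CFT.Global
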