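/-
The idele group of a number field as a directed union of the `S`-ideles (`S` a finite set of
rational primes), as a `DirectedCover` of `G`-modules: consequences for cohomology.
-/
import Fermat.Agent.Lib.CFT.Coh.DirectedUnion
import Fermat.Agent.Lib.CFT.Global.FirstIneq

set_option autoImplicit false

namespace Fermat.Agent.Lib.CFT.Global.IdeleCover

open CategoryTheory groupCohomology
open Fermat.Agent.Lib.CFT.Coh.DirectedUnion Fermat.Agent.Lib.CFT.Global
open Fermat.Agent.Lib.CFT.Global.FirstIneq

variable (L : Type) [Field L] [NumberField L] (G : Type) [Group G] [MulSemiringAction G L]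

/-- The `G`-module of `S`-ideles. -/
noncomputable abbrev sIdelesRep (S : Finset Nat.Primes) : Rep ℤ G :=
  Rep.ofMulDistribMulAction G (sIdeles L (S : Set Nat.Primes))

/-- The ideles as the directed union of the `S`-ideles, `S` running over the finite sets of
rational primes. -/
noncomputable def ideleCover : DirectedCover (ideleRep L G) (Finset Nat.Primes) :=
  DirectedCover.ofSubgroupActions (fun S : Finset Nat.Primes => sIdeles L (S : Set Nat.Primes))
    (fun _ _ _ => rfl)
    (fun _ _ hST => sIdeles_mono L (Finset.coe_subset.2 hST))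
    (fun x => by
      obtain ⟨S, hS, hx⟩ := exists_finite_mem_sIdeles L x
      refine ⟨hS.toFinset, ?_⟩
      rwa [Set.Finite.coe_toFinset])

theorem ideleCover_M (S : Finset Nat.Primes) : (ideleCover L G).M S = sIdelesRep L G S := rfl

/-- The inclusion `J_{L,S} → J_L` as a morphism of `G`-modules. -/
noncomputable abbrev sIdelesIncl (S : Finset Nat.Primes) : sIdelesRep L G S ⟶ ideleRep L G :=
  (ideleCover L G).p S

/-- The inclusion `J_{L,S} → J_{L,T}` for `S ⊆ T` as a morphism of `G`-modules. -/
noncomputable abbrev sIdelesTrans {S T : Finset Nat.Primes} (h : S ≤ T) :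
    sIdelesRep L G S ⟶ sIdelesRep L G T :=
  (ideleCover L G).t h

theorem sIdelesIncl_apply (S : Finset Nat.Primes) (x : Additive (sIdeles L (S : Set Nat.Primes))) :
    (sIdelesIncl L G S).hom x = Additive.ofMul ((Additive.toMul x : sIdeles L S) : Idele L) := rfl

variable [Fintype G]

/-- Every class in `Hⁿ(G, J_L)` comes from `Hⁿ(G, J_{L,S})` for some finite `S`. -/
theorem exists_sIdeles_class (n : ℕ) (h : groupCohomology (ideleRep L G) n) :
    ∃ S : Finset Nat.Primes, ∃ h' : groupCohomology (sIdelesRep L G S) n,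
      groupCohomology.map (MonoidHom.id G) (sIdelesIncl L G S) n h' = h :=
  exists_map_eq (ideleCover L G) n h

/-- Every class in `Ĥⁿ(G, J_L)` comes from `Ĥⁿ(G, J_{L,S})` for some finite `S`. -/
theorem exists_sIdeles_tateClass (n : ℤ) (h : tateCohomology (ideleRep L G) n) :
    ∃ S : Finset Nat.Primes, ∃ h' : tateCohomology (sIdelesRep L G S) n,
      (tateCohomologyFunctor n).map (sIdelesIncl L G S) h' = h :=
  exists_tateMap_eq (ideleCover L G) n h

/-- If `Hⁿ(G, J_{L,S}) = 0` for all finite `S` containing a fixed `S₀`, then `Hⁿ(G, J_L) = 0`. -/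
theorem isZero_groupCohomology_idele (n : ℕ) (S₀ : Finset Nat.Primes)
    (h : ∀ S : Finset Nat.Primes, S₀ ⊆ S → Limits.IsZero (groupCohomology (sIdelesRep L G S) n)) :
    Limits.IsZero (groupCohomology (ideleRep L G) n) :=
  isZero_groupCohomology_of_cofinal (ideleCover L G) n fun S =>
    ⟨S ∪ S₀, Finset.subset_union_left, h _ Finset.subset_union_right⟩

/-- If `Ĥⁿ(G, J_{L,S}) = 0` for all finite `S` containing a fixed `S₀`, then `Ĥⁿ(G, J_L) = 0`. -/
theorem isZero_tateCohomology_idele (n : ℤ) (S₀ : Finset Nat.Primes)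
    (h : ∀ S : Finset Nat.Primes, S₀ ⊆ S → Limits.IsZero (tateCohomology (sIdelesRep L G S) n)) :
    Limits.IsZero (tateCohomology (ideleRep L G) n) :=
  isZero_tateCohomology_of_cofinal (ideleCover L G) n fun S =>
    ⟨S ∪ S₀, Finset.subset_union_left, h _ Finset.subset_union_right⟩

end Fermat.Agent.Lib.CFT.Global.IdeleCover
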