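import Mathlib
import Fermat.Agent.Lib.CFT.Global.IdeleNorm
import Fermat.Agent.Lib.CFT.Global.EtaleAlgOrbits
import Fermat.Agent.Lib.CFT.Global.Places.LocAlgDecomp

/-!
# Local norms are idele norms (helper96, P-CFT)

`L / K` a Galois extension of number fields with group `G`, `q` a rational prime.

* `ideleSingle L q u` : the idele of `L` with component `u` at `q` and `1` elsewhere.
* `exists_locRelNorm_eq` : a unit `a` of `ℚ_q ⊗ K` which, at every maximal ideal `m` of
  `ℚ_q ⊗ L`, is a norm for the decomposition group acting on the residue field, is a norm from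
  `(ℚ_q ⊗ L)ˣ`.
* `exists_ideleNorm_eq_ideleSingle` : then the idele `ideleSingle K q a` is an idele norm.
-/

set_option autoImplicit false

open scoped TensorProduct NumberField

noncomputable section

namespace Fermat.Agent.Lib.CFT.Global

open Fermat.Agent.Lib.CFT.Global.EtaleAlg TensorExt

/-! ### Ideles supported at one rational prime -/

section Single

variable (L : Type) [Field L] [NumberField L]

/-- The idele with component `u` at `q` and `1` at all other places. -/
def ideleSingle (q : Nat.Primes) : (LocAlg L q)ˣ →* Idele L where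
  toFun u := ⟨(Pi.mulSingle (M := fun q : Nat.Primes => (LocAlg L q)ˣ) q u, 1), by
    classical
    rw [mem_ideleSubgroup]
    refine (Set.finite_singleton q).subset ?_
    intro q' hq'
    by_contra hne
    apply hq'
    have hne' : q' ≠ q := hne
    change Pi.mulSingle (M := fun q : Nat.Primes => (LocAlg L q)ˣ) q u q' ∈ locIntUnits L q'
    rw [Pi.mulSingle_eq_of_ne hne']
    exact one_mem _⟩
  map_one' := by
    apply Subtype.ext
    ext : 1
    · exact Pi.mulSingle_one (M := fun q : Nat.Primes => (LocAlg L q)ˣ) q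
    · rfl
  map_mul' u v := by
    apply Subtype.ext
    ext : 1
    · exact Pi.mulSingle_mul (f := fun q : Nat.Primes => (LocAlg L q)ˣ) q u v
    · exact (one_mul 1).symm

variable {L}

@[simp] lemma ideleSingle_fst_self (q : Nat.Primes) (u : (LocAlg L q)ˣ) :
    ((ideleSingle L q u : Idele L) : IdeleProd L).1 q = u :=
  Pi.mulSingle_eq_same (M := fun q : Nat.Primes => (LocAlg L q)ˣ) q u

lemma ideleSingle_fst_of_ne {q q' : Nat.Primes} (h : q' ≠ q) (u : (LocAlg L q)ˣ) :
    ((ideleSingle L q u : Idele L) : IdeleProd L).1 q' = 1 :=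
  Pi.mulSingle_eq_of_ne (M := fun q : Nat.Primes => (LocAlg L q)ˣ) h u

@[simp] lemma ideleSingle_snd (q : Nat.Primes) (u : (LocAlg L q)ˣ) :
    ((ideleSingle L q u : Idele L) : IdeleProd L).2 = 1 := rfl

/-- An idele with trivial components outside `q` is `ideleSingle`. -/
lemma eq_ideleSingle (q : Nat.Primes) (a : Idele L)
    (h1 : ∀ q', q' ≠ q → (a : IdeleProd L).1 q' = 1) (h2 : (a : IdeleProd L).2 = 1) :
    a = ideleSingle L q ((a : IdeleProd L).1 q) := by
  apply Subtype.ext
  ext : 1
  · funext q'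
    by_cases hq : q' = q
    · subst hq
      exact (ideleSingle_fst_self q' _).symm
    · rw [h1 q' hq, ideleSingle_fst_of_ne hq]
  · exact h2

/-- The action of a group of automorphisms on `ideleSingle`. -/
lemma smul_ideleSingle {G : Type} [Group G] [MulSemiringAction G L] (g : G) (q : Nat.Primes)
    (u : (LocAlg L q)ˣ) : g • ideleSingle L q u = ideleSingle L q (g • u) := by
  apply Subtype.ext
  ext : 1
  · funext q'
    by_cases hq : q' = q
    · subst hq
      change g • ((ideleSingle L q' u : Idele L) : IdeleProd L).1 q' = _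
      rw [ideleSingle_fst_self, ideleSingle_fst_self]
    · change g • ((ideleSingle L q u : Idele L) : IdeleProd L).1 q' = _
      rw [ideleSingle_fst_of_ne hq, ideleSingle_fst_of_ne hq, smul_one]
  · change g • ((ideleSingle L q u : Idele L) : IdeleProd L).2 = _
    rw [ideleSingle_snd, ideleSingle_snd, smul_one]

/-- Components of a finite product of `ideleSingle`'s. -/
lemma prod_ideleSingle_fst (T : Finset Nat.Primes) (u : ∀ q : Nat.Primes, (LocAlg L q)ˣ)
    (q' : Nat.Primes) :
    ((∏ q ∈ T, ideleSingle L q (u q) : Idele L) : IdeleProd L).1 q' =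
      if q' ∈ T then u q' else 1 := by
  classical
  rw [Subgroup.val_finsetProd, Prod.fst_prod, Finset.prod_apply]
  split_ifs with hq
  · rw [Finset.prod_eq_single_of_mem q' hq]
    · exact ideleSingle_fst_self q' (u q')
    · intro q _ hne
      exact ideleSingle_fst_of_ne (Ne.symm hne) (u q)
  · refine Finset.prod_eq_one (fun q hqT => ?_)
    have hne : q' ≠ q := fun h => hq (h ▸ hqT)
    exact ideleSingle_fst_of_ne hne (u q)

lemma prod_ideleSingle_snd (T : Finset Nat.Primes) (u : ∀ q : Nat.Primes, (LocAlg L q)ˣ) :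
    ((∏ q ∈ T, ideleSingle L q (u q) : Idele L) : IdeleProd L).2 = 1 := by
  rw [Subgroup.val_finsetProd, Prod.snd_prod]
  exact Finset.prod_eq_one (fun q _ => ideleSingle_snd q (u q))

/-- An idele with trivial components outside the finite set `T` of rational primes is the product
of its `T`-components. -/
lemma eq_prod_ideleSingle (T : Finset Nat.Primes) (a : Idele L)
    (h1 : ∀ q, q ∉ T → (a : IdeleProd L).1 q = 1) (h2 : (a : IdeleProd L).2 = 1) :
    a = ∏ q ∈ T, ideleSingle L q ((a : IdeleProd L).1 q) := by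
  apply Subtype.ext
  ext : 1
  · funext q'
    rw [prod_ideleSingle_fst]
    split_ifs with hq
    · rfl
    · exact h1 q' hq
  · rw [prod_ideleSingle_snd]
    exact h2

end Single

section Maps

variable {K L : Type} [Field K] [NumberField K] [Field L] [NumberField L]

/-- `ideleMap` on `ideleSingle`. -/
lemma ideleMap_ideleSingle (f : K →+* L) (q : Nat.Primes) (u : (LocAlg K q)ˣ) :
    ideleMap f (ideleSingle K q u) = ideleSingle L q (locUnitsMap f q u) := by
  apply Subtype.ext
  ext : 1
  · funext q'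
    by_cases hq : q' = q
    · subst hq
      rw [ideleMap_fst, ideleSingle_fst_self, ideleSingle_fst_self]
    · rw [ideleMap_fst, ideleSingle_fst_of_ne hq, ideleSingle_fst_of_ne hq, map_one]
  · rw [ideleMap_snd, ideleSingle_snd, ideleSingle_snd, map_one]

end Maps

variable (K L : Type) [Field K] [NumberField K] [Field L] [NumberField L] [Algebra K L]

/-- The idele norm of `ideleSingle`. -/
lemma ideleNorm_ideleSingle (q : Nat.Primes) (u : (LocAlg L q)ˣ) :
    ideleNorm K L (ideleSingle L q u) = ideleSingle K q (locRelNorm K L q u) := by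
  apply Subtype.ext
  ext : 1
  · funext q'
    by_cases hq : q' = q
    · subst hq
      rw [ideleNorm_fst, ideleSingle_fst_self, ideleSingle_fst_self]
    · rw [ideleNorm_fst, ideleSingle_fst_of_ne hq, ideleSingle_fst_of_ne hq, map_one]
  · rw [ideleNorm_snd, ideleSingle_snd, ideleSingle_snd, map_one]

/-! ### Local norms -/

/-- For a Galois extension, the local relative norm (viewed in `ℚ_q ⊗ L`) is the product of the
conjugates. -/
theorem locUnitsMap_locRelNorm [IsGalois K L] (q : Nat.Primes) (u : (LocAlg L q)ˣ) :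
    locUnitsMap (algebraMap K L) q (locRelNorm K L q u) = ∏ g : L ≃ₐ[K] L, g • u := by
  apply Units.ext
  have h1 : ((∏ g : L ≃ₐ[K] L, g • u : (LocAlg L q)ˣ) : LocAlg L q) =
      ∏ g : L ≃ₐ[K] L, tmap ℚ_[pv q] (g : L →+* L) (u : LocAlg L q) := by
    rw [Units.coe_prod]
    rfl
  rw [h1, ← tmap_norm_eq_prod]
  rfl

/-- Elements coming from `K` are fixed by the Galois group. -/
lemma smul_locUnitsMap_algebraMap (q : Nat.Primes) (g : L ≃ₐ[K] L) (a : (LocAlg K q)ˣ) :
    g • locUnitsMap (algebraMap K L) q a = locUnitsMap (algebraMap K L) q a := by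
  apply Units.ext
  change locMap (MulSemiringAction.toRingHom (L ≃ₐ[K] L) L g) q
    (locMap (algebraMap K L) q (a : LocAlg K q)) = locMap (algebraMap K L) q (a : LocAlg K q)
  rw [← locMap_comp]
  have hcomp : (MulSemiringAction.toRingHom (L ≃ₐ[K] L) L g).comp (algebraMap K L) =
      algebraMap K L := RingHom.ext (fun x => g.commutes x)
  rw [hcomp]

/-- **Local norms are norms from `(ℚ_q ⊗ L)ˣ`.**  If the image of `a ∈ (ℚ_q ⊗ K)ˣ` in every
residue field `(ℚ_q ⊗ L) / m` is a norm for the action of the decomposition group of `m`, then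
`a` is a relative norm of a unit of `ℚ_q ⊗ L`. -/
theorem exists_locRelNorm_eq [IsGalois K L] (q : Nat.Primes) (a : (LocAlg K q)ˣ)
    [∀ m : MaximalSpectrum (LocAlg L q), Fintype (MulAction.stabilizer (L ≃ₐ[K] L) m)]
    (h : ∀ m : MaximalSpectrum (LocAlg L q), ∃ t : (LocAlg L q ⧸ m.asIdeal)ˣ,
      ∏ σ : MulAction.stabilizer (L ≃ₐ[K] L) m, σ • t =
        redUnits m (locUnitsMap (algebraMap K L) q a)) :
    ∃ u : (LocAlg L q)ˣ, locRelNorm K L q u = a := by
  classical
  let r : MulAction.orbitRel.Quotient (L ≃ₐ[K] L) (MaximalSpectrum (LocAlg L q)) →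
    MaximalSpectrum (LocAlg L q) := Quotient.out
  have hcov : ∀ m : MaximalSpectrum (LocAlg L q), ∃ i, ∃ g : L ≃ₐ[K] L, g • m = r i := by
    intro m
    refine ⟨Quotient.mk'' m, ?_⟩
    have h1 : (Quotient.mk'' (r (Quotient.mk'' m)) :
        MulAction.orbitRel.Quotient (L ≃ₐ[K] L) (MaximalSpectrum (LocAlg L q))) =
        Quotient.mk'' m := Quotient.out_eq' _
    have h2 := Quotient.exact' h1
    rw [MulAction.orbitRel_apply] at h2
    obtain ⟨g, hg⟩ := h2
    exact ⟨g, hg⟩
  have hsep : ∀ i j (g : L ≃ₐ[K] L), g • r i = r j → i = j := by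
    intro i j g hg
    have h1 : (Quotient.mk'' (r j) :
        MulAction.orbitRel.Quotient (L ≃ₐ[K] L) (MaximalSpectrum (LocAlg L q))) =
        Quotient.mk'' (r i) := by
      apply Quotient.sound'
      rw [MulAction.orbitRel_apply]
      exact ⟨g, hg⟩
    rw [Quotient.out_eq', Quotient.out_eq'] at h1
    exact h1.symm
  choose t ht using h
  let f : ∀ i, (L ≃ₐ[K] L) → (LocAlg L q ⧸ (r i).asIdeal)ˣ := fun i g =>
    if hg : g ∈ MulAction.stabilizer (L ≃ₐ[K] L) (r i) then
      (⟨g, hg⟩ : MulAction.stabilizer (L ≃ₐ[K] L) (r i)) • t (r i) else 1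
  have hf : ∀ i (s : MulAction.stabilizer (L ≃ₐ[K] L) (r i)) (g : L ≃ₐ[K] L),
      f i ((s : L ≃ₐ[K] L) * g) = s • f i g := by
    intro i s g
    by_cases hg : g ∈ MulAction.stabilizer (L ≃ₐ[K] L) (r i)
    · have hsg : (s : L ≃ₐ[K] L) * g ∈ MulAction.stabilizer (L ≃ₐ[K] L) (r i) :=
        mul_mem s.2 hg
      simp only [f, dif_pos hg, dif_pos hsg]
      rw [← mul_smul]
      rfl
    · have hsg : ¬ (s : L ≃ₐ[K] L) * g ∈ MulAction.stabilizer (L ≃ₐ[K] L) (r i) := by
        intro h1
        apply hg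
        have := mul_mem (inv_mem s.2) h1
        rwa [inv_mul_cancel_left] at this
      simp only [f, dif_neg hg, dif_neg hsg]
      exact (smul_one s).symm
  obtain ⟨u, hu⟩ := exists_unit_forall_redUnits_smul_eq r hsep f hf
  refine ⟨u, ?_⟩
  apply locUnitsMap_injective (algebraMap K L) q
  rw [locUnitsMap_locRelNorm]
  set X := locUnitsMap (algebraMap K L) q a with hX
  set U : (LocAlg L q)ˣ := ∏ g : L ≃ₐ[K] L, g • u with hU
  have hγU : ∀ γ : L ≃ₐ[K] L, γ • U = U := by
    intro γ
    rw [hU, Finset.smul_prod']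
    simp_rw [← mul_smul]
    exact Fintype.prod_equiv (Equiv.mulLeft γ) _ _ (fun g => rfl)
  have hγX : ∀ γ : L ≃ₐ[K] L, γ • X = X := fun γ => smul_locUnitsMap_algebraMap K L q γ a
  have key : U * X⁻¹ = 1 := by
    refine eq_one_of_forall_forall_redUnits_smul_eq_one r hcov _ (fun i γ => ?_)
    rw [smul_mul', smul_inv', hγU, hγX, map_mul, map_inv, mul_inv_eq_one, ← ht (r i), hU, map_prod]
    simp_rw [hu]
    rw [Fintype.prod_dite]
    simp only [Finset.prod_const_one, mul_one]
    have hinst : ∀ (i1 i2 : Fintype (MulAction.stabilizer (L ≃ₐ[K] L) (r i)))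
        (F : MulAction.stabilizer (L ≃ₐ[K] L) (r i) → (LocAlg L q ⧸ (r i).asIdeal)ˣ),
        @Finset.prod _ _ _ (@Finset.univ _ i1) F = @Finset.prod _ _ _ (@Finset.univ _ i2) F := by
      intro i1 i2 F
      rw [Subsingleton.elim i1 i2]
    exact hinst _ _ _
  exact mul_inv_eq_one.1 key

/-- **Local norms are idele norms.** -/
theorem exists_ideleNorm_eq_ideleSingle [IsGalois K L] (q : Nat.Primes) (a : (LocAlg K q)ˣ)
    [∀ m : MaximalSpectrum (LocAlg L q), Fintype (MulAction.stabilizer (L ≃ₐ[K] L) m)]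
    (h : ∀ m : MaximalSpectrum (LocAlg L q), ∃ t : (LocAlg L q ⧸ m.asIdeal)ˣ,
      ∏ σ : MulAction.stabilizer (L ≃ₐ[K] L) m, σ • t =
        redUnits m (locUnitsMap (algebraMap K L) q a)) :
    ∃ b : Idele L, ideleNorm K L b = ideleSingle K q a := by
  obtain ⟨u, hu⟩ := exists_locRelNorm_eq K L q a h
  exact ⟨ideleSingle L q u, by rw [ideleNorm_ideleSingle, hu]⟩

/-- An idele of `K` supported on a finite set `T` of rational primes which is everywhere locally
a norm is an idele norm. -/
theorem mem_range_ideleNorm_of_support [IsGalois K L] (T : Finset Nat.Primes) (a : Idele K)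
    (h1 : ∀ q, q ∉ T → (a : IdeleProd K).1 q = 1) (h2 : (a : IdeleProd K).2 = 1)
    [∀ (q : Nat.Primes) (m : MaximalSpectrum (LocAlg L q)),
      Fintype (MulAction.stabilizer (L ≃ₐ[K] L) m)]
    (h : ∀ q ∈ T, ∀ m : MaximalSpectrum (LocAlg L q), ∃ t : (LocAlg L q ⧸ m.asIdeal)ˣ,
      ∏ σ : MulAction.stabilizer (L ≃ₐ[K] L) m, σ • t =
        redUnits m (locUnitsMap (algebraMap K L) q ((a : IdeleProd K).1 q))) :
    a ∈ (ideleNorm K L).range := by
  rw [eq_prod_ideleSingle T a h1 h2]
  refine Subgroup.prod_mem _ (fun q hq => ?_)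
  obtain ⟨b, hb⟩ := exists_ideleNorm_eq_ideleSingle K L q ((a : IdeleProd K).1 q) (h q hq)
  exact ⟨b, hb⟩

/-- Version for an element of `Kˣ`. -/
theorem exists_ideleNorm_eq_ideleSingle_locUnit [IsGalois K L] (q : Nat.Primes) (x : Kˣ)
    [∀ m : MaximalSpectrum (LocAlg L q), Fintype (MulAction.stabilizer (L ≃ₐ[K] L) m)]
    (h : ∀ m : MaximalSpectrum (LocAlg L q), ∃ t : (LocAlg L q ⧸ m.asIdeal)ˣ,
      ∏ σ : MulAction.stabilizer (L ≃ₐ[K] L) m, σ • t =
        redUnits m (locUnit L q (Units.map (algebraMap K L : K →* L) x))) :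
    ∃ b : Idele L, ideleNorm K L b = ideleSingle K q (locUnit K q x) := by
  refine exists_ideleNorm_eq_ideleSingle K L q (locUnit K q x) (fun m => ?_)
  rw [locUnitsMap_locUnit]
  exact h m

end Fermat.Agent.Lib.CFT.Global
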