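import Mathlib
import Fermat.Agent.Lib.CFT.Global.LocalIndexProduct
import Fermat.Agent.Lib.CFT.Global.ArchIndex

/-!
# The product of the local `p`-power indices over `p` and infinity (P-CFT, Global layer)

For a number field `F` containing a primitive `p`-th root of unity, `p` an odd prime:
`∏_{v ∣ p} [F_vˣ : (F_vˣ)ᵖ] · [(ℝ ⊗ F)ˣ : ((ℝ ⊗ F)ˣ)ᵖ] = p ^ (2 #{v ∣ p} + 2 #{v ∣ ∞})`.
This is the field `index_p` of the abstract idele model `SecondIneq.LocalModel`.
-/

set_option autoImplicit false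

namespace Fermat.Agent.Lib.CFT.Global.IndexP

open NumberField Fermat.Agent.Lib.CFT.Global Fermat.Agent.Lib.CFT.Global.Places

variable (F : Type) [Field F] [NumberField F]

/-- **The index `index_p`.** -/
theorem prod_index_mul_archIndex {p : ℕ} [Fact p.Prime] (hp2 : p ≠ 2) {ζ : 𝓞 F}
    (hζ : IsPrimitiveRoot ζ p)
    (Kv : PrimesOverNat (𝓞 F) p → Type*) [∀ v, Field (Kv v)]
    [∀ v, Algebra (LocalInt (𝓞 F) p v) (Kv v)]
    [∀ v, IsFractionRing (LocalInt (𝓞 F) p v) (Kv v)] :
    (∏ v : PrimesOverNat (𝓞 F) p, (powMonoidHom p : (Kv v)ˣ →* (Kv v)ˣ).range.index) *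
        (powMonoidHom p : (ArchAlg F)ˣ →* (ArchAlg F)ˣ).range.index =
      p ^ (2 * Fintype.card (PrimesOverNat (𝓞 F) p) + 2 * Fintype.card (InfinitePlace F)) := by
  have hp : p.Prime := Fact.out
  have hodd : Odd p := hp.odd_of_ne_two hp2
  have hζF : IsPrimitiveRoot (ζ : F) p :=
    hζ.map_of_injective (RingOfIntegers.coe_injective)
  rw [LocalIndexProduct.prod_index_range_pow hζ Kv, ArchIndex.index_range_pow_archUnits F hodd,
    mul_one, RingOfIntegers.rank,
    ArchIndex.finrank_eq_two_mul_card_infinitePlace hodd hp.one_lt hζF]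

end Fermat.Agent.Lib.CFT.Global.IndexP
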