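import Fermat.Agent.Lib.CFT.Global.Places.GaloisLocalTower
import Fermat.Agent.Lib.CFT.Global.LocalFieldAt
import Fermat.Agent.Lib.CFT.Global.SVersion.LocalDegree

/-!
# Local degrees over `ℚ` and radical elements ((LG-weak), item (C))

For a number field `L` with a finite group `G` such that `IsGaloisGroup G ℚ L`, a rational prime
`q` and a maximal ideal `m` of `ℚ_q ⊗ L`:

* `finrank_padic_localField_rat` : the local field of `ℚ` at the prime above `q` is `ℚ_q`;
* `card_stabilizer_eq_finrank_padic` : `|G_m| = [L_m : ℚ_q]`;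
* `dvd_card_stabilizer_of_pow_eq` : if `β ^ n = q` for some `β ∈ L`, then `n ∣ |G_m|`
  (`X ^ n - q` is Eisenstein, hence irreducible over `ℚ_q`).
-/

set_option autoImplicit false
set_option linter.style.haveILetI false

open scoped NumberField Pointwise TensorProduct

noncomputable section

namespace Fermat.Agent.Lib.CFT.Global.LocalDegreeAt

open Fermat.Agent.Lib.CFT.Global Fermat.Agent.Lib.CFT.Global.Places
  Fermat.Agent.Lib.CFT.Global.Places.Galois Fermat.Agent.Lib.CFT.Global.LocalFieldAt
  Fermat.Agent.Lib.CFT.Global.EtaleAlg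

variable {q : Nat.Primes}

/-- Every element of `ℚ_q ⊗ ℚ` is a scalar. -/
theorem algebraMap_padic_locAlg_rat_surjective :
    Function.Surjective (algebraMap ℚ_[pv q] (LocAlg ℚ q)) := by
  intro y
  induction y using TensorProduct.induction_on with
  | zero => exact ⟨0, map_zero _⟩
  | tmul a r =>
    refine ⟨r • a, ?_⟩
    rw [Algebra.TensorProduct.algebraMap_apply, Algebra.algebraMap_self_apply,
      TensorProduct.smul_tmul, smul_eq_mul, mul_one]
  | add x y hx hy =>
    obtain ⟨a, rfl⟩ := hx
    obtain ⟨b, rfl⟩ := hy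
    exact ⟨a + b, map_add _ _ _⟩

/-- The local field of `ℚ` at the prime above `q` is `ℚ_q`. -/
theorem finrank_padic_localField_rat (v : PrimesOver ℚ q) :
    Module.finrank ℚ_[pv q] (localField ℚ q v) = 1 := by
  have hsurj : Function.Surjective (algebraMap ℚ_[pv q] (localField ℚ q v)) := by
    intro y
    obtain ⟨y, rfl⟩ := Ideal.Quotient.mk_surjective y
    obtain ⟨a, rfl⟩ := algebraMap_padic_locAlg_rat_surjective (q := q) y
    exact ⟨a, rfl⟩
  have h1 : (⊥ : Subalgebra ℚ_[pv q] (localField ℚ q v)) = ⊤ := by
    rw [eq_top_iff]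
    intro y _
    obtain ⟨a, rfl⟩ := hsurj y
    exact Subalgebra.algebraMap_mem _ a
  exact Subalgebra.bot_eq_top_iff_finrank_eq_one.mp h1

variable {L : Type} [Field L] [NumberField L]
variable {G : Type} [Group G] [MulSemiringAction G L]

/-- Over `ℚ`, the order of the decomposition group is the absolute local degree
(`PrimesOver` form). -/
theorem card_stabilizer_eq_finrank_padic_primesOver [Finite G] [IsGaloisGroup G ℚ L]
    (w : PrimesOver L q) :
    Nat.card (MulAction.stabilizer G w.1.asIdeal) =
      Module.finrank ℚ_[pv q] (localField L q w) := by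
  have hvw := liesOverAlong_primeBelow (K := ℚ) w
  letI := localFieldAlgebra hvw
  haveI : IsScalarTower ℚ_[pv q] (localField ℚ q (primeBelow ℚ w)) (localField L q w) :=
    IsScalarTower.of_algebraMap_eq
      (fun a => (localFieldMap_algebraMap_padic (algebraMap ℚ L) (algebraMap (𝓞 ℚ) (𝓞 L))
        (fun _ => rfl) hvw a).symm)
  haveI := isGaloisGroup_localField (G := G) hvw
  haveI : FiniteDimensional (localField ℚ q (primeBelow ℚ w)) (localField L q w) :=
    IsGaloisGroup.finiteDimensional (MulAction.stabilizer G w.1.asIdeal) _ _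
  haveI : Module.Free (localField ℚ q (primeBelow ℚ w)) (localField L q w) :=
    Module.Free.of_divisionRing _ _
  haveI : Module.Free ℚ_[pv q] (localField ℚ q (primeBelow ℚ w)) :=
    Module.Free.of_divisionRing _ _
  rw [card_stabilizer_eq_finrank (G := G) hvw,
    ← Module.finrank_mul_finrank ℚ_[pv q] (localField ℚ q (primeBelow ℚ w)) (localField L q w),
    finrank_padic_localField_rat, one_mul]

/-- Over `ℚ`, the order of the decomposition group is the absolute local degree. -/
theorem card_stabilizer_eq_finrank_padic [Finite G] [IsGaloisGroup G ℚ L]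
    (m : MaximalSpectrum (LocAlg L q)) :
    Nat.card (MulAction.stabilizer G m) = Module.finrank ℚ_[pv q] (FieldAt L q m) := by
  obtain ⟨w, rfl⟩ := (primesEquivMaximalSpectrum L q).surjective m
  rw [stabilizer_primesEquiv]
  exact card_stabilizer_eq_finrank_padic_primesOver (G := G) w

/-- If `L` contains an `n`-th root of `q`, then `n` divides the absolute local degree at every
prime of `L` above `q`. -/
theorem dvd_finrank_padic_fieldAt_of_pow_eq (m : MaximalSpectrum (LocAlg L q)) {n : ℕ}
    (hn : 0 < n) (β : L) (hβ : β ^ n = ((pv q : ℕ) : L)) :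
    n ∣ Module.finrank ℚ_[pv q] (FieldAt L q m) := by
  set b : FieldAt L q m := toFieldAt L q m β with hb
  have hbn : b ^ n = ((pv q : ℕ) : FieldAt L q m) := by
    rw [hb, ← map_pow, hβ, map_natCast]
  have hirr := SVersion.LocalDegree.irreducible_X_pow_sub_C (pv q) hn
  have hroot : Polynomial.aeval b
      (Polynomial.X ^ n - Polynomial.C ((pv q : ℕ) : ℚ_[pv q]) : Polynomial ℚ_[pv q]) = 0 := by
    simp [hbn]
  have hint : IsIntegral ℚ_[pv q] b := Algebra.IsIntegral.isIntegral b
  have hmin := minpoly.eq_of_irreducible_of_monic hirr hroot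
    (Polynomial.monic_X_pow_sub_C _ hn.ne')
  have hdeg : (minpoly ℚ_[pv q] b).natDegree = n := by
    rw [← hmin, Polynomial.natDegree_X_pow_sub_C]
  rw [← hdeg]
  exact minpoly.degree_dvd hint

/-- **(C)** If `L` (Galois over `ℚ` with group `G`) contains an `n`-th root of `q`, then `n` divides
the order of every decomposition group above `q`. -/
theorem dvd_card_stabilizer_of_pow_eq [Finite G] [IsGaloisGroup G ℚ L]
    (m : MaximalSpectrum (LocAlg L q)) {n : ℕ} (hn : 0 < n) (β : L)
    (hβ : β ^ n = ((pv q : ℕ) : L)) :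
    n ∣ Nat.card (MulAction.stabilizer G m) := by
  rw [card_stabilizer_eq_finrank_padic (G := G) m]
  exact dvd_finrank_padic_fieldAt_of_pow_eq m hn β hβ

end Fermat.Agent.Lib.CFT.Global.LocalDegreeAt
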