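import Fermat.Agent.Lib.CFT.Global.ClassFormation.GlobalInv
import Fermat.Agent.Lib.CFT.Global.IdeleNormLocal
import Fermat.Agent.Lib.CFT.Global.LocalInvTower

/-!
# Local-global compatibility at finite level: idele classes supported at one prime (helper75)

Finite-level part of `(LG-weak)` (note CFT-INTERFACE-Global/SVersion/LocalGlobal-PLAN).  `L` a
number field with a faithful action of a finite group `G`, `T : ∀ q, LocalInvTheory (pv q)`.

* `ideleSingleRep L G q : (ℚ_q ⊗ L)ˣ ⟶ J_L` (the `q`-th coordinate embedding as a morphism of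
  `Rep ℤ G`), `singleMap L G q n` the induced map on `Hⁿ`; its components:
  `locComp_singleMap_self` (`= unitsProj`), `locComp_singleMap_of_ne` (`= 0` away from `q`),
  `archComp_singleMap` (`= 0`).
* `exists_unitsProj_eq` : a class of `Hⁿ(G, Eˣ)` with one prescribed local component (`E` an
  artinian reduced `G`-algebra), torsion-preserving.
* `exists_class_with_component`, `globalInv_singleMap`, `exists_class_inv_eq` : if `p` divides the
  order of the decomposition group of `m`, there is `y ∈ H²(G, (ℚ_q ⊗ L)ˣ)` with `p • y = 0`,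
  supported at the orbit of `m`, with `globalInv T L G (singleMap y) = 1/p`.
* `map_classRepHom_ne_zero` : given the sum formula, nonzero global invariant implies nonzero
  image in `H²(G, C_L)`.
* `singleMap_comp_map`, `map_singleMap`, `globalInv_singleMap_infl` : stability under inflation.
-/

set_option autoImplicit false
set_option linter.unusedSectionVars false

open scoped Pointwise TensorProduct

noncomputable section

namespace Fermat.Agent.Lib.CFT.Global.LocalGlobalFinite

open CategoryTheory
open Fermat.Agent.Lib.CFT.Global Fermat.Agent.Lib.CFT.Global.EtaleAlg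
open Fermat.Agent.Lib.CFT.Global.LocalFieldAt
open Fermat.Agent.Lib.CFT.Local (LocalInvTheory)
open Fermat.Agent.Lib.CFT.Local.LocalBrauer (QZ)

attribute [local instance] Units.mulDistribMulActionRight

section Single

variable (L : Type) [Field L] [NumberField L]
variable (G : Type) [Group G] [MulSemiringAction G L]

/-- The `q`-th coordinate embedding `(ℚ_q ⊗ L)ˣ → J_L` as a morphism of `Rep ℤ G`. -/
def ideleSingleRep (q : Nat.Primes) :
    Rep.ofMulDistribMulAction G (LocAlg L q)ˣ ⟶ ideleRep L G :=
  repHomOfMulEquivariant (ideleSingle L q) (fun g u => (smul_ideleSingle g q u).symm)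

@[simp] lemma ideleSingleRep_apply (q : Nat.Primes) (u : Additive (LocAlg L q)ˣ) :
    (ideleSingleRep L G q).hom u = Additive.ofMul (ideleSingle L q u.toMul) := rfl

lemma ideleSingleRep_comp_locProj_self (q : Nat.Primes) :
    ideleSingleRep L G q ≫ ideleLocProjRep L G q = 𝟙 _ := by
  refine Rep.hom_ext (Representation.IntertwiningMap.ext
    (LinearMap.ext fun (u : Additive (LocAlg L q)ˣ) => ?_))
  exact congrArg Additive.ofMul (ideleSingle_fst_self q u.toMul)

lemma ideleSingleRep_comp_locProj_of_ne {q q' : Nat.Primes} (h : q' ≠ q) :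
    ideleSingleRep L G q ≫ ideleLocProjRep L G q' = 0 := by
  refine Rep.hom_ext (Representation.IntertwiningMap.ext
    (LinearMap.ext fun (u : Additive (LocAlg L q)ˣ) => ?_))
  exact congrArg Additive.ofMul (ideleSingle_fst_of_ne h u.toMul)

lemma ideleSingleRep_comp_archProj (q : Nat.Primes) :
    ideleSingleRep L G q ≫ ideleArchProjRep L G = 0 := by
  refine Rep.hom_ext (Representation.IntertwiningMap.ext
    (LinearMap.ext fun (u : Additive (LocAlg L q)ˣ) => ?_))
  exact congrArg Additive.ofMul (ideleSingle_snd q u.toMul)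

/-- The class in `Hⁿ(G, J_L)` of a class in `Hⁿ(G, (ℚ_q ⊗ L)ˣ)`, via the `q`-th coordinate. -/
abbrev singleMap (q : Nat.Primes) (n : ℕ) :
    groupCohomology (Rep.ofMulDistribMulAction G (LocAlg L q)ˣ) n ⟶
      groupCohomology (ideleRep L G) n :=
  groupCohomology.map (MonoidHom.id G) (ideleSingleRep L G q) n

lemma map_zero_eq_zero {A B : Rep ℤ G} (n : ℕ) :
    groupCohomology.map (MonoidHom.id G) (0 : A ⟶ B) n = 0 := by
  have h : (groupCohomology.functor ℤ G n).map (0 : A ⟶ B) = 0 := Functor.map_zero _ _ _
  exact h

lemma singleMap_comp_locProj_self (q : Nat.Primes) (n : ℕ) :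
    singleMap L G q n ≫ groupCohomology.map (MonoidHom.id G) (ideleLocProjRep L G q) n = 𝟙 _ := by
  rw [singleMap, ← groupCohomology.map_id_comp, ideleSingleRep_comp_locProj_self,
    groupCohomology.map_id]

lemma singleMap_comp_locProj_of_ne {q q' : Nat.Primes} (h : q' ≠ q) (n : ℕ) :
    singleMap L G q n ≫ groupCohomology.map (MonoidHom.id G) (ideleLocProjRep L G q') n = 0 := by
  rw [singleMap, ← groupCohomology.map_id_comp, ideleSingleRep_comp_locProj_of_ne L G h,
    map_zero_eq_zero]

lemma singleMap_comp_archProj (q : Nat.Primes) (n : ℕ) :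
    singleMap L G q n ≫ groupCohomology.map (MonoidHom.id G) (ideleArchProjRep L G) n = 0 := by
  rw [singleMap, ← groupCohomology.map_id_comp, ideleSingleRep_comp_archProj,
    map_zero_eq_zero]

/-- The local component at a prime above `q` of a class supported at `q`. -/
lemma locComp_singleMap_self (q : Nat.Primes) (m : MaximalSpectrum (LocAlg L q)) (n : ℕ)
    (y : groupCohomology (Rep.ofMulDistribMulAction G (LocAlg L q)ˣ) n) :
    locComp L G q m n (singleMap L G q n y) = unitsProj G m n y := by
  rw [locComp_eq]
  have h := ConcreteCategory.congr_hom (singleMap_comp_locProj_self L G q n) y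
  rw [ConcreteCategory.comp_apply] at h
  rw [ConcreteCategory.comp_apply, h]
  rfl

/-- The local components away from `q` of a class supported at `q` vanish. -/
lemma locComp_singleMap_of_ne {q q' : Nat.Primes} (h : q' ≠ q)
    (m' : MaximalSpectrum (LocAlg L q')) (n : ℕ)
    (y : groupCohomology (Rep.ofMulDistribMulAction G (LocAlg L q)ˣ) n) :
    locComp L G q' m' n (singleMap L G q n y) = 0 := by
  rw [locComp_eq]
  have h := ConcreteCategory.congr_hom (singleMap_comp_locProj_of_ne L G h n) y
  rw [ConcreteCategory.comp_apply] at h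
  rw [ConcreteCategory.comp_apply, h]
  simp

/-- The archimedean components of a class supported at `q` vanish. -/
lemma archComp_singleMap (q : Nat.Primes) (a : MaximalSpectrum (ArchAlg L)) (n : ℕ)
    (y : groupCohomology (Rep.ofMulDistribMulAction G (LocAlg L q)ˣ) n) :
    archComp L G a n (singleMap L G q n y) = 0 := by
  rw [archComp_eq]
  have h := ConcreteCategory.congr_hom (singleMap_comp_archProj L G q n) y
  rw [ConcreteCategory.comp_apply] at h
  rw [ConcreteCategory.comp_apply, h]
  simp

end Single

section Prescribe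

variable (G : Type) {E : Type} [Group G] [Finite G] [CommRing E] [MulSemiringAction G E]
  [IsArtinianRing E] [IsReduced E]

/-- **A class of `Hⁿ(G, Eˣ)` with one prescribed local component**: for a prime `m` of the
artinian reduced `G`-algebra `E` and a class `z` of the decomposition group of `m` with
coefficients in `(E ⧸ m)ˣ` there is a class of `Hⁿ(G, Eˣ)` with component `z` at `m` and trivial
components at the chosen representatives `ω.out` of the other `G`-orbits of primes. -/
theorem exists_unitsProj_eq (m : MaximalSpectrum E) (n : ℕ)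
    (z : groupCohomology
      (Rep.ofMulDistribMulAction (MulAction.stabilizer G m) (E ⧸ m.asIdeal)ˣ) n) :
    ∃ y : groupCohomology (Rep.ofMulDistribMulAction G Eˣ) n,
      unitsProj G m n y = z ∧
      (∀ ω : MulAction.orbitRel.Quotient G (MaximalSpectrum E), ω ≠ Quotient.mk'' m →
        unitsProj G ω.out n y = 0) ∧
      ∀ k : ℕ, k • z = 0 → k • y = 0 := by
  classical
  have : Fintype (MulAction.orbitRel.Quotient G (MaximalSpectrum E)) := Fintype.ofFinite _
  let r : MulAction.orbitRel.Quotient G (MaximalSpectrum E) → MaximalSpectrum E :=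
    Function.update Quotient.out (Quotient.mk'' m) m
  have hr : ∀ ω, (Quotient.mk'' (r ω) : MulAction.orbitRel.Quotient G (MaximalSpectrum E)) = ω := by
    intro ω
    by_cases hω : ω = Quotient.mk'' m
    · subst hω
      show Quotient.mk'' (Function.update Quotient.out (Quotient.mk'' m) m (Quotient.mk'' m)) = _
      rw [Function.update_self]
    · show Quotient.mk'' (Function.update Quotient.out (Quotient.mk'' m) m ω) = _
      rw [Function.update_of_ne hω]
      exact Quotient.out_eq' ω
  have hcov : ∀ m' : MaximalSpectrum E, ∃ i, ∃ g : G, g • m' = r i := by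
    intro m'
    refine ⟨Quotient.mk'' m', ?_⟩
    have h := hr (Quotient.mk'' m')
    rw [Quotient.eq''] at h
    obtain ⟨g, hg⟩ := h
    exact ⟨g, hg⟩
  have hsep : ∀ i j (g : G), g • r i = r j → i = j := by
    intro i j g h
    rw [← hr i, ← hr j, Quotient.eq'']
    exact ⟨g⁻¹, by show g⁻¹ • r j = r i; rw [← h, inv_smul_smul]⟩
  have hbij := bijective_unitsProj G r hcov hsep n
  have key : ∀ (m' : MaximalSpectrum E) (_ : r (Quotient.mk'' m) = m')
      (z' : groupCohomology
        (Rep.ofMulDistribMulAction (MulAction.stabilizer G m') (E ⧸ m'.asIdeal)ˣ) n),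
      ∃ y : groupCohomology (Rep.ofMulDistribMulAction G Eˣ) n,
        unitsProj G m' n y = z' ∧
        (∀ ω : MulAction.orbitRel.Quotient G (MaximalSpectrum E), ω ≠ Quotient.mk'' m →
          unitsProj G (r ω) n y = 0) ∧
        ∀ k : ℕ, k • z' = 0 → k • y = 0 := by
    intro m' hm' z'
    subst hm'
    obtain ⟨y, hy⟩ := hbij.2 (Function.update (fun _ => 0) (Quotient.mk'' m) z')
    have hy1 : unitsProj G (r (Quotient.mk'' m)) n y = z' := by
      have h := congrFun hy (Quotient.mk'' m)
      rw [Function.update_self] at h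
      exact h
    have hy2 : ∀ ω : MulAction.orbitRel.Quotient G (MaximalSpectrum E), ω ≠ Quotient.mk'' m →
        unitsProj G (r ω) n y = 0 := by
      intro ω hω
      have h := congrFun hy ω
      rw [Function.update_of_ne hω] at h
      exact h
    refine ⟨y, hy1, hy2, fun k hk => ?_⟩
    apply hbij.1
    funext ω
    show unitsProj G (r ω) n (k • y) = unitsProj G (r ω) n 0
    rw [map_nsmul, map_zero]
    by_cases hω : ω = Quotient.mk'' m
    · subst hω
      rw [hy1, hk]
    · rw [hy2 ω hω, smul_zero]
  obtain ⟨y, h1, h2, h3⟩ := key m (Function.update_self _ _ _) z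
  refine ⟨y, h1, fun ω hω => ?_, h3⟩
  have h := h2 ω hω
  have hrω : r ω = ω.out := Function.update_of_ne hω _ _
  rw [hrω] at h
  exact h

end Prescribe

section QZ

lemma nsmul_one_div_eq_zero (p n : ℕ) (hp : 0 < p) (h : p ∣ n) :
    n • ((1 / p : ℚ) : AddCircle (1 : ℚ)) = 0 := by
  obtain ⟨k, rfl⟩ := h
  rw [← AddCircle.coe_nsmul, AddCircle.coe_eq_zero_iff]
  refine ⟨k, ?_⟩
  have hp' : (p : ℚ) ≠ 0 := by exact_mod_cast hp.ne'
  simp only [nsmul_eq_mul, zsmul_eq_mul, Nat.cast_mul]
  field_simp
  push_cast
  ring

lemma one_div_ne_zero_addCircle (p : ℕ) (hp : 1 < p) :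
    ((1 / p : ℚ) : AddCircle (1 : ℚ)) ≠ 0 := by
  intro h
  rw [AddCircle.coe_eq_zero_iff] at h
  obtain ⟨n, hn⟩ := h
  have hp' : (p : ℚ) ≠ 0 := by
    have : 0 < p := by omega
    exact_mod_cast this.ne'
  simp only [zsmul_eq_mul, mul_one] at hn
  have h1 : (n : ℚ) * p = 1 := by rw [hn]; field_simp
  have h2 : n * (p : ℤ) = 1 := by exact_mod_cast h1
  have h3 : (p : ℤ) ∣ 1 := Dvd.intro_left n h2
  have h4 : (p : ℤ) ≤ 1 := Int.le_of_dvd one_pos h3
  omega

end QZ

section IdeleClass

variable (T : ∀ q : Nat.Primes, LocalInvTheory (pv q))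
variable (L : Type) [Field L] [NumberField L]
variable (G : Type) [Group G] [Finite G] [MulSemiringAction G L] [FaithfulSMul G L]

/-- **An idele class with one prescribed local component.**  For a prime `m` of `L` above `q` and
a class `z ∈ H²(G_m, F_mˣ)` there is a class `x ∈ H²(G, J_L)`, coming from the `q`-th factor
`(ℚ_q ⊗ L)ˣ` of the ideles, with local component `z` at `m` and trivial local components at (the
representatives of) the other `G`-orbits of primes above `q`. -/
theorem exists_class_with_component (q : Nat.Primes) (m : MaximalSpectrum (LocAlg L q))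
    (z : groupCohomology
      (Rep.ofMulDistribMulAction (MulAction.stabilizer G m) (FieldAt L q m)ˣ) 2) :
    ∃ y : groupCohomology (Rep.ofMulDistribMulAction G (LocAlg L q)ˣ) 2,
      locComp L G q m 2 (singleMap L G q 2 y) = z ∧
      (∀ ω : MulAction.orbitRel.Quotient G (MaximalSpectrum (LocAlg L q)), ω ≠ Quotient.mk'' m →
        locComp L G q ω.out 2 (singleMap L G q 2 y) = 0) ∧
      ∀ k : ℕ, k • z = 0 → k • y = 0 := by
  obtain ⟨y, h1, h2, h3⟩ := exists_unitsProj_eq G m 2 z
  refine ⟨y, ?_, fun ω hω => ?_, h3⟩
  · rw [locComp_singleMap_self, h1]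
  · rw [locComp_singleMap_self, h2 ω hω]

/-- The global invariant of a class supported at one orbit of primes above `q` is the local
invariant of its component. -/
theorem globalInv_singleMap (q : Nat.Primes) (m : MaximalSpectrum (LocAlg L q))
    (y : groupCohomology (Rep.ofMulDistribMulAction G (LocAlg L q)ˣ) 2)
    (hy : ∀ ω : MulAction.orbitRel.Quotient G (MaximalSpectrum (LocAlg L q)),
      ω ≠ Quotient.mk'' m → locComp L G q ω.out 2 (singleMap L G q 2 y) = 0) :
    ClassFormation.globalInv T L G (singleMap L G q 2 y) =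
      ClassFormation.invAtPrime T L G q m (locComp L G q m 2 (singleMap L G q 2 y)) := by
  unfold ClassFormation.globalInv
  rw [finsum_eq_single _ q (fun q' hq' =>
    ClassFormation.primeInv_eq_zero_of_forall T L G q' _
      (fun m' => locComp_singleMap_of_ne L G hq' m' 2 y))]
  unfold ClassFormation.primeInv
  rw [finsum_eq_single _ (Quotient.mk'' m) (fun ω hω => by
    rw [ClassFormation.locInv_apply, hy ω hω, map_zero])]
  have h : (Quotient.mk'' (Quotient.mk'' m :
      MulAction.orbitRel.Quotient G (MaximalSpectrum (LocAlg L q))).out :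
        MulAction.orbitRel.Quotient G (MaximalSpectrum (LocAlg L q))) = Quotient.mk'' m :=
    Quotient.out_eq' _
  rw [Quotient.eq''] at h
  obtain ⟨g, hg⟩ := h
  rw [← hg]
  exact ClassFormation.locInv_smul T L G q g m _

/-- **A `p`-torsion idele class supported at one prime with global invariant `1/p`.**  If `p`
divides the order of the decomposition group of `m`, there is a class `y ∈ H²(G, (ℚ_q ⊗ L)ˣ)`
with `p • y = 0`, supported at the orbit of `m`, whose image in `H²(G, J_L)` has global invariant
`1/p` (in particular `≠ 0`). -/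
theorem exists_class_inv_eq (q : Nat.Primes) (m : MaximalSpectrum (LocAlg L q))
    (p : ℕ) (hp : 0 < p) (hdvd : p ∣ Nat.card (MulAction.stabilizer G m)) :
    ∃ y : groupCohomology (Rep.ofMulDistribMulAction G (LocAlg L q)ˣ) 2,
      p • y = 0 ∧
      (∀ ω : MulAction.orbitRel.Quotient G (MaximalSpectrum (LocAlg L q)), ω ≠ Quotient.mk'' m →
        locComp L G q ω.out 2 (singleMap L G q 2 y) = 0) ∧
      ClassFormation.locInv T L G q m (singleMap L G q 2 y) = ((1 / p : ℚ) : QZ) ∧
      ClassFormation.globalInv T L G (singleMap L G q 2 y) = ((1 / p : ℚ) : QZ) := by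
  obtain ⟨z, hz⟩ := (T q).exists_inv_eq (FieldAt L q m) (MulAction.stabilizer G m)
    ((1 / p : ℚ) : QZ) (nsmul_one_div_eq_zero p _ hp hdvd)
  obtain ⟨y, h1, h2, h3⟩ := exists_class_with_component L G q m z
  have hpz : p • z = 0 := by
    apply (T q).inv_injective (FieldAt L q m) (MulAction.stabilizer G m)
    rw [map_nsmul, hz, map_zero]
    exact nsmul_one_div_eq_zero p p hp dvd_rfl
  have hloc : ClassFormation.locInv T L G q m (singleMap L G q 2 y) = ((1 / p : ℚ) : QZ) := by
    rw [ClassFormation.locInv_apply, h1]
    exact hz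
  refine ⟨y, h3 p hpz, h2, hloc, ?_⟩
  rw [globalInv_singleMap T L G q m y h2, ← ClassFormation.locInv_apply, hloc]

end IdeleClass

section Hasse

variable (T : ∀ q : Nat.Primes, LocalInvTheory (pv q))
variable (L : Type) [Field L] [NumberField L]
variable (G : Type) [Group G] [Finite G] [MulSemiringAction G L] [FaithfulSMul G L]

/-- **Nonvanishing in `H²(G, C_L)`**: if the global invariant vanishes on the image of
`H²(G, Lˣ)` (the sum formula), a class of `H²(G, J_L)` with nonzero global invariant has nonzero
image in `H²(G, C_L)`. -/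
theorem map_classRepHom_ne_zero
    (hsum : ∀ α : groupCohomology (unitsRep L G) 2,
      ClassFormation.globalInv T L G
        ((groupCohomology.functor ℤ G 2).map (principalRepHom L G) α) = 0)
    (x : groupCohomology (ideleRep L G) 2) (hx : ClassFormation.globalInv T L G x ≠ 0) :
    (groupCohomology.functor ℤ G 2).map (classRepHom L G) x ≠ 0 := by
  intro h
  obtain ⟨α, rfl⟩ := exists_of_map_classRepHom_eq_zero L G x h
  exact hx (hsum α)

end Hasse

section Inflation

variable {L L' : Type} [Field L] [NumberField L] [Field L'] [NumberField L']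
variable {G G' : Type} [Group G] [Group G'] [MulSemiringAction G L] [MulSemiringAction G' L']
  (f : G' →* G) (ι : L →+* L') (hι : ∀ (g : G') (x : L), ι (f g • x) = g • ι x)

/-- `ideleMap` maps an idele supported at `q` to an idele supported at `q`. -/
lemma ideleMap_ideleSingle (q : Nat.Primes) (u : (LocAlg L q)ˣ) :
    ideleMap ι (ideleSingle L q u) = ideleSingle L' q (locUnitsMap ι q u) := by
  apply Subtype.ext
  ext : 1
  · funext q'
    by_cases hq : q' = q
    · subst hq
      rw [coe_ideleMap]
      show locUnitsMap ι q' (((ideleSingle L q' u : Idele L) : IdeleProd L).1 q') = _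
      rw [ideleSingle_fst_self, ideleSingle_fst_self]
    · rw [coe_ideleMap]
      show locUnitsMap ι q' (((ideleSingle L q u : Idele L) : IdeleProd L).1 q') = _
      rw [ideleSingle_fst_of_ne hq, ideleSingle_fst_of_ne hq, map_one]
  · rw [coe_ideleMap]
    show archUnitsMap ι ((ideleSingle L q u : Idele L) : IdeleProd L).2 = _
    rw [ideleSingle_snd, ideleSingle_snd, map_one]

/-- **Classes supported at `q` are stable under `(f, ideleMap ι)`** (inflation or restriction):
the square formed by the `q`-th coordinate embeddings commutes. -/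
theorem singleMap_comp_map (q : Nat.Primes) (n : ℕ) :
    singleMap L G q n ≫ groupCohomology.map f (ideleMapRepHom f ι hι) n =
      groupCohomology.map f (unitsRepHomAlong f
        ((locMap ι q : LocAlg L q →ₐ[ℚ_[pv q]] LocAlg L' q) : LocAlg L q →+* LocAlg L' q)
        (locMap_smul_along f ι hι q)) n ≫ singleMap L' G' q n := by
  have hlin : (ideleSingleRep L' G' q).hom.toLinearMap ∘ₗ
      (unitsRepHomAlong f
        ((locMap ι q : LocAlg L q →ₐ[ℚ_[pv q]] LocAlg L' q) : LocAlg L q →+* LocAlg L' q)
        (locMap_smul_along f ι hι q)).hom.toLinearMap =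
      (ideleMapRepHom f ι hι).hom.toLinearMap ∘ₗ (ideleSingleRep L G q).hom.toLinearMap := by
    refine LinearMap.ext fun (u : Additive (LocAlg L q)ˣ) => ?_
    exact congrArg Additive.ofMul (ideleMap_ideleSingle ι q u.toMul).symm
  have h := groupCohomology_map_square (k := ℤ) (MonoidHom.id G) f f (MonoidHom.id G') rfl
    (A := Rep.ofMulDistribMulAction G (LocAlg L q)ˣ) (A' := ideleRep L G)
    (B := Rep.ofMulDistribMulAction G' (LocAlg L' q)ˣ) (B' := ideleRep L' G')
    (ideleSingleRep L G q)
    (unitsRepHomAlong f
      ((locMap ι q : LocAlg L q →ₐ[ℚ_[pv q]] LocAlg L' q) : LocAlg L q →+* LocAlg L' q)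
      (locMap_smul_along f ι hι q))
    (ideleMapRepHom f ι hι) (ideleSingleRep L' G' q) hlin n
  exact h

end Inflation

section Tower

variable (T : ∀ q : Nat.Primes, LocalInvTheory (pv q))
variable (K L L' : Type) [Field K] [Field L] [Field L'] [NumberField L] [NumberField L']
  [Algebra K L] [Algebra K L'] [Algebra L L'] [IsScalarTower K L L']
  (G G' : Type) [Group G] [Group G'] [Finite G] [Finite G']
  [MulSemiringAction G L] [MulSemiringAction G' L'] [IsGaloisGroup G K L] [IsGaloisGroup G' K L']
  [FaithfulSMul G L] [FaithfulSMul G' L']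
  (f : G' →* G) (hf : ∀ (g' : G') (x : L), algebraMap L L' (f g' • x) = g' • algebraMap L L' x)
  (q : Nat.Primes)

/-- The inflation to `L'` of a class of `H²(G, (ℚ_q ⊗ L)ˣ)`. -/
abbrev inflUnits (n : ℕ) :
    groupCohomology (Rep.ofMulDistribMulAction G (LocAlg L q)ˣ) n ⟶
      groupCohomology (Rep.ofMulDistribMulAction G' (LocAlg L' q)ˣ) n :=
  groupCohomology.map f (unitsRepHomAlong f
    ((locMap (algebraMap L L') q : LocAlg L q →ₐ[ℚ_[pv q]] LocAlg L' q) :
      LocAlg L q →+* LocAlg L' q)
    (locMap_smul_along f (algebraMap L L') hf q)) n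

omit [Finite G] [Finite G'] [IsGaloisGroup G K L] [IsGaloisGroup G' K L'] [FaithfulSMul G L]
  [FaithfulSMul G' L'] [Algebra K L] [Algebra K L'] [IsScalarTower K L L'] in
/-- Inflation of a class supported at `q` is supported at `q`. -/
lemma map_singleMap (n : ℕ)
    (y : groupCohomology (Rep.ofMulDistribMulAction G (LocAlg L q)ˣ) n) :
    groupCohomology.map f (ideleMapRepHom f (algebraMap L L') hf) n (singleMap L G q n y) =
      singleMap L' G' q n (inflUnits L L' G G' f hf q n y) := by
  have h := ConcreteCategory.congr_hom (singleMap_comp_map f (algebraMap L L') hf q n) y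
  rw [ConcreteCategory.comp_apply, ConcreteCategory.comp_apply] at h
  exact h

include K in
/-- **The global invariant of a class supported at `q` is stable under inflation** in a Galois
tower `K ⊂ L ⊂ L'`. -/
theorem globalInv_singleMap_infl
    (y : groupCohomology (Rep.ofMulDistribMulAction G (LocAlg L q)ˣ) 2) :
    ClassFormation.globalInv T L' G' (singleMap L' G' q 2 (inflUnits L L' G G' f hf q 2 y)) =
      ClassFormation.globalInv T L G (singleMap L G q 2 y) := by
  rw [← map_singleMap L L' G G' f hf q 2 y]
  exact LocalInvTower.globalInv_infl T K L L' G G' f hf _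

end Tower

end Fermat.Agent.Lib.CFT.Global.LocalGlobalFinite

end
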