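import Fermat.Agent.Lib.CFT.Global.LocalGlobalFinite
import Fermat.Agent.Lib.CFT.Global.CohIdeles.HasseH2
import Fermat.Agent.Lib.CFT.Global.ClassFormation.SumFormula

/-!
# Local-global compatibility at finite level: the `p`-torsion variant (helper58 for helper75)

`L` a number field with a faithful action of a finite group `G`,
`T : ∀ q, LocalInvTheory (pv q)`.

* `principalClass_injective` : `H²(G, Lˣ) → H²(G, J_L)` is injective (Hasse principle,
  unconditional, from `CohIdeles.hasse_units'`);
* `principalClass_sub`, `principalClass_nsmul`, `principalClass_zero`,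
  `principalClass_eq_zero_iff`;
* `map_classRepHom_ne_zero_of_torsion` : given the sum formula on the `p`-torsion of `H²(G, Lˣ)`,
  a `p`-torsion class of `H²(G, J_L)` with nonzero global invariant has nonzero image in
  `H²(G, C_L)`.
-/

set_option autoImplicit false
set_option linter.unusedSectionVars false

open scoped Pointwise TensorProduct

noncomputable section

namespace Fermat.Agent.Lib.CFT.Global.LocalGlobalHasse

open CategoryTheory
open Fermat.Agent.Lib.CFT.Global Fermat.Agent.Lib.CFT.Global.EtaleAlg
open Fermat.Agent.Lib.CFT.Global.LocalFieldAt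
open Fermat.Agent.Lib.CFT.Local (LocalInvTheory)
open Fermat.Agent.Lib.CFT.Local.LocalBrauer (QZ)

attribute [local instance] Units.mulDistribMulActionRight

/-! ### Additivity of morphisms of `ModuleCat ℤ`, elementwise -/

lemma modMap_sub {A B : ModuleCat ℤ} (f : A ⟶ B) (x y : A) : f (x - y) = f x - f y :=
  map_sub f.hom x y

lemma modMap_nsmul {A B : ModuleCat ℤ} (f : A ⟶ B) (n : ℕ) (x : A) : f (n • x) = n • f x :=
  map_nsmul f.hom n x

lemma modMap_zero {A B : ModuleCat ℤ} (f : A ⟶ B) : f 0 = 0 :=
  map_zero f.hom

variable (T : ∀ q : Nat.Primes, LocalInvTheory (pv q))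
variable (L : Type) [Field L] [NumberField L]
variable (G : Type) [Group G] [Finite G] [MulSemiringAction G L] [FaithfulSMul G L]

set_option maxHeartbeats 400000 in
lemma principalClass_sub (α β : groupCohomology (unitsRep L G) 2) :
    ClassFormation.principalClass L G (α - β) =
      ClassFormation.principalClass L G α - ClassFormation.principalClass L G β :=
  modMap_sub _ α β

set_option maxHeartbeats 400000 in
lemma principalClass_nsmul (p : ℕ) (α : groupCohomology (unitsRep L G) 2) :
    ClassFormation.principalClass L G (p • α) = p • ClassFormation.principalClass L G α :=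
  modMap_nsmul _ p α

set_option maxHeartbeats 400000 in
lemma principalClass_zero : ClassFormation.principalClass L G 0 = 0 :=
  modMap_zero _

set_option maxHeartbeats 400000 in
/-- A class of `H²(G, Lˣ)` whose image in `H²(G, J_L)` vanishes is zero. -/
theorem eq_zero_of_principalClass_eq_zero (α : groupCohomology (unitsRep L G) 2)
    (h : ClassFormation.principalClass L G α = 0) : α = 0 := by
  refine CohIdeles.hasse_units' L G α (fun q m => ?_) (fun a => ?_)
  · rw [h, map_zero]
  · rw [h, map_zero]

set_option maxHeartbeats 400000 in
/-- **(C1)** The Hasse principle: `H²(G, Lˣ) → H²(G, J_L)` is injective. -/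
theorem principalClass_injective :
    Function.Injective
      (fun α : groupCohomology (unitsRep L G) 2 => ClassFormation.principalClass L G α) := by
  intro α β hαβ
  have hαβ' : ClassFormation.principalClass L G α = ClassFormation.principalClass L G β := hαβ
  have h : ClassFormation.principalClass L G (α - β) = 0 := by
    rw [principalClass_sub]
    exact sub_eq_zero.2 hαβ'
  exact sub_eq_zero.1 (eq_zero_of_principalClass_eq_zero L G _ h)

set_option maxHeartbeats 400000 in
lemma principalClass_eq_zero_iff (α : groupCohomology (unitsRep L G) 2) :
    ClassFormation.principalClass L G α = 0 ↔ α = 0 := by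
  refine ⟨eq_zero_of_principalClass_eq_zero L G α, fun h => ?_⟩
  rw [h]
  exact principalClass_zero L G

set_option maxHeartbeats 400000 in
/-- **(C2)** Nonvanishing in `H²(G, C_L)`, `p`-torsion variant: if the global invariant vanishes
on the image of the `p`-torsion of `H²(G, Lˣ)` (the sum formula for `p`-torsion classes), a
`p`-torsion class of `H²(G, J_L)` with nonzero global invariant has nonzero image in
`H²(G, C_L)`. -/
theorem map_classRepHom_ne_zero_of_torsion (p : ℕ)
    (hsum : ∀ α : groupCohomology (unitsRep L G) 2, p • α = 0 →
      ClassFormation.globalInv T L G (ClassFormation.principalClass L G α) = 0)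
    (x : groupCohomology (ideleRep L G) 2) (hpx : p • x = 0)
    (hx : ClassFormation.globalInv T L G x ≠ 0) :
    groupCohomology.map (MonoidHom.id G) (classRepHom L G) 2 x ≠ 0 := by
  intro h
  obtain ⟨α, hα⟩ := exists_of_map_classRepHom_eq_zero L G x h
  have hα' : ClassFormation.principalClass L G α = x := hα
  have hpα : p • α = 0 := by
    apply eq_zero_of_principalClass_eq_zero L G
    rw [principalClass_nsmul, hα', hpx]
  apply hx
  rw [← hα']
  exact hsum α hpα

end Fermat.Agent.Lib.CFT.Global.LocalGlobalHasse

end
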