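import Fermat.Agent.Lib.CFT.Global.IdeleInvariants
import Fermat.Agent.Lib.CFT.Global.FirstIneq

/-!
# `S`-ideles: functoriality, norms and Galois invariants (helper96, P-CFT WP 207, part 3)

The `S`-ideles `FirstIneq.sIdeles L S` and `S`-units `FirstIneq.sUnits L S` (for a set `S` of
rational primes) are defined in `Global/FirstIneq.lean`.  Here: compatibility with `ideleMap`,
with the idele norm, and the computation of the Galois invariants `J_{L,S}^G = J_{K,S}`.
-/

open scoped TensorProduct NumberField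

noncomputable section

namespace Fermat.Agent.Lib.CFT.Global

open FirstIneq

variable {K L : Type} [Field K] [NumberField K] [Field L] [NumberField L]

/-- An idele of `K` is an `S`-idele iff its image in `L` is. -/
theorem ideleMap_mem_sIdeles_iff (f : K →+* L) (S : Set Nat.Primes) (a : Idele K) :
    ideleMap f a ∈ sIdeles L S ↔ a ∈ sIdeles K S := by
  constructor
  · intro h q hq
    exact (locUnitsMap_mem_locIntUnits_iff f q _).1 (h q hq)
  · intro h q hq
    exact locUnitsMap_mem_locIntUnits f q (h q hq)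

/-- An element of `Kˣ` is an `S`-unit iff its image in `L` is. -/
theorem map_mem_sUnits_iff (f : K →+* L) (S : Set Nat.Primes) (x : Kˣ) :
    Units.map (f : K →* L) x ∈ sUnits L S ↔ x ∈ sUnits K S := by
  change principal L (Units.map (f : K →* L) x) ∈ sIdeles L S ↔ principal K x ∈ sIdeles K S
  rw [← ideleMap_principal, ideleMap_mem_sIdeles_iff]

/-- `ideleMap f` maps `J_{K,S}` into `J_{L,S}`. -/
theorem sIdeles_le_comap_ideleMap (f : K →+* L) (S : Set Nat.Primes) :
    sIdeles K S ≤ (sIdeles L S).comap (ideleMap f) :=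
  fun a ha => (ideleMap_mem_sIdeles_iff f S a).2 ha

/-- `J_{K,S}` is exactly the preimage of `J_{L,S}`. -/
theorem comap_ideleMap_sIdeles (f : K →+* L) (S : Set Nat.Primes) :
    (sIdeles L S).comap (ideleMap f) = sIdeles K S := by
  ext a
  exact ideleMap_mem_sIdeles_iff f S a

section Norm

variable (K L)
variable [Algebra K L]

/-- In general the idele norm maps `J_{L,S}` into `J_{K,S}` as soon as `S` contains a fixed finite
set of bad primes. -/
theorem exists_finite_forall_ideleNorm_mem_sIdeles :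
    ∃ T : Set Nat.Primes, T.Finite ∧ ∀ S : Set Nat.Primes, T ⊆ S →
      ∀ b ∈ sIdeles L S, ideleNorm K L b ∈ sIdeles K S := by
  refine ⟨_, finite_setOf_not_locRelNorm_mem K L, ?_⟩
  intro S hTS b hb q hq
  have hqT : q ∉ {q : Nat.Primes |
      ¬ ∀ u ∈ locIntUnits L q, locRelNorm K L q u ∈ locIntUnits K q} := fun h => hq (hTS h)
  simp only [Set.mem_ofPred_eq, not_not] at hqT
  exact hqT _ (hb q hq)

/-- For a Galois extension the idele norm maps `J_{L,S}` into `J_{K,S}` for every `S`. -/
theorem ideleNorm_mem_sIdeles [IsGalois K L] (S : Set Nat.Primes) {b : Idele L}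
    (hb : b ∈ sIdeles L S) : ideleNorm K L b ∈ sIdeles K S := by
  intro q hq
  exact locRelNorm_mem_locIntUnits_of_isGalois K L q (hb q hq)

/-- For a Galois extension the field norm maps `S`-units to `S`-units. -/
theorem norm_mem_sUnits [IsGalois K L] (S : Set Nat.Primes) {x : Lˣ} (hx : x ∈ sUnits L S) :
    Units.map (Algebra.norm K : L →* K) x ∈ sUnits K S := by
  change principal K (Units.map (Algebra.norm K : L →* K) x) ∈ sIdeles K S
  rw [← ideleNorm_principal]
  exact ideleNorm_mem_sIdeles K L S hx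

/-- Galois invariants of the `S`-ideles: `J_{L,S}^G = J_{K,S}`. -/
theorem exists_ideleMap_eq_of_fixed_sIdeles [IsGalois K L] (S : Set Nat.Primes) (b : Idele L)
    (hbS : b ∈ sIdeles L S) (hb : ∀ g : L ≃ₐ[K] L, g • b = b) :
    ∃ a : Idele K, a ∈ sIdeles K S ∧ ideleMap (algebraMap K L) a = b := by
  obtain ⟨a, ha⟩ := exists_ideleMap_eq_of_fixed K L b hb
  refine ⟨a, ?_, ha⟩
  rw [← ideleMap_mem_sIdeles_iff (algebraMap K L), ha]
  exact hbS

/-- Galois invariants of the `S`-units: `(O_{L,S}ˣ)^G = O_{K,S}ˣ`. -/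
theorem exists_map_eq_of_fixed_sUnits [IsGalois K L] (S : Set Nat.Primes) (y : Lˣ)
    (hyS : y ∈ sUnits L S) (hy : ∀ g : L ≃ₐ[K] L, g (y : L) = y) :
    ∃ x : Kˣ, x ∈ sUnits K S ∧ Units.map (algebraMap K L : K →* L) x = y := by
  obtain ⟨x, hx⟩ := (IsGalois.mem_range_algebraMap_iff_fixed (F := K) (E := L) (y : L)).2 hy
  have hx0 : x ≠ 0 := by
    rintro rfl
    rw [map_zero] at hx
    exact y.ne_zero hx.symm
  have hxy : Units.map (algebraMap K L : K →* L) (Units.mk0 x hx0) = y := by
    apply Units.ext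
    exact hx
  refine ⟨Units.mk0 x hx0, ?_, hxy⟩
  rw [← map_mem_sUnits_iff (algebraMap K L) S]
  change Units.map (algebraMap K L : K →* L) (Units.mk0 x hx0) ∈ sUnits L S
  rw [hxy]
  exact hyS

end Norm

end Fermat.Agent.Lib.CFT.Global
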